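import Fermat.Agent.Periods.HeckeQuot
import Fermat.Agent.Periods.IntegralStructure
import Fermat.Agent.Petersson.Reduced
import Fermat.Agent.Hecke.EigenChar
import Mathlib.RingTheory.TensorProduct.Maps

/-!
# Algebras seen through parabolic homomorphisms

An `R`-module `W` with maps `Ψ φ`, jointly injective and semilinear along the points
`φ : R →+* K`, into `parQuot (Gamma0 M) →+ K`: operators compatible with Hecke operators give a
map `heckeAlgebra M 2 S → End W`, and points separate the `R`-algebra generated by its image.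
-/

set_option autoImplicit false

noncomputable section

universe u

open CongruenceSubgroup ModularCurve.Period
open scoped MatrixGroups TensorProduct

namespace FLTA.RT

open FLTA.Periods

variable {M : ℕ} [NeZero M] {S : Set ℕ} {R : Type u} [CommRing R] {K : Type u} [Field K]
  {ι : Type*} (pt : ι → R →+* K)
  {W : Type u} [AddCommGroup W] [Module R W]

section generic

variable [CharZero K] [IsAlgClosed K] {H : Type} [CommRing H] [IsReduced H] [IsAddTorsionFree H]
  [Module.Finite ℤ H] {V : Type u} [AddCommGroup V] [Module K V]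

/-- Points separate an algebra of endomorphisms which at every point is a quotient of `K ⊗ H`. -/
theorem exists_point_ne_zero_of_rep (pre : H →+* Module.End K V) (Φ : ι → W →+ V)
    (hinj : ∀ x, (∀ φ, Φ φ x = 0) → x = 0) (hΦs : ∀ φ (r : R) x, Φ φ (r • x) = pt φ r • Φ φ x)
    (θ : H →+* Module.End R W) (hθ : ∀ t φ x, Φ φ (θ t x) = pre t (Φ φ x))
    (a : Algebra.adjoin R (Set.range θ)) (ha : a ≠ 0) :
    ∃ (i : ι) (ψ : Algebra.adjoin R (Set.range θ) →+* K),
      (∀ r, ψ (algebraMap R _ r) = pt i r) ∧ ψ a ≠ 0 := by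
  obtain ⟨φ, x₀, hx₀⟩ : ∃ φ x, Φ φ ((a : Module.End R W) x) ≠ 0 := by
    by_contra! h
    exact ha (Subtype.ext (LinearMap.ext fun x => hinj _ fun φ => h φ x))
  let ρ : K ⊗[ℤ] H →ₐ[K] Module.End K V :=
    Algebra.TensorProduct.lift (Algebra.ofId K _) ({ pre with commutes' := fun m => by simp } :
        H →ₐ[ℤ] Module.End K V)
      fun k _ => Algebra.commutes k _
  have hρ : ∀ (k : K) t, ρ (k ⊗ₜ t) = k • pre t := fun k t => by
    simp [ρ, Algebra.smul_def]
  let I : Ideal (K ⊗[ℤ] H) :=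
    { carrier := {c | ∀ x, ρ c (Φ φ x) = 0}
      zero_mem' := fun x => by simp
      add_mem' := fun {c d} hc hd x => by
        rw [map_add, LinearMap.add_apply, hc x, hd x, add_zero]
      smul_mem' := fun c d hd x => by
        rw [smul_eq_mul, map_mul, Module.End.mul_apply, hd x, map_zero] }
  have hrep : ∀ b : Algebra.adjoin R (Set.range θ), ∃ c,
      ∀ x, ρ c (Φ φ x) = Φ φ ((b : Module.End R W) x) := by
    rintro ⟨b, hb⟩
    induction hb using Algebra.adjoin_induction with
    | mem z hz =>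
      obtain ⟨t, rfl⟩ := hz
      exact ⟨(1 : K) ⊗ₜ t, fun x => by rw [hρ, one_smul]; exact (hθ t φ x).symm⟩
    | algebraMap r =>
      refine ⟨pt φ r ⊗ₜ (1 : H), fun x => ?_⟩
      rw [hρ, map_one]
      show pt φ r • Φ φ x = Φ φ (r • x)
      rw [hΦs]
    | add y z _ _ h h' =>
      obtain ⟨c, hc⟩ := h
      obtain ⟨d, hd⟩ := h'
      exact ⟨c + d, fun x => by
        rw [map_add, LinearMap.add_apply, hc, hd, ← map_add]; rfl⟩
    | mul y z _ _ h h' =>
      obtain ⟨c, hc⟩ := h
      obtain ⟨d, hd⟩ := h'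
      exact ⟨c * d, fun x => by rw [map_mul, Module.End.mul_apply, hd, hc]; rfl⟩
  choose cc hcc using hrep
  have hκ : ∀ (b : Algebra.adjoin R (Set.range θ)) c, (∀ x, ρ c (Φ φ x) = Φ φ ((b : Module.End R W) x)) →
      Ideal.Quotient.mk I (cc b) = Ideal.Quotient.mk I c := fun b c h =>
    Ideal.Quotient.eq.mpr fun x => by rw [map_sub, LinearMap.sub_apply, hcc, h, sub_self]
  let κ : Algebra.adjoin R (Set.range θ) →+* (K ⊗[ℤ] H) ⧸ I :=
    { toFun := fun b => Ideal.Quotient.mk I (cc b)
      map_one' := (hκ 1 1 fun x => by simp).trans (map_one _)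
      map_mul' := fun b b' => (hκ _ (cc b * cc b') fun x => by
        rw [map_mul, Module.End.mul_apply, hcc, hcc]; rfl).trans (map_mul _ _ _)
      map_zero' := (hκ 0 0 fun x => by simp).trans (map_zero _)
      map_add' := fun b b' => (hκ _ (cc b + cc b') fun x => by
        rw [map_add, LinearMap.add_apply, hcc, hcc, ← map_add]; rfl).trans (map_add _ _ _) }
  have hne : κ a ≠ 0 := fun h => hx₀ (by
    rw [← hcc]; exact Ideal.Quotient.eq_zero_iff_mem.mp h x₀)
  obtain ⟨π, hπ⟩ := Petersson.exists_point_ne_zero (O := K) (Ideal.Quotient.mkₐ K I)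
    (Ideal.Quotient.mkₐ_surjective K I) K Function.injective_id (x := κ a) hne
  refine ⟨φ, π.toRingHom.comp κ, fun r => ?_, hπ⟩
  show π (Ideal.Quotient.mk I (cc (algebraMap R _ r))) = _
  rw [hκ _ (pt φ r ⊗ₜ (1 : H)) fun x => by rw [hρ, map_one]; exact (hΦs φ r x).symm]
  exact π.commutes (pt φ r)

end generic

/-- The inclusion into the full Hecke algebra. -/
def toFull (M : ℕ) [NeZero M] (S : Set ℕ) : CuspForm.heckeAlgebra M 2 S →+* fullHecke M :=
  (Subalgebra.inclusion (CuspForm.heckeAlgebra_mono (Set.empty_subset S))).toRingHom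

/-- The Hecke algebra acting on homomorphisms of the parabolic quotient. -/
def precompHecke (M : ℕ) [NeZero M] (S : Set ℕ) (K : Type u) [Field K] :
    CuspForm.heckeAlgebra M 2 S →+* Module.End K (parQuot (Gamma0 M) →+ K) where
  toFun t :=
    { toFun := fun u => u.comp (heckeQuot M (toFull M S t)).toAddMonoidHom
      map_add' := fun _ _ => rfl
      map_smul' := fun _ _ => rfl }
  map_one' := LinearMap.ext fun u => AddMonoidHom.ext fun x => by simp
  map_mul' t t' := LinearMap.ext fun u => AddMonoidHom.ext fun x => by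
    rw [mul_comm t t']
    simp
  map_zero' := LinearMap.ext fun u => AddMonoidHom.ext fun x => by simp
  map_add' t t' := LinearMap.ext fun u => AddMonoidHom.ext fun x => by simp

@[simp] theorem precompHecke_apply (t : CuspForm.heckeAlgebra M 2 S)
    (u : parQuot (Gamma0 M) →+ K) :
    precompHecke M S K t u = u.comp (heckeQuot M (toFull M S t)).toAddMonoidHom := rfl

/-- `b` is the action of `t`, as seen by the parabolic homomorphisms `Ψ φ`. -/
structure ActsAs (Ψ : ι → W →+ (parQuot (Gamma0 M) →+ K))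
    (t : CuspForm.heckeAlgebra M 2 S) (b : Module.End R W) : Prop where
  apply_eq : ∀ φ x, Ψ φ (b x) = precompHecke M S K t (Ψ φ x)

variable {Ψ : ι → W →+ (parQuot (Gamma0 M) →+ K)}
  {t t' : CuspForm.heckeAlgebra M 2 S} {b b' : Module.End R W}

theorem ActsAs.add (hb : ActsAs Ψ t b) (hb' : ActsAs Ψ t' b') :
    ActsAs Ψ (t + t') (b + b') := ⟨fun φ x => by
  rw [LinearMap.add_apply, (Ψ φ).map_add, hb.apply_eq, hb'.apply_eq,
    (precompHecke M S K).map_add, LinearMap.add_apply]⟩

theorem ActsAs.mul (hb : ActsAs Ψ t b) (hb' : ActsAs Ψ t' b') :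
    ActsAs Ψ (t * t') (b * b') := ⟨fun φ x => by
  rw [Module.End.mul_apply, hb.apply_eq, hb'.apply_eq, (precompHecke M S K).map_mul,
    Module.End.mul_apply]⟩

theorem precompHecke_algebraMap (m : ℤ) :
    precompHecke M S K (algebraMap ℤ (CuspForm.heckeAlgebra M 2 S) m)
      = (m : Module.End K (parQuot (Gamma0 M) →+ K)) :=
  RingHom.congr_fun (RingHom.ext_int
    ((precompHecke M S K).comp (algebraMap ℤ (CuspForm.heckeAlgebra M 2 S)))
    (Int.castRingHom (Module.End K (parQuot (Gamma0 M) →+ K)))) m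

theorem actsAs_intCast (m : ℤ) :
    ActsAs Ψ ((algebraMap ℤ (CuspForm.heckeAlgebra M 2 S)) m)
      (m : Module.End R W) := ⟨fun φ x => by
  rw [precompHecke_algebraMap, Module.End.intCast_apply, Module.End.intCast_apply, map_zsmul]⟩

variable (Ψ) (hinj : ∀ x, (∀ φ, Ψ φ x = 0) → x = 0)

include hinj in
theorem ActsAs.unique (hb : ActsAs Ψ t b) (hb' : ActsAs Ψ t b') : b = b' :=
  LinearMap.ext fun x => sub_eq_zero.mp (hinj _ fun φ => by
    rw [(Ψ φ).map_sub, hb.apply_eq, hb'.apply_eq, sub_self])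

variable (hS : ∀ q : ℕ, q.Prime → q ∣ M → q ∈ S)

include hinj hS in
/-- Compatible operators give a homomorphism from the Hecke algebra. -/
theorem exists_ringHom_of_actsAs
    (hgen : ∀ (l : ℕ) (hl : l.Prime) (hlM : ¬ l ∣ M) (hlS : l ∉ S),
      ∃ b : Module.End R W, ActsAs Ψ (CuspForm.heckeAlgebra.T hl hlM hlS) b) :
    ∃ θ : CuspForm.heckeAlgebra M 2 S →+* Module.End R W, ∀ t, ActsAs Ψ t (θ t) := by
  have hex : ∀ t : CuspForm.heckeAlgebra M 2 S, ∃ b : Module.End R W, ActsAs Ψ t b := fun t => by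
    refine Algebra.adjoin_induction (p := fun y hy => ∃ b : Module.End R W,
      ActsAs Ψ (⟨y, hy⟩ : CuspForm.heckeAlgebra M 2 S) b) ?_ ?_ ?_ ?_ t.2
    · rintro x (⟨l, hl, hlM, hlS, rfl⟩ | ⟨q, hqM, hq, hqS, rfl⟩)
      · exact hgen l hl hlM hlS
      · exact absurd (hS q hq hqM) hqS
    · exact fun m => ⟨(m : Module.End R W), actsAs_intCast m⟩
    · exact fun x y hx hy ⟨b, hb⟩ ⟨b', hb'⟩ => ⟨b + b', hb.add hb'⟩
    · exact fun x y hx hy ⟨b, hb⟩ ⟨b', hb'⟩ => ⟨b * b', hb.mul hb'⟩
  choose θ hθ using hex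
  exact ⟨
    { toFun := θ
      map_one' := (hθ 1).unique Ψ hinj ⟨fun φ x => by
        rw [(precompHecke M S K).map_one, Module.End.one_apply, Module.End.one_apply]⟩
      map_mul' := fun t t' => (hθ _).unique Ψ hinj ((hθ t).mul (hθ t'))
      map_zero' := (hθ 0).unique Ψ hinj ⟨fun φ x => by
        rw [(precompHecke M S K).map_zero, LinearMap.zero_apply, LinearMap.zero_apply,
          (Ψ φ).map_zero]⟩
      map_add' := fun t t' => (hθ _).unique Ψ hinj ((hθ t).add (hθ t')) }, hθ⟩

variable [CharZero K] [IsAlgClosed K]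

include hinj hS in
/-- Points separate the generated `R`-algebra. -/
theorem exists_point_ne_zero_of_actsAs (hΨs : ∀ φ (r : R) x, Ψ φ (r • x) = pt φ r • Ψ φ x)
    (θ : CuspForm.heckeAlgebra M 2 S →+* Module.End R W) (hθ : ∀ t, ActsAs Ψ t (θ t))
    (a : Algebra.adjoin R (Set.range θ)) (ha : a ≠ 0) :
    ∃ (i : ι) (ψ : Algebra.adjoin R (Set.range θ) →+* K),
      (∀ r, ψ (algebraMap R _ r) = pt i r) ∧ ψ a ≠ 0 := by
  have : Module.Finite ℤ (CuspForm.heckeAlgebra M 2 S) :=
    FLTA.Hecke.heckeAlgebra_finite_of_integralStructure (by norm_num)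
      (FLTA.Periods.hasIntegralStructure_two M)
  have : IsReduced (CuspForm.heckeAlgebra M 2 S) := Petersson.heckeAlgebra_isReduced M S hS
  exact exists_point_ne_zero_of_rep pt (precompHecke M S K) Ψ hinj hΨs θ
    (fun t => (hθ t).apply_eq) a ha

end FLTA.RT
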