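import Fermat.Agent.RT.CoeffPoint
import Fermat.Agent.RT.CoeffPointsAlg

/-!
# The twisted Hecke algebra is a quotient of a classical one

`exists_ringHom_eImage`: the normalised operators `(∏ ε q (l)) • T_l` on `eImage e R` come from
`heckeAlgebra (L ∏ Q₀) 2 S`.  `exists_point_ne_zero_eImage`: points into `K` separate the
`R`-algebra they generate, so that algebra is reduced and each of its points is a point of
`heckeAlgebra (L ∏ Q₀) 2 S`.
-/

set_option autoImplicit false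

noncomputable section

universe u

open CongruenceSubgroup ModularCurve.Period
open scoped MatrixGroups TensorProduct

namespace FLTA.RT

open FLTA.Periods

variable {M : ℕ} [NeZero M] {S : Set ℕ} {R : Type u} [CommRing R] {K : Type u} [Field K]

/-- The coefficient ring acting on a field through a point. -/
@[nolint unusedArguments]
def PtField (_φ : R →+* K) : Type u := K

instance (φ : R →+* K) : AddCommGroup (PtField φ) := inferInstanceAs (AddCommGroup K)

instance (φ : R →+* K) : Module R (PtField φ) := Module.compHom K φ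

/-- The diagonal map to all points. -/
def ptDiag {ι : Type u} (pt : ι → R →+* K) : R →ₗ[R] (∀ i : ι, PtField (pt i)) where
  toFun r i := pt i r
  map_add' r s := funext fun i => map_add (pt i) r s
  map_smul' r s := funext fun i => map_mul (pt i) r s

variable {L : ℕ} [NeZero L]

/-- Classes vanishing at all points vanish. -/
theorem eq_zero_of_ptMap {χ : (ZMod L)ˣ →* Rˣ} {e : NatEnd (gamChar χ)}
    (hlift : HasLifts (gamChar χ)) (hidem : EqAtRing (e * e) e) (hkill : KillsObstruction e)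
    {ι : Type u} (pt : ι → R →+* K) (hsep : ∀ r : R, (∀ i, pt i r = 0) → r = 0) (x : eImage e R)
    (h : ∀ i, ptMap (pt i) χ (x : tH1 (gamChar χ) R) = 0) : x = 0 := by
  refine Subtype.ext (eImage_injective hlift hidem hkill (ptDiag pt)
    (fun a b hab => sub_eq_zero.mp (hsep _ fun φ => ?_)) x.2 ?_)
  · rw [map_sub, sub_eq_zero]
    exact congrFun hab φ
  · obtain ⟨f, hf⟩ := tClass_surjective (gamChar χ) (x : tH1 (gamChar χ) R)
    have hv : ∀ i, ∃ v : K,
        tDelta (gamChar (charMap (pt i) χ)) K v = ptCocycles (pt i) χ f := fun i =>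
      (tClass_eq_zero_iff _).mp (by rw [← ptMap_class, hf, h])
    choose v hv using hv
    rw [← hf, tH1Map_class, tClass_eq_zero_iff]
    refine ⟨v, Subtype.ext (funext fun γ => funext fun φ => ?_)⟩
    have h1 := congrFun (congrArg Subtype.val (hv φ)) γ
    rw [tDelta_apply, coe_gamChar_charMap] at h1
    exact h1

section main

variable [CharZero K] {χ : (ZMod L)ˣ →* Rˣ} {e : NatEnd (gamChar χ)} (Q₀ : Finset ℕ)
  (ε : ∀ q : ℕ, (ZMod q)ˣ →* Rˣ) (hQ : ∀ q ∈ Q₀, q.Prime ∧ q ∣ L ∧ ¬ q * q ∣ L)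
  (hodd : ∀ q ∈ Q₀, ∀ u, ∃ n, Odd n ∧ ε q u ^ n = 1) (hχ : χ = sigProd L Q₀ ε)
  (hM : M = L * ∏ q ∈ Q₀, q) (hS : ∀ q : ℕ, q.Prime → q ∣ L → q ∈ S)
  {l₀ : ℕ} (hl₀ : l₀.Prime) (hl₀M : ¬ l₀ ∣ M) (hl₀1 : (l₀ : ZMod M) = 1)
  (hfac : ∀ x, ∃ y, e.app R x = (natHecke χ l₀).app R y - ((l₀ : R) + 1) • y)
  (hlift : HasLifts (gamChar χ)) (hidem : EqAtRing (e * e) e) (hkill : KillsObstruction e)
  {ι : Type u} (pt : ι → R →+* K) (hsep : ∀ r : R, (∀ i, pt i r = 0) → r = 0)
  (hcomm : ∀ l : ℕ, l.Prime → l ∉ S → ∀ x,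
    e.app R ((natHecke χ l).app R x) = (natHecke χ l).app R (e.app R x))

include hQ hM hS in
theorem prime_mem_of_dvd_level {q : ℕ} (hq : q.Prime) (h : q ∣ M) : q ∈ S := by
  rw [hM] at h
  refine (hq.dvd_mul.mp h).elim (hS q hq) fun h' => ?_
  obtain ⟨r, hr, hqr⟩ := (hq.prime.dvd_finsetProd_iff fun r : ℕ => r).mp h'
  rw [(Nat.prime_dvd_prime_iff_eq hq (hQ r hr).1).mp hqr]
  exact hS r (hQ r hr).1 (hQ r hr).2.1

include hQ hodd hχ hM hS hl₀ hl₀M hl₀1 hfac hlift hidem hkill hsep hcomm in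
/-- The normalised operators come from `heckeAlgebra M 2 S`; the points of the `R`-algebra they
generate separate its elements, so it is reduced. -/
theorem exists_ringHom_eImage [IsAlgClosed K] :
    ∃ θ : CuspForm.heckeAlgebra M 2 S →+* Module.End R (eImage e R),
      (∀ (l : ℕ) (hl : l.Prime) (hlM : ¬ l ∣ M) (hlS : l ∉ S) (x : eImage e R),
        (θ (CuspForm.heckeAlgebra.T hl hlM hlS) x : tH1 (gamChar χ) R)
          = (kap Q₀ ε l : R) • (natHecke χ l).app R (x : tH1 (gamChar χ) R)) ∧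
      (∀ a : Algebra.adjoin R (Set.range θ), a ≠ 0 →
        ∃ (i : ι) (ψ : Algebra.adjoin R (Set.range θ) →+* K),
          (∀ r, ψ (algebraMap R _ r) = pt i r) ∧ ψ a ≠ 0) ∧
      IsReduced (Algebra.adjoin R (Set.range θ)) := by
  choose Ψ hΨs hΨ0 hΨT using fun i =>
    exists_parPoint Q₀ ε hQ hodd hχ hM hl₀ hl₀M hl₀1 hfac (pt i)
  have hinj : ∀ x, (∀ φ, Ψ φ x = 0) → x = 0 := fun x hx =>
    eq_zero_of_ptMap hlift hidem hkill pt hsep x fun φ => hΨ0 φ x (hx φ)
  have hS' : ∀ q : ℕ, q.Prime → q ∣ M → q ∈ S := fun q hq h =>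
    prime_mem_of_dvd_level Q₀ hQ hM hS hq h
  have hres : ∀ (l : ℕ), l.Prime → l ∉ S →
      ∀ x ∈ eImage e R, ((kap Q₀ ε l : R) • (natHecke χ l).app R) x ∈ eImage e R := by
    rintro l hl hlS _ ⟨z, rfl⟩
    exact ⟨(kap Q₀ ε l : R) • (natHecke χ l).app R z, by
      rw [LinearMap.smul_apply, (e.app R).map_smul, hcomm l hl hlS]⟩
  have hgen : ∀ (l : ℕ) (hl : l.Prime) (hlM : ¬ l ∣ M) (hlS : l ∉ S),
      ActsAs Ψ (CuspForm.heckeAlgebra.T hl hlM hlS)
        (LinearMap.restrict (p := eImage e R) (q := eImage e R)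
          ((kap Q₀ ε l : R) • (natHecke χ l).app R) (hres l hl hlS)) :=
    fun l hl hlM hlS => ⟨fun φ x => hΨT φ l hl hlM x _ rfl⟩
  obtain ⟨θ, hθ⟩ := exists_ringHom_of_actsAs Ψ hinj hS' fun l hl hlM hlS => ⟨_, hgen l hl hlM hlS⟩
  refine ⟨θ, fun l hl hlM hlS x => ?_,
    exists_point_ne_zero_of_actsAs pt Ψ hinj hS' hΨs θ hθ, ⟨fun a ha => ?_⟩⟩
  · rw [(hθ _).unique Ψ hinj (hgen l hl hlM hlS)]
    rfl
  · by_contra hne
    obtain ⟨i, ψ, -, hψ⟩ := exists_point_ne_zero_of_actsAs pt Ψ hinj hS' hΨs θ hθ a hne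
    exact hψ (IsNilpotent.eq_zero (ha.map ψ))

end main

end FLTA.RT
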