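import Fermat.Agent.LevelRaising.AssemblyAtkinLehner
import Fermat.Agent.LevelRaising.IharaScale

/-!
# `T_ℓ` on the boundary for `ℓ ≡ 1 mod N`

On parabolic elements `T_ℓ φ = (ℓ + 1) φ` for every homomorphism `φ` of `Γ₀(N)` and every prime
`ℓ ≡ 1 mod N`; hence a non-Eisenstein local factor of the space of homomorphisms is parabolic.
-/

set_option autoImplicit false

noncomputable section

namespace FLTA.RT

open CongruenceSubgroup ModularCurve.Period FLTA.Periods FLTA.LevelRaising UpperHalfPlane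
open scoped MatrixGroups OnePoint

variable {N ℓ : ℕ} [hℓ : Fact ℓ.Prime]

/-- An integral matrix of determinant `ℓ` with lower left entry divisible by `N` lies in the
coset of one of the representatives of `T_ℓ`. -/
theorem exists_tMat_of_det (hℓN : ¬ ℓ ∣ N) {a b c d : ℤ} (hdet : a * d - b * c = ℓ)
    (hc : (N : ℤ) ∣ c) :
    ∃ (i : OnePoint (ZMod ℓ)) (δ : Gamma0 N),
      (⟨a, b, c, d⟩ : QMat) = QMat.ofSL (δ : SL(2, ℤ)) * tMat ℓ i := by
  haveI : NeZero ℓ := ⟨hℓ.out.ne_zero⟩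
  have hℓ0 : (ℓ : ℤ) ≠ 0 := by exact_mod_cast hℓ.out.ne_zero
  by_cases h : (a : ZMod ℓ) = 0 ∧ (c : ZMod ℓ) = 0
  · obtain ⟨a', ha⟩ := (ZMod.intCast_zmod_eq_zero_iff_dvd _ _).mp h.1
    obtain ⟨c', hc'⟩ := (ZMod.intCast_zmod_eq_zero_iff_dvd _ _).mp h.2
    subst ha hc'
    have hdet' : a' * d - b * c' = 1 := by
      refine mul_left_cancel₀ hℓ0 ?_
      linear_combination hdet
    have hcop : IsCoprime (N : ℤ) (ℓ : ℤ) := Int.isCoprime_iff_nat_coprime.mpr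
      (by simpa using (hℓ.out.coprime_iff_not_dvd.mpr hℓN).symm)
    exact ⟨∞, ⟨⟨!![a', b; c', d], by rw [Matrix.det_fin_two_of]; exact hdet'⟩,
      mem_Gamma0_of_dvd (by simpa using hcop.dvd_of_dvd_mul_left hc)⟩, by
        simp [tMat_infty, QMat.mul_def, QMat.ofSL, mul_comm]⟩
  · have hz : (a : ZMod ℓ) * d - b * c = 0 := by
      have := congrArg (Int.cast : ℤ → ZMod ℓ) hdet
      push_cast at this
      simpa using this
    obtain ⟨j, hj1, hj2⟩ : ∃ j : ZMod ℓ, (b : ZMod ℓ) = a * j ∧ (d : ZMod ℓ) = c * j := by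
      by_cases ha : (a : ZMod ℓ) = 0
      · have hc0 : (c : ZMod ℓ) ≠ 0 := fun hc0 => h ⟨ha, hc0⟩
        refine ⟨d / c, ?_, by field_simp⟩
        have hb : (b : ZMod ℓ) * c = 0 := by simpa [ha] using hz
        simp [ha, (mul_eq_zero.mp hb).resolve_right hc0]
      · refine ⟨b / a, by field_simp, ?_⟩
        field_simp
        linear_combination hz
    obtain ⟨u, hu⟩ : (ℓ : ℤ) ∣ b - a * (j.val : ℤ) := by
      rw [← ZMod.intCast_zmod_eq_zero_iff_dvd]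
      simp [hj1]
    obtain ⟨w, hw⟩ : (ℓ : ℤ) ∣ d - c * (j.val : ℤ) := by
      rw [← ZMod.intCast_zmod_eq_zero_iff_dvd]
      simp [hj2]
    have hdet' : a * w - u * c = 1 := by
      refine mul_left_cancel₀ hℓ0 ?_
      linear_combination hdet + c * hu - a * hw
    refine ⟨(j : OnePoint (ZMod ℓ)), ⟨⟨!![a, u; c, w], by
      rw [Matrix.det_fin_two_of]; exact hdet'⟩, mem_Gamma0_of_dvd (by simpa using hc)⟩, ?_⟩
    have hb' : b = a * (j.val : ℤ) + ℓ * u := by linear_combination hu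
    have hd' : d = c * (j.val : ℤ) + ℓ * w := by linear_combination hw
    subst hb' hd'
    simp [tMat_coe, QMat.mul_def, QMat.ofSL, -ZMod.natCast_val]
    exact ⟨mul_comm _ _, mul_comm _ _⟩

/-- The conjugated representatives of `T_ℓ`. -/
def bMat (N ℓ : ℕ) (x : OnePoint (ZMod ℓ)) : QMat :=
  x.elim ⟨ℓ, 0, 0, 1⟩ fun j => ⟨1, (N : ℚ) * (j.val : ℕ), 0, ℓ⟩

/-- A translation. -/
def trMat (t : ℤ) : QMat := ⟨1, t, 0, 1⟩

variable (hℓN : ¬ ℓ ∣ N)

include hℓN in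
/-- Right multiplication by `T ^ h` on the conjugated representatives. -/
theorem exists_bMat_shift (hℓ1 : (ℓ : ZMod N) = 1) (h : ℤ) :
    ∃ (p : Equiv.Perm (OnePoint (ZMod ℓ))) (t : OnePoint (ZMod ℓ) → ℤ),
      (∀ x, bMat N ℓ x * trMat h = trMat (t x) * bMat N ℓ (p x)) ∧
      (∀ x, (N : ℤ) ∣ t x - h) ∧
      haveI : NeZero ℓ := ⟨hℓ.out.ne_zero⟩
      ∑ x, t x = (ℓ + 1) * h := by
  haveI : NeZero ℓ := ⟨hℓ.out.ne_zero⟩
  have hN0 : (N : ZMod ℓ) ≠ 0 := fun h0 => hℓN ((ZMod.natCast_eq_zero_iff _ _).mp h0)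
  set e : ZMod ℓ := (h : ZMod ℓ) / N
  set p₀ : Equiv.Perm (ZMod ℓ) := Equiv.addRight e
  have hdvd : ∀ j : ZMod ℓ, ∃ t : ℤ, (N : ℤ) * j.val + h = N * ((p₀ j).val : ℤ) + ℓ * t := by
    intro j
    obtain ⟨t, ht⟩ : (ℓ : ℤ) ∣ (N : ℤ) * j.val + h - N * ((p₀ j).val : ℤ) := by
      rw [← ZMod.intCast_zmod_eq_zero_iff_dvd]
      simp [p₀, e]
      field_simp
      ring
    exact ⟨t, by linear_combination ht⟩
  choose t₀ ht₀ using hdvd
  have hℓ1' : (N : ℤ) ∣ (ℓ : ℤ) - 1 := by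
    rw [← ZMod.intCast_zmod_eq_zero_iff_dvd]
    simp [hℓ1]
  obtain ⟨m, hm⟩ := hℓ1'
  refine ⟨Equiv.optionCongr p₀, fun x => x.elim ((ℓ : ℤ) * h) t₀, fun x => ?_, fun x => ?_, ?_⟩
  · induction x using OnePoint.rec with
    | infty =>
      show bMat N ℓ ∞ * trMat h = trMat ((ℓ : ℤ) * h) * bMat N ℓ ∞
      simp [bMat, trMat, QMat.mul_def]
    | coe j =>
      show bMat N ℓ (j : OnePoint (ZMod ℓ)) * trMat h
        = trMat (t₀ j) * bMat N ℓ ((p₀ j : ZMod ℓ) : OnePoint (ZMod ℓ))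
      have := congrArg (Int.cast : ℤ → ℚ) (ht₀ j)
      push_cast [-ZMod.natCast_val] at this
      simp [bMat, trMat, QMat.mul_def, -ZMod.natCast_val]
      linear_combination this
  · induction x using OnePoint.rec with
    | infty => exact ⟨m * h, by show (ℓ : ℤ) * h - h = _; linear_combination h * hm⟩
    | coe j =>
      refine ⟨(j.val : ℤ) - (p₀ j).val - m * t₀ j, ?_⟩
      show t₀ j - h = _
      linear_combination -(ht₀ j) + (- t₀ j) * hm
  · have hsum := Finset.sum_congr (rfl : (Finset.univ : Finset (ZMod ℓ)) = _) fun j _ => ht₀ j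
    simp only [Finset.sum_add_distrib, ← Finset.mul_sum, Finset.sum_const, Finset.card_univ,
      ZMod.card, nsmul_eq_mul, Equiv.sum_comp p₀ fun j : ZMod ℓ => (j.val : ℤ)] at hsum
    have hℓ0 : (ℓ : ℤ) ≠ 0 := by exact_mod_cast hℓ.out.ne_zero
    have h2 : ∑ j, t₀ j = h := mul_left_cancel₀ hℓ0 (by linear_combination -hsum)
    refine (Fintype.sum_option (fun x : OnePoint (ZMod ℓ) => x.elim ((ℓ : ℤ) * h) t₀)).trans ?_
    show (ℓ : ℤ) * h + ∑ j, t₀ j = _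
    rw [h2]
    ring

variable {A : Type*} [AddCommGroup A] [NeZero N]

omit [NeZero N] in
/-- A conjugate of a translation in `Γ₀(N)`. -/
theorem conj_trMat_mem (σ : SL(2, ℤ)) (t : ℤ) (ht : (N : ℤ) ∣ t * σ 1 0 ^ 2) :
    σ * ModularGroup.T ^ t * σ⁻¹ ∈ Gamma0 N := by
  refine mem_Gamma0_of_dvd ?_
  have : (σ * ModularGroup.T ^ t * σ⁻¹ : SL(2, ℤ)) 1 0 = -(t * σ 1 0 ^ 2) := by
    simp [Matrix.mul_apply, Fin.sum_univ_two, ModularGroup.coe_T_zpow, Matrix.adjugate_fin_two]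
    ring
  rw [this]
  exact ht.neg_right

include hℓN in
/-- **`T_ℓ φ = (ℓ + 1) φ` on conjugates of translations.** -/
theorem heckeHom_conj_T (𝕜 : Type*) [Semiring 𝕜] [Module 𝕜 A] (hℓ1 : (ℓ : ZMod N) = 1)
    (φ : Additive (Gamma0 N) →+ A) (σ : SL(2, ℤ)) (h : ℤ) (γ : Gamma0 N)
    (hγ : (γ : SL(2, ℤ)) = σ * ModularGroup.T ^ h * σ⁻¹) :
    heckeHom 𝕜 N ℓ φ (Additive.ofMul γ) = (ℓ + 1) • φ (Additive.ofMul γ) := by
  classical
  haveI : NeZero ℓ := ⟨hℓ.out.ne_zero⟩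
  obtain ⟨p, t, hpt, htdvd, htsum⟩ := exists_bMat_shift hℓN hℓ1 h
  set s : QMat := QMat.ofSL σ with hs
  have hmem : (N : ℤ) ∣ h * σ 1 0 ^ 2 := by
    have hg := dvd_of_mem_Gamma0 γ.2
    have : (γ : SL(2, ℤ)) 1 0 = -(h * σ 1 0 ^ 2) := by
      rw [hγ]
      simp [Matrix.mul_apply, Fin.sum_univ_two, ModularGroup.coe_T_zpow, Matrix.adjugate_fin_two]
      ring
    rw [this] at hg
    simpa using hg
  have htr : ∀ x, (N : ℤ) ∣ t x * σ 1 0 ^ 2 := fun x => by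
    have := dvd_add (dvd_mul_of_dvd_left (htdvd x) (σ 1 0 ^ 2)) hmem
    rwa [← add_mul, sub_add_cancel] at this
  let u : OnePoint (ZMod ℓ) → Gamma0 N := fun x => ⟨_, conj_trMat_mem σ (t x) (htr x)⟩
  have hofT : ∀ m : ℤ, QMat.ofSL (ModularGroup.T ^ m : SL(2, ℤ)) = trMat m := fun m => by
    simp [QMat.ofSL, trMat, ModularGroup.coe_T_zpow]
  -- the new representatives
  have hrep : ∀ x, ∃ (i : OnePoint (ZMod ℓ)) (δ : Gamma0 N),
      s * bMat N ℓ x * s.adj = QMat.ofSL (δ : SL(2, ℤ)) * tMat ℓ i := by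
    intro x
    obtain ⟨m, hm⟩ : (N : ℤ) ∣ (ℓ : ℤ) - 1 := by
      rw [← ZMod.intCast_zmod_eq_zero_iff_dvd]
      simp [hℓ1]
    have hdetσ := σ.det_coe
    rw [Matrix.det_fin_two] at hdetσ
    induction x using OnePoint.rec with
    | infty =>
      obtain ⟨i, δ, hδ⟩ := exists_tMat_of_det hℓN (a := ℓ * σ 0 0 * σ 1 1 - σ 0 1 * σ 1 0)
        (b := -(ℓ * σ 0 0 * σ 0 1) + σ 0 1 * σ 0 0) (c := ℓ * σ 1 0 * σ 1 1 - σ 1 1 * σ 1 0)
        (d := -(ℓ * σ 1 0 * σ 0 1) + σ 1 1 * σ 0 0)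
        (by linear_combination (ℓ : ℤ) * (σ 0 0 * σ 1 1 - σ 0 1 * σ 1 0 + 1) * hdetσ)
        ⟨m * σ 1 0 * σ 1 1, by linear_combination σ 1 0 * σ 1 1 * hm⟩
      refine ⟨i, δ, hδ ▸ ?_⟩
      show s * (⟨ℓ, 0, 0, 1⟩ : QMat) * s.adj = _
      simp only [hs, QMat.mul_def, QMat.adj, QMat.ofSL, QMat.mk.injEq]
      push_cast
      refine ⟨?_, ?_, ?_, ?_⟩ <;> ring
    | coe j =>
      obtain ⟨i, δ, hδ⟩ := exists_tMat_of_det hℓN
        (a := σ 0 0 * σ 1 1 - (σ 0 0 * (N * j.val) + σ 0 1 * ℓ) * σ 1 0)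
        (b := -(σ 0 0 * σ 0 1) + (σ 0 0 * (N * j.val) + σ 0 1 * ℓ) * σ 0 0)
        (c := σ 1 0 * σ 1 1 - (σ 1 0 * (N * j.val) + σ 1 1 * ℓ) * σ 1 0)
        (d := -(σ 1 0 * σ 0 1) + (σ 1 0 * (N * j.val) + σ 1 1 * ℓ) * σ 0 0)
        (by linear_combination (ℓ : ℤ) * (σ 0 0 * σ 1 1 - σ 0 1 * σ 1 0 + 1) * hdetσ)
        ⟨-(σ 1 0 * (j.val : ℤ) * σ 1 0) - m * σ 1 1 * σ 1 0, by
          linear_combination -(σ 1 1 * σ 1 0) * hm⟩
      refine ⟨i, δ, hδ ▸ ?_⟩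
      show s * (⟨1, (N : ℚ) * (j.val : ℕ), 0, ℓ⟩ : QMat) * s.adj = _
      simp only [hs, QMat.mul_def, QMat.adj, QMat.ofSL, QMat.mk.injEq]
      push_cast [-ZMod.natCast_val]
      refine ⟨?_, ?_, ?_, ?_⟩ <;> ring
  choose i d hd using hrep
  -- `i` is injective
  have hadj : s.adj * s = 1 := by
    rw [QMat.adj_mul]; simp [hs, QMat.one_def]
  have hinj : Function.Injective i := by
    intro x y hxy
    by_contra hne
    have e : QMat.ofSL ((σ⁻¹ * ((d x : SL(2, ℤ)) * (d y : SL(2, ℤ))⁻¹) * σ : SL(2, ℤ)))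
        * bMat N ℓ y = bMat N ℓ x := by
      refine qmat_mul_right_cancel (h := s.adj) (by simp [hs]) (qmat_mul_left_cancel (h := s)
        (by simp [hs]) ?_)
      rw [← qmat_mul_assoc s (bMat N ℓ x), hd x, hxy, ← qmat_mul_assoc s (_ * _) s.adj,
        ← qmat_mul_assoc s, hs, ← QMat.ofSL_mul]
      have e1 : σ * (σ⁻¹ * ((d x : SL(2, ℤ)) * (d y : SL(2, ℤ))⁻¹) * σ)
          = (d x : SL(2, ℤ)) * (d y : SL(2, ℤ))⁻¹ * σ := by group
      rw [e1, QMat.ofSL_mul, qmat_mul_assoc (QMat.ofSL _), qmat_mul_assoc (QMat.ofSL _), ← hs,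
        hd y, ← qmat_mul_assoc, ← QMat.ofSL_mul, inv_mul_cancel_right]
    set η : SL(2, ℤ) := σ⁻¹ * ((d x : SL(2, ℤ)) * (d y : SL(2, ℤ))⁻¹) * σ
    have hℓ0 : (ℓ : ℚ) ≠ 0 := by exact_mod_cast hℓ.out.ne_zero
    induction x using OnePoint.rec with
    | infty =>
      induction y using OnePoint.rec with
      | infty => exact hne rfl
      | coe j =>
        have hc' := congrArg QMat.c e
        have hd' := congrArg QMat.d e
        simp [bMat, QMat.mul_def, QMat.ofSL, -ZMod.natCast_val] at hc' hd'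
        rw [hc'] at hd'
        simp at hd'
        have : (η 1 1) * (ℓ : ℤ) = 1 := by exact_mod_cast hd'
        exact hℓ.out.one_lt.ne' (Nat.dvd_one.mp (by exact_mod_cast Dvd.intro_left _ this))
    | coe j' =>
      induction y using OnePoint.rec with
      | infty =>
        have ha := congrArg QMat.a e
        simp [bMat, QMat.mul_def, QMat.ofSL] at ha
        have : (η 0 0) * (ℓ : ℤ) = 1 := by exact_mod_cast ha
        exact hℓ.out.one_lt.ne' (Nat.dvd_one.mp (by exact_mod_cast Dvd.intro_left _ this))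
      | coe j =>
        have ha := congrArg QMat.a e
        have hb := congrArg QMat.b e
        simp [bMat, QMat.mul_def, QMat.ofSL, -ZMod.natCast_val] at ha hb
        rw [ha] at hb
        have hb' : (N : ℤ) * (j.val : ℤ) + η 0 1 * ℓ = N * (j'.val : ℤ) := by
          have : ((N : ℚ) * (j.val : ℕ) + (η 0 1 : ℚ) * ℓ) = N * (j'.val : ℕ) := by
            linear_combination hb
          exact_mod_cast this
        have := congrArg (Int.cast : ℤ → ZMod ℓ) hb'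
        simp at this
        have hN0 : (N : ZMod ℓ) ≠ 0 := fun h0 => hℓN ((ZMod.natCast_eq_zero_iff _ _).mp h0)
        exact hne (congrArg _ (this.resolve_right hN0).symm)
  -- the cocycle
  have hcocyc : ∀ x, (repsT hℓN).perm γ (i x) = i (p x) ∧
      (repsT hℓN).cocyc γ (i x) = (d x)⁻¹ * u x * d (p x) := by
    intro x
    have e1 : tMat ℓ (i x) * QMat.ofSL (γ : SL(2, ℤ)) =
        QMat.ofSL (((d x)⁻¹ * u x * d (p x) : Gamma0 N) : SL(2, ℤ)) * tMat ℓ (i (p x)) := by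
      refine qmat_mul_left_cancel (h := QMat.ofSL (d x : SL(2, ℤ))) (by simp) ?_
      rw [← qmat_mul_assoc, ← hd x, ← qmat_mul_assoc _ (QMat.ofSL _) (tMat _ _), ← QMat.ofSL_mul]
      have e2 : (d x : SL(2, ℤ)) * (((d x)⁻¹ * u x * d (p x) : Gamma0 N) : SL(2, ℤ))
          = σ * ModularGroup.T ^ t x * σ⁻¹ * (d (p x) : SL(2, ℤ)) := by
        simp [u, mul_assoc]
      rw [e2, QMat.ofSL_mul (σ * ModularGroup.T ^ t x * σ⁻¹), qmat_mul_assoc _ (QMat.ofSL _),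
        ← hd (p x), hγ, QMat.ofSL_mul, QMat.ofSL_mul, QMat.ofSL_mul, QMat.ofSL_mul,
        hofT, hofT, QMat.ofSL_inv, ← hs]
      simp only [qmat_mul_assoc]
      rw [← qmat_mul_assoc s.adj s, hadj, ← qmat_mul_assoc s.adj s, hadj]
      simp only [← qmat_mul_assoc]
      have one_mul' : ∀ g : QMat, (1 : QMat) * g = g := fun g => by
        simp [QMat.mul_def, QMat.one_def]
      have mul_one' : ∀ g : QMat, g * (1 : QMat) = g := fun g => by
        simp [QMat.mul_def, QMat.one_def]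
      simp only [qmat_mul_assoc, one_mul', mul_one']
      simp only [← qmat_mul_assoc]
      rw [qmat_mul_assoc s (bMat N ℓ x), hpt x, ← qmat_mul_assoc]
    rw [tMat_mul_ofSL hℓN] at e1
    have hp : (repsT hℓN).perm γ (i x) = i (p x) :=
      tMat_unique (η := ((((d x)⁻¹ * u x * d (p x) : Gamma0 N) : SL(2, ℤ)))⁻¹ *
        (((repsT hℓN).cocyc γ (i x) : Gamma0 N) : SL(2, ℤ))) (by
          rw [QMat.ofSL_mul, qmat_mul_assoc, e1, ← qmat_mul_assoc, ← QMat.ofSL_mul,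
            inv_mul_cancel]
          simp [QMat.ofSL, QMat.mul_def])
    refine ⟨hp, Subtype.ext (ofSL_injective (qmat_mul_right_cancel
      (h := tMat ℓ (i (p x))) (by rw [det_tMat]; exact_mod_cast hℓ.out.ne_zero) ?_))⟩
    rw [← e1, hp]
  -- sum up
  rw [heckeHom_of_not_dvd 𝕜 hℓ.out hℓN, heckeHomT]
  show (repsT hℓN).transferHom φ (Additive.ofMul γ) = _
  rw [HeckeReps.transferHom_apply,
    ← Equiv.sum_comp (Equiv.ofBijective i (Finite.injective_iff_bijective.mp hinj))]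
  simp only [Equiv.ofBijective_apply, (hcocyc _).2, ofMul_mul, ofMul_inv, map_add, map_neg,
    Finset.sum_add_distrib, Finset.sum_neg_distrib,
    Equiv.sum_comp p fun x => φ (Additive.ofMul (d x))]
  -- linearity along the stabiliser
  let H : AddSubgroup ℤ :=
    { carrier := {m | (N : ℤ) ∣ m * σ 1 0 ^ 2}
      zero_mem' := by simp
      add_mem' := fun {a b} ha hb => by
        show (N : ℤ) ∣ (a + b) * σ 1 0 ^ 2
        rw [add_mul]; exact dvd_add ha hb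
      neg_mem' := fun {a} ha => by
        show (N : ℤ) ∣ (-a) * σ 1 0 ^ 2
        rw [neg_mul]; exact ha.neg_right }
  let ψ : H →+ A := AddMonoidHom.mk' (fun m => φ (Additive.ofMul ⟨_, conj_trMat_mem σ m.1 m.2⟩))
    fun a b => by
      rw [← map_add, ← ofMul_mul]
      refine congrArg (fun z => φ (Additive.ofMul z)) (Subtype.ext ?_)
      show σ * ModularGroup.T ^ (a.1 + b.1) * σ⁻¹
        = σ * ModularGroup.T ^ a.1 * σ⁻¹ * (σ * ModularGroup.T ^ b.1 * σ⁻¹)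
      rw [zpow_add]; group
  have e3 : ∑ x, (⟨t x, htr x⟩ : H) = (ℓ + 1) • (⟨h, hmem⟩ : H) := by
    refine Subtype.ext ?_
    rw [AddSubgroup.val_finsetSum, AddSubgroup.coe_nsmul, htsum, nsmul_eq_mul]
    push_cast
    rfl
  have e4 := congrArg ψ e3
  rw [map_sum, map_nsmul] at e4
  have e5 : γ = ⟨_, conj_trMat_mem σ h hmem⟩ := Subtype.ext hγ
  rw [neg_add_cancel_comm, show ∑ x, φ (Additive.ofMul (u x)) = ∑ x, ψ ⟨t x, htr x⟩ from rfl, e4]
  rw [e5]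
  rfl

include hℓN in
/-- **`T_ℓ φ = (ℓ + 1) φ` on parabolic elements**, up to `2`-torsion. -/
theorem heckeHom_apply_parabolic (𝕜 : Type*) [Semiring 𝕜] [Module 𝕜 A]
    (hA : ∀ a : A, 2 • a = 0 → a = 0) (hℓ1 : (ℓ : ZMod N) = 1) (φ : Additive (Gamma0 N) →+ A)
    (γ : Gamma0 N) (hγ : ((γ : SL(2, ℤ)) : Matrix (Fin 2) (Fin 2) ℤ).trace ^ 2 = 4) :
    heckeHom 𝕜 N ℓ φ (Additive.ofMul γ) = (ℓ + 1) • φ (Additive.ofMul γ) := by
  obtain ⟨δ, n, hn⟩ := FLTA.Gamma0.ConjClass.exists_conj_eq_T_zpow (γ : SL(2, ℤ)) hγ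
  rcases hn with hn | hn
  · refine heckeHom_conj_T hℓN 𝕜 hℓ1 φ δ⁻¹ n γ ?_
    rw [← hn]; group
  · let c : Gamma0 N := ⟨-1, neg_one_mem_gamma0 N⟩
    have hc : ∀ ψ : Additive (Gamma0 N) →+ A, ψ (Additive.ofMul c) = 0 := fun ψ => hA _ (by
      rw [← map_nsmul, ← ofMul_pow, show c ^ 2 = 1 from Subtype.ext (by simp [c])]
      exact map_zero ψ)
    have h := heckeHom_conj_T hℓN 𝕜 hℓ1 φ δ⁻¹ n (c * γ) (by
      have : (ModularGroup.T ^ n : SL(2, ℤ)) = -(δ * (γ : SL(2, ℤ)) * δ⁻¹) := by simp [hn]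
      rw [this]
      simp [c, mul_assoc])
    rw [ofMul_mul, map_add, map_add, hc, hc, zero_add, zero_add] at h
    exact h

/-- The image of `T_ℓ - (ℓ + 1)` consists of parabolic homomorphisms. -/
theorem isParabolicHom_of_eisenstein (𝕜 : Type*) [Ring 𝕜] [Module 𝕜 A]
    (hA : ∀ a : A, 2 • a = 0 → a = 0) (hℓN : ¬ ℓ ∣ N) (hℓ1 : (ℓ : ZMod N) = 1)
    (φ : Additive (Gamma0 N) →+ A) :
    IsParabolicHom (Gamma0 N) (heckeHom 𝕜 N ℓ φ - (ℓ + 1) • φ) := by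
  intro γ hγ
  show heckeHom 𝕜 N ℓ φ (Additive.ofMul γ) - (ℓ + 1) • φ (Additive.ofMul γ) = 0
  rw [heckeHom_apply_parabolic hℓN 𝕜 hA hℓ1 φ γ hγ, sub_self]

end FLTA.RT
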