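import Fermat.Agent.RT.HeckeLocalNat

/-!
# The natural idempotent at `Γ₀(L)`

It kills the obstruction to exactness at a non-Eisenstein residual system and its image over a
quotient `O` killing the twist is the factor of the Hecke operators on `Hom(Γ₀(L), O)`.
-/

set_option autoImplicit false

noncomputable section

open IsLocalRing CongruenceSubgroup

universe u

namespace FLTA.RT

variable {R : Type u} [CommRing R] [IsLocalRing R] [IsNoetherianRing R]
  [IsAdicComplete (maximalIdeal R) R]

section surjective

variable {O : Type u} [CommRing O] [IsLocalRing O] [IsNoetherianRing O]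
  [IsAdicComplete (maximalIdeal O) O] [Algebra R O]
  {A : Type u} [Ring A] [Algebra R A] [Algebra O A] [IsScalarTower R O A] [Module.Finite O A]
  [Module.Finite R A] {σ : Type*}

/-- The idempotent does not change along a surjection of coefficient rings. -/
theorem localIdem_of_surjective (hO : Function.Surjective (algebraMap R O)) {T : σ → A}
    (hT : ∀ s t, Commute (T s) (T t)) (a : σ → R) :
    localIdem T a = localIdem T (fun s => algebraMap R O (a s)) := by
  letI := opAlgCommRing (R := R) hT
  letI := opAlgCommRing (R := O) hT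
  have hle : ∀ x ∈ opAlg R T, x ∈ opAlg O T := fun x hx => by
    induction hx using Algebra.adjoin_induction with
    | mem x hx => exact Algebra.subset_adjoin hx
    | algebraMap r => rw [IsScalarTower.algebraMap_apply R O A]; exact Subalgebra.algebraMap_mem _ _
    | add x y _ _ hx hy => exact add_mem hx hy
    | mul x y _ _ hx hy => exact mul_mem hx hy
  have hge : ∀ x ∈ opAlg O T, x ∈ opAlg R T := fun x hx => by
    induction hx using Algebra.adjoin_induction with
    | mem x hx => exact Algebra.subset_adjoin hx
    | algebraMap o =>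
      obtain ⟨r, rfl⟩ := hO o
      rw [← IsScalarTower.algebraMap_apply]; exact Subalgebra.algebraMap_mem _ _
    | add x y _ _ hx hy => exact add_mem hx hy
    | mul x y _ _ hx hy => exact mul_mem hx hy
  let g : opAlg R T →+* opAlg O T :=
    { toFun := fun x => ⟨x.1, hle _ x.2⟩
      map_one' := rfl
      map_mul' := fun _ _ => rfl
      map_zero' := rfl
      map_add' := fun _ _ => rfl }
  have hg : Function.Surjective g := fun y => ⟨⟨y.1, hge _ y.2⟩, rfl⟩
  haveI : IsLocalHom (algebraMap R O) := IsLocalHom.of_surjective _ hO
  have hmax : ∀ r : R, r ∈ maximalIdeal R ↔ algebraMap R O r ∈ maximalIdeal O := fun r => by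
    simp only [mem_maximalIdeal, mem_nonunits_iff, isUnit_map_iff]
  have hgs : ∀ r : R, g (algebraMap R (opAlg R T) r)
      = algebraMap O (opAlg O T) (algebraMap R O r) := fun r =>
    Subtype.ext (IsScalarTower.algebraMap_apply R O A r)
  have hid : (eigIdeal T a).map g = eigIdeal T (fun s => algebraMap R O (a s)) := by
    simp only [eigIdeal, Ideal.map_span, Set.image_union, Set.image_image, ← Set.range_comp]
    congr 2
    · refine congrArg Set.range (funext fun s => ?_)
      show g (opGen R T s - algebraMap R (opAlg R T) (a s)) = _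
      rw [map_sub, hgs]
      rfl
    · ext x
      simp only [Set.mem_image, SetLike.mem_coe]
      refine ⟨?_, ?_⟩
      · rintro ⟨r, hr, rfl⟩
        exact ⟨_, (hmax r).mp hr, (hgs r).symm⟩
      · rintro ⟨o, ho, rfl⟩
        obtain ⟨r, rfl⟩ := hO o
        exact ⟨r, (hmax r).mpr ho, hgs r⟩
  have h := ((isLocalIdem_localIdem hT a).isCutOut hT).map g hg
  rw [hid] at h
  exact IsLocalIdem.eq_localIdem hT ⟨hle _ (localIdem_mem hT a),
    congrArg Subtype.val h.idem.eq, fun P hP => h.mem_iff P hP⟩

end surjective

variable {L : ℕ} [NeZero L] {χ : (ZMod L)ˣ →* Rˣ} {σ : Type*} {T : σ → NatEnd (gamChar χ)}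
  (hcomm : CommAtRing T) (a : σ → R) (hlift : HasLifts (gamChar χ))

section kills

variable {l : ℕ}

include hcomm hlift in
/-- A non-Eisenstein prime kills the obstruction to exactness. -/
theorem killsObstruction_localEnd (hl : l.Prime) (hlL : ¬ l ∣ L) (s : σ)
    (hs : T s = natHecke χ l) (ha : IsUnit (a s - ((l : R) + 1))) :
    KillsObstruction (localEnd T a) := by
  haveI := group_fg_Gamma0 L
  obtain ⟨g, hg⟩ := exists_natEnd_mul_sub hcomm a s ha
  exact killsObstruction_of_sub_deg χ hlift hl hlL _ g fun x => by rw [hg, hs]

end kills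

variable {O : Type u} [CommRing O] [Algebra R O]

theorem finite_addHom [IsNoetherianRing O] (V : Type*) [AddCommGroup V] [Module O V]
    [Module.Finite O V] : Module.Finite O (Additive (Gamma0 L) →+ V) := by
  obtain ⟨S, hS, hfin⟩ := Group.fg_iff.mp (group_fg_Gamma0 L)
  have : Finite S := hfin
  let ev : (Additive (Gamma0 L) →+ V) →ₗ[O] (S → V) :=
    { toFun := fun φ s => φ (Additive.ofMul (s : Gamma0 L))
      map_add' := fun _ _ => rfl
      map_smul' := fun _ _ => rfl }
  refine Module.Finite.of_injective ev fun φ ψ h => AddMonoidHom.ext fun x => ?_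
  obtain ⟨γ, rfl⟩ := Additive.ofMul.surjective x
  have hmem : γ ∈ Subgroup.closure S := hS ▸ Subgroup.mem_top γ
  induction hmem using Subgroup.closure_induction with
  | mem s hs => exact congrFun h ⟨s, hs⟩
  | one => simp
  | mul x y _ _ hx hy => simp only [ofMul_mul, map_add, hx, hy]
  | inv x _ hx => simp only [ofMul_inv, map_neg, hx]

variable [IsLocalRing O] [IsNoetherianRing O] [IsAdicComplete (maximalIdeal O) O]
  (hO : Function.Surjective (algebraMap R O))
  (htriv : ∀ γ (v : O), ((gamChar χ γ : Rˣ) : R) • v = v)

include hcomm hlift in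
/-- **Downstairs**: the image over `O` is the factor of the operators on homomorphisms. -/
theorem homImage_localEnd (T' : σ → Module.End O (Additive (Gamma0 L) →+ O))
    (hT' : ∀ s x, tH1EquivHom htriv ((T s).app O x) = T' s (tH1EquivHom htriv x)) :
    homImage (localEnd T a) hO htriv =
      LinearMap.range (localIdem T' (fun s => algebraMap R O (a s))) := by
  haveI := group_fg_Gamma0 L
  haveI : Module.Finite R O := Module.Finite.of_surjective (Algebra.linearMap R O) hO
  haveI := finite_addHom (L := L) (O := O) O
  haveI := finite_tH1 (χ := gamChar χ) (R := R) O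
  haveI : Module.Finite R (Additive (Gamma0 L) →+ O) := Module.Finite.trans O _
  have hc1 := commute_opsAt hcomm hlift O
  have hc2 : ∀ s t, Commute (T' s) (T' t) := fun s t => LinearMap.ext fun φ => by
    obtain ⟨x, rfl⟩ := (tH1EquivHom htriv).surjective φ
    rw [Module.End.mul_apply, Module.End.mul_apply, ← hT', ← hT', ← hT', ← hT']
    exact congrArg (tH1EquivHom htriv) (congrArg (fun f : Module.End R _ => f x) (hc1 s t).eq)
  let res : Module.End O (Additive (Gamma0 L) →+ O) →ₐ[R]
      Module.End R (Additive (Gamma0 L) →+ O) :=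
    { toFun := fun f => f.restrictScalars R
      map_one' := rfl
      map_mul' := fun _ _ => rfl
      map_zero' := rfl
      map_add' := fun _ _ => rfl
      commutes' := fun r => LinearMap.ext fun φ => by
        simp [Module.algebraMap_end_apply] }
  haveI : Module.Finite R (Module.End O (Additive (Gamma0 L) →+ O)) := Module.Finite.trans O _
  have key : ∀ x : tH1 (gamChar χ) O, tH1EquivHom htriv ((localEnd T a).app O x) =
      localIdem T' (fun s => algebraMap R O (a s)) (tH1EquivHom htriv x) := by
    intro x
    rw [localEnd_app_finite hcomm a hlift O, ← localIdem_of_surjective hO hc2 a]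
    refine (localIdem_comm_map hc1 (fun s t => (hc2 s t).map res) a
      (tH1EquivHom htriv).toLinearMap (fun s y => hT' s y) x).trans ?_
    rw [← map_localIdem (A := Module.End O (Additive (Gamma0 L) →+ O))
      (A' := Module.End R (Additive (Gamma0 L) →+ O)) (T' := fun s => res (T' s)) hc2 a res
      (fun _ => rfl)]
    rfl
  ext φ
  rw [mem_homImage, LinearMap.mem_range]
  refine ⟨?_, ?_⟩
  · rintro ⟨x, ⟨y, rfl⟩, rfl⟩
    exact ⟨tH1EquivHom htriv y, (key y).symm⟩
  · rintro ⟨ψ, rfl⟩
    obtain ⟨y, rfl⟩ := (tH1EquivHom htriv).surjective ψ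
    exact ⟨_, LinearMap.mem_range_self _ y, key y⟩

end FLTA.RT
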