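import Fermat.Agent.Periods.HeckeTransfer
import Mathlib.LinearAlgebra.Quotient.Basic
import Mathlib.Algebra.Module.Submodule.Range
import Mathlib.Algebra.Module.Pi

/-!
# Twisted cohomology in degree one

For a group `Γ`, a character `χ : Γ →* Rˣ` and an `R`-module `V`, `tH1 χ V` is the first cohomology
of `Γ` with values in `V`, an element `γ` acting through the scalar `χ γ`.  The functor is half
exact; `tH1Map_ker_killed` shows that the Hecke operator minus its degree kills the obstruction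
to left exactness.
-/

set_option autoImplicit false

noncomputable section

universe u

namespace FLTA.RT

open FLTA.Periods

variable {Γ : Type*} [Group Γ] {R : Type u} [CommRing R] (χ : Γ →* Rˣ)
  (V : Type u) [AddCommGroup V] [Module R V]
  {W : Type u} [AddCommGroup W] [Module R W] {U : Type u} [AddCommGroup U] [Module R U]

/-- Twisted cocycles. -/
def tCocycles : Submodule R (Γ → V) where
  carrier := {f | ∀ g h, f (g * h) = f g + (χ g : R) • f h}
  zero_mem' g h := by simp
  add_mem' {f f'} hf hf' g h := by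
    simp only [Pi.add_apply, hf g h, hf' g h, smul_add]; abel
  smul_mem' c f hf g h := by
    simp only [Pi.smul_apply, hf g h, smul_add, smul_comm c]

variable {V}

theorem mem_tCocycles {f : Γ → V} :
    f ∈ tCocycles χ V ↔ ∀ g h, f (g * h) = f g + (χ g : R) • f h :=
  Iff.rfl

theorem tCocycles_one (f : tCocycles χ V) : f.1 1 = 0 := by
  have h := f.2 1 1
  rw [mul_one, map_one, Units.val_one, one_smul] at h
  exact left_eq_add.mp h

variable (V)

/-- The coboundary map. -/
def tDelta : V →ₗ[R] tCocycles χ V where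
  toFun v := ⟨fun g => (χ g : R) • v - v, fun g h => by
    simp only [map_mul, Units.val_mul, mul_smul, smul_sub]; abel⟩
  map_add' v w := by
    ext g
    simp only [smul_add, Submodule.coe_add, Pi.add_apply]; abel
  map_smul' c v := by
    ext g
    simp only [RingHom.id_apply, Submodule.coe_smul, Pi.smul_apply, smul_sub, smul_comm c]

theorem tDelta_apply (v : V) (g : Γ) : (tDelta χ V v).1 g = (χ g : R) • v - v := rfl

/-- Twisted first cohomology. -/
abbrev tH1 : Type _ := (tCocycles χ V) ⧸ LinearMap.range (tDelta χ V)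

/-- The class of a cocycle. -/
def tClass : tCocycles χ V →ₗ[R] tH1 χ V := (LinearMap.range (tDelta χ V)).mkQ

variable {V}

theorem tClass_surjective : Function.Surjective (tClass χ V) := Submodule.mkQ_surjective _

theorem tClass_eq_zero_iff {f : tCocycles χ V} : tClass χ V f = 0 ↔ ∃ v, tDelta χ V v = f :=
  (Submodule.Quotient.mk_eq_zero _).trans LinearMap.mem_range

/-- Push forward of cocycles. -/
def tMapZ (φ : V →ₗ[R] W) : tCocycles χ V →ₗ[R] tCocycles χ W where
  toFun f := ⟨fun g => φ (f.1 g), fun g h => by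
    show φ (f.1 (g * h)) = φ (f.1 g) + (χ g : R) • φ (f.1 h)
    rw [f.2 g h, map_add, map_smul]⟩
  map_add' f f' := by ext g; exact map_add φ _ _
  map_smul' c f := by ext g; exact map_smul φ _ _

@[simp] theorem tMapZ_apply (φ : V →ₗ[R] W) (f : tCocycles χ V) (g : Γ) :
    (tMapZ χ φ f).1 g = φ (f.1 g) := rfl

/-- Push forward of classes. -/
def tH1Map (φ : V →ₗ[R] W) : tH1 χ V →ₗ[R] tH1 χ W :=
  Submodule.mapQ _ _ (tMapZ χ φ) (by
    rintro _ ⟨v, rfl⟩
    exact ⟨φ v, by ext g; simp [tDelta_apply]⟩)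

@[simp] theorem tH1Map_class (φ : V →ₗ[R] W) (f : tCocycles χ V) :
    tH1Map χ φ (tClass χ V f) = tClass χ W (tMapZ χ φ f) := rfl

theorem tH1Map_comp (ψ : W →ₗ[R] U) (φ : V →ₗ[R] W) (x : tH1 χ V) :
    tH1Map χ (ψ.comp φ) x = tH1Map χ ψ (tH1Map χ φ x) := by
  obtain ⟨f, rfl⟩ := tClass_surjective χ x
  rfl

theorem tH1Map_id (x : tH1 χ V) : tH1Map χ (LinearMap.id : V →ₗ[R] V) x = x := by
  obtain ⟨f, rfl⟩ := tClass_surjective χ x
  rfl

theorem tH1Map_add (φ ψ : V →ₗ[R] W) (x : tH1 χ V) :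
    tH1Map χ (φ + ψ) x = tH1Map χ φ x + tH1Map χ ψ x := by
  obtain ⟨f, rfl⟩ := tClass_surjective χ x
  rfl

theorem tH1Map_smul (c : R) (φ : V →ₗ[R] W) (x : tH1 χ V) :
    tH1Map χ (c • φ) x = c • tH1Map χ φ x := by
  obtain ⟨f, rfl⟩ := tClass_surjective χ x
  rfl

theorem tH1Map_zero (x : tH1 χ V) : tH1Map χ (0 : V →ₗ[R] W) x = 0 := by
  rw [← zero_smul R (0 : V →ₗ[R] W), tH1Map_smul, zero_smul]

theorem tH1Map_sum {ι : Type*} (s : Finset ι) (φ : ι → V →ₗ[R] W) (x : tH1 χ V) :
    tH1Map χ (∑ i ∈ s, φ i) x = ∑ i ∈ s, tH1Map χ (φ i) x := by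
  classical
  induction s using Finset.induction_on with
  | empty => simp [tH1Map_zero]
  | insert i s hi ih => rw [Finset.sum_insert hi, Finset.sum_insert hi, tH1Map_add, ih]

/-- Surjections of coefficient modules give surjections on twisted cocycles. -/
def HasLifts : Prop :=
  ∀ (A B : Type u) [AddCommGroup A] [Module R A] [AddCommGroup B] [Module R B] (φ : A →ₗ[R] B),
    Function.Surjective φ → Function.Surjective (tMapZ χ φ)

theorem tH1Map_surjective (h : HasLifts χ) (φ : V →ₗ[R] W) (hφ : Function.Surjective φ) :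
    Function.Surjective (tH1Map χ φ) := by
  intro y
  obtain ⟨f, rfl⟩ := tClass_surjective χ y
  obtain ⟨f', rfl⟩ := h V W φ hφ f
  exact ⟨tClass χ V f', rfl⟩

/-- Exactness in the middle. -/
theorem exists_of_tH1Map_eq_zero (ι : U →ₗ[R] V) (φ : V →ₗ[R] W) (hι : Function.Injective ι)
    (hφ : Function.Surjective φ) (hex : LinearMap.ker φ ≤ LinearMap.range ι) (x : tH1 χ V)
    (hx : tH1Map χ φ x = 0) : ∃ y, tH1Map χ ι y = x := by
  obtain ⟨f, rfl⟩ := tClass_surjective χ x
  rw [tH1Map_class, tClass_eq_zero_iff] at hx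
  obtain ⟨w, hw⟩ := hx
  obtain ⟨v, rfl⟩ := hφ w
  have hker : ∀ g, f.1 g - (tDelta χ V v).1 g ∈ LinearMap.range ι := fun g => hex (by
    rw [LinearMap.mem_ker, map_sub, ← tMapZ_apply, ← hw, tDelta_apply, tDelta_apply, map_sub,
      map_smul, sub_self])
  choose f' hf' using hker
  refine ⟨tClass χ U ⟨f', fun g h => hι ?_⟩, ?_⟩
  · rw [map_add, map_smul, hf', hf', hf', f.2 g h, (tDelta χ V v).2 g h, smul_sub]; abel
  · rw [tH1Map_class, ← sub_eq_zero, ← map_sub, tClass_eq_zero_iff]
    refine ⟨-v, ?_⟩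
    ext g
    simp only [Submodule.coe_sub, Pi.sub_apply, tMapZ_apply, hf', map_neg, Submodule.coe_neg,
      Pi.neg_apply]
    abel

section operator

variable {G : Type*} [Group G] {e : Γ →* G} {ι : Type*} [Fintype ι] (S : HeckeReps e ι)

/-- Weights making the transfer compatible with the twist. -/
structure IsWeight (c : ι → Rˣ) : Prop where
  compat : ∀ γ x, c x * χ (S.cocyc γ x) = χ γ * c (S.perm γ x)

variable {χ S} {c : ι → Rˣ}

/-- The Hecke operator on twisted cocycles. -/
def IsWeight.opZ (hc : IsWeight χ S c) (V : Type u) [AddCommGroup V] [Module R V] :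
    tCocycles χ V →ₗ[R] tCocycles χ V where
  toFun f := ⟨fun γ => ∑ x, (c x : R) • f.1 (S.cocyc γ x), fun g h => by
    simp only [S.cocyc_mul, f.2 _ _, smul_add, Finset.sum_add_distrib, Finset.smul_sum]
    congr 1
    rw [← Equiv.sum_comp (S.permEquiv g) fun x => (χ g : R) • (c x : R) • f.1 (S.cocyc h x)]
    refine Finset.sum_congr rfl fun x _ => ?_
    show (c x : R) • (χ (S.cocyc g x) : R) • _ = (χ g : R) • (c (S.perm g x) : R) • _
    rw [smul_smul, smul_smul, ← Units.val_mul, ← Units.val_mul, hc.compat]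
    rfl⟩
  map_add' f f' := by
    ext γ
    simp only [Submodule.coe_add, Pi.add_apply, smul_add, Finset.sum_add_distrib]
  map_smul' a f := by
    ext γ
    simp only [Submodule.coe_smul, Pi.smul_apply, RingHom.id_apply, Finset.smul_sum, smul_comm a]

theorem IsWeight.opZ_apply (hc : IsWeight χ S c) (f : tCocycles χ V) (γ : Γ) :
    (hc.opZ V f).1 γ = ∑ x, (c x : R) • f.1 (S.cocyc γ x) := rfl

theorem IsWeight.opZ_delta (hc : IsWeight χ S c) (v : V) :
    hc.opZ V (tDelta χ V v) = tDelta χ V (∑ x, (c x : R) • v) := by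
  ext γ
  simp only [hc.opZ_apply, tDelta_apply, smul_sub, Finset.sum_sub_distrib, Finset.smul_sum]
  congr 1
  rw [← Equiv.sum_comp (S.permEquiv γ) fun x => (χ γ : R) • (c x : R) • v]
  refine Finset.sum_congr rfl fun x _ => ?_
  show (c x : R) • (χ (S.cocyc γ x) : R) • v = (χ γ : R) • (c (S.perm γ x) : R) • v
  rw [smul_smul, smul_smul, ← Units.val_mul, ← Units.val_mul, hc.compat]

/-- The Hecke operator on twisted cohomology. -/
def IsWeight.op (hc : IsWeight χ S c) (V : Type u) [AddCommGroup V] [Module R V] :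
    tH1 χ V →ₗ[R] tH1 χ V :=
  Submodule.mapQ _ _ (hc.opZ V) (by
    rintro _ ⟨v, rfl⟩
    exact ⟨_, (hc.opZ_delta v).symm⟩)

@[simp] theorem IsWeight.op_class (hc : IsWeight χ S c) (f : tCocycles χ V) :
    hc.op V (tClass χ V f) = tClass χ V (hc.opZ V f) := rfl

theorem IsWeight.op_natural (hc : IsWeight χ S c) (φ : V →ₗ[R] W) (x : tH1 χ V) :
    hc.op W (tH1Map χ φ x) = tH1Map χ φ (hc.op V x) := by
  obtain ⟨f, rfl⟩ := tClass_surjective χ x
  rw [tH1Map_class, op_class, op_class, tH1Map_class]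
  congr 1
  ext γ
  simp only [tMapZ_apply, hc.opZ_apply, map_sum, map_smul]

/-- The Hecke operator minus its degree kills the kernel of `tH1Map ι` for injective `ι`. -/
theorem IsWeight.sub_card_eq_zero_of_map_eq_zero (hc : IsWeight χ S c) (hrange : ∀ x, ∃ γ, χ γ = c x) (ι' : U →ₗ[R] V)
    (hι : Function.Injective ι') (y : tH1 χ U) (hy : tH1Map χ ι' y = 0) :
    hc.op U y - (Fintype.card ι : R) • y = 0 := by
  obtain ⟨f, rfl⟩ := tClass_surjective χ y
  rw [tH1Map_class, tClass_eq_zero_iff] at hy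
  obtain ⟨v, hv⟩ := hy
  rw [op_class, ← map_smul, ← map_sub, tClass_eq_zero_iff]
  have hg : ∀ g, ι' (f.1 g) = (χ g : R) • v - v := fun g =>
    (congrArg (fun z => z.1 g) hv).symm
  choose d hd using hrange
  refine ⟨∑ x, f.1 (d x), Subtype.ext (funext fun g => hι ?_)⟩
  rw [tDelta_apply, Submodule.coe_sub, Submodule.coe_smul, Pi.sub_apply, Pi.smul_apply,
    hc.opZ_apply]
  simp only [map_sub, map_smul, map_sum, hg, hd, smul_sub, Finset.sum_sub_distrib,
    Finset.smul_sum, Finset.sum_const, Finset.card_univ, Nat.cast_smul_eq_nsmul, map_nsmul]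
  rw [show ∑ x, (c x : R) • (χ (S.cocyc g x) : R) • v =
      ∑ x, (χ g : R) • (c x : R) • v from ?_]
  · abel
  rw [← Equiv.sum_comp (S.permEquiv g) fun x => (χ g : R) • (c x : R) • v]
  refine Finset.sum_congr rfl fun x _ => ?_
  show (c x : R) • (χ (S.cocyc g x) : R) • v = (χ g : R) • (c (S.perm g x) : R) • v
  rw [smul_smul, smul_smul, ← Units.val_mul, ← Units.val_mul, hc.compat]

end operator

end FLTA.RT
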