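import Fermat.Agent.RT.CoeffChar
import Fermat.Agent.RT.FreeCocycle

/-!
# Commutation of twisted Hecke operators
-/

set_option autoImplicit false

noncomputable section

universe u

namespace FLTA.RT

open CongruenceSubgroup FLTA.Periods
open scoped MatrixGroups OnePoint

open P2MW.S_ModularForm_heckeT_slash_eq_self_of_mem_Gamma0.ModularForm.HeckeSlashInvariance
  (heckeRep)

section abstract

variable {Γ : Type*} [Group Γ] {R : Type u} [CommRing R] {χ : Γ →* Rˣ} {G : Type*} [Group G]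
  {e : Γ →* G} {ι κ : Type*} [Fintype ι] [Fintype κ] {A : HeckeReps e ι} {B : HeckeReps e κ}
  {a : ι → Rˣ} {b : κ → Rˣ}

/-- The twisted cocycle formula for a conjugate. -/
theorem cocycle_conj {V : Type u} [AddCommGroup V] [Module R V] (f : tCocycles χ V)
    (d c d' : Γ) :
    f.1 (d * c * d'⁻¹) = f.1 d + (χ d : R) • f.1 c - (χ (d * c * d'⁻¹) : R) • f.1 d' := by
  have h := f.2 (d * c * d'⁻¹) d'
  rw [inv_mul_cancel_right] at h
  rw [eq_sub_iff_add_eq, ← h, f.2 d c]

/-- Two weighted transfers commute on classes, if the product representatives correspond. -/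
theorem IsWeight.op_comm (ha : IsWeight χ A a) (hb : IsWeight χ B b) (σ : ι × κ ≃ ι × κ)
    (d : ι × κ → Γ)
    (hd : ∀ z, B.rep z.2 * A.rep z.1 = e (d z) * (A.rep (σ z).1 * B.rep (σ z).2))
    (hw : ∀ z, a z.1 * b z.2 * χ (d z) = a (σ z).1 * b (σ z).2)
    (huniq : ∀ (z w : ι × κ) (δ : Γ),
      e δ * (A.rep z.1 * B.rep z.2) = A.rep w.1 * B.rep w.2 → z = w)
    (V : Type u) [AddCommGroup V] [Module R V] (x : tH1 χ V) :
    ha.op V (hb.op V x) = hb.op V (ha.op V x) := by
  obtain ⟨f, rfl⟩ := tClass_surjective χ x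
  rw [IsWeight.op_class, IsWeight.op_class, IsWeight.op_class, IsWeight.op_class, ← sub_eq_zero,
    ← map_sub, tClass_eq_zero_iff]
  refine ⟨-∑ z : ι × κ, ((a z.1 * b z.2 : Rˣ) : R) • f.1 (d z), Subtype.ext (funext fun γ => ?_)⟩
  let pP : ι × κ → ι × κ := fun z => (A.perm γ z.1, B.perm (A.cocyc γ z.1) z.2)
  let cP : ι × κ → Γ := fun z => B.cocyc (A.cocyc γ z.1) z.2
  let pQ : ι × κ → ι × κ := fun z => (A.perm (B.cocyc γ z.2) z.1, B.perm γ z.2)
  let cQ : ι × κ → Γ := fun z => A.cocyc (B.cocyc γ z.2) z.1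
  have hP : ∀ z, B.rep z.2 * A.rep z.1 * e γ = e (cP z) * (B.rep (pP z).2 * A.rep (pP z).1) :=
    fun z => by rw [mul_assoc, A.rep_mul, ← mul_assoc, B.rep_mul, mul_assoc]
  have hQ : ∀ z, A.rep z.1 * B.rep z.2 * e γ = e (cQ z) * (A.rep (pQ z).1 * B.rep (pQ z).2) :=
    fun z => by rw [mul_assoc, B.rep_mul, ← mul_assoc, A.rep_mul, mul_assoc]
  have key : ∀ z, σ (pP z) = pQ (σ z) ∧ cP z = d z * cQ (σ z) * (d (pP z))⁻¹ := by
    intro z
    have h := hP z
    rw [hd, hd, mul_assoc (e (d z)), hQ, ← mul_assoc (e (d z)), ← map_mul,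
      ← mul_assoc (e (cP z)), ← map_mul] at h
    have hidx : pQ (σ z) = σ (pP z) := by
      refine huniq _ _ ((cP z * d (pP z))⁻¹ * (d z * cQ (σ z))) ?_
      rw [map_mul, map_inv, mul_assoc, h, inv_mul_cancel_left]
    refine ⟨hidx.symm, ?_⟩
    rw [hidx] at h
    rw [eq_mul_inv_iff_mul_eq, A.inj (mul_right_cancel h)]
  have hWP : ∀ z, a z.1 * b z.2 * χ (cP z) = χ γ * (a (pP z).1 * b (pP z).2) := by
    intro z
    show a z.1 * b z.2 * χ (B.cocyc (A.cocyc γ z.1) z.2) = _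
    rw [mul_assoc, hb.compat, ← mul_assoc, ha.compat, mul_assoc]
  have hpP : Function.Bijective pP := by
    refine Finite.injective_iff_bijective.mp fun z w hzw => ?_
    have h1 : z.1 = w.1 := A.perm_injective γ (congrArg Prod.fst hzw)
    have h2 := congrArg Prod.snd hzw
    simp only [pP, h1] at h2
    exact Prod.ext h1 (B.perm_injective _ h2)
  have hAB : (ha.opZ V (hb.opZ V f)).1 γ
      = ∑ z, ((a z.1 * b z.2 : Rˣ) : R) • f.1 (cP z) := by
    simp only [IsWeight.opZ_apply, Finset.smul_sum, smul_smul, Units.val_mul,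
      Fintype.sum_prod_type, cP]
  have hBA : (hb.opZ V (ha.opZ V f)).1 γ
      = ∑ z, ((a z.1 * b z.2 : Rˣ) : R) • f.1 (cQ z) := by
    simp only [IsWeight.opZ_apply, Finset.smul_sum, smul_smul, Units.val_mul,
      Fintype.sum_prod_type_right, cQ, mul_comm]
  rw [tDelta_apply, Submodule.coe_sub, Pi.sub_apply, hAB, hBA,
    ← Equiv.sum_comp σ fun z => ((a z.1 * b z.2 : Rˣ) : R) • f.1 (cQ z)]
  have hterm : ∀ z, ((a z.1 * b z.2 : Rˣ) : R) • f.1 (cP z)
      = ((a z.1 * b z.2 : Rˣ) : R) • f.1 (d z)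
        + ((a (σ z).1 * b (σ z).2 : Rˣ) : R) • f.1 (cQ (σ z))
        - (χ γ : R) • (((a (pP z).1 * b (pP z).2 : Rˣ) : R) • f.1 (d (pP z))) := by
    intro z
    conv_lhs => rw [(key z).2, cocycle_conj]
    rw [smul_sub, smul_add, smul_smul, smul_smul, smul_smul, ← Units.val_mul, ← Units.val_mul,
      ← Units.val_mul, hw, ← (key z).2, hWP]
  simp only [hterm, Finset.sum_sub_distrib, Finset.sum_add_distrib]
  rw [← Finset.smul_sum, hpP.sum_comp fun z => ((a z.1 * b z.2 : Rˣ) : R) • f.1 (d z), smul_neg]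
  abel

end abstract

section triangular

variable {L : ℕ}

/-- A Hecke representative system by integral upper triangular matrices. -/
structure TriSystem {ι : Type*} (S : HeckeReps (gamma0GL L) ι) (p : ℕ) where
  top : ι → ℕ
  shift : ι → ℕ
  bot : ι → ℕ
  rep_eq : ∀ x, (S.rep x : Matrix (Fin 2) (Fin 2) ℝ)
    = !![(top x : ℝ), (shift x : ℝ); 0, (bot x : ℝ)]
  det_eq : ∀ x, top x * bot x = p
  surj : ∀ x (n : ℤ), ∃ y, top y = top x ∧ bot y = bot x ∧ (bot x : ℤ) ∣ (shift y : ℤ) - n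
  inj : ∀ x y, top x = top y → (bot x : ℤ) ∣ (shift x : ℤ) - shift y → x = y

theorem eq_of_tri {δ : Gamma0 L} {M M' : GL (Fin 2) ℝ} {t t' b b' : ℕ} {s s' : ℤ}
    (hM : (M : Matrix (Fin 2) (Fin 2) ℝ) = !![(t : ℝ), (s : ℝ); 0, (b : ℝ)])
    (hM' : (M' : Matrix (Fin 2) (Fin 2) ℝ) = !![(t' : ℝ), (s' : ℝ); 0, (b' : ℝ)])
    (ht : 0 < t) (ht' : 0 < t') (hb : 0 < b) (h : gamma0GL L δ * M = M') :
    t = t' ∧ b = b' ∧ (b : ℤ) ∣ s - s' := by
  have e : ∀ i j, ((gamma0GL L δ * M : GL (Fin 2) ℝ) : Matrix (Fin 2) (Fin 2) ℝ) i j = M' i j :=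
    fun i j => by rw [h]
  have e00 := e 0 0
  have e01 := e 0 1
  have e10 := e 1 0
  have e11 := e 1 1
  simp [hM, hM', Matrix.mul_apply, Fin.sum_univ_two] at e00 e01 e10 e11
  set A := (δ : SL(2, ℤ)) 0 0
  set B := (δ : SL(2, ℤ)) 0 1
  set C := (δ : SL(2, ℤ)) 1 0
  set D := (δ : SL(2, ℤ)) 1 1
  have hdet : A * D - B * C = 1 := by
    have := (δ : SL(2, ℤ)).det_coe
    rwa [Matrix.det_fin_two] at this
  have e00' : A * t = t' := by exact_mod_cast e00
  have e01' : A * s + B * b = s' := by exact_mod_cast e01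
  have hC : C = 0 := by
    rcases e10 with h | h
    · exact_mod_cast h
    · omega
  have e11' : C * s + D * b = b' := by exact_mod_cast e11
  rw [hC, mul_zero, sub_zero] at hdet
  have hA : A = 1 := by
    rcases Int.eq_one_or_neg_one_of_mul_eq_one hdet with h1 | h1
    · exact h1
    · rw [h1] at e00'; omega
  rw [hA, one_mul] at hdet e00' e01'
  rw [hC, hdet, zero_mul, zero_add, one_mul] at e11'
  exact ⟨by exact_mod_cast e00', by exact_mod_cast e11', ⟨-B, by rw [← e01']; ring⟩⟩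

theorem TriSystem.pos {ι : Type*} {S : HeckeReps (gamma0GL L) ι} {p : ℕ} (T : TriSystem S p)
    (hp : 0 < p) (x : ι) : 0 < T.top x ∧ 0 < T.bot x := by
  rw [← T.det_eq x] at hp
  exact ⟨Nat.pos_of_mul_pos_right hp, Nat.pos_of_mul_pos_left hp⟩

variable {ι κ : Type*} [Fintype ι] [Fintype κ] {A : HeckeReps (gamma0GL L) ι}
  {B : HeckeReps (gamma0GL L) κ} {l m : ℕ}

theorem TriSystem.mul_rep (S : TriSystem A l) (T : TriSystem B m) (x : ι) (y : κ) :
    ((A.rep x * B.rep y : GL (Fin 2) ℝ) : Matrix (Fin 2) (Fin 2) ℝ)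
      = !![((S.top x * T.top y : ℕ) : ℝ),
          (((S.top x : ℤ) * T.shift y + (S.shift x : ℤ) * T.bot y : ℤ) : ℝ);
          0, ((S.bot x * T.bot y : ℕ) : ℝ)] := by
  rw [Units.val_mul, S.rep_eq, T.rep_eq]
  ext i j
  fin_cases i <;> fin_cases j <;> simp [Matrix.mul_apply, Fin.sum_univ_two]

theorem TriSystem.injective_mul (S : TriSystem A l) (T : TriSystem B m) (hl : 0 < l) (hm : 0 < m)
    (hlm : l.Coprime m) (z w : ι × κ) (δ : Gamma0 L)
    (h : gamma0GL L δ * (A.rep z.1 * B.rep z.2) = A.rep w.1 * B.rep w.2) : z = w := by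
  have hz := S.pos hl z.1
  have hz' := T.pos hm z.2
  have hw := S.pos hl w.1
  have hw' := T.pos hm w.2
  obtain ⟨ht, hb, hs⟩ := eq_of_tri (S.mul_rep T z.1 z.2) (S.mul_rep T w.1 w.2)
    (Nat.mul_pos hz.1 hz'.1) (Nat.mul_pos hw.1 hw'.1) (Nat.mul_pos hz.2 hz'.2) h
  have hdvd : ∀ x, S.top x ∣ l := fun x => Dvd.intro _ (S.det_eq x)
  have hdvd' : ∀ y, T.top y ∣ m := fun y => Dvd.intro _ (T.det_eq y)
  have htop : S.top z.1 = S.top w.1 := by
    refine Nat.dvd_antisymm ?_ ?_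
    · exact (Nat.Coprime.of_dvd (hdvd _) (hdvd' w.2) hlm).dvd_of_dvd_mul_right (ht ▸ Dvd.intro _ rfl)
    · exact (Nat.Coprime.of_dvd (hdvd _) (hdvd' z.2) hlm).dvd_of_dvd_mul_right
        (ht.symm ▸ Dvd.intro _ rfl)
  have htop' : T.top z.2 = T.top w.2 := by
    rw [htop] at ht
    exact mul_left_cancel₀ hw.1.ne' ht
  have hbot' : T.bot z.2 = T.bot w.2 := by
    have h1 := T.det_eq z.2
    rw [htop'] at h1
    have h1 := h1.trans (T.det_eq w.2).symm
    exact mul_left_cancel₀ hw'.1.ne' h1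
  have hc : IsCoprime (T.bot z.2 : ℤ) (S.top z.1 : ℤ) := by
    rw [Int.isCoprime_iff_nat_coprime]
    exact (Nat.Coprime.of_dvd (hdvd z.1) (Dvd.intro_left _ (T.det_eq z.2)) hlm).symm
  rw [← htop, ← hbot', Nat.cast_mul] at hs
  have h2 : z.2 = w.2 := by
    refine T.inj _ _ htop' (hc.dvd_of_dvd_mul_left ?_)
    obtain ⟨k, hk⟩ := (dvd_mul_left _ _).trans hs
    exact ⟨k - ((S.shift z.1 : ℤ) - S.shift w.1), by linear_combination hk⟩
  have h1 : z.1 = w.1 := by
    refine S.inj _ _ htop ?_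
    rw [h2] at hs
    refine Int.dvd_of_mul_dvd_mul_right (a := (T.bot w.2 : ℤ))
      (Int.natCast_ne_zero.mpr hw'.2.ne') ?_
    obtain ⟨k, hk⟩ := hs
    exact ⟨k, by linear_combination hk⟩
  exact Prod.ext h1 h2

theorem TriSystem.exists_swap (S : TriSystem A l) (T : TriSystem B m) (hlm : l.Coprime m)
    (z : ι × κ) :
    ∃ (w : ι × κ) (δ : Gamma0 L),
      B.rep z.2 * A.rep z.1 = gamma0GL L δ * (A.rep w.1 * B.rep w.2) ∧
      S.top w.1 = S.top z.1 ∧ T.top w.2 = T.top z.2 ∧ aUnit L δ = 1 := by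
  have hc : IsCoprime (S.top z.1 : ℤ) (T.bot z.2 : ℤ) := by
    rw [Int.isCoprime_iff_nat_coprime]
    exact Nat.Coprime.of_dvd (Dvd.intro _ (S.det_eq z.1)) (Dvd.intro_left _ (T.det_eq z.2)) hlm
  obtain ⟨u, v, huv⟩ := hc
  set s : ℤ := (T.top z.2 : ℤ) * S.shift z.1 + (T.shift z.2 : ℤ) * S.bot z.1 with hs
  obtain ⟨y, hy1, hy2, k, hk⟩ := T.surj z.2 (u * s)
  obtain ⟨x, hx1, hx2, n, hn⟩ := S.surj z.1 (v * s - (S.top z.1 : ℤ) * k)
  let N : Matrix (Fin 2) (Fin 2) ℤ := !![1, -n; 0, 1]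
  refine ⟨(x, y), ⟨⟨N, by simp [N, Matrix.det_fin_two_of]⟩, mem_Gamma0_of_dvd (by simp [N])⟩,
    ?_, hx1, hy1, ?_⟩
  · apply Units.ext
    rw [T.mul_rep S, Units.val_mul, S.mul_rep T, hx1, hx2, hy1, hy2]
    have hsR : s = ((S.top z.1 : ℤ) * T.shift y + (S.shift x : ℤ) * T.bot z.2)
        - n * (S.bot z.1 * T.bot z.2) := by
      linear_combination -(S.top z.1 : ℤ) * hk - (T.bot z.2 : ℤ) * hn - s * huv
    ext i j
    fin_cases i <;> fin_cases j <;>
      simp [N, Matrix.mul_apply, Fin.sum_univ_two, mul_comm]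
    have hsR' := congrArg (Int.cast : ℤ → ℝ) hsR
    simp only [hs] at hsR'
    push_cast at hsR' ⊢
    linear_combination hsR'
  · exact Units.ext (by simp [N])

variable {R : Type u} [CommRing R] {χ : (ZMod L)ˣ →* Rˣ} {a : ι → Rˣ} {b : κ → Rˣ}

/-- Twisted operators of coprime degrees given by triangular systems commute. -/
theorem TriSystem.op_comm (S : TriSystem A l) (T : TriSystem B m) (hl : 0 < l) (hm : 0 < m)
    (hlm : l.Coprime m) (ha : IsWeight (gamChar χ) A a) (hb : IsWeight (gamChar χ) B b)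
    (hat : ∀ x y, S.top x = S.top y → a x = a y) (hbt : ∀ x y, T.top x = T.top y → b x = b y)
    (V : Type u) [AddCommGroup V] [Module R V] (x : tH1 (gamChar χ) V) :
    ha.op V (hb.op V x) = hb.op V (ha.op V x) := by
  choose σ d hd hs ht ha1 using S.exists_swap T hlm
  have hσ : Function.Bijective σ := by
    refine Finite.injective_iff_bijective.mp fun z w hzw => ?_
    have h : gamma0GL L (d w * (d z)⁻¹) * (B.rep z.2 * A.rep z.1) = B.rep w.2 * A.rep w.1 := by
      rw [hd, hd, hzw, map_mul, map_inv, mul_assoc, inv_mul_cancel_left]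
    exact Prod.swap_injective (T.injective_mul S hm hl hlm.symm z.swap w.swap _ h)
  refine IsWeight.op_comm ha hb (Equiv.ofBijective σ hσ) d hd (fun z => ?_)
    (fun z w δ => S.injective_mul T hl hm hlm z w δ) V x
  rw [gamChar_apply, ha1, map_one, mul_one, Equiv.ofBijective_apply, hat _ _ (hs z),
    hbt _ _ (ht z)]

end triangular

section instances

variable {L p : ℕ}

/-- The `U_p` system is triangular. -/
def triU [NeZero p] (hpL : p ∣ L) : TriSystem (repsU hpL) p where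
  top _ := 1
  shift x := x.val
  bot _ := p
  rep_eq x := by simp [ModularForm.val_heckeMatrix (NeZero.ne p)]
  det_eq _ := one_mul p
  surj _ n := ⟨(n : ZMod p), rfl, rfl, by
    rw [← ZMod.intCast_zmod_eq_zero_iff_dvd]; simp⟩
  inj x y _ h := by
    rw [← ZMod.intCast_zmod_eq_zero_iff_dvd] at h
    simpa [sub_eq_zero] using h

/-- The `T_p` system is triangular. -/
def triT [hp : Fact p.Prime] (hpL : ¬ p ∣ L) : TriSystem (repsT hpL) p where
  top x := x.elim p fun _ => 1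
  shift x := x.elim 0 fun j => j.val
  bot x := x.elim 1 fun _ => p
  rep_eq x := by
    induction x using OnePoint.rec with
    | infty => simp [heckeRep, ModularForm.val_heckeDiagMatrix hp.out.ne_zero]
    | coe j => simp [heckeRep, ModularForm.val_heckeMatrix hp.out.ne_zero]
  det_eq x := by
    induction x using OnePoint.rec with
    | infty => exact mul_one p
    | coe j => exact one_mul p
  surj x n := by
    induction x using OnePoint.rec with
    | infty => exact ⟨∞, rfl, rfl, one_dvd _⟩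
    | coe j =>
      refine ⟨((n : ZMod p) : OnePoint (ZMod p)), rfl, rfl, ?_⟩
      show (p : ℤ) ∣ (((n : ZMod p).val : ℕ) : ℤ) - n
      rw [← ZMod.intCast_zmod_eq_zero_iff_dvd]; simp
  inj x y h h' := by
    induction x using OnePoint.rec with
    | infty =>
      induction y using OnePoint.rec with
      | infty => rfl
      | coe j => exact absurd h hp.out.one_lt.ne'
    | coe i =>
      induction y using OnePoint.rec with
      | infty => exact absurd h.symm hp.out.one_lt.ne'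
      | coe j =>
        replace h' : (p : ℤ) ∣ ((i.val : ℕ) : ℤ) - (j.val : ℕ) := h'
        rw [← ZMod.intCast_zmod_eq_zero_iff_dvd] at h'
        exact congrArg _ (by simpa [sub_eq_zero] using h')

theorem hwT_congr [hp : Fact p.Prime] {R : Type u} [CommRing R] (χ : (ZMod L)ˣ →* Rˣ)
    (hpL : ¬ p ∣ L) (hpL' : p.Coprime L) (x y : OnePoint (ZMod p))
    (h : (triT hpL).top x = (triT hpL).top y) : hwT χ hpL' x = hwT χ hpL' y := by
  induction x using OnePoint.rec with
  | infty =>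
    induction y using OnePoint.rec with
    | infty => rfl
    | coe j => exact absurd h hp.out.one_lt.ne'
  | coe i =>
    induction y using OnePoint.rec with
    | infty => exact absurd h.symm hp.out.one_lt.ne'
    | coe j => rfl

end instances

end FLTA.RT
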