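import Fermat.Agent.RT.RaiseTransfer
import Fermat.Agent.RT.CoeffComm
import Fermat.Agent.LevelRaising.AssemblyIdentities

/-!
# Twisted degeneracy maps between `Γ₀(N)` and `Γ₀(N q)`

For a character `χ` modulo `N` and a prime `q ∤ N`: the restrictions `degIncl`, `degConj`, the
Atkin–Lehner map `degAL`, the corestriction `degCor`, their composites and their commutation with
the twisted operators `T_ℓ`, for arbitrary coefficient modules.
-/

set_option autoImplicit false

noncomputable section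

universe u

namespace FLTA.RT

open CongruenceSubgroup FLTA.Periods FLTA.LevelRaising ModularCurve.Period
open scoped MatrixGroups OnePoint

open P2MW.S_ModularForm_heckeT_slash_eq_self_of_mem_Gamma0.ModularForm.HeckeSlashInvariance
  (heckeRep)

variable {N q : ℕ}

/-! ### Matrices -/

/-- A rational matrix as a real one. -/
def qReal (m : QMat) : Matrix (Fin 2) (Fin 2) ℝ := !![(m.a : ℝ), (m.b : ℝ); (m.c : ℝ), (m.d : ℝ)]

theorem qReal_mul (m m' : QMat) : qReal (m * m') = qReal m * qReal m' := by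
  ext i j
  fin_cases i <;> fin_cases j <;> simp [qReal, QMat.mul_def, Matrix.mul_apply, Fin.sum_univ_two]

theorem qReal_ofSL (g : Gamma0 N) :
    qReal (QMat.ofSL (g : SL(2, ℤ))) = (gamma0GL N g : Matrix (Fin 2) (Fin 2) ℝ) := by
  ext i j
  fin_cases i <;> fin_cases j <;> simp [qReal, QMat.ofSL]

theorem qReal_tMat {ℓ : ℕ} (hℓ : ℓ ≠ 0) (x : OnePoint (ZMod ℓ)) :
    qReal (tMat ℓ x) = (heckeRep ℓ x : Matrix (Fin 2) (Fin 2) ℝ) :=
  (FLTA.LevelRaising.heckeRep_entries hℓ x).symm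

/-- `diag(q, 1)` as a real matrix. -/
abbrev degGL (q : ℕ) : GL (Fin 2) ℝ := heckeRep q ∞

theorem qReal_degMat (hq : q ≠ 0) : qReal (degMat q) = (degGL q : Matrix (Fin 2) (Fin 2) ℝ) := by
  rw [← qReal_tMat hq, tMat_infty]
  rfl

theorem val_degGL (hq : q ≠ 0) :
    (degGL q : Matrix (Fin 2) (Fin 2) ℝ) = !![(q : ℝ), 0; 0, 1] := by
  rw [← qReal_degMat hq]
  simp [qReal, QMat.diag]

theorem gamma0GL_inclHom (γ : Gamma0 (N * q)) :
    gamma0GL N (inclHom N q γ) = gamma0GL (N * q) γ := by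
  apply Units.ext
  ext i j
  simp

theorem degGL_mul [NeZero q] (γ : Gamma0 (N * q)) :
    degGL q * gamma0GL (N * q) γ = gamma0GL N (conjHom N q γ) * degGL q := by
  apply Units.ext
  rw [Units.val_mul, Units.val_mul, ← qReal_degMat (NeZero.ne q), ← qReal_ofSL, ← qReal_ofSL,
    ← qReal_mul, ← qReal_mul, degMat_mul_ofSL]

/-- The scalar matrix `q`. -/
def scalGL (q : ℕ) [NeZero q] : GL (Fin 2) ℝ :=
  Matrix.GeneralLinearGroup.mkOfDetNeZero !![(q : ℝ), 0; 0, (q : ℝ)]
    (by simp [Matrix.det_fin_two_of, NeZero.ne q])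

theorem scalGL_comm [NeZero q] (g : GL (Fin 2) ℝ) : scalGL q * g = g * scalGL q := by
  apply Units.ext
  ext i j
  fin_cases i <;> fin_cases j <;>
    simp [scalGL, Matrix.mul_apply, Fin.sum_univ_two, mul_comm]

/-- The Atkin–Lehner matrix. -/
def alGL (h : Nat.Coprime q N) : GL (Fin 2) ℝ := gamma0GL N (alGamma h) * degGL q

theorem alGL_mul [NeZero q] (h : Nat.Coprime q N) (γ : Gamma0 (N * q)) :
    alGL h * gamma0GL (N * q) γ = gamma0GL (N * q) (alHom h γ) * alGL h := by
  rw [alGL, mul_assoc, degGL_mul, ← gamma0GL_inclHom (alHom h γ), inclHom_alHom, map_mul, map_mul,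
    map_inv]
  group

/-! ### Characters -/

variable {R : Type u} [CommRing R] (χ : (ZMod N)ˣ →* Rˣ)

/-- The character `χ` read modulo `N q`. -/
def chiUp (q : ℕ) : (ZMod (N * q))ˣ →* Rˣ := χ.comp (ZMod.unitsMap (dvd_mul_right N q))

theorem aUnit_inclHom (γ : Gamma0 (N * q)) :
    aUnit N (inclHom N q γ) = ZMod.unitsMap (dvd_mul_right N q) (aUnit (N * q) γ) :=
  Units.ext (by simp [ZMod.unitsMap_def])

theorem gamChar_inclHom (γ : Gamma0 (N * q)) :
    gamChar χ (inclHom N q γ) = gamChar (chiUp χ q) γ :=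
  congrArg χ (aUnit_inclHom γ)

theorem gamChar_conjHom [NeZero q] (γ : Gamma0 (N * q)) :
    gamChar χ (conjHom N q γ) = gamChar (chiUp χ q) γ := by
  rw [← gamChar_inclHom]
  exact congrArg χ (Units.ext (by simp [conjHom_coe, conjDiagMat]))

theorem gamChar_alHom [NeZero q] (h : Nat.Coprime q N) (γ : Gamma0 (N * q)) :
    gamChar (chiUp χ q) (alHom h γ) = gamChar (chiUp χ q) γ := by
  rw [← gamChar_inclHom, inclHom_alHom, map_mul, map_mul, map_inv, ← gamChar_conjHom,
    mul_comm (gamChar χ (alGamma h)), mul_inv_cancel_right]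

theorem hwT_chiUp {ℓ : ℕ} (hℓ : ℓ.Coprime N) (hℓ' : ℓ.Coprime (N * q)) (x : OnePoint (ZMod ℓ)) :
    hwT (chiUp χ q) hℓ' x = hwT χ hℓ x := by
  induction x using OnePoint.rec with
  | infty =>
    refine congrArg (fun z => (χ z)⁻¹) (Units.ext ?_)
    simp [ZMod.unitsMap_def]
  | coe j => rfl

/-! ### The maps -/

section maps

variable [NeZero q] [((Gamma0 (N * q)).subgroupOf (Gamma0 N)).FiniteIndex]

instance fintypeDegCos : Fintype (Gamma0 N ⧸ (Gamma0 (N * q)).subgroupOf (Gamma0 N)) :=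
  Fintype.ofFinite _

/-- The restriction along the inclusion. -/
def inclSys : TSys (gamma0GL (N * q)) (gamma0GL N) (gamChar (chiUp χ q)) (gamChar χ) Unit :=
  TSys.pull (inclHom N q) 1 (fun γ => by rw [one_mul, mul_one, gamma0GL_inclHom])
    (gamChar_inclHom χ)

/-- The restriction along `diag(q, 1)`. -/
def conjSys : TSys (gamma0GL (N * q)) (gamma0GL N) (gamChar (chiUp χ q)) (gamChar χ) Unit :=
  TSys.pull (conjHom N q) (degGL q) degGL_mul (gamChar_conjHom χ)

/-- The Atkin–Lehner transfer. -/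
def alSys (h : Nat.Coprime q N) : TSys (gamma0GL (N * q)) (gamma0GL (N * q))
    (gamChar (chiUp χ q)) (gamChar (chiUp χ q)) Unit :=
  TSys.pull (alHom h) (alGL h) (alGL_mul h) (gamChar_alHom χ h)

omit [NeZero q] [((Gamma0 (N * q)).subgroupOf (Gamma0 N)).FiniteIndex] in
theorem inclHom_corElt (γ : Gamma0 N) (y : Gamma0 N ⧸ (Gamma0 (N * q)).subgroupOf (Gamma0 N)) :
    inclHom N q (Gamma0.corElt γ y) = (γ • y).out⁻¹ * γ * y.out :=
  Subtype.ext rfl

/-- The corestriction. -/
def corSys : TSys (gamma0GL N) (gamma0GL (N * q)) (gamChar χ) (gamChar (chiUp χ q))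
    (Gamma0 N ⧸ (Gamma0 (N * q)).subgroupOf (Gamma0 N)) where
  rep y := gamma0GL N y.out⁻¹
  perm γ := (MulAction.toPerm γ).symm
  cocyc γ y := Gamma0.corElt γ (γ⁻¹ • y)
  rep_mul γ y := by
    show _ = _ * gamma0GL N (γ⁻¹ • y).out⁻¹
    rw [← gamma0GL_inclHom, inclHom_corElt, smul_inv_smul, ← map_mul, ← map_mul, mul_inv_cancel_right]
  cocyc_mul g h y := by
    show _ = _ * Gamma0.corElt h (h⁻¹ • g⁻¹ • y)
    rw [Gamma0.corElt_mul, mul_inv_rev, mul_smul, smul_inv_smul]
  perm_mul g h y := by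
    show (g * h)⁻¹ • y = h⁻¹ • g⁻¹ • y
    rw [mul_inv_rev, mul_smul]
  w y := gamChar χ y.out
  compat γ y := by
    show _ = _ * gamChar χ (γ⁻¹ • y).out
    rw [← gamChar_inclHom, inclHom_corElt, smul_inv_smul, map_mul, map_mul, map_inv, ← mul_assoc,
      mul_inv_cancel_left]

variable (V : Type u) [AddCommGroup V] [Module R V]

/-- Restriction along the inclusion. -/
abbrev degIncl : tH1 (gamChar χ) V →ₗ[R] tH1 (gamChar (chiUp χ q)) V := (inclSys χ).op V

/-- Restriction along `diag(q, 1)`. -/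
abbrev degConj : tH1 (gamChar χ) V →ₗ[R] tH1 (gamChar (chiUp χ q)) V := (conjSys χ).op V

/-- The Atkin–Lehner map. -/
abbrev degAL (h : Nat.Coprime q N) :
    tH1 (gamChar (chiUp χ q)) V →ₗ[R] tH1 (gamChar (chiUp χ q)) V :=
  (alSys χ h).op V

/-- Corestriction. -/
abbrev degCor : tH1 (gamChar (chiUp χ q)) V →ₗ[R] tH1 (gamChar χ) V := (corSys χ).op V

/-- The map from two copies of level `N` to level `N q`. -/
def degI : tH1 (gamChar χ) V × tH1 (gamChar χ) V →ₗ[R] tH1 (gamChar (chiUp χ q)) V :=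
  (degIncl χ V).coprod (degConj χ V)

/-- The map from level `N q` to two copies of level `N`. -/
def degJ (h : Nat.Coprime q N) :
    tH1 (gamChar (chiUp χ q)) V →ₗ[R] tH1 (gamChar χ) V × tH1 (gamChar χ) V :=
  (degCor χ V).prod ((degCor χ V).comp (degAL χ V h))

variable {V}

omit [((Gamma0 (N * q)).subgroupOf (Gamma0 N)).FiniteIndex] in
theorem degI_natural {W : Type u} [AddCommGroup W] [Module R W] (φ : V →ₗ[R] W)
    (x y : tH1 (gamChar χ) V) :
    degI (q := q) χ W (tH1Map _ φ x, tH1Map _ φ y) = tH1Map _ φ (degI χ V (x, y)) := by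
  have hadd : ∀ a b, tH1Map (gamChar (chiUp χ q)) φ (a + b) =
      tH1Map _ φ a + tH1Map _ φ b := map_add _
  simp only [degI, LinearMap.coprod_apply, TSys.op_natural, hadd]

theorem degJ_natural (h : Nat.Coprime q N) {W : Type u} [AddCommGroup W] [Module R W]
    (φ : V →ₗ[R] W) (y : tH1 (gamChar (chiUp χ q)) V) :
    degJ χ W h (tH1Map _ φ y) =
      (tH1Map _ φ (degJ χ V h y).1, tH1Map _ φ (degJ χ V h y).2) := by
  simp only [degJ, LinearMap.prod_apply, Function.prod, LinearMap.comp_apply, TSys.op_natural]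

/-- The constant system counting the cosets. -/
def cardSys : TSys (gamma0GL N) (gamma0GL N) (gamChar χ) (gamChar χ)
    (Gamma0 N ⧸ (Gamma0 (N * q)).subgroupOf (Gamma0 N)) where
  rep _ := 1
  perm := (corSys χ).perm
  cocyc γ _ := γ
  rep_mul γ _ := by rw [one_mul, mul_one]
  cocyc_mul _ _ _ := rfl
  perm_mul := (corSys χ).perm_mul
  w _ := 1
  compat γ _ := by rw [one_mul, mul_one]

variable [hq : Fact q.Prime] (hqN : ¬ q ∣ N)

include hqN in
omit [NeZero q] in
theorem card_degCos :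
    Fintype.card (Gamma0 N ⧸ (Gamma0 (N * q)).subgroupOf (Gamma0 N)) = q + 1 := by
  obtain ⟨σ, -, -⟩ := degCosets_rep (N := N) hqN
  rw [Fintype.card_congr σ, show Fintype.card (OnePoint (ZMod q)) =
    Fintype.card (Option (ZMod q)) from Fintype.card_congr (Equiv.refl _), Fintype.card_option,
    ZMod.card]

include hqN in
omit [NeZero q] in
/-- `cor ∘ incl = q + 1`. -/
theorem degCor_degIncl (x : tH1 (gamChar χ) V) :
    degCor (q := q) χ V (degIncl χ V x) = ((q + 1 : ℕ) : R) • x := by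
  rw [← TSys.op_comp]
  rw [TSys.op_eq_of_perm _ (cardSys χ) gamma0GL_injective (Equiv.prodUnique _ Unit)
    (fun z => z.1.out⁻¹) (fun γ z => rfl) (fun z => by simp [inclSys, corSys, cardSys])
    (fun z => by simp [inclSys, corSys, cardSys])]
  obtain ⟨f, rfl⟩ := tClass_surjective _ x
  rw [TSys.op_class, ← map_smul]
  congr 1
  ext γ
  simp only [TSys.opZ_apply, cardSys, Units.val_one, one_smul, Finset.sum_const, Finset.card_univ,
    card_degCos hqN, Nat.cast_smul_eq_nsmul]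
  rfl

include hqN in
theorem degCos_tri : ∃ (σ : (Gamma0 N ⧸ (Gamma0 (N * q)).subgroupOf (Gamma0 N)) ≃ OnePoint (ZMod q))
    (g : Gamma0 N ⧸ (Gamma0 (N * q)).subgroupOf (Gamma0 N) → Gamma0 N),
    ∀ y, degGL q * gamma0GL N y.out⁻¹ = gamma0GL N (g y) * heckeRep q (σ y) := by
  obtain ⟨σ, g, hg⟩ := degCosets_rep (N := N) hqN
  refine ⟨σ, g, fun y => Units.ext ?_⟩
  rw [Units.val_mul, Units.val_mul, ← qReal_degMat (NeZero.ne q), ← qReal_ofSL, ← qReal_ofSL,
    ← qReal_tMat (NeZero.ne q), ← qReal_mul, ← qReal_mul]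
  exact congrArg qReal (hg y)

/-- `cor ∘ conj = χ(q) T_q`. -/
theorem degCor_degConj (hqN' : q.Coprime N)
    (hc : IsWeight (gamChar χ) (repsT hqN) (hwT χ hqN')) (x : tH1 (gamChar χ) V) :
    degCor (q := q) χ V (degConj χ V x) =
      (χ (ZMod.unitOfCoprime q hqN') : R) • hc.op V x := by
  have hq0 : q ≠ 0 := NeZero.ne q
  obtain ⟨σ, g, hg⟩ := degCos_tri (N := N) hqN
  rw [← TSys.op_ofWeight hc, ← TSys.op_scale, ← TSys.op_comp]
  refine TSys.op_eq_of_rep _ _ gamma0GL_injective (repsT hqN).unique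
    ((Equiv.prodUnique _ Unit).trans σ) (fun z => g z.1) (fun z => by
      simpa [conjSys, corSys] using hg z.1) (fun z => ?_) x
  obtain ⟨y, ⟨⟩⟩ := z
  obtain ⟨a, b, -, -, h10, haL⟩ := FLTA.RT.heckeRep_entries hq0 hqN' (σ y)
  obtain ⟨a', b', ha', hb', h10', haL'⟩ := FLTA.RT.heckeRep_entries hq0 hqN' (∞ : OnePoint (ZMod q))
  obtain ⟨a, b, ha, hb, h10, haL⟩ := FLTA.RT.heckeRep_entries hq0 hqN' (σ y)
  have e : ZMod.unitOfCoprime q hqN' * aUnit N y.out⁻¹ = aUnit N (g y) * repUnit hqN' (σ y) := by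
    apply Units.ext
    rw [Units.val_mul, Units.val_mul, ← haL,
      show ((ZMod.unitOfCoprime q hqN' : (ZMod N)ˣ) : ZMod N) = (a' : ZMod N) from haL'.symm,
      coe_aUnit, coe_aUnit]
    exact mul_intCast_topLeft ha' hb' ha h10 (hg y)
  have e' := congrArg χ e
  rw [map_mul, map_mul, map_inv, map_inv] at e'
  show gamChar χ y.out * 1 * gamChar χ (g y) = χ (ZMod.unitOfCoprime q hqN') * hwT χ hqN' (σ y)
  rw [mul_one, hwT_eq, gamChar_apply, gamChar_apply, eq_mul_inv_iff_mul_eq, mul_assoc, ← e',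
    mul_left_comm, mul_inv_cancel, mul_one]

omit hq [((Gamma0 (N * q)).subgroupOf (Gamma0 N)).FiniteIndex] in
/-- `w ∘ incl = χ(γ₁) conj`. -/
theorem degAL_degIncl (h : Nat.Coprime q N) (x : tH1 (gamChar χ) V) :
    degAL χ V h (degIncl χ V x) = (gamChar χ (alGamma h) : R) • degConj χ V x := by
  rw [← TSys.op_comp, ← TSys.op_scale]
  refine TSys.op_eq_of_perm _ _ gamma0GL_injective (Equiv.prodUnique _ Unit) (fun _ => alGamma h)
    (fun _ _ => rfl) (fun z => ?_) (fun z => ?_) x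
  · simp [inclSys, alSys, conjSys, alGL]
  · simp [inclSys, alSys, conjSys]

omit hq [((Gamma0 (N * q)).subgroupOf (Gamma0 N)).FiniteIndex] in
/-- `w ∘ conj = χ(q) χ(γ₁) incl`. -/
theorem degAL_degConj (h : Nat.Coprime q N) (x : tH1 (gamChar χ) V) :
    degAL χ V h (degConj χ V x) =
      ((χ (ZMod.unitOfCoprime q h) * gamChar χ (alGamma h) : Rˣ) : R) • degIncl χ V x := by
  let S : TSys (gamma0GL (N * q)) (gamma0GL N) (gamChar (chiUp χ q)) (gamChar χ) Unit :=
    TSys.pull (inclHom N q) (scalGL q)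
      (fun γ => by rw [scalGL_comm, gamma0GL_inclHom]) (gamChar_inclHom χ)
  have hS : S.op V x = degIncl χ V x := by
    obtain ⟨f, rfl⟩ := tClass_surjective _ x
    rfl
  have ha : aUnit N (alGamma' h) = ZMod.unitOfCoprime q h * aUnit N (alGamma h) :=
    Units.ext (by simp [alGamma, alGamma'])
  rw [← hS, ← TSys.op_comp, ← TSys.op_scale]
  refine TSys.op_eq_of_perm _ _ gamma0GL_injective (Equiv.prodUnique _ Unit) (fun _ => alGamma' h)
    (fun _ _ => rfl) (fun z => ?_) (fun z => ?_) x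
  · show degGL q * alGL h = gamma0GL N (alGamma' h) * scalGL q
    rw [← scalGL_comm]
    apply Units.ext
    rw [alGL, Units.val_mul, Units.val_mul, Units.val_mul, ← qReal_degMat (NeZero.ne q),
      ← qReal_ofSL, ← qReal_ofSL,
      show (scalGL q : Matrix (Fin 2) (Fin 2) ℝ) = qReal ⟨q, 0, 0, q⟩ by simp [scalGL, qReal],
      ← qReal_mul, ← qReal_mul, ← qReal_mul]
    exact congrArg qReal (degMat_mul_alMat h)
  · show (1 : Rˣ) * 1 * gamChar χ (alGamma' h) = _
    rw [one_mul, one_mul, gamChar_apply, ha, map_mul]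
    simp [S, gamChar_apply]

include hqN in
/-- The composite of the two degeneracy maps. -/
theorem degJ_degI (h : Nat.Coprime q N) (hc : IsWeight (gamChar χ) (repsT hqN) (hwT χ h))
    (x y : tH1 (gamChar χ) V) :
    degJ χ V h (degI χ V (x, y)) =
      (((q + 1 : ℕ) : R) • x + (χ (ZMod.unitOfCoprime q h) : R) • hc.op V y,
        (gamChar χ (alGamma h) : R) • ((χ (ZMod.unitOfCoprime q h) : R) • hc.op V x +
          (χ (ZMod.unitOfCoprime q h) : R) • ((q + 1 : ℕ) : R) • y)) := by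
  simp only [degJ, degI, LinearMap.coprod_apply, LinearMap.prod_apply, Function.prod,
    LinearMap.comp_apply, map_add, degCor_degIncl χ hqN, degCor_degConj χ hqN h hc,
    degAL_degIncl, degAL_degConj, map_smul, smul_add, Units.val_mul, mul_smul, Prod.mk_add_mk,
    smul_comm (χ (ZMod.unitOfCoprime q h) : R) (gamChar χ (alGamma h) : R)]

include hqN in
/-- The kernel of the composite is killed by `(q + 1)² - χ(q) T_q²`. -/
theorem eq_zero_of_degJ_degI (h : Nat.Coprime q N)
    (hc : IsWeight (gamChar χ) (repsT hqN) (hwT χ h))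
    (hreg : ∀ z : tH1 (gamChar χ) V, ((q + 1 : ℕ) : R) • ((q + 1 : ℕ) : R) • z =
      (χ (ZMod.unitOfCoprime q h) : R) • hc.op V (hc.op V z) → z = 0)
    (x y : tH1 (gamChar χ) V) (hxy : degJ χ V h (degI χ V (x, y)) = 0) : x = 0 ∧ y = 0 := by
  rw [degJ_degI χ hqN h hc] at hxy
  set c : R := ((χ (ZMod.unitOfCoprime q h) : Rˣ) : R) with hcdef
  set Q : R := ((q + 1 : ℕ) : R)
  obtain ⟨h1, h2⟩ := Prod.ext_iff.mp hxy
  simp only [Prod.fst_zero, Prod.snd_zero] at h1 h2
  rw [← Units.smul_def, smul_eq_zero_iff_eq, ← smul_add, hcdef, ← Units.smul_def,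
    smul_eq_zero_iff_eq] at h2
  rw [← hcdef] at *
  have eQ : Q • x = -(c • hc.op V y) := eq_neg_of_add_eq_zero_left h1
  have eT : hc.op V x = -(Q • y) := eq_neg_of_add_eq_zero_left h2
  constructor
  · refine hreg x ?_
    rw [eQ, eT, map_neg, map_smul, smul_neg, smul_neg, smul_comm c Q]
  · refine hreg y ?_
    have := congrArg (hc.op V) eQ
    rw [map_smul, map_neg, map_smul, eT, smul_neg, neg_inj] at this
    exact this

end maps

/-! ### Commutation with Hecke operators -/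

section hecke

variable [NeZero q] {ι : Type*} [Fintype ι] {p : ℕ} {A : HeckeReps (gamma0GL N) ι}

omit [Fintype ι] [NeZero q] in
/-- The weights of level `N` are weights of level `N q` for the same representatives. -/
theorem isWeight_chiUp {A' : HeckeReps (gamma0GL (N * q)) ι} (hA : A'.rep = A.rep) {a : ι → Rˣ}
    (hc : IsWeight (gamChar χ) A a) : IsWeight (gamChar (chiUp χ q)) A' a := by
  refine ⟨fun γ x => ?_⟩
  have h := A'.rep_mul γ x
  rw [hA, ← gamma0GL_inclHom, ← gamma0GL_inclHom] at h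
  obtain ⟨h1, h2⟩ := A.eq_of_rep_eq h
  rw [← gamChar_inclHom, ← gamChar_inclHom, ← h2, ← h1]
  exact hc.compat _ x

omit [NeZero q] in
theorem exists_degPerm (S : TriSystem A p) (hpq : p.Coprime q) (hq0 : q ≠ 0) :
    ∃ (σ : ι ≃ ι) (n : ι → Gamma0 N),
      (∀ x, degGL q * A.rep x = gamma0GL N (n x) * (A.rep (σ x) * degGL q)) ∧
      (∀ x, aUnit N (n x) = 1) ∧ ∀ x, S.top (σ x) = S.top x := by
  choose y hyt hyb hy using fun x => S.surj x ((q : ℤ) * S.shift x)
  have hinj : Function.Injective y := by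
    intro x x' h
    have ht : S.top x = S.top x' := by rw [← hyt x, h, hyt x']
    have hb : S.bot x = S.bot x' := by rw [← hyb x, h, hyb x']
    refine S.inj x x' ht ?_
    have h1 := hy x
    have h2 := hy x'
    rw [← hb, ← h] at h2
    have hcop : IsCoprime (S.bot x : ℤ) (q : ℤ) := by
      rw [Int.isCoprime_iff_nat_coprime]
      simpa using Nat.Coprime.coprime_dvd_left (Dvd.intro_left _ (S.det_eq x)) hpq
    refine hcop.dvd_of_dvd_mul_left ?_
    obtain ⟨k, hk⟩ := dvd_sub h2 h1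
    exact ⟨k, by linear_combination hk⟩
  have key : ∀ x, ∃ n : Gamma0 N,
      degGL q * A.rep x = gamma0GL N n * (A.rep (y x) * degGL q) ∧ aUnit N n = 1 := by
    intro x
    obtain ⟨k, hk⟩ := hy x
    refine ⟨⟨⟨!![1, -k; 0, 1], by simp [Matrix.det_fin_two_of]⟩, mem_Gamma0_of_dvd (by simp)⟩,
      ?_, Units.ext (by simp)⟩
    apply Units.ext
    rw [Units.val_mul, Units.val_mul, Units.val_mul, S.rep_eq, S.rep_eq, val_degGL hq0,
      ← qReal_ofSL, hyt, hyb]
    have hkR : ((S.shift (y x) : ℕ) : ℝ) - (q : ℝ) * (S.shift x : ℕ) = (S.bot x : ℕ) * (k : ℝ) := by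
      exact_mod_cast hk
    ext r s
    fin_cases r <;> fin_cases s <;>
      simp [qReal, QMat.ofSL, Matrix.mul_apply, Fin.sum_univ_two, mul_comm]
    linear_combination -hkR
  choose n hn using key
  exact ⟨Equiv.ofBijective y (Finite.injective_iff_bijective.mp hinj), n, fun x => (hn x).1,
    fun x => (hn x).2, hyt⟩

variable {A' : HeckeReps (gamma0GL (N * q)) ι} {a : ι → Rˣ} (S : TriSystem A p) (hp : 0 < p)
  (hpq : p.Coprime q) (hA : A'.rep = A.rep) (hat : ∀ x y, S.top x = S.top y → a x = a y)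
  (hc : IsWeight (gamChar χ) A a) (hc' : IsWeight (gamChar (chiUp χ q)) A' a)
  {V : Type u} [AddCommGroup V] [Module R V]

include hA in
omit [NeZero q] in
/-- Hecke operators commute with `degIncl`. -/
theorem op_degIncl (x : tH1 (gamChar χ) V) :
    hc'.op V (degIncl χ V x) = degIncl χ V (hc.op V x) :=
  hc'.op_pull hc (inclHom N q) 1 _ _ (Equiv.refl _) (fun _ => 1)
    (fun y => by simp [hA]) (fun y => by simp) x

include S hpq hA hat in
/-- Hecke operators commute with `degConj`. -/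
theorem op_degConj (x : tH1 (gamChar χ) V) :
    hc'.op V (degConj χ V x) = degConj χ V (hc.op V x) := by
  obtain ⟨σ, n, h1, h2, h3⟩ := exists_degPerm S hpq (NeZero.ne q)
  exact hc'.op_pull hc (conjHom N q) (degGL q) _ _ σ n (fun y => by simpa [hA] using h1 y)
    (fun y => by rw [gamChar_apply, h2, map_one, mul_one, hat _ _ (h3 y)]) x

include S hpq hA hat hc in
/-- Hecke operators commute with `degAL`. -/
theorem op_degAL [hq : Fact q.Prime] (h : Nat.Coprime q N)
    (x : tH1 (gamChar (chiUp χ q)) V) :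
    hc'.op V (degAL χ V h x) = degAL χ V h (hc'.op V x) := by
  obtain ⟨σ, n, h1, h2, h3⟩ := exists_degPerm S hpq (NeZero.ne q)
  let τ := σ.trans (A.permEquiv (alGamma h)).symm
  let δ : ι → Gamma0 N := fun y =>
    alGamma h * n y * (A.cocyc (alGamma h) (τ y))⁻¹
  have hτ : ∀ y, A.perm (alGamma h) (τ y) = σ y := fun y =>
    (A.permEquiv (alGamma h)).apply_symm_apply (σ y)
  have hrep : ∀ y, alGL h * A.rep y = gamma0GL N (δ y) * (A.rep (τ y) * alGL h) := by
    intro y
    have := A.rep_mul (alGamma h) (τ y)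
    rw [hτ] at this
    simp only [δ, alGL, map_mul, map_inv]
    rw [← mul_assoc (A.rep (τ y)), this, mul_assoc, h1]
    simp only [mul_assoc, inv_mul_cancel_left]
  have hmem : ∀ y, ((δ y : Gamma0 N) : SL(2, ℤ)) ∈ Gamma0 (N * q) := by
    intro y
    have hu := congrArg (fun g : GL (Fin 2) ℝ => (g : Matrix (Fin 2) (Fin 2) ℝ) 1 1) (hrep y)
    obtain ⟨e1, e2⟩ := alGamma_apply_one h
    have hW : (alGL h : Matrix (Fin 2) (Fin 2) ℝ) =
        !![(((alGamma h : Gamma0 N) : SL(2, ℤ)) 0 0 : ℝ) * q,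
          (((alGamma h : Gamma0 N) : SL(2, ℤ)) 0 1 : ℝ); (N : ℝ) * q, (q : ℝ)] := by
      ext r r'
      rw [alGL, Units.val_mul, val_degGL (NeZero.ne q)]
      fin_cases r <;> fin_cases r' <;>
        simp [Matrix.mul_apply, Fin.sum_univ_two, e1, e2]
    simp [hW, S.rep_eq, Matrix.mul_apply, Fin.sum_univ_two] at hu
    set t := S.top (τ y) with htdef
    set s := S.shift y
    set u := S.bot y
    set s' := S.shift (τ y)
    set u' := S.bot (τ y)
    set b := ((alGamma h : Gamma0 N) : SL(2, ℤ)) 0 1 with hb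
    set C := ((δ y : Gamma0 N) : SL(2, ℤ)) 1 0 with hC
    set E := ((δ y : Gamma0 N) : SL(2, ℤ)) 1 1
    have hz : (N : ℤ) * q * s + q * u = C * (t * b + s' * q) + E * (u' * q) := by
      exact_mod_cast hu
    refine mem_Gamma0_of_dvd ?_
    push_cast
    refine IsCoprime.mul_dvd (Int.isCoprime_iff_nat_coprime.mpr (by simpa using h.symm))
      (dvd_of_mem_Gamma0 (δ y).2) ?_
    have hzq := congrArg (Int.cast : ℤ → ZMod q) hz
    simp at hzq
    rw [← hC, ← ZMod.intCast_zmod_eq_zero_iff_dvd]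
    refine hzq.resolve_right ?_
    rintro (ht | hb0)
    · exact hq.out.one_lt.ne' (Nat.eq_one_of_dvd_coprimes hpq
        (((ZMod.natCast_eq_zero_iff _ _).mp ht).trans (Dvd.intro _ (S.det_eq (τ y))))
        dvd_rfl)
    · have hdet := Matrix.SpecialLinearGroup.det_coe ((alGamma h : Gamma0 N) : SL(2, ℤ))
      rw [Matrix.det_fin_two, e1, e2, ← hb] at hdet
      have := congrArg (Int.cast : ℤ → ZMod q) hdet
      simp [hb0] at this
  refine hc'.op_pull hc' (alHom h) (alGL h) _ _ τ (fun y => ⟨_, hmem y⟩) (fun y => ?_)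
    (fun y => ?_) x
  · rw [hA, ← gamma0GL_inclHom]
    exact hrep y
  · show a y * gamChar (chiUp χ q) ⟨_, hmem y⟩ = _
    rw [← gamChar_inclHom, show inclHom N q ⟨_, hmem y⟩ = δ y from Subtype.ext rfl]
    have hcomp := hc.compat (alGamma h) (τ y)
    rw [hτ, hat _ _ (h3 y)] at hcomp
    simp only [δ, map_mul, map_inv, gamChar_apply, h2, map_one, mul_one] at hcomp ⊢
    rw [← mul_assoc, ← mul_comm (χ (aUnit N (alGamma h))), ← hcomp, mul_inv_cancel_right]

variable [((Gamma0 (N * q)).subgroupOf (Gamma0 N)).FiniteIndex]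

include S hpq hA in
omit [NeZero q] in
/-- Hecke operators commute with `degCor`. -/
theorem op_degCor [hq : Fact q.Prime] (h : Nat.Coprime q N)
    (x : tH1 (gamChar (chiUp χ q)) V) :
    hc.op V (degCor χ V x) = degCor χ V (hc'.op V x) := by
  classical
  let c : (Gamma0 N ⧸ (Gamma0 (N * q)).subgroupOf (Gamma0 N)) × ι → Gamma0 N :=
    fun z => A.cocyc z.1.out⁻¹ z.2
  let σ : (Gamma0 N ⧸ (Gamma0 (N * q)).subgroupOf (Gamma0 N)) × ι →
      ι × (Gamma0 N ⧸ (Gamma0 (N * q)).subgroupOf (Gamma0 N)) :=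
    fun z => (A.perm z.1.out⁻¹ z.2, (((c z)⁻¹ : Gamma0 N) : Gamma0 N ⧸ _))
  have hd : ∀ z, ∃ d : Gamma0 (N * q), inclHom N q d = c z * (σ z).2.out := by
    intro z
    have hmem : c z * (σ z).2.out ∈ (Gamma0 (N * q)).subgroupOf (Gamma0 N) := by
      have := QuotientGroup.eq.mp (QuotientGroup.out_eq' (σ z).2).symm
      simpa [σ] using this
    exact ⟨⟨_, Subgroup.mem_subgroupOf.mp hmem⟩, Subtype.ext rfl⟩
  choose d hd using hd
  have hrep : ∀ z, A.rep z.2 * gamma0GL N z.1.out⁻¹ =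
      gamma0GL (N * q) (d z) * (gamma0GL N (σ z).2.out⁻¹ * A.rep (σ z).1) := by
    intro z
    rw [← gamma0GL_inclHom, hd, map_mul, map_inv, map_inv, mul_assoc, mul_inv_cancel_left,
      ← map_inv]
    exact A.rep_mul z.1.out⁻¹ z.2
  have hinj : Function.Injective σ := by
    intro z w hzw
    let η : Gamma0 (N * q) := d z * (d w)⁻¹
    let T : Gamma0 N := z.1.out⁻¹ * w.1.out
    have e : A.rep z.2 * gamma0GL N T = gamma0GL (N * q) η * A.rep w.2 := by
      have hw := hrep w
      rw [← hzw, ← inv_mul_eq_iff_eq_mul, ← map_inv] at hw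
      have hz := hrep z
      rw [← hw, ← mul_assoc, ← mul_assoc, ← map_mul] at hz
      simp only [T, η, map_mul, map_inv]
      simp only [map_mul, map_inv] at hz
      rw [← mul_assoc, hz, mul_assoc (_ * A.rep w.2), inv_mul_cancel, mul_one]
    have hu := congrArg (fun g : GL (Fin 2) ℝ => (g : Matrix (Fin 2) (Fin 2) ℝ) 1 0) e
    simp [S.rep_eq, Matrix.mul_apply, Fin.sum_univ_two] at hu
    have hz : (S.bot z.2 : ℤ) * (T : SL(2, ℤ)) 1 0 =
        (η : SL(2, ℤ)) 1 0 * S.top w.2 := by exact_mod_cast hu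
    have hTmem : T ∈ (Gamma0 (N * q)).subgroupOf (Gamma0 N) := by
      rw [Subgroup.mem_subgroupOf]
      refine mem_Gamma0_of_dvd ?_
      push_cast
      refine IsCoprime.mul_dvd (Int.isCoprime_iff_nat_coprime.mpr (by simpa using h.symm))
        (dvd_of_mem_Gamma0 T.2) ?_
      have hzq := congrArg (Int.cast : ℤ → ZMod q) hz
      have h0 : (((η : SL(2, ℤ)) 1 0 : ℤ) : ZMod q) = 0 :=
        (ZMod.intCast_zmod_eq_zero_iff_dvd _ _).mpr (dvd_lowerLeft_right η.2)
      simp [h0] at hzq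
      rw [← ZMod.intCast_zmod_eq_zero_iff_dvd]
      refine hzq.resolve_left fun hb => ?_
      exact hq.out.one_lt.ne' (Nat.eq_one_of_dvd_coprimes hpq
        (((ZMod.natCast_eq_zero_iff _ _).mp hb).trans (Dvd.intro_left _ (S.det_eq z.2)))
        dvd_rfl)
    have hy : z.1 = w.1 := by
      rw [← QuotientGroup.out_eq' z.1, ← QuotientGroup.out_eq' w.1]
      exact QuotientGroup.eq.mpr hTmem
    refine Prod.ext hy ?_
    have := congrArg Prod.fst hzw
    simp only [σ, hy] at this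
    exact A.perm_injective _ this
  have hσ : Function.Bijective σ := (Fintype.bijective_iff_injective_and_card σ).mpr
    ⟨hinj, by simp [mul_comm]⟩
  rw [← TSys.op_ofWeight hc, ← TSys.op_ofWeight hc', ← TSys.op_comp, ← TSys.op_comp]
  symm
  refine TSys.op_eq_of_rep _ _ gamma0GL_injective ?_ (Equiv.ofBijective σ hσ) d (fun z => ?_)
    (fun z => ?_) x
  · rintro ⟨x₁, y₁⟩ ⟨x₂, y₂⟩ η hη
    simp only [TSys.comp_rep, TSys.ofWeight_rep, corSys] at hη
    have hη' : gamma0GL N (y₂.out * inclHom N q η * y₁.out⁻¹) * A.rep x₁ = A.rep x₂ := by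
      rw [map_mul, map_mul, gamma0GL_inclHom, mul_assoc, mul_assoc, hη, map_inv,
        mul_inv_cancel_left]
    have hx : x₁ = x₂ := A.unique _ _ _ hη'
    subst hx
    refine Prod.ext rfl ?_
    have h1 : y₂.out * inclHom N q η * y₁.out⁻¹ = 1 :=
      gamma0GL_injective (by simpa using hη')
    rw [← QuotientGroup.out_eq' y₁, ← QuotientGroup.out_eq' y₂]
    refine (QuotientGroup.eq.mpr ?_).symm
    rw [mul_inv_eq_one] at h1
    have : y₂.out⁻¹ * y₁.out = inclHom N q η := by
      rw [← h1, inv_mul_cancel_left]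
    rw [this]
    exact Subgroup.mem_subgroupOf.mpr η.2
  · simp only [TSys.comp_rep, TSys.ofWeight_rep, hA]
    exact hrep z
  · simp only [TSys.comp_w, TSys.ofWeight_w, Equiv.ofBijective_apply]
    show gamChar χ z.1.out * a z.2 * gamChar (chiUp χ q) (d z) =
      a (σ z).1 * gamChar χ (σ z).2.out
    rw [← gamChar_inclHom, hd, map_mul, mul_assoc, ← mul_assoc (a _),
      hc.compat, map_inv, ← mul_assoc, ← mul_assoc, mul_inv_cancel, one_mul]

include S hpq hA hat in
omit [((Gamma0 (N * q)).subgroupOf (Gamma0 N)).FiniteIndex] in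
/-- Hecke operators commute with `degI`. -/
theorem op_degI (x : tH1 (gamChar χ) V × tH1 (gamChar χ) V) :
    hc'.op V (degI χ V x) = degI χ V (hc.op V x.1, hc.op V x.2) := by
  simp only [degI, LinearMap.coprod_apply, map_add, op_degIncl χ hA hc hc',
    op_degConj χ S hpq hA hat hc hc']

include S hpq hA hat in
/-- Hecke operators commute with `degJ`. -/
theorem op_degJ [hq : Fact q.Prime] (h : Nat.Coprime q N) (x : tH1 (gamChar (chiUp χ q)) V) :
    (hc.op V (degJ χ V h x).1, hc.op V (degJ χ V h x).2) = degJ χ V h (hc'.op V x) := by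
  simp only [degJ, LinearMap.prod_apply, Function.prod, LinearMap.comp_apply,
    op_degCor χ S hpq hA hc hc' h, op_degAL χ S hpq hA hat hc hc' h]

end hecke

end FLTA.RT
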