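import Fermat.Agent.RT.HeckeLocalDegAlg
import Fermat.Agent.RT.HeckeLocalControl
import Fermat.Agent.RT.HeckeLocalBoundary
import Fermat.Agent.RT.RaiseCoeff
import Fermat.Agent.LevelRaising.AssemblyIdentities

/-!
# Adding an auxiliary prime to the level

At a non-Eisenstein residual system `a` and a prime `q ∤ N` with a simple root `α` of
`X² - a_q X + q`, `α² ≠ 1`, `(q+1) α ≠ a_q` in the residue field, the factor of
`Hom(Γ₀(N q), O)` at `U_q ≡ α` is isomorphic to the factor of `Hom(Γ₀(N), O)` at `T_q ≡ a_q`.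
-/

set_option autoImplicit false
set_option linter.unusedSectionVars false

noncomputable section

open IsLocalRing CongruenceSubgroup

universe u

namespace FLTA.RT

open FLTA.Periods FLTA.LevelRaising FLTA.Gamma0

variable {O : Type u} [CommRing O] [IsLocalRing O] [IsNoetherianRing O]
  [IsAdicComplete (maximalIdeal O) O]

section reindex

variable {A : Type u} [Ring A] [Algebra O A] [Module.Finite O A] {σ τ : Type*}

/-- The idempotent only depends on the set of operators with residues. -/
theorem localIdem_reindex {T : σ → A} (hT : ∀ s t, Commute (T s) (T t)) (a : σ → O) (f : τ → σ)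
    (hf : Function.Surjective f) : localIdem (T ∘ f) (a ∘ f) = localIdem T a := by
  have hTf : ∀ s t, Commute ((T ∘ f) s) ((T ∘ f) t) := fun s t => hT _ _
  have h1 := localIdem_mul_of_residue (T₀ := T ∘ f) (b := a ∘ f) (r := a ∘ f) hT
    (fun t => hasResidue_op T a (f t)) (fun t => by rw [sub_self]; exact zero_mem _)
  have h2 := localIdem_mul_of_residue (T₀ := T) (b := a) (r := a) hTf
    (fun s => by
      obtain ⟨t, rfl⟩ := hf s
      exact hasResidue_op (T ∘ f) (a ∘ f) t) (fun t => by rw [sub_self]; exact zero_mem _)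
  have hc : Commute (localIdem T a) (localIdem (T ∘ f) (a ∘ f)) :=
    commute_localIdem hTf (a ∘ f) fun t => (localIdem_comm hT a (f t)).symm
  calc localIdem (T ∘ f) (a ∘ f) = localIdem T a * localIdem (T ∘ f) (a ∘ f) := h2.symm
    _ = localIdem (T ∘ f) (a ∘ f) * localIdem T a := hc.eq
    _ = localIdem T a := h1

end reindex

/-- A submodule stable under the operators and containing the image of the idempotent carries
the whole factor. -/
theorem exists_equiv_restrict {H : Type u} [AddCommGroup H] [Module O H] [Module.Finite O H]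
    {σ : Type*} {T : σ → Module.End O H} (hT : ∀ s t, Commute (T s) (T t)) (a : σ → O)
    (P : Submodule O H) (hP : ∀ s, ∀ x ∈ P, T s x ∈ P)
    (hmem : ∀ x, localIdem T a x ∈ P) :
    ∃ ι : LinearMap.range (localIdem (fun s => (T s).restrict (hP s)) a) ≃ₗ[O]
        LinearMap.range (localIdem T a), ∀ x, (ι x : H) = ((x : P) : H) := by
  have hTP : ∀ s t, Commute ((T s).restrict (hP s)) ((T t).restrict (hP t)) := fun s t =>
    LinearMap.ext fun x => Subtype.ext (LinearMap.congr_fun (hT s t).eq (x : H))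
  have hsub : ∀ x : P, ((localIdem (fun s => (T s).restrict (hP s)) a x : P) : H) =
      localIdem T a (x : H) := fun x =>
    localIdem_comm_map hTP hT a P.subtype (fun _ _ => rfl) x
  let f : LinearMap.range (localIdem (fun s => (T s).restrict (hP s)) a) →ₗ[O]
      LinearMap.range (localIdem T a) :=
    (P.subtype.comp (LinearMap.range _).subtype).codRestrict _ fun x => by
      obtain ⟨_, y, rfl⟩ := x
      exact ⟨(y : H), (hsub y).symm⟩
  refine ⟨LinearEquiv.ofBijective f ⟨fun x y h => ?_, ?_⟩, fun x => rfl⟩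
  · have h' : ((f x : LinearMap.range (localIdem T a)) : H) = f y := by rw [h]
    exact Subtype.ext (Subtype.ext h')
  · rintro ⟨_, y, rfl⟩
    refine ⟨⟨_, ⟨⟨_, hmem y⟩, rfl⟩⟩, Subtype.ext ?_⟩
    show ((localIdem (fun s => (T s).restrict (hP s)) a ⟨_, hmem y⟩ : P) : H) = localIdem T a y
    rw [hsub]
    exact LinearMap.congr_fun (isIdempotentElem_localIdem hT a).eq y

variable {N q : ℕ}

/-- The trivial twist. -/
theorem triv_one (L : ℕ) (γ : Gamma0 L) (v : O) :
    ((gamChar (1 : (ZMod L)ˣ →* Oˣ) γ : Oˣ) : O) • v = v := by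
  rw [gamChar_apply, MonoidHom.one_apply, Units.val_one, one_smul]

/-- Hecke operators on homomorphisms commute. -/
theorem commute_heckeHom [NeZero N] {l m : ℕ} (hl : l.Prime) (hm : m.Prime) :
    Commute (heckeHom O N l : Module.End O (Additive (Gamma0 N) →+ O)) (heckeHom O N m) := by
  refine LinearMap.ext fun φ => ?_
  obtain ⟨x, rfl⟩ := (tH1EquivHom (triv_one (O := O) N)).surjective φ
  simp only [Module.End.mul_apply, ← tH1EquivHom_natHecke _ _ hl, ← tH1EquivHom_natHecke _ _ hm]
  rw [natHecke_comm _ hl hm]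

/-- A prime congruent to `1` modulo `M` does not divide `M`. -/
theorem not_dvd_of_natCast_eq_one {l M : ℕ} (hl : l.Prime) (h : (l : ZMod M) = 1) : ¬ l ∣ M := by
  intro hd
  have h1 := congrArg (ZMod.castHom hd (ZMod l)) h
  haveI := Fact.mk hl
  rw [map_natCast, map_one, ZMod.natCast_self] at h1
  exact zero_ne_one h1

/-- A family of Hecke operators on homomorphisms of `Γ₀(M)`. -/
abbrev gamHecke (O : Type u) [CommRing O] (M : ℕ) [NeZero M] {σ : Type*} (pr : σ → ℕ) :
    σ → Module.End O (Additive (Gamma0 M) →+ O) :=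
  fun s => heckeHom O M (pr s)

section degeneracy

variable [NeZero N] [NeZero q]

/-- The trivial twist at level `N q`. -/
theorem triv_one_up (γ : Gamma0 (N * q)) (v : O) :
    ((gamChar (chiUp (1 : (ZMod N)ˣ →* Oˣ) q) γ : Oˣ) : O) • v = v := by
  rw [← gamChar_inclHom]
  exact triv_one N _ v

theorem equivHom_degIncl (x : tH1 (gamChar (1 : (ZMod N)ˣ →* Oˣ)) O) :
    tH1EquivHom (triv_one_up (O := O)) (degIncl (q := q) 1 O x) =
      inclRes N q (tH1EquivHom (triv_one (O := O) N) x) := by
  obtain ⟨f, rfl⟩ := tClass_surjective (gamChar (1 : (ZMod N)ˣ →* Oˣ)) x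
  refine AddMonoidHom.ext fun γ => ?_
  show ∑ _u : Unit, ((1 : Oˣ) : O) • f.1 (inclHom N q (Additive.toMul γ)) = _
  simp
  rfl

theorem equivHom_degConj (x : tH1 (gamChar (1 : (ZMod N)ˣ →* Oˣ)) O) :
    tH1EquivHom (triv_one_up (O := O)) (degConj (q := q) 1 O x) =
      conjRes N q (tH1EquivHom (triv_one (O := O) N) x) := by
  obtain ⟨f, rfl⟩ := tClass_surjective (gamChar (1 : (ZMod N)ˣ →* Oˣ)) x
  refine AddMonoidHom.ext fun γ => ?_
  show ∑ _u : Unit, ((1 : Oˣ) : O) • f.1 (conjHom N q (Additive.toMul γ)) = _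
  simp
  rfl

/-- Hecke operators at primes other than `q` commute with both restrictions. -/
theorem heckeHom_restrictions (hq : q.Prime) {r : ℕ} (hr : r.Prime) (hrq : r ≠ q)
    (x : Additive (Gamma0 N) →+ O) :
    heckeHom O (N * q) r (inclRes N q x) = inclRes N q (heckeHom O N r x) ∧
      heckeHom O (N * q) r (conjRes N q x) = conjRes N q (heckeHom O N r x) := by
  haveI := Fact.mk hr
  haveI : NeZero r := ⟨hr.ne_zero⟩
  set χ : (ZMod N)ˣ →* Oˣ := 1
  obtain ⟨y, rfl⟩ := (tH1EquivHom (triv_one (O := O) N)).surjective x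
  have hco : r.Coprime q := (Nat.coprime_primes hr hq).mpr hrq
  by_cases hd : r ∣ N
  · have hd' : r ∣ N * q := hd.mul_right q
    have hA : (repsU hd').rep = (repsU hd).rep := rfl
    have hc := isWeight_U χ hd
    have hc' := isWeight_chiUp χ hA hc
    have e : ∀ z, tH1EquivHom (triv_one_up (O := O) (N := N) (q := q)) (hc'.op O z) =
        heckeHom O (N * q) r (tH1EquivHom (triv_one_up (O := O) (N := N) (q := q)) z) := fun z => by
      rw [heckeHom_of_dvd O hd']
      exact tH1EquivHom_op hc' (fun _ => ⟨1, map_one _⟩) _ z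
    have e₀ : tH1EquivHom (triv_one (O := O) N) (hc.op O y) =
        heckeHom O N r (tH1EquivHom (triv_one (O := O) N) y) := by
      rw [heckeHom_of_dvd O hd]
      exact tH1EquivHom_op hc (fun _ => ⟨1, map_one _⟩) _ y
    constructor
    · rw [← equivHom_degIncl, ← e, op_degIncl χ hA hc hc', equivHom_degIncl, e₀]
    · rw [← equivHom_degConj, ← e,
        op_degConj χ (triU hd) hco hA (fun _ _ _ => rfl) hc hc', equivHom_degConj, e₀]
  · have hd' : ¬ r ∣ N * q := fun h => (hr.dvd_mul.mp h).elim hd fun h =>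
      hrq ((Nat.prime_dvd_prime_iff_eq hr hq).mp h)
    have hA : (repsT hd').rep = (repsT hd).rep := rfl
    have hc := isWeight_T χ hd (coprime_of_not_dvd hd)
    have hc' := isWeight_chiUp χ hA hc


    have hw : ∀ z, hwT χ (coprime_of_not_dvd hd) z = 1 := fun z => by
      rw [hwT_eq, MonoidHom.one_apply, inv_one]
    have e : ∀ z, tH1EquivHom (triv_one_up (O := O) (N := N) (q := q)) (hc'.op O z) =
        heckeHom O (N * q) r (tH1EquivHom (triv_one_up (O := O) (N := N) (q := q)) z) := fun z => by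
      rw [heckeHom_of_not_dvd O hr hd']
      exact tH1EquivHom_op hc' (fun u => ⟨1, by rw [map_one, hw]⟩) _ z
    have e₀ : tH1EquivHom (triv_one (O := O) N) (hc.op O y) =
        heckeHom O N r (tH1EquivHom (triv_one (O := O) N) y) := by
      rw [heckeHom_of_not_dvd O hr hd]
      exact tH1EquivHom_op hc (hwT_mem_range χ _) _ y
    constructor
    · rw [← equivHom_degIncl, ← e, op_degIncl χ hA hc hc', equivHom_degIncl, e₀]
    · rw [← equivHom_degConj, ← e,
        op_degConj χ (triT hd) hco hA (hwT_congr χ hd _) hc hc', equivHom_degConj, e₀]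

variable {σ : Type*}

/-- The factor is made of homomorphisms killing every element of small trace. -/
theorem localIdem_mem_homPar0 {M : ℕ} [NeZero M] (pr : σ → ℕ) (hpr : ∀ s, (pr s).Prime)
    (a : σ → O) (s₀ : σ) (hs₀ : (pr s₀ : ZMod M) = 1) (hM1 : ¬ pr s₀ ∣ M)
    (ha : IsUnit (a s₀ - ((pr s₀ : O) + 1))) (h2 : ∀ x : O, x + x = 0 → x = 0)
    (hell : ∀ φ : Additive (Gamma0 M) →+ O, ModularCurve.Period.IsParabolicHom (Gamma0 M) φ →
      IsParHom0 (Gamma0 M) φ) (φ : Additive (Gamma0 M) →+ O) :
    localIdem (gamHecke O M pr) a φ ∈ homPar0 O (Gamma0 M) O := by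
  haveI := Fact.mk (hpr s₀)
  haveI := finite_addHom (L := M) (O := O) O
  have hT : ∀ s t, Commute (heckeHom O M (pr s) : Module.End O (Additive (Gamma0 M) →+ O))
      (heckeHom O M (pr t)) := fun s t => commute_heckeHom (hpr s) (hpr t)
  obtain ⟨z, hz, he⟩ := exists_mul_sub_eq_localIdem hT a s₀ ha
  have hzc : Commute (heckeHom O M (pr s₀) : Module.End O (Additive (Gamma0 M) →+ O)) z :=
    Algebra.commute_of_mem_adjoin_of_forall_mem_commute hz fun b hb => by
      obtain ⟨t, rfl⟩ := hb; exact hT s₀ t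
  have h0 : localIdem (gamHecke O M pr) a φ =
      heckeHom O M (pr s₀) (z φ) - (pr s₀ + 1) • z φ := by
    rw [he]
    simp only [Module.End.mul_apply, LinearMap.sub_apply, Module.algebraMap_end_apply, map_sub,
      map_smul]
    rw [← Module.End.mul_apply z, ← hzc.eq, Module.End.mul_apply, ← Nat.cast_succ,
      Nat.cast_smul_eq_nsmul]
  rw [h0]
  refine hell _ (isParabolicHom_of_eisenstein O (fun x hx => ?_) hM1 hs₀ (z φ))
  exact h2 x (by rwa [two_nsmul] at hx)

variable (pr : σ → ℕ) (hpr : ∀ s, (pr s).Prime) (a : σ → O) (sq : σ)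

open Classical in
include hpr in
/-- **Adding an auxiliary prime.** -/
theorem exists_equiv_addPrime (hsq : ∀ s, pr s = q ↔ s = sq) (hqN : ¬ q ∣ N) (α : O)
    (s₀ : σ) (hs₀ : (pr s₀ : ZMod (N * q)) = 1) (ha₀ : IsUnit (a s₀ - ((pr s₀ : O) + 1)))
    (h2 : ∀ x : O, x + x = 0 → x = 0) (hqu : IsUnit (q : O))
    (hell : ∀ M : ℕ, M = N ∨ M = N * q → ∀ φ : Additive (Gamma0 M) →+ O,
      ModularCurve.Period.IsParabolicHom (Gamma0 M) φ → IsParHom0 (Gamma0 M) φ)
    (hα : α * α - a sq * α + q ∈ maximalIdeal O) (hsimple : IsUnit (α + α - a sq))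
    (hα1 : IsUnit (α * α - 1)) (hdist : IsUnit (((q : O) + 1) * α - a sq)) :
    ∃ Φ : LinearMap.range (localIdem (gamHecke O N pr) a) ≃ₗ[O]
        LinearMap.range
          (localIdem (gamHecke O (N * q) pr) (Function.update a sq α)),
      ∀ r : ℕ, r.Prime → r ≠ q → ∀ x y : LinearMap.range (localIdem (gamHecke O N pr) a),
        y.1 = heckeHom O N r x.1 → (Φ y).1 = heckeHom O (N * q) r (Φ x).1 := by
  have hqp : q.Prime := (hsq sq).mpr rfl ▸ hpr sq
  haveI := Fact.mk hqp
  haveI : NeZero (N * q) := ⟨mul_ne_zero (NeZero.ne N) (NeZero.ne q)⟩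
  have hcop : Nat.Coprime q N := hqp.coprime_iff_not_dvd.mpr hqN
  have hs₀N : (pr s₀ : ZMod N) = 1 := by
    simpa using congrArg (ZMod.castHom (dvd_mul_right N q) (ZMod N)) hs₀
  haveI := Fact.mk (hpr s₀)
  have hs₀Nq : ¬ pr s₀ ∣ N * q := not_dvd_of_natCast_eq_one (hpr s₀) hs₀
  have hne : s₀ ≠ sq := fun h => hs₀Nq ((hsq s₀).mpr h ▸ dvd_mul_left q N)
  haveI := finite_addHom (L := N) (O := O) O
  haveI := finite_addHom (L := N * q) (O := O) O
  have hT : ∀ s t, Commute (heckeHom O N (pr s) : Module.End O (Additive (Gamma0 N) →+ O))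
      (heckeHom O N (pr t)) := fun s t => commute_heckeHom (hpr s) (hpr t)
  have hT' : ∀ s t, Commute (heckeHom O (N * q) (pr s) :
      Module.End O (Additive (Gamma0 (N * q)) →+ O)) (heckeHom O (N * q) (pr t)) :=
    fun s t => commute_heckeHom (hpr s) (hpr t)
  set P := homPar0 O (Gamma0 N) O
  set P' := homPar0 O (Gamma0 (N * q)) O
  have hP : ∀ s, ∀ x ∈ P, heckeHom O N (pr s) x ∈ P := fun s _ hx =>
    heckeHom_mem_homPar0 O (pr s) hx
  have hP' : ∀ s, ∀ x ∈ P', heckeHom O (N * q) (pr s) x ∈ P' := fun s _ hx =>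
    heckeHom_mem_homPar0 O (pr s) hx
  haveI : Module.Finite O P := Module.Finite.iff_fg.mpr (IsNoetherian.noetherian P)
  haveI : Module.Finite O P' := Module.Finite.iff_fg.mpr (IsNoetherian.noetherian P')
  have hmem : ∀ x, localIdem (gamHecke O N pr) a x ∈ P := fun x =>
    localIdem_mem_homPar0 pr hpr a s₀ hs₀N
      (fun h => hs₀Nq (h.mul_right q)) ha₀ h2 (hell N (Or.inl rfl)) x
  have hmem' : ∀ x, localIdem (gamHecke O (N * q) pr) (Function.update a sq α) x
      ∈ P' := fun x =>
    localIdem_mem_homPar0 pr hpr _ s₀ hs₀ hs₀Nq (by rwa [Function.update_of_ne hne]) h2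
      (hell (N * q) (Or.inr rfl)) x
  let U : σ → Module.End O P := fun s => (heckeHom O N (pr s)).restrict (hP s)
  let U' : σ → Module.End O P' := fun s => (heckeHom O (N * q) (pr s)).restrict (hP' s)
  have hU : ∀ s t, Commute (U s) (U t) := fun s t =>
    LinearMap.ext fun x => Subtype.ext (LinearMap.congr_fun (hT s t).eq x.1)
  have hU' : ∀ s t, Commute (U' s) (U' t) := fun s t =>
    LinearMap.ext fun x => Subtype.ext (LinearMap.congr_fun (hT' s t).eq x.1)
  let τ := {s : σ // s ≠ sq}
  let f : Option τ → σ := fun o => o.elim sq Subtype.val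
  have hf : Function.Surjective f := fun s => by
    by_cases h : s = sq
    · exact ⟨none, h.symm⟩
    · exact ⟨some ⟨s, h⟩, rfl⟩
  have hfi : ∀ (X : σ → Module.End O P), addOp (fun s : τ => X s) (X sq) = X ∘ f := fun X =>
    funext fun o => by cases o <;> rfl
  have hfi' : ∀ (X : σ → Module.End O P'), addOp (fun s : τ => X s) (X sq) = X ∘ f := fun X =>
    funext fun o => by cases o <;> rfl
  -- degeneracy maps
  let i₁ : P →ₗ[O] P' :=
    { toFun := fun x => ⟨inclRes N q x.1, isParHom0_inclRes x.2⟩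
      map_add' := fun x y => Subtype.ext (AddMonoidHom.ext fun _ => rfl)
      map_smul' := fun c x => Subtype.ext (AddMonoidHom.ext fun _ => rfl) }
  let i₂ : P →ₗ[O] P' :=
    { toFun := fun x => ⟨conjRes N q x.1, isParHom0_conjRes x.2⟩
      map_add' := fun x y => Subtype.ext (AddMonoidHom.ext fun _ => rfl)
      map_smul' := fun c x => Subtype.ext (AddMonoidHom.ext fun _ => rfl) }
  haveI : ((Gamma0 (N * q)).subgroupOf (Gamma0 N)).FiniteIndex := inferInstance
  haveI := Fintype.ofFinite (Gamma0 N ⧸ (Gamma0 (N * q)).subgroupOf (Gamma0 N))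
  let j : P' →ₗ[O] P :=
    { toFun := fun y => ⟨corRes y.1, corHom_isParHom0 y.2⟩
      map_add' := fun x y => Subtype.ext (AddMonoidHom.ext fun g => by
        show ∑ᶠ z, (x.1 + y.1) (Additive.ofMul (corElt (Additive.toMul g) z)) = _
        simp only [finsum_eq_sum_of_fintype, AddMonoidHom.add_apply, Finset.sum_add_distrib,
          Submodule.coe_add]
        show _ = (∑ᶠ z, x.1 _) + ∑ᶠ z, y.1 _
        simp only [finsum_eq_sum_of_fintype])
      map_smul' := fun c x => Subtype.ext (AddMonoidHom.ext fun g => by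
        show ∑ᶠ z, (c • x.1) (Additive.ofMul (corElt (Additive.toMul g) z)) = _
        simp only [finsum_eq_sum_of_fintype, RingHom.id_apply]
        show ∑ z, c • x.1 _ = c • ∑ᶠ z, x.1 _
        rw [finsum_eq_sum_of_fintype, Finset.smul_sum]) }
  have hpar : ∀ {M : ℕ} {x : Additive (Gamma0 M) →+ O}, IsParHom0 (Gamma0 M) x →
      ModularCurve.Period.IsParabolicHom (Gamma0 M) x := fun h => isParabolicHom_of_isParHom0 h
  -- the relations
  have hal : ∀ y : P', inclRes N q (corRes (alRes hcop y.1)) =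
      heckeHom O (N * q) q y.1 + alRes hcop y.1 := fun y =>
    inclRes_corRes_alRes O hqN hcop (hpar y.2)
  have hUi₂ : ∀ x : P, heckeHom O (N * q) q (conjRes N q x.1) = (q : O) • inclRes N q x.1 := by
    intro x
    have h : inclRes N q (corRes (alRes hcop (conjRes N q x.1))) =
        heckeHom O (N * q) q (conjRes N q x.1) + alRes hcop (conjRes N q x.1) := hal (i₂ x)
    rw [alRes_conjRes hcop x.1, corRes_inclRes hqN] at h
    refine (add_right_cancel (b := inclRes N q x.1) ?_)
    rw [← h]
    refine AddMonoidHom.ext fun z => ?_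
    show ((q + 1) • x.1) (MonoidHom.toAdditive (inclHom N q) z) =
      (q : O) • inclRes N q x.1 z + inclRes N q x.1 z
    rw [AddMonoidHom.nsmul_apply, nsmul_eq_mul, Nat.cast_succ, add_mul, one_mul, smul_eq_mul]
    rfl
  have hUi₁ : ∀ x : P, heckeHom O (N * q) q (inclRes N q x.1) =
      inclRes N q (heckeHom O N q x.1) - conjRes N q x.1 := by
    intro x
    have h : inclRes N q (corRes (alRes hcop (inclRes N q x.1))) =
        heckeHom O (N * q) q (inclRes N q x.1) + alRes hcop (inclRes N q x.1) := hal (i₁ x)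
    rw [alRes_inclRes hcop x.1, corRes_conjRes O hqN (hpar x.2)] at h
    rw [h, add_sub_cancel_right]
  have hq' : pr sq = q := (hsq sq).mpr rfl
  let D : DegData (fun s : τ => U s) (fun s : τ => U' s) (q : O) :=
    { Tq := U sq
      U := U' sq
      i₁ := i₁
      i₂ := i₂
      j := j
      comm := fun s t => by rw [hfi U]; exact hU _ _
      comm' := fun s t => by rw [hfi' U']; exact hU' _ _
      i₁_op := fun s x => Subtype.ext (heckeHom_restrictions hqp (hpr s.1)
        (fun h => s.2 ((hsq s.1).mp h)) x.1).1.symm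
      i₂_op := fun s x => Subtype.ext (heckeHom_restrictions hqp (hpr s.1)
        (fun h => s.2 ((hsq s.1).mp h)) x.1).2.symm
      j_i₁ := fun x => Subtype.ext <| by
        show corRes (inclRes N q x.1) = ((q : O) + 1) • x.1
        rw [corRes_inclRes hqN, ← Nat.cast_succ, Nat.cast_smul_eq_nsmul]
      j_i₂ := fun x => Subtype.ext <| by
        show corRes (conjRes N q x.1) = heckeHom O N (pr sq) x.1
        rw [hq', corRes_conjRes O hqN (hpar x.2)]
      U_i₁ := fun x => Subtype.ext <| by
        show heckeHom O (N * q) (pr sq) (inclRes N q x.1) =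
          inclRes N q (heckeHom O N (pr sq) x.1) - conjRes N q x.1
        rw [hq', hUi₁]
      U_i₂ := fun x => Subtype.ext <| by
        show heckeHom O (N * q) (pr sq) (conjRes N q x.1) = (q : O) • inclRes N q x.1
        rw [hq', hUi₂]
      sq_sub_one := fun y => by
        let wy : P' := ⟨alRes hcop y.1, isParHom0_alRes hcop y.2⟩
        have hU1 : ∀ v : P', U' sq v = i₁ (j ⟨alRes hcop v.1, isParHom0_alRes hcop v.2⟩) -
            ⟨alRes hcop v.1, isParHom0_alRes hcop v.2⟩ := fun v => Subtype.ext <| by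
          show heckeHom O (N * q) (pr sq) v.1 =
            inclRes N q (corRes (alRes hcop v.1)) - alRes hcop v.1
          rw [hq', hal v, add_sub_cancel_right]
        have hwy : U' sq wy = i₁ (j y) - y := by
          rw [hU1 wy]
          have : (⟨alRes hcop wy.1, isParHom0_alRes hcop wy.2⟩ : P') = y :=
            Subtype.ext (alRes_alRes hcop y.1)
          rw [this]
        have hUi : U' sq (i₁ (j wy)) = i₁ (U sq (j wy)) - i₂ (j wy) := Subtype.ext <| by
          show heckeHom O (N * q) (pr sq) (inclRes N q (j wy).1) =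
            inclRes N q (heckeHom O N (pr sq) (j wy).1) - conjRes N q (j wy).1
          rw [hq', hUi₁]
        rw [hU1 y, map_sub, hwy, hUi]
        refine Submodule.mem_sup.mpr ⟨i₁ (U sq (j wy) - j y), ⟨_, rfl⟩, i₂ (-j wy), ⟨_, rfl⟩, ?_⟩
        rw [map_sub, map_neg]
        abel }
  obtain ⟨Φ, hΦ⟩ := D.exists_equiv (fun s : τ => a s) (aq := a sq) (α := α) hqu hα1 hdist hα
    hsimple
  have hupd : addOp (fun s : τ => a s) α = Function.update a sq α ∘ f := funext fun o => by
    rcases o with _ | s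
    · exact (Function.update_self sq α a).symm
    · exact (Function.update_of_ne s.2 α a).symm
  have hupd₀ : addOp (fun s : τ => a s) (a sq) = a ∘ f := funext fun o => by cases o <;> rfl
  have el : D.lowIdem (fun s : τ => a s) (a sq) = localIdem U a := by
    show localIdem (addOp (fun s : τ => U s) (U sq)) _ = _
    rw [hfi U, hupd₀]
    exact localIdem_reindex hU a f hf
  have eh : D.highIdem (fun s : τ => a s) α = localIdem U' (Function.update a sq α) := by
    show localIdem (addOp (fun s : τ => U' s) (U' sq)) _ = _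
    rw [hfi' U', hupd]
    exact localIdem_reindex hU' _ f hf
  obtain ⟨ι, hι⟩ := exists_equiv_restrict hT a P hP hmem
  obtain ⟨ι', hι'⟩ := exists_equiv_restrict hT' (Function.update a sq α) P' hP' hmem'
  let c₁ := LinearEquiv.ofEq _ _ (congrArg LinearMap.range el.symm)
  let c₂ := LinearEquiv.ofEq _ _ (congrArg LinearMap.range eh)
  refine ⟨(ι.symm.trans c₁).trans (Φ.trans (c₂.trans ι')), fun r hr hrq x y hy => ?_⟩
  let X : Module.End O P := (heckeHom O N r).restrict fun _ hx => heckeHom_mem_homPar0 O r hx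
  let X' : Module.End O P' :=
    (heckeHom O (N * q) r).restrict fun _ hx => heckeHom_mem_homPar0 O r hx
  have key : ((c₁ (ι.symm y) : LinearMap.range (D.lowIdem (fun s : τ => a s) (a sq))) : P) =
      X ((c₁ (ι.symm x) : LinearMap.range (D.lowIdem (fun s : τ => a s) (a sq))) : P) := by
    refine Subtype.ext ?_
    show ((ι.symm y : P) : Additive (Gamma0 N) →+ O) =
      heckeHom O N r ((ι.symm x : P) : Additive (Gamma0 N) →+ O)
    rw [← hι, ← hι, ι.apply_symm_apply, ι.apply_symm_apply]
    exact hy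
  show (ι' (c₂ (Φ (c₁ (ι.symm y)))) : Additive (Gamma0 (N * q)) →+ O) =
    heckeHom O (N * q) r (ι' (c₂ (Φ (c₁ (ι.symm x)))))
  rw [hι', hι']
  refine congrArg Subtype.val (hΦ X X' (fun t => ?_) (fun z => ?_) (fun z => ?_) _ _ key)
  · have h : ∀ s, Commute X (U s) := fun s =>
      LinearMap.ext fun z => Subtype.ext (LinearMap.congr_fun (commute_heckeHom hr (hpr s)).eq z.1)
    cases t with
    | none => exact h sq
    | some s => exact h s
  · exact Subtype.ext (heckeHom_restrictions hqp hr hrq z.1).1.symm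
  · exact Subtype.ext (heckeHom_restrictions hqp hr hrq z.1).2.symm

end degeneracy

end FLTA.RT
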