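import Fermat.Prelude.Def_FLTPrelim_ModularRep
import Fermat.Agent.RT.Main.AvoidRingHom
import Fermat.Agent.GaloisReps.EigenChar
import Fermat.Agent.Carayol.MatchResidual
import Fermat.Agent.EllTorsion.FrobTwo
import Fermat.Agent.RepTheory.DVRExtension

/-!
# The residual Hecke system of a residually modular curve

Restriction of Hecke algebras to a smaller level and, from `IsResiduallyModularOfLevel`, the
residual character `θ` matching the Frobenius polynomials of the torsion representation.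
-/

set_option autoImplicit false

noncomputable section

open CongruenceSubgroup ModularFormClass Polynomial

namespace FLTA.RT.Datum

section Level

variable {M L : ℕ}

/-- A cusp form of level `M` viewed at a multiple `L`. -/
def cuspIncl (h : M ∣ L) [NeZero M] [NeZero L] :
    CuspForm (Gamma0 M) 2 →ₗ[ℂ] CuspForm (Gamma0 L) 2 where
  toFun f :=
    { toFun := ⇑f
      slash_action_eq' := fun γ hγ => by
        obtain ⟨g, hg, rfl⟩ := hγ
        refine SlashInvariantFormClass.slash_action_eq f _ (Subgroup.mem_map_of_mem _ ?_)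
        replace hg : g ∈ Gamma0 L := hg
        rw [Gamma0_mem] at hg ⊢
        have := congrArg (ZMod.castHom h (ZMod M)) hg
        simpa using this
      holo' := CuspFormClass.holo f
      zero_at_cusps' := fun {c} hc => by
        rw [Subgroup.IsArithmetic.isCusp_iff_isCusp_SL2Z] at hc
        exact CuspFormClass.zero_at_cusps f ((Subgroup.IsArithmetic.isCusp_iff_isCusp_SL2Z _).mpr hc) }
  map_add' _ _ := rfl
  map_smul' _ _ := rfl

theorem cuspIncl_injective (h : M ∣ L) [NeZero M] [NeZero L] : Function.Injective (cuspIncl h) :=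
  fun _ _ e => DFunLike.coe_injective (congrArg DFunLike.coe e :)

theorem cuspIncl_heckeTLin (h : M ∣ L) [NeZero M] [NeZero L] {ℓ : ℕ} (hℓ : ℓ.Prime) (hℓM : ¬ ℓ ∣ M)
    (hℓL : ¬ ℓ ∣ L) (f : CuspForm (Gamma0 M) 2) :
    CuspForm.heckeTLin 2 hℓ hℓL (cuspIncl h f) = cuspIncl h (CuspForm.heckeTLin 2 hℓ hℓM f) :=
  rfl

/-- Restriction of Hecke operators to a smaller level. -/
theorem exists_heckeRestrict (h : M ∣ L) [NeZero M] [NeZero L] {S : Set ℕ}
    (hS : ∀ q : ℕ, q.Prime → q ∣ L → q ∈ S) :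
    ∃ r : CuspForm.heckeAlgebra L 2 S →+* CuspForm.heckeAlgebra M 2 S,
      ∀ (ℓ : ℕ) (hℓ : ℓ.Prime) (hℓL : ¬ ℓ ∣ L) (hℓM : ¬ ℓ ∣ M) (hℓS : ℓ ∉ S),
        r (CuspForm.heckeAlgebra.T hℓ hℓL hℓS) = CuspForm.heckeAlgebra.T hℓ hℓM hℓS := by
  let Top : Avoid.GoodPrime L S → CuspForm.heckeAlgebra M 2 S := fun ℓ =>
    CuspForm.heckeAlgebra.T ℓ.2.1 (fun hd => ℓ.2.2.1 (hd.trans h)) ℓ.2.2.2
  obtain ⟨r, hr⟩ := Avoid.exists_heckeAlgebra_hom hS Top fun P hP => by
    have key : ∀ f : CuspForm (Gamma0 M) 2,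
        ((FreeAlgebra.lift ℤ (Avoid.goodT (N := L) (S := S)) P : CuspForm.heckeAlgebra L 2 S) :
          Module.End ℂ (CuspForm (Gamma0 L) 2)) (cuspIncl h f) =
        cuspIncl h (((FreeAlgebra.lift ℤ Top P : CuspForm.heckeAlgebra M 2 S) :
          Module.End ℂ (CuspForm (Gamma0 M) 2)) f) := by
      clear hP
      induction P using FreeAlgebra.induction with
      | grade0 n =>
        intro f
        rw [AlgHom.commutes, AlgHom.commutes, Algebra.algebraMap_eq_smul_one,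
          Algebra.algebraMap_eq_smul_one]
        simp
      | grade1 ℓ =>
        intro f
        rw [FreeAlgebra.lift_ι_apply, FreeAlgebra.lift_ι_apply]
        exact cuspIncl_heckeTLin h ℓ.2.1 (fun hd => ℓ.2.2.1 (hd.trans h)) ℓ.2.2.1 f
      | mul a b ha hb =>
        intro f
        simp [hb, ha]
      | add a b ha hb =>
        intro f
        simp [hb, ha]
    exact Subtype.ext (LinearMap.ext fun f => cuspIncl_injective h (by
      rw [← key, hP]
      simp))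
  exact ⟨r, fun ℓ hℓ hℓL hℓM hℓS => hr ⟨ℓ, hℓ, hℓL, hℓS⟩⟩

end Level

local notation "GQ" => (AlgebraicClosure ℚ ≃ₐ[ℚ] AlgebraicClosure ℚ)

/-- **The residual system of a residually modular curve**: its values lie in the prime field. -/
theorem exists_primeField_system {W : WeierstrassCurve ℤ} {p M L : ℕ} [Fact p.Prime] [NeZero M]
    [NeZero L] (hML : M ∣ L) (hmod : W.IsResiduallyModularOfLevel p M) (S : Finset ℕ) (hpS : p ∈ S)
    (hLS : ∀ q : ℕ, q.Prime → q ∣ L → q ∈ S)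
    (hbad : ∀ q : ℕ, q.Prime → q ∉ S → W.IsGoodPrimeFor q) :
    ∃ θ : CuspForm.heckeAlgebra L 2 (↑S : Set ℕ) →+* ZMod p,
      ∀ (ℓ : ℕ) (hℓ : ℓ.Prime) (hℓL : ¬ ℓ ∣ L) (hℓS : ℓ ∉ (↑S : Set ℕ)),
        θ (CuspForm.heckeAlgebra.T hℓ hℓL hℓS) = (W.apOfModel ℓ : ZMod p) := by
  obtain ⟨f, 𝔪, hf, h𝔪, hp𝔪, hcong⟩ := hmod
  have : Module.Finite ℤ (CuspForm.heckeAlgebra M 2 (↑S : Set ℕ)) :=
    FLTA.Hecke.heckeAlgebra_finite_of_integralStructure one_le_two (factIntegral M).out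
  let k := integralClosure ℤ ℂ ⧸ 𝔪
  have hp0 : (p : k) = 0 := by
    rw [← map_natCast (Ideal.Quotient.mk 𝔪)]
    exact Ideal.Quotient.eq_zero_iff_mem.mpr hp𝔪
  have : Nontrivial k := Ideal.Quotient.nontrivial_iff.mpr h𝔪.ne_top
  have : CharP k p := by
    obtain ⟨c, hc⟩ := CharP.exists k
    rcases (Fact.out : p.Prime).eq_one_or_self_of_dvd c ((CharP.cast_eq_zero_iff k c p).mp hp0) with
      rfl | rfl
    · exact absurd rfl (CharP.char_ne_one k 1)
    · exact hc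
  obtain ⟨res, hres⟩ := exists_heckeRestrict (S := (↑S : Set ℕ)) hML hLS
  let χ : CuspForm.heckeAlgebra L 2 (↑S : Set ℕ) →+* k :=
    ((Ideal.Quotient.mk 𝔪).comp (FLTA.GaloisReps.eigenChar hf)).comp res
  have hT : ∀ (ℓ : ℕ) (hℓ : ℓ.Prime) (hℓL : ¬ ℓ ∣ L) (hℓS : ℓ ∉ (↑S : Set ℕ)),
      χ (CuspForm.heckeAlgebra.T hℓ hℓL hℓS) = (W.apOfModel ℓ : k) := by
    intro ℓ hℓ hℓL hℓS
    have hℓM : ¬ ℓ ∣ M := fun hd => hℓL (hd.trans hML)
    obtain ⟨a, ha, ha'⟩ := hcong ℓ hℓ (hbad ℓ hℓ fun hh => hℓS hh) hℓM fun e => hℓS (e ▸ hpS)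
    show Ideal.Quotient.mk 𝔪 (FLTA.GaloisReps.eigenChar hf
      (res (CuspForm.heckeAlgebra.T hℓ hℓL hℓS))) = _
    rw [hres ℓ hℓ hℓL hℓM hℓS, ← map_intCast (Ideal.Quotient.mk 𝔪), Ideal.Quotient.eq]
    have e : FLTA.GaloisReps.eigenChar hf (CuspForm.heckeAlgebra.T hℓ hℓM hℓS) = a :=
      Subtype.ext ((FLTA.GaloisReps.coe_eigenChar_T hf hℓ hℓM hℓS).trans ha.symm)
    rwa [e]
  let c : ZMod p →+* k := ZMod.castHom dvd_rfl k
  have hmem : ∀ t, χ t ∈ Set.range c := by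
    intro t
    have ht : t ∈ Algebra.adjoin ℤ (Set.range (Avoid.goodT (N := L) (S := (↑S : Set ℕ)))) := by
      rw [Avoid.adjoin_range_goodT hLS]; trivial
    show χ t ∈ c.range
    induction ht using Algebra.adjoin_induction with
    | mem x hx =>
      obtain ⟨⟨ℓ, hℓ, hℓL, hℓS⟩, rfl⟩ := hx
      exact ⟨(W.apOfModel ℓ : ZMod p), by
        show c _ = χ (CuspForm.heckeAlgebra.T hℓ hℓL hℓS)
        rw [hT ℓ hℓ hℓL hℓS, map_intCast]⟩
    | algebraMap n => exact ⟨n, by simp⟩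
    | add x y _ _ hx hy => rw [map_add]; exact add_mem hx hy
    | mul x y _ _ hx hy => rw [map_mul]; exact mul_mem hx hy
  obtain ⟨θ, hθ⟩ := FLTA.RepTheory.exists_factor_of_injective c c.injective χ hmem
  refine ⟨θ, fun ℓ hℓ hℓL hℓS => c.injective ?_⟩
  rw [map_intCast]
  exact (RingHom.congr_fun hθ _).trans (hT ℓ hℓ hℓL hℓS)

/-- **The residual Hecke data**: `θ` with values in any field receiving `ZMod p`, matching the
Frobenius polynomials of the torsion representation. -/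
theorem exists_residual_system {W : WeierstrassCurve ℤ} (hΔ : W.Δ ≠ 0) {p M L : ℕ} [Fact p.Prime]
    (hp2 : p ≠ 2) [NeZero M] [NeZero L] (hML : M ∣ L) (hmod : W.IsResiduallyModularOfLevel p M)
    (S : Finset ℕ) (hpS : p ∈ S) (hLS : ∀ q : ℕ, q.Prime → q ∣ L → q ∈ S)
    (hbad : ∀ q : ℕ, q.Prime → q ∉ S → W.IsGoodPrimeFor q) {k : Type} [Field k]
    (φ : ZMod p →+* k) :
    ∃ θ : CuspForm.heckeAlgebra L 2 (↑S : Set ℕ) →+* k,
      ∀ (ℓ : ℕ) (hℓ : ℓ.Prime) (hℓL : ¬ ℓ ∣ L) (hℓS : ℓ ∉ (↑S : Set ℕ)),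
        θ (CuspForm.heckeAlgebra.T hℓ hℓL hℓS) = (W.apOfModel ℓ : k) ∧
        ∀ A : ValuationSubring (AlgebraicClosure ℚ), A.LiesOverPrime ℓ →
          ∀ σ : GQ, A.IsFrobeniusAt σ ℓ →
            (((FLTA.Carayol.curveRep W hΔ p).baseChangeAlong φ).ρ σ).charpoly =
              X ^ 2 - C (θ (CuspForm.heckeAlgebra.T hℓ hℓL hℓS)) * X + C (ℓ : k) := by
  obtain ⟨θ, hθ⟩ := exists_primeField_system hML hmod S hpS hLS hbad
  refine ⟨φ.comp θ, fun ℓ hℓ hℓL hℓS => ?_⟩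
  have hT : φ.comp θ (CuspForm.heckeAlgebra.T hℓ hℓL hℓS) = (W.apOfModel ℓ : k) := by
    rw [RingHom.comp_apply, hθ, map_intCast]
  refine ⟨hT, fun A hA σ hσ => ?_⟩
  have hodd : Odd p := (Fact.out : p.Prime).odd_of_ne_two hp2
  rw [FLTA.RepTheory.residual_charpoly_baseChangeAlong,
    FLTA.Carayol.curveRep_charpoly_of_quadratic hΔ
      (fun l hl hgood hne B hB τ hτ n P hnP => FLTA.EllTorsion.frobenius_quadratic_all W hΔ hl
        hgood hB hτ hodd.pow (fun hd => hne ((Nat.prime_dvd_prime_iff_eq hl Fact.out).mp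
          (hl.dvd_of_dvd_pow hd))) P hnP)
      hℓ (hbad ℓ hℓ fun hh => hℓS hh) (fun e => hℓS (e ▸ hpS)) hA hσ, hT]
  simp

end FLTA.RT.Datum
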