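import Fermat.Agent.RT.RaiseChain
import Fermat.Agent.Patching.PowerSeriesLevels

/-!
# The base ring of patched support raising

`S = O⟦y₁, …, y_r⟧` with the diamond relations `J n` and the augmentation prime `P = (y)`, and
the criterion for an element to kill the new part: at every level it kills the common kernel of
the adjoint degeneracy maps.
-/

set_option autoImplicit false

noncomputable section

namespace FLTA.RT

open IsLocalRing FLTA.Patching FLTA.Patching.LevelSystem

section Aug

variable (O : Type) [CommRing O] (r : ℕ)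

/-- The augmentation prime `(y₁, …, y_r)`. -/
abbrev augPrime : Ideal (MvPowerSeries (Fin r) O) := Deformation.varIdeal O r

theorem augPrime_eq_ker :
    augPrime O r = RingHom.ker (MvPowerSeries.constantCoeff (σ := Fin r) (R := O)) := by
  refine le_antisymm ?_ fun f hf => ?_
  · rw [Ideal.span_le]
    rintro _ ⟨i, rfl⟩
    simp
  · have h1 := Deformation.sub_trunc_mem_pow f 1
    rw [pow_one] at h1
    suffices h0 : ((MvPowerSeries.truncTotal 1 f : MvPolynomial (Fin r) O) :
        MvPowerSeries (Fin r) O) = 0 by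
      rwa [h0, sub_zero] at h1
    classical
    ext d
    rw [MvPolynomial.coeff_coe, MvPowerSeries.coeff_truncTotal_eq_ite]
    split_ifs with hd
    · rw [Nat.lt_one_iff, Finsupp.degree_eq_zero_iff] at hd
      rw [hd, MvPowerSeries.coeff_zero_eq_constantCoeff_apply, RingHom.mem_ker.mp hf]
      simp
    · simp

variable {O r}

theorem mem_augPrime_iff {f : MvPowerSeries (Fin r) O} :
    f ∈ augPrime O r ↔ MvPowerSeries.constantCoeff f = 0 := by
  rw [augPrime_eq_ker, RingHom.mem_ker]

theorem augPrime_isPrime [IsDomain O] : (augPrime O r).IsPrime := by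
  rw [augPrime_eq_ker]
  exact RingHom.ker_isPrime _

variable (O r) in
/-- `S ⧸ (y) = O`. -/
def augEquiv : MvPowerSeries (Fin r) O ⧸ augPrime O r ≃+* O :=
  (Ideal.quotEquivOfEq (augPrime_eq_ker O r)).trans
    (RingHom.quotientKerEquivOfSurjective
      fun c => ⟨MvPowerSeries.C c, MvPowerSeries.constantCoeff_C c⟩)

theorem augEquiv_mk (f : MvPowerSeries (Fin r) O) :
    augEquiv O r (Ideal.Quotient.mk _ f) = MvPowerSeries.constantCoeff f :=
  rfl

theorem augEquiv_symm_apply (c : O) :
    (augEquiv O r).symm c = Ideal.Quotient.mk _ (MvPowerSeries.C c) := by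
  rw [RingEquiv.symm_apply_eq, augEquiv_mk, MvPowerSeries.constantCoeff_C]

variable (O r) in
theorem diamondIdeal_le_augPrime (ℓ n : ℕ) : diamondIdeal O ℓ r n ≤ augPrime O r := by
  rw [diamondIdeal, Ideal.span_le]
  rintro _ ⟨j, rfl⟩
  simp [mem_augPrime_iff]

/-- For relations inside `(y)` a congruence modulo `(y) + J` is an equality of constant terms. -/
theorem sub_mem_augPrime_sup_iff {J : Ideal (MvPowerSeries (Fin r) O)} (hJ : J ≤ augPrime O r)
    {x y : MvPowerSeries (Fin r) O} :
    x - y ∈ augPrime O r ⊔ J ↔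
      MvPowerSeries.constantCoeff x = MvPowerSeries.constantCoeff y := by
  rw [sup_eq_left.mpr hJ, mem_augPrime_iff, map_sub, sub_eq_zero]

/-- A family of blocks injective at the bottom gives the bottom injectivity of a raising step. -/
theorem bottom_injective_of_constantCoeff {ι : Type} [Fintype ι] {d : ℕ}
    (B₀ : ι → ι → Matrix (Fin d) (Fin d) (MvPowerSeries (Fin r) O))
    (h : ∀ c : ι → Fin d → O,
      (∀ k, ∑ l, ((B₀ k l).map MvPowerSeries.constantCoeff).mulVec (c l) = 0) → c = 0)
    (c : ι → Fin d → MvPowerSeries (Fin r) O)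
    (hc : ∀ k a, (∑ l, (B₀ k l).mulVec (c l)) a ∈ augPrime O r) :
    ∀ l b, c l b ∈ augPrime O r := by
  intro l b
  rw [mem_augPrime_iff]
  refine congrFun (congrFun (h (fun l b => MvPowerSeries.constantCoeff (c l b)) fun k => ?_) l) b
  funext a
  have hk := mem_augPrime_iff.mp (hc k a)
  rw [Finset.sum_apply, map_sum] at hk
  rw [Finset.sum_apply, Pi.zero_apply, ← hk]
  refine Finset.sum_congr rfl fun l _ => ?_
  simp [Matrix.mulVec, dotProduct, Matrix.map_apply, map_sum, map_mul]

end Aug

section KillsNew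

variable {S P₀ : Type} [CommRing S] [CommRing P₀] {J : ℕ → Ideal S} {d d' : ℕ}
  {rep' : ∀ n, P₀ →+* Matrix (Fin d') (Fin d') (S ⧸ J n)} {ι : Type} [Fintype ι]
  {jF : ι → ∀ n, Matrix (Fin d) (Fin d') (S ⧸ J n)}

/-- At every level the adjoint maps are jointly surjective. -/
def JointlySurjective (jF : ι → ∀ n, Matrix (Fin d) (Fin d') (S ⧸ J n)) (n : ℕ) : Prop :=
  ∀ c : ι → Fin d → S ⧸ J n, ∃ v, ∀ k, (jF k n).mulVec v = c k

/-- An element killing the common kernel of the adjoint maps at every level kills the new part. -/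
theorem killsNew_of_kills (hsurj : ∀ n, JointlySurjective jF n) {f : P₀}
    (h : ∀ n v, (∀ k, (jF k n).mulVec v = 0) → (rep' n f).mulVec v = 0) :
    KillsNew rep' jF f := by
  choose U hU using fun n => exists_factor_of_kills (fun k => jF k n) (hsurj n) (rep' n f) (h n)
  exact ⟨fun k n => U n k, hU⟩

variable [IsLocalRing S] {S₀ : Type} [CommRing S₀] [Algebra S₀ S] [Algebra S₀ P₀]
  {rep : ∀ n, P₀ →+* Matrix (Fin d) (Fin d) (S ⧸ J n)}
  {iF : ι → ∀ n, Matrix (Fin d') (Fin d) (S ⧸ J n)} {T : Matrix ι ι P₀} {P : Ideal S}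
  {B₀ : ι → ι → Matrix (Fin d) (Fin d) S}

/-- Joint surjectivity modulo the maximal ideal gives joint surjectivity at that level (also at
level zero). -/
theorem jointlySurjective_of_mod_maximal {n : ℕ} (B : ι → Matrix (Fin d) (Fin d') S)
    (hB : ∀ k, (B k).map (Ideal.Quotient.mk (J n)) = jF k n)
    (h : ∀ c : ι → Fin d → S,
      ∃ v : Fin d' → S, ∀ k a, c k a - (B k).mulVec v a ∈ maximalIdeal S) :
    JointlySurjective jF n := by
  intro c
  let j : (Fin d' → S) →ₗ[S] (ι → Fin d → S) := LinearMap.pi fun k => (B k).mulVecLin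
  have hj : Function.Surjective j := surjective_of_mod_maximal j fun w => by
    obtain ⟨v, hv⟩ := h w
    exact ⟨v, (mem_ideal_smul_pi _ _).mpr fun k a => hv k a⟩
  obtain ⟨v, hv⟩ := hj fun k a => Quotient.out (c k a)
  refine ⟨fun b => Ideal.Quotient.mk (J n) (v b), fun k => funext fun a => ?_⟩
  have := congrArg (Ideal.Quotient.mk (J n)) (congrFun (congrFun hv k) a)
  rw [show j v k a = (B k).mulVec v a from rfl, RingHom.map_mulVec, hB] at this
  exact this.trans (Quotient.out_eq _)

/-- Surjectivity modulo the maximal ideal gives surjectivity at every positive level. -/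
theorem RaiseData.jointlySurjective (hd : RaiseData S₀ rep rep' iF jF T P B₀) {n : ℕ} (hn : 1 ≤ n) :
    JointlySurjective jF n :=
  have hB : ∀ k, ((jF k n).map Quotient.out).map (Ideal.Quotient.mk (J n)) = jF k n := fun k =>
    Matrix.ext fun a b => Quotient.out_eq _
  jointlySurjective_of_mod_maximal (fun k => (jF k n).map Quotient.out) hB
    (hd.j_surjective n hn _ hB)

/-- In a raising step an element killing the common kernel of the adjoint maps at every level kills
the new part. -/
theorem RaiseData.killsNew_of_kills (hd : RaiseData S₀ rep rep' iF jF T P B₀)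
    (h0 : JointlySurjective jF 0) {f : P₀}
    (h : ∀ n v, (∀ k, (jF k n).mulVec v = 0) → (rep' n f).mulVec v = 0) :
    KillsNew rep' jF f :=
  FLTA.RT.killsNew_of_kills
    (fun n => n.eq_zero_or_pos.elim (fun e => e ▸ h0) fun hn => hd.jointlySurjective hn) h

omit [IsLocalRing S] [Fintype ι] in
/-- At a level with trivial coefficient ring the adjoint maps are jointly surjective. -/
theorem jointlySurjective_of_eq_top {n : ℕ} (hn : J n = ⊤) : JointlySurjective jF n := by
  have : Subsingleton (S ⧸ J n) := Ideal.Quotient.subsingleton_iff.mpr hn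
  exact fun c => ⟨0, fun k => Subsingleton.elim _ _⟩

end KillsNew

section Modules

variable {S P₀ : Type} [CommRing S] [IsLocalRing S] [CommRing P₀] {J : ℕ → Ideal S}
  (hJ : ∀ n, J n ≤ maximalIdeal S ^ n) {d d' : ℕ} {ι : Type} [Fintype ι]
  {N : ℕ → Type} [∀ n, AddCommGroup (N n)] [∀ n, Module (S ⧸ J n) (N n)]
  {N' : ℕ → Type} [∀ n, AddCommGroup (N' n)] [∀ n, Module (S ⧸ J n) (N' n)]
  (b : ∀ n, Module.Basis (Fin d) (S ⧸ J n) (N n))
  (b' : ∀ n, Module.Basis (Fin d') (S ⧸ J n) (N' n))
  (act' : ∀ n, P₀ →+* Module.End (S ⧸ J n) (N' n))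
  (jL : ι → ∀ n, N' n →ₗ[S ⧸ J n] N n)

/-- For level modules with bases: an element killing the common kernel of jointly surjective maps
`jL` at every level kills the new part. -/
theorem killsNew_ofModules
    (hsurj : ∀ n, Function.Surjective (LinearMap.pi fun k => jL k n)) {f : P₀}
    (h : ∀ n x, (∀ k, jL k n x = 0) → act' n f x = 0) :
    KillsNew (LevelSystem.ofModules J hJ N' b' act').rep
      (fun k n => LinearMap.toMatrix (b' n) (b n) (jL k n)) f := by
  refine killsNew_of_kills (J := J) (fun n c => ?_) fun n v hv => ?_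
  · obtain ⟨x, hx⟩ := hsurj n fun k => (b n).equivFun.symm (c k)
    refine ⟨(b' n).equivFun x, fun k => ?_⟩
    rw [Module.Basis.equivFun_apply, LinearMap.toMatrix_mulVec_repr,
      ← Module.Basis.equivFun_apply, show jL k n x = (b n).equivFun.symm (c k) from congrFun hx k,
      LinearEquiv.apply_symm_apply]
  · obtain ⟨x, rfl⟩ := (b' n).equivFun.surjective v
    rw [Module.Basis.equivFun_apply]
    show (LinearMap.toMatrix (b' n) (b' n) (act' n f)).mulVec _ = 0
    rw [LinearMap.toMatrix_mulVec_repr, h n x fun k => ?_, map_zero, Finsupp.coe_zero]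
    have := hv k
    rw [Module.Basis.equivFun_apply, LinearMap.toMatrix_mulVec_repr] at this
    exact (b n).repr.map_eq_zero_iff.mp (DFunLike.coe_injective this)

/-- For level modules with bases: scalars of `S₀` inside `P₀` act by scalar matrices. -/
theorem actsByScalars_ofModules {S₀ : Type} [CommRing S₀] [Algebra S₀ S] [Algebra S₀ P₀]
    (h : ∀ n s (x : N' n), act' n (algebraMap S₀ P₀ s) x =
      Ideal.Quotient.mk (J n) (algebraMap S₀ S s) • x) :
    ActsByScalars S₀ (J := J) (LevelSystem.ofModules J hJ N' b' act').rep :=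
  actsByScalars_of_forall _ fun n s => LevelSystem.ofModules_rep_scalar (h n s)

end Modules

end FLTA.RT
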