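import Fermat.Agent.RT.DatumExists

/-!
# Naturality of the action of a complete local ring on level modules

Two actions through finite local algebras which agree, along a linear map, on elements generating
a dense subalgebra agree everywhere.
-/

set_option autoImplicit false

noncomputable section

open IsLocalRing

namespace FLTA.RT.Lift

variable {O : Type} [CommRing O] [IsLocalRing O] [IsNoetherianRing O]

/-- In a finite local algebra a power of the maximal ideal lies in the extended one. -/
theorem exists_pow_le_map {A : Type} [CommRing A] [IsLocalRing A] [Algebra O A] [Module.Finite O A]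
    [IsLocalHom (algebraMap O A)] :
    ∃ e : ℕ, maximalIdeal A ^ e ≤ (maximalIdeal O).map (algebraMap O A) := by
  set I := (maximalIdeal O).map (algebraMap O A)
  have hrad : maximalIdeal A ≤ I.radical := by
    rw [Ideal.radical_eq_sInf]
    refine le_sInf fun P hP => ?_
    obtain ⟨hIP, hP⟩ := hP
    have hc : P.comap (algebraMap O A) = maximalIdeal O :=
      ((maximalIdeal.isMaximal O).eq_of_le (Ideal.IsPrime.ne_top inferInstance)
        (Ideal.map_le_iff_le_comap.mp hIP)).symm
    have : P.IsMaximal :=
      Ideal.isMaximal_of_isIntegral_of_isMaximal_comap P (hc ▸ maximalIdeal.isMaximal O)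
    exact (IsLocalRing.eq_maximalIdeal this).ge
  have : IsNoetherianRing A := isNoetherian_of_tower O (inferInstance : IsNoetherian O A)
  obtain ⟨e, he⟩ := Ideal.exists_radical_pow_le_of_fg I (IsNoetherian.noetherian _)
  exact ⟨e, (Ideal.pow_right_mono hrad e).trans he⟩

/-- Scalar extension of `m ^ n` moves vectors into `m ^ n • ⊤`. -/
theorem apply_mem_pow_smul {A : Type} [CommRing A] [Algebra O A] {M : Type} [AddCommGroup M]
    [Module O M] (α : A →ₐ[O] Module.End O M) (n : ℕ) {z : A}
    (hz : z ∈ (maximalIdeal O).map (algebraMap O A) ^ n) (v : M) :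
    α z v ∈ (maximalIdeal O ^ n) • (⊤ : Submodule O M) := by
  rw [← Ideal.map_pow] at hz
  replace hz : z ∈ (maximalIdeal O ^ n) • (⊤ : Submodule O A) := by
    rw [Ideal.smul_top_eq_map]
    exact hz
  refine Submodule.smul_induction_on hz (fun c hc y _ => ?_) fun y y' hy hy' => ?_
  · rw [map_smul, LinearMap.smul_apply]
    exact Submodule.smul_mem_smul hc Submodule.mem_top
  · rw [map_add, LinearMap.add_apply]
    exact add_mem hy hy'

/-- **Naturality.** `i` intertwines the two actions of `R` as soon as it does so on elements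
generating a dense subalgebra. -/
theorem intertwines_of_dense {R : Type} [CommRing R] [IsLocalRing R] [Algebra O R]
    {A A' : Type} [CommRing A] [IsLocalRing A] [Algebra O A] [Module.Finite O A]
    [IsLocalHom (algebraMap O A)] [CommRing A'] [IsLocalRing A'] [Algebra O A']
    [Module.Finite O A'] [IsLocalHom (algebraMap O A')]
    {M M' : Type} [AddCommGroup M] [Module O M] [AddCommGroup M'] [Module O M']
    [Module.Finite O M']
    (f : R →ₐ[O] A) (hf : IsLocalHom f.toRingHom) (f' : R →ₐ[O] A')
    (hf' : IsLocalHom f'.toRingHom) (α : A →ₐ[O] Module.End O M)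
    (α' : A' →ₐ[O] Module.End O M') (i : M →ₗ[O] M') (G : Set R)
    (hG : ∀ (n : ℕ) (x : R), ∃ y ∈ Algebra.adjoin O G, x - y ∈ maximalIdeal R ^ (n + 1))
    (hi : ∀ g ∈ G, ∀ v, i (α (f g) v) = α' (f' g) (i v)) (x : R) (v : M) :
    i (α (f x) v) = α' (f' x) (i v) := by
  have hadj : ∀ y ∈ Algebra.adjoin O G, ∀ v, i (α (f y) v) = α' (f' y) (i v) := by
    intro y hy
    induction hy using Algebra.adjoin_induction with
    | mem z hz => exact hi z hz
    | algebraMap c => intro v; simp [Module.algebraMap_end_apply]
    | add a b _ _ ha hb => intro v; simp [ha, hb]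
    | mul a b _ _ ha hb => intro v; simp [ha, hb]
  obtain ⟨e, he⟩ := exists_pow_le_map (O := O) (A := A)
  obtain ⟨e', he'⟩ := exists_pow_le_map (O := O) (A := A')
  refine sub_eq_zero.mp ((Submodule.mem_bot O).mp ?_)
  rw [← Ideal.iInf_pow_smul_eq_bot_of_isLocalRing (M := M') (maximalIdeal O)
    (maximalIdeal.isMaximal O).ne_top, Submodule.mem_iInf]
  intro n
  obtain ⟨y, hy, hxy⟩ := hG (e * n + e' * n) x
  have hsplit : i (α (f x) v) - α' (f' x) (i v)
      = i (α (f (x - y)) v) - α' (f' (x - y)) (i v) := by
    rw [map_sub, map_sub, map_sub, map_sub, LinearMap.sub_apply, LinearMap.sub_apply, map_sub,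
      hadj y hy v]
    abel
  rw [hsplit]
  have h1 : f (x - y) ∈ (maximalIdeal O).map (algebraMap O A) ^ n := by
    have h0 : f.toRingHom (x - y) ∈ maximalIdeal A ^ (e * n) :=
      Ideal.pow_right_mono (Ideal.map_le_iff_le_comap.mpr fun z hz => Ideal.mem_comap.mpr
        (map_nonunit f.toRingHom z hz)) (e * n) (by
          rw [← Ideal.map_pow]
          exact Ideal.mem_map_of_mem _ (Ideal.pow_le_pow_right (by omega) hxy))
    rw [pow_mul] at h0
    exact Ideal.pow_right_mono he n h0
  have h2 : f' (x - y) ∈ (maximalIdeal O).map (algebraMap O A') ^ n := by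
    have h0 : f'.toRingHom (x - y) ∈ maximalIdeal A' ^ (e' * n) :=
      Ideal.pow_right_mono (Ideal.map_le_iff_le_comap.mpr fun z hz => Ideal.mem_comap.mpr
        (map_nonunit f'.toRingHom z hz)) (e' * n) (by
          rw [← Ideal.map_pow]
          exact Ideal.mem_map_of_mem _ (Ideal.pow_le_pow_right (by omega) hxy))
    rw [pow_mul] at h0
    exact Ideal.pow_right_mono he' n h0
  refine sub_mem ?_ (apply_mem_pow_smul α' n h2 (i v))
  have h3 := Submodule.mem_map_of_mem (f := i) (apply_mem_pow_smul α n h1 v)
  rw [Submodule.map_smul''] at h3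
  exact Submodule.smul_mono le_rfl le_top h3

end FLTA.RT.Lift
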