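import Fermat.Agent.RT.OldNew
import Fermat.Agent.RT.LiftNatural
import Fermat.Agent.RepTheory.DVRExtension

/-!
# The characteristic polynomial of an algebra valued representation on a Tate module

An algebra `A` with a representation acts on `M`, and `f` maps `M` to the coordinates of a Tate
module, the good Hecke operators going to the traces of Frobenius. Then the Galois action satisfies
the characteristic polynomial on the image of `f`, and so the Hecke operator at every prime `q`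
prime to `p` and to the level goes to the trace of Frobenius at `q`. Maps intertwining the traces at
Frobenius elements intertwine all traces.
-/

set_option autoImplicit false

noncomputable section

open ModularCurve AlgebraicCurve IsLocalRing
open scoped Matrix
open FLTA.GaloisReps
open FLTA.Gamma0 (homRank)

namespace FLTA.RT

variable {p : ℕ} [Fact p.Prime]

/-- In a finite local `ℤ_p`-algebra high powers of the maximal ideal are divisible by powers of
`p`. -/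
theorem exists_pow_le_span_natCast (A : Type) [CommRing A] [IsLocalRing A] [Algebra ℤ_[p] A]
    [Module.Finite ℤ_[p] A] (n : ℕ) :
    ∃ k : ℕ, maximalIdeal A ^ k ≤ Ideal.span {(p : A) ^ n} := by
  have : IsLocalHom (algebraMap ℤ_[p] A) := RepTheory.isLocalHom_algebraMap_of_finite ℤ_[p] A
  obtain ⟨e, he⟩ := Lift.exists_pow_le_map (O := ℤ_[p]) (A := A)
  refine ⟨e * n, ?_⟩
  rw [pow_mul, ← Ideal.span_singleton_pow]
  refine Ideal.pow_right_mono (he.trans ?_) n
  rw [PadicInt.maximalIdeal_eq_span_p, Ideal.map_span, Set.image_singleton, map_natCast]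

variable {A : Type} [CommRing A] [IsLocalRing A]
  {M : Type} [AddCommGroup M] {S : Type} [CommRing S] [Module S M] (α : A →+* Module.End S M)

/-- A high power of the maximal ideal acts through multiples of `p ^ n`. -/
theorem exists_pow_forall_eq_nsmul (hA : ∀ n, ∃ k : ℕ, maximalIdeal A ^ k ≤ Ideal.span {(p : A) ^ n})
    (n : ℕ) :
    ∃ k : ℕ, ∀ a ∈ maximalIdeal A ^ k, ∀ x : M, ∃ y, α a x = p ^ n • y := by
  obtain ⟨k, hk⟩ := hA n
  refine ⟨k, fun a ha x => ?_⟩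
  obtain ⟨b, rfl⟩ := Ideal.mem_span_singleton'.mp (hk ha)
  refine ⟨α b x, ?_⟩
  rw [← Nat.cast_pow, mul_comm, ← nsmul_eq_mul, map_nsmul, LinearMap.smul_apply]

/-- A quadratic relation holding on a whole module passes to the powers. -/
theorem pow_relation_map {R : Type*} [CommRing R] {ι : Type*} [Fintype ι] [DecidableEq ι]
    (X₁ : Matrix ι ι R) (X₂ : Matrix (Fin 2) (Fin 2) A) (f : M →+ (ι → R))
    (h : ∀ x, X₁ *ᵥ (X₁ *ᵥ f x) - X₁ *ᵥ f (α X₂.trace x) + f (α X₂.det x) = 0) (m : ℕ) (x : M) :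
    X₁ ^ m *ᵥ (X₁ ^ m *ᵥ f x) - X₁ ^ m *ᵥ f (α (X₂ ^ m).trace x) + f (α (X₂ ^ m).det x) = 0 := by
  set t := X₂.trace
  set d := X₂.det
  let C₂ : Matrix (Fin 2) (Fin 2) A := !![0, -d; 1, t]
  obtain ⟨ht, hd⟩ := Carayol.trace_det_pow_eq (M := X₂) (M' := C₂)
    (by simp [C₂, t, Matrix.trace_fin_two]) (by simp [C₂, d, Matrix.det_fin_two]) m
  have hlin : ∀ (k : ℕ) (y : M),
      X₁ ^ k *ᵥ f y = X₁ *ᵥ f (α ((C₂ ^ k) 1 0) y) + f (α ((C₂ ^ k) 0 0) y) := by
    intro k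
    induction k with
    | zero => intro y; simp
    | succ k ih =>
      intro y
      have h10 : (C₂ ^ (k + 1)) 1 0 = (C₂ ^ k) 0 0 + t * (C₂ ^ k) 1 0 := by
        rw [pow_succ', Matrix.mul_apply, Fin.sum_univ_two]
        simp [C₂]
      have h00 : (C₂ ^ (k + 1)) 0 0 = -(d * (C₂ ^ k) 1 0) := by
        rw [pow_succ', Matrix.mul_apply, Fin.sum_univ_two]
        simp [C₂]
      have e : X₁ *ᵥ (X₁ *ᵥ f (α ((C₂ ^ k) 1 0) y)) =
          X₁ *ᵥ f (α (t * (C₂ ^ k) 1 0) y) - f (α (d * (C₂ ^ k) 1 0) y) := by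
        simp only [map_mul, Module.End.mul_apply]
        rw [eq_sub_iff_add_eq, ← sub_eq_zero, add_sub_right_comm]
        exact h _
      rw [pow_succ', ← Matrix.mulVec_mulVec, ih, Matrix.mulVec_add, e, h10, h00]
      simp only [map_add, map_neg, LinearMap.add_apply, LinearMap.neg_apply, Matrix.mulVec_add]
      abel
  have hCH := Carayol.mul_self_two (C₂ ^ m)
  rw [← ht, ← hd] at hCH
  have c10 := congrArg (fun Z : Matrix (Fin 2) (Fin 2) A => Z 1 0) hCH
  have c00 := congrArg (fun Z : Matrix (Fin 2) (Fin 2) A => Z 0 0) hCH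
  simp only [Matrix.sub_apply, Matrix.smul_apply, smul_eq_mul, Matrix.one_apply_eq,
    Matrix.one_apply_ne (show (1 : Fin 2) ≠ 0 by decide), mul_zero, mul_one, sub_zero,
    ← pow_add] at c10 c00
  rw [Matrix.mulVec_mulVec, ← pow_add, hlin (m + m) x, hlin m (α (X₂ ^ m).trace x), c10, c00]
  simp only [← Module.End.mul_apply, ← map_mul, map_sub, LinearMap.sub_apply,
    mul_comm _ ((X₂ ^ m).trace)]
  abel

variable [IsNoetherianRing A]

/-- The reduction of an adic representation modulo a power of the maximal ideal has finite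
level. -/
theorem matHom_mod_finiteLevel (ρ : GaloisRepAdic A) (b : Module.Basis (Fin 2) A ρ.V) (k : ℕ) :
    GaloisFactorsThroughFiniteLevel
      ((Ideal.Quotient.mk (maximalIdeal A ^ k)).mapMatrix.toMonoidHom.comp
        (RepTheory.matHom b ρ.ρ)) := by
  obtain ⟨L, hL, h1⟩ := ρ.isAdicContinuous k
  refine ⟨L, hL, fun g hg => ?_⟩
  ext i j
  have h2 := GaloisReps.repr_mem_of_mem_smul_top b _ (h1 g hg (b j)) i
  rw [map_sub, Finsupp.sub_apply, b.repr_self] at h2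
  show Ideal.Quotient.mk _ (LinearMap.toMatrix b b (ρ.ρ g) i j) = _
  rw [LinearMap.toMatrix_apply, Ideal.Quotient.eq.mpr h2]
  by_cases hij : i = j
  · subst hij; simp
  · simp [Ne.symm hij, hij]

omit [IsLocalRing A] [IsNoetherianRing A] in
/-- Matrices lift to the ring. -/
theorem exists_mapMatrix_eq {I : Ideal A} (X : Matrix (Fin 2) (Fin 2) (A ⧸ I)) :
    ∃ Z, (Ideal.Quotient.mk I).mapMatrix Z = X :=
  ⟨X.map Quotient.out, Matrix.ext fun _ _ => Ideal.Quotient.mk_out _⟩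

/-- Lifts of the same matrix have congruent traces and determinants. -/
theorem trace_det_sub_mem {I : Ideal A} {Y Y' : Matrix (Fin 2) (Fin 2) A}
    (h : (Ideal.Quotient.mk I).mapMatrix Y = (Ideal.Quotient.mk I).mapMatrix Y') :
    Y.trace - Y'.trace ∈ I ∧ Y.det - Y'.det ∈ I := by
  rw [← Ideal.Quotient.eq, ← Ideal.Quotient.eq, RingHom.map_det, RingHom.map_det,
    AddMonoidHom.map_trace, AddMonoidHom.map_trace]
  exact ⟨congrArg Matrix.trace h, congrArg Matrix.det h⟩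

section Intertwine

variable {A' : Type} [CommRing A'] [IsLocalRing A'] [IsNoetherianRing A'] {M' : Type}
  [AddCommGroup M'] {S' : Type} [CommRing S'] [Module S' M'] (α' : A' →+* Module.End S' M')

/-- **Traces are intertwined as soon as they are at Frobenius elements.** -/
theorem trace_intertwines_of_frobenius
    (hA : ∀ n, ∃ k : ℕ, maximalIdeal A ^ k ≤ Ideal.span {(p : A) ^ n})
    (hA' : ∀ n, ∃ k : ℕ, maximalIdeal A' ^ k ≤ Ideal.span {(p : A') ^ n})
    (hsep : ∀ y : M', (∀ n : ℕ, ∃ z, y = p ^ n • z) → y = 0)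
    (ρ : GaloisRepAdic A) (ρ' : GaloisRepAdic A') (u : M →+ M') (T : Finset ℕ)
    (hfr : ∀ ℓ : ℕ, ℓ.Prime → ℓ ∉ T → ∀ P : ValuationSubring (AlgebraicClosure ℚ),
      P.LiesOverPrime ℓ → ∀ τ : GalQ, P.IsFrobeniusAt τ ℓ → ∀ x,
        u (α (ρ.trace τ) x) = α' (ρ'.trace τ) (u x) ∧
        u (α (LinearMap.det (ρ.ρ τ)) x) = α' (LinearMap.det (ρ'.ρ τ)) (u x))
    (σ : GalQ) (x : M) :
    u (α (ρ.trace σ) x) = α' (ρ'.trace σ) (u x) ∧
      u (α (LinearMap.det (ρ.ρ σ)) x) = α' (LinearMap.det (ρ'.ρ σ)) (u x) := by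
  classical
  suffices H : ∀ n : ℕ, (∃ z, u (α (ρ.trace σ) x) - α' (ρ'.trace σ) (u x) = p ^ n • z) ∧
      ∃ z, u (α (LinearMap.det (ρ.ρ σ)) x) - α' (LinearMap.det (ρ'.ρ σ)) (u x) = p ^ n • z from
    ⟨sub_eq_zero.mp (hsep _ fun n => (H n).1), sub_eq_zero.mp (hsep _ fun n => (H n).2)⟩
  intro n
  obtain ⟨k, hk⟩ := exists_pow_forall_eq_nsmul α hA n
  obtain ⟨k', hk'⟩ := exists_pow_forall_eq_nsmul α' hA' n
  let Rel : A → A' → Prop := fun a a' => ∀ x, ∃ z, u (α a x) - α' a' (u x) = p ^ n • z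
  have hadd : ∀ a b a' b', Rel a a' → Rel b b' → Rel (a + b) (a' + b') := by
    intro a b a' b' h1 h2 x
    obtain ⟨z, hz⟩ := h1 x
    obtain ⟨w, hw⟩ := h2 x
    exact ⟨z + w, by rw [smul_add, ← hz, ← hw]; simp only [map_add, LinearMap.add_apply]; abel⟩
  have hneg : ∀ a a', Rel a a' → Rel (-a) (-a') := by
    intro a a' h1 x
    obtain ⟨z, hz⟩ := h1 x
    exact ⟨-z, by rw [smul_neg, ← hz]; simp only [map_neg, LinearMap.neg_apply]; abel⟩
  have hmul : ∀ a b a' b', Rel a a' → Rel b b' → Rel (a * b) (a' * b') := by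
    intro a b a' b' h1 h2 x
    obtain ⟨z, hz⟩ := h1 (α b x)
    obtain ⟨w, hw⟩ := h2 x
    exact ⟨z + α' a' w, by
      rw [smul_add, ← hz, ← map_nsmul, ← hw]
      simp only [map_mul, Module.End.mul_apply, map_sub]
      abel⟩
  have hone : Rel 1 1 := fun x => ⟨0, by simp⟩
  have hsmall : ∀ a a', a ∈ maximalIdeal A ^ k → a' ∈ maximalIdeal A' ^ k' → Rel a a' := by
    intro a a' ha ha' x
    obtain ⟨y, hy⟩ := hk a ha x
    obtain ⟨w, hw⟩ := hk' a' ha' (u x)
    exact ⟨u y - w, by rw [hy, hw, map_nsmul, smul_sub]⟩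
  let π := Ideal.Quotient.mk (maximalIdeal A ^ k)
  let π' := Ideal.Quotient.mk (maximalIdeal A' ^ k')
  let b := Module.finBasisOfFinrankEq A ρ.V ρ.finrank_eq
  let b' := Module.finBasisOfFinrankEq A' ρ'.V ρ'.finrank_eq
  let Pred : Matrix (Fin 2) (Fin 2) (A ⧸ maximalIdeal A ^ k) ×
      Matrix (Fin 2) (Fin 2) (A' ⧸ maximalIdeal A' ^ k') → Prop := fun X =>
    ∀ Y Y', π.mapMatrix Y = X.1 → π'.mapMatrix Y' = X.2 →
      Rel Y.trace Y'.trace ∧ Rel Y.det Y'.det
  have hcongr : ∀ (Y Z : Matrix (Fin 2) (Fin 2) A) (Y' Z' : Matrix (Fin 2) (Fin 2) A'),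
      π.mapMatrix Y = π.mapMatrix Z → π'.mapMatrix Y' = π'.mapMatrix Z' →
      Rel Z.trace Z'.trace ∧ Rel Z.det Z'.det → Rel Y.trace Y'.trace ∧ Rel Y.det Y'.det := by
    intro Y Z Y' Z' h h' hZ
    obtain ⟨ht, hd⟩ := trace_det_sub_mem h
    obtain ⟨ht', hd'⟩ := trace_det_sub_mem h'
    refine ⟨?_, ?_⟩
    · simpa using hadd _ _ _ _ (hsmall _ _ ht ht') hZ.1
    · simpa using hadd _ _ _ _ (hsmall _ _ hd hd') hZ.2
  have key := Density.forall_of_frobenius
    ((π.mapMatrix.toMonoidHom.comp (RepTheory.matHom b ρ.ρ)).prod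
      (π'.mapMatrix.toMonoidHom.comp (RepTheory.matHom b' ρ'.ρ)))
    (Density.galoisFactorsThroughFiniteLevel_prod (matHom_mod_finiteLevel ρ b k)
      (matHom_mod_finiteLevel ρ' b' k')) T Pred ?_ ?_ σ
  · obtain ⟨h1, h2⟩ := key _ _ rfl rfl
    rw [RepTheory.matHom_trace, RepTheory.matHom_trace] at h1
    rw [RepTheory.matHom_apply, RepTheory.matHom_apply, LinearMap.det_toMatrix,
      LinearMap.det_toMatrix] at h2
    exact ⟨h1 x, h2 x⟩
  · rintro ⟨X, X'⟩ m hX Y Y' hY hY'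
    obtain ⟨Z, rfl⟩ : ∃ Z, π.mapMatrix Z = X := exists_mapMatrix_eq _
    obtain ⟨Z', rfl⟩ : ∃ Z', π'.mapMatrix Z' = X' := exists_mapMatrix_eq _
    obtain ⟨ht, hd⟩ := hX Z Z' rfl rfl
    refine hcongr _ (Z ^ m) _ (Z' ^ m) (by rw [hY, map_pow]; rfl) (by rw [hY', map_pow]; rfl) ?_
    have hdp : ∀ j : ℕ, Rel (Z.det ^ j) (Z'.det ^ j) := fun j => by
      induction j with
      | zero => simpa using hone
      | succ j ih => simpa [pow_succ] using hmul _ _ _ _ ih hd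
    have hrec : ∀ {B : Type} [CommRing B] (W : Matrix (Fin 2) (Fin 2) B) (j : ℕ),
        (W ^ (j + 2)).trace = W.trace * (W ^ (j + 1)).trace + -(W.det * (W ^ j).trace) := by
      intro B _ W j
      rw [← sub_eq_add_neg, pow_add, pow_two, Carayol.mul_self_two, mul_sub, mul_smul_comm,
        mul_smul_comm, mul_one, ← pow_succ, Matrix.trace_sub, Matrix.trace_smul, Matrix.trace_smul,
        smul_eq_mul, smul_eq_mul]
    refine ⟨?_, by simpa [Matrix.det_pow] using hdp m⟩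
    clear hY hY'
    induction m using Nat.twoStepInduction with
    | zero => simpa [Matrix.trace_fin_two, one_add_one_eq_two] using hadd _ _ _ _ hone hone
    | one => simpa using ht
    | more j h0 h1 => rw [hrec, hrec]; exact hadd _ _ _ _ (hmul _ _ _ _ ht h1) (hneg _ _ (hmul _ _ _ _ hd h0))
  · intro ℓ hℓ hℓT P hP τ hτ Y Y' hY hY'
    refine hcongr _ _ _ _ hY hY' ?_
    rw [RepTheory.matHom_trace, RepTheory.matHom_trace, RepTheory.matHom_apply,
      RepTheory.matHom_apply, LinearMap.det_toMatrix, LinearMap.det_toMatrix]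
    exact ⟨fun x => ⟨0, by rw [smul_zero, sub_eq_zero]; exact (hfr ℓ hℓ hℓT P hP τ hτ x).1⟩,
      fun x => ⟨0, by rw [smul_zero, sub_eq_zero]; exact (hfr ℓ hℓ hℓT P hP τ hτ x).2⟩⟩

end Intertwine

section Tate

variable {R : Type} [CommRing R] [IsLocalRing R] [IsNoetherianRing R] [Algebra ℤ_[p] R]
  {N : ℕ} [NeZero N] (f : M →+ (Fin (homRank N) → R)) (ρ : GaloisRepAdic A)

/-- The Hecke operator at `ℓ` on Tate module coordinates. -/
abbrev heckeMatR (R : Type) [CommRing R] (N : ℕ) [NeZero N] {ℓ : ℕ} (hℓ : ℓ.Prime)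
    (hℓN : ¬ ℓ ∣ N) : Matrix (Fin (homRank N)) (Fin (homRank N)) R :=
  (heckeMat N (CuspForm.heckeAlgebra.T hℓ hℓN (Set.notMem_empty ℓ))).map (Int.cast : ℤ → R)

/-- The Eichler–Shimura relation with coefficients. -/
theorem tateRhoR_frobenius (w : Fin (homRank N) → R) {ℓ : ℕ} (hℓ : ℓ.Prime) (hℓN : ¬ ℓ ∣ N)
    (hℓp : ℓ ≠ p) {P : ValuationSubring (AlgebraicClosure ℚ)} (hP : P.LiesOverPrime ℓ) {τ : GalQ}
    (hτ : P.IsFrobeniusAt τ ℓ) :
    tateRhoR p R N τ *ᵥ (tateRhoR p R N τ *ᵥ w) -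
      tateRhoR p R N τ *ᵥ (heckeMatR R N hℓ hℓN *ᵥ w) + (ℓ : R) • w = 0 := by
  have hc := ((commute_tateRho N p τ
    (CuspForm.heckeAlgebra.T hℓ hℓN (Set.notMem_empty ℓ))).map
      (algebraMap ℤ_[p] R).mapMatrix).symm.eq
  have hfr := congrArg (fun X => (algebraMap ℤ_[p] R).mapMatrix X *ᵥ w)
    (tateRho_frobenius N p hℓ hℓN hℓp P hP hτ)
  simp only [map_add, map_sub, map_mul, map_natCast, map_zero, Matrix.zero_mulVec,
    Matrix.add_mulVec, Matrix.sub_mulVec, RingHom.mapMatrix_apply,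
    map_intCast_map, ← tateRhoR_apply, Matrix.natCast_mulVec] at hfr hc
  rw [hc, ← Matrix.mulVec_mulVec, ← Matrix.mulVec_mulVec] at hfr
  exact hfr

variable (hp : (p : R) ∈ maximalIdeal R)
  (hA : ∀ n, ∃ k : ℕ, maximalIdeal A ^ k ≤ Ideal.span {(p : A) ^ n}) (T : Finset ℕ) (hT : p ∈ T)
  (hTN : ∀ ℓ : ℕ, ℓ.Prime → ℓ ∣ N → ℓ ∈ T)
  (hhecke : ∀ (ℓ : ℕ) (hℓ : ℓ.Prime) (hℓN : ¬ ℓ ∣ N), ℓ ∉ T →
    ∀ P : ValuationSubring (AlgebraicClosure ℚ), P.LiesOverPrime ℓ →
      ∀ τ : GalQ, P.IsFrobeniusAt τ ℓ → LinearMap.det (ρ.ρ τ) = (ℓ : A) ∧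
        ∀ x, heckeMatR R N hℓ hℓN *ᵥ f x = f (α (ρ.trace τ) x))

include hp hA hT hTN hhecke in
/-- **The characteristic polynomial of `ρ` on the image of `f`.** -/
theorem quadratic_of_frobenius (σ : GalQ) (x : M) :
    tateRhoR p R N σ *ᵥ (tateRhoR p R N σ *ᵥ f x) - tateRhoR p R N σ *ᵥ f (α (ρ.trace σ) x) +
      f (α (LinearMap.det (ρ.ρ σ)) x) = 0 := by
  classical
  funext i
  refine GaloisReps.eq_zero_of_forall_mem_maximalIdeal_pow fun n => ?_
  obtain ⟨k, hk⟩ := exists_pow_forall_eq_nsmul α hA n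
  let π := Ideal.Quotient.mk (maximalIdeal R ^ n)
  let πA := Ideal.Quotient.mk (maximalIdeal A ^ k)
  let b := Module.finBasisOfFinrankEq A ρ.V ρ.finrank_eq
  let φ₁ : GalQ →* Matrix (Fin (homRank N)) (Fin (homRank N)) (R ⧸ maximalIdeal R ^ n) :=
    π.mapMatrix.toMonoidHom.comp (tateRhoR p R N)
  have hφ₁ : GaloisFactorsThroughFiniteLevel φ₁ := by
    obtain ⟨L, hL, h1⟩ := isContinuous_tateRho N p n
    refine ⟨L, hL, fun g hg => ?_⟩
    ext i j
    have e := congrFun (congrFun (h1 g hg) i) j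
    simp only [Matrix.map_apply] at e
    have hmem : algebraMap ℤ_[p] R (tateRho N p g i j -
        (1 : Matrix (Fin (homRank N)) (Fin (homRank N)) ℤ_[p]) i j) ∈ maximalIdeal R ^ n := by
      refine algebraMap_mem_pow hp ?_
      rw [map_sub, e, Matrix.one_apply, Matrix.one_apply]
      split <;> simp
    rw [map_sub] at hmem
    show π (algebraMap ℤ_[p] R (tateRho N p g i j)) = _
    rw [Ideal.Quotient.eq.mpr hmem]
    by_cases hij : i = j <;> simp [hij, Matrix.one_apply]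
  let g : M →+ (Fin (homRank N) → R ⧸ maximalIdeal R ^ n) :=
    (π.toAddMonoidHom.compLeft (Fin (homRank N))).comp f
  have hg0 : ∀ a ∈ maximalIdeal A ^ k, ∀ y, g (α a y) = 0 := by
    intro a ha y
    obtain ⟨z, hz⟩ := hk a ha y
    funext i
    rw [hz, map_nsmul, Pi.smul_apply, nsmul_eq_mul, Nat.cast_pow,
      ← map_natCast π, ← map_pow, Ideal.Quotient.eq_zero_iff_mem.mpr (Ideal.pow_mem_pow hp n),
      zero_mul, Pi.zero_apply]
  have hπ : ∀ τ (v : Fin (homRank N) → R),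
      φ₁ τ *ᵥ (fun i => π (v i)) = fun i => π ((tateRhoR p R N τ *ᵥ v) i) := fun τ v =>
    _root_.funext fun i => (RingHom.map_mulVec π _ _ i).symm
  let Pred : Matrix (Fin (homRank N)) (Fin (homRank N)) (R ⧸ maximalIdeal R ^ n) ×
      Matrix (Fin 2) (Fin 2) (A ⧸ maximalIdeal A ^ k) → Prop := fun X =>
    ∀ Y, πA.mapMatrix Y = X.2 → ∀ y,
      X.1 *ᵥ (X.1 *ᵥ g y) - X.1 *ᵥ g (α Y.trace y) + g (α Y.det y) = 0
  have hcongr : ∀ (X : Matrix (Fin (homRank N)) (Fin (homRank N)) (R ⧸ maximalIdeal R ^ n))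
      (Y Z : Matrix (Fin 2) (Fin 2) A), πA.mapMatrix Y = πA.mapMatrix Z → ∀ y,
      X *ᵥ (X *ᵥ g y) - X *ᵥ g (α Z.trace y) + g (α Z.det y) = 0 →
      X *ᵥ (X *ᵥ g y) - X *ᵥ g (α Y.trace y) + g (α Y.det y) = 0 := by
    intro X Y Z h y hZ
    obtain ⟨ht, hd⟩ := trace_det_sub_mem h
    have e1 : g (α Y.trace y) = g (α Z.trace y) := sub_eq_zero.mp (by
      rw [← map_sub, ← LinearMap.sub_apply, ← map_sub]; exact hg0 _ ht y)
    have e2 : g (α Y.det y) = g (α Z.det y) := sub_eq_zero.mp (by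
      rw [← map_sub, ← LinearMap.sub_apply, ← map_sub]; exact hg0 _ hd y)
    rw [e1, e2, hZ]
  have key := Density.forall_of_frobenius
    (φ₁.prod (πA.mapMatrix.toMonoidHom.comp (RepTheory.matHom b ρ.ρ)))
    (Density.galoisFactorsThroughFiniteLevel_prod hφ₁ (matHom_mod_finiteLevel ρ b k)) T Pred
    ?_ ?_ σ
  · rw [← Ideal.Quotient.eq_zero_iff_mem]
    have e := congrFun (key _ rfl x) i
    rw [RepTheory.matHom_trace, RepTheory.matHom_apply, LinearMap.det_toMatrix] at e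
    have hg : ∀ y, g y = fun i => π (f y i) := fun y => rfl
    simp only [MonoidHom.prod_apply, hg, hπ] at e
    simpa [π, GaloisRepAdic.trace] using e
  · rintro ⟨X, X'⟩ m hX Y hY y
    obtain ⟨Z, rfl⟩ : ∃ Z, πA.mapMatrix Z = X' := exists_mapMatrix_eq _
    refine hcongr _ _ (Z ^ m) (by rw [hY, map_pow]; rfl) y ?_
    exact pow_relation_map α X Z g (hX Z rfl) m y
  · intro ℓ hℓ hℓT P hP τ hτ Y hY y
    have hℓN : ¬ ℓ ∣ N := fun h => hℓT (hTN ℓ hℓ h)
    obtain ⟨hd, hh⟩ := hhecke ℓ hℓ hℓN hℓT P hP τ hτ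
    refine hcongr _ _ (RepTheory.matHom b ρ.ρ τ) hY y ?_
    rw [RepTheory.matHom_trace, RepTheory.matHom_apply, LinearMap.det_toMatrix, hd]
    funext j
    have e := congrArg π (congrFun
      (tateRhoR_frobenius (f y) hℓ hℓN (fun h => hℓT (h ▸ hT)) hP hτ) j)
    rw [hh] at e
    have hg : ∀ z, g z = fun i => π (f z i) := fun z => rfl
    simp only [MonoidHom.prod_apply, hg, hπ]
    simpa [π, GaloisRepAdic.trace] using e

include hp hA hT hTN hhecke in
/-- **The Hecke operator at a prime `q` goes to the trace of Frobenius.** -/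
theorem heckeMatR_eq_trace {q : ℕ} (hq : q.Prime) (hqN : ¬ q ∣ N) (hqp : q ≠ p)
    {P : ValuationSubring (AlgebraicClosure ℚ)} (hP : P.LiesOverPrime q) {τ : GalQ}
    (hτ : P.IsFrobeniusAt τ q) (hdet : LinearMap.det (ρ.ρ τ) = (q : A)) (x : M) :
    heckeMatR R N hq hqN *ᵥ f x = f (α (ρ.trace τ) x) := by
  have h1 := quadratic_of_frobenius α f ρ hp hA T hT hTN hhecke τ x
  have h2 := tateRhoR_frobenius (f x) hq hqN hqp hP hτ
  rw [hdet, map_natCast, Module.End.natCast_apply, map_nsmul, ← Nat.cast_smul_eq_nsmul R] at h1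
  have h3 : tateRhoR p R N τ *ᵥ (heckeMatR R N hq hqN *ᵥ f x) =
      tateRhoR p R N τ *ᵥ f (α (ρ.trace τ) x) :=
    (sub_right_inj).mp (add_right_cancel (h2.trans h1.symm))
  simpa [Matrix.mulVec_mulVec, ← Matrix.mul_assoc, ← map_mul] using
    congrArg (fun v => tateRhoR p R N τ⁻¹ *ᵥ v) h3

include hp hA hT hTN hhecke in
/-- **Vectors killed by `(τ² - q²)(τ² - 1)` have trace `± (q + 1)` at `q`.** -/
theorem trace_sq_sub_eq_zero {q : ℕ} {τ : GalQ} (hdet : LinearMap.det (ρ.ρ τ) = (q : A)) (x : M)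
    (h4 : tateRhoR p R N (τ ^ 4) *ᵥ f x - ((q : R) ^ 2 + 1) • (tateRhoR p R N (τ ^ 2) *ᵥ f x) +
      ((q : R) ^ 2) • f x = 0) :
    f (α (ρ.trace τ ^ 2 - ((q : A) + 1) ^ 2) x) = 0 := by
  have hquad := quadratic_of_frobenius α f ρ hp hA T hT hTN hhecke (τ ^ 2) x
  have ht : ρ.trace (τ ^ 2) = ρ.trace τ ^ 2 - 2 * (q : A) := by
    let b := Module.finBasisOfFinrankEq A ρ.V ρ.finrank_eq
    simp only [GaloisRepAdic.trace]
    rw [← RepTheory.matHom_trace b, ← RepTheory.matHom_trace b, map_pow, pow_two,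
      Carayol.mul_self_two, RepTheory.matHom_apply b ρ.ρ τ, LinearMap.det_toMatrix, hdet]
    simp [Matrix.trace_fin_two]
    ring
  have hd : LinearMap.det (ρ.ρ (τ ^ 2)) = ((q ^ 2 : ℕ) : A) := by
    rw [map_pow, map_pow, hdet, Nat.cast_pow]
  rw [ht, hd, map_natCast, Module.End.natCast_apply, map_nsmul, Matrix.mulVec_mulVec, ← map_mul,
    ← pow_add, ← Nat.cast_smul_eq_nsmul R, Nat.cast_pow] at hquad
  have e : ρ.trace τ ^ 2 - ((q : A) + 1) ^ 2 =
      ρ.trace τ ^ 2 - 2 * (q : A) - ((q ^ 2 + 1 : ℕ) : A) := by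
    push_cast; ring
  have h3 : tateRhoR p R N (τ ^ 2) *ᵥ f (α (ρ.trace τ ^ 2 - ((q : A) + 1) ^ 2) x) = 0 := by
    rw [e, map_sub, LinearMap.sub_apply, map_sub, map_natCast, Module.End.natCast_apply, map_nsmul,
      ← Nat.cast_smul_eq_nsmul R, Matrix.mulVec_sub, Matrix.mulVec_smul]
    have := h4.trans hquad.symm
    rw [sub_eq_zero]
    push_cast
    exact ((sub_right_inj).mp (add_right_cancel this)).symm
  have h5 := congrArg (fun v => tateRhoR p R N (τ ^ 2)⁻¹ *ᵥ v) h3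
  simp only [Matrix.mulVec_mulVec, ← map_mul (tateRhoR p R N), inv_mul_cancel, map_one,
    Matrix.one_mulVec, Matrix.mulVec_zero] at h5
  exact h5

end Tate

end FLTA.RT

end
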