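import Fermat.Agent.RT.LocalSite

/-!
# Extra sites and normal forms of Frobenius

Determinant of Frobenius, the relations at a prime of unipotent inertia and unramified residual
representation, and a basis in which a residually non-scalar operator is a companion matrix.
-/

set_option autoImplicit false

open scoped Pointwise

noncomputable section

namespace FLTA.RT.LocalGalois

open Matrix IsLocalRing

local notation "Qbar" => AlgebraicClosure ℚ
local notation "Γ" => AlgebraicClosure ℚ ≃ₐ[ℚ] AlgebraicClosure ℚ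

variable {R : Type} [CommRing R] [IsLocalRing R] [IsNoetherianRing R] (r : GaloisRepAdic R)
  {A : ValuationSubring Qbar} {p q : ℕ} {τ Φ : Γ}

/-- The determinant of Frobenius at `q ≠ p` is `q`. -/
theorem det_frobenius_eq (hdet : r.DetIsCyclotomic p) (hq : q.Prime) (hp : p.Prime) (hpq : p ≠ q)
    (hA : A.LiesOverPrime q) (hΦ : A.IsFrobeniusAt Φ q) : LinearMap.det (r.ρ Φ) = (q : R) := by
  refine sub_eq_zero.mp (eq_zero_of_forall_mem_pow fun n => ?_)
  have h := hdet.2 n Φ q fun μ hμ =>
    FLTA.Galois.frobenius_apply_rootOfUnity hq hA hΦ (not_dvd_pow_of_ne hq hp hpq n) hμ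
  refine (Ideal.span_le.mpr ?_) h
  rintro _ rfl
  rw [Nat.cast_pow]
  exact Ideal.pow_mem_pow hdet.1 n

/-- At a prime of unipotent inertia: `T = 1 + N` with `N ^ 2 = 0` and `Φ N = q N Φ`. -/
theorem unipotent_site_relations (hdet : r.DetIsCyclotomic p) (hq : q.Prime) (hp : p.Prime)
    (hpq : p ≠ q) (hA : A.LiesOverPrime q) (hτ : IsTameGenerator A q p τ)
    (hΦ : A.IsFrobeniusAt Φ q)
    (hres : ∀ σ ∈ A.inertiaSubgroupIn ℚ, ∀ v : r.V,
      r.ρ σ v - v ∈ maximalIdeal R • (⊤ : Submodule R r.V))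
    (hu : r.IsUnipotentOnInertiaAt q) (b : Module.Basis (Fin 2) R r.V) :
    (LinearMap.toMatrix b b (r.ρ τ)).trace = 2 ∧ (LinearMap.toMatrix b b (r.ρ τ)).det = 1 ∧
      LinearMap.toMatrix b b (r.ρ Φ) * (LinearMap.toMatrix b b (r.ρ τ) - 1) =
        (q : R) • ((LinearMap.toMatrix b b (r.ρ τ) - 1) * LinearMap.toMatrix b b (r.ρ Φ)) := by
  have hres' : ∀ σ ∈ A.inertiaSubgroupIn ℚ, ∃ j : ℕ, ∀ v : r.V, (r.ρ σ ^ p ^ j) v - v ∈
      (maximalIdeal R ^ 1 • ⊤ : Submodule R r.V) := fun σ hσ => ⟨0, fun v => by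
    simpa using hres σ hσ v⟩
  have hrel := congrArg (LinearMap.toMatrixAlgEquiv b) (adic_tame_relation r.ρ hq hA hp hpq hτ
      r.isAdicContinuous hdet.1 hres' hΦ)
  rw [map_mul, map_mul, map_pow] at hrel
  set T := LinearMap.toMatrix b b (r.ρ τ) with hTdef
  set P := LinearMap.toMatrix b b (r.ρ Φ)
  replace hrel : P * T = T ^ q * P := hrel
  have hch : T.charpoly = (Polynomial.X - 1) ^ 2 := by
    rw [hTdef, LinearMap.charpoly_toMatrix]
    exact hu A hA τ hτ.1
  have htr : T.trace = 2 := by
    have h := congrArg (fun f => Polynomial.coeff f 1) hch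
    simp [Matrix.charpoly_fin_two, sub_sq, Polynomial.coeff_X_pow, Polynomial.coeff_one] at h
    linear_combination h
  have hdt : T.det = 1 := by
    have h := congrArg (fun f => Polynomial.coeff f 0) hch
    simpa [Matrix.charpoly_fin_two, sub_sq, Polynomial.coeff_X_pow] using h
  refine ⟨htr, hdt, ?_⟩
  have hT2 : (T - 1) * (T - 1) = 0 := by
    rw [trace_fin_two] at htr
    rw [det_fin_two] at hdt
    ext i j
    fin_cases i <;> fin_cases j <;> simp [mul_apply, Fin.sum_univ_two] <;>
      first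
        | linear_combination (T 0 0) * htr - hdt
        | linear_combination (T 1 1) * htr - hdt
        | linear_combination (T 0 1) * htr
        | linear_combination (T 1 0) * htr
  have hpow : ∀ j : ℕ, T ^ j = 1 + (j : R) • (T - 1) := by
    intro j
    induction j with
    | zero => simp
    | succ j ih =>
      calc T ^ (j + 1) = (1 + (j : R) • (T - 1)) * (1 + (T - 1)) := by
            rw [pow_succ, ih, add_sub_cancel]
        _ = _ := by
            rw [add_mul, one_mul, Matrix.smul_mul, mul_add, mul_one, hT2, add_zero, Nat.cast_succ]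
            module
  rw [hpow q, add_mul, one_mul, Matrix.smul_mul] at hrel
  rw [mul_sub, mul_one, hrel]
  abel

omit [IsNoetherianRing R] in
/-- A residually non-scalar operator is a companion matrix in a suitable basis. -/
theorem exists_companion_basis {V : Type} [AddCommGroup V] [Module R V]
    (b : Module.Basis (Fin 2) R V) (f : Module.End R V)
    (h : IsUnit (LinearMap.toMatrix b b f 1 0) ∨ IsUnit (LinearMap.toMatrix b b f 0 1) ∨
      IsUnit (LinearMap.toMatrix b b f 0 0 - LinearMap.toMatrix b b f 1 1)) :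
    ∃ b' : Module.Basis (Fin 2) R V,
      LinearMap.toMatrix b' b' f 0 0 = 0 ∧ LinearMap.toMatrix b' b' f 1 0 = 1 := by
  classical
  set P := LinearMap.toMatrix b b f with hP
  have hw : ∃ w : Fin 2 → R, IsUnit (w 0 * (P.mulVec w) 1 - w 1 * (P.mulVec w) 0) := by
    by_cases h10 : IsUnit (P 1 0)
    · exact ⟨![1, 0], by simpa [Matrix.mulVec, dotProduct, Fin.sum_univ_two] using h10⟩
    by_cases h01 : IsUnit (P 0 1)
    · exact ⟨![0, 1], by simpa [Matrix.mulVec, dotProduct, Fin.sum_univ_two] using h01⟩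
    refine ⟨![1, 1], ?_⟩
    have hd : IsUnit (P 0 0 - P 1 1) := (h.resolve_left h10).resolve_left h01
    have hm : P 1 0 - P 0 1 ∈ maximalIdeal R := sub_mem h10 h01
    have e : (![1, 1] : Fin 2 → R) 0 * (P.mulVec ![1, 1]) 1 -
        (![1, 1] : Fin 2 → R) 1 * (P.mulVec ![1, 1]) 0 = (P 1 0 - P 0 1) - (P 0 0 - P 1 1) := by
      simp [Matrix.mulVec, dotProduct, Fin.sum_univ_two]; ring
    rw [e]
    by_contra hu
    exact absurd hd (show ¬ IsUnit (P 0 0 - P 1 1) by
      have hh : P 0 0 - P 1 1 ∈ maximalIdeal R := by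
        rw [show P 0 0 - P 1 1 = (P 1 0 - P 0 1) - ((P 1 0 - P 0 1) - (P 0 0 - P 1 1)) by ring]
        exact sub_mem hm hu
      exact hh)
  obtain ⟨w, hw⟩ := hw
  let v0 : V := b.equivFun.symm w
  have hv0 : (b.repr v0 : Fin 2 → R) = w := b.equivFun.apply_symm_apply w
  have hv1 : (b.repr (f v0) : Fin 2 → R) = P.mulVec w := by
    rw [hP, ← hv0, LinearMap.toMatrix_mulVec_repr]
  have hu : IsUnit (b.det ![v0, f v0]) := by
    rw [Module.Basis.det_apply, det_fin_two]
    have e00 := congrFun hv0 0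
    have e10 := congrFun hv0 1
    have e01 := congrFun hv1 0
    have e11 := congrFun hv1 1
    simp only [Module.Basis.toMatrix_apply, Matrix.cons_val_zero, Matrix.cons_val_one]
    convert hw using 1
    rw [e00, e10, e01, e11]
    ring
  obtain ⟨hli, hsp⟩ := (Module.Basis.is_basis_iff_det b).mpr hu
  have key : (Module.Basis.mk hli hsp.ge).repr (f v0) = Finsupp.single 1 1 := by
    conv_lhs => arg 2; rw [show f v0 = Module.Basis.mk hli hsp.ge 1 from
      (Module.Basis.mk_apply hli hsp.ge 1).symm]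
    exact Module.Basis.repr_self _ _
  refine ⟨Module.Basis.mk hli hsp.ge, ?_, ?_⟩ <;>
    rw [LinearMap.toMatrix_apply, Module.Basis.mk_apply, Matrix.cons_val_zero, key] <;> simp

end FLTA.RT.LocalGalois
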