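import Fermat.Agent.RT.ImageSemistable
import Fermat.Agent.RepTheory.DVRExtension
import Fermat.Agent.RepTheory.Basic
import Fermat.Prelude.Def_GaloisRep_LocalConditions
import Mathlib.RingTheory.RootsOfUnity.PrimitiveRoots
import Mathlib.RingTheory.RootsOfUnity.AlgebraicallyClosed

/-!
# Coefficient rings for the residual representation of an elliptic curve

A complete discrete valuation ring `𝒪` of characteristic zero, finite over `ℤ_p`, containing the
`p ^ m`-th roots of unity, whose residue field contains `𝔽_{p²}` (so that all characteristic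
polynomials of a representation over `𝔽_p` split); the determinant is cyclotomic.
-/

set_option autoImplicit false

open Polynomial IsLocalRing WeierstrassCurve

open scoped WeierstrassCurve.Affine

namespace FLTA.RT

local notation "Qbar" => AlgebraicClosure ℚ
local notation "Γ" => AlgebraicClosure ℚ ≃ₐ[ℚ] AlgebraicClosure ℚ

section Split

variable {p : ℕ} [Fact p.Prime] {k : Type} [Field k] (φ : ZMod p →+* k)

/-- Every monic quadratic over `ZMod p` has a root in a field with an element of order `p² - 1`. -/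
theorem exists_root_quadratic {η : k} (hη : IsPrimitiveRoot η (p ^ 2 - 1)) (a b : ZMod p) :
    ∃ x : k, x ^ 2 + φ a * x + φ b = 0 := by
  have hp : p.Prime := Fact.out
  haveI : CharP k p := charP_of_injective_ringHom φ.injective p
  let ι : k →+* AlgebraicClosure k := algebraMap k (AlgebraicClosure k)
  haveI : CharP (AlgebraicClosure k) p := charP_of_injective_ringHom ι.injective p
  obtain ⟨A, hA⟩ : ∃ A, A = ι (φ a) := ⟨_, rfl⟩
  obtain ⟨B, hB⟩ : ∃ B, B = ι (φ b) := ⟨_, rfl⟩
  obtain ⟨y, hy⟩ := IsAlgClosed.exists_root (C 1 * X ^ 2 + C A * X + C B)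
    (by rw [degree_quadratic one_ne_zero]; decide)
  simp only [IsRoot.def, eval_add, eval_mul, eval_C, eval_pow, eval_X, one_mul] at hy
  have hAp : A ^ p = A := by rw [hA, ← map_pow, ← map_pow, ZMod.pow_card]
  have hBp : B ^ p = B := by rw [hB, ← map_pow, ← map_pow, ZMod.pow_card]
  have hy' : (y ^ p) ^ 2 + A * y ^ p + B = 0 := by
    have h := congrArg (fun z => z ^ p) hy
    simp only [add_pow_char, mul_pow, zero_pow hp.ne_zero] at h
    rw [hAp, hBp, ← pow_mul, mul_comm 2 p, pow_mul] at h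
    exact h
  have hfix : y ^ (p ^ 2) = y := by
    rw [pow_two p, pow_mul]
    have : (y ^ p - y) * (y ^ p + y + A) = 0 := by linear_combination hy' - hy
    rcases mul_eq_zero.mp this with h | h
    · rw [sub_eq_zero.mp h, sub_eq_zero.mp h]
    · have e : y ^ p = -y + -A := by linear_combination h
      have hneg : (-1 : AlgebraicClosure k) ^ p = -1 := neg_one_pow_char _ p
      rw [e, add_pow_char, neg_pow y, neg_pow A, hneg, hAp, e]
      ring
  obtain ⟨x, hx⟩ : ∃ x : k, ι x = y := by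
    by_cases hy0 : y = 0
    · exact ⟨0, by rw [map_zero, hy0]⟩
    · have h1 : y ^ (p ^ 2 - 1) = 1 := by
        apply mul_left_cancel₀ hy0
        rw [← pow_succ', Nat.sub_add_cancel (Nat.one_le_pow _ _ hp.pos), hfix, mul_one]
      have : NeZero (p ^ 2 - 1) := ⟨by
        have := hp.two_le; have : 4 ≤ p ^ 2 := by nlinarith
        omega⟩
      obtain ⟨i, -, hi⟩ := (hη.map_of_injective ι.injective).eq_pow_of_pow_eq_one h1
      exact ⟨η ^ i, by rw [map_pow, hi]⟩
  refine ⟨x, ι.injective ?_⟩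
  rw [map_add, map_add, map_mul, map_pow, map_zero, hx, ← hA, ← hB, hy]

/-- A two dimensional representation over `ZMod p` has split characteristic polynomials over
such a field. -/
theorem exists_charpoly_split (ρ : ResidualGaloisRep (ZMod p)) {η : k}
    (hη : IsPrimitiveRoot η (p ^ 2 - 1)) (σ : Γ) :
    ∃ α β : k, LinearMap.charpoly ((ρ.baseChangeAlong φ).ρ σ) = (X - C α) * (X - C β) := by
  obtain ⟨α, hα⟩ := exists_root_quadratic φ hη (-LinearMap.trace (ZMod p) ρ.V (ρ.ρ σ))
    (LinearMap.det (ρ.ρ σ))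
  refine ⟨α, φ (LinearMap.trace (ZMod p) ρ.V (ρ.ρ σ)) - α, ?_⟩
  let : Algebra (ZMod p) k := φ.toAlgebra
  show LinearMap.charpoly ((ρ.ρ σ).baseChange k) = _
  rw [LinearMap.charpoly_baseChange, RepTheory.charpoly_of_finrank_two ρ.finrank_eq,
    show algebraMap (ZMod p) k = φ from rfl]
  rw [map_neg] at hα
  have hdet : φ (LinearMap.det (ρ.ρ σ))
      = α * (φ (LinearMap.trace (ZMod p) ρ.V (ρ.ρ σ)) - α) := by linear_combination hα
  simp only [Polynomial.map_add, Polynomial.map_sub, Polynomial.map_mul, Polynomial.map_pow,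
    map_X, map_C, hdet]
  simp only [map_sub, map_mul]
  ring

end Split

section Ring

variable (p : ℕ) [hp : Fact p.Prime]

/-- The coefficient ring. -/
theorem exists_coefficientRing (m : ℕ) :
    ∃ (E : RepTheory.FiniteDVRExt ℤ_[p]) (ζ : E.R) (φ : ZMod p →+* ResidueField E.R)
      (η : ResidueField E.R),
      (p : E.R) ∈ maximalIdeal E.R ∧ IsPrimitiveRoot ζ (p ^ m) ∧
        IsPrimitiveRoot η (p ^ 2 - 1) := by
  haveI : Finite (ResidueField ℤ_[p]) :=
    Finite.of_equiv _ (PadicInt.residueField (p := p)).toEquiv.symm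
  have h2 : 2 ≤ p := hp.out.two_le
  have hn0 : p ^ 2 - 1 ≠ 0 := by
    have : 4 ≤ p ^ 2 := by nlinarith
    omega
  haveI : NeZero (p ^ 2 - 1) := ⟨hn0⟩
  haveI : NeZero (p ^ m) := ⟨pow_ne_zero m hp.out.ne_zero⟩
  let K := AlgebraicClosure (FractionRing ℤ_[p])
  haveI : CharZero K := charZero_of_injective_algebraMap
    (RepTheory.algebraMap_algClosure_injective ℤ_[p])
  haveI : NeZero ((p ^ m : ℕ) : K) := ⟨Nat.cast_ne_zero.mpr (NeZero.ne _)⟩
  haveI : NeZero ((p ^ 2 - 1 : ℕ) : K) := ⟨Nat.cast_ne_zero.mpr (NeZero.ne _)⟩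
  obtain ⟨z, hz⟩ := HasEnoughRootsOfUnity.exists_primitiveRoot K (p ^ m)
  obtain ⟨w, hw⟩ := HasEnoughRootsOfUnity.exists_primitiveRoot K (p ^ 2 - 1)
  obtain ⟨E, ι, hι, hmem⟩ := RepTheory.exists_finiteDVRExt_subset ℤ_[p] {z, w}
    (Set.toFinite _) (by
      rintro x (rfl | rfl)
      · exact IsIntegral.of_pow (NeZero.pos _) (hz.pow_eq_one ▸ isIntegral_one)
      · exact IsIntegral.of_pow (NeZero.pos _) (hw.pow_eq_one ▸ isIntegral_one))
  obtain ⟨ζ, hζ⟩ := hmem z (by simp)
  obtain ⟨ω, hω⟩ := hmem w (by simp)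
  have hpE : (p : E.R) ∈ maximalIdeal E.R := by
    rw [← map_natCast (algebraMap ℤ_[p] E.R), mem_maximalIdeal, mem_nonunits_iff,
      isUnit_map_iff]
    exact PadicInt.p_nonunit
  haveI : CharP (ResidueField E.R) p := (CharP.charP_iff_prime_eq_zero hp.out).mpr (by
    rw [← map_natCast (residue E.R), residue_eq_zero_iff]; exact hpE)
  have hω' : IsPrimitiveRoot ω (p ^ 2 - 1) :=
    IsPrimitiveRoot.of_map_of_injective (f := ι.toRingHom) (by
      show IsPrimitiveRoot (ι ω) _
      rw [show ι ω = w from hω]; exact hw) hι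
  refine ⟨E, ζ, ZMod.castHom dvd_rfl _, residue E.R ω, hpE, ?_, ?_⟩
  · exact IsPrimitiveRoot.of_map_of_injective (f := ι.toRingHom) (by
      show IsPrimitiveRoot (ι ζ) _
      rw [show ι ζ = z from hζ]; exact hz) hι
  · refine ⟨by rw [← map_pow, hω'.pow_eq_one, map_one], fun l hl => ?_⟩
    by_contra hdvd
    have hx : ω ^ l ≠ 1 := fun h => hdvd (hω'.dvd_of_pow_eq_one l h)
    have hgeom : (ω ^ l - 1) * ∑ i ∈ Finset.range (p ^ 2 - 1), (ω ^ l) ^ i = 0 := by
      rw [mul_geom_sum, ← pow_mul, mul_comm l, pow_mul, hω'.pow_eq_one, one_pow, sub_self]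
    have hsum := (mul_eq_zero.mp hgeom).resolve_left (sub_ne_zero.mpr hx)
    have h0 : ((p ^ 2 - 1 : ℕ) : ResidueField E.R) = 0 := by
      have h := congrArg (residue E.R) hsum
      simpa [map_sum, map_pow, hl] using h
    rw [CharP.cast_eq_zero_iff (ResidueField E.R) p] at h0
    have h1 : p ∣ (p ^ 2 - 1) + 1 := by
      rw [Nat.sub_add_cancel (Nat.one_le_pow _ _ hp.out.pos)]; exact dvd_pow_self p two_ne_zero
    exact hp.out.one_lt.ne' (Nat.dvd_one.mp ((Nat.dvd_add_right h0).mp h1))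

end Ring

section Det

variable (W : WeierstrassCurve ℤ) (p : ℕ) [Fact p.Prime]
  (hcard : Nat.card (Submodule.torsionBy ℤ
    ((W.map (Int.castRingHom ℚ))⁄(AlgebraicClosure ℚ)).Point p) = p ^ 2)
  (hker : GaloisFactorsThroughFiniteLevel
    (Affine.Point.galoisRepModuleEnd (K := AlgebraicClosure ℚ) ℚ (W.map (Int.castRingHom ℚ)) p))

/-- The determinant of the residual representation of a curve is cyclotomic. -/
theorem residual_detIsCyclotomic (hΔ : W.Δ ≠ 0) {k : Type} [Field k] (φ : ZMod p →+* k) :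
    (GaloisRepAdic.ofResidualGaloisRep (((W.map (Int.castRingHom ℚ)).residualGaloisRepOf p hcard
      hker).baseChangeAlong φ)).DetIsCyclotomic p := by
  have hp : p.Prime := Fact.out
  haveI : CharP k p := charP_of_injective_ringHom φ.injective p
  refine ⟨?_, fun n σ a ha => ?_⟩
  · rw [CharP.cast_eq_zero]; exact zero_mem _
  rcases Nat.eq_zero_or_pos n with rfl | hn
  · rw [pow_zero, Nat.cast_one, Ideal.span_singleton_one]; trivial
  have hexp : (ExtCitation.cycloExp p σ : ZMod p) = (a : ZMod p) := by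
    haveI : NeZero p := ⟨hp.ne_zero⟩
    rw [ExtCitation.cycloExp, ZMod.natCast_zmod_val]
    refine (modularCyclotomicCharacter.unique Qbar _ (σ : Qbar ≃+* Qbar) fun t ht => ?_).symm
    have h1 : ((t : Qbarˣ) : Qbar) ^ p = 1 := by
      rw [← Units.val_pow_eq_pow_val, ht, Units.val_one]
    have h2 := ha (t : Qbarˣ) (by
      obtain ⟨j, rfl⟩ : ∃ j, n = j + 1 := ⟨n - 1, by omega⟩
      rw [pow_succ', pow_mul, h1, one_pow])
    rw [ZMod.val_natCast, ← pow_eq_pow_mod a h1]
    exact h2
  let : Algebra (ZMod p) k := φ.toAlgebra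
  have hdet : LinearMap.det ((Affine.Point.galoisRepModuleEnd (K := AlgebraicClosure ℚ) ℚ
      (W.map (Int.castRingHom ℚ)) p σ).baseChange k) = φ (a : ZMod p) := by
    haveI : Finite (Submodule.torsionBy ℤ
        ((W.map (Int.castRingHom ℚ))⁄(AlgebraicClosure ℚ)).Point p) :=
      Nat.finite_of_card_ne_zero (hcard ▸ pow_ne_zero 2 hp.ne_zero)
    rw [LinearMap.det_baseChange, det_rhoW W p hΔ σ, hexp]
    rfl
  show LinearMap.det ((Affine.Point.galoisRepModuleEnd (K := AlgebraicClosure ℚ) ℚ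
    (W.map (Int.castRingHom ℚ)) p σ).baseChange k) - (a : k) ∈ _
  rw [hdet, map_natCast, sub_self]
  exact zero_mem _

end Det

end FLTA.RT
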