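import Fermat.Agent.RT.ImageThree
import Mathlib.LinearAlgebra.Matrix.GeneralLinearGroup.Card

/-!
# The index two clause for semistable curves at `p = 3`
-/

set_option autoImplicit false

open WeierstrassCurve

open scoped WeierstrassCurve.Affine TensorProduct

namespace FLTA.RT

open FLTA.EllReduction

local notation "Qbar" => AlgebraicClosure ℚ
local notation "Γ" => AlgebraicClosure ℚ ≃ₐ[ℚ] AlgebraicClosure ℚ

section Shape

variable (W : WeierstrassCurve ℤ)

local notation "ρ3" =>
  Affine.Point.galoisRepModuleEnd (K := AlgebraicClosure ℚ) ℚ (W.map (Int.castRingHom ℚ)) 3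

local instance factPrimeThree : Fact (Nat.Prime 3) := ⟨Nat.prime_three⟩

theorem unip_three (hΔ : W.Δ ≠ 0) (hW : W.IsSemistableModel) {q : ℕ} (hq : q.Prime) (hq3 : q ≠ 3)
    {A : ValuationSubring Qbar} (hA : A.LiesOverPrime q) {σ : Γ}
    (hσ : σ ∈ A.inertiaSubgroupIn ℚ) (v : Submodule.torsionBy ℤ
      ((W.map (Int.castRingHom ℚ))⁄(AlgebraicClosure ℚ)).Point ((3 : ℕ) : ℤ)) :
    ρ3 σ (ρ3 σ v - v) = ρ3 σ v - v :=
  Subtype.ext (smul_smul_sub_eq hq hA
    ((em ((q : ℤ) ∣ W.Δ)).elim (fun h => Or.inr (hW q hq h)) Or.inl) hΔ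
    (fun h => hq3 ((Nat.prime_dvd_prime_iff_eq hq Nat.prime_three).mp h)) hσ hσ (nsmul_coe W 3 v))

theorem finite_tors_three (hΔ : W.Δ ≠ 0) :
    Finite (Submodule.torsionBy ℤ
      ((W.map (Int.castRingHom ℚ))⁄(AlgebraicClosure ℚ)).Point ((3 : ℕ) : ℤ)) :=
  Nat.finite_of_card_ne_zero (ne_of_eq_of_ne
    (EllTorsion.natCard_torsionBy_intModel W hΔ (n := 3) (by norm_num)) (by norm_num))

-- the shape of a semistable mod 3 representation
set_option maxRecDepth 4000 in
theorem shapeThree (hΔ : W.Δ ≠ 0) (hW : W.IsSemistableModel) {s : Qbar} (hs : s ^ 2 = -3) :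
    ShapeThree ρ3 s where
  finite := EllTorsion.galoisFactorsThroughFiniteLevel_intModel W hΔ (by norm_num)
  pow_away := by
    intro q hq hq3 A hA σ hσ
    have hpow : ∀ (i : ℕ) v, (ρ3 σ ^ i) v = v + (i : ZMod 3) • (ρ3 σ v - v) := by
      intro i v
      induction i with
      | zero => simp
      | succ i ih =>
        rw [pow_succ', Module.End.mul_apply, ih, map_add, map_smul,
          unip_three W hΔ hW hq hq3 hA hσ,
          show ((i + 1 : ℕ) : ZMod 3) = (i : ZMod 3) + 1 from Nat.cast_succ i, add_smul, one_smul]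
        abel
    refine LinearMap.ext fun v => ?_
    rw [hpow, ZMod.natCast_self, zero_smul, add_zero, Module.End.one_apply]
  unip_away := by
    intro q hq hq3 A hA σ hσ
    refine LinearMap.ext fun v => ?_
    rw [pow_two, Module.End.mul_apply, LinearMap.sub_apply, LinearMap.sub_apply,
      Module.End.one_apply, Module.End.one_apply, LinearMap.zero_apply,
      unip_three W hΔ hW hq hq3 hA hσ, sub_self]
  pow_fortyEight := by
    intro σ
    haveI := finite_tors_three W hΔ
    have hfr : Module.finrank (ZMod 3) (Submodule.torsionBy ℤ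
        ((W.map (Int.castRingHom ℚ))⁄(AlgebraicClosure ℚ)).Point ((3 : ℕ) : ℤ)) = 2 := by
      have h := Module.natCard_eq_pow_finrank (K := ZMod 3) (V := Submodule.torsionBy ℤ
        ((W.map (Int.castRingHom ℚ))⁄(AlgebraicClosure ℚ)).Point ((3 : ℕ) : ℤ))
      have h' := (EllTorsion.natCard_torsionBy_intModel W hΔ (n := 3) (by norm_num)).symm.trans h
      rw [Nat.card_zmod] at h'
      exact (Nat.pow_right_injective (by norm_num : 2 ≤ 3) h').symm
    let b := Module.finBasisOfFinrankEq _ _ hfr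
    let u := (Units.map (LinearMap.toMatrixAlgEquiv b).toMulEquiv.toMonoidHom).comp
      (MonoidHom.toHomUnits ρ3) σ
    have hu : u ^ 48 = 1 := by
      have h := pow_card_eq_one' (x := u)
      have hc : Nat.card (Matrix.GeneralLinearGroup (Fin 2) (ZMod 3)) = 48 := by
        rw [Matrix.card_GL_field]; simp [Fin.prod_univ_two]
      rwa [hc] at h
    have h2 : LinearMap.toMatrixAlgEquiv b (ρ3 σ) ^ 48 = 1 := by
      have := congrArg (fun t : (Matrix (Fin 2) (Fin 2) (ZMod 3))ˣ =>
        (t : Matrix (Fin 2) (Fin 2) (ZMod 3))) hu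
      simpa [u] using this
    rw [← map_pow] at h2
    exact (LinearMap.toMatrixAlgEquiv b).injective
      (h2.trans (map_one (LinearMap.toMatrixAlgEquiv b)).symm)
  det_eq_one := by
    intro σ hσ
    rw [det_rhoW W 3 hΔ, ExtCitation.cycloExp, ZMod.natCast_zmod_val]
    obtain ⟨z, hz⟩ : ∃ z : Qbar, z = (-1 + s) / 2 := ⟨_, rfl⟩
    have hz1 : z ^ 2 + z + 1 = 0 := by rw [hz]; field_simp; linear_combination hs
    have hz3 : z ^ 3 = 1 := by linear_combination (z - 1) * hz1
    have hzne : z ≠ 0 := fun h => by rw [h] at hz1; norm_num at hz1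
    have hσz : σ z = z := by rw [hz, map_div₀, map_add, map_neg, map_one, hσ, map_ofNat]
    haveI : NeZero (3 : ℕ) := ⟨by norm_num⟩
    have hspec := modularCyclotomicCharacter.spec Qbar (ExtCitation.card_rootsOfUnity_eq_self 3)
      (σ : Qbar ≃+* Qbar) (t := Units.mk0 z hzne) (Units.ext (by simpa using hz3))
    obtain ⟨c, hc⟩ : ∃ c, c = ((modularCyclotomicCharacter Qbar
        (ExtCitation.card_rootsOfUnity_eq_self 3) (σ : Qbar ≃+* Qbar) : (ZMod 3)ˣ) : ZMod 3) :=
      ⟨_, rfl⟩
    have hc0 : c ≠ 0 := hc ▸ Units.ne_zero _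
    have hspec' : z = z ^ c.val := by
      rw [hc]; simpa [hσz] using hspec
    rw [← hc]
    fin_cases c
    · exact absurd rfl hc0
    · rfl
    · exfalso
      have h2 : z = z ^ 2 := hspec'
      have h3 : 2 * z + 1 = 0 := by linear_combination hz1 + h2
      have h4 : (3 : Qbar) = 0 := by linear_combination 4 * hz1 - (2 * z + 1) * h3
      norm_num at h4
  det_sq := by
    intro σ
    rw [det_rhoW W 3 hΔ, ExtCitation.cycloExp, ZMod.natCast_zmod_val]
    exact ZMod.pow_card_sub_one_eq_one (p := 3) (Units.ne_zero _)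

end Shape

/-- `habs` and `hTW` at `p = 3`. -/
theorem residual_absIrr_and_indexTwo_three (W : WeierstrassCurve ℤ) (hΔ : W.Δ ≠ 0)
    (hcard : Nat.card (Submodule.torsionBy ℤ
      ((W.map (Int.castRingHom ℚ))⁄(AlgebraicClosure ℚ)).Point 3) = 3 ^ 2)
    (hker : GaloisFactorsThroughFiniteLevel
      (Affine.Point.galoisRepModuleEnd (K := AlgebraicClosure ℚ) ℚ
        (W.map (Int.castRingHom ℚ)) 3))
    (hW : W.IsSemistableModel) (hirr : W.ModRepIsIrreducible 3) {k : Type} [Field k]
    (φ : ZMod 3 →+* k) :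
    (((W.map (Int.castRingHom ℚ)).residualGaloisRepOf 3 hcard hker).baseChangeAlong
        φ).IsAbsolutelyIrreducible ∧
      ∀ (K : Type) [Field K] [Algebra k K] (G : Subgroup Γ), G.index = 2 →
        ∀ V : Submodule K ((((W.map (Int.castRingHom ℚ)).residualGaloisRepOf 3 hcard
            hker).baseChangeAlong φ).baseChange K).V,
          (∀ σ ∈ G, ∀ x ∈ V, ((((W.map (Int.castRingHom ℚ)).residualGaloisRepOf 3 hcard
            hker).baseChangeAlong φ).baseChange K).ρ σ x ∈ V) → V = ⊥ ∨ V = ⊤ := by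
  have habs : (((W.map (Int.castRingHom ℚ)).residualGaloisRepOf 3 hcard hker).baseChangeAlong
      φ).IsAbsolutelyIrreducible :=
    (RepTheory.isAbsolutelyIrreducible_baseChangeAlong_iff φ _).mpr
      (residual_isAbsolutelyIrreducible W hΔ 3 hcard hker (by norm_num) hirr)
  refine ⟨habs, fun K _ _ G hG V hV => ?_⟩
  obtain ⟨s, hs⟩ := IsAlgClosed.exists_pow_nat_eq (-3 : Qbar) (n := 2) two_pos
  have hspans := (RepTheory.spans_baseChange_iff K _).mpr
    ((RepTheory.isAbsolutelyIrreducible_iff_spans _).mp habs)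
  let : Algebra (ZMod 3) k := φ.toAlgebra
  haveI : CharP k 3 := charP_of_injective_ringHom φ.injective 3
  haveI : CharP K 3 := charP_of_injective_ringHom (algebraMap k K).injective 3
  haveI := finite_tors_three W hΔ
  exact ShapeThree.indexTwoIrreducible hs (((shapeThree W hΔ hW hs).baseChange k).baseChange K)
    ((((W.map (Int.castRingHom ℚ)).residualGaloisRepOf 3 hcard hker).baseChangeAlong
      φ).baseChange K).finrank_eq hspans
    (fun W' hW' => RepTheory.eq_bot_or_eq_top_of_spans hspans W' hW') G hG V hV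

end FLTA.RT
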