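import Fermat.Agent.RT.DeformClosed
import Fermat.Agent.Galois.Cyclotomic

/-!
Tools for closure properties: endomorphisms, determinants and traces under base change of a
`GaloisRepAdic`, and arithmetic of exponents of the cyclotomic character.
-/

set_option autoImplicit false

noncomputable section

namespace FLTA.RT

open IsLocalRing FLTA.Deformation
open scoped TensorProduct

section baseChange

variable {A B : Type} [CommRing A] [CommRing B] [Algebra A B] {V : Type} [AddCommGroup V] [Module A V]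
  (b : Module.Basis (Fin 2) A V)

lemma toMatrix_bc (f : Module.End A V) :
    LinearMap.toMatrix (Algebra.TensorProduct.basis B b) (Algebra.TensorProduct.basis B b)
      (f.baseChange B) = (LinearMap.toMatrix b b f).map (algebraMap A B) :=
  LinearMap.toMatrix_baseChange (A := B) f b b

include b in
lemma det_bc (f : Module.End A V) : LinearMap.det (f.baseChange B) = algebraMap A B (LinearMap.det f) := by
  rw [← LinearMap.det_toMatrix (Algebra.TensorProduct.basis B b), toMatrix_bc,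
    ← LinearMap.det_toMatrix b, RingHom.map_det]
  rfl

end baseChange

section rep

variable {A : Type} [CommRing A] [IsLocalRing A]

lemma det_baseChangeAlong {B : Type} [CommRing B] [IsLocalRing B] (φ : A →+* B) (hφ : IsLocalHom φ)
    (ρ : GaloisRepAdic A) (σ : GalQ) :
    LinearMap.det ((ρ.baseChangeAlong φ hφ).ρ σ) = φ (LinearMap.det (ρ.ρ σ)) := by
  let _ : Algebra A B := φ.toAlgebra
  exact det_bc (B := B) (repBasis ρ) (ρ.ρ σ)

/-- Base change of endomorphisms along `φ`. -/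
def bcEnd {B : Type} [CommRing B] [IsLocalRing B] (φ : A →+* B) (hφ : IsLocalHom φ)
    (ρ : GaloisRepAdic A) : Module.End A ρ.V →+* Module.End B (ρ.baseChangeAlong φ hφ).V :=
  letI : Algebra A B := φ.toAlgebra
  { toFun := fun f => f.baseChange B
    map_one' := LinearMap.baseChange_one A ρ.V
    map_mul' := fun f g => LinearMap.baseChange_mul f g
    map_zero' := LinearMap.baseChange_zero
    map_add' := fun f g => LinearMap.baseChange_add f g }

lemma bcEnd_rho {B : Type} [CommRing B] [IsLocalRing B] (φ : A →+* B) (hφ : IsLocalHom φ)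
    (ρ : GaloisRepAdic A) (σ : GalQ) :
    bcEnd φ hφ ρ (ρ.ρ σ) = (ρ.baseChangeAlong φ hφ).ρ σ := rfl

lemma bcEnd_smul {B : Type} [CommRing B] [IsLocalRing B] (φ : A →+* B) (hφ : IsLocalHom φ)
    (ρ : GaloisRepAdic A) (a : A) (f : Module.End A ρ.V) :
    bcEnd φ hφ ρ (a • f) = φ a • bcEnd φ hφ ρ f := by
  let _ : Algebra A B := φ.toAlgebra
  show (a • f).baseChange B = φ a • f.baseChange B
  rw [LinearMap.baseChange_smul, ← algebraMap_smul B a]
  rfl

lemma trace_bcEnd {B : Type} [CommRing B] [IsLocalRing B] (φ : A →+* B) (hφ : IsLocalHom φ)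
    (ρ : GaloisRepAdic A) (f : Module.End A ρ.V) :
    LinearMap.trace B _ (bcEnd φ hφ ρ f) = φ (LinearMap.trace A ρ.V f) := by
  let _ : Algebra A B := φ.toAlgebra
  exact LinearMap.trace_baseChange f B

lemma toMatrix_bcEnd_eq_zero_iff {B : Type} [CommRing B] [IsLocalRing B] (φ : A →+* B)
    (hφ : IsLocalHom φ) (ρ : GaloisRepAdic A) (f : Module.End A ρ.V) :
    bcEnd φ hφ ρ f = 0 ↔
      ∀ i j, φ (LinearMap.toMatrix (repBasis ρ) (repBasis ρ) f i j) = 0 := by
  let _ : Algebra A B := φ.toAlgebra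
  show f.baseChange B = 0 ↔ _
  rw [← (LinearMap.toMatrix (Algebra.TensorProduct.basis B (repBasis ρ))
      (Algebra.TensorProduct.basis B (repBasis ρ))).map_eq_zero_iff, toMatrix_bc, ← Matrix.ext_iff]
  rfl

lemma eq_zero_of_pair {B C : Type} [CommRing B] [IsLocalRing B] [CommRing C] [IsLocalRing C]
    {f : A →+* B} {g : A →+* C} {hf : IsLocalHom f} {hg : IsLocalHom g}
    (hi : ∀ x, f x = 0 → g x = 0 → x = 0) (ρ : GaloisRepAdic A) (e : Module.End A ρ.V)
    (h : bcEnd f hf ρ e = 0) (h' : bcEnd g hg ρ e = 0) : e = 0 := by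
  rw [toMatrix_bcEnd_eq_zero_iff] at h h'
  rw [← (LinearMap.toMatrix (repBasis ρ) (repBasis ρ)).map_eq_zero_iff]
  exact Matrix.ext fun i j => hi _ (h i j) (h' i j)

lemma eq_zero_of_forall_modPow [IsNoetherianRing A] (ρ : GaloisRepAdic A) (e : Module.End A ρ.V)
    (h : ∀ k, haveI := isLocalRing_modPow A k
      bcEnd (Ideal.Quotient.mk (maximalIdeal A ^ (k + 1))) (isLocalHom_mk _) ρ e = 0) : e = 0 := by
  rw [← (LinearMap.toMatrix (repBasis ρ) (repBasis ρ)).map_eq_zero_iff]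
  refine Matrix.ext fun i j => ?_
  have : LinearMap.toMatrix (repBasis ρ) (repBasis ρ) e i j ∈ (⊥ : Ideal A) :=
    mem_of_forall_modPow ⊥ _ fun k => by
      haveI := isLocalRing_modPow A k
      have := (toMatrix_bcEnd_eq_zero_iff _ _ ρ e).mp (h k) i j
      rw [this, Ideal.map_bot]
      exact Ideal.zero_mem _
  simpa using this

lemma trace_mul_eq_of_isEquiv {ρ ρ' : GaloisRepAdic A} (e : ρ.Equiv ρ') (σ : GalQ) :
    e.toLinearEquiv.conjRingEquiv (ρ.ρ σ) = ρ'.ρ σ :=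
  LinearMap.ext fun x => by
    show e.toLinearEquiv (ρ.ρ σ (e.toLinearEquiv.symm x)) = _
    rw [e.map_apply, LinearEquiv.apply_symm_apply]

lemma det_eq_of_isEquiv {ρ ρ' : GaloisRepAdic A} (h : ρ.IsEquiv ρ') (σ : GalQ) :
    LinearMap.det (ρ.ρ σ) = LinearMap.det (ρ'.ρ σ) := by
  obtain ⟨e⟩ := h
  rw [← trace_mul_eq_of_isEquiv e σ]
  exact (LinearMap.det_conj (ρ.ρ σ) e.toLinearEquiv).symm

end rep

section cyclo

variable {p : ℕ} [hp : Fact p.Prime]

/-- `σ` acts as `a` on the `p^n`-th roots of unity. -/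
def IsExp (p n : ℕ) (σ : GalQ) (a : ℕ) : Prop :=
  ∀ μ : AlgebraicClosure ℚ, μ ^ p ^ n = 1 → σ μ = μ ^ a

lemma exists_isExp (n : ℕ) (σ : GalQ) : ∃ a, IsExp p n σ a := by
  haveI : NeZero (p ^ n) := ⟨pow_ne_zero _ hp.out.ne_zero⟩
  obtain ⟨ζ, hζ⟩ := HasEnoughRootsOfUnity.exists_primitiveRoot (AlgebraicClosure ℚ) (p ^ n)
  have h1 : (σ ζ) ^ p ^ n = 1 := by rw [← map_pow, hζ.pow_eq_one, map_one]
  obtain ⟨a, -, ha⟩ := hζ.eq_pow_of_pow_eq_one h1
  refine ⟨a, fun μ hμ => ?_⟩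
  obtain ⟨i, -, rfl⟩ := hζ.eq_pow_of_pow_eq_one hμ
  rw [map_pow, ← ha, ← pow_mul, ← pow_mul, mul_comm]

lemma IsExp.mono {n m : ℕ} (h : n ≤ m) {σ : GalQ} {a : ℕ} (ha : IsExp p m σ a) : IsExp p n σ a :=
  fun μ hμ => ha μ (by
    obtain ⟨d, rfl⟩ := Nat.exists_eq_add_of_le h
    rw [pow_add, pow_mul, hμ, one_pow])

lemma IsExp.sub_mem {A : Type} [CommRing A] {n : ℕ} {σ : GalQ} {a b : ℕ} (ha : IsExp p n σ a)
    (hb : IsExp p n σ b) : (a : A) - (b : A) ∈ Ideal.span {((p ^ n : ℕ) : A)} := by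
  haveI : NeZero (p ^ n) := ⟨pow_ne_zero _ hp.out.ne_zero⟩
  obtain ⟨ζ, hζ⟩ := HasEnoughRootsOfUnity.exists_primitiveRoot (AlgebraicClosure ℚ) (p ^ n)
  have h : ζ ^ a = ζ ^ b := (ha ζ hζ.pow_eq_one).symm.trans (hb ζ hζ.pow_eq_one)
  obtain ⟨c, hc⟩ : ((p ^ n : ℕ) : ℤ) ∣ (a : ℤ) - (b : ℤ) := by
    rw [← hζ.zpow_eq_one_iff_dvd, zpow_sub₀ (hζ.ne_zero (NeZero.ne _)), zpow_natCast, zpow_natCast, h,
      div_self (pow_ne_zero _ (hζ.ne_zero (NeZero.ne _)))]
  refine Ideal.mem_span_singleton.mpr ⟨(c : A), ?_⟩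
  have := congrArg (Int.cast (R := A)) hc
  push_cast at this ⊢
  exact this

omit hp in
lemma exists_pow_eq_zero {A : Type} [CommRing A] [IsLocalRing A] [IsArtinianRing A]
    (h : (p : A) ∈ maximalIdeal A) : ∃ N, ∀ m, N ≤ m → ((p ^ m : ℕ) : A) = 0 := by
  obtain ⟨N, hN⟩ := (isArtinianRing_iff_isNilpotent_maximalIdeal A).mp ‹_›
  refine ⟨N, fun m hm => ?_⟩
  have : (p : A) ^ N = 0 := by simpa [hN] using Ideal.pow_mem_pow h N
  rw [Nat.cast_pow, ← Nat.sub_add_cancel hm, pow_add, this, mul_zero]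

end cyclo

end FLTA.RT
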