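import Fermat.Agent.RT.LocalGaloisTame

/-!
# The decomposition group at `q ≠ p` through a hom with pro-`p` inertia image

For `f : Γ →* M` of finite level whose inertia image at `A ∣ q` consists of elements of `p`-power
order, the image of inertia is generated by `f Σ₀` (`Σ₀` a tame generator), the image of the
decomposition group by `f Φ` and `f Σ₀`, and `f Φ * f Σ₀ = f Σ₀ ^ q * f Φ`.
-/

set_option autoImplicit false

open scoped Pointwise

noncomputable section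

namespace FLTA.RT.LocalGalois

open FLTA.Galois

local notation "Qbar" => AlgebraicClosure ℚ
local notation "Γ" => AlgebraicClosure ℚ ≃ₐ[ℚ] AlgebraicClosure ℚ

/-- An inertia element moving the `p`-th roots of `q`; it topologically generates the maximal
pro-`p` quotient of inertia. -/
def IsTameGenerator (A : ValuationSubring Qbar) (q p : ℕ) (τ : Γ) : Prop :=
  τ ∈ A.inertiaSubgroupIn ℚ ∧ ∀ c : Qbar, c ^ p = (q : Qbar) → τ c ≠ c

variable {A : ValuationSubring Qbar} {q p : ℕ}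

lemma not_dvd_pow_of_ne (hq : q.Prime) (hp : p.Prime) (hpq : p ≠ q) (n : ℕ) : ¬ q ∣ p ^ n :=
  fun h => hpq ((Nat.prime_dvd_prime_iff_eq hq hp).mp (hq.dvd_of_dvd_pow h)).symm

/-- Inertia fixing one `n`-th root of `q` fixes all of them. -/
lemma apply_root_eq_self (hq : q.Prime) (hA : A.LiesOverPrime q) {σ : Γ}
    (hσ : σ ∈ A.inertiaSubgroupIn ℚ) {n : ℕ} (hn : ¬ q ∣ n) {c c' : Qbar}
    (hc : c ^ n = (q : Qbar)) (hσc : σ c = c) (hc' : c' ^ n = (q : Qbar)) : σ c' = c' := by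
  have hn0 : n ≠ 0 := fun h => hn (h ▸ dvd_zero q)
  have hq0 : (q : Qbar) ≠ 0 := Nat.cast_ne_zero.mpr hq.ne_zero
  have hc0 : c ≠ 0 := fun h => hq0 (by rw [← hc, h, zero_pow hn0])
  have h1 : σ (c' / c) = c' / c :=
    inertia_apply_rootOfUnity hq hA hσ hn (by rw [div_pow, hc, hc', div_self hq0])
  rw [map_div₀, hσc] at h1
  exact (div_left_inj' hc0).mp h1

/-- Some inertia element moves the `p`-th roots of `q`. -/
theorem exists_isTameGenerator (hq : q.Prime) (hp : p.Prime) (hpq : p ≠ q)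
    (hA : A.LiesOverPrime q) : ∃ τ, IsTameGenerator A q p τ := by
  by_contra hcon
  simp only [IsTameGenerator, not_exists, not_and, not_forall, not_not] at hcon
  have hpn : ¬ q ∣ p := fun h => hpq ((Nat.prime_dvd_prime_iff_eq hq hp).mp h).symm
  set S : Set Qbar := {x | x ^ p = (q : Qbar)} with hS
  have hfix : ∀ B : ValuationSubring Qbar, B.LiesOverPrime q →
      ∀ σ ∈ B.inertiaSubgroupIn ℚ, ∀ x ∈ S, σ x = x := by
    intro B hB σ hσ x hx
    obtain ⟨g, rfl⟩ := exists_smul_eq hq hA hB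
    rw [inertiaSubgroupIn_smul_iff] at hσ
    obtain ⟨c, hc, hc'⟩ := hcon _ hσ
    have h1 : (g⁻¹ * σ * g) (g⁻¹ x) = g⁻¹ x :=
      apply_root_eq_self hq hA hσ hpn hc hc' (by rw [← map_pow, hx, map_natCast])
    rw [AlgEquiv.mul_apply, AlgEquiv.mul_apply, ← AlgEquiv.mul_apply g, mul_inv_cancel,
      AlgEquiv.one_apply] at h1
    exact (g⁻¹).injective h1
  have : Finite S := by
    apply Set.Finite.to_subtype
    refine (Polynomial.nthRoots p (q : Qbar)).toFinset.finite_toSet.subset fun x hx => ?_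
    rw [Finset.mem_coe, Multiset.mem_toFinset, Polynomial.mem_nthRoots hp.pos]; exact hx
  let L : IntermediateField ℚ Qbar := IntermediateField.adjoin ℚ S
  have : FiniteDimensional ℚ L := IntermediateField.finiteDimensional_adjoin
    fun x _ => (qbar_isAlgebraic.isAlgebraic x).isIntegral
  have : Normal ℚ L := IntermediateField.normal_iff_forall_map_le.mpr fun σ => by
    rw [IntermediateField.adjoin_map]
    refine IntermediateField.adjoin.mono ℚ _ _ ?_
    rintro _ ⟨x, hx, rfl⟩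
    show σ x ^ p = (q : Qbar)
    rw [← map_pow, hx, map_natCast]
  have hle : ∀ B : ValuationSubring Qbar, B.LiesOverPrime q →
      B.inertiaSubgroupIn ℚ ≤ L.fixingSubgroup := fun B hB σ hσ => by
    rw [← Subgroup.zpowers_le, ← IntermediateField.le_iff_le, IntermediateField.adjoin_le_iff]
    intro x hx τ
    obtain ⟨τ, hτ⟩ := τ
    exact hfix B hB τ (Subgroup.zpowers_le.mpr hσ hτ) x hx
  have : NumberField L := { to_finiteDimensional := inferInstance }
  have := placeIdeal_isPrime (A := A) (L := L)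
  have := placeIdeal_liesOver hq hA (L := L)
  have he : (placeIdeal A L).ramificationIdx ℤ = 1 :=
    Algebra.isUnramifiedIn_iff_forall_ramificationIdx_eq_one.mp
      ((isUnramifiedIn_iff_inertia_le hq).mpr hle) (placeIdeal A L) inferInstance
  have hne : Ideal.span {(q : ℤ)} ≠ ⊥ := by simp [hq.ne_zero]
  rw [← Ideal.ramificationIdx'_eq_ramificationIdx (Ideal.span {(q : ℤ)}) (placeIdeal A L) hne]
    at he
  have hmap : (Ideal.span {(q : ℤ)}).map (algebraMap ℤ (NumberField.RingOfIntegers L)) =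
      Ideal.span {(q : NumberField.RingOfIntegers L)} := by
    simp [Ideal.map_span]
  obtain ⟨c, hc⟩ := IsAlgClosed.exists_pow_nat_eq (q : Qbar) hp.pos
  have hcL : c ∈ L := IntermediateField.subset_adjoin ℚ S hc
  have hcint : IsIntegral ℤ (⟨c, hcL⟩ : L) := by
    refine IsIntegral.of_pow hp.pos ?_
    rw [show (⟨c, hcL⟩ : L) ^ p = ((q : ℕ) : L) from Subtype.ext (by simpa using hc)]
    exact isIntegral_natCast q
  set γ : NumberField.RingOfIntegers L := ⟨⟨c, hcL⟩, hcint⟩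
  have hγ : γ ^ p = (q : NumberField.RingOfIntegers L) :=
    NumberField.RingOfIntegers.ext (Subtype.ext hc)
  have hqP : (q : NumberField.RingOfIntegers L) ∈ placeIdeal A L := natCast_mem_placeIdeal hA
  have hγP : γ ∈ placeIdeal A L :=
    (placeIdeal_isPrime (A := A) (L := L)).mem_of_pow_mem p (hγ ▸ hqP)
  refine (Ideal.ramificationIdx'_ne_one_iff ?_).mpr ?_ he
  · rw [hmap, Ideal.span_singleton_le_iff_mem]
    exact hqP
  · rw [hmap, Ideal.span_singleton_le_iff_mem, ← hγ]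
    exact Ideal.pow_le_pow_right hp.two_le (Ideal.pow_mem_pow hγP p)

/-- At every level, the Kummer character of a tame generator is a primitive root of unity. -/
lemma IsTameGenerator.isPrimitiveRoot (hq : q.Prime) (hp : p.Prime) {τ : Γ}
    (hτ : IsTameGenerator A q p τ) {n : ℕ} {c : Qbar} (hc : c ^ p ^ n = (q : Qbar)) :
    IsPrimitiveRoot (τ c / c) (p ^ n) := by
  have hq0 : (q : Qbar) ≠ 0 := Nat.cast_ne_zero.mpr hq.ne_zero
  have hc0 : c ≠ 0 := fun h => hq0 (by rw [← hc, h, zero_pow (pow_pos hp.pos n).ne'])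
  have hpow : (τ c / c) ^ p ^ n = 1 := by
    rw [div_pow, ← map_pow, hc, map_natCast, div_self hq0]
  rcases n with _ | n
  · simpa using hpow
  have := Fact.mk hp
  refine IsPrimitiveRoot.iff_orderOf.mpr (orderOf_eq_prime_pow ?_ hpow)
  intro h
  rw [div_pow, ← map_pow] at h
  exact hτ.2 (c ^ p ^ n) (by rw [← pow_mul, ← pow_succ, hc])
    ((div_eq_one_iff_eq (pow_ne_zero _ hc0)).mp h)

/-- A tame generator acts on a root of `q` by powers of its Kummer character. -/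
lemma IsTameGenerator.pow_apply (hq : q.Prime) (hA : A.LiesOverPrime q) (hp : p.Prime)
    (hpq : p ≠ q) {τ : Γ} (hτ : IsTameGenerator A q p τ) {n : ℕ} {c : Qbar}
    (hc : c ^ p ^ n = (q : Qbar)) (j : ℕ) : (τ ^ j) c = (τ c / c) ^ j * c := by
  have hq0 : (q : Qbar) ≠ 0 := Nat.cast_ne_zero.mpr hq.ne_zero
  have hc0 : c ≠ 0 := fun h => hq0 (by rw [← hc, h, zero_pow (pow_pos hp.pos n).ne'])
  have hζ : τ (τ c / c) = τ c / c :=
    inertia_apply_rootOfUnity hq hA hτ.1 (not_dvd_pow_of_ne hq hp hpq n)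
      (hτ.isPrimitiveRoot hq hp hc).pow_eq_one
  induction j with
  | zero => simp
  | succ j ih =>
    rw [pow_succ', AlgEquiv.mul_apply, ih, map_mul, map_pow, hζ, pow_succ, mul_assoc,
      div_mul_cancel₀ _ hc0]

variable {M : Type*} [Monoid M] (f : Γ →* M)

/-- At a high enough level, the inertia elements fixing a `p`-power root of `q` lie in the
kernel. -/
lemma exists_level (hq : q.Prime) (hA : A.LiesOverPrime q) (hp : p.Prime) (hpq : p ≠ q)
    (hfin : ∃ L : IntermediateField ℚ Qbar, FiniteDimensional ℚ L ∧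
      ∀ σ : Γ, (∀ x ∈ L, σ x = x) → f σ = 1)
    (hpro : ∀ σ ∈ A.inertiaSubgroupIn ℚ, ∃ j : ℕ, f σ ^ p ^ j = 1) :
    ∃ n : ℕ, ∀ c : Qbar, c ^ p ^ n = (q : Qbar) → ∀ ρ ∈ A.inertiaSubgroupIn ℚ,
      ρ c = c → f ρ = 1 := by
  obtain ⟨L, hL, hLf⟩ := hfin
  let N : IntermediateField ℚ Qbar := IntermediateField.normalClosure ℚ L Qbar
  have : FiniteDimensional ℚ N := normalClosure.is_finiteDimensional ℚ L Qbar
  have : Normal ℚ N := normalClosure.normal ℚ L Qbar
  refine ⟨Module.finrank ℚ N, fun c hc ρ hρ hρc => ?_⟩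
  obtain ⟨m, _, hpm, hm⟩ := exists_pow_mem_fixingSubgroup hq hA hp hpq N hc hρ hρc
  obtain ⟨j, hj⟩ := hpro ρ hρ
  have h1 : f ρ ^ m = 1 := by
    rw [← map_pow]
    exact hLf _ fun x hx => (IntermediateField.mem_fixingSubgroup_iff _ _).mp hm x
      (IntermediateField.le_normalClosure L hx)
  have h2 : f ρ ^ Nat.gcd (p ^ j) m = 1 := pow_gcd_eq_one.mpr ⟨hj, h1⟩
  rwa [((hp.coprime_iff_not_dvd.mpr hpm).pow_left j).gcd_eq_one, pow_one] at h2

variable {τ : Γ}

/-- The inertia image is generated by the image of a tame generator. -/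
theorem exists_apply_eq_pow (hq : q.Prime) (hA : A.LiesOverPrime q) (hp : p.Prime) (hpq : p ≠ q)
    (hτ : IsTameGenerator A q p τ)
    (hfin : ∃ L : IntermediateField ℚ Qbar, FiniteDimensional ℚ L ∧
      ∀ σ : Γ, (∀ x ∈ L, σ x = x) → f σ = 1)
    (hpro : ∀ σ ∈ A.inertiaSubgroupIn ℚ, ∃ j : ℕ, f σ ^ p ^ j = 1)
    {σ : Γ} (hσ : σ ∈ A.inertiaSubgroupIn ℚ) : ∃ j : ℕ, f σ = f τ ^ j := by
  obtain ⟨n, hn⟩ := exists_level f hq hA hp hpq hfin hpro
  obtain ⟨c, hc⟩ := IsAlgClosed.exists_pow_nat_eq (q : Qbar) (pow_pos hp.pos n)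
  have hq0 : (q : Qbar) ≠ 0 := Nat.cast_ne_zero.mpr hq.ne_zero
  have hc0 : c ≠ 0 := fun h => hq0 (by rw [← hc, h, zero_pow (pow_pos hp.pos n).ne'])
  have : NeZero (p ^ n) := ⟨(pow_pos hp.pos n).ne'⟩
  obtain ⟨j, -, hj⟩ := (hτ.isPrimitiveRoot hq hp hc).eq_pow_of_pow_eq_one
    (show (σ c / c) ^ p ^ n = 1 by rw [div_pow, ← map_pow, hc, map_natCast, div_self hq0])
  have he : σ c = (τ ^ j) c := by
    rw [hτ.pow_apply hq hA hp hpq hc, hj, div_mul_cancel₀ _ hc0]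
  refine ⟨j, ?_⟩
  have h1 : f ((τ ^ j)⁻¹ * σ) = 1 := hn c hc _ (mul_mem (inv_mem (pow_mem hτ.1 j)) hσ)
    (by rw [AlgEquiv.mul_apply, he, ← AlgEquiv.mul_apply, inv_mul_cancel, AlgEquiv.one_apply])
  calc f σ = f (τ ^ j * ((τ ^ j)⁻¹ * σ)) := by rw [mul_inv_cancel_left]
    _ = f τ ^ j := by rw [map_mul, h1, mul_one, map_pow]

/-- The tame relation. -/
theorem frobenius_tame_relation (hq : q.Prime) (hA : A.LiesOverPrime q) (hp : p.Prime)
    (hpq : p ≠ q) (hτ : IsTameGenerator A q p τ)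
    (hfin : ∃ L : IntermediateField ℚ Qbar, FiniteDimensional ℚ L ∧
      ∀ σ : Γ, (∀ x ∈ L, σ x = x) → f σ = 1)
    (hpro : ∀ σ ∈ A.inertiaSubgroupIn ℚ, ∃ j : ℕ, f σ ^ p ^ j = 1)
    {Φ : Γ} (hΦ : A.IsFrobeniusAt Φ q) : f Φ * f τ = f τ ^ q * f Φ := by
  obtain ⟨n, hn⟩ := exists_level f hq hA hp hpq hfin hpro
  obtain ⟨c, hc⟩ := IsAlgClosed.exists_pow_nat_eq (q : Qbar) (pow_pos hp.pos n)
  have hq0 : (q : Qbar) ≠ 0 := Nat.cast_ne_zero.mpr hq.ne_zero
  have hc0 : c ≠ 0 := fun h => hq0 (by rw [← hc, h, zero_pow (pow_pos hp.pos n).ne'])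
  have hn' := not_dvd_pow_of_ne hq hp hpq n
  have hζ := (hτ.isPrimitiveRoot hq hp hc).pow_eq_one
  set ζ := τ c / c with hζdef
  set c' := Φ⁻¹ c with hc'def
  have hc' : c' ^ p ^ n = (q : Qbar) := by rw [hc'def, ← map_pow, hc, map_natCast]
  have hτc' : τ c' = ζ * c' := by
    have h1 : τ (c' / c) = c' / c :=
      inertia_apply_rootOfUnity hq hA hτ.1 hn' (by rw [div_pow, hc, hc', div_self hq0])
    rw [map_div₀] at h1
    have hτc0 : τ c ≠ 0 := fun h => hc0 ((map_eq_zero_iff _ τ.injective).mp h)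
    rw [hζdef]
    field_simp at h1 ⊢
    linear_combination h1
  have he : (Φ * τ * Φ⁻¹) c = (τ ^ q) c := by
    rw [hτ.pow_apply hq hA hp hpq hc, AlgEquiv.mul_apply, AlgEquiv.mul_apply, ← hc'def, hτc',
      map_mul, frobenius_apply_rootOfUnity hq hA hΦ hn' hζ, hc'def, ← AlgEquiv.mul_apply,
      mul_inv_cancel, AlgEquiv.one_apply]
  have hmem : (τ ^ q)⁻¹ * (Φ * τ * Φ⁻¹) ∈ A.inertiaSubgroupIn ℚ :=
    mul_mem (inv_mem (pow_mem hτ.1 q)) (inertia_conj_mem hΦ.mem_decompositionSubgroup hτ.1)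
  have h1 := hn c hc _ hmem
    (by rw [AlgEquiv.mul_apply, he, ← AlgEquiv.mul_apply, inv_mul_cancel, AlgEquiv.one_apply])
  calc f Φ * f τ = f (τ ^ q * ((τ ^ q)⁻¹ * (Φ * τ * Φ⁻¹)) * Φ) := by
        rw [mul_inv_cancel_left, inv_mul_cancel_right, map_mul]
    _ = f τ ^ q * f Φ := by rw [map_mul, map_mul, h1, mul_one, map_pow]

/-- The decomposition image is generated by Frobenius and a tame generator. -/
theorem exists_apply_eq_pow_mul_pow (hq : q.Prime) (hA : A.LiesOverPrime q) (hp : p.Prime)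
    (hpq : p ≠ q) (hτ : IsTameGenerator A q p τ)
    (hfin : ∃ L : IntermediateField ℚ Qbar, FiniteDimensional ℚ L ∧
      ∀ σ : Γ, (∀ x ∈ L, σ x = x) → f σ = 1)
    (hpro : ∀ σ ∈ A.inertiaSubgroupIn ℚ, ∃ j : ℕ, f σ ^ p ^ j = 1)
    {Φ : Γ} (hΦ : A.IsFrobeniusAt Φ q) {σ : Γ} (hσ : σ ∈ A.decompositionSubgroup ℚ) :
    ∃ i j : ℕ, f σ = f Φ ^ i * f τ ^ j := by
  obtain ⟨L, hL, hLf⟩ := hfin
  obtain ⟨k, ι, hι, he⟩ := exists_pow_mul_inertia_eq hq hA hΦ hσ L
  obtain ⟨j, hj⟩ := exists_apply_eq_pow f hq hA hp hpq hτ ⟨L, hL, hLf⟩ hpro hι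
  refine ⟨k, j, ?_⟩
  have h1 : f ((Φ ^ k * ι)⁻¹ * σ) = 1 := hLf _ fun x hx => by
    rw [AlgEquiv.mul_apply, he x hx, ← AlgEquiv.mul_apply, inv_mul_cancel, AlgEquiv.one_apply]
  calc f σ = f (Φ ^ k * ι * ((Φ ^ k * ι)⁻¹ * σ)) := by rw [mul_inv_cancel_left]
    _ = f Φ ^ k * f τ ^ j := by rw [map_mul, h1, mul_one, map_mul, map_pow, hj]

/-- If a tame generator acts trivially, so does all of inertia. -/
theorem apply_eq_one_of_tame_generator (hq : q.Prime) (hA : A.LiesOverPrime q) (hp : p.Prime)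
    (hpq : p ≠ q) (hτ : IsTameGenerator A q p τ)
    (hfin : ∃ L : IntermediateField ℚ Qbar, FiniteDimensional ℚ L ∧
      ∀ σ : Γ, (∀ x ∈ L, σ x = x) → f σ = 1)
    (hpro : ∀ σ ∈ A.inertiaSubgroupIn ℚ, ∃ j : ℕ, f σ ^ p ^ j = 1)
    (h1 : f τ = 1) {σ : Γ} (hσ : σ ∈ A.inertiaSubgroupIn ℚ) : f σ = 1 := by
  obtain ⟨j, hj⟩ := exists_apply_eq_pow f hq hA hp hpq hτ hfin hpro hσ
  rw [hj, h1, one_pow]

end FLTA.RT.LocalGalois
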