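import Fermat.Prelude.Def_GaloisRep_DeformationCondition
import Fermat.Agent.Deformation.Levels

/-!
Predicates on adic Galois representations with the closure properties which make up a deformation
condition, stated so that conjunctions are immediate.
-/

set_option autoImplicit false

noncomputable section

namespace FLTA.RT

open IsLocalRing GaloisRep FLTA.Deformation

/-- A predicate on `GaloisRepAdic`s over arbitrary `𝒪`-algebras. -/
abbrev RepPred (𝒪 : Type) [CommRing 𝒪] : Type 1 :=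
  ∀ ⦃A : Type⦄ [CommRing A] [IsLocalRing A] [Algebra 𝒪 A], GaloisRepAdic A → Prop

/-- Closure properties of a predicate: stability under equivalence and base change, descent along
a jointly injective pair of maps of test algebras, and passage to the limit. -/
structure IsClosedCond (𝒪 : Type) [CommRing 𝒪] [IsLocalRing 𝒪] (P : RepPred 𝒪) : Prop where
  of_isEquiv : ∀ ⦃A : Type⦄ [CommRing A] [IsLocalRing A] [Algebra 𝒪 A] ⦃ρ ρ' : GaloisRepAdic A⦄,
    ρ.IsEquiv ρ' → P ρ → P ρ'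
  baseChange : ∀ ⦃A B : Type⦄ [CommRing A] [IsLocalRing A] [Algebra 𝒪 A] [CommRing B] [IsLocalRing B]
    [Algebra 𝒪 B], Function.Surjective (residue A ∘ algebraMap 𝒪 A) →
    IsArtinianTestAlgebra 𝒪 B →
    ∀ (φ : A →ₐ[𝒪] B) (hφ : IsLocalHom (φ : A →+* B)) ⦃ρ : GaloisRepAdic A⦄,
      P ρ → P (ρ.baseChangeAlong (φ : A →+* B) hφ)
  descend : ∀ ⦃A B C : Type⦄ [CommRing A] [IsLocalRing A] [Algebra 𝒪 A] [CommRing B] [IsLocalRing B]
    [Algebra 𝒪 B] [CommRing C] [IsLocalRing C] [Algebra 𝒪 C],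
    IsArtinianTestAlgebra 𝒪 A → IsArtinianTestAlgebra 𝒪 B → IsArtinianTestAlgebra 𝒪 C →
    ∀ (f : A →ₐ[𝒪] B) (g : A →ₐ[𝒪] C) (hf : IsLocalHom (f : A →+* B))
      (hg : IsLocalHom (g : A →+* C)),
      (∀ x, f x = 0 → g x = 0 → x = 0) → ∀ ⦃ρ : GaloisRepAdic A⦄,
        P (ρ.baseChangeAlong (f : A →+* B) hf) → P (ρ.baseChangeAlong (g : A →+* C) hg) → P ρ
  limit : ∀ ⦃A : Type⦄ [CommRing A] [IsLocalRing A] [IsNoetherianRing A]
    [IsAdicComplete (maximalIdeal A) A] [Algebra 𝒪 A],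
    IsLocalHom (algebraMap 𝒪 A) → Function.Surjective (residue A ∘ algebraMap 𝒪 A) →
    ∀ (ρ : GaloisRepAdic A),
      (∀ ⦃B : Type⦄ [CommRing B] [IsLocalRing B] [Algebra 𝒪 B], IsArtinianTestAlgebra 𝒪 B →
        ∀ (q : A →ₐ[𝒪] B) (hq : IsLocalHom (q : A →+* B)), Function.Surjective q →
          P (ρ.baseChangeAlong (q : A →+* B) hq)) → P ρ

namespace IsClosedCond

variable {𝒪 : Type} [CommRing 𝒪] [IsLocalRing 𝒪]

theorem and {P Q : RepPred 𝒪} (hP : IsClosedCond 𝒪 P) (hQ : IsClosedCond 𝒪 Q) :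
    IsClosedCond 𝒪 fun _A _ _ _ ρ => P ρ ∧ Q ρ where
  of_isEquiv _ _ _ _ _ _ e h := ⟨hP.of_isEquiv e h.1, hQ.of_isEquiv e h.2⟩
  baseChange _ _ _ _ _ _ _ _ hA hB φ hφ _ h :=
    ⟨hP.baseChange hA hB φ hφ h.1, hQ.baseChange hA hB φ hφ h.2⟩
  descend _ _ _ _ _ _ _ _ _ _ _ _ hA hB hC f g hf hg hi _ h h' :=
    ⟨hP.descend hA hB hC f g hf hg hi h.1 h'.1, hQ.descend hA hB hC f g hf hg hi h.2 h'.2⟩
  limit _ _ _ _ _ _ h1 h2 ρ h :=
    ⟨hP.limit h1 h2 ρ fun _ _ _ _ hB q hq hs => (h hB q hq hs).1,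
      hQ.limit h1 h2 ρ fun _ _ _ _ hB q hq hs => (h hB q hq hs).2⟩

theorem all {ι : Sort*} {P : ι → RepPred 𝒪} (h : ∀ i, IsClosedCond 𝒪 (P i)) :
    IsClosedCond 𝒪 fun _A _ _ _ ρ => ∀ i, P i ρ where
  of_isEquiv _ _ _ _ _ _ e hρ i := (h i).of_isEquiv e (hρ i)
  baseChange _ _ _ _ _ _ _ _ hA hB φ hφ _ hρ i := (h i).baseChange hA hB φ hφ (hρ i)
  descend _ _ _ _ _ _ _ _ _ _ _ _ hA hB hC f g hf hg hi _ h1 h2 i :=
    (h i).descend hA hB hC f g hf hg hi (h1 i) (h2 i)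
  limit _ _ _ _ _ _ h1 h2 ρ hρ i :=
    (h i).limit h1 h2 ρ fun _ _ _ _ hB q hq hs => hρ hB q hq hs i

theorem imp {c : Prop} {P : RepPred 𝒪} (h : IsClosedCond 𝒪 P) :
    IsClosedCond 𝒪 fun _A _ _ _ ρ => c → P ρ :=
  all fun _ : c => h

/-- Transport along a pointwise equivalence. -/
theorem congr {P Q : RepPred 𝒪} (hP : IsClosedCond 𝒪 P)
    (hPQ : ∀ ⦃A : Type⦄ [CommRing A] [IsLocalRing A] [Algebra 𝒪 A] (ρ : GaloisRepAdic A),
      P ρ ↔ Q ρ) : IsClosedCond 𝒪 Q where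
  of_isEquiv _ _ _ _ _ _ e h := (hPQ _).mp (hP.of_isEquiv e ((hPQ _).mpr h))
  baseChange _ _ _ _ _ _ _ _ hA hB φ hφ _ h := (hPQ _).mp (hP.baseChange hA hB φ hφ ((hPQ _).mpr h))
  descend _ _ _ _ _ _ _ _ _ _ _ _ hA hB hC f g hf hg hi _ h h' :=
    (hPQ _).mp (hP.descend hA hB hC f g hf hg hi ((hPQ _).mpr h) ((hPQ _).mpr h'))
  limit _ _ _ _ _ _ h1 h2 ρ h :=
    (hPQ _).mp (hP.limit h1 h2 ρ fun _ _ _ _ hB q hq hs => (hPQ _).mpr (h hB q hq hs))

/-- A closed predicate is a deformation condition. -/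
theorem isDeformationCondition {P : RepPred 𝒪} (h : IsClosedCond 𝒪 P) :
    IsDeformationCondition 𝒪 P where
  of_isEquiv _ _ _ _ _ _ _ e hρ := h.of_isEquiv e hρ
  baseChangeAlong _ _ _ _ _ _ _ _ hA hB φ hφ _ hρ :=
    h.baseChange hA.residue_surjective hB φ hφ hρ
  of_baseChangeAlong_injective _ _ _ _ _ _ _ _ hA hB φ hφ hinj _ hρ :=
    h.descend hA hB hB φ φ hφ hφ (fun _ hx _ => hinj (hx.trans (map_zero φ).symm)) hρ hρ
  of_fibreProduct _ _ _ _ _ _ _ _ _ _ _ _ _ _ _ _ hA hB _ hP _ _ pA pB hpA hpB _ hinj _ _ ha hb :=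
    h.descend hP hA hB pA pB hpA hpB
      (fun x h1 h2 => hinj (show (pA x, pB x) = (pA 0, pB 0) by rw [h1, h2, map_zero, map_zero]))
      ha hb
  iff_forall_surjective _ _ _ _ _ _ h1 h2 ρ :=
    ⟨fun hρ _ _ _ _ hB q hq _ => h.baseChange h2 hB q hq hρ, h.limit h1 h2 ρ⟩

end IsClosedCond

/-- The quotient of a local ring by the `(k+1)`-st power of its maximal ideal is local. -/
lemma isLocalRing_modPow (A : Type) [CommRing A] [IsLocalRing A] (k : ℕ) :
    IsLocalRing (A ⧸ maximalIdeal A ^ (k + 1)) :=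
  isLocalRing_quotient (ne_top_of_le_ne_top (maximalIdeal.isMaximal A).ne_top
    (Ideal.pow_le_self k.succ_ne_zero))

lemma isLocalHom_mk {A : Type} [CommRing A] [IsLocalRing A] (I : Ideal A) [IsLocalRing (A ⧸ I)] :
    IsLocalHom (Ideal.Quotient.mk I) :=
  ⟨fun a ha => by
    by_contra h
    exact (mem_maximalIdeal_quot (I := I) a).mpr h ha⟩

/-- Quotients of finite cardinality are test algebras. -/
lemma test_finiteQuotient {𝒪 : Type} [CommRing 𝒪] [IsLocalRing 𝒪] {A : Type} [CommRing A]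
    [IsLocalRing A] [Algebra 𝒪 A] (hl : IsLocalHom (algebraMap 𝒪 A))
    (hs : Function.Surjective (residue A ∘ algebraMap 𝒪 A)) (I : Ideal A) [IsLocalRing (A ⧸ I)]
    [Finite (A ⧸ I)] : IsArtinianTestAlgebra 𝒪 (A ⧸ I) where
  isLocalHom := ⟨fun c hc => by
    refine hl.map_nonunit c ?_
    by_contra h
    rw [← Ideal.Quotient.mk_algebraMap] at hc
    exact (mem_maximalIdeal_quot (I := I) _).mpr h hc⟩
  residue_surjective := residue_surjective_quot hs I
  isArtinian := isArtinian_of_finite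

lemma finite_residue {𝒪 : Type} [CommRing 𝒪] [IsLocalRing 𝒪] [Finite (ResidueField 𝒪)] {A : Type}
    [CommRing A] [IsLocalRing A] [Algebra 𝒪 A]
    (hs : Function.Surjective (residue A ∘ algebraMap 𝒪 A)) : Finite (A ⧸ maximalIdeal A) := by
  refine Finite.of_surjective (fun x : ResidueField 𝒪 => residue A (algebraMap 𝒪 A
    (Function.surjInv residue_surjective x))) fun y => ?_
  obtain ⟨a, ha⟩ := hs y
  refine ⟨residue 𝒪 a, ?_⟩
  dsimp only
  set b := Function.surjInv (residue_surjective (R := 𝒪)) (residue 𝒪 a)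
  have hb : b - a ∈ maximalIdeal 𝒪 :=
    Ideal.Quotient.eq.mp (Function.surjInv_eq (residue_surjective (R := 𝒪)) _)
  have : algebraMap 𝒪 A (b - a) ∈ maximalIdeal A := by
    -- a non-unit of `𝒪` is killed in the residue field of `A`, which is a quotient of `𝒪`
    by_contra hu
    have hker : RingHom.ker ((residue A).comp (algebraMap 𝒪 A)) = maximalIdeal 𝒪 :=
      IsLocalRing.eq_maximalIdeal (RingHom.ker_isMaximal_of_surjective _ hs)
    rw [← hker, RingHom.mem_ker] at hb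
    exact hu ((residue_eq_zero_iff _).mp hb)
  rw [map_sub] at this
  exact (Ideal.Quotient.eq.mpr this).trans ha

/-- To prove a property in the limit it is enough to know it modulo each power of `m`. -/
lemma forall_modPow {𝒪 : Type} [CommRing 𝒪] [IsLocalRing 𝒪] [Finite (ResidueField 𝒪)]
    {P : RepPred 𝒪} {A : Type} [CommRing A] [IsLocalRing A] [IsNoetherianRing A] [Algebra 𝒪 A]
    (hl : IsLocalHom (algebraMap 𝒪 A)) (hs : Function.Surjective (residue A ∘ algebraMap 𝒪 A))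
    {ρ : GaloisRepAdic A}
    (h : ∀ ⦃B : Type⦄ [CommRing B] [IsLocalRing B] [Algebra 𝒪 B], IsArtinianTestAlgebra 𝒪 B →
      ∀ (q : A →ₐ[𝒪] B) (hq : IsLocalHom (q : A →+* B)), Function.Surjective q →
        P (ρ.baseChangeAlong (q : A →+* B) hq)) (k : ℕ) :
    haveI := isLocalRing_modPow A k
    P (ρ.baseChangeAlong (Ideal.Quotient.mk (maximalIdeal A ^ (k + 1)))
      (isLocalHom_mk _)) := by
  haveI := isLocalRing_modPow A k
  haveI := finite_residue hs
  haveI := Ideal.finite_quotient_pow (IsNoetherian.noetherian (maximalIdeal A)) (k + 1)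
  exact h (test_finiteQuotient hl hs _) (Ideal.Quotient.mkₐ 𝒪 (maximalIdeal A ^ (k + 1)))
    (isLocalHom_mk _) (Ideal.Quotient.mkₐ_surjective 𝒪 _)

/-- An element lying in `I + m^(k+1)` for all `k` lies in `I`. -/
lemma mem_of_forall_modPow {A : Type} [CommRing A] [IsLocalRing A] [IsNoetherianRing A]
    (I : Ideal A) (x : A)
    (h : ∀ k, Ideal.Quotient.mk (maximalIdeal A ^ (k + 1)) x ∈
      I.map (Ideal.Quotient.mk (maximalIdeal A ^ (k + 1)))) : x ∈ I := by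
  rw [← Ideal.Quotient.eq_zero_iff_mem]
  refine IsHausdorff.haus (I := maximalIdeal A) (inferInstance : IsHausdorff _ (A ⧸ I)) _ fun n => ?_
  rw [SModEq.zero]
  obtain ⟨y, hy, hxy⟩ := (Ideal.mem_map_iff_of_surjective _ Ideal.Quotient.mk_surjective).mp (h n)
  have hm : y - x ∈ maximalIdeal A ^ (n + 1) := Ideal.Quotient.eq.mp hxy
  rw [show Ideal.Quotient.mk I x = (x - y) • (1 : A ⧸ I) by
    rw [Algebra.smul_def, mul_one, map_sub, Ideal.Quotient.algebraMap_eq,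
      Ideal.Quotient.eq_zero_iff_mem.mpr hy, sub_zero]]
  refine Submodule.smul_mem_smul ?_ Submodule.mem_top
  rw [← neg_sub]
  exact neg_mem (Ideal.pow_le_pow_right n.le_succ hm)

end FLTA.RT
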