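import Fermat.Agent.TaylorWiles.Generators

/-!
# Generators with one slot inside a given ideal

If `g + 1` elements generate the maximal ideal modulo `E` and the constants, and `g` elements
generate it once an ideal `J` is allowed, then one element of `J` and `g` further elements suffice.
-/

set_option autoImplicit false

noncomputable section

open IsLocalRing

namespace FLTA.RT

variable {R : Type} [CommRing R] [IsLocalRing R] [IsNoetherianRing R]

theorem exists_generators_slot {P J : Ideal R} (hP : P ≤ maximalIdeal R) (hJ : J ≤ maximalIdeal R)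
    {g : ℕ} (a : Fin g → R) (ha : ∀ i, a i ∈ maximalIdeal R)
    (hgena : maximalIdeal R = Ideal.span (Set.range a) ⊔ (P ⊔ J))
    (b : Fin (g + 1) → R) (hb : ∀ i, b i ∈ maximalIdeal R)
    (hgenb : maximalIdeal R = Ideal.span (Set.range b) ⊔ P) :
    ∃ z ∈ J, ∃ c : Fin g → R, (∀ i, c i ∈ maximalIdeal R) ∧
      maximalIdeal R = Ideal.span (Set.range c) ⊔ (Ideal.span {z} ⊔ P) := by
  classical
  set m := maximalIdeal R
  have hNak : ∀ T : Ideal R, T ≤ m → m ≤ T ⊔ m • m → m = T := fun T hT h =>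
    le_antisymm (Submodule.le_of_le_smul_of_le_jacobson_bot (IsNoetherian.noetherian m)
      (maximalIdeal_le_jacobson ⊥) h) hT
  have hspan : ∀ {n : ℕ} (c : Fin n → R), (∀ i, c i ∈ m) → Ideal.span (Set.range c) ≤ m :=
    fun c hc => Ideal.span_le.mpr (Set.range_subset_iff.mpr hc)
  by_cases hJN : J ≤ P ⊔ m • m
  · refine ⟨0, J.zero_mem, a, ha, hNak _ (sup_le (hspan a ha) (sup_le (by simp) hP)) ?_⟩
    conv_lhs => rw [hgena]
    refine sup_le (le_sup_of_le_left le_sup_left) (sup_le ?_ ?_)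
    · exact le_sup_of_le_left (le_sup_of_le_right le_sup_right)
    · exact hJN.trans (sup_le_sup_right (le_sup_of_le_right le_sup_right) _)
  obtain ⟨z, hzJ, hzN⟩ := SetLike.not_le_iff_exists.mp hJN
  refine ⟨z, hzJ, ?_⟩
  obtain ⟨y, hy, e, he, hye⟩ := Submodule.mem_sup.mp (hgenb ▸ hJ hzJ : z ∈ Ideal.span (Set.range b) ⊔ P)
  obtain ⟨r, hr⟩ := (Submodule.mem_span_range_iff_exists_fun R).mp hy
  obtain ⟨i, hi⟩ : ∃ i, IsUnit (r i) := by
    by_contra h
    push Not at h
    refine hzN ?_
    rw [← hye, ← hr]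
    refine add_mem (Ideal.mem_sup_right ?_) (Ideal.mem_sup_left he)
    exact Submodule.sum_mem _ fun j _ => Submodule.smul_mem_smul (h j) (hb j)
  let c : Fin g → R := fun j => b (i.succAbove j)
  refine ⟨c, fun j => hb _, le_antisymm ?_ (sup_le (hspan c fun j => hb _)
    (sup_le (by simpa [Ideal.span_le] using hJ hzJ) hP))⟩
  set T := Ideal.span (Set.range c) ⊔ (Ideal.span {z} ⊔ P)
  have hbi : b i ∈ T := by
    rw [← Ideal.unit_mul_mem_iff_mem T hi]
    have e1 : r i * b i = z - e - ∑ j, r (i.succAbove j) * c j := by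
      rw [← hye, add_sub_cancel_right, ← hr, Fin.sum_univ_succAbove _ i]
      simp only [smul_eq_mul, c, add_sub_cancel_right]
    rw [e1]
    refine sub_mem (sub_mem ?_ ?_) ?_
    · exact Ideal.mem_sup_right (Ideal.mem_sup_left (Ideal.mem_span_singleton_self z))
    · exact Ideal.mem_sup_right (Ideal.mem_sup_right he)
    · exact Submodule.sum_mem _ fun j _ =>
        Ideal.mul_mem_left _ _ (Ideal.mem_sup_left (Ideal.subset_span ⟨j, rfl⟩))
  conv_lhs => rw [hgenb]
  refine sup_le (Ideal.span_le.mpr ?_) (le_sup_of_le_right le_sup_right)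
  rintro _ ⟨j, rfl⟩
  rcases Fin.eq_self_or_eq_succAbove i j with rfl | ⟨j', rfl⟩
  · exact hbi
  · exact Ideal.mem_sup_left (Ideal.subset_span ⟨j', rfl⟩)

end FLTA.RT

end
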