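import Fermat.Agent.HeckeDatum.FlatModel

/-!
A finite Galois module with a jointly injective family of equivariant maps to modules with flat
models has a flat model (the schematic closure in the product).
-/

set_option autoImplicit false

noncomputable section

open scoped TensorProduct

namespace FLTA.RT

open FLTA.HeckeDatum FLTA.HeckeDatum.Flat

attribute [local instance] isFractionRing isPrincipalIdealRing

variable {p : ℕ}

theorem hasFlatModel_of_jointly_injective {P : Type} [AddCommGroup P] {act : GalQ →* AddMonoid.End P}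
    {ι : Type} [Finite ι] (Q : ι → Type) [∀ i, AddCommGroup (Q i)] [∀ i, Finite (Q i)]
    (act' : ∀ i, GalQ →* AddMonoid.End (Q i)) (M : ∀ i, FlatModel p (Q i) (act' i))
    (f : ∀ i, P →+ Q i) (hcomm : ∀ i σ x, f i (act σ x) = act' i σ (f i x))
    (hinj : ∀ x y, (∀ i, f i x = f i y) → x = y) : HasFlatModel p P act := by
  classical
  haveI := Fintype.ofFinite ι
  haveI := fun i => (M i).finite_O
  choose s hs using fun i => (Module.Finite.fg_top (R := Rp p) (M := (M i).O))
  let φ : ∀ i, (M i).O →ₐ[Rp p] (P → AlgebraicClosure ℚ) :=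
    fun i => (pull p fun x : P => f i x).comp (incl (M i))
  let G : Set (P → AlgebraicClosure ℚ) := ⋃ i, φ i '' (s i : Set (M i).O)
  let O := Algebra.adjoin (Rp p) G
  have hφO : ∀ i a, φ i a ∈ O := by
    intro i a
    have ha : a ∈ Submodule.span (Rp p) (s i : Set (M i).O) := (hs i) ▸ Submodule.mem_top
    induction ha using Submodule.span_induction with
    | mem a ha => exact Algebra.subset_adjoin (Set.mem_iUnion.mpr ⟨i, a, ha, rfl⟩)
    | zero => rw [map_zero]; exact O.zero_mem
    | add a b _ _ ha hb => rw [map_add]; exact O.add_mem ha hb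
    | smul r a _ ha => rw [map_smul]; exact O.smul_mem ha r
  refine ⟨{ O := O, finite_O := ?_, equivariant := ?_, separates := ?_, comul := ?_ }⟩
  · refine Module.Finite.iff_fg.mpr (fg_adjoin_of_finite
      (Set.finite_iUnion fun i => (s i).finite_toSet.image _) ?_)
    intro g hg
    obtain ⟨i, a, -, rfl⟩ := Set.mem_iUnion.mp hg
    exact (Algebra.IsIntegral.isIntegral a).map (φ i)
  · intro g hg σ x
    induction hg using Algebra.adjoin_induction with
    | mem g hg =>
      obtain ⟨i, a, -, rfl⟩ := Set.mem_iUnion.mp hg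
      show (a : Q i → _) (f i (act σ x)) = σ ((a : Q i → _) (f i x))
      rw [hcomm]
      exact (M i).equivariant _ a.2 σ (f i x)
    | algebraMap r => exact ((galHom p σ).commutes r).symm
    | add u v _ _ hu hv => simp [hu, hv]
    | mul u v _ _ hu hv => simp [hu, hv]
  · intro x y hxy
    obtain ⟨i, hi⟩ : ∃ i, f i x ≠ f i y := by
      by_contra h
      push Not at h
      exact hxy (hinj x y h)
    obtain ⟨a, ha, hne⟩ := (M i).separates _ _ hi
    exact ⟨φ i ⟨a, ha⟩, hφO i _, hne⟩
  · have hle : O ≤ (mulMap O.val O.val).range.comap (pull p fun z : P × P => z.1 + z.2) := by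
      refine Algebra.adjoin_le fun g hg => ?_
      obtain ⟨i, a, -, rfl⟩ := Set.mem_iUnion.mp hg
      obtain ⟨t, ht⟩ := (mem_prodSpan_iff (M i)).mp ((M i).comul _ a.2)
      refine ⟨Algebra.TensorProduct.map ((φ i).codRestrict O (hφO i)) ((φ i).codRestrict O (hφO i))
        t, funext fun z => ?_⟩
      have key : ∀ u : (M i).O ⊗[Rp p] (M i).O, mulMap O.val O.val (Algebra.TensorProduct.map
          ((φ i).codRestrict O (hφO i)) ((φ i).codRestrict O (hφO i)) u) z =
            mulMap₂ (M i) u (f i z.1, f i z.2) := by
        intro u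
        induction u using TensorProduct.induction_on with
        | zero => simp
        | tmul c d => simp [φ, mulMap₂]
        | add c d hc hd => simp only [map_add, Pi.add_apply, hc, hd]
      refine (key t).trans ?_
      rw [ht]
      show (a : Q i → AlgebraicClosure ℚ) (f i z.1 + f i z.2) = (a : Q i → _) (f i (z.1 + z.2))
      rw [map_add]
    intro g hg
    obtain ⟨t, ht⟩ := hle hg
    change mulMap O.val O.val t = pull p (fun z : P × P => z.1 + z.2) g at ht
    rw [show (fun xy : P × P => g (xy.1 + xy.2)) = mulMap O.val O.val t from ht.symm]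
    clear ht
    induction t using TensorProduct.induction_on with
    | zero => rw [map_zero]; exact Submodule.zero_mem _
    | tmul u v =>
      exact Submodule.subset_span ⟨u, u.2, v, v.2, funext fun z => mulMap_tmul _ _ _ _ z⟩
    | add u v hu hv => rw [map_add]; exact Submodule.add_mem _ hu hv

/-- A family of two types. -/
def PairFam (Q R : Type) : Bool → Type
  | true => Q
  | false => R

instance instAddCommGroupPairFam (Q R : Type) [AddCommGroup Q] [AddCommGroup R] :
    ∀ b, AddCommGroup (PairFam Q R b)
  | true => inferInstanceAs (AddCommGroup Q)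
  | false => inferInstanceAs (AddCommGroup R)

instance instFinitePairFam (Q R : Type) [Finite Q] [Finite R] : ∀ b, Finite (PairFam Q R b)
  | true => inferInstanceAs (Finite Q)
  | false => inferInstanceAs (Finite R)

/-- Two-map version. -/
theorem hasFlatModel_of_pair {P Q R : Type} [AddCommGroup P] [AddCommGroup Q] [AddCommGroup R]
    [Finite Q] [Finite R] {act : GalQ →* AddMonoid.End P} {actQ : GalQ →* AddMonoid.End Q}
    {actR : GalQ →* AddMonoid.End R} (hQ : HasFlatModel p Q actQ) (hR : HasFlatModel p R actR)
    (f : P →+ Q) (g : P →+ R) (hf : ∀ σ x, f (act σ x) = actQ σ (f x))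
    (hg : ∀ σ x, g (act σ x) = actR σ (g x)) (hinj : ∀ x, f x = 0 → g x = 0 → x = 0) :
    HasFlatModel p P act := by
  obtain ⟨MQ⟩ := hQ
  obtain ⟨MR⟩ := hR
  let aF : ∀ b, GalQ →* AddMonoid.End (PairFam Q R b)
    | true => actQ
    | false => actR
  let mF : ∀ b, FlatModel p (PairFam Q R b) (aF b)
    | true => MQ
    | false => MR
  let fF : ∀ b, P →+ PairFam Q R b
    | true => f
    | false => g
  refine hasFlatModel_of_jointly_injective (PairFam Q R) aF mF fF (fun b σ x => ?_)
    (fun x y h => ?_)
  · cases b
    · exact hg σ x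
    · exact hf σ x
  · refine sub_eq_zero.mp (hinj _ ?_ ?_)
    · rw [map_sub]; exact sub_eq_zero.mpr (h true)
    · rw [map_sub]; exact sub_eq_zero.mpr (h false)

end FLTA.RT
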