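import Fermat.Agent.RT.DeformBase
import Fermat.Agent.RT.DeformFlatModel
import Fermat.Agent.HeckeDatum.FlatModelApply

/-!
Flatness at `p` is a closed condition.
-/

set_option autoImplicit false

noncomputable section

namespace FLTA.RT

open IsLocalRing GaloisRep FLTA.Deformation
open FLTA.HeckeDatum (HasFlatModel IsHopfFlat levelHom finite_level)
open scoped TensorProduct

variable {p : ℕ}

section one

variable {A : Type} [CommRing A] [IsLocalRing A] (ρ : GaloisRepAdic A)

/-- Galois acting additively on the module of a representation. -/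
def rhoHom : GalQ →* AddMonoid.End ρ.V where
  toFun σ := (ρ.ρ σ).toAddMonoidHom
  map_one' := AddMonoidHom.ext fun x => by rw [map_one]; rfl
  map_mul' σ τ := AddMonoidHom.ext fun x => by rw [map_mul]; rfl

lemma finite_space [Finite A] : Finite ρ.V := Finite.of_equiv _ (repBasis ρ).equivFun.symm.toEquiv

lemma isFlatAt_iff (hp : p.Prime) :
    ρ.IsFlatAt p ↔ Finite (ResidueField A) ∧
      ∀ I : Ideal A, Finite (A ⧸ I) → HasFlatModel p _ (levelHom ρ I) := by
  refine and_congr_right fun _ => forall_congr' fun I => imp_congr_right fun hI => ?_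
  haveI := finite_level ρ I hI
  exact ⟨fun h => HasFlatModel.of_isHopfFlat hp h, fun h => h.isHopfFlat hp⟩

/-- A flat model of the whole module gives flatness at every level. -/
lemma isFlatAt_of_model (hp : p.Prime) [Finite A] (h : HasFlatModel p ρ.V (rhoHom ρ)) :
    ρ.IsFlatAt p := by
  haveI : Finite (ResidueField A) := Finite.of_surjective _ residue_surjective
  haveI := finite_space ρ
  refine (isFlatAt_iff ρ hp).mpr ⟨inferInstance, fun I _ => ?_⟩
  exact h.of_surjective hp (Submodule.mkQ _).toAddMonoidHom (Submodule.mkQ_surjective _)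
    fun σ x => rfl

/-- Flatness over a finite ring gives a flat model of the whole module. -/
lemma model_of_isFlatAt (hp : p.Prime) [Finite A] (h : ρ.IsFlatAt p) :
    HasFlatModel p ρ.V (rhoHom ρ) := by
  haveI : Finite (A ⧸ (⊥ : Ideal A)) := Finite.of_surjective _ Ideal.Quotient.mk_surjective
  haveI := finite_level ρ (⊥ : Ideal A) inferInstance
  refine (((isFlatAt_iff ρ hp).mp h).2 ⊥ inferInstance).of_injective hp
    (Submodule.mkQ ((⊥ : Ideal A) • (⊤ : Submodule A ρ.V))).toAddMonoidHom (fun x y hxy => ?_)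
    fun σ x => rfl
  have := (Submodule.Quotient.eq _).mp hxy
  rwa [Submodule.bot_smul, Submodule.mem_bot, sub_eq_zero] at this

variable {B : Type} [CommRing B] [IsLocalRing B] (φ : A →+* B) (hφ : IsLocalHom φ)

/-- `v ↦ 1 ⊗ v`. -/
def oneTensor : ρ.V →+ (ρ.baseChangeAlong φ hφ).V :=
  letI : Algebra A B := φ.toAlgebra
  ((TensorProduct.mk A B ρ.V) 1).toAddMonoidHom

lemma oneTensor_rho (σ : GalQ) (v : ρ.V) :
    oneTensor ρ φ hφ (rhoHom ρ σ v) = rhoHom (ρ.baseChangeAlong φ hφ) σ (oneTensor ρ φ hφ v) := by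
  let _ : Algebra A B := φ.toAlgebra
  show (1 : B) ⊗ₜ[A] ρ.ρ σ v = (ρ.ρ σ).baseChange B ((1 : B) ⊗ₜ[A] v)
  rw [LinearMap.baseChange_tmul]

lemma oneTensor_eq_zero_iff (v : ρ.V) :
    oneTensor ρ φ hφ v = 0 ↔ ∀ i, φ ((repBasis ρ).repr v i) = 0 := by
  let _ : Algebra A B := φ.toAlgebra
  show (1 : B) ⊗ₜ[A] v = 0 ↔ _
  rw [← (Algebra.TensorProduct.basis B (repBasis ρ)).repr.map_eq_zero_iff, Finsupp.ext_iff]
  refine forall_congr' fun i => ?_
  rw [Algebra.TensorProduct.basis_repr_tmul]
  simp
  rfl

lemma isFlatAt_baseChange (hp : p.Prime) [Finite B] (h : ρ.IsFlatAt p) :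
    (ρ.baseChangeAlong φ hφ).IsFlatAt p := by
  let _ : Algebra A B := φ.toAlgebra
  set I := RingHom.ker φ with hI
  haveI hfin : Finite (A ⧸ I) := Finite.of_injective _ (RingHom.kerLift_injective φ)
  haveI := finite_level ρ I hfin
  haveI := Fintype.ofFinite B
  have hm := ((isFlatAt_iff ρ hp).mp h).2 I hfin
  let P := ρ.V ⧸ (I • (⊤ : Submodule A ρ.V))
  let actι : GalQ →* AddMonoid.End (B → P) :=
    { toFun := fun σ =>
        { toFun := fun x b => levelHom ρ I σ (x b)
          map_zero' := funext fun _ => map_zero _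
          map_add' := fun x y => funext fun _ => map_add _ _ _ }
      map_one' := AddMonoidHom.ext fun x => funext fun b => by
        show levelHom ρ I 1 (x b) = _
        rw [map_one]; rfl
      map_mul' := fun σ τ => AddMonoidHom.ext fun x => funext fun b => by
        show levelHom ρ I (σ * τ) (x b) = _
        rw [map_mul]; rfl }
  let t : B → P →ₗ[A] B ⊗[A] ρ.V := fun b =>
    Submodule.liftQ _ ((TensorProduct.mk A B ρ.V) b) (by
      rw [Submodule.smul_le]
      intro a ha v _
      rw [LinearMap.mem_ker, map_smul, TensorProduct.mk_apply, TensorProduct.smul_tmul',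
        Algebra.smul_def, show algebraMap A B a = 0 from ha, zero_mul, TensorProduct.zero_tmul])
  let F : (B → P) →+ (ρ.baseChangeAlong φ hφ).V :=
    { toFun := fun x => ∑ b, t b (x b)
      map_zero' := by simp; rfl
      map_add' := fun x y => by
        simp only [Pi.add_apply, map_add]
        exact Finset.sum_add_distrib }
  refine isFlatAt_of_model _ hp ((hm.pi hp (actι := actι) fun _ _ _ => rfl).of_surjective hp F ?_ ?_)
  · intro y
    change B ⊗[A] ρ.V at y
    classical
    induction y using TensorProduct.induction_on with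
    | zero => exact ⟨0, map_zero F⟩
    | tmul b v =>
      refine ⟨(Pi.single b (Submodule.Quotient.mk v) : B → P), ?_⟩
      show ∑ c, t c ((Pi.single b (Submodule.Quotient.mk v) : B → P) c) = _
      rw [Finset.sum_eq_single b (fun c _ hc => by rw [Pi.single_eq_of_ne hc, map_zero])
        (fun h => absurd (Finset.mem_univ b) h), Pi.single_eq_same]
      rfl
    | add y z hy hz =>
      obtain ⟨x, hx⟩ := hy
      obtain ⟨x', hx'⟩ := hz
      exact ⟨x + x', by rw [map_add, hx, hx']; rfl⟩
  · intro σ x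
    show ∑ b, t b (levelHom ρ I σ (x b)) = (ρ.ρ σ).baseChange B (∑ b, t b (x b))
    rw [map_sum]
    refine Finset.sum_congr rfl fun b _ => ?_
    obtain ⟨v, hv⟩ := Submodule.Quotient.mk_surjective _ (x b)
    rw [← hv]
    exact (LinearMap.baseChange_tmul (ρ.ρ σ) b v).symm

end one

theorem isClosed_flat {𝒪 : Type} [CommRing 𝒪] [IsLocalRing 𝒪] [Finite (ResidueField 𝒪)]
    (hp : p.Prime) : IsClosedCond 𝒪 fun _A _ _ _ ρ => ρ.IsFlatAt p where
  of_isEquiv A _ _ _ ρ ρ' e h := by
    obtain ⟨e⟩ := e
    obtain ⟨h1, h2⟩ := (isFlatAt_iff ρ hp).mp h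
    refine (isFlatAt_iff ρ' hp).mpr ⟨h1, fun I hI => ?_⟩
    haveI := finite_level ρ I hI
    refine (h2 I hI).of_surjective hp
      (Submodule.mapQ (I • (⊤ : Submodule A ρ.V)) (I • (⊤ : Submodule A ρ'.V))
        e.toLinearEquiv.toLinearMap ?_).toAddMonoidHom ?_ ?_
    · rw [← Submodule.map_le_iff_le_comap, Submodule.map_smul'']
      exact Submodule.smul_mono le_rfl le_top
    · intro y
      obtain ⟨v, rfl⟩ := Submodule.Quotient.mk_surjective _ y
      exact ⟨Submodule.Quotient.mk (e.toLinearEquiv.symm v), by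
        simp [LinearEquiv.apply_symm_apply]⟩
    · intro σ y
      obtain ⟨v, rfl⟩ := Submodule.Quotient.mk_surjective _ y
      show Submodule.Quotient.mk (e.toLinearEquiv (ρ.ρ σ v)) = _
      rw [e.map_apply]
      rfl
  baseChange A B _ _ _ _ _ _ _ hB φ hφ ρ h := by
    haveI := finite_of_test hB
    exact isFlatAt_baseChange ρ _ hφ hp h
  descend A B C _ _ _ _ _ _ _ _ _ hA hB hC f g hf hg hi ρ h h' := by
    haveI := finite_of_test hA
    haveI := finite_of_test hB
    haveI := finite_of_test hC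
    haveI := finite_space (ρ.baseChangeAlong (f : A →+* B) hf)
    haveI := finite_space (ρ.baseChangeAlong (g : A →+* C) hg)
    refine isFlatAt_of_model ρ hp (hasFlatModel_of_pair (model_of_isFlatAt _ hp h)
      (model_of_isFlatAt _ hp h') (oneTensor ρ _ hf) (oneTensor ρ _ hg) (oneTensor_rho ρ _ hf)
      (oneTensor_rho ρ _ hg) fun x h1 h2 => ?_)
    rw [oneTensor_eq_zero_iff] at h1 h2
    exact (repBasis ρ).ext_elem fun i => by
      rw [map_zero, Finsupp.zero_apply]; exact hi _ (h1 i) (h2 i)
  limit A _ _ _ _ _ hl hs ρ h := by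
    haveI := finite_residue hs
    refine (isFlatAt_iff ρ hp).mpr ⟨inferInstanceAs (Finite (A ⧸ maximalIdeal A)), fun I hI => ?_⟩
    by_cases hItop : I = ⊤
    · haveI : Subsingleton (ρ.V ⧸ (I • (⊤ : Submodule A ρ.V))) :=
        Submodule.Quotient.subsingleton_iff.mpr (by rw [hItop, Submodule.top_smul])
      exact hasFlatModel_of_jointly_injective (ι := Empty)
        (fun _ => ρ.V ⧸ (I • (⊤ : Submodule A ρ.V))) (fun _ => levelHom ρ I)
        (fun i => i.elim) (fun i => i.elim) (fun i => i.elim) fun x y _ => Subsingleton.elim x y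
    · haveI := isLocalRing_quotient hItop
      haveI := hI
      have hB := h (test_finiteQuotient hl hs I) (Ideal.Quotient.mkₐ 𝒪 I) (isLocalHom_mk I)
        (Ideal.Quotient.mkₐ_surjective 𝒪 I)
      haveI := finite_space (ρ.baseChangeAlong (Ideal.Quotient.mk I) (isLocalHom_mk I))
      let T : ρ.V ⧸ (I • (⊤ : Submodule A ρ.V)) →+
          (ρ.baseChangeAlong (Ideal.Quotient.mk I) (isLocalHom_mk I)).V :=
        QuotientAddGroup.lift (I • (⊤ : Submodule A ρ.V)).toAddSubgroup (oneTensor ρ _ _)
          fun v hv => (oneTensor_eq_zero_iff ρ _ _ v).mpr fun i =>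
            Ideal.Quotient.eq_zero_iff_mem.mpr ((mem_smul_top_iff (repBasis ρ) I v).mp hv i)
      refine (model_of_isFlatAt _ hp hB).of_injective hp T (fun x y hxy => ?_) fun σ x => ?_
      · obtain ⟨v, rfl⟩ := Submodule.Quotient.mk_surjective _ x
        obtain ⟨w, rfl⟩ := Submodule.Quotient.mk_surjective _ y
        have hvw : oneTensor ρ (Ideal.Quotient.mk I) (isLocalHom_mk I) (v - w) = 0 := by
          rw [map_sub]; exact sub_eq_zero.mpr hxy
        refine (Submodule.Quotient.eq _).mpr ((mem_smul_top_iff (repBasis ρ) I _).mpr fun i => ?_)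
        exact Ideal.Quotient.eq_zero_iff_mem.mp ((oneTensor_eq_zero_iff ρ _ _ _).mp hvw i)
      · obtain ⟨v, rfl⟩ := Submodule.Quotient.mk_surjective _ x
        exact oneTensor_rho ρ _ _ σ v

end FLTA.RT
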