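import Fermat.Agent.RT.TWCount
import Fermat.Agent.RT.TWGenerators
import Fermat.Agent.RT.DeformClosed
import Fermat.Agent.TaylorWiles.Tangent
import Fermat.Agent.TaylorWiles.SitesLocal
import Fermat.Agent.TaylorWiles.FlatStrictCond

/-!
# Taylor–Wiles primes with sites: generators of the deformation rings

`ρbar` is unramified outside `p` and `U`. The deformation ring is that of any closed condition
with cyclotomic determinant. `E` is any set of elements such that every map to the dual numbers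
killing it gives a deformation which is unipotent at `U`, constant at every site, unramified
outside `p`, `U`, the sites and the Taylor–Wiles primes, and flat (`exists_twGenerators_flat`) or
strictly ordinary (`exists_twGenerators_ordinary`) at `p`. Then, with `w s` bounded by the
invariants of `ad⁰` at `s`:

* flat: `g` further elements generate, `g + ∑ w ≤ r`;
* ordinary: `g` further elements and one element `z` of a given ideal `J` generate,
  `g + 1 + ∑ w ≤ r`, provided `J` is the maximal ideal or maps killing `E` and `J` give flat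
  deformations.
-/

set_option autoImplicit false

open ExtCitation Module Polynomial IsLocalRing

noncomputable section

namespace FLTA.RT

open FLTA.PT FLTA.TW

attribute [local instance] FLTA.PT.factPrime

/-- The deformation is constant at Frobenius and a tame generator of some place over `s`. -/
def SiteConstant (p : ℕ) {k : Type} [Field k] (ρ' : GaloisRepAdic (DualNumber k)) (s : ℕ) : Prop :=
  ∃ A : ValuationSubring Qb, A.LiesOverPrime s ∧ ∃ Φ τ : GQ, A.IsFrobeniusAt Φ s ∧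
    LocalGalois.IsTameGenerator A s p τ ∧
      ∃ b : Module.Basis (Fin 2) (DualNumber k) ρ'.V, ∀ i j,
        TrivSqZeroExt.snd (LinearMap.toMatrix b b (ρ'.ρ Φ) i j) = 0 ∧
        TrivSqZeroExt.snd (LinearMap.toMatrix b b (ρ'.ρ τ) i j) = 0

/-- The conditions away from `p`: unipotent at `U`, constant at `Sig`, unramified outside `p`, `U`,
`Sig` and the tuple. -/
def AwayFromP (p : ℕ) {k : Type} [Field k] (U Sig : Finset ℕ) {r : ℕ} (qv : Fin r → ℕ)
    (ρ' : GaloisRepAdic (DualNumber k)) : Prop :=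
  (∀ q ∈ U, ρ'.IsUnipotentOnInertiaAt q) ∧
    (∀ q : ℕ, q.Prime → q ∉ insert p (U ∪ Sig ∪ Finset.univ.image qv) → ρ'.IsUnramifiedAt q) ∧
    ∀ s ∈ Sig, SiteConstant p ρ' s

/-- A weight at a site: at most one, or at most three if some Frobenius is scalar. -/
def SiteWeight {k : Type} [Field k] (ρbar : ResidualGaloisRep k) (s w : ℕ) : Prop :=
  w ≤ 1 ∨ w ≤ 3 ∧ ∃ A : ValuationSubring Qb, A.LiesOverPrime s ∧
    ∃ Φ : GQ, A.IsFrobeniusAt Φ s ∧ ∃ c : k, ρbar.ρ Φ = c • 1

section core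

variable (p : ℕ) [Fact p.Prime] {k : Type} [Field k] [Finite k] [Algebra (ZMod p) k]
variable (ρbar : ResidualGaloisRep k)

local notation "MM" => Deformation.barMat ρbar
local notation "ρ₀" => ad0Rep p (Deformation.barMat ρbar)

theorem smooth_barMat : Smooth lvlQ ρ₀ := by
  obtain ⟨F, hF, h1⟩ := ρbar.factorsThroughFiniteLevel
  have hM : ∀ s ∈ F.fixingSubgroup, MM s = 1 := fun s hs => by
    show LinearMap.toMatrix _ _ (ρbar.ρ s) = 1
    rw [h1 s fun x hx => (IntermediateField.mem_fixingSubgroup_iff F s).mp hs x hx,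
      LinearMap.toMatrix_one]
  refine smooth_ad0Rep p MM ⟨(MM).toHomUnits.ker, ⟨inferInstance, F, hF, fun s hs =>
    MonoidHom.mem_ker.mpr (Units.ext (hM s hs))⟩, fun s hs => congrArg Units.val (MonoidHom.mem_ker.mp hs)⟩

variable (U Sig : Finset ℕ)

/-- Taylor–Wiles primes for the conditions: unipotent at `U`, trivial at `Sig`, `L₀ ≤ ·` at `p`. -/
theorem exists_twPrimes_selmer (hp : p ≠ 2)
    (hdet : (GaloisRepAdic.ofResidualGaloisRep ρbar).DetIsCyclotomic p)
    (hsplit : ∀ g, ∃ α β : k, LinearMap.charpoly (ρbar.ρ g) = (X - C α) * (X - C β))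
    (habs : ρbar.IsAbsolutelyIrreducible)
    (hTW : ∀ (K : Type) [Field K] [Algebra k K] (G : Subgroup GQ), G.index = 2 →
      ∀ V : Submodule K (ρbar.baseChange K).V,
        (∀ σ ∈ G, ∀ x ∈ V, (ρbar.baseChange K).ρ σ x ∈ V) → V = ⊥ ∨ V = ⊤)
    (hU : ∀ q ∈ U, q.Prime ∧ q ≠ p ∧ ¬ ρbar.IsUnramifiedAt q)
    (hSig : ∀ s ∈ Sig, s.Prime ∧ s ≠ p ∧ s ∉ U)
    (hur : ∀ q : ℕ, q.Prime → q ≠ p → q ∉ U → ρbar.IsUnramifiedAt q)
    (w : ℕ → ℕ) (hw : ∀ s ∈ Sig, SiteWeight ρbar s (w s)) (S : Finset ℕ)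
    (L₀ : Submodule (ZMod p) (H1L ρ₀ (pPrime p))) :
    ∃ r : ℕ, ∀ n : ℕ, ∃ qv : Fin r → ℕ, Function.Injective qv ∧
      (∀ i, (qv i).Prime ∧ qv i ∉ S ∧ qv i ≠ p ∧ qv i ∉ U ∧ qv i ∉ Sig ∧ p ^ (n + 1) ∣ qv i - 1) ∧
      (∀ i, ∀ P : ValuationSubring Qb, P.LiesOverPrime (qv i) → ∀ φ : GQ,
        P.IsFrobeniusAt φ (qv i) →
          ∃ α β : k, α ≠ β ∧ LinearMap.charpoly (ρbar.ρ φ) = (X - C α) * (X - C β)) ∧
      ∀ (Lp : Submodule (ZMod p) (H1L ρ₀ (pPrime p))), L₀ ≤ Lp → ∀ e : ℕ,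
        finrank (ZMod p) Lp ≤ finrank (ZMod p) (fixedBy ((ρ₀).comp (loc (pPrime p))) ⊤) +
          e * finrank (ZMod p) k →
        ∃ Sel : Submodule (ZMod p) (H1Q ρ₀), Finite Sel ∧
          finrank (ZMod p) Sel + ((∑ s ∈ Sig, w s) + 1) * finrank (ZMod p) k ≤
            (r + e) * finrank (ZMod p) k ∧
          ∀ (x : Z1 lvlQ ρ₀) (ρ' : GaloisRepAdic (DualNumber k)),
            IsDefoOf MM (x : GQ → Ad0 k) ρ' →
            (∀ q ∈ U, ρ'.IsUnipotentOnInertiaAt q) →
            (∀ q : ℕ, q.Prime → q ∉ insert p (U ∪ Sig ∪ Finset.univ.image qv) →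
              ρ'.IsUnramifiedAt q) →
            (∀ s ∈ Sig, SiteConstant p ρ' s) →
            locQ ρ₀ (pPrime p) (clsQ ρ₀ x) ∈ Lp → clsQ ρ₀ x ∈ Sel := by
  classical
  let Up : Finset Nat.Primes := U.subtype Nat.Prime
  let Sp : Finset Nat.Primes := Sig.subtype Nat.Prime
  let T : Finset Nat.Primes := insert (pPrime p) (Up ∪ Sp)
  have hmemU : ∀ q : Nat.Primes, q ∈ Up ↔ (q : ℕ) ∈ U := fun q => Finset.mem_subtype
  have hmemS : ∀ q : Nat.Primes, q ∈ Sp ↔ (q : ℕ) ∈ Sig := fun q => Finset.mem_subtype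
  have hpUS : pPrime p ∉ Up ∪ Sp := by
    rw [Finset.mem_union, hmemU, hmemS]
    rintro (h | h)
    · exact (hU _ h).2.1 rfl
    · exact (hSig _ h).2.1 rfl
  have hdis : Disjoint Up Sp := Finset.disjoint_left.mpr fun q h h' =>
    (hSig _ ((hmemS q).mp h')).2.2 ((hmemU q).mp h)
  have hdetM := det_eq_cycloChar p ρbar hdet
  have hM := smooth_barMat p ρbar
  -- the unipotent conditions
  have hunip : ∀ q : Nat.Primes, ∃ L : Submodule (ZMod p) (H1L ρ₀ q), q ∈ Up →
      finrank (ZMod p) L ≤ finrank (ZMod p) (fixedBy ((ρ₀).comp (loc q)) ⊤) ∧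
      ∀ (x : Z1 lvlQ ρ₀) (ρ : GaloisRepAdic (DualNumber k)),
        IsDefoOf MM (x : GQ → Ad0 k) ρ → ρ.IsUnipotentOnInertiaAt (q : ℕ) →
          locQ ρ₀ q (clsQ ρ₀ x) ∈ L := by
    intro q
    by_cases hq : q ∈ Up
    · obtain ⟨hqp, -, hram⟩ := hU _ ((hmemU q).mp hq)
      have hram' : ∃ s ∈ inertiaG q, MM (loc q s) ≠ 1 := by
        by_contra hno
        push Not at hno
        refine hram fun A hA σ hσ => ?_
        obtain ⟨γ, hγ⟩ := FLTA.Galois.exists_smul_eq q.2 hA (primeLocalPlace_liesOverPrime q)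
        have hI : γ * σ * γ⁻¹ ∈ (primeLocalPlace q).inertiaSubgroupIn ℚ := by
          rw [← hγ, FLTA.Galois.inertiaSubgroupIn_smul_iff]
          simpa [mul_assoc] using hσ
        obtain ⟨s, hs⟩ := FLTA.TaylorWiles.exists_loc_eq q
          (FLTA.Galois.inertiaSubgroupIn_le_decompositionSubgroup hI)
        have h1 : MM (γ * σ * γ⁻¹) = 1 := by
          rw [← hs]; exact hno s (by rw [mem_inertiaG, hs]; exact hI)
        have h2 : MM σ = 1 := by
          have e : σ = γ⁻¹ * (γ * σ * γ⁻¹) * γ := by group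
          rw [e, map_mul, map_mul, h1, mul_one, ← map_mul, inv_mul_cancel, map_one]
        exact (LinearMap.toMatrix _ _).injective (h2.trans (LinearMap.toMatrix_one _).symm)
      obtain ⟨L, hL⟩ := exists_unipotentCond p MM hp q (hU _ ((hmemU q).mp hq)).2.1 hM hdetM hram'
      exact ⟨L, fun _ => hL⟩
    · exact ⟨⊥, fun h => absurd h hq⟩
  choose LU hLU using hunip
  let fam : Submodule (ZMod p) (H1L ρ₀ (pPrime p)) → Cond ρ₀ := fun Lp =>
    Function.update (fun q => if q ∈ Up then LU q else ⊥) (pPrime p) Lp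
  obtain ⟨r, hr⟩ := exists_selmer_bound p hp ρbar hdet hsplit habs hTW T (Finset.mem_insert_self _ _)
    (S ∪ insert p (U ∪ Sig))
    (fun q hq => by
      refine Finset.mem_union_right _ ?_
      rcases Finset.mem_insert.mp hq with rfl | hq
      · exact Finset.mem_insert_self _ _
      · refine Finset.mem_insert_of_mem ?_
        rw [Finset.mem_union, hmemU, hmemS] at hq
        exact Finset.mem_union.mpr hq)
    (fun q hq => by
      rw [Finset.mem_insert, Finset.mem_union, hmemU, hmemS, not_or, not_or] at hq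
      exact hur _ q.2 (fun h => hq.1 (Subtype.ext h)) hq.2.1)
    (fam L₀)
  refine ⟨r, fun n => ?_⟩
  obtain ⟨qv, hinj, hprop, hbound⟩ := hr n
  refine ⟨fun i => (qv i : ℕ), fun i j h => hinj (Subtype.ext h), fun i => ?_,
    fun i => (hprop i).2.2, fun Lp hL0 e he => ?_⟩
  · have h := (hprop i).1
    simp only [Finset.mem_union, Finset.mem_insert, not_or] at h
    exact ⟨(qv i).2, h.1, h.2.1, h.2.2.1, h.2.2.2, (hprop i).2.1⟩
  obtain ⟨hfin, hle⟩ := hbound (fam Lp) fun q hq => by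
    rcases eq_or_ne q (pPrime p) with rfl | hne
    · simp only [fam, Function.update_self]; exact hL0
    · simp only [fam, Function.update_of_ne hne]; exact le_rfl
  refine ⟨_, hfin, ?_, fun x ρ' hx hunipx hurx hsite hxp => ?_⟩
  · -- the numbers
    have hsumS : (∑ s ∈ Sig, w s) * finrank (ZMod p) k ≤
        ∑ q ∈ Sp, finrank (ZMod p) (fixedBy ((ρ₀).comp (loc q)) ⊤) := by
      rw [Finset.sum_mul, ← Finset.sum_subtype_of_mem (p := Nat.Prime) _ (fun s hs => (hSig s hs).1)]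
      refine Finset.sum_le_sum fun q hq => ?_
      obtain ⟨-, hqp, hqU⟩ := hSig _ ((hmemS q).mp hq)
      have hurq : ∀ B : ValuationSubring Qb, B.LiesOverPrime (q : ℕ) →
          ∀ σ ∈ B.inertiaSubgroupIn ℚ, MM σ = 1 := fun B hB σ hσ => by
        show LinearMap.toMatrix _ _ (ρbar.ρ σ) = 1
        rw [hur _ q.2 hqp hqU B hB σ hσ, LinearMap.toMatrix_one]
      have hfinM : GaloisFactorsThroughFiniteLevel MM := by
        obtain ⟨F, hF, h1⟩ := ρbar.factorsThroughFiniteLevel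
        exact ⟨F, hF, fun s hs => by
          show LinearMap.toMatrix _ _ (ρbar.ρ s) = 1
          rw [h1 s hs, LinearMap.toMatrix_one]⟩
      rw [mul_comm]
      rcases hw _ ((hmemS q).mp hq) with h | ⟨h, A, hA, Φ, hΦ, c, hc⟩
      · obtain ⟨Φ, hΦ⟩ := FLTA.Galois.exists_isFrobeniusAt q.2 (primeLocalPlace_liesOverPrime q)
        exact mul_le_finrank_fixedBy_site hp q (primeLocalPlace_liesOverPrime q) hfinM hurq hΦ
          (Or.inl h)
      · refine mul_le_finrank_fixedBy_site hp q hA hfinM hurq hΦ (Or.inr ⟨h, c, ?_⟩)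
        show LinearMap.toMatrix _ _ (ρbar.ρ Φ) = _
        rw [hc, map_smul, LinearMap.toMatrix_one]
    have hsplitsum : ∀ f : Nat.Primes → ℕ,
        ∑ q ∈ T, f q = f (pPrime p) + ((∑ q ∈ Up, f q) + ∑ q ∈ Sp, f q) := fun f => by
      rw [Finset.sum_insert hpUS, Finset.sum_union hdis]
    rw [hsplitsum, hsplitsum] at hle
    have h1 : finrank (ZMod p) (fam Lp (pPrime p)) = finrank (ZMod p) Lp := by
      rw [show fam Lp (pPrime p) = Lp by simp [fam]]
    have h2 : ∑ q ∈ Up, finrank (ZMod p) (fam Lp q) ≤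
        ∑ q ∈ Up, finrank (ZMod p) (fixedBy ((ρ₀).comp (loc q)) ⊤) :=
      Finset.sum_le_sum fun q hq => by
        have hne : q ≠ pPrime p := fun h => hpUS (h ▸ Finset.mem_union_left _ hq)
        rw [show fam Lp q = LU q by simp [fam, hne, hq]]
        exact (hLU q hq).1
    have h3 : ∑ q ∈ Sp, finrank (ZMod p) (fam Lp q) = 0 :=
      Finset.sum_eq_zero fun q hq => by
        have hne : q ≠ pPrime p := fun h => hpUS (h ▸ Finset.mem_union_right _ hq)
        rw [show fam Lp q = ⊥ by simp [fam, hne, Finset.disjoint_right.mp hdis hq], finrank_bot]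
    rw [h1, h3] at hle
    rw [add_mul, add_mul, one_mul]
    omega
  · refine (mem_selmer _).mpr fun q => ?_
    by_cases hqT : q ∈ T
    · rw [condAt, if_pos (Finset.mem_union_left _ hqT), extTop, if_pos hqT]
      rcases Finset.mem_insert.mp hqT with rfl | hq
      · simpa only [fam, Function.update_self] using hxp
      · have hne : q ≠ pPrime p := fun h => hpUS (h ▸ hq)
        simp only [fam, Function.update_of_ne hne]
        by_cases hqU : q ∈ Up
        · rw [if_pos hqU]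
          exact (hLU q hqU).2 x ρ' hx (hunipx _ ((hmemU q).mp hqU))
        · have hqS : q ∈ Sp := (Finset.mem_union.mp hq).resolve_left hqU
          obtain ⟨-, hqp, hqU'⟩ := hSig _ ((hmemS q).mp hqS)
          obtain ⟨A, hA, Φ, τ, hΦ, hτ, b, hb⟩ := hsite _ ((hmemS q).mp hqS)
          rw [if_neg hqU, Submodule.mem_bot]
          exact locQ_eq_zero_of_site hp q hqp hA (fun σ hσ => by
              show LinearMap.toMatrix _ _ (ρbar.ρ σ) = 1
              rw [hur _ q.2 hqp hqU' A hA σ hσ, LinearMap.toMatrix_one])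
            hΦ hτ x ρ' hx b (fun i j => (hb i j).1) fun i j => (hb i j).2
    · by_cases hqQ : q ∈ Finset.univ.image qv
      · rw [condAt, if_pos (Finset.mem_union_right _ hqQ), extTop, if_neg hqT]
        exact Submodule.mem_top
      · rw [condAt, if_neg (by simp only [Finset.mem_union, hqT, hqQ, or_self, not_false_iff])]
        refine locQ_mem_unrCond p MM q x ρ' hx (hurx _ q.2 fun h => ?_)
        rw [Finset.mem_insert, Finset.mem_union, Finset.mem_union] at h
        rcases h with h | (h | h) | h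
        · exact hqT (Finset.mem_insert.mpr (Or.inl (Subtype.ext h)))
        · exact hqT (Finset.mem_insert_of_mem (Finset.mem_union_left _ ((hmemU q).mpr h)))
        · exact hqT (Finset.mem_insert_of_mem (Finset.mem_union_right _ ((hmemS q).mpr h)))
        · obtain ⟨i, -, hi⟩ := Finset.mem_image.mp h
          exact hqQ (Finset.mem_image.mpr ⟨i, Finset.mem_univ _, Subtype.ext hi⟩)

end core

section generators

variable {𝒪 : Type} [CommRing 𝒪] [IsDomain 𝒪] [IsDiscreteValuationRing 𝒪]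
  [IsAdicComplete (maximalIdeal 𝒪) 𝒪] [Finite (ResidueField 𝒪)]
variable (p : ℕ) [Fact p.Prime] (ρbar : ResidualGaloisRep (ResidueField 𝒪))

/-- The hypotheses on the residual representation. -/
structure TWResidual (U Sig : Finset ℕ) : Prop where
  p_ne_two : p ≠ 2
  p_mem : (p : 𝒪) ∈ maximalIdeal 𝒪
  absIrr : ρbar.IsAbsolutelyIrreducible
  det : (GaloisRepAdic.ofResidualGaloisRep ρbar).DetIsCyclotomic p
  split : ∀ g, ∃ α β : ResidueField 𝒪, LinearMap.charpoly (ρbar.ρ g) = (X - C α) * (X - C β)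
  indexTwo : ∀ (K : Type) [Field K] [Algebra (ResidueField 𝒪) K] (G : Subgroup GQ), G.index = 2 →
    ∀ V : Submodule K (ρbar.baseChange K).V,
      (∀ σ ∈ G, ∀ x ∈ V, (ρbar.baseChange K).ρ σ x ∈ V) → V = ⊥ ∨ V = ⊤
  ramified : ∀ q ∈ U, q.Prime ∧ q ≠ p ∧ ¬ ρbar.IsUnramifiedAt q
  sites : ∀ s ∈ Sig, s.Prime ∧ s ≠ p ∧ s ∉ U
  unramified : ∀ q : ℕ, q.Prime → q ≠ p → q ∉ U → ρbar.IsUnramifiedAt q

variable {p ρbar} {U Sig : Finset ℕ}

theorem TWResidual.charP (H : TWResidual p ρbar U Sig) : CharP (ResidueField 𝒪) p :=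
  (CharP.charP_iff_prime_eq_zero Fact.out).mpr (by
    rw [← map_natCast (residue 𝒪), residue_eq_zero_iff]
    exact H.p_mem)

/-- Flat at `p`: the maximal ideal is generated by the uniformiser, `E` and `g` elements. -/
theorem exists_twGenerators_flat (H : TWResidual p ρbar U Sig) (w : ℕ → ℕ)
    (hw : ∀ s ∈ Sig, SiteWeight ρbar s (w s)) (S : Finset ℕ) :
    ∃ r g : ℕ, g + ∑ s ∈ Sig, w s ≤ r ∧ ∀ n : ℕ, ∃ qv : Fin r → ℕ, Function.Injective qv ∧
      (∀ i, (qv i).Prime ∧ qv i ∉ S ∧ qv i ≠ p ∧ qv i ∉ U ∧ qv i ∉ Sig ∧ p ^ (n + 1) ∣ qv i - 1) ∧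
      (∀ i, ∀ P : ValuationSubring Qb, P.LiesOverPrime (qv i) → ∀ φ : GQ,
        P.IsFrobeniusAt φ (qv i) → ∃ α β : ResidueField 𝒪,
          α ≠ β ∧ LinearMap.charpoly (ρbar.ρ φ) = (X - C α) * (X - C β)) ∧
      ∀ (𝒟 : RepPred 𝒪), IsClosedCond 𝒪 𝒟 → ∀ DQ : GaloisRep.DeformationRingData 𝒪 ρbar 𝒟,
      DQ.ρ.DetIsCyclotomic p → ∀ E : Set DQ.R, E ⊆ maximalIdeal DQ.R →
        (letI := Deformation.dualAlgebra 𝒪
          ∀ (φ : DQ.R →ₐ[𝒪] DualNumber (ResidueField 𝒪))
            (hφ : IsLocalHom (φ : DQ.R →+* DualNumber (ResidueField 𝒪))), (∀ e ∈ E, φ e = 0) →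
            (DQ.ρ.baseChangeAlong (φ : DQ.R →+* DualNumber (ResidueField 𝒪)) hφ).IsFlatAt p ∧
              AwayFromP p U Sig qv
                (DQ.ρ.baseChangeAlong (φ : DQ.R →+* DualNumber (ResidueField 𝒪)) hφ)) →
        ∃ a : Fin g → DQ.R, (∀ i, a i ∈ maximalIdeal DQ.R) ∧
          maximalIdeal DQ.R = Ideal.span (Set.range a) ⊔
            (Ideal.span E ⊔ (maximalIdeal 𝒪).map (algebraMap 𝒪 DQ.R)) := by
  haveI := H.charP
  letI : Algebra (ZMod p) (ResidueField 𝒪) := ZMod.algebra _ p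
  haveI : Module.Finite (ZMod p) (ResidueField 𝒪) := Module.Finite.of_finite
  have hf : 0 < finrank (ZMod p) (ResidueField 𝒪) := Module.finrank_pos
  obtain ⟨L, hLdim, hL⟩ := exists_flatCond p (Deformation.barMat ρbar) H.p_ne_two
    (smooth_barMat p ρbar) (det_eq_cycloChar p ρbar H.det) fun g => by
      obtain ⟨α, β, h⟩ := H.split g
      exact ⟨α, β, by
        rw [← h, ← LinearMap.charpoly_toMatrix (ρbar.ρ g) (Deformation.barBasis ρbar)]
        rfl⟩
  obtain ⟨r, hr⟩ := exists_twPrimes_selmer p ρbar U Sig H.p_ne_two H.det H.split H.absIrr H.indexTwo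
    H.ramified H.sites H.unramified w hw S L
  refine ⟨r, r - ∑ s ∈ Sig, w s, ?_, fun n => ?_⟩
  · obtain ⟨qv, -, -, -, h⟩ := hr 0
    obtain ⟨Sel, -, hle, -⟩ := h L le_rfl 1 (by rw [one_mul]; exact hLdim)
    have := Nat.le_of_mul_le_mul_right ((Nat.le_add_left _ _).trans hle) hf
    omega
  obtain ⟨qv, hinj, hq, heig, h⟩ := hr n
  refine ⟨qv, hinj, hq, heig, fun 𝒟 hclosed DQ hcyc E hE hloc => ?_⟩
  obtain ⟨Sel, hfin, hle, hmem⟩ := h L le_rfl 1 (by rw [one_mul]; exact hLdim)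
  refine exists_generators_of_selmer p ρbar DQ.residue_surjective DQ.ρ DQ.residual_isEquiv
    hcyc (push_unique DQ hclosed) E hE Sel (g := r - ∑ s ∈ Sig, w s) ?_
    fun φ hφ hkill x hx => ?_
  · rw [add_mul, add_mul, one_mul] at hle
    rw [Nat.sub_mul]
    omega
  · obtain ⟨hflat, hunip, hur, hsite⟩ := hloc φ hφ hkill
    exact hmem x _ hx hunip hur hsite (hL x _ hx hflat)

/-- Ordinary at `p`: the maximal ideal is generated by the uniformiser, `E`, one element `z` of `J`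
and `g` further elements. -/
theorem exists_twGenerators_ordinary (H : TWResidual p ρbar U Sig) (w : ℕ → ℕ)
    (hw : ∀ s ∈ Sig, SiteWeight ρbar s (w s)) (S : Finset ℕ) :
    ∃ r g : ℕ, g + 1 + ∑ s ∈ Sig, w s ≤ r ∧ ∀ n : ℕ, ∃ qv : Fin r → ℕ, Function.Injective qv ∧
      (∀ i, (qv i).Prime ∧ qv i ∉ S ∧ qv i ≠ p ∧ qv i ∉ U ∧ qv i ∉ Sig ∧ p ^ (n + 1) ∣ qv i - 1) ∧
      (∀ i, ∀ P : ValuationSubring Qb, P.LiesOverPrime (qv i) → ∀ φ : GQ,
        P.IsFrobeniusAt φ (qv i) → ∃ α β : ResidueField 𝒪,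
          α ≠ β ∧ LinearMap.charpoly (ρbar.ρ φ) = (X - C α) * (X - C β)) ∧
      ∀ (𝒟 : RepPred 𝒪), IsClosedCond 𝒪 𝒟 → ∀ DQ : GaloisRep.DeformationRingData 𝒪 ρbar 𝒟,
      DQ.ρ.DetIsCyclotomic p →
      ∀ (E : Set DQ.R) (J : Ideal DQ.R), E ⊆ maximalIdeal DQ.R → J ≤ maximalIdeal DQ.R →
        (letI := Deformation.dualAlgebra 𝒪
          ∀ (φ : DQ.R →ₐ[𝒪] DualNumber (ResidueField 𝒪))
            (hφ : IsLocalHom (φ : DQ.R →+* DualNumber (ResidueField 𝒪))), (∀ e ∈ E, φ e = 0) →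
            (DQ.ρ.baseChangeAlong (φ : DQ.R →+* DualNumber (ResidueField 𝒪))
                hφ).IsStrictOrdinaryAt p ∧
              (J = maximalIdeal DQ.R ∨ ((∀ j ∈ J, φ j = 0) → (DQ.ρ.baseChangeAlong
                (φ : DQ.R →+* DualNumber (ResidueField 𝒪)) hφ).IsFlatAt p)) ∧
              AwayFromP p U Sig qv
                (DQ.ρ.baseChangeAlong (φ : DQ.R →+* DualNumber (ResidueField 𝒪)) hφ)) →
        ∃ z ∈ J, ∃ a : Fin g → DQ.R, (∀ i, a i ∈ maximalIdeal DQ.R) ∧
          maximalIdeal DQ.R = Ideal.span (Set.range a) ⊔ (Ideal.span {z} ⊔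
            (Ideal.span E ⊔ (maximalIdeal 𝒪).map (algebraMap 𝒪 DQ.R))) := by
  haveI := H.charP
  letI : Algebra (ZMod p) (ResidueField 𝒪) := ZMod.algebra _ p
  haveI : Module.Finite (ZMod p) (ResidueField 𝒪) := Module.Finite.of_finite
  have hf : 0 < finrank (ZMod p) (ResidueField 𝒪) := Module.finrank_pos
  obtain ⟨Ls, hLsdim, hLs⟩ := exists_strictOrdinaryCond p (Deformation.barMat ρbar) H.p_ne_two
    (smooth_barMat p ρbar) (det_eq_cycloChar p ρbar H.det)
  obtain ⟨Lf, hLfdim, hLf⟩ := exists_flatStrictCond p (Deformation.barMat ρbar) H.p_ne_two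
    (smooth_barMat p ρbar) (det_eq_cycloChar p ρbar H.det)
  haveI : Finite (H1L (ad0Rep p (Deformation.barMat ρbar)) (pPrime p)) :=
    finite_localH1 p _ (smooth_barMat p ρbar)
  haveI : Module.Finite (ZMod p) (H1L (ad0Rep p (Deformation.barMat ρbar)) (pPrime p)) :=
    Module.Finite.of_finite
  have h0 := (Submodule.finrank_mono (inf_le_left : Lf ⊓ Ls ≤ Lf)).trans hLfdim
  obtain ⟨r, hr⟩ := exists_twPrimes_selmer p ρbar U Sig H.p_ne_two H.det H.split H.absIrr H.indexTwo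
    H.ramified H.sites H.unramified w hw S (Lf ⊓ Ls)
  refine ⟨r, r - ((∑ s ∈ Sig, w s) + 1), ?_, fun n => ?_⟩
  · obtain ⟨qv, -, -, -, h⟩ := hr 0
    obtain ⟨Sel, -, hle, -⟩ := h _ le_rfl 0 (by simpa using h0)
    have := Nat.le_of_mul_le_mul_right ((Nat.le_add_left _ _).trans hle) hf
    omega
  obtain ⟨qv, hinj, hq, heig, h⟩ := hr n
  refine ⟨qv, hinj, hq, heig, fun 𝒟 hclosed DQ hcyc E J hE hJ hdetect => ?_⟩
  obtain ⟨Self, hfinf, hlef, hmemf⟩ := h _ le_rfl 0 (by simpa using h0)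
  obtain ⟨Sels, hfins, hles, hmems⟩ := h Ls inf_le_right 1 (by rw [one_mul]; exact hLsdim)
  have hrle : (∑ s ∈ Sig, w s) + 1 ≤ r := by
    simpa using Nat.le_of_mul_le_mul_right ((Nat.le_add_left _ _).trans hlef) hf
  obtain ⟨a, ha, hgena⟩ : ∃ a : Fin (r - ((∑ s ∈ Sig, w s) + 1)) → DQ.R,
      (∀ i, a i ∈ maximalIdeal DQ.R) ∧ maximalIdeal DQ.R = Ideal.span (Set.range a) ⊔
        (Ideal.span (E ∪ (J : Set DQ.R)) ⊔ (maximalIdeal 𝒪).map (algebraMap 𝒪 DQ.R)) := by
    by_cases hJm : J = maximalIdeal DQ.R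
    · refine ⟨0, fun _ => zero_mem _, le_antisymm ?_ (sup_le (Ideal.span_le.mpr ?_) (sup_le
        (Ideal.span_le.mpr (Set.union_subset hE hJ)) map_maximalIdeal_le))⟩
      · exact fun y hy => Ideal.mem_sup_right (Ideal.mem_sup_left
          (Ideal.subset_span (Or.inr (hJm ▸ hy))))
      · exact Set.range_subset_iff.mpr fun _ => zero_mem _
    exact exists_generators_of_selmer p ρbar DQ.residue_surjective DQ.ρ DQ.residual_isEquiv hcyc
      (push_unique DQ hclosed) (E ∪ (J : Set DQ.R)) (Set.union_subset hE hJ) Self (by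
        refine Nat.le_of_add_le_add_right (hlef.trans (le_of_eq ?_))
        rw [← add_mul, Nat.sub_add_cancel hrle, Nat.add_zero]) fun φ hφ hkill x hx => by
      obtain ⟨hs, hflat, hunip, hur, hsite⟩ := hdetect φ hφ fun e he => hkill e (Or.inl he)
      exact hmemf x _ hx hunip hur hsite
        ⟨hLf x _ hx (hflat.resolve_left hJm fun j hj => hkill j (Or.inr hj)) hs, hLs x _ hx hs⟩
  obtain ⟨b, hb, hgenb⟩ := exists_generators_of_selmer p ρbar DQ.residue_surjective DQ.ρ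
    DQ.residual_isEquiv hcyc (push_unique DQ hclosed) E hE Sels
    (g := r - ((∑ s ∈ Sig, w s) + 1) + 1) (by
      refine Nat.le_of_add_le_add_right (hles.trans (le_of_eq ?_))
      rw [← add_mul]
      congr 1
      omega) fun φ hφ hkill x hx => by
    obtain ⟨hs, -, hunip, hur, hsite⟩ := hdetect φ hφ hkill
    exact hmems x _ hx hunip hur hsite (hLs x _ hx hs)
  refine exists_generators_slot (sup_le (Ideal.span_le.mpr hE) map_maximalIdeal_le) hJ a ha ?_ b hb
    hgenb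
  rw [hgena, Ideal.span_union, Ideal.span_eq]
  ac_rfl

end generators

end FLTA.RT

end
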