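import Fermat.Agent.Carayol.MatchLevel

/-!
# From agreement at almost all primes to `IsModularModelOfLevel`

The patching argument gives an eigenform whose eigenvalues agree with those of the curve outside a
finite set; the attached residual representations for large auxiliary primes give all good primes.
-/

set_option autoImplicit false

open WeierstrassCurve ModularFormClass

namespace FLTA.RT

/-- An eigenform of level `N` with the eigenvalues of `W` outside a finite set exhibits `W` as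
modular of level `N`. -/
theorem isModularModelOfLevel_of_eq_outside (W : WeierstrassCurve ℤ) (hΔ : W.Δ ≠ 0)
    (hF : ∀ lam : ℕ, lam.Prime → lam ≠ 2 → Carayol.HasFrobQuadratic W lam)
    {N : ℕ} [NeZero N] {f : CuspForm (CongruenceSubgroup.Gamma0 N) 2}
    (hf : f.IsNormalizedEigenform) (S : Finset ℕ)
    (hap : ∀ ℓ : ℕ, ℓ.Prime → ℓ ∉ S → ¬ ℓ ∣ N → W.IsGoodPrimeFor ℓ →
      qCoeff f ℓ = (W.apOfModel ℓ : ℂ)) :
    W.IsModularModelOfLevel N := by
  classical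
  obtain ⟨M, g, hMN, hg, hgf⟩ := Carayol.exists_isNewform hf (NeZero.ne N)
  have : NeZero M := ⟨ne_zero_of_dvd_ne_zero (NeZero.ne N) hMN⟩
  let S₀ : Finset ℕ := S ∪ N.primeFactors ∪ W.Δ.natAbs.primeFactors
  have hM₀ : ∀ q : ℕ, q.Prime → q ∣ M → q ∈ S₀ := fun q hq h =>
    Finset.mem_union_left _ (Finset.mem_union_right _
      (Nat.mem_primeFactors.mpr ⟨hq, h.trans hMN, NeZero.ne N⟩))
  have hbad₀ : ∀ q : ℕ, q.Prime → q ∉ S₀ → W.IsGoodPrimeFor q := fun q hq h hd =>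
    h (Finset.mem_union_right _
      (Nat.mem_primeFactors.mpr ⟨hq, Int.natCast_dvd.mp hd, Int.natAbs_ne_zero.mpr hΔ⟩))
  have hN : ∀ q : ℕ, q.Prime → q ∉ S₀ → ¬ q ∣ N := fun q hq h hd =>
    h (Finset.mem_union_left _ (Finset.mem_union_right _
      (Nat.mem_primeFactors.mpr ⟨hq, hd, NeZero.ne N⟩)))
  have hg' : ∀ ℓ : ℕ, ℓ.Prime → ℓ ∉ S₀ → qCoeff g ℓ = (W.apOfModel ℓ : ℂ) := fun ℓ hℓ h => by
    rw [hgf ℓ hℓ (hN ℓ hℓ h)]
    exact hap ℓ hℓ (fun hS => h (Finset.mem_union_left _ (Finset.mem_union_left _ hS)))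
      (hN ℓ hℓ h) (hbad₀ ℓ hℓ h)
  refine ⟨f, hf, fun ℓ hℓ hgood hℓN => ?_⟩
  rw [← hgf ℓ hℓ hℓN]
  exact Carayol.qCoeff_eq_apOfModel hF hg S₀ hM₀ hbad₀ hg' hΔ hℓ
    (fun h => hℓN (h.trans hMN)) hgood

end FLTA.RT
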