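import Fermat.Agent.RT.DeformRing

/-!
Existence of the universal deformation rings for the flat and strictly ordinary conditions.
-/

set_option autoImplicit false

noncomputable section

namespace FLTA.RT

open IsLocalRing GaloisRep FLTA.Deformation

variable {𝒪 : Type} [CommRing 𝒪] [IsDomain 𝒪] [IsDiscreteValuationRing 𝒪]
  [IsAdicComplete (maximalIdeal 𝒪) 𝒪] [Finite (ResidueField 𝒪)]

theorem nonempty_flatRing (p : ℕ) [Fact p.Prime] (ρbar : ResidualGaloisRep (ResidueField 𝒪))
    (habs : ρbar.IsAbsolutelyIrreducible) (S U : Finset ℕ)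
    (hbar : flatCond 𝒪 p S U (GaloisRepAdic.ofResidualGaloisRep ρbar)) :
    Nonempty (GaloisRep.DeformationRingData 𝒪 ρbar (flatCond 𝒪 p S U)) :=
  nonempty_deformationRingData habs (isDeformationCondition_flatCond 𝒪 p S U) hbar
    (tangentFinite_flatCond p ρbar S U)

theorem nonempty_strictRing (p : ℕ) [Fact p.Prime] (hp2 : p ≠ 2)
    (ρbar : ResidualGaloisRep (ResidueField 𝒪)) (habs : ρbar.IsAbsolutelyIrreducible)
    (S U : Finset ℕ) (hbar : strictCond 𝒪 p S U (GaloisRepAdic.ofResidualGaloisRep ρbar)) :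
    Nonempty (GaloisRep.DeformationRingData 𝒪 ρbar (strictCond 𝒪 p S U)) :=
  nonempty_deformationRingData habs (isDeformationCondition_strictCond 𝒪 p hp2 S U) hbar
    (tangentFinite_strictCond p ρbar S U)

end FLTA.RT
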