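import Fermat.Prelude.Def_GaloisRep_LocalConditions
import Fermat.Agent.RT.DeformBase

/-!
Cyclotomic determinant, being unramified and unipotent inertia are closed conditions.
-/

set_option autoImplicit false

noncomputable section

namespace FLTA.RT

open IsLocalRing GaloisRep FLTA.Deformation

variable {𝒪 : Type} [CommRing 𝒪] [IsLocalRing 𝒪]

theorem isClosed_unramified [Finite (ResidueField 𝒪)] (q : ℕ) :
    IsClosedCond 𝒪 fun _A _ _ _ ρ => ρ.IsUnramifiedAt q where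
  of_isEquiv A _ _ _ ρ ρ' e h P hP σ hσ := by
    obtain ⟨e⟩ := e
    rw [← trace_mul_eq_of_isEquiv e σ, h P hP σ hσ, map_one]
  baseChange A B _ _ _ _ _ _ _ _ φ hφ ρ h P hP σ hσ := by
    rw [← bcEnd_rho, h P hP σ hσ, map_one]
  descend A B C _ _ _ _ _ _ _ _ _ _ _ _ f g hf hg hi ρ h h' P hP σ hσ := by
    refine sub_eq_zero.mp (eq_zero_of_pair (hf := hf) (hg := hg) hi ρ _ ?_ ?_)
    · rw [map_sub, bcEnd_rho, h P hP σ hσ, map_one, sub_self]
    · rw [map_sub, bcEnd_rho, h' P hP σ hσ, map_one, sub_self]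
  limit A _ _ _ _ _ hl hs ρ h P hP σ hσ := by
    refine sub_eq_zero.mp (eq_zero_of_forall_modPow ρ _ fun k => ?_)
    haveI := isLocalRing_modPow A k
    rw [map_sub, map_one, bcEnd_rho, sub_eq_zero]
    exact forall_modPow (P := fun _ _ _ _ r => r.IsUnramifiedAt q) hl hs h k P hP σ hσ

section charpoly

variable {A : Type} [CommRing A] [IsLocalRing A]

/-- In rank two, `charpoly = (X-1)^2` iff trace `2` and determinant `1`. -/
lemma charpoly_eq_sq_iff (ρ : GaloisRepAdic A) (σ : GalQ) :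
    LinearMap.charpoly (ρ.ρ σ) = (Polynomial.X - 1) ^ 2 ↔
      ρ.trace σ - 2 = 0 ∧ LinearMap.det (ρ.ρ σ) - 1 = 0 := by
  have hc : LinearMap.charpoly (ρ.ρ σ) =
      Polynomial.X ^ 2 - Polynomial.C (ρ.trace σ) * Polynomial.X +
        Polynomial.C (LinearMap.det (ρ.ρ σ)) := by
    rw [← LinearMap.charpoly_toMatrix (ρ.ρ σ) (repBasis ρ), ← trace_toMat, toMat_apply,
      ← LinearMap.det_toMatrix (repBasis ρ), Matrix.charpoly_fin_two]
  have hsq : (Polynomial.X - 1 : Polynomial A) ^ 2 =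
      Polynomial.X ^ 2 - Polynomial.C 2 * Polynomial.X + Polynomial.C 1 := by
    simp only [map_one, map_ofNat]; ring
  rw [hc, hsq]
  constructor
  · intro h
    have h0 := congrArg (Polynomial.coeff · 0) h
    have h1 := congrArg (Polynomial.coeff · 1) h
    simp [Polynomial.coeff_X, Polynomial.coeff_one] at h0 h1
    exact ⟨by linear_combination h1, sub_eq_zero.mpr h0⟩
  · rintro ⟨h1, h2⟩
    rw [sub_eq_zero.mp h1, sub_eq_zero.mp h2]

end charpoly

theorem isClosed_unipotent [Finite (ResidueField 𝒪)] (q : ℕ) :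
    IsClosedCond 𝒪 fun _A _ _ _ ρ => ρ.IsUnipotentOnInertiaAt q where
  of_isEquiv A _ _ _ ρ ρ' e h P hP σ hσ := by
    rw [charpoly_eq_sq_iff, ← trace_eq_of_isEquiv e, ← det_eq_of_isEquiv e, ← charpoly_eq_sq_iff]
    exact h P hP σ hσ
  baseChange A B _ _ _ _ _ _ _ _ φ hφ ρ h P hP σ hσ := by
    obtain ⟨h1, h2⟩ := (charpoly_eq_sq_iff ρ σ).mp (h P hP σ hσ)
    rw [charpoly_eq_sq_iff, trace_baseChangeAlong, det_baseChangeAlong, sub_eq_zero.mp h1,
      sub_eq_zero.mp h2, map_one, map_ofNat, sub_self, sub_self]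
    exact ⟨rfl, rfl⟩
  descend A B C _ _ _ _ _ _ _ _ _ _ _ _ f g hf hg hi ρ h h' P hP σ hσ := by
    have h1 := (charpoly_eq_sq_iff _ σ).mp (h P hP σ hσ)
    have h2 := (charpoly_eq_sq_iff _ σ).mp (h' P hP σ hσ)
    simp only [trace_baseChangeAlong, det_baseChangeAlong, RingHom.coe_coe, ← map_ofNat f 2,
      ← map_ofNat g 2, ← map_one f, ← map_one g, ← map_sub] at h1 h2
    exact (charpoly_eq_sq_iff ρ σ).mpr ⟨hi _ h1.1 h2.1, hi _ h1.2 h2.2⟩
  limit A _ _ _ _ _ hl hs ρ h P hP σ hσ := by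
    have key : ∀ k, Ideal.Quotient.mk (maximalIdeal A ^ (k + 1)) (ρ.trace σ - 2) = 0 ∧
        Ideal.Quotient.mk (maximalIdeal A ^ (k + 1)) (LinearMap.det (ρ.ρ σ) - 1) = 0 := fun k => by
      haveI := isLocalRing_modPow A k
      have h1 := (charpoly_eq_sq_iff _ σ).mp
        (forall_modPow (P := fun _ _ _ _ r => r.IsUnipotentOnInertiaAt q) hl hs h k P hP σ hσ)
      rwa [trace_baseChangeAlong, det_baseChangeAlong, ← map_ofNat (Ideal.Quotient.mk _) 2,
        ← map_one (Ideal.Quotient.mk _), ← map_sub, ← map_sub] at h1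
    refine (charpoly_eq_sq_iff ρ σ).mpr ⟨?_, ?_⟩
    · simpa using mem_of_forall_modPow ⊥ (ρ.trace σ - 2) fun k => by simp [(key k).1]
    · simpa using mem_of_forall_modPow ⊥ (LinearMap.det (ρ.ρ σ) - 1) fun k => by simp [(key k).2]

theorem isClosed_detCyclotomic [Finite (ResidueField 𝒪)] (p : ℕ) [Fact p.Prime] :
    IsClosedCond 𝒪 fun _A _ _ _ ρ => ρ.DetIsCyclotomic p where
  of_isEquiv A _ _ _ ρ ρ' e h := ⟨h.1, fun n σ a ha => det_eq_of_isEquiv e σ ▸ h.2 n σ a ha⟩
  baseChange A B _ _ _ _ _ _ _ _ φ hφ ρ h := by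
    refine ⟨?_, fun n σ a ha => ?_⟩
    · have := hφ
      simpa using map_nonunit (φ : A →+* B) (p : A) h.1
    · have := Ideal.mem_map_of_mem (φ : A →+* B) (h.2 n σ a ha)
      rw [Ideal.map_span, Set.image_singleton, map_sub, map_natCast, map_natCast] at this
      rwa [det_baseChangeAlong]
  descend A B C _ _ _ _ _ _ _ _ _ hA hB hC f g hf hg hi ρ h h' := by
    haveI := hA.isArtinian
    haveI := hB.isArtinian
    haveI := hC.isArtinian
    have hpA : (p : A) ∈ maximalIdeal A := fun hu => h.1 (by simpa using hu.map f)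
    refine ⟨hpA, fun n σ a ha => ?_⟩
    obtain ⟨N₁, hN₁⟩ := exists_pow_eq_zero h.1
    obtain ⟨N₂, hN₂⟩ := exists_pow_eq_zero h'.1
    obtain ⟨m, hm⟩ : ∃ m, n ≤ m ∧ N₁ ≤ m ∧ N₂ ≤ m := ⟨n + N₁ + N₂, by omega, by omega, by omega⟩
    obtain ⟨b, hb⟩ := exists_isExp (p := p) m σ
    have e1 := h.2 m σ b hb
    have e2 := h'.2 m σ b hb
    rw [hN₁ m hm.2.1, Ideal.span_singleton_zero, Ideal.mem_bot] at e1
    rw [hN₂ m hm.2.2, Ideal.span_singleton_zero, Ideal.mem_bot] at e2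
    simp only [det_baseChangeAlong, RingHom.coe_coe, ← map_natCast f, ← map_natCast g, ← map_sub]
      at e1 e2
    rw [sub_eq_zero.mp (hi _ e1 e2)]
    exact (IsExp.mono hm.1 hb).sub_mem ha
  limit A _ _ _ _ _ hl hs ρ h := by
    refine ⟨?_, fun n σ a ha => mem_of_forall_modPow _ _ fun k => ?_⟩
    · haveI := isLocalRing_modPow A 0
      have h0 := (forall_modPow (P := fun _ _ _ _ r => r.DetIsCyclotomic p) hl hs h 0).1
      rw [← map_natCast (Ideal.Quotient.mk (maximalIdeal A ^ (0 + 1)))] at h0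
      exact (mem_maximalIdeal_quot _).mp h0
    · haveI := isLocalRing_modPow A k
      have hk := (forall_modPow (P := fun _ _ _ _ r => r.DetIsCyclotomic p) hl hs h k).2 n σ a ha
      rwa [det_baseChangeAlong, ← map_natCast (Ideal.Quotient.mk _),
        ← map_natCast (Ideal.Quotient.mk _), ← map_sub, ← Set.image_singleton,
        ← Ideal.map_span] at hk

end FLTA.RT
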