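import Fermat.Prelude.Def_GaloisRep_StrictOrdinary
import Fermat.Agent.RT.DeformLocal
import Fermat.Agent.Galois.Places

/-!
With cyclotomic determinant at an odd prime `p`, the stable line of a strictly ordinary
representation is the image of `ρ σ₀ - 1` for any inertia element `σ₀` with cyclotomic character
`2` mod `p`; hence strict ordinarity is cut out by equations and is a closed condition.
-/

set_option autoImplicit false

noncomputable section

namespace FLTA.RT

open IsLocalRing GaloisRep FLTA.Deformation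

variable {A : Type} [CommRing A] [IsLocalRing A]

lemma exists_conj_single_of_idempotent (e : Mat2 A) (ht : e.trace = 1) (hd : e.det = 0) :
    ∃ U : (Mat2 A)ˣ, (↑U⁻¹ : Mat2 A) * e * (U : Mat2 A) = !![1, 0; 0, 0] := by
  simp only [Matrix.trace_fin_two] at ht
  simp only [Matrix.det_fin_two] at hd
  obtain ⟨v0, v1, w0, w1, h00, h01, h10, h11, h1⟩ : ∃ v0 v1 w0 w1 : A, v0 * w0 = e 0 0 ∧
      v0 * w1 = e 0 1 ∧ v1 * w0 = e 1 0 ∧ v1 * w1 = e 1 1 ∧ w0 * v0 + w1 * v1 = 1 := by
    rcases IsLocalRing.isUnit_or_isUnit_of_add_one ht with hu | hu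
    · obtain ⟨b, hb⟩ := hu.exists_right_inv
      exact ⟨e 0 0, e 1 0, 1, b * e 0 1, by ring, by linear_combination (e 0 1) * hb, by ring,
        by linear_combination (e 1 1) * hb - b * hd,
        by linear_combination ht + (e 1 1) * hb - b * hd⟩
    · obtain ⟨b, hb⟩ := hu.exists_right_inv
      exact ⟨e 0 1, e 1 1, b * e 1 0, 1, by linear_combination (e 0 0) * hb - b * hd, by ring,
        by linear_combination (e 1 0) * hb, by ring,
        by linear_combination ht + (e 0 0) * hb - b * hd⟩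
  have one : (!![w0, w1; -v1, v0] : Mat2 A) * !![v0, -w1; v1, w0] = 1 := by
    rw [Matrix.one_fin_two]
    ext i j
    fin_cases i <;> fin_cases j <;> simp <;>
      first | ring1 | linear_combination h1
  refine ⟨⟨!![v0, -w1; v1, w0], !![w0, w1; -v1, v0], mul_eq_one_comm.mp one, one⟩, ?_⟩
  show (!![w0, w1; -v1, v0] : Mat2 A) * e * !![v0, -w1; v1, w0] = _
  rw [Matrix.eta_fin_two e, ← h00, ← h01, ← h10, ← h11]
  ext i j
  fin_cases i <;> fin_cases j <;> simp <;>
    first | ring1 | linear_combination (w0 * v0 + w1 * v1 + 1) * h1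

/-- The equations cutting out strict ordinarity at the place `P` relative to `σ₀`. -/
structure StrictEq (p : ℕ) (P : ValuationSubring (AlgebraicClosure ℚ)) (σ₀ : GalQ)
    (ρ : GaloisRepAdic A) : Prop where
  tr0 : ρ.trace σ₀ - (1 + LinearMap.det (ρ.ρ σ₀)) = 0
  stable : ∀ σ ∈ P.decompositionSubgroup ℚ,
    (LinearMap.det (ρ.ρ σ₀) - 1) • (ρ.ρ σ * (ρ.ρ σ₀ - 1)) -
      (ρ.ρ σ₀ - 1) * ρ.ρ σ * (ρ.ρ σ₀ - 1) = 0
  inertia : ∀ σ ∈ P.inertiaSubgroupIn ℚ,
    (LinearMap.det (ρ.ρ σ₀) - 1) • (ρ.ρ σ - 1) - (ρ.ρ σ₀ - 1) * (ρ.ρ σ - 1) = 0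
  ratio : ∀ σ ∈ P.decompositionSubgroup ℚ, ∀ n a : ℕ, IsExp p n σ a →
    LinearMap.trace A ρ.V ((ρ.ρ σ₀ - 1) * ρ.ρ σ) - (a : A) * ((LinearMap.det (ρ.ρ σ₀) - 1) *
      ρ.trace σ - LinearMap.trace A ρ.V ((ρ.ρ σ₀ - 1) * ρ.ρ σ)) ∈
        Ideal.span {((p ^ n : ℕ) : A)}

variable {p : ℕ} [hp : Fact p.Prime]

lemma det_sub_one_isUnit {ρ : GaloisRepAdic A} (hc : ρ.DetIsCyclotomic p) {σ : GalQ}
    (hσ : IsExp p 1 σ 2) : IsUnit (LinearMap.det (ρ.ρ σ) - 1) := by
  by_contra h
  have h2 : LinearMap.det (ρ.ρ σ) - ((2 : ℕ) : A) ∈ maximalIdeal A := by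
    refine (Ideal.span_le.mpr ?_) (hc.2 1 σ 2 hσ)
    simpa using hc.1
  have := sub_mem (show LinearMap.det (ρ.ρ σ) - 1 ∈ maximalIdeal A from h) h2
  norm_num at this

/-- The triangular basis gives the equations. -/
lemma strictEq_of_line {ρ : GaloisRepAdic A} {P : ValuationSubring (AlgebraicClosure ℚ)}
    {σ₀ : GalQ} (h₀ : σ₀ ∈ P.inertiaSubgroupIn ℚ) (hs : ρ.IsStrictOrdinaryAt p)
    (hP : P.LiesOverPrime p) : StrictEq p P σ₀ ρ := by
  obtain ⟨L, ⟨b, rfl⟩, hD, hI, hX⟩ := hs.2 P hP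
  let M : GalQ → Mat2 A := fun σ => LinearMap.toMatrixAlgEquiv b (ρ.ρ σ)
  have line : ∀ v ∈ Submodule.span A {b 0}, b.repr v 1 = 0 := fun v hv => by
    obtain ⟨c, rfl⟩ := Submodule.mem_span_singleton.mp hv
    simp
  have mem0 : b 0 ∈ Submodule.span A {b 0} := Submodule.mem_span_singleton_self _
  have m10 : ∀ σ ∈ P.decompositionSubgroup ℚ, M σ 1 0 = 0 := fun σ hσ => by
    simpa [M, LinearMap.toMatrixAlgEquiv_apply] using line _ (hD σ hσ _ mem0)
  have i1 : ∀ σ ∈ P.inertiaSubgroupIn ℚ, M σ 1 0 = 0 ∧ M σ 1 1 = 1 := fun σ hσ => by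
    have h0 := line _ (hI σ hσ (b 0))
    have h1 := line _ (hI σ hσ (b 1))
    simp [sub_eq_zero] at h0 h1
    exact ⟨by simpa [M, LinearMap.toMatrixAlgEquiv_apply] using h0,
      by simpa [M, LinearMap.toMatrixAlgEquiv_apply] using h1⟩
  obtain ⟨h010, h011⟩ := i1 σ₀ h₀
  have hdet : ∀ σ, LinearMap.det (ρ.ρ σ) = (M σ).det := fun σ =>
    (LinearMap.det_toMatrix b (ρ.ρ σ)).symm
  have htr : ∀ f : Module.End A ρ.V,
      LinearMap.trace A ρ.V f = (LinearMap.toMatrixAlgEquiv b f).trace :=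
    fun f => LinearMap.trace_eq_matrix_trace A b f
  constructor
  · rw [GaloisRepAdic.trace, htr, hdet]
    show (M σ₀).trace - _ = 0
    rw [Matrix.trace_fin_two, Matrix.det_fin_two, h010, h011]
    ring
  · intro σ hσ
    apply (LinearMap.toMatrixAlgEquiv b).injective
    simp only [map_sub, map_smul, map_mul, map_one, map_zero, hdet]
    show ((M σ₀).det - 1) • (M σ * (M σ₀ - 1)) - (M σ₀ - 1) * M σ * (M σ₀ - 1) = 0
    ext i j
    fin_cases i <;> fin_cases j <;>
      simp [Matrix.mul_apply, Matrix.det_fin_two, Fin.sum_univ_two, h010, h011, m10 σ hσ] <;> ring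
  · intro σ hσ
    obtain ⟨a, a'⟩ := i1 σ hσ
    apply (LinearMap.toMatrixAlgEquiv b).injective
    simp only [map_sub, map_smul, map_mul, map_one, map_zero, hdet]
    show ((M σ₀).det - 1) • (M σ - 1) - (M σ₀ - 1) * (M σ - 1) = 0
    ext i j
    fin_cases i <;> fin_cases j <;>
      simp [Matrix.mul_apply, Matrix.det_fin_two, Fin.sum_univ_two, h010, h011, a, a'] <;> ring
  · intro σ hσ n k hk
    obtain ⟨x, z, hx, hz, hxz⟩ := hX σ hσ
    have hx' : M σ 0 0 = x := by
      simp [M, LinearMap.toMatrixAlgEquiv_apply, hx _ mem0]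
    have hz' : M σ 1 1 = z := by
      have := line _ (hz (b 1))
      simp [sub_eq_zero] at this
      simpa [M, LinearMap.toMatrixAlgEquiv_apply] using this
    have key := Ideal.mul_mem_left (Ideal.span {((p ^ n : ℕ) : A)}) ((M σ₀).det - 1)
      (hxz n k hk)
    convert key using 1
    rw [GaloisRepAdic.trace, htr, htr, hdet, map_mul, map_sub, map_one]
    show ((M σ₀ - 1) * M σ).trace - (k : A) * (((M σ₀).det - 1) * (M σ).trace -
      ((M σ₀ - 1) * M σ).trace) = _
    simp [Matrix.trace_fin_two, Matrix.mul_apply, Matrix.det_fin_two, Fin.sum_univ_two, h010, h011,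
      m10 σ hσ, hx', hz']
    ring

/-- The equations give the triangular basis. -/
lemma line_of_strictEq {ρ : GaloisRepAdic A} {P : ValuationSubring (AlgebraicClosure ℚ)}
    {σ₀ : GalQ} (hu : IsUnit (LinearMap.det (ρ.ρ σ₀) - 1)) (h : StrictEq p P σ₀ ρ) :
    ∃ L : Submodule A ρ.V,
      (∃ b : Module.Basis (Fin 2) A ρ.V, L = Submodule.span A {b 0}) ∧
      (∀ σ ∈ P.decompositionSubgroup ℚ, ∀ v ∈ L, ρ.ρ σ v ∈ L) ∧
      (∀ σ ∈ P.inertiaSubgroupIn ℚ, ∀ v : ρ.V, ρ.ρ σ v - v ∈ L) ∧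
      (∀ σ ∈ P.decompositionSubgroup ℚ, ∃ x z : A,
        (∀ w ∈ L, ρ.ρ σ w = x • w) ∧ (∀ v : ρ.V, ρ.ρ σ v - z • v ∈ L) ∧
        ∀ (n a : ℕ), (∀ μ : AlgebraicClosure ℚ, μ ^ p ^ n = 1 → σ μ = μ ^ a) →
          x - (a : A) * z ∈ Ideal.span {((p ^ n : ℕ) : A)}) := by
  set rb := repBasis ρ
  set u := LinearMap.det (ρ.ρ σ₀) - 1 with hu_def
  obtain ⟨w, hw⟩ := hu.exists_right_inv
  set E₀ := LinearMap.toMatrixAlgEquiv rb (ρ.ρ σ₀ - 1) with hE₀
  have htrE : E₀.trace = u := by
    have ht := h.tr0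
    rw [← trace_toMat] at ht
    rw [hE₀, map_sub, map_one, Matrix.trace_sub, Matrix.trace_one, Fintype.card_fin, hu_def]
    show (toMat ρ σ₀).trace - ((2 : ℕ) : A) = _
    push_cast
    linear_combination ht
  have hdetE : E₀.det = 0 := by
    have ht := h.tr0
    rw [← trace_toMat, ← LinearMap.det_toMatrix rb, ← toMat_apply, Matrix.trace_fin_two,
      Matrix.det_fin_two] at ht
    rw [hE₀, map_sub, map_one]
    show (toMat ρ σ₀ - 1).det = 0
    simp [Matrix.det_fin_two]
    linear_combination -ht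
  obtain ⟨U, hU⟩ := exists_conj_single_of_idempotent (w • E₀)
    (by rw [Matrix.trace_smul, htrE, smul_eq_mul, mul_comm, hw])
    (by rw [Matrix.det_smul, hdetE, mul_zero])
  let g : ρ.V ≃ₗ[A] ρ.V := LinearEquiv.ofLinear (Matrix.toLin rb rb (U : Mat2 A))
    (Matrix.toLin rb rb (↑U⁻¹ : Mat2 A))
    (by rw [← Matrix.toLin_mul, Units.mul_inv, Matrix.toLin_one])
    (by rw [← Matrix.toLin_mul, Units.inv_mul, Matrix.toLin_one])
  let b := rb.map g
  have hb : ∀ f : Module.End A ρ.V, LinearMap.toMatrixAlgEquiv b f =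
      (↑U⁻¹ : Mat2 A) * LinearMap.toMatrixAlgEquiv rb f * U := by
    intro f
    have : LinearMap.toMatrixAlgEquiv b f = LinearMap.toMatrixAlgEquiv rb
        ((Matrix.toLinAlgEquiv rb (↑U⁻¹ : Mat2 A)) * f * (Matrix.toLinAlgEquiv rb (U : Mat2 A))) := by
      ext i j
      simp only [LinearMap.toMatrixAlgEquiv_apply, b, Module.Basis.map_repr, Module.Basis.map_apply]
      rfl
    rw [this, map_mul, map_mul, LinearMap.toMatrixAlgEquiv_toLinAlgEquiv,
      LinearMap.toMatrixAlgEquiv_toLinAlgEquiv]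
  have hE : LinearMap.toMatrixAlgEquiv b (ρ.ρ σ₀ - 1) = u • !![1, 0; 0, 0] := by
    rw [hb, ← hE₀, ← hU, Matrix.mul_smul, Matrix.smul_mul, smul_smul, hw, one_smul]
  let M : GalQ → Mat2 A := fun σ => LinearMap.toMatrixAlgEquiv b (ρ.ρ σ)
  have cancel : ∀ x : A, u * x = 0 → x = 0 := fun x hx => by
    rwa [hu.mul_right_eq_zero] at hx
  have m10 : ∀ σ ∈ P.decompositionSubgroup ℚ, M σ 1 0 = 0 := fun σ hσ => by
    have := congrArg (LinearMap.toMatrixAlgEquiv b) (h.stable σ hσ)
    rw [map_sub, map_smul, map_mul, map_mul, map_mul, hE, map_zero, ← hu_def] at this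
    have := congrFun (congrFun this 1) 0
    simp [Matrix.mul_apply, Matrix.vecMul, dotProduct, Fin.sum_univ_two] at this
    exact cancel _ (cancel _ (by linear_combination this))
  have i1 : ∀ σ ∈ P.inertiaSubgroupIn ℚ, M σ 1 0 = 0 ∧ M σ 1 1 = 1 := fun σ hσ => by
    have := congrArg (LinearMap.toMatrixAlgEquiv b) (h.inertia σ hσ)
    rw [map_sub, map_smul, map_mul, hE, map_sub, map_one, map_zero, ← hu_def] at this
    have h0 := congrFun (congrFun this 1) 0
    have h1 := congrFun (congrFun this 1) 1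
    simp [Matrix.mul_apply, Matrix.vecMul, dotProduct, Fin.sum_univ_two] at h0 h1
    exact ⟨cancel _ (by linear_combination h0), sub_eq_zero.mp (cancel _ (by linear_combination h1))⟩
  have expand : ∀ (σ : GalQ) (j : Fin 2), ρ.ρ σ (b j) = M σ 0 j • b 0 + M σ 1 j • b 1 := fun σ j => by
    conv_lhs => rw [← b.sum_repr (ρ.ρ σ (b j))]
    rw [Fin.sum_univ_two]
    simp only [M, LinearMap.toMatrixAlgEquiv_apply]
  have sub_mem_line : ∀ (σ : GalQ) (z : A), M σ 1 0 = 0 → M σ 1 1 = z → ∀ v,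
      ρ.ρ σ v - z • v ∈ Submodule.span A {b 0} := by
    intro σ z h0 h1 v
    rw [← b.sum_repr v, Fin.sum_univ_two, map_add, map_smul, map_smul, expand, expand, h0, h1,
      Submodule.mem_span_singleton]
    exact ⟨b.repr v 0 * M σ 0 0 + b.repr v 1 * M σ 0 1 - z * b.repr v 0, by
      simp only [zero_smul, add_zero]; module⟩
  refine ⟨_, ⟨b, rfl⟩, fun σ hσ v hv => ?_, fun σ hσ v => ?_, fun σ hσ => ?_⟩
  · obtain ⟨c, rfl⟩ := Submodule.mem_span_singleton.mp hv
    rw [map_smul, expand, m10 σ hσ, zero_smul, add_zero, smul_smul]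
    exact Submodule.smul_mem _ _ (Submodule.mem_span_singleton_self _)
  · simpa using sub_mem_line σ 1 (i1 σ hσ).1 (i1 σ hσ).2 v
  · refine ⟨M σ 0 0, M σ 1 1, fun v hv => ?_, sub_mem_line σ _ (m10 σ hσ) rfl, fun n a ha => ?_⟩
    · obtain ⟨c, rfl⟩ := Submodule.mem_span_singleton.mp hv
      rw [map_smul, expand, m10 σ hσ, zero_smul, add_zero, smul_comm]
    · have hr := Ideal.mul_mem_left (Ideal.span {((p ^ n : ℕ) : A)}) w (h.ratio σ hσ n a ha)
      convert hr using 1
      rw [GaloisRepAdic.trace, LinearMap.trace_eq_matrix_trace A b,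
        LinearMap.trace_eq_matrix_trace A b (ρ.ρ σ)]
      show _ = w * ((LinearMap.toMatrixAlgEquiv b ((ρ.ρ σ₀ - 1) * ρ.ρ σ)).trace - (a : A) *
        (u * (M σ).trace - (LinearMap.toMatrixAlgEquiv b ((ρ.ρ σ₀ - 1) * ρ.ρ σ)).trace))
      rw [map_mul, hE]
      show _ = w * ((u • !![1, 0; 0, 0] * M σ).trace - (a : A) *
        (u * (M σ).trace - (u • !![1, 0; 0, 0] * M σ).trace))
      simp [Matrix.trace_fin_two, Matrix.vecMul, dotProduct, Fin.sum_univ_two]
      linear_combination -(M σ 0 0 - (a : A) * M σ 1 1) * hw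

section closed

omit hp in
/-- The mixed trace under base change. -/
lemma trace_mul_bc {B : Type} [CommRing B] [IsLocalRing B] (φ : A →+* B) (hφ : IsLocalHom φ)
    (ρ : GaloisRepAdic A) (σ τ : GalQ) :
    LinearMap.trace B _ (((ρ.baseChangeAlong φ hφ).ρ σ - 1) * (ρ.baseChangeAlong φ hφ).ρ τ) =
      φ (LinearMap.trace A ρ.V ((ρ.ρ σ - 1) * ρ.ρ τ)) := by
  rw [← trace_bcEnd φ hφ ρ, map_mul (bcEnd φ hφ ρ), map_sub (bcEnd φ hφ ρ),
    map_one (bcEnd φ hφ ρ)]
  rfl

/-- Inertia elements acting by squaring on `p`-th roots of unity. -/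
lemma exists_base (hp2 : p ≠ 2) (P : ValuationSubring (AlgebraicClosure ℚ)) (hP : P.LiesOverPrime p) :
    ∃ σ₀ ∈ P.inertiaSubgroupIn ℚ, IsExp p 1 σ₀ 2 :=
  FLTA.Galois.exists_inertia_apply_eq_pow p hP 1 2 fun h =>
    hp2 ((Nat.prime_dvd_prime_iff_eq hp.out Nat.prime_two).mp h)

variable (p) in
/-- Cyclotomic determinant and the equations at every place over `p`. -/
def StrictPred (hp2 : p ≠ 2) ⦃A : Type⦄ [CommRing A] [IsLocalRing A] (ρ : GaloisRepAdic A) : Prop :=
  ρ.DetIsCyclotomic p ∧ ∀ (P : ValuationSubring (AlgebraicClosure ℚ)) (hP : P.LiesOverPrime p),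
    StrictEq p P (exists_base hp2 P hP).choose ρ

lemma strictPred_iff (hp2 : p ≠ 2) (ρ : GaloisRepAdic A) :
    StrictPred p hp2 ρ ↔ ρ.DetIsCyclotomic p ∧ ρ.IsStrictOrdinaryAt p := by
  refine ⟨fun ⟨hc, h⟩ => ⟨hc, hc.1, fun P hP => line_of_strictEq
    (det_sub_one_isUnit hc (exists_base hp2 P hP).choose_spec.2) (h P hP)⟩,
    fun ⟨hc, h⟩ => ⟨hc, fun P hP => strictEq_of_line (exists_base hp2 P hP).choose_spec.1 h hP⟩⟩

variable {𝒪 : Type} [CommRing 𝒪] [IsLocalRing 𝒪] [Finite (ResidueField 𝒪)]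

theorem isClosed_strictPred (hp2 : p ≠ 2) :
    IsClosedCond 𝒪 fun _A _ _ _ ρ => StrictPred p hp2 ρ where
  of_isEquiv A _ _ _ ρ ρ' e h := by
    refine ⟨(isClosed_detCyclotomic (𝒪 := 𝒪) p).of_isEquiv e h.1, fun P hP => ?_⟩
    have hh := h.2 P hP
    obtain ⟨e⟩ := e
    set c := e.toLinearEquiv.conjRingEquiv
    have hc : ∀ σ, c (ρ.ρ σ) = ρ'.ρ σ := trace_mul_eq_of_isEquiv e
    have hcs : ∀ (a : A) f, c (a • f) = a • c f := fun a f =>
      (e.toLinearEquiv.conj).map_smul a f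
    have hct : ∀ f, LinearMap.trace A ρ'.V (c f) = LinearMap.trace A ρ.V f := fun f =>
      LinearMap.trace_conj' f e.toLinearEquiv
    have hd := det_eq_of_isEquiv ⟨e⟩
    have ht := trace_eq_of_isEquiv ⟨e⟩
    constructor
    · rw [← ht, ← hd]; exact hh.tr0
    · intro σ hσ
      rw [← hd, ← hc, ← hc, ← map_one c, ← map_sub, ← map_mul, ← map_mul, ← map_mul, ← hcs,
        ← map_sub, hh.stable σ hσ, map_zero]
    · intro σ hσ
      rw [← hd, ← hc, ← hc, ← map_one c, ← map_sub, ← map_sub, ← map_mul, ← hcs, ← map_sub,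
        hh.inertia σ hσ, map_zero]
    · intro σ hσ n a ha
      rw [← hd, ← ht, ← hc, ← hc, ← map_one c, ← map_sub, ← map_mul, hct]
      exact hh.ratio σ hσ n a ha
  baseChange A B _ _ _ _ _ _ hA hB φ hφ ρ h := by
    refine ⟨(isClosed_detCyclotomic (𝒪 := 𝒪) p).baseChange hA hB φ hφ h.1, fun P hP => ?_⟩
    have hh := h.2 P hP
    constructor
    · rw [trace_baseChangeAlong, det_baseChangeAlong, ← map_one (φ : A →+* B), ← map_add, ← map_sub,
        hh.tr0, map_zero]
    · intro σ hσ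
      rw [det_baseChangeAlong, ← bcEnd_rho, ← bcEnd_rho, ← map_one (φ : A →+* B),
        ← map_one (bcEnd (φ : A →+* B) hφ ρ), ← map_sub, ← map_sub, ← map_mul, ← bcEnd_smul,
        ← map_mul, ← map_mul, ← map_sub, hh.stable σ hσ, map_zero]
    · intro σ hσ
      rw [det_baseChangeAlong, ← bcEnd_rho, ← bcEnd_rho, ← map_one (φ : A →+* B),
        ← map_one (bcEnd (φ : A →+* B) hφ ρ), ← map_sub, ← map_sub, ← map_sub, ← map_mul,
        ← bcEnd_smul, ← map_sub, hh.inertia σ hσ, map_zero]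
    · intro σ hσ n a ha
      have := Ideal.mem_map_of_mem (φ : A →+* B) (hh.ratio σ hσ n a ha)
      rw [Ideal.map_span, Set.image_singleton, map_natCast] at this
      rw [det_baseChangeAlong, trace_baseChangeAlong, trace_mul_bc]
      simpa only [map_sub, map_mul, map_one, map_natCast] using this
  descend A B C _ _ _ _ _ _ _ _ _ hA hB hC f g hf hg hi ρ h h' := by
    have hdc := (isClosed_detCyclotomic (𝒪 := 𝒪) p).descend hA hB hC f g hf hg hi h.1 h'.1
    refine ⟨hdc, fun P hP => ?_⟩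
    haveI := hA.isArtinian
    have hh := h.2 P hP
    have hh' := h'.2 P hP
    constructor
    · refine hi _ ?_ ?_
      · simpa only [trace_baseChangeAlong, det_baseChangeAlong, RingHom.coe_coe, map_sub, map_add,
          map_one] using hh.tr0
      · simpa only [trace_baseChangeAlong, det_baseChangeAlong, RingHom.coe_coe, map_sub, map_add,
          map_one] using hh'.tr0
    · intro σ hσ
      refine eq_zero_of_pair (hf := hf) (hg := hg) hi ρ _ ?_ ?_
      · simpa only [map_sub, bcEnd_smul, map_mul, map_one, bcEnd_rho, det_baseChangeAlong] using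
          hh.stable σ hσ
      · simpa only [map_sub, bcEnd_smul, map_mul, map_one, bcEnd_rho, det_baseChangeAlong] using
          hh'.stable σ hσ
    · intro σ hσ
      refine eq_zero_of_pair (hf := hf) (hg := hg) hi ρ _ ?_ ?_
      · simpa only [map_sub, bcEnd_smul, map_mul, map_one, bcEnd_rho, det_baseChangeAlong] using
          hh.inertia σ hσ
      · simpa only [map_sub, bcEnd_smul, map_mul, map_one, bcEnd_rho, det_baseChangeAlong] using
          hh'.inertia σ hσ
    · intro σ hσ n a ha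
      haveI := hB.isArtinian
      haveI := hC.isArtinian
      obtain ⟨N₁, hN₁⟩ := exists_pow_eq_zero h.1.1
      obtain ⟨N₂, hN₂⟩ := exists_pow_eq_zero h'.1.1
      obtain ⟨m, hm⟩ : ∃ m, n ≤ m ∧ N₁ ≤ m ∧ N₂ ≤ m :=
        ⟨n + N₁ + N₂, by omega, by omega, by omega⟩
      obtain ⟨b, hb⟩ := exists_isExp (p := p) m σ
      have e1 := hh.ratio σ hσ m b hb
      have e2 := hh'.ratio σ hσ m b hb
      rw [hN₁ m hm.2.1, Ideal.span_singleton_zero, Ideal.mem_bot] at e1
      rw [hN₂ m hm.2.2, Ideal.span_singleton_zero, Ideal.mem_bot] at e2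
      set T := LinearMap.trace A ρ.V ((ρ.ρ (exists_base hp2 P hP).choose - 1) * ρ.ρ σ)
      set R := (LinearMap.det (ρ.ρ (exists_base hp2 P hP).choose) - 1) * ρ.trace σ - T
      have e : T - (b : A) * R = 0 := by
        refine hi _ ?_ ?_
        · rw [← e1]
          simp only [T, R, map_sub, map_mul, map_one, map_natCast, det_baseChangeAlong,
            trace_baseChangeAlong, trace_mul_bc, RingHom.coe_coe]
        · rw [← e2]
          simp only [T, R, map_sub, map_mul, map_one, map_natCast, det_baseChangeAlong,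
            trace_baseChangeAlong, trace_mul_bc, RingHom.coe_coe]
      rw [show T - (a : A) * R = ((b : A) - (a : A)) * R by linear_combination e]
      exact Ideal.mul_mem_right _ _ ((IsExp.mono hm.1 hb).sub_mem ha)
  limit A _ _ _ _ _ hl hs ρ h := by
    have hdc := (isClosed_detCyclotomic (𝒪 := 𝒪) p).limit hl hs ρ fun _ _ _ _ hB q hq hsq =>
      (h hB q hq hsq).1
    refine ⟨hdc, fun P hP => ?_⟩
    have hk := fun k => (forall_modPow (P := fun _ _ _ _ r => StrictPred p hp2 r) hl hs h k).2 P hP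
    constructor
    · refine (Submodule.mem_bot A).mp (mem_of_forall_modPow ⊥ _ fun k => ?_)
      haveI := isLocalRing_modPow A k
      have := (hk k).tr0
      simp only [trace_baseChangeAlong, det_baseChangeAlong] at this
      rw [Ideal.map_bot, Ideal.mem_bot]
      simpa only [map_sub, map_add, map_one] using this
    · intro σ hσ
      refine eq_zero_of_forall_modPow ρ _ fun k => ?_
      haveI := isLocalRing_modPow A k
      simpa only [map_sub, bcEnd_smul, map_mul, map_one, bcEnd_rho, det_baseChangeAlong] using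
        (hk k).stable σ hσ
    · intro σ hσ
      refine eq_zero_of_forall_modPow ρ _ fun k => ?_
      haveI := isLocalRing_modPow A k
      simpa only [map_sub, bcEnd_smul, map_mul, map_one, bcEnd_rho, det_baseChangeAlong] using
        (hk k).inertia σ hσ
    · intro σ hσ n a ha
      refine mem_of_forall_modPow _ _ fun k => ?_
      haveI := isLocalRing_modPow A k
      have := (hk k).ratio σ hσ n a ha
      rw [Ideal.map_span, Set.image_singleton, map_natCast]
      rw [det_baseChangeAlong, trace_baseChangeAlong, trace_mul_bc] at this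
      simpa only [map_sub, map_mul, map_one, map_natCast] using this

theorem isClosed_detCyclotomic_strictOrdinary (hp2 : p ≠ 2) :
    IsClosedCond 𝒪 fun _A _ _ _ ρ => ρ.DetIsCyclotomic p ∧ ρ.IsStrictOrdinaryAt p :=
  (isClosed_strictPred hp2).congr fun _ _ _ _ ρ => strictPred_iff hp2 ρ

end closed

end FLTA.RT
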