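import Fermat.Agent.RT.DeformFlat
import Fermat.Agent.RT.DeformStrict
import Fermat.Agent.Galois.Finiteness

/-!
The deformation conditions used in the Taylor–Wiles argument are deformation conditions with
finite tangent space.
-/

set_option autoImplicit false

noncomputable section

namespace FLTA.RT

open IsLocalRing GaloisRep FLTA.Deformation

variable (𝒪 : Type) [CommRing 𝒪] [IsLocalRing 𝒪] [Finite (ResidueField 𝒪)]

/-- `flatCondition` with unipotent inertia at the primes of `U`. -/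
abbrev flatCond (p : ℕ) (S U : Finset ℕ) : RepPred 𝒪 :=
  fun _A _ _ _ ρ => GaloisRep.flatCondition 𝒪 p S ρ ∧
    ∀ q ∈ U, q.Prime → q ≠ p → ρ.IsUnipotentOnInertiaAt q

/-- `strictOrdinaryCondition` with unipotent inertia at the primes of `U`. -/
abbrev strictCond (p : ℕ) (S U : Finset ℕ) : RepPred 𝒪 :=
  fun _A _ _ _ ρ => GaloisRep.strictOrdinaryCondition 𝒪 p S ρ ∧
    ∀ q ∈ U, q.Prime → q ≠ p → ρ.IsUnipotentOnInertiaAt q

lemma isClosed_unramifiedOutside (S : Finset ℕ) :
    IsClosedCond 𝒪 fun _A _ _ _ ρ => ∀ q : ℕ, q.Prime → q ∉ S → ρ.IsUnramifiedAt q :=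
  IsClosedCond.all fun q => IsClosedCond.all fun _ : q.Prime => IsClosedCond.all fun _ : q ∉ S =>
    isClosed_unramified q

lemma isClosed_unipotentOn (p : ℕ) (U : Finset ℕ) :
    IsClosedCond 𝒪 fun _A _ _ _ ρ => ∀ q ∈ U, q.Prime → q ≠ p → ρ.IsUnipotentOnInertiaAt q :=
  IsClosedCond.all fun q => IsClosedCond.all fun _ : q ∈ U => IsClosedCond.all fun _ : q.Prime =>
    IsClosedCond.all fun _ : q ≠ p => isClosed_unipotent q

variable (p : ℕ) [Fact p.Prime]

theorem isClosed_flatCond (S U : Finset ℕ) : IsClosedCond 𝒪 (flatCond 𝒪 p S U) :=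
  ((isClosed_detCyclotomic p).and ((isClosed_flat Fact.out).and (isClosed_unramifiedOutside 𝒪 S))).and
    (isClosed_unipotentOn 𝒪 p U)

theorem isDeformationCondition_flatCond (S U : Finset ℕ) :
    IsDeformationCondition 𝒪 (flatCond 𝒪 p S U) :=
  (isClosed_flatCond 𝒪 p S U).isDeformationCondition

theorem isDeformationCondition_minimalFlat (S : Finset ℕ) :
    IsDeformationCondition 𝒪 (GaloisRep.minimalFlatCondition 𝒪 p S) :=
  isDeformationCondition_flatCond 𝒪 p S S

theorem isClosed_strictCond (hp2 : p ≠ 2) (S U : Finset ℕ) :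
    IsClosedCond 𝒪 (strictCond 𝒪 p S U) :=
  (((isClosed_detCyclotomic_strictOrdinary hp2).and (isClosed_unramifiedOutside 𝒪 S)).congr
    fun _ _ _ _ ρ => and_assoc).and (isClosed_unipotentOn 𝒪 p U)

theorem isDeformationCondition_strictCond (hp2 : p ≠ 2) (S U : Finset ℕ) :
    IsDeformationCondition 𝒪 (strictCond 𝒪 p S U) :=
  (isClosed_strictCond 𝒪 p hp2 S U).isDeformationCondition

theorem isDeformationCondition_minimalStrict (hp2 : p ≠ 2) (S : Finset ℕ) :
    IsDeformationCondition 𝒪 (GaloisRep.minimalStrictOrdinaryCondition 𝒪 p S) :=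
  isDeformationCondition_strictCond 𝒪 p hp2 S S

variable {𝒪}

omit [Fact p.Prime] in
/-- A condition implying "unramified outside a finite set" has finite tangent space. -/
theorem tangentFinite_of_unramified (ρbar : ResidualGaloisRep (ResidueField 𝒪)) (S : Finset ℕ)
    (P : RepPred 𝒪) (hP : ∀ ⦃A : Type⦄ [CommRing A] [IsLocalRing A] [Algebra 𝒪 A]
      (ρ : GaloisRepAdic A), P ρ → ∀ q : ℕ, q.Prime → q ∉ S → ρ.IsUnramifiedAt q) :
    GaloisRep.TangentFinite 𝒪 ρbar P := by
  classical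
  unfold GaloisRep.TangentFinite
  letI := dualAlgebra 𝒪
  haveI : Finite (DualNumber (ResidueField 𝒪)) :=
    inferInstanceAs (Finite (ResidueField 𝒪 × ResidueField 𝒪))
  haveI : IsArtinianRing (DualNumber (ResidueField 𝒪)) := isArtinian_of_finite
  let S' : Finset Nat.Primes := S.subtype Nat.Prime
  let H := (Mat2 (DualNumber (ResidueField 𝒪)))ˣ
  have hfin := FLTA.Galois.finite_setOf_monoidHom_of_inertia S' H
  haveI := hfin.to_subtype
  refine Finite.of_injective (β := {f : GalQ →* H |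
    (∃ F : IntermediateField ℚ (AlgebraicClosure ℚ), FiniteDimensional ℚ F ∧
      ∀ s ∈ F.fixingSubgroup, f s = 1) ∧
      ∀ q : Nat.Primes, q ∉ S' → ∀ A : ValuationSubring (AlgebraicClosure ℚ),
        A.LiesOverPrime (q : ℕ) → ∀ s ∈ A.inertiaSubgroupIn ℚ, f s = 1})
    (fun c => ⟨(toMat c.out.1).toHomUnits, ?_, ?_⟩) ?_
  · obtain ⟨L, hL, h1⟩ := exists_level_eq_one_of_artinian c.out.1
    exact ⟨L, hL, fun s hs => Units.ext (h1 s fun x hx =>
      (IntermediateField.mem_fixingSubgroup_iff L s).mp hs x hx)⟩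
  · intro q hq A hA s hs
    have hq' : (q : ℕ) ∉ S := fun h => hq (Finset.mem_subtype.mpr h)
    refine Units.ext ?_
    show toMat c.out.1 s = 1
    rw [toMat_apply, hP _ c.out.2.1 q q.2 hq' A hA s hs]
    exact LinearMap.toMatrix_one _
  · intro c c' h
    rw [← Quotient.out_eq c, ← Quotient.out_eq c']
    refine Quotient.sound ?_
    have hh : ∀ σ, toMat c.out.1 σ = toMat c'.out.1 σ := fun σ => by
      exact congrArg (fun f : GalQ →* H => ((f σ : H) : Mat2 (DualNumber (ResidueField 𝒪))))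
        (congrArg Subtype.val h)
    obtain ⟨e, he⟩ := exists_equivariant_of_conj c.out.1.ρ c'.out.1.ρ (repBasis c.out.1)
      (repBasis c'.out.1) 1 fun σ => by
        simp only [inv_one, Units.val_one, one_mul, mul_one]
        exact hh σ
    exact ⟨⟨e, he⟩⟩

omit [Fact p.Prime] in
theorem tangentFinite_flatCond (ρbar : ResidualGaloisRep (ResidueField 𝒪)) (S U : Finset ℕ) :
    GaloisRep.TangentFinite 𝒪 ρbar (flatCond 𝒪 p S U) :=
  tangentFinite_of_unramified ρbar S _ fun _ _ _ _ _ h => h.1.2.2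

omit [Fact p.Prime] in
theorem tangentFinite_strictCond (ρbar : ResidualGaloisRep (ResidueField 𝒪)) (S U : Finset ℕ) :
    GaloisRep.TangentFinite 𝒪 ρbar (strictCond 𝒪 p S U) :=
  tangentFinite_of_unramified ρbar S _ fun _ _ _ _ _ h => h.1.2.2

end FLTA.RT
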