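import Fermat.Prelude.Def_CuspForm_HeckeLocal
import Fermat.Agent.Periods.IntegralStructure
import Fermat.Agent.Petersson.Reduced
import Fermat.Agent.Hecke.EigenChar

/-!
# The local Hecke algebra `heckeLocal` as coefficient ring of a Hecke-Galois datum

Algebraic properties of `CuspForm.heckeLocal N S O θ`: generation by the Hecke operators, residue
field, integral points, reducedness.
-/

set_option autoImplicit false

noncomputable section

open IsLocalRing CuspForm
open scoped TensorProduct

namespace FLTA.RT.Datum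

variable (N : ℕ) [NeZero N] (S : Set ℕ)
  (O : Type) [CommRing O] [IsDomain O] [IsDiscreteValuationRing O]
  [IsAdicComplete (maximalIdeal O) O]
  (θ : CuspForm.heckeAlgebra N 2 S →+* ResidueField O)

/-- Prelude's integrality hypothesis. -/
theorem factIntegral : Fact (CuspForm.HasIntegralStructure N 2) :=
  ⟨FLTA.Periods.hasIntegralStructure_two N⟩

attribute [local instance] factIntegral

set_option synthInstance.maxHeartbeats 400000
set_option maxHeartbeats 1000000

theorem pi_apply (t : CuspForm.heckeAlgebra N 2 S) :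
    heckeLocal.π N S O θ t
      = algebraMap (heckeBaseAlgebra N S O) (heckeLocal N S O θ)
          (latticeBaseChange N S O (1 ⊗ₜ t)) :=
  rfl

theorem latticeBaseChange_tmul_eq (a : O) (t : CuspForm.heckeAlgebra N 2 S) :
    algebraMap (heckeBaseAlgebra N S O) (heckeLocal N S O θ) (latticeBaseChange N S O (a ⊗ₜ t))
      = algebraMap O (heckeLocal N S O θ) a * heckeLocal.π N S O θ t := by
  have h : (a ⊗ₜ[ℤ] t : O ⊗[ℤ] CuspForm.heckeAlgebra N 2 S)
      = algebraMap O _ a * ((1 : O) ⊗ₜ t) := by
    rw [Algebra.TensorProduct.algebraMap_apply, Algebra.TensorProduct.tmul_mul_tmul, mul_one,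
      one_mul]
    rfl
  rw [h, map_mul, map_mul, latticeBaseChange_algebraMap, pi_apply,
    ← IsScalarTower.algebraMap_apply O (heckeBaseAlgebra N S O) (heckeLocal N S O θ)]

/-- `heckeLocal` is generated by the Hecke operators. -/
theorem adjoin_range_pi :
    Algebra.adjoin O (Set.range (heckeLocal.π N S O θ)) = ⊤ := by
  set A := Algebra.adjoin O (Set.range (heckeLocal.π N S O θ))
  have hbase : ∀ x, algebraMap (heckeBaseAlgebra N S O) (heckeLocal N S O θ) x ∈ A := by
    intro x
    obtain ⟨y, rfl⟩ := latticeBaseChange_surjective N S O x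
    induction y using TensorProduct.induction_on with
    | zero => simp only [map_zero]; exact zero_mem A
    | tmul a t =>
      rw [latticeBaseChange_tmul_eq]
      exact mul_mem (A.algebraMap_mem a) (Algebra.subset_adjoin ⟨t, rfl⟩)
    | add y z hy hz => simp only [map_add]; exact add_mem hy hz
  have : IsNoetherian O (heckeLocal N S O θ) := isNoetherian_of_isNoetherianRing_of_finite O _
  have : Module.Finite O A := Module.Finite.iff_fg.mpr (IsNoetherian.noetherian A.toSubmodule)
  have hint : (A.val.toRingHom).IsIntegral := fun z =>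
    (Algebra.IsIntegral.isIntegral (R := O) z).tower_top
  have hloc := hint.isLocalHom Subtype.val_injective
  refine eq_top_iff.mpr fun z _ => ?_
  obtain ⟨⟨x, s⟩, hz⟩ := IsLocalization.surj (heckeLocalSubmonoid N S O θ) z
  have hu : IsUnit (A.val.toRingHom ⟨_, hbase s⟩) :=
    IsLocalization.map_units (heckeLocal N S O θ) s
  obtain ⟨u, hu'⟩ := hloc.map_nonunit _ hu
  have hzu : z * (u : A) = algebraMap (heckeBaseAlgebra N S O) (heckeLocal N S O θ) x := by
    rw [hu']
    exact hz
  have : z = (algebraMap (heckeBaseAlgebra N S O) (heckeLocal N S O θ) x) * ((u⁻¹ : Aˣ) : A) := by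
    rw [← hzu, mul_assoc, ← MulMemClass.coe_mul, Units.mul_inv, OneMemClass.coe_one, mul_one]
  rw [this]
  exact mul_mem (hbase x) (SetLike.coe_mem _)

theorem residue_pi (t : CuspForm.heckeAlgebra N 2 S) :
    residue (heckeLocal N S O θ) (heckeLocal.π N S O θ t)
      = ResidueField.map (algebraMap O (heckeLocal N S O θ)) (θ t) := by
  obtain ⟨a, ha⟩ := residue_surjective (θ t)
  rw [← ha, ResidueField.map_residue, ← sub_eq_zero, ← map_sub, residue_eq_zero_iff]
  have hmem : ((1 : O) ⊗ₜ t - algebraMap O _ a : O ⊗[ℤ] CuspForm.heckeAlgebra N 2 S)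
      ∈ heckeCharKernel N S O θ := by
    rw [mem_heckeCharKernel_iff, map_sub, residualCharacter_tmul, residualCharacter_algebraMap,
      map_one, one_mul, ha, sub_self]
  have hI : latticeBaseChange N S O ((1 : O) ⊗ₜ t - algebraMap O _ a)
      ∈ heckeLocalIdeal N S O θ := Ideal.mem_map_of_mem _ hmem
  have h := (IsLocalization.AtPrime.to_map_mem_maximal_iff (heckeLocal N S O θ)
    (heckeLocalIdeal N S O θ) _).mpr hI
  rw [map_sub, map_sub, latticeBaseChange_algebraMap,
    ← IsScalarTower.algebraMap_apply O (heckeBaseAlgebra N S O) (heckeLocal N S O θ)] at h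
  exact h

theorem residue_surjective_pi :
    Function.Surjective (residue (heckeLocal N S O θ) ∘ algebraMap O (heckeLocal N S O θ)) := by
  intro z
  obtain ⟨x, rfl⟩ := residue_surjective z
  have hx : x ∈ Algebra.adjoin O (Set.range (heckeLocal.π N S O θ)) := by
    rw [adjoin_range_pi]; trivial
  induction hx using Algebra.adjoin_induction with
  | mem y hy =>
    obtain ⟨t, rfl⟩ := hy
    obtain ⟨a, ha⟩ := residue_surjective (θ t)
    exact ⟨a, by rw [residue_pi, ← ha, ResidueField.map_residue]; rfl⟩
  | algebraMap a => exact ⟨a, rfl⟩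
  | add x y _ _ hx hy =>
    obtain ⟨a, ha⟩ := hx
    obtain ⟨b, hb⟩ := hy
    exact ⟨a + b, by simp only [Function.comp_apply, map_add] at ha hb ⊢; rw [ha, hb]⟩
  | mul x y _ _ hx hy =>
    obtain ⟨a, ha⟩ := hx
    obtain ⟨b, hb⟩ := hy
    exact ⟨a * b, by simp only [Function.comp_apply, map_mul] at ha hb ⊢; rw [ha, hb]⟩

/-- Every lift of `θ` to `O` is a point of `heckeLocal`. -/
theorem exists_point (χ : CuspForm.heckeAlgebra N 2 S →+* O)
    (hχ : ∀ t, residue O (χ t) = θ t) :
    ∃ ψ : heckeLocal N S O θ →ₐ[O] O, ∀ t, ψ (heckeLocal.π N S O θ t) = χ t := by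
  let f : (O ⊗[ℤ] CuspForm.heckeAlgebra N 2 S) →ₐ[ℤ] O :=
    Algebra.TensorProduct.productMap (AlgHom.id ℤ O) χ.toIntAlgHom
  let e : (O ⊗[ℤ] CuspForm.heckeAlgebra N 2 S) ≃+* heckeBaseAlgebra N S O :=
    RingEquiv.ofBijective (latticeBaseChange N S O)
      ⟨latticeBaseChange_injective N S O (factIntegral N).out,
        latticeBaseChange_surjective N S O⟩
  let g : heckeBaseAlgebra N S O →+* O := f.toRingHom.comp e.symm.toRingHom
  have hg : ∀ y, g (latticeBaseChange N S O y) = f y := fun y =>
    congrArg f (e.symm_apply_apply y)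
  have hres : ∀ y, residue O (f y) = residualCharacter N S O θ y := by
    intro y
    induction y using TensorProduct.induction_on with
    | zero => simp only [map_zero]
    | tmul a t =>
      rw [residualCharacter_tmul, ← hχ, ← map_mul]
      rfl
    | add y z hy hz => rw [map_add, map_add, map_add, hy, hz]
  have hu : ∀ s : heckeLocalSubmonoid N S O θ, IsUnit (g s) := by
    rintro ⟨_, y, hy, rfl⟩
    show IsUnit (g (latticeBaseChange N S O y))
    rw [hg, ← residue_ne_zero_iff_isUnit, hres]
    exact fun h => Ideal.mem_primeCompl_iff.mp hy ((mem_heckeCharKernel_iff N S O θ y).mpr h)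
  let ψ : heckeLocal N S O θ →+* O := IsLocalization.lift hu
  refine ⟨{ ψ with commutes' := fun a => ?_ }, fun t => ?_⟩
  · show ψ (algebraMap O (heckeLocal N S O θ) a) = a
    rw [IsScalarTower.algebraMap_apply O (heckeBaseAlgebra N S O) (heckeLocal N S O θ),
      IsLocalization.lift_eq, ← latticeBaseChange_algebraMap, hg]
    show f (algebraMap O _ a) = a
    rw [Algebra.TensorProduct.algebraMap_apply]
    simp [f]
  · show ψ (heckeLocal.π N S O θ t) = χ t
    rw [pi_apply, IsLocalization.lift_eq, hg]
    simp [f]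

theorem flat_heckeLocal : Module.Flat O (heckeLocal N S O θ) := inferInstance

variable [CharZero O]

theorem isReduced_heckeLocal (hS : ∀ q : ℕ, q.Prime → q ∣ N → q ∈ S) :
    IsReduced (heckeLocal N S O θ) := by
  have := FLTA.Petersson.heckeAlgebra_isReduced N S hS
  have := flat_heckeLocal N S O θ
  have : Module.Finite ℤ (CuspForm.heckeAlgebra N 2 S) :=
    FLTA.Hecke.heckeAlgebra_finite_of_integralStructure one_le_two (factIntegral N).out
  exact FLTA.Petersson.isReduced_of_adjoin_eq_top (heckeLocal.π N S O θ)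
    (adjoin_range_pi N S O θ)

end FLTA.RT.Datum
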