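import Fermat.Agent.HeckeDatum.Recursion
import Fermat.Agent.Density.Frobenius
import Fermat.Agent.RepTheory.Carayol

/-!
# Comparing residual representations through Frobenius elements
-/

set_option autoImplicit false

noncomputable section

open IsLocalRing Polynomial

namespace FLTA.RT.Datum

local notation "GQ" => (AlgebraicClosure ℚ ≃ₐ[ℚ] AlgebraicClosure ℚ)

/-- The trace of a power of a two-dimensional endomorphism is a Lucas sequence. -/
theorem trace_pow_of_charpoly {k V : Type} [Field k] [AddCommGroup V] [Module k V]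
    [Module.Finite k V] (hV : Module.finrank k V = 2) {f : Module.End k V} {a d : k}
    (hf : f.charpoly = X ^ 2 - C a * X + C d) (n : ℕ) :
    LinearMap.trace k V (f ^ n) = FLTA.HeckeDatum.lucasSeq a d n := by
  obtain ⟨h1, h2⟩ := FLTA.RepTheory.trace_eq_of_charpoly hV hf
  let b := Module.finBasisOfFinrankEq k V hV
  rw [LinearMap.trace_eq_matrix_trace k b,
    show LinearMap.toMatrix b b (f ^ n) = LinearMap.toMatrixAlgEquiv b (f ^ n) from rfl, map_pow]
  exact FLTA.HeckeDatum.trace_pow_eq_lucasSeq _ a d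
    ((LinearMap.trace_eq_matrix_trace k b f).symm.trans h1) ((LinearMap.det_toMatrix b f).trans h2) n

/-- A representation over a local ring whose Frobenius characteristic polynomials reduce to those
of an absolutely irreducible residual representation is residually isomorphic to it. -/
theorem residual_isEquiv_of_frobenius {k : Type} [Field k] (ρbar : ResidualGaloisRep k)
    (hirr : ρbar.IsAbsolutelyIrreducible) (S : Finset ℕ) (c : ℕ → k)
    (hbar : ∀ ℓ : ℕ, ℓ.Prime → ℓ ∉ S →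
      ∀ A : ValuationSubring (AlgebraicClosure ℚ), A.LiesOverPrime ℓ →
        ∀ τ : GQ, A.IsFrobeniusAt τ ℓ →
          (ρbar.ρ τ).charpoly = X ^ 2 - C (c ℓ) * X + C (ℓ : k))
    {R : Type} [CommRing R] [IsLocalRing R] (ρ : GaloisRepAdic R) (j : k →+* ResidueField R)
    (a : ℕ → R) (ha : ∀ ℓ : ℕ, ℓ.Prime → ℓ ∉ S → residue R (a ℓ) = j (c ℓ))
    (hfrob : ∀ ℓ : ℕ, ℓ.Prime → ℓ ∉ S →
      ∀ A : ValuationSubring (AlgebraicClosure ℚ), A.LiesOverPrime ℓ →
        ∀ τ : GQ, A.IsFrobeniusAt τ ℓ →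
          (ρ.ρ τ).charpoly = X ^ 2 - C (a ℓ) * X + C (ℓ : R)) :
    (ρbar.baseChangeAlong j).IsEquiv ρ.residual := by
  refine FLTA.RepTheory.residual_isEquiv_of_trace_eq
    ((FLTA.RepTheory.isAbsolutelyIrreducible_baseChangeAlong_iff j ρbar).mpr hirr) fun σ => ?_
  let φ := (ρbar.baseChangeAlong j).ρ.prod ρ.residual.ρ
  have h := FLTA.Density.forall_of_frobenius φ
    (FLTA.Density.galoisFactorsThroughFiniteLevel_prod
      (ρbar.baseChangeAlong j).factorsThroughFiniteLevel ρ.residual.factorsThroughFiniteLevel)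
    S (fun m => ∀ n : ℕ, LinearMap.trace _ _ (m.1 ^ n) = LinearMap.trace _ _ (m.2 ^ n))
    (fun m i hm n => by
      rw [Prod.pow_fst, Prod.pow_snd, ← pow_mul, ← pow_mul]
      exact hm (i * n))
    (fun ℓ hℓ hℓS A hA τ hτ n => by
      have h1 : ((ρbar.baseChangeAlong j).ρ τ).charpoly
          = X ^ 2 - C (j (c ℓ)) * X + C (ℓ : ResidueField R) := by
        rw [FLTA.RepTheory.residual_charpoly_baseChangeAlong, hbar ℓ hℓ hℓS A hA τ hτ]
        simp
      have h2 : (ρ.residual.ρ τ).charpoly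
          = X ^ 2 - C (j (c ℓ)) * X + C (ℓ : ResidueField R) := by
        rw [FLTA.RepTheory.charpoly_residual, hfrob ℓ hℓ hℓS A hA τ hτ, ← ha ℓ hℓ hℓS]
        simp
      show LinearMap.trace _ _ ((ρbar.baseChangeAlong j).ρ τ ^ n)
        = LinearMap.trace _ _ (ρ.residual.ρ τ ^ n)
      rw [trace_pow_of_charpoly (ρbar.baseChangeAlong j).finrank_eq h1,
        trace_pow_of_charpoly ρ.residual.finrank_eq h2])
    σ
  simpa [φ] using h 1

theorem residual_isAbsolutelyIrreducible_of_frobenius {k : Type} [Field k]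
    (ρbar : ResidualGaloisRep k)
    (hirr : ρbar.IsAbsolutelyIrreducible) (S : Finset ℕ) (c : ℕ → k)
    (hbar : ∀ ℓ : ℕ, ℓ.Prime → ℓ ∉ S →
      ∀ A : ValuationSubring (AlgebraicClosure ℚ), A.LiesOverPrime ℓ →
        ∀ τ : GQ, A.IsFrobeniusAt τ ℓ →
          (ρbar.ρ τ).charpoly = X ^ 2 - C (c ℓ) * X + C (ℓ : k))
    {R : Type} [CommRing R] [IsLocalRing R] (ρ : GaloisRepAdic R) (j : k →+* ResidueField R)
    (a : ℕ → R) (ha : ∀ ℓ : ℕ, ℓ.Prime → ℓ ∉ S → residue R (a ℓ) = j (c ℓ))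
    (hfrob : ∀ ℓ : ℕ, ℓ.Prime → ℓ ∉ S →
      ∀ A : ValuationSubring (AlgebraicClosure ℚ), A.LiesOverPrime ℓ →
        ∀ τ : GQ, A.IsFrobeniusAt τ ℓ →
          (ρ.ρ τ).charpoly = X ^ 2 - C (a ℓ) * X + C (ℓ : R)) :
    ρ.residual.IsAbsolutelyIrreducible :=
  FLTA.RepTheory.isAbsolutelyIrreducible_of_isEquiv
    (residual_isEquiv_of_frobenius ρbar hirr S c hbar ρ j a ha hfrob)
    ((FLTA.RepTheory.isAbsolutelyIrreducible_baseChangeAlong_iff j ρbar).mpr hirr)

end FLTA.RT.Datum
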