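import Fermat.Prelude.Def_GaloisRep_ComplexConjugation
import Fermat.Agent.HeckeDatum.Recursion
import Fermat.Agent.Density.Frobenius
import Fermat.Agent.RepTheory.DVRExtension
import Fermat.Agent.RepTheory.Basic
import Fermat.Agent.GaloisReps.DetTrick
import Fermat.Agent.LevelRaising.Irreducible

/-!
# Traces of a family of representations over finite extensions of `O` descend to a finite
`O`-algebra containing the Frobenius traces
-/

set_option autoImplicit false

noncomputable section

open IsLocalRing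

namespace FLTA.RT.Datum

local notation "GQ" => (AlgebraicClosure ℚ ≃ₐ[ℚ] AlgebraicClosure ℚ)

/-- The cyclotomic character takes the value `-1` at complex conjugation. -/
theorem cycloPadic_complexConjugation (p : ℕ) [Fact p.Prime] :
    FLTA.GaloisReps.cycloPadic p complexConjugation = -1 := by
  have hsq : FLTA.GaloisReps.cycloPadic p complexConjugation
      * FLTA.GaloisReps.cycloPadic p complexConjugation = 1 := by
    rw [← map_mul, complexConjugation_mul_self, map_one]
  rcases mul_self_eq_one_iff.mp hsq with h | h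
  · exfalso
    -- some primitive root of order `p ^ 2` is moved
    have : NeZero (p ^ 2) := ⟨pow_ne_zero _ (Fact.out (p := p.Prime)).ne_zero⟩
    obtain ⟨ζ, hζ⟩ := HasEnoughRootsOfUnity.exists_primitiveRoot (AlgebraicClosure ℚ) (p ^ 2)
    have h1 := cyclotomicCharacter.spec (n := 2) p complexConjugation.toRingEquiv ζ hζ.pow_eq_one
    have h2 : ((cyclotomicCharacter (AlgebraicClosure ℚ) p complexConjugation.toRingEquiv :
        (ℤ_[p])ˣ) : ℤ_[p]) = 1 := h
    have hlt : 1 < p ^ 2 := Nat.one_lt_pow two_ne_zero (Fact.out (p := p.Prime)).one_lt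
    have : Fact (1 < p ^ 2) := ⟨hlt⟩
    rw [h2, map_one, ZMod.val_one, pow_one] at h1
    have h3 : complexConjugation ζ = ζ⁻¹ :=
      FLTA.LevelRaising.complexConjugation_rootOfUnity (NeZero.ne (p ^ 2)) hζ.pow_eq_one
    have h4 : ζ ^ 2 = 1 := by
      have h1' : complexConjugation ζ = ζ := h1
      rw [h1'] at h3
      rw [sq]
      nth_rewrite 2 [h3]
      exact mul_inv_cancel₀ (hζ.ne_zero (NeZero.ne (p ^ 2)))
    have h5 := Nat.le_of_dvd two_pos (hζ.dvd_of_pow_eq_one 2 h4)
    have h6 : 2 ≤ p := (Fact.out (p := p.Prime)).two_le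
    nlinarith
  · exact h

variable {O : Type} [CommRing O] [IsLocalRing O]

/-- In a finite extension every power of the maximal ideal of `O` contains a power of the maximal
ideal. -/
theorem exists_pow_maximalIdeal_le (E : FLTA.RepTheory.FiniteDVRExt O) {π : O} (hπ : π ≠ 0)
    (n : ℕ) : ∃ N : ℕ, maximalIdeal E.R ^ N ≤ Ideal.span {algebraMap O E.R π ^ n} := by
  obtain ⟨ϖ, hϖ⟩ := IsDiscreteValuationRing.exists_irreducible E.R
  have hne : algebraMap O E.R π ^ n ≠ 0 :=
    pow_ne_zero _ fun h => hπ (E.injective (by rw [h, map_zero]))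
  obtain ⟨N, u, hu⟩ := IsDiscreteValuationRing.eq_unit_mul_pow_irreducible hne hϖ
  refine ⟨N, ?_⟩
  rw [hϖ.maximalIdeal_eq, Ideal.span_singleton_pow, Ideal.span_singleton_le_span_singleton, hu]
  exact Units.mul_left_dvd.mpr dvd_rfl

variable (T : Type) [CommRing T] [Algebra O T] [Module.Finite O T]

/-- The rank of a submodule drops when it is intersected with the kernel of a functional into a
torsion-free module which does not vanish on it. -/
theorem finrank_inf_ker_lt {R M N : Type} [CommRing R] [IsDomain R] [IsPrincipalIdealRing R]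
    [AddCommGroup M] [Module R M] [Module.Finite R M] [AddCommGroup N] [Module R N]
    [Module.Finite R N] [Module.IsTorsionFree R N] (W : Submodule R M) (g : M →ₗ[R] N)
    (h : ∃ x ∈ W, g x ≠ 0) :
    Module.finrank R ↥(W ⊓ LinearMap.ker g) < Module.finrank R W := by
  obtain ⟨x, hx, hgx⟩ := h
  let f : W →ₗ[R] N := g ∘ₗ W.subtype
  have e := f.quotKerEquivRange.finrank_eq
  have hrn := Submodule.finrank_quotient_add_finrank (LinearMap.ker f)
  have : Nontrivial (LinearMap.range f) :=
    nontrivial_of_ne ⟨f ⟨x, hx⟩, LinearMap.mem_range_self f _⟩ 0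
      fun h0 => hgx (congrArg Subtype.val h0)
  have hpos : 0 < Module.finrank R (LinearMap.range f) := Module.finrank_pos
  have hker : (LinearMap.ker f).map W.subtype = W ⊓ LinearMap.ker g := by
    rw [LinearMap.ker_comp]
    exact Submodule.map_comap_subtype W _
  rw [← hker, Submodule.finrank_map_subtype_eq]
  omega

/-- A jointly injective set of functionals has a finite jointly injective subfamily. -/
theorem exists_finite_separating {R M N : Type} [CommRing R] [IsDomain R] [IsPrincipalIdealRing R]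
    [AddCommGroup M] [Module R M] [Module.Finite R M] [AddCommGroup N] [Module R N]
    [Module.Finite R N] [Module.IsTorsionFree R N] {Φ : Type} (g : Φ → (M →ₗ[R] N))
    (h : ∀ x : M, x ≠ 0 → ∃ φ, g φ x ≠ 0) :
    ∀ (d : ℕ) (W : Submodule R M), Module.finrank R W = d →
      ∃ (n : ℕ) (φ : Fin n → Φ), ∀ x ∈ W, (∀ i, g (φ i) x = 0) → x = 0 := by
  intro d
  induction d using Nat.strong_induction_on with
  | _ d ih =>
    intro W hW
    by_cases hW0 : W = ⊥
    · exact ⟨0, Fin.elim0, fun x hx _ => by rwa [hW0, Submodule.mem_bot] at hx⟩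
    · obtain ⟨x, hx, hx0⟩ := W.ne_bot_iff.mp hW0
      obtain ⟨φ₀, hφ₀⟩ := h x hx0
      obtain ⟨n, φ, hφ⟩ := ih _ (hW ▸ finrank_inf_ker_lt W (g φ₀) ⟨x, hx, hφ₀⟩) _ rfl
      refine ⟨n + 1, Fin.cons φ₀ φ, fun y hy hall => hφ y ⟨hy, ?_⟩ fun i => ?_⟩
      · simpa using hall 0
      · simpa using hall i.succ

/-- Jointly injective points have a finite jointly injective subfamily. -/
theorem exists_finite_points [IsDomain O] [IsPrincipalIdealRing O]
    (E : FLTA.RepTheory.FiniteDVRExt O)
    (h : ∀ t : T, t ≠ 0 → ∃ ψ : T →ₐ[O] E.R, ψ t ≠ 0) :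
    ∃ (n : ℕ) (ψ : Fin n → (T →ₐ[O] E.R)), ∀ t : T, (∀ i, ψ i t = 0) → t = 0 := by
  have : Module.IsTorsionFree O E.R :=
    Module.isTorsionFree_iff_algebraMap_injective.mpr E.injective
  obtain ⟨n, φ, hφ⟩ := exists_finite_separating (fun ψ : T →ₐ[O] E.R => ψ.toLinearMap)
    (fun x hx => h x hx) _ ⊤ rfl
  exact ⟨n, φ, fun t ht => hφ t Submodule.mem_top ht⟩

variable [IsDomain O] [IsNoetherianRing O]
  {ι : Type} [Finite ι] (E : ι → FLTA.RepTheory.FiniteDVRExt O) (ψ : ∀ i, T →ₐ[O] (E i).R)

/-- If the traces of a finite family of representations are, at Frobenius elements outside a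
finite set, images of one element of `T`, then so is every trace. -/
theorem exists_trace_descent (hπ : ∃ π : O, π ≠ 0 ∧ π ∈ maximalIdeal O)
    (ρ : ∀ i, GaloisRepAdic (E i).R) (S : Finset ℕ) (a : ℕ → T)
    (htr : ∀ i (ℓ : ℕ), ℓ.Prime → ℓ ∉ S →
      ∀ A : ValuationSubring (AlgebraicClosure ℚ), A.LiesOverPrime ℓ →
        ∀ τ : GQ, A.IsFrobeniusAt τ ℓ →
          (ρ i).trace τ = ψ i (a ℓ) ∧ LinearMap.det ((ρ i).ρ τ) = (ℓ : (E i).R))
    (σ : GQ) : ∃ x : T, ∀ i, ψ i x = (ρ i).trace σ := by
  classical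
  obtain ⟨π, hπ0, hπm⟩ := hπ
  let f : T →ₗ[O] (∀ i, (E i).R) := LinearMap.pi fun i => (ψ i).toLinearMap
  set y : ∀ i, (E i).R := fun i => (ρ i).trace σ with hy
  suffices hmem : y ∈ LinearMap.range f by
    obtain ⟨x, hx⟩ := hmem
    exact ⟨x, fun i => congrFun hx i⟩
  have : Module.Finite O (∀ i, (E i).R) := Module.Finite.pi
  have hq : (LinearMap.range f).mkQ y = 0 := by
    have hall : ∀ n : ℕ, (LinearMap.range f).mkQ y
        ∈ (maximalIdeal O ^ n) • (⊤ : Submodule O ((∀ i, (E i).R) ⧸ LinearMap.range f)) := by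
      intro n
      choose N hN using fun i => exists_pow_maximalIdeal_le (E i) hπ0 n
      choose L hL hL' using fun i => (ρ i).isAdicContinuous (N i)
      have : ∀ i, FiniteDimensional ℚ (L i) := hL
      have : Fintype ι := Fintype.ofFinite ι
      obtain ⟨ℓ, hℓ, hℓS, A, hA, τ, hτ, k, hk⟩ :=
        FLTA.Density.exists_frobenius_pow_eq (⨆ i, L i) S σ
      let x : T := FLTA.HeckeDatum.lucasSeq (a ℓ) (ℓ : T) k
      have hdiv : ∀ i, ∃ c : (E i).R, y i - ψ i x = algebraMap O (E i).R π ^ n * c := by
        intro i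
        let b := Module.finBasisOfFinrankEq (E i).R (ρ i).V (ρ i).finrank_eq
        let M := FLTA.RepTheory.matHom b (ρ i).ρ
        obtain ⟨ht, hd⟩ := htr i ℓ hℓ hℓS A hA τ hτ
        have hpow : (M τ ^ k).trace = ψ i x := by
          rw [FLTA.HeckeDatum.trace_pow_eq_lucasSeq (M τ) (ψ i (a ℓ)) (ℓ : (E i).R)
            (by rw [FLTA.RepTheory.matHom_trace]; exact ht)
            (by rw [FLTA.RepTheory.matHom_apply, LinearMap.det_toMatrix]; exact hd)]
          show _ = (ψ i).toRingHom _
          rw [FLTA.HeckeDatum.map_lucasSeq, map_natCast]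
          rfl
        have hsub : ∀ j, M σ j j - (M τ ^ k) j j ∈ maximalIdeal (E i).R ^ (N i) := by
          intro j
          rw [← map_pow]
          have h0 := hL' i (σ⁻¹ * τ ^ k) (fun z hz => by
            show σ⁻¹ ((τ ^ k) z) = z
            rw [hk z (le_iSup L i hz)]
            exact σ.symm_apply_apply z) (b j)
          have h1 := Submodule.mem_map_of_mem (f := (ρ i).ρ σ) h0
          rw [map_sub, ← Module.End.mul_apply, ← map_mul, mul_inv_cancel_left,
            Submodule.map_smul''] at h1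
          have h2 := Submodule.smul_mono le_rfl (le_top (a := Submodule.map ((ρ i).ρ σ) ⊤)) h1
          have h3 := FLTA.GaloisReps.repr_mem_of_mem_smul_top b _ h2 j
          rw [map_sub, Finsupp.sub_apply, ← Ideal.neg_mem_iff, neg_sub] at h3
          simpa [M, FLTA.RepTheory.matHom_apply, LinearMap.toMatrix_apply] using h3
        have hmem' : y i - ψ i x ∈ maximalIdeal (E i).R ^ (N i) := by
          rw [hy, ← hpow]
          show LinearMap.trace (E i).R (ρ i).V ((ρ i).ρ σ) - _ ∈ _
          rw [← FLTA.RepTheory.matHom_trace b]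
          simp only [Matrix.trace, Matrix.diag, ← Finset.sum_sub_distrib]
          exact Ideal.sum_mem _ fun j _ => hsub j
        obtain ⟨c, hc⟩ := Ideal.mem_span_singleton'.mp (hN i hmem')
        exact ⟨c, by rw [← hc, mul_comm]⟩
      choose c hc using hdiv
      have he : y = f x + π ^ n • c := funext fun i => by
        show y i = ψ i x + π ^ n • c i
        rw [Algebra.smul_def, map_pow, ← hc i]
        ring
      rw [he, map_add, Submodule.mkQ_apply _ (f x),
        (Submodule.Quotient.mk_eq_zero _).mpr (LinearMap.mem_range_self f x), zero_add, map_smul]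
      exact Submodule.smul_mem_smul (Ideal.pow_mem_pow hπm n) Submodule.mem_top
    have h' : (LinearMap.range f).mkQ y ∈
        ⨅ n : ℕ, (maximalIdeal O ^ n) • (⊤ : Submodule O ((∀ i, (E i).R) ⧸ LinearMap.range f)) :=
      Submodule.mem_iInf _ |>.mpr hall
    rwa [Ideal.iInf_pow_smul_eq_bot_of_isLocalRing _
      (maximalIdeal.isMaximal O).ne_top, Submodule.mem_bot] at h'
  exact (Submodule.Quotient.mk_eq_zero _).mp hq

end FLTA.RT.Datum
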