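import Fermat.Prelude.Def_CuspForm_HeckeGaloisRepDatum
import Fermat.Agent.RT.DatumLocal
import Fermat.Agent.RT.DatumTrace
import Fermat.Agent.RT.DatumResidual
import Fermat.Agent.RepTheory.Descent
import Fermat.Agent.GaloisReps.Attach

/-!
# Existence of the Hecke-Galois datum over `heckeLocal`

The representation with values in the localised Hecke algebra is glued from the representations
attached to its points.
-/

set_option autoImplicit false

noncomputable section

open IsLocalRing Polynomial CuspForm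
open scoped TensorProduct

namespace FLTA.RT.Datum

attribute [local instance] factIntegral

local notation "GQ" => (AlgebraicClosure ℚ ≃ₐ[ℚ] AlgebraicClosure ℚ)

section Algebra

/-- An `O`-algebra map from a finite local algebra to a local algebra is local. -/
theorem isLocalHom_of_algHom {O T R : Type*} [CommRing O] [IsLocalRing O] [CommRing T]
    [IsLocalRing T] [Algebra O T] [Algebra.IsIntegral O T] [CommRing R] [IsLocalRing R]
    [Algebra O R] [IsLocalHom (algebraMap O R)] (φ : T →ₐ[O] R) : IsLocalHom φ.toRingHom := by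
  have hprime : ((maximalIdeal R).comap φ.toRingHom).IsPrime := Ideal.comap_isPrime _ _
  have hc : ((maximalIdeal R).comap φ.toRingHom).comap (algebraMap O T) = maximalIdeal O := by
    ext a
    simp only [Ideal.mem_comap, mem_maximalIdeal, mem_nonunits_iff]
    show ¬ IsUnit (φ (algebraMap O T a)) ↔ _
    rw [φ.commutes]
    exact not_congr ⟨IsLocalHom.map_nonunit a, fun h => h.map _⟩
  have : ((maximalIdeal R).comap φ.toRingHom).IsMaximal :=
    Ideal.isMaximal_of_isIntegral_of_isMaximal_comap _ (hc ▸ maximalIdeal.isMaximal O)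
  have hm := IsLocalRing.eq_maximalIdeal this
  refine ⟨fun x hx => ?_⟩
  by_contra h
  have hmem : x ∈ (maximalIdeal R).comap φ.toRingHom := hm ▸ h
  exact hmem hx

/-- A finite extension of a finite extension. -/
def compExt {O : Type} [CommRing O] [IsLocalRing O] (E : FLTA.RepTheory.FiniteDVRExt O)
    (E' : FLTA.RepTheory.FiniteDVRExt E.R) : FLTA.RepTheory.FiniteDVRExt O :=
  letI : Algebra O E'.R := ((algebraMap E.R E'.R).comp (algebraMap O E.R)).toAlgebra
  haveI : IsScalarTower O E.R E'.R := IsScalarTower.of_algebraMap_eq fun _ => rfl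
  { R := E'.R
    instModuleFinite := Module.Finite.trans E.R E'.R
    instIsLocalHom := RingHom.isLocalHom_comp (algebraMap E.R E'.R) (algebraMap O E.R)
    injective := E'.injective.comp E.injective }

/-- The algebra map into a composed extension. -/
def toCompExt {O : Type} [CommRing O] [IsLocalRing O] (E : FLTA.RepTheory.FiniteDVRExt O)
    (E' : FLTA.RepTheory.FiniteDVRExt E.R) : E.R →ₐ[O] (compExt E E').R :=
  { algebraMap E.R E'.R with commutes' := fun _ => rfl }

theorem toCompExt_apply {O : Type} [CommRing O] [IsLocalRing O]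
    (E : FLTA.RepTheory.FiniteDVRExt O) (E' : FLTA.RepTheory.FiniteDVRExt E.R) (x : E.R) :
    toCompExt E E' x = algebraMap E.R E'.R x :=
  rfl

/-- An involution of determinant `-1` has trace zero. -/
theorem trace_eq_zero_of_involution {A : Type*} [CommRing A] (M : Matrix (Fin 2) (Fin 2) A)
    (hsq : M * M = 1) (hdet : M.det = -1) : M.trace = 0 := by
  have h00 := congrFun (congrFun hsq 0) 0
  have h01 := congrFun (congrFun hsq 0) 1
  have h10 := congrFun (congrFun hsq 1) 0
  have h11 := congrFun (congrFun hsq 1) 1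
  simp [Matrix.mul_apply, Fin.sum_univ_two] at h00 h01 h10 h11
  rw [Matrix.det_fin_two] at hdet
  rw [Matrix.trace_fin_two]
  have e1 : (M 0 0 + M 1 1) * M 0 0 = 0 := by linear_combination h00 + hdet
  have e2 : (M 0 0 + M 1 1) * M 1 1 = 0 := by linear_combination h11 + hdet
  have e3 : (M 0 0 + M 1 1) * M 0 1 = 0 := by linear_combination h01
  linear_combination (M 0 0 + M 1 1) * hdet - M 1 1 * e1 + M 1 0 * e3

/-- Divisibility in a jointly injective family bounds membership in powers of the maximal ideal. -/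
theorem exists_pow_bound {O T : Type} [CommRing O] [IsLocalRing O] [IsNoetherianRing O]
    [CommRing T] [IsLocalRing T] [Algebra O T] [IsLocalHom (algebraMap O T)]
    {ι : Type} [Finite ι] (E : ι → FLTA.RepTheory.FiniteDVRExt O)
    (φ : ∀ i, T →ₐ[O] (E i).R) (hinj : ∀ x, (∀ i, φ i x = 0) → x = 0)
    {π : O} (hπ : π ∈ maximalIdeal O) (n : ℕ) :
    ∃ N : ℕ, ∀ x, (∀ i, φ i x ∈ Ideal.span {algebraMap O (E i).R π ^ N}) →
      x ∈ maximalIdeal T ^ n := by
  classical
  let f : T →ₗ[O] (∀ i, (E i).R) := LinearMap.pi fun i => (φ i).toLinearMap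
  have : Module.Finite O (∀ i, (E i).R) := Module.Finite.pi
  obtain ⟨k, hk⟩ := (maximalIdeal O).exists_pow_inf_eq_pow_smul (LinearMap.range f)
  refine ⟨n + k, fun x hx => ?_⟩
  choose c hc using fun i => Ideal.mem_span_singleton'.mp (hx i)
  have hmem : f x ∈ (maximalIdeal O ^ (n + k)) • (⊤ : Submodule O (∀ i, (E i).R))
      ⊓ LinearMap.range f := by
    refine ⟨?_, LinearMap.mem_range_self f x⟩
    have he : f x = π ^ (n + k) • c := funext fun i => by
      show φ i x = π ^ (n + k) • c i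
      rw [Algebra.smul_def, map_pow, ← hc i, mul_comm]
    rw [he]
    exact Submodule.smul_mem_smul (Ideal.pow_mem_pow hπ _) Submodule.mem_top
  rw [hk (n + k) (Nat.le_add_left k n), Nat.add_sub_cancel] at hmem
  have h1 := Submodule.smul_mono (le_refl (maximalIdeal O ^ n))
    (inf_le_right : (maximalIdeal O ^ k) • (⊤ : Submodule O (∀ i, (E i).R)) ⊓ LinearMap.range f ≤ _)
    hmem
  rw [← Submodule.map_top, ← Submodule.map_smul''] at h1
  obtain ⟨y, hy, hyx⟩ := h1
  have : y = x := sub_eq_zero.mp (hinj _ fun i => by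
    rw [map_sub, sub_eq_zero]
    exact congrFun hyx i)
  subst this
  rw [Ideal.smul_top_eq_map] at hy
  replace hy : y ∈ (maximalIdeal O ^ n).map (algebraMap O T) := hy
  rw [Ideal.map_pow] at hy
  exact Ideal.pow_right_mono (Ideal.map_le_iff_le_comap.mpr fun a ha =>
    Ideal.mem_comap.mpr (map_nonunit _ a ha)) n hy

end Algebra

set_option synthInstance.maxHeartbeats 400000
set_option maxHeartbeats 1000000

section Points

variable {N : ℕ} [NeZero N] {S : Set ℕ}
  {O : Type} [CommRing O] [IsDomain O] [IsDiscreteValuationRing O]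
  [IsAdicComplete (maximalIdeal O) O]
  {θ : CuspForm.heckeAlgebra N 2 S →+* ResidueField O}
  {R : Type} [CommRing R] [IsLocalRing R] [Algebra O R] [IsLocalHom (algebraMap O R)]

/-- The character of every point reduces to `θ`. -/
theorem residue_point (ψ : heckeLocal N S O θ →ₐ[O] R) (t : CuspForm.heckeAlgebra N 2 S) :
    residue R (ψ (heckeLocal.π N S O θ t)) = ResidueField.map (algebraMap O R) (θ t) := by
  have := isLocalHom_of_algHom ψ
  obtain ⟨a, ha⟩ := residue_surjective (θ t)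
  have h : heckeLocal.π N S O θ t - algebraMap O _ a ∈ maximalIdeal (heckeLocal N S O θ) := by
    rw [← residue_eq_zero_iff, map_sub, residue_pi, ← ha, ResidueField.map_residue, sub_self]
  have h2 : ψ.toRingHom (heckeLocal.π N S O θ t - algebraMap O _ a) ∈ maximalIdeal R :=
    map_nonunit ψ.toRingHom _ h
  rw [← residue_eq_zero_iff, map_sub, map_sub, sub_eq_zero] at h2
  rw [← ha, ResidueField.map_residue]
  refine h2.trans (congrArg (residue R) ?_)
  exact ψ.commutes a

end Points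

section Exists

variable {p : ℕ} [Fact p.Prime] (N : ℕ) [NeZero N] (S : Finset ℕ)
  (O : Type) [CommRing O] [IsDomain O] [IsDiscreteValuationRing O]
  [IsAdicComplete (maximalIdeal O) O] [CharZero O] [Finite (ResidueField O)]
  (θ : CuspForm.heckeAlgebra N 2 (↑S : Set ℕ) →+* ResidueField O)

/-- **The Hecke-Galois datum over the localised Hecke algebra.** -/
theorem exists_heckeDatum (hp2 : p ≠ 2) (hpS : p ∈ S)
    (hNS : ∀ q : ℕ, q.Prime → q ∣ N → q ∈ S) (hpO : (p : O) ∈ maximalIdeal O)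
    (ρbar : ResidualGaloisRep (ResidueField O)) (hirr : ρbar.IsAbsolutelyIrreducible)
    (hbar : ∀ (ℓ : ℕ) (hℓ : ℓ.Prime) (hℓN : ¬ ℓ ∣ N) (hℓS : ℓ ∉ (↑S : Set ℕ)),
      ∀ A : ValuationSubring (AlgebraicClosure ℚ), A.LiesOverPrime ℓ →
        ∀ σ : GQ, A.IsFrobeniusAt σ ℓ →
          (ρbar.ρ σ).charpoly = X ^ 2 - C (θ (heckeAlgebra.T hℓ hℓN hℓS)) * X
            + C (ℓ : ResidueField O)) :
    ∃ D : HeckeGaloisRepDatum N (↑S : Set ℕ) O θ (heckeLocal N (↑S : Set ℕ) O θ),
      D.π = heckeLocal.π N (↑S : Set ℕ) O θ := by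
  classical
  let Λ := heckeLocal N (↑S : Set ℕ) O θ
  have := isReduced_heckeLocal N (↑S : Set ℕ) O θ hNS
  have := flat_heckeLocal N (↑S : Set ℕ) O θ
  obtain ⟨π₀, hπ₀⟩ := IsDiscreteValuationRing.exists_irreducible O
  have hπm : π₀ ∈ maximalIdeal O := by
    rw [hπ₀.maximalIdeal_eq]; exact Ideal.mem_span_singleton_self π₀
  -- finitely many separating points
  obtain ⟨E₀, hE₀⟩ := FLTA.RepTheory.exists_points_of_isReduced (O := O) Λ
  obtain ⟨n, ψ, hψ⟩ := exists_finite_points Λ E₀ hE₀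
  -- extend the characters to the full Hecke algebra
  have : Module.Finite ℤ (FLTA.GaloisReps.FullHecke N) := FLTA.GaloisReps.module_finite_fullHecke N
  let incl : CuspForm.heckeAlgebra N 2 (↑S : Set ℕ) →+* FLTA.GaloisReps.FullHecke N :=
    (Subalgebra.inclusion (heckeAlgebra_mono (Set.empty_subset _))).toRingHom
  choose E₁ Ψ hΨ using fun i => FLTA.RepTheory.exists_ext_character (O := E₀.R) incl
    (Subalgebra.inclusion_injective _) ((ψ i).toRingHom.comp (heckeLocal.π N (↑S : Set ℕ) O θ))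
  let E : Fin n → FLTA.RepTheory.FiniteDVRExt O := fun i => compExt E₀ (E₁ i)
  let φ : ∀ i, Λ →ₐ[O] (E i).R := fun i => (toCompExt E₀ (E₁ i)).comp (ψ i)
  have hinj : ∀ x, (∀ i, φ i x = 0) → x = 0 := fun x hx => hψ x fun i =>
    (E₁ i).injective (by rw [map_zero]; exact hx i)
  have hφloc : ∀ i, IsLocalHom (φ i).toRingHom := fun i => isLocalHom_of_algHom (φ i)
  -- the attached representations
  have hpE : ∀ i, (p : (E i).R) ∈ maximalIdeal (E i).R := fun i => by
    rw [← map_natCast (algebraMap O (E i).R)]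
    exact map_nonunit _ _ hpO
  choose ρ hρ hρu hρdet using fun i =>
    FLTA.GaloisReps.exists_galoisRepAdic_attached (O := (E i).R) (hpE i) (Ψ i)
  have hS' : ∀ ℓ : ℕ, ℓ.Prime → ℓ ∉ S → ¬ ℓ ∣ N := fun ℓ hℓ hℓS h => hℓS (hNS ℓ hℓ h)
  let a : ℕ → Λ := fun ℓ =>
    if h : ℓ.Prime ∧ ℓ ∉ S then
      heckeLocal.π N (↑S : Set ℕ) O θ (heckeAlgebra.T h.1 (hS' ℓ h.1 h.2) (fun hh => h.2 hh))
    else 0
  let c : ℕ → ResidueField O := fun ℓ =>
    if h : ℓ.Prime ∧ ℓ ∉ S then θ (heckeAlgebra.T h.1 (hS' ℓ h.1 h.2) (fun hh => h.2 hh)) else 0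
  have hbar' : ∀ ℓ : ℕ, ℓ.Prime → ℓ ∉ S →
      ∀ A : ValuationSubring (AlgebraicClosure ℚ), A.LiesOverPrime ℓ →
        ∀ τ : GQ, A.IsFrobeniusAt τ ℓ →
          (ρbar.ρ τ).charpoly = X ^ 2 - C (c ℓ) * X + C (ℓ : ResidueField O) := by
    intro ℓ hℓ hℓS A hA τ hτ
    rw [hbar ℓ hℓ (hS' ℓ hℓ hℓS) (fun hh => hℓS hh) A hA τ hτ]
    simp only [c, dif_pos (And.intro hℓ hℓS)]
  have hres : ∀ ℓ : ℕ, ℓ.Prime → ℓ ∉ S →
      residue Λ (a ℓ) = ResidueField.map (algebraMap O Λ) (c ℓ) := by
    intro ℓ hℓ hℓS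
    simp only [a, c, dif_pos (And.intro hℓ hℓS)]
    exact residue_pi _ _ _ _ _
  have hfrob : ∀ i (ℓ : ℕ), ℓ.Prime → ℓ ∉ S →
      ∀ A : ValuationSubring (AlgebraicClosure ℚ), A.LiesOverPrime ℓ →
        ∀ τ : GQ, A.IsFrobeniusAt τ ℓ →
          ((ρ i).ρ τ).charpoly = X ^ 2 - C (φ i (a ℓ)) * X + C (ℓ : (E i).R) := by
    intro i ℓ hℓ hℓS A hA τ hτ
    rw [hρ i ℓ hℓ (hS' ℓ hℓ hℓS) (fun h => hℓS (h ▸ hpS)) A hA τ hτ]
    simp only [a, dif_pos (And.intro hℓ hℓS)]
    congr 3
    have h := RingHom.congr_fun (hΨ i)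
      (heckeAlgebra.T hℓ (hS' ℓ hℓ hℓS) (fun hh => hℓS hh))
    exact congrArg C h
  have htr : ∀ i (ℓ : ℕ), ℓ.Prime → ℓ ∉ S →
      ∀ A : ValuationSubring (AlgebraicClosure ℚ), A.LiesOverPrime ℓ →
        ∀ τ : GQ, A.IsFrobeniusAt τ ℓ →
          (ρ i).trace τ = φ i (a ℓ) ∧ LinearMap.det ((ρ i).ρ τ) = (ℓ : (E i).R) :=
    fun i ℓ hℓ hℓS A hA τ hτ =>
      FLTA.RepTheory.trace_eq_of_charpoly (ρ i).finrank_eq (hfrob i ℓ hℓ hℓS A hA τ hτ)
  choose t ht using fun σ =>
    exists_trace_descent Λ E φ ⟨π₀, hπ₀.ne_zero, hπm⟩ ρ S a htr σ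
  -- matrices
  let b := fun i => Module.finBasisOfFinrankEq (E i).R (ρ i).V (ρ i).finrank_eq
  let M := fun i => FLTA.RepTheory.matHom (b i) (ρ i).ρ
  have htM : ∀ i σ, φ i (t σ) = (M i σ).trace := fun i σ => by
    rw [ht σ i, FLTA.RepTheory.matHom_trace]; rfl
  have hn : Nonempty (Fin n) := by
    by_contra h
    exact one_ne_zero (hψ 1 fun i => absurd ⟨i⟩ h)
  obtain ⟨i₀⟩ := id hn
  have hirrM : Submodule.span (E i₀).R (Set.range (M i₀)) = ⊤ := by
    refine (FLTA.RepTheory.spans_iff_matHom (b i₀) (ρ i₀).ρ).mp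
      ((FLTA.RepTheory.spans_iff_residual_isAbsolutelyIrreducible (ρ i₀)).mpr
        (residual_isAbsolutelyIrreducible_of_frobenius ρbar hirr S c hbar' (ρ i₀)
          (ResidueField.map (algebraMap O (E i₀).R)) (fun ℓ => φ i₀ (a ℓ)) (fun ℓ hℓ hℓS => ?_)
          (hfrob i₀)))
    simp only [a, c, dif_pos (And.intro hℓ hℓS)]
    exact residue_point (φ i₀) _
  have hconj : ∀ i, (M i complexConjugation).trace = 0 := fun i => by
    refine trace_eq_zero_of_involution _ ?_ ?_
    · rw [← map_mul, complexConjugation_mul_self, map_one]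
    · rw [FLTA.RepTheory.matHom_apply, LinearMap.det_toMatrix, hρdet i,
        cycloPadic_complexConjugation, map_neg, map_one]
  have h2 : IsUnit (2 : Λ) := by
    by_contra h
    obtain ⟨k, hk⟩ := (Fact.out (p := p.Prime)).odd_of_ne_two hp2
    have hpΛ : (p : Λ) ∈ maximalIdeal Λ := by
      rw [← map_natCast (algebraMap O Λ)]
      exact map_nonunit _ _ hpO
    rw [hk, Nat.cast_add, Nat.cast_mul, Nat.cast_one] at hpΛ
    have h2m : (2 : Λ) ∈ maximalIdeal Λ := h
    have h1 := sub_mem hpΛ (Ideal.mul_mem_right (k : Λ) _ h2m)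
    rw [Nat.cast_ofNat, add_sub_cancel_left] at h1
    exact (maximalIdeal.isMaximal Λ).ne_top ((Ideal.eq_top_iff_one _).mpr h1)
  obtain ⟨Nm, hNm⟩ := FLTA.RepTheory.exists_descent_of_involution
    (A := fun i => (E i).R) (fun i => (φ i).toRingHom) hφloc
    (fun x y h => sub_eq_zero.mp (hinj _ fun i => by
      rw [map_sub, sub_eq_zero]; exact congrFun h i))
    M t htM h2 complexConjugation_mul_self
    (hinj _ fun i => by rw [htM, hconj]) i₀ hirrM
  let r : GQ →* Module.End Λ (Fin 2 → Λ) :=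
    (Matrix.toLinAlgEquiv' (R := Λ) (n := Fin 2)).toAlgHom.toRingHom.toMonoidHom.comp Nm
  have hr : ∀ σ, FLTA.RepTheory.matHom (Pi.basisFun Λ (Fin 2)) r σ = Nm σ := fun σ => by
    rw [FLTA.RepTheory.matHom_apply, LinearMap.toMatrix_eq_toMatrix']
    exact LinearMap.toMatrix'_toLin' (Nm σ)
  have hcont : GaloisActionIsAdicContinuous Λ r := by
    refine FLTA.RepTheory.isAdicContinuous_of_matrix (Pi.basisFun Λ (Fin 2)) r fun m => ?_
    obtain ⟨K, hK⟩ := exists_pow_bound E φ hinj hπm m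
    choose K' hK' using fun i => exists_pow_maximalIdeal_le (E i) hπ₀.ne_zero K
    choose L hL hL' using fun i => (ρ i).isAdicContinuous (K' i)
    have : ∀ i, FiniteDimensional ℚ (L i) := hL
    refine ⟨⨆ i, L i, inferInstance, fun σ hσ j l => hK _ fun i => hK' i ?_⟩
    obtain ⟨P, hP⟩ := hNm i
    let q := (Ideal.Quotient.mk (maximalIdeal (E i).R ^ K' i)).mapMatrix (m := Fin 2)
    have hM1 : q (M i σ) = 1 := by
      ext u v
      have h0 := hL' i σ (fun z hz => hσ z (le_iSup L i hz)) (b i v)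
      have h3 := FLTA.GaloisReps.repr_mem_of_mem_smul_top (b i) _ h0 u
      rw [← Ideal.Quotient.eq_zero_iff_mem, map_sub, Finsupp.sub_apply, map_sub, sub_eq_zero,
        (b i).repr_self, Finsupp.single_apply] at h3
      simp only [q, RingHom.mapMatrix_apply, Matrix.map_apply, M, FLTA.RepTheory.matHom_apply,
        LinearMap.toMatrix_apply, h3, Matrix.one_apply]
      rcases eq_or_ne u v with h | h
      · rw [if_pos h, if_pos h.symm, map_one]
      · rw [if_neg h, if_neg h.symm, map_zero]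
    have hN1 : q ((Nm σ).map (φ i)) = 1 := by
      have h := congrArg q (hP σ)
      rw [map_mul, map_mul, hM1, mul_one, ← map_mul, Units.mul_inv, map_one] at h
      exact h
    rw [hr]
    have h4 := congrFun (congrFun hN1 j) l
    simp only [q, RingHom.mapMatrix_apply, Matrix.map_apply] at h4
    rw [map_sub, ← Ideal.Quotient.eq_zero_iff_mem, map_sub, h4, Matrix.one_apply, Matrix.one_apply]
    split <;> simp
  let R₀ : GaloisRepAdic Λ :=
    { V := Fin 2 → Λ, finrank_eq := Module.finrank_fin_fun Λ, ρ := r, isAdicContinuous := hcont }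
  have hcp : ∀ ℓ : ℕ, ℓ.Prime → ℓ ∉ S →
      ∀ A : ValuationSubring (AlgebraicClosure ℚ), A.LiesOverPrime ℓ →
        ∀ τ : GQ, A.IsFrobeniusAt τ ℓ →
          (R₀.ρ τ).charpoly = X ^ 2 - C (a ℓ) * X + C (ℓ : Λ) := by
    intro ℓ hℓ hℓS A hA τ hτ
    show (r τ).charpoly = _
    rw [← LinearMap.charpoly_toMatrix (r τ) (Pi.basisFun Λ (Fin 2)),
      ← FLTA.RepTheory.matHom_apply, hr]
    refine sub_eq_zero.mp (Polynomial.ext fun k => hinj _ fun i => ?_)
    obtain ⟨P, hP⟩ := hNm i
    rw [coeff_sub, map_sub, sub_eq_zero]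
    show (φ i).toRingHom ((Nm τ).charpoly.coeff k) = (φ i).toRingHom _
    rw [← coeff_map, ← coeff_map, ← Matrix.charpoly_map,
      show (Nm τ).map (φ i).toRingHom = _ from hP τ, Matrix.coe_units_inv, Matrix.charpoly_units_conj]
    simp only [Polynomial.map_add, Polynomial.map_sub, Polynomial.map_mul, Polynomial.map_pow,
      map_X, map_C]
    rw [FLTA.RepTheory.matHom_apply, LinearMap.charpoly_toMatrix, hfrob i ℓ hℓ hℓS A hA τ hτ]
    have hl : (φ i).toRingHom (ℓ : Λ) = (ℓ : (E i).R) := map_natCast _ _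
    rw [hl]
    rfl
  refine ⟨{
    π := heckeLocal.π N (↑S : Set ℕ) O θ
    residue_π := residue_pi _ _ _ _
    adjoin_range_π := adjoin_range_pi _ _ _ _
    exists_point := exists_point _ _ _ _
    residue_surjective := residue_surjective_pi _ _ _ _
    ρ := R₀
    charpoly_frob := fun ℓ hℓ hℓN hℓS A hA τ hτ => ?_
    residual_absIrr := residual_isAbsolutelyIrreducible_of_frobenius ρbar hirr S c hbar' R₀
      (ResidueField.map (algebraMap O Λ)) a hres hcp }, rfl⟩
  rw [hcp ℓ hℓ (fun hh => hℓS hh) A hA τ hτ]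
  simp only [a, dif_pos (And.intro hℓ (fun hh : ℓ ∈ S => hℓS hh))]

end Exists

end FLTA.RT.Datum
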