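import Fermat.Agent.RT.DeformFlat
import Fermat.Agent.RepTheory.Basic
import Fermat.Prelude.Def_GaloisRep_LocalConditions

/-!
# The local conditions along an extension of coefficients

Flatness, ordinarity and unipotent inertia pass along any local map of coefficient rings with
finite residue field.
-/

set_option autoImplicit false
set_option linter.style.haveILetI false

noncomputable section

namespace FLTA.RT

open IsLocalRing GaloisRep FLTA.Deformation
open FLTA.HeckeDatum (HasFlatModel levelHom finite_level)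
open scoped TensorProduct

variable {p : ℕ} {A B : Type} [CommRing A] [IsLocalRing A] [CommRing B] [IsLocalRing B]
  (ρ : GaloisRepAdic A) (φ : A →+* B) (hφ : IsLocalHom φ)

/-- Flatness along an extension of coefficients. -/
theorem isFlatAt_extend [Finite (ResidueField B)] (hp : p.Prime) (h : ρ.IsFlatAt p) :
    (ρ.baseChangeAlong φ hφ).IsFlatAt p := by
  refine (isFlatAt_iff _ hp).mpr ⟨inferInstance, fun J hJ => ?_⟩
  classical
  let _ : Algebra A B := φ.toAlgebra
  let I : Ideal A := J.comap φ
  haveI hfin : Finite (A ⧸ I) :=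
    Finite.of_injective (Ideal.quotientMap J φ (le_refl I)) Ideal.quotientMap_injective
  haveI := finite_level ρ I hfin
  haveI := finite_level (ρ.baseChangeAlong φ hφ) J hJ
  haveI := hJ
  haveI := Fintype.ofFinite (B ⧸ J)
  have hm := ((isFlatAt_iff ρ hp).mp h).2 I hfin
  let P := ρ.V ⧸ (I • (⊤ : Submodule A ρ.V))
  let actι : GalQ →* AddMonoid.End ((B ⧸ J) → P) :=
    { toFun := fun σ =>
        { toFun := fun x b => levelHom ρ I σ (x b)
          map_zero' := funext fun _ => map_zero _
          map_add' := fun x y => funext fun _ => map_add _ _ _ }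
      map_one' := AddMonoidHom.ext fun x => funext fun b => by
        show levelHom ρ I 1 (x b) = _
        rw [map_one]; rfl
      map_mul' := fun σ τ => AddMonoidHom.ext fun x => funext fun b => by
        show levelHom ρ I (σ * τ) (x b) = _
        rw [map_mul]; rfl }
  let K : Submodule B (B ⊗[A] ρ.V) := J • ⊤
  let mk : B ⊗[A] ρ.V →ₗ[A] (B ⊗[A] ρ.V) ⧸ K := K.mkQ.restrictScalars A
  let t : B ⧸ J → P →ₗ[A] (B ⊗[A] ρ.V) ⧸ K := fun b =>
    Submodule.liftQ _ (mk.comp ((TensorProduct.mk A B ρ.V) (Quotient.out b))) (by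
      rw [Submodule.smul_le]
      intro a ha v _
      rw [LinearMap.mem_ker, LinearMap.comp_apply, TensorProduct.mk_apply, TensorProduct.tmul_smul,
        TensorProduct.smul_tmul', Algebra.smul_def]
      refine (Submodule.Quotient.mk_eq_zero K).mpr ?_
      rw [← mul_one (algebraMap A B a * Quotient.out b)]
      rw [← smul_eq_mul, ← TensorProduct.smul_tmul']
      exact Submodule.smul_mem_smul (Ideal.mul_mem_right _ _ ha) Submodule.mem_top)
  let F : ((B ⧸ J) → P) →+ (ρ.baseChangeAlong φ hφ).V ⧸
      (J • (⊤ : Submodule B (ρ.baseChangeAlong φ hφ).V)) :=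
    { toFun := fun x => ∑ b, t b (x b)
      map_zero' := Finset.sum_eq_zero fun b _ => map_zero _
      map_add' := fun x y => by
        simp only [Pi.add_apply, map_add]
        exact Finset.sum_add_distrib }
  refine (hm.pi hp (actι := actι) fun _ _ _ => rfl).of_surjective hp F ?_ ?_
  · intro y
    obtain ⟨y, rfl⟩ := Submodule.Quotient.mk_surjective _ y
    change B ⊗[A] ρ.V at y
    induction y using TensorProduct.induction_on with
    | zero => exact ⟨0, map_zero F⟩
    | tmul b v =>
      refine ⟨(Pi.single (Ideal.Quotient.mk J b) (Submodule.Quotient.mk v) : (B ⧸ J) → P), ?_⟩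
      show ∑ c, t c ((Pi.single (Ideal.Quotient.mk J b) (Submodule.Quotient.mk v) :
        (B ⧸ J) → P) c) = _
      rw [Finset.sum_eq_single (Ideal.Quotient.mk J b)
        (fun c _ hc => by rw [Pi.single_eq_of_ne hc, map_zero])
        (fun h => absurd (Finset.mem_univ _) h), Pi.single_eq_same]
      refine (Submodule.Quotient.eq K).mpr ?_
      show (Quotient.out (Ideal.Quotient.mk J b)) ⊗ₜ[A] v - b ⊗ₜ[A] v ∈ K
      rw [← TensorProduct.sub_tmul, ← mul_one (Quotient.out (Ideal.Quotient.mk J b) - b),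
        ← smul_eq_mul, ← TensorProduct.smul_tmul']
      refine Submodule.smul_mem_smul ?_ Submodule.mem_top
      rw [← Ideal.Quotient.eq, Ideal.Quotient.mk_out]
    | add y z hy hz =>
      obtain ⟨x, hx⟩ := hy
      obtain ⟨x', hx'⟩ := hz
      exact ⟨x + x', by rw [map_add, hx, hx']; rfl⟩
  · intro σ x
    show ∑ b, t b (levelHom ρ I σ (x b)) =
      levelHom (ρ.baseChangeAlong φ hφ) J σ (∑ b, t b (x b))
    refine Eq.trans ?_ (map_sum (levelHom (ρ.baseChangeAlong φ hφ) J σ) _ _).symm
    refine Finset.sum_congr rfl fun b _ => ?_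
    obtain ⟨v, hv⟩ := Submodule.Quotient.mk_surjective _ (x b)
    rw [← hv]
    exact congrArg (Submodule.Quotient.mk (p := K))
      (LinearMap.baseChange_tmul (ρ.ρ σ) (Quotient.out b) v).symm

/-- Ordinarity along an extension of coefficients. -/
theorem isOrdinaryAt_extend (h : ρ.IsOrdinaryAt p) :
    (ρ.baseChangeAlong φ hφ).IsOrdinaryAt p := by
  intro P hP
  obtain ⟨L, ⟨b, rfl⟩, hD, hI⟩ := h P hP
  let _ : Algebra A B := φ.toAlgebra
  let b' : Module.Basis (Fin 2) B (B ⊗[A] ρ.V) := Algebra.TensorProduct.basis B b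
  let L' : Submodule B (B ⊗[A] ρ.V) := Submodule.span B {b' 0}
  have h0 : b' 0 = (1 : B) ⊗ₜ[A] b 0 := Algebra.TensorProduct.basis_apply _ _
  have hmem : ∀ (x : B), ∀ v ∈ Submodule.span A {b 0}, x ⊗ₜ[A] v ∈ L' := by
    intro x v hv
    obtain ⟨c, rfl⟩ := Submodule.mem_span_singleton.mp hv
    refine Submodule.mem_span_singleton.mpr ⟨c • x, ?_⟩
    rw [h0, TensorProduct.smul_tmul', smul_eq_mul, mul_one, TensorProduct.tmul_smul]
    rfl
  have key1 : ∀ σ ∈ P.decompositionSubgroup ℚ, ∀ v ∈ L', (ρ.ρ σ).baseChange B v ∈ L' := by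
    intro σ hσ v hv
    obtain ⟨c, rfl⟩ := Submodule.mem_span_singleton.mp hv
    rw [map_smul]
    refine Submodule.smul_mem _ _ ?_
    rw [h0, LinearMap.baseChange_tmul]
    exact hmem 1 _ (hD σ hσ _ (Submodule.mem_span_singleton_self _))
  have key2 : ∀ σ ∈ P.inertiaSubgroupIn ℚ, ∀ v : B ⊗[A] ρ.V, (ρ.ρ σ).baseChange B v - v ∈ L' := by
    intro σ hσ v
    induction v using TensorProduct.induction_on with
    | zero => simp
    | tmul x w =>
      rw [LinearMap.baseChange_tmul, ← TensorProduct.tmul_sub]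
      exact hmem x _ (hI σ hσ w)
    | add y z hy hz =>
      rw [map_add, add_sub_add_comm]
      exact add_mem hy hz
  exact ⟨L', ⟨b', rfl⟩, key1, key2⟩

/-- Unipotent inertia along an extension of coefficients. -/
theorem isUnipotentOnInertiaAt_extend {q : ℕ} (h : ρ.IsUnipotentOnInertiaAt q) :
    (ρ.baseChangeAlong φ hφ).IsUnipotentOnInertiaAt q := fun P hP σ hσ => by
  rw [RepTheory.charpoly_baseChangeAlong, h P hP σ hσ]
  simp

end FLTA.RT
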