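import Fermat.Agent.RT.DeformConditions

/-!
With cyclotomic determinant at an odd prime `p`, ordinarity is cut out by the equations of
`RT.DeformStrict` without the ratio equation, and is a closed condition.
-/

set_option autoImplicit false

noncomputable section

namespace FLTA.RT

open IsLocalRing GaloisRep FLTA.Deformation

variable {A : Type} [CommRing A] [IsLocalRing A]

/-- The equations cutting out ordinarity at the place `P` relative to `σ₀`. -/
structure OrdEq (P : ValuationSubring (AlgebraicClosure ℚ)) (σ₀ : GalQ)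
    (ρ : GaloisRepAdic A) : Prop where
  tr0 : ρ.trace σ₀ - (1 + LinearMap.det (ρ.ρ σ₀)) = 0
  stable : ∀ σ ∈ P.decompositionSubgroup ℚ,
    (LinearMap.det (ρ.ρ σ₀) - 1) • (ρ.ρ σ * (ρ.ρ σ₀ - 1)) -
      (ρ.ρ σ₀ - 1) * ρ.ρ σ * (ρ.ρ σ₀ - 1) = 0
  inertia : ∀ σ ∈ P.inertiaSubgroupIn ℚ,
    (LinearMap.det (ρ.ρ σ₀) - 1) • (ρ.ρ σ - 1) - (ρ.ρ σ₀ - 1) * (ρ.ρ σ - 1) = 0

variable {p : ℕ} [hp : Fact p.Prime]

omit hp in
/-- The triangular basis gives the equations. -/
lemma ordEq_of_line {ρ : GaloisRepAdic A} {P : ValuationSubring (AlgebraicClosure ℚ)}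
    {σ₀ : GalQ} (h₀ : σ₀ ∈ P.inertiaSubgroupIn ℚ) (hs : ρ.IsOrdinaryAt p)
    (hP : P.LiesOverPrime p) : OrdEq P σ₀ ρ := by
  obtain ⟨L, ⟨b, rfl⟩, hD, hI⟩ := hs P hP
  let M : GalQ → Mat2 A := fun σ => LinearMap.toMatrixAlgEquiv b (ρ.ρ σ)
  have line : ∀ v ∈ Submodule.span A {b 0}, b.repr v 1 = 0 := fun v hv => by
    obtain ⟨c, rfl⟩ := Submodule.mem_span_singleton.mp hv
    simp
  have mem0 : b 0 ∈ Submodule.span A {b 0} := Submodule.mem_span_singleton_self _
  have m10 : ∀ σ ∈ P.decompositionSubgroup ℚ, M σ 1 0 = 0 := fun σ hσ => by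
    simpa [M, LinearMap.toMatrixAlgEquiv_apply] using line _ (hD σ hσ _ mem0)
  have i1 : ∀ σ ∈ P.inertiaSubgroupIn ℚ, M σ 1 0 = 0 ∧ M σ 1 1 = 1 := fun σ hσ => by
    have h0 := line _ (hI σ hσ (b 0))
    have h1 := line _ (hI σ hσ (b 1))
    simp [sub_eq_zero] at h0 h1
    exact ⟨by simpa [M, LinearMap.toMatrixAlgEquiv_apply] using h0,
      by simpa [M, LinearMap.toMatrixAlgEquiv_apply] using h1⟩
  obtain ⟨h010, h011⟩ := i1 σ₀ h₀
  have hdet : ∀ σ, LinearMap.det (ρ.ρ σ) = (M σ).det := fun σ =>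
    (LinearMap.det_toMatrix b (ρ.ρ σ)).symm
  have htr : ∀ f : Module.End A ρ.V,
      LinearMap.trace A ρ.V f = (LinearMap.toMatrixAlgEquiv b f).trace :=
    fun f => LinearMap.trace_eq_matrix_trace A b f
  constructor
  · rw [GaloisRepAdic.trace, htr, hdet]
    show (M σ₀).trace - _ = 0
    rw [Matrix.trace_fin_two, Matrix.det_fin_two, h010, h011]
    ring
  · intro σ hσ
    apply (LinearMap.toMatrixAlgEquiv b).injective
    simp only [map_sub, map_smul, map_mul, map_one, map_zero, hdet]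
    show ((M σ₀).det - 1) • (M σ * (M σ₀ - 1)) - (M σ₀ - 1) * M σ * (M σ₀ - 1) = 0
    ext i j
    fin_cases i <;> fin_cases j <;>
      simp [Matrix.mul_apply, Matrix.det_fin_two, Fin.sum_univ_two, h010, h011, m10 σ hσ] <;> ring
  · intro σ hσ
    obtain ⟨a, a'⟩ := i1 σ hσ
    apply (LinearMap.toMatrixAlgEquiv b).injective
    simp only [map_sub, map_smul, map_mul, map_one, map_zero, hdet]
    show ((M σ₀).det - 1) • (M σ - 1) - (M σ₀ - 1) * (M σ - 1) = 0
    ext i j
    fin_cases i <;> fin_cases j <;>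
      simp [Matrix.mul_apply, Matrix.det_fin_two, Fin.sum_univ_two, h010, h011, a, a'] <;> ring

omit hp in
/-- The equations give the triangular basis. -/
lemma line_of_ordEq {ρ : GaloisRepAdic A} {P : ValuationSubring (AlgebraicClosure ℚ)}
    {σ₀ : GalQ} (hu : IsUnit (LinearMap.det (ρ.ρ σ₀) - 1)) (h : OrdEq P σ₀ ρ) :
    ∃ L : Submodule A ρ.V,
      (∃ b : Module.Basis (Fin 2) A ρ.V, L = Submodule.span A {b 0}) ∧
      (∀ σ ∈ P.decompositionSubgroup ℚ, ∀ v ∈ L, ρ.ρ σ v ∈ L) ∧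
      (∀ σ ∈ P.inertiaSubgroupIn ℚ, ∀ v : ρ.V, ρ.ρ σ v - v ∈ L) := by
  set rb := repBasis ρ
  set u := LinearMap.det (ρ.ρ σ₀) - 1 with hu_def
  obtain ⟨w, hw⟩ := hu.exists_right_inv
  set E₀ := LinearMap.toMatrixAlgEquiv rb (ρ.ρ σ₀ - 1) with hE₀
  have htrE : E₀.trace = u := by
    have ht := h.tr0
    rw [← trace_toMat] at ht
    rw [hE₀, map_sub, map_one, Matrix.trace_sub, Matrix.trace_one, Fintype.card_fin, hu_def]
    show (toMat ρ σ₀).trace - ((2 : ℕ) : A) = _
    push_cast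
    linear_combination ht
  have hdetE : E₀.det = 0 := by
    have ht := h.tr0
    rw [← trace_toMat, ← LinearMap.det_toMatrix rb, ← toMat_apply, Matrix.trace_fin_two,
      Matrix.det_fin_two] at ht
    rw [hE₀, map_sub, map_one]
    show (toMat ρ σ₀ - 1).det = 0
    simp [Matrix.det_fin_two]
    linear_combination -ht
  obtain ⟨U, hU⟩ := exists_conj_single_of_idempotent (w • E₀)
    (by rw [Matrix.trace_smul, htrE, smul_eq_mul, mul_comm, hw])
    (by rw [Matrix.det_smul, hdetE, mul_zero])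
  let g : ρ.V ≃ₗ[A] ρ.V := LinearEquiv.ofLinear (Matrix.toLin rb rb (U : Mat2 A))
    (Matrix.toLin rb rb (↑U⁻¹ : Mat2 A))
    (by rw [← Matrix.toLin_mul, Units.mul_inv, Matrix.toLin_one])
    (by rw [← Matrix.toLin_mul, Units.inv_mul, Matrix.toLin_one])
  let b := rb.map g
  have hb : ∀ f : Module.End A ρ.V, LinearMap.toMatrixAlgEquiv b f =
      (↑U⁻¹ : Mat2 A) * LinearMap.toMatrixAlgEquiv rb f * U := by
    intro f
    have : LinearMap.toMatrixAlgEquiv b f = LinearMap.toMatrixAlgEquiv rb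
        ((Matrix.toLinAlgEquiv rb (↑U⁻¹ : Mat2 A)) * f * (Matrix.toLinAlgEquiv rb (U : Mat2 A))) := by
      ext i j
      simp only [LinearMap.toMatrixAlgEquiv_apply, b, Module.Basis.map_repr, Module.Basis.map_apply]
      rfl
    rw [this, map_mul, map_mul, LinearMap.toMatrixAlgEquiv_toLinAlgEquiv,
      LinearMap.toMatrixAlgEquiv_toLinAlgEquiv]
  have hE : LinearMap.toMatrixAlgEquiv b (ρ.ρ σ₀ - 1) = u • !![1, 0; 0, 0] := by
    rw [hb, ← hE₀, ← hU, Matrix.mul_smul, Matrix.smul_mul, smul_smul, hw, one_smul]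
  let M : GalQ → Mat2 A := fun σ => LinearMap.toMatrixAlgEquiv b (ρ.ρ σ)
  have cancel : ∀ x : A, u * x = 0 → x = 0 := fun x hx => by
    rwa [hu.mul_right_eq_zero] at hx
  have m10 : ∀ σ ∈ P.decompositionSubgroup ℚ, M σ 1 0 = 0 := fun σ hσ => by
    have := congrArg (LinearMap.toMatrixAlgEquiv b) (h.stable σ hσ)
    rw [map_sub, map_smul, map_mul, map_mul, map_mul, hE, map_zero, ← hu_def] at this
    have := congrFun (congrFun this 1) 0
    simp [Matrix.mul_apply, Matrix.vecMul, dotProduct, Fin.sum_univ_two] at this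
    exact cancel _ (cancel _ (by linear_combination this))
  have i1 : ∀ σ ∈ P.inertiaSubgroupIn ℚ, M σ 1 0 = 0 ∧ M σ 1 1 = 1 := fun σ hσ => by
    have := congrArg (LinearMap.toMatrixAlgEquiv b) (h.inertia σ hσ)
    rw [map_sub, map_smul, map_mul, hE, map_sub, map_one, map_zero, ← hu_def] at this
    have h0 := congrFun (congrFun this 1) 0
    have h1 := congrFun (congrFun this 1) 1
    simp [Matrix.mul_apply, Matrix.vecMul, dotProduct, Fin.sum_univ_two] at h0 h1
    exact ⟨cancel _ (by linear_combination h0), sub_eq_zero.mp (cancel _ (by linear_combination h1))⟩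
  have expand : ∀ (σ : GalQ) (j : Fin 2), ρ.ρ σ (b j) = M σ 0 j • b 0 + M σ 1 j • b 1 := fun σ j => by
    conv_lhs => rw [← b.sum_repr (ρ.ρ σ (b j))]
    rw [Fin.sum_univ_two]
    simp only [M, LinearMap.toMatrixAlgEquiv_apply]
  have sub_mem_line : ∀ (σ : GalQ) (z : A), M σ 1 0 = 0 → M σ 1 1 = z → ∀ v,
      ρ.ρ σ v - z • v ∈ Submodule.span A {b 0} := by
    intro σ z h0 h1 v
    rw [← b.sum_repr v, Fin.sum_univ_two, map_add, map_smul, map_smul, expand, expand, h0, h1,
      Submodule.mem_span_singleton]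
    exact ⟨b.repr v 0 * M σ 0 0 + b.repr v 1 * M σ 0 1 - z * b.repr v 0, by
      simp only [zero_smul, add_zero]; module⟩
  refine ⟨_, ⟨b, rfl⟩, fun σ hσ v hv => ?_, fun σ hσ v => ?_⟩
  · obtain ⟨c, rfl⟩ := Submodule.mem_span_singleton.mp hv
    rw [map_smul, expand, m10 σ hσ, zero_smul, add_zero, smul_smul]
    exact Submodule.smul_mem _ _ (Submodule.mem_span_singleton_self _)
  · simpa using sub_mem_line σ 1 (i1 σ hσ).1 (i1 σ hσ).2 v


section closed

variable (p) in
/-- Cyclotomic determinant and the equations at every place over `p`. -/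
def OrdPred (hp2 : p ≠ 2) ⦃A : Type⦄ [CommRing A] [IsLocalRing A] (ρ : GaloisRepAdic A) : Prop :=
  ρ.DetIsCyclotomic p ∧ ∀ (P : ValuationSubring (AlgebraicClosure ℚ)) (hP : P.LiesOverPrime p),
    OrdEq P (exists_base hp2 P hP).choose ρ

lemma ordPred_iff (hp2 : p ≠ 2) (ρ : GaloisRepAdic A) :
    OrdPred p hp2 ρ ↔ ρ.DetIsCyclotomic p ∧ ρ.IsOrdinaryAt p := by
  refine ⟨fun ⟨hc, h⟩ => ⟨hc, fun P hP => line_of_ordEq
    (det_sub_one_isUnit hc (exists_base hp2 P hP).choose_spec.2) (h P hP)⟩,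
    fun ⟨hc, h⟩ => ⟨hc, fun P hP => ordEq_of_line (exists_base hp2 P hP).choose_spec.1 h hP⟩⟩

variable {𝒪 : Type} [CommRing 𝒪] [IsLocalRing 𝒪] [Finite (ResidueField 𝒪)]

theorem isClosed_ordPred (hp2 : p ≠ 2) :
    IsClosedCond 𝒪 fun _A _ _ _ ρ => OrdPred p hp2 ρ where
  of_isEquiv A _ _ _ ρ ρ' e h := by
    refine ⟨(isClosed_detCyclotomic (𝒪 := 𝒪) p).of_isEquiv e h.1, fun P hP => ?_⟩
    have hh := h.2 P hP
    obtain ⟨e⟩ := e
    set c := e.toLinearEquiv.conjRingEquiv
    have hc : ∀ σ, c (ρ.ρ σ) = ρ'.ρ σ := trace_mul_eq_of_isEquiv e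
    have hcs : ∀ (a : A) f, c (a • f) = a • c f := fun a f =>
      (e.toLinearEquiv.conj).map_smul a f
    have hct : ∀ f, LinearMap.trace A ρ'.V (c f) = LinearMap.trace A ρ.V f := fun f =>
      LinearMap.trace_conj' f e.toLinearEquiv
    have hd := det_eq_of_isEquiv ⟨e⟩
    have ht := trace_eq_of_isEquiv ⟨e⟩
    constructor
    · rw [← ht, ← hd]; exact hh.tr0
    · intro σ hσ
      rw [← hd, ← hc, ← hc, ← map_one c, ← map_sub, ← map_mul, ← map_mul, ← map_mul, ← hcs,
        ← map_sub, hh.stable σ hσ, map_zero]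
    · intro σ hσ
      rw [← hd, ← hc, ← hc, ← map_one c, ← map_sub, ← map_sub, ← map_mul, ← hcs, ← map_sub,
        hh.inertia σ hσ, map_zero]
  baseChange A B _ _ _ _ _ _ hA hB φ hφ ρ h := by
    refine ⟨(isClosed_detCyclotomic (𝒪 := 𝒪) p).baseChange hA hB φ hφ h.1, fun P hP => ?_⟩
    have hh := h.2 P hP
    constructor
    · rw [trace_baseChangeAlong, det_baseChangeAlong, ← map_one (φ : A →+* B), ← map_add, ← map_sub,
        hh.tr0, map_zero]
    · intro σ hσ
      rw [det_baseChangeAlong, ← bcEnd_rho, ← bcEnd_rho, ← map_one (φ : A →+* B),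
        ← map_one (bcEnd (φ : A →+* B) hφ ρ), ← map_sub, ← map_sub, ← map_mul, ← bcEnd_smul,
        ← map_mul, ← map_mul, ← map_sub, hh.stable σ hσ, map_zero]
    · intro σ hσ
      rw [det_baseChangeAlong, ← bcEnd_rho, ← bcEnd_rho, ← map_one (φ : A →+* B),
        ← map_one (bcEnd (φ : A →+* B) hφ ρ), ← map_sub, ← map_sub, ← map_sub, ← map_mul,
        ← bcEnd_smul, ← map_sub, hh.inertia σ hσ, map_zero]
  descend A B C _ _ _ _ _ _ _ _ _ hA hB hC f g hf hg hi ρ h h' := by
    have hdc := (isClosed_detCyclotomic (𝒪 := 𝒪) p).descend hA hB hC f g hf hg hi h.1 h'.1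
    refine ⟨hdc, fun P hP => ?_⟩
    haveI := hA.isArtinian
    have hh := h.2 P hP
    have hh' := h'.2 P hP
    constructor
    · refine hi _ ?_ ?_
      · simpa only [trace_baseChangeAlong, det_baseChangeAlong, RingHom.coe_coe, map_sub, map_add,
          map_one] using hh.tr0
      · simpa only [trace_baseChangeAlong, det_baseChangeAlong, RingHom.coe_coe, map_sub, map_add,
          map_one] using hh'.tr0
    · intro σ hσ
      refine eq_zero_of_pair (hf := hf) (hg := hg) hi ρ _ ?_ ?_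
      · simpa only [map_sub, bcEnd_smul, map_mul, map_one, bcEnd_rho, det_baseChangeAlong] using
          hh.stable σ hσ
      · simpa only [map_sub, bcEnd_smul, map_mul, map_one, bcEnd_rho, det_baseChangeAlong] using
          hh'.stable σ hσ
    · intro σ hσ
      refine eq_zero_of_pair (hf := hf) (hg := hg) hi ρ _ ?_ ?_
      · simpa only [map_sub, bcEnd_smul, map_mul, map_one, bcEnd_rho, det_baseChangeAlong] using
          hh.inertia σ hσ
      · simpa only [map_sub, bcEnd_smul, map_mul, map_one, bcEnd_rho, det_baseChangeAlong] using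
          hh'.inertia σ hσ
  limit A _ _ _ _ _ hl hs ρ h := by
    have hdc := (isClosed_detCyclotomic (𝒪 := 𝒪) p).limit hl hs ρ fun _ _ _ _ hB q hq hsq =>
      (h hB q hq hsq).1
    refine ⟨hdc, fun P hP => ?_⟩
    have hk := fun k => (forall_modPow (P := fun _ _ _ _ r => OrdPred p hp2 r) hl hs h k).2 P hP
    constructor
    · refine (Submodule.mem_bot A).mp (mem_of_forall_modPow ⊥ _ fun k => ?_)
      haveI := isLocalRing_modPow A k
      have := (hk k).tr0
      simp only [trace_baseChangeAlong, det_baseChangeAlong] at this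
      rw [Ideal.map_bot, Ideal.mem_bot]
      simpa only [map_sub, map_add, map_one] using this
    · intro σ hσ
      refine eq_zero_of_forall_modPow ρ _ fun k => ?_
      haveI := isLocalRing_modPow A k
      simpa only [map_sub, bcEnd_smul, map_mul, map_one, bcEnd_rho, det_baseChangeAlong] using
        (hk k).stable σ hσ
    · intro σ hσ
      refine eq_zero_of_forall_modPow ρ _ fun k => ?_
      haveI := isLocalRing_modPow A k
      simpa only [map_sub, bcEnd_smul, map_mul, map_one, bcEnd_rho, det_baseChangeAlong] using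
        (hk k).inertia σ hσ

theorem isClosed_detCyclotomic_ordinary (hp2 : p ≠ 2) :
    IsClosedCond 𝒪 fun _A _ _ _ ρ => ρ.DetIsCyclotomic p ∧ ρ.IsOrdinaryAt p :=
  (isClosed_ordPred hp2).congr fun _ _ _ _ ρ => ordPred_iff hp2 ρ

end closed

section conditions

variable (𝒪 : Type) [CommRing 𝒪] [IsLocalRing 𝒪] [Finite (ResidueField 𝒪)]

/-- `ordinaryCondition` with unipotent inertia at the primes of `U`. -/
abbrev ordCond (p : ℕ) (S U : Finset ℕ) : RepPred 𝒪 :=
  fun _A _ _ _ ρ => GaloisRep.ordinaryCondition 𝒪 p S ρ ∧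
    ∀ q ∈ U, q.Prime → q ≠ p → ρ.IsUnipotentOnInertiaAt q

variable (p : ℕ) [Fact p.Prime]

theorem isClosed_ordCond (hp2 : p ≠ 2) (S U : Finset ℕ) : IsClosedCond 𝒪 (ordCond 𝒪 p S U) :=
  (((isClosed_detCyclotomic_ordinary hp2).and (isClosed_unramifiedOutside 𝒪 S)).congr
    fun _ _ _ _ ρ => and_assoc).and (isClosed_unipotentOn 𝒪 p U)

theorem isDeformationCondition_ordCond (hp2 : p ≠ 2) (S U : Finset ℕ) :
    IsDeformationCondition 𝒪 (ordCond 𝒪 p S U) :=
  (isClosed_ordCond 𝒪 p hp2 S U).isDeformationCondition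

variable {𝒪}

omit [Fact p.Prime] in
theorem tangentFinite_ordCond (ρbar : ResidualGaloisRep (ResidueField 𝒪)) (S U : Finset ℕ) :
    GaloisRep.TangentFinite 𝒪 ρbar (ordCond 𝒪 p S U) :=
  tangentFinite_of_unramified ρbar S _ fun _ _ _ _ _ h => h.1.2.2

end conditions

end FLTA.RT
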