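import Fermat.Agent.RT.DeformOrdinary
import Fermat.Agent.RepTheory.Basic

/-!
# Strict ordinarity from ordinarity and the square of the quotient Frobenius eigenvalue

With cyclotomic determinant at an odd prime, an ordinary representation is strictly ordinary as
soon as the unramified quotient character has square `1`.  The latter is an identity between
traces and determinants, so it may be checked at points which separate.
-/

set_option autoImplicit false

noncomputable section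

namespace FLTA.RT

open IsLocalRing GaloisRep FLTA.Deformation

variable {A : Type} [CommRing A] [IsLocalRing A] (p : ℕ) [hp : Fact p.Prime]

/-- `(det σ₀ · tr σ - tr σ₀σ)² = (det σ₀ - 1)²`: the quotient character has square one. -/
def QuotSqOne (ρ : GaloisRepAdic A) : Prop :=
  ∀ P : ValuationSubring (AlgebraicClosure ℚ), P.LiesOverPrime p →
    ∀ σ₀ ∈ P.inertiaSubgroupIn ℚ, IsExp p 1 σ₀ 2 → ∀ σ ∈ P.decompositionSubgroup ℚ,
      (LinearMap.det (ρ.ρ σ₀) * ρ.trace σ - ρ.trace (σ₀ * σ)) ^ 2 =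
        (LinearMap.det (ρ.ρ σ₀) - 1) ^ 2

variable {p}

omit hp in
/-- The matrix of a map preserving the first line of a basis. -/
lemma line_entries {M : Type} [AddCommGroup M] [Module A M] (b : Module.Basis (Fin 2) A M)
    (f : M →ₗ[A] M) (h : f (b 0) ∈ Submodule.span A {b 0}) :
    LinearMap.toMatrix b b f 1 0 = 0 ∧ f (b 0) = LinearMap.toMatrix b b f 0 0 • b 0 := by
  obtain ⟨c, hc⟩ := Submodule.mem_span_singleton.mp h
  simp [LinearMap.toMatrix_apply, ← hc]

omit hp in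
/-- The quantity of `QuotSqOne` in an adapted basis. -/
lemma det_mul_trace_sub (ρ : GaloisRepAdic A) (b : Module.Basis (Fin 2) A ρ.V) {σ₀ σ : GalQ}
    (h₀ : LinearMap.toMatrix b b (ρ.ρ σ₀) 1 0 = 0) (h₁ : LinearMap.toMatrix b b (ρ.ρ σ₀) 1 1 = 1)
    (hσ : LinearMap.toMatrix b b (ρ.ρ σ) 1 0 = 0) :
    LinearMap.det (ρ.ρ σ₀) * ρ.trace σ - ρ.trace (σ₀ * σ) =
      (LinearMap.det (ρ.ρ σ₀) - 1) * LinearMap.toMatrix b b (ρ.ρ σ) 1 1 := by
  simp only [GaloisRepAdic.trace]
  rw [← LinearMap.det_toMatrix b (ρ.ρ σ₀), LinearMap.trace_eq_matrix_trace A b,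
    LinearMap.trace_eq_matrix_trace A b, map_mul, Module.End.mul_eq_comp,
    LinearMap.toMatrix_comp b b b]
  simp only [Matrix.trace_fin_two, Matrix.det_fin_two, Matrix.mul_apply, Fin.sum_univ_two, h₀, h₁,
    hσ]
  ring

/-- Ordinary with cyclotomic determinant and quotient square one gives strictly ordinary. -/
theorem isStrictOrdinaryAt_of_ordinary (hp2 : p ≠ 2) {ρ : GaloisRepAdic A}
    (hc : ρ.DetIsCyclotomic p) (ho : ρ.IsOrdinaryAt p) (hs : QuotSqOne p ρ) :
    ρ.IsStrictOrdinaryAt p := by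
  refine ⟨hc.1, fun P hP => ?_⟩
  obtain ⟨L, ⟨b, rfl⟩, hD, hI⟩ := ho P hP
  obtain ⟨σ₀, hσ₀, he⟩ := exists_base hp2 P hP
  refine ⟨_, ⟨b, rfl⟩, hD, hI, fun σ hσ => ?_⟩
  have hb0 : b 0 ∈ Submodule.span A {b 0} := Submodule.mem_span_singleton_self _
  obtain ⟨hM10, hM00⟩ := line_entries b _ (hD σ hσ _ hb0)
  obtain ⟨h010, -⟩ := line_entries b _
    (hD σ₀ (Galois.inertiaSubgroupIn_le_decompositionSubgroup hσ₀) _ hb0)
  have h011 : LinearMap.toMatrix b b (ρ.ρ σ₀) 1 1 = 1 := by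
    obtain ⟨c, hc⟩ := Submodule.mem_span_singleton.mp (hI σ₀ hσ₀ (b 1))
    simp [LinearMap.toMatrix_apply, eq_add_of_sub_eq hc.symm]
  set x := LinearMap.toMatrix b b (ρ.ρ σ) 0 0
  set z := LinearMap.toMatrix b b (ρ.ρ σ) 1 1
  have hz2 : z ^ 2 = 1 := by
    have h := hs P hP σ₀ hσ₀ he σ hσ
    rw [det_mul_trace_sub ρ b h010 h011 hM10, mul_pow] at h
    exact ((det_sub_one_isUnit hc he).pow 2).mul_left_cancel (h.trans (mul_one _).symm)
  refine ⟨x, z, fun w hw => ?_, fun v => ?_, fun n a ha => ?_⟩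
  · obtain ⟨c, rfl⟩ := Submodule.mem_span_singleton.mp hw
    rw [map_smul, hM00, smul_comm]
  · rw [← b.sum_repr v, Fin.sum_univ_two, map_add, map_smul, map_smul, smul_add, hM00,
      smul_comm z (b.repr v 0), smul_comm z (b.repr v 1), add_sub_add_comm, ← smul_sub, ← smul_sub]
    refine add_mem (Submodule.smul_mem _ _ (sub_mem (Submodule.smul_mem _ _ hb0)
      (Submodule.smul_mem _ _ hb0))) (Submodule.smul_mem _ _ ?_)
    have e : ρ.ρ σ (b 1) = LinearMap.toMatrix b b (ρ.ρ σ) 0 1 • b 0 + z • b 1 := by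
      simp only [z, LinearMap.toMatrix_apply]
      exact ((b.sum_repr (ρ.ρ σ (b 1))).symm.trans (Fin.sum_univ_two _))
    rw [e, add_sub_cancel_right]
    exact Submodule.smul_mem _ _ hb0
  · have hdet : LinearMap.det (ρ.ρ σ) = x * z := by
      rw [← LinearMap.det_toMatrix b, Matrix.det_fin_two, hM10, mul_zero, sub_zero]
    have h := Ideal.mul_mem_right z _ (hc.2 n σ a ha)
    rw [hdet] at h
    convert h using 1
    linear_combination -x * hz2

/-- A strictly ordinary representation over a domain has quotient square one. -/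
theorem quotSqOne_of_isStrictOrdinaryAt [IsNoetherianRing A] {ρ : GaloisRepAdic A}
    (hc : ρ.DetIsCyclotomic p) (hs : ρ.IsStrictOrdinaryAt p) : QuotSqOne p ρ := by
  intro P hP σ₀ hσ₀ he σ hσ
  obtain ⟨L, ⟨b, rfl⟩, hD, hI, hX⟩ := hs.2 P hP
  have hb0 : b 0 ∈ Submodule.span A {b 0} := Submodule.mem_span_singleton_self _
  obtain ⟨hM10, hM00⟩ := line_entries b _ (hD σ hσ _ hb0)
  obtain ⟨h010, -⟩ := line_entries b _
    (hD σ₀ (Galois.inertiaSubgroupIn_le_decompositionSubgroup hσ₀) _ hb0)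
  have h011 : LinearMap.toMatrix b b (ρ.ρ σ₀) 1 1 = 1 := by
    obtain ⟨c, hc'⟩ := Submodule.mem_span_singleton.mp (hI σ₀ hσ₀ (b 1))
    simp [LinearMap.toMatrix_apply, eq_add_of_sub_eq hc'.symm]
  rw [det_mul_trace_sub ρ b h010 h011 hM10, mul_pow]
  obtain ⟨x, z, hx, hz, hxz⟩ := hX σ hσ
  have hx' : LinearMap.toMatrix b b (ρ.ρ σ) 0 0 = x := by
    simp [LinearMap.toMatrix_apply, hx _ hb0]
  have hz' : LinearMap.toMatrix b b (ρ.ρ σ) 1 1 = z := by
    obtain ⟨c, hc'⟩ := Submodule.mem_span_singleton.mp (hz (b 1))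
    simp [LinearMap.toMatrix_apply, eq_add_of_sub_eq hc'.symm]
  have hdet : LinearMap.det (ρ.ρ σ) = x * z := by
    rw [← LinearMap.det_toMatrix b, Matrix.det_fin_two, hM10, mul_zero, sub_zero, hx', hz']
  suffices hz2 : z ^ 2 - 1 = 0 by rw [hz', sub_eq_zero.mp hz2, mul_one]
  refine (Submodule.mem_bot A).mp ((Ideal.iInf_pow_eq_bot_of_isLocalRing (maximalIdeal A)
    (maximalIdeal.isMaximal A).ne_top).le (Ideal.mem_iInf.mpr fun n => ?_))
  have hpn : Ideal.span {((p ^ n : ℕ) : A)} ≤ maximalIdeal A ^ n := by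
    rw [Ideal.span_singleton_le_iff_mem, Nat.cast_pow]
    exact Ideal.pow_mem_pow hc.1 n
  rcases Nat.eq_zero_or_pos n with rfl | hn
  · simp
  obtain ⟨a, ha⟩ := exists_isExp (p := p) n σ
  have h1 : (a : A) * (z ^ 2 - 1) ∈ maximalIdeal A ^ n := hpn (by
    convert sub_mem (hc.2 n σ a ha) (Ideal.mul_mem_right z _ (hxz n a ha)) using 1
    rw [hdet]
    ring)
  have hu : IsUnit (a : A) := by
    by_contra h
    have h2 : LinearMap.det (ρ.ρ σ) ∈ maximalIdeal A := by
      have h3 := add_mem ((Ideal.pow_le_self hn.ne') (hpn (hc.2 n σ a ha)))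
        (show (a : A) ∈ maximalIdeal A from h)
      rwa [sub_add_cancel] at h3
    refine h2 (LinearMap.isUnit_det _ ?_)
    exact ⟨Units.mk (ρ.ρ σ) (ρ.ρ σ⁻¹) (by rw [← map_mul, mul_inv_cancel, map_one])
      (by rw [← map_mul, inv_mul_cancel, map_one]), rfl⟩
  obtain ⟨v, hv⟩ := hu.exists_left_inv
  simpa [← mul_assoc, hv] using Ideal.mul_mem_left _ v h1

omit hp in
/-- Quotient square one may be checked at points which separate. -/
theorem quotSqOne_of_separated {ι : Type*} {B : ι → Type} [∀ i, CommRing (B i)]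
    [∀ i, IsLocalRing (B i)] (φ : ∀ i, A →+* B i) (hφ : ∀ i, IsLocalHom (φ i))
    (hsep : ∀ a : A, (∀ i, φ i a = 0) → a = 0) {ρ : GaloisRepAdic A}
    (h : ∀ i, QuotSqOne p (ρ.baseChangeAlong (φ i) (hφ i))) : QuotSqOne p ρ := by
  intro P hP σ₀ hσ₀ he σ hσ
  refine sub_eq_zero.mp (hsep _ fun i => ?_)
  have hd : LinearMap.det ((ρ.baseChangeAlong (φ i) (hφ i)).ρ σ₀) =
      φ i (LinearMap.det (ρ.ρ σ₀)) := by
    letI := (φ i).toAlgebra
    exact LinearMap.det_baseChange (ρ.ρ σ₀)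
  have h2 := h i P hP σ₀ hσ₀ he σ hσ
  rw [hd, RepTheory.trace_baseChangeAlong, RepTheory.trace_baseChangeAlong] at h2
  rw [map_sub, map_pow, map_pow, map_sub, map_sub, map_mul, map_one, h2, sub_self]

end FLTA.RT
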