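import Fermat.Agent.RT.FreeGamma0

/-!
# Change of the coefficient ring

For `φ : R →+* R'` and an `R'`-module on which `R` acts through `φ`, twisted cohomology for `χ` and
for `φ ∘ χ` agree, compatibly with the Hecke operators.  Two characters with equal image under
`φ` thus have equal cohomology with coefficients in such a module.
-/

set_option autoImplicit false

noncomputable section

universe u

namespace FLTA.RT

open CongruenceSubgroup FLTA.Periods

variable {L : ℕ} {R R' : Type u} [CommRing R] [CommRing R']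

/-- The image of a character under a ring homomorphism. -/
def charMap (φ : R →+* R') (χ : (ZMod L)ˣ →* Rˣ) : (ZMod L)ˣ →* R'ˣ :=
  (Units.map φ.toMonoidHom).comp χ

@[simp] theorem coe_charMap (φ : R →+* R') (χ : (ZMod L)ˣ →* Rˣ) (x : (ZMod L)ˣ) :
    (charMap φ χ x : R') = φ (χ x) := rfl

theorem coe_gamChar_charMap (φ : R →+* R') (χ : (ZMod L)ˣ →* Rˣ) (γ : Gamma0 L) :
    (gamChar (charMap φ χ) γ : R') = φ (gamChar χ γ) := rfl

theorem coe_hwT_charMap (φ : R →+* R') (χ : (ZMod L)ˣ →* Rˣ) {p : ℕ} (hp : p.Coprime L)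
    (x : OnePoint (ZMod p)) : (hwT (charMap φ χ) hp x : R') = φ (hwT χ hp x) := by
  rw [hwT_eq, hwT_eq, ← map_inv, ← map_inv]
  rfl

variable (φ : R →+* R') (χ : (ZMod L)ˣ →* Rˣ) {V : Type u} [AddCommGroup V] [Module R V]
  [Module R' V] (hφ : ∀ (r : R) (v : V), r • v = φ r • v)

include hφ in
theorem mem_tCocycles_charMap (f : Gamma0 L → V) :
    f ∈ tCocycles (gamChar χ) V ↔ f ∈ tCocycles (gamChar (charMap φ χ)) V := by
  simp only [mem_tCocycles, hφ, coe_gamChar_charMap]

/-- Cocycles for `χ` and `φ ∘ χ` agree. -/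
def tCocyclesBase : tCocycles (gamChar χ) V ≃+ tCocycles (gamChar (charMap φ χ)) V where
  toFun f := ⟨f.1, (mem_tCocycles_charMap φ χ hφ _).mp f.2⟩
  invFun f := ⟨f.1, (mem_tCocycles_charMap φ χ hφ _).mpr f.2⟩
  left_inv _ := rfl
  right_inv _ := rfl
  map_add' _ _ := rfl

@[simp] theorem tCocyclesBase_apply (f : tCocycles (gamChar χ) V) :
    (tCocyclesBase φ χ hφ f).1 = f.1 := rfl

theorem tCocyclesBase_delta (v : V) :
    tCocyclesBase φ χ hφ (tDelta (gamChar χ) V v) = tDelta (gamChar (charMap φ χ)) V v :=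
  Subtype.ext (funext fun γ => by
    rw [tCocyclesBase_apply, tDelta_apply, tDelta_apply, hφ, coe_gamChar_charMap])

/-- The classes for `χ` and `φ ∘ χ` agree. -/
def tH1Base : tH1 (gamChar χ) V ≃+ tH1 (gamChar (charMap φ χ)) V :=
  QuotientAddGroup.congr (LinearMap.range (tDelta (gamChar χ) V)).toAddSubgroup
    (LinearMap.range (tDelta (gamChar (charMap φ χ)) V)).toAddSubgroup (tCocyclesBase φ χ hφ) <| by
      ext x
      simp only [AddSubgroup.mem_map, Submodule.mem_toAddSubgroup, LinearMap.mem_range]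
      constructor
      · rintro ⟨y, ⟨v, rfl⟩, rfl⟩
        exact ⟨v, (tCocyclesBase_delta φ χ hφ v).symm⟩
      · rintro ⟨v, rfl⟩
        exact ⟨_, ⟨v, rfl⟩, tCocyclesBase_delta φ χ hφ v⟩

@[simp] theorem tH1Base_class (f : tCocycles (gamChar χ) V) :
    tH1Base φ χ hφ (tClass (gamChar χ) V f)
      = tClass (gamChar (charMap φ χ)) V (tCocyclesBase φ χ hφ f) := rfl

theorem tH1Base_smul (r : R) (x : tH1 (gamChar χ) V) :
    tH1Base φ χ hφ (r • x) = φ r • tH1Base φ χ hφ x := by
  obtain ⟨f, rfl⟩ := tClass_surjective (gamChar χ) x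
  rw [← map_smul, tH1Base_class, tH1Base_class, ← map_smul]
  congr 1
  exact Subtype.ext (funext fun γ => hφ r (f.1 γ))

/-- Naturality in the coefficient module. -/
theorem tH1Base_map {W : Type u} [AddCommGroup W] [Module R W] [Module R' W]
    (hW : ∀ (r : R) (w : W), r • w = φ r • w) (g : V →ₗ[R] W) (g' : V →ₗ[R'] W)
    (hg : ∀ v, g v = g' v) (x : tH1 (gamChar χ) V) :
    tH1Base φ χ hW (tH1Map (gamChar χ) g x)
      = tH1Map (gamChar (charMap φ χ)) g' (tH1Base φ χ hφ x) := by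
  obtain ⟨f, rfl⟩ := tClass_surjective (gamChar χ) x
  rw [tH1Map_class, tH1Base_class, tH1Base_class, tH1Map_class]
  congr 1
  exact Subtype.ext (funext fun γ => hg _)

/-- Compatibility with the Hecke operators. -/
theorem tH1Base_natHecke [NeZero L] (l : ℕ) (x : tH1 (gamChar χ) V) :
    tH1Base φ χ hφ ((natHecke χ l).app V x)
      = (natHecke (charMap φ χ) l).app V (tH1Base φ χ hφ x) := by
  obtain ⟨f, rfl⟩ := tClass_surjective (gamChar χ) x
  by_cases h : l ∣ L
  · haveI := neZero_of_dvd h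
    rw [natHecke_of_dvd χ h, natHecke_of_dvd _ h]
    show tH1Base φ χ hφ ((isWeight_U χ h).op V (tClass (gamChar χ) V f))
      = (isWeight_U (charMap φ χ) h).op V (tH1Base φ χ hφ (tClass (gamChar χ) V f))
    rw [IsWeight.op_class, tH1Base_class, tH1Base_class, IsWeight.op_class]
    congr 1
    refine Subtype.ext (funext fun γ => ?_)
    simp only [tCocyclesBase_apply, IsWeight.opZ_apply, Pi.one_apply, Units.val_one, one_smul]
  · by_cases hl : l.Prime
    · haveI := Fact.mk hl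
      haveI : NeZero l := ⟨hl.ne_zero⟩
      rw [natHecke_of_not_dvd χ h, natHecke_of_not_dvd _ h]
      show tH1Base φ χ hφ ((isWeight_T χ h (coprime_of_not_dvd h)).op V (tClass (gamChar χ) V f))
        = (isWeight_T (charMap φ χ) h (coprime_of_not_dvd h)).op V
            (tH1Base φ χ hφ (tClass (gamChar χ) V f))
      rw [IsWeight.op_class, tH1Base_class, tH1Base_class, IsWeight.op_class]
      congr 1
      refine Subtype.ext (funext fun γ => ?_)
      simp only [tCocyclesBase_apply, IsWeight.opZ_apply, hφ, coe_hwT_charMap]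
    · have e1 : natHecke χ l = 0 := (dif_neg h).trans (dif_neg hl)
      have e2 : natHecke (charMap φ χ) l = 0 := (dif_neg h).trans (dif_neg hl)
      rw [e1, e2, NatEnd.zero_app, NatEnd.zero_app, map_zero]

/-- Casting along an equality of characters. -/
def tH1Cast {χ₁ χ₂ : (ZMod L)ˣ →* R'ˣ} (h : χ₁ = χ₂) :
    tH1 (gamChar χ₁) V ≃ₗ[R'] tH1 (gamChar χ₂) V := by
  subst h; exact LinearEquiv.refl _ _

omit [Module R V] in
theorem tH1Cast_natHecke [NeZero L] {χ₁ χ₂ : (ZMod L)ˣ →* R'ˣ} (h : χ₁ = χ₂) (l : ℕ)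
    (x : tH1 (gamChar χ₁) V) :
    tH1Cast (V := V) h ((natHecke χ₁ l).app V x) = (natHecke χ₂ l).app V (tH1Cast (V := V) h x) := by
  subst h; rfl

/-- Characters congruent along `φ` give the same classes. -/
def tH1Congr (χ₂ : (ZMod L)ˣ →* Rˣ) (h : charMap φ χ = charMap φ χ₂) :
    tH1 (gamChar χ) V ≃ₗ[R] tH1 (gamChar χ₂) V where
  toAddEquiv := (tH1Base φ χ hφ).trans ((tH1Cast (V := V) h).toAddEquiv.trans (tH1Base φ χ₂ hφ).symm)
  map_smul' r x := (tH1Base φ χ₂ hφ).injective (by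
    simp only [AddEquiv.toFun_eq_coe, AddEquiv.trans_apply, RingHom.id_apply, tH1Base_smul,
      AddEquiv.apply_symm_apply]
    exact map_smul (tH1Cast (V := V) h) _ _)

theorem tH1Congr_natHecke [NeZero L] (χ₂ : (ZMod L)ˣ →* Rˣ) (h : charMap φ χ = charMap φ χ₂)
    (l : ℕ) (x : tH1 (gamChar χ) V) :
    tH1Congr φ χ hφ χ₂ h ((natHecke χ l).app V x)
      = (natHecke χ₂ l).app V (tH1Congr φ χ hφ χ₂ h x) :=
  (tH1Base φ χ₂ hφ).injective (by
    show tH1Base φ χ₂ hφ ((tH1Base φ χ₂ hφ).symm (tH1Cast (V := V) h (tH1Base φ χ hφ _))) = _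
    rw [AddEquiv.apply_symm_apply, tH1Base_natHecke, tH1Base_natHecke, tH1Cast_natHecke]
    congr 1
    exact ((tH1Base φ χ₂ hφ).apply_symm_apply _).symm)

end FLTA.RT
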