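import Fermat.Agent.RT.FreeCocycle
import Fermat.Agent.Gamma0.Complex.Cocycle
import Mathlib.SetTheory.Cardinal.Order

/-!
# Lifting homomorphisms of subgroups of `SL(2, ℤ)` containing `-1`

Since `PSL(2, ℤ)` is the free product of groups of orders two and three, a homomorphism into a
quotient group lifts as soon as elements of order two and three lift to such elements. As a
consequence twisted cocycles lift along surjections of coefficient modules.
-/

set_option autoImplicit false

noncomputable section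

universe u

open scoped MatrixGroups

namespace FLTA.RT

open FLTA.Gamma0 FLTA.Gamma0.Presentation

/-- `SL(2, ℤ)` is generated as a monoid by `S` and `S T`. -/
theorem submonoid_closure_S_matU :
    Submonoid.closure {(ModularGroup.S : SL(2, ℤ)), matU} = ⊤ := by
  have hS' : (ModularGroup.S : SL(2, ℤ)) ∈
      Submonoid.closure {(ModularGroup.S : SL(2, ℤ)), matU} :=
    Submonoid.subset_closure (Set.mem_insert _ _)
  have hU' : matU ∈ Submonoid.closure {(ModularGroup.S : SL(2, ℤ)), matU} :=
    Submonoid.subset_closure (Set.mem_insert_of_mem _ rfl)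
  have hmem : ∀ g ∈ Subgroup.closure {(ModularGroup.S : SL(2, ℤ)), ModularGroup.T},
      g ∈ Submonoid.closure {(ModularGroup.S : SL(2, ℤ)), matU} := by
    intro g hg
    induction hg using Subgroup.closure_induction'' with
    | one => exact one_mem _
    | mem y hy =>
      rcases hy with rfl | rfl
      · exact hS'
      · rw [show (ModularGroup.T : SL(2, ℤ)) = ModularGroup.S ^ 3 * matU by decide +kernel]
        exact mul_mem (pow_mem hS' 3) hU'
    | inv_mem y hy =>
      rcases hy with rfl | rfl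
      · rw [show (ModularGroup.S : SL(2, ℤ))⁻¹ = ModularGroup.S ^ 3 by decide +kernel]
        exact pow_mem hS' 3
      · rw [show (ModularGroup.T : SL(2, ℤ))⁻¹ = matU ^ 5 * ModularGroup.S by decide +kernel]
        exact mul_mem (pow_mem hU' 5) hS'
    | mul y z _ _ hy hz => exact mul_mem hy hz
  exact eq_top_iff.2 fun g _ =>
    hmem g (SpecialLinearGroup.SL2Z_generators ▸ Subgroup.mem_top g)

/-- Homomorphisms out of `Γ ∋ -1` killing `-1` lift to homomorphisms killing `-1` along a
surjection `π`, provided elements with square one lift to such elements unless `S` has no fixed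
coset, and likewise for cubes and `S T`. -/
theorem exists_lift_of_subgroup_gen {E E' : Type*} [Group E] [Group E'] (π : E →* E')
    (hπ : Function.Surjective π) (Γ : Subgroup SL(2, ℤ))
    (h2 : (∀ x : Coset Γ, (ModularGroup.S : SL(2, ℤ)) • x ≠ x) ∨
      ∀ b : E', b ^ 2 = 1 → ∃ a : E, π a = b ∧ a ^ 2 = 1)
    (hΓ : (-1 : SL(2, ℤ)) ∈ Γ)
    (h3 : (∀ x : Coset Γ, matU • x ≠ x) ∨ ∀ b : E', b ^ 3 = 1 → ∃ a : E, π a = b ∧ a ^ 3 = 1)
    (f : Γ →* E') (hf : f ⟨-1, hΓ⟩ = 1) :
    ∃ g : Γ →* E, π.comp g = f ∧ g ⟨-1, hΓ⟩ = 1 := by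
  classical
  let _ : LinearOrder (Coset Γ) := IsWellOrder.linearOrder WellOrderingRel
  have hneg : ∀ x : Coset Γ, (-1 : SL(2, ℤ)) • x = x := neg_one_smul_coset hΓ
  -- a section
  let r : Coset Γ → SL(2, ℤ) := fun x => if x = baseCoset Γ then 1 else x.out
  have hr : ∀ x, ((r x : SL(2, ℤ)) : Coset Γ) = x := fun x => by
    simp only [r]
    split_ifs with h
    · rw [h]; rfl
    · exact QuotientGroup.out_eq' x
  have hrmem : ∀ g x, (r (g • x))⁻¹ * g * r x ∈ Γ := fun g x => by
    have h : ((r (g • x) : SL(2, ℤ)) : Coset Γ) = ((g * r x : SL(2, ℤ)) : Coset Γ) := by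
      rw [hr]
      conv_lhs => rw [← hr x]
      rfl
    rw [mul_assoc]
    exact QuotientGroup.eq.mp h
  let F : SL(2, ℤ) → Coset Γ → E' := fun g x => f ⟨_, hrmem g x⟩
  have hFmul : ∀ g h x, F (g * h) x = F g (h • x) * F h x := fun g h x => by
    simp only [F, ← map_mul]
    congr 1
    refine Subtype.ext ?_
    simp only [Subgroup.coe_mul, mul_smul]
    group
  have hFneg : ∀ x, F (-1) x = 1 := fun x => by
    rw [← hf]
    refine congrArg f (Subtype.ext ?_)
    show (r ((-1 : SL(2, ℤ)) • x))⁻¹ * -1 * r x = -1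
    rw [hneg]
    simp
  have hFone : ∀ x, F 1 x = 1 := fun x => by
    rw [← f.map_one]
    refine congrArg f (Subtype.ext ?_)
    show (r ((1 : SL(2, ℤ)) • x))⁻¹ * 1 * r x = 1
    rw [one_smul]
    simp
  choose L hL using hπ
  -- lifts along the orbits of `S`
  set S : SL(2, ℤ) := ModularGroup.S with hSdef
  have hS2 : ∀ x : Coset Γ, S • S • x = x := fun x => by
    rw [← mul_smul, ← pow_two, hSdef, S_sq, hneg]
  have hFS : ∀ x, F S (S • x) * F S x = 1 := fun x => by
    rw [← hFmul, ← pow_two, hSdef, S_sq, hFneg]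
  have hfixS : ∀ x, S • x = x → ∃ a, π a = F S x ∧ a ^ 2 = 1 := fun x hx => by
    rcases h2 with h2 | h2
    · exact absurd hx (h2 x)
    · refine h2 _ ?_
      rw [pow_two]
      have := hFS x
      rwa [hx] at this
  let s : Coset Γ → E := fun x =>
    if h : S • x = x then (hfixS x h).choose
    else if x < S • x then L (F S x) else (L (F S (S • x)))⁻¹
  have hsπ : ∀ x, π (s x) = F S x := fun x => by
    simp only [s]
    split_ifs with h h'
    · exact (hfixS x h).choose_spec.1
    · exact hL _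
    · rw [map_inv, hL]
      exact inv_eq_of_mul_eq_one_right (hFS x)
  have hss : ∀ x, s (S • x) * s x = 1 := fun x => by
    by_cases h : S • x = x
    · rw [h, ← pow_two]
      simp only [s, dif_pos h]
      exact (hfixS x h).choose_spec.2
    · have h' : S • (S • x) ≠ S • x := by rw [hS2]; exact Ne.symm h
      simp only [s, dif_neg h, dif_neg h', hS2]
      rcases lt_or_gt_of_ne h with hlt | hlt
      · rw [if_pos hlt, if_neg hlt.not_gt]; simp
      · rw [if_neg hlt.not_gt, if_pos hlt]; simp
  -- lifts along the orbits of `S T`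
  set U : SL(2, ℤ) := matU with hUdef
  have hU3 : ∀ x : Coset Γ, U • U • U • x = x := fun x => by
    rw [← mul_smul, ← mul_smul, ← pow_three', hUdef, matU_cube, hneg]
  have hFU : ∀ x, F U (U • U • x) * F U (U • x) * F U x = 1 := fun x => by
    rw [← hFmul, show U • x = U • x from rfl, ← hFneg x, ← matU_cube, ← hUdef, pow_three',
      hFmul (U * U) U, hFmul U U]
  have hfixU : ∀ x, U • x = x → ∃ a, π a = F U x ∧ a ^ 3 = 1 := fun x hx => by
    rcases h3 with h3 | h3
    · exact absurd hx (h3 x)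
    · refine h3 _ ?_
      have := hFU x
      simp only [hx] at this
      rw [pow_three']
      exact this
  have hfixU' : ∀ x : Coset Γ, U • U • x = x → U • x = x := fun x h => by
    have := hU3 x
    rwa [h] at this
  let t : Coset Γ → E := fun x =>
    if h : U • x = x then (hfixU x h).choose
    else if U • x < x ∧ U • x < U • U • x then (L (F U (U • U • x)) * L (F U (U • x)))⁻¹
    else L (F U x)
  have htπ : ∀ x, π (t x) = F U x := fun x => by
    simp only [t]
    split_ifs with h h'
    · exact (hfixU x h).choose_spec.1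
    · rw [map_inv, map_mul, hL, hL]
      exact inv_eq_of_mul_eq_one_right (hFU x)
    · exact hL _
  have hrot : ∀ a b c : E, a * b * c = 1 → c * a * b = 1 := fun a b c h => by
    rw [eq_inv_of_mul_eq_one_right h]; group
  have htmin : ∀ x, U • x ≠ x → U • x < x ∧ U • x < U • U • x →
      t (U • U • x) * t (U • x) * t x = 1 := by
    intro x h hmin
    have h1 : U • (U • x) ≠ U • x := fun e => h (smul_left_cancel U e)
    have h2' : U • U • U • x ≠ U • U • x := fun e => h1 (smul_left_cancel U e)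
    have n1 : ¬(U • U • x < U • x ∧ U • U • x < U • U • U • x) := fun e =>
      lt_asymm hmin.2 e.1
    have n2 : ¬(U • U • U • x < U • U • x ∧ U • U • U • x < U • U • U • U • x) := fun e => by
      rw [hU3] at e
      exact lt_asymm hmin.1 e.2
    have tx : t x = (L (F U (U • U • x)) * L (F U (U • x)))⁻¹ := by
      simp only [t, dif_neg h, if_pos hmin]
    have tx1 : t (U • x) = L (F U (U • x)) := by simp only [t, dif_neg h1, if_neg n1]
    have tx2 : t (U • U • x) = L (F U (U • U • x)) := by simp only [t, dif_neg h2', if_neg n2]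
    rw [tx, tx1, tx2, mul_inv_cancel]
  have httt : ∀ x, t (U • U • x) * t (U • x) * t x = 1 := by
    intro x
    by_cases h : U • x = x
    · simp only [h]
      rw [← pow_three']
      simp only [t, dif_pos h]
      exact (hfixU x h).choose_spec.2
    · have h1 : U • U • x ≠ U • x := fun e => h (smul_left_cancel U e)
      have h2' : U • U • x ≠ x := fun e => h (hfixU' x e)
      rcases lt_or_gt_of_ne h with hlt | hlt
      · rcases lt_or_gt_of_ne h1 with hlt' | hlt'
        · -- `U • U • x` is the smallest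
          have := htmin (U • x) h1 ⟨hlt', by rw [hU3]; exact hlt'.trans hlt⟩
          rw [hU3] at this
          exact hrot _ _ _ (hrot _ _ _ this)
        · exact htmin x h ⟨hlt, hlt'⟩
      · rcases lt_or_gt_of_ne h2' with hlt' | hlt'
        · have := htmin (U • x) h1 ⟨hlt'.trans hlt, by rw [hU3]; exact hlt'⟩
          rw [hU3] at this
          exact hrot _ _ _ (hrot _ _ _ this)
        · -- `x` is the smallest
          have h3' : U • (U • U • x) ≠ U • U • x := fun e => h1 (smul_left_cancel U e)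
          have := htmin (U • U • x) h3' ⟨by rw [hU3]; exact hlt', by rw [hU3]; exact hlt⟩
          rw [hU3, hU3] at this
          exact hrot _ _ _ this
  -- the monomial representation
  let P : Equiv.Perm (Coset Γ × E) := Function.Involutive.toPerm (fun z => (S • z.1, s z.1 * z.2))
    fun z => Prod.ext (hS2 z.1) (by show s (S • z.1) * (s z.1 * z.2) = z.2; rw [← mul_assoc, hss, one_mul])
  let Q : Equiv.Perm (Coset Γ × E) :=
    { toFun := fun z => (U • z.1, t z.1 * z.2)
      invFun := fun z => (U • U • z.1, (t (U • U • z.1))⁻¹ * z.2)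
      left_inv := fun z => Prod.ext (hU3 z.1) (by
        show (t (U • U • U • z.1))⁻¹ * (t z.1 * z.2) = z.2
        rw [hU3, inv_mul_cancel_left])
      right_inv := fun z => Prod.ext (hU3 z.1) (by
        show t (U • U • z.1) * ((t (U • U • z.1))⁻¹ * z.2) = z.2
        rw [mul_inv_cancel_left]) }
  have hP : P ^ 2 = 1 := Equiv.ext fun z => by
    rw [pow_two, Equiv.Perm.mul_apply, Equiv.Perm.one_apply]
    exact Function.Involutive.toPerm_involutive _ z
  have hQ : Q ^ 3 = 1 := Equiv.ext fun z => by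
    show Q (Q (Q z)) = z
    refine Prod.ext (hU3 z.1) ?_
    show t (U • U • z.1) * (t (U • z.1) * (t z.1 * z.2)) = z.2
    rw [← mul_assoc, ← mul_assoc, httt, one_mul]
  let ρ := sl2Lift P Q hP hQ
  let σ : SL(2, ℤ) → Coset Γ → E := fun g x => (ρ g (x, 1)).2
  have hρS : ρ S = P := sl2Lift_S P Q hP hQ
  have hρU : ρ U = Q := sl2Lift_matU P Q hP hQ
  have hall : ∀ g, (∀ x a, ρ g (x, a) = (g • x, σ g x * a)) ∧ ∀ x, π (σ g x) = F g x := by
    intro g
    have hg : g ∈ Submonoid.closure {S, U} := submonoid_closure_S_matU ▸ Submonoid.mem_top g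
    induction hg using Submonoid.closure_induction with
    | mem y hy =>
      rcases hy with rfl | rfl
      · refine ⟨fun x a => ?_, fun x => ?_⟩
        · simp only [σ, hρS]
          show (S • x, s x * a) = (S • x, (s x * 1) * a)
          rw [mul_one]
        · simp only [σ, hρS]
          show π (s x * 1) = F S x
          rw [mul_one, hsπ]
      · refine ⟨fun x a => ?_, fun x => ?_⟩
        · simp only [σ, hρU]
          show (U • x, t x * a) = (U • x, (t x * 1) * a)
          rw [mul_one]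
        · simp only [σ, hρU]
          show π (t x * 1) = F U x
          rw [mul_one, htπ]
    | one =>
      refine ⟨fun x a => ?_, fun x => ?_⟩
      · simp [σ]
      · simp [σ, hFone]
    | mul a b _ _ ha hb =>
      have hσ : ∀ x, σ (a * b) x = σ a (b • x) * σ b x := fun x => by
        show (ρ (a * b) (x, 1)).2 = _
        rw [map_mul, Equiv.Perm.mul_apply, hb.1, ha.1, mul_one]
      refine ⟨fun x e => ?_, fun x => ?_⟩
      · rw [hσ, map_mul, Equiv.Perm.mul_apply, hb.1, ha.1, mul_smul, mul_assoc]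
      · rw [hσ, map_mul, ha.2, hb.2, hFmul]
  have hmulσ : ∀ g h x, σ (g * h) x = σ g (h • x) * σ h x := fun g h x => by
    show (ρ (g * h) (x, 1)).2 = _
    rw [map_mul, Equiv.Perm.mul_apply, (hall h).1, (hall g).1, mul_one]
  refine ⟨MonoidHom.mk' (fun γ => σ (γ : SL(2, ℤ)) (baseCoset Γ)) fun γ δ => ?_, ?_, ?_⟩
  · rw [Subgroup.coe_mul, hmulσ, smul_baseCoset_of_mem]
  · refine MonoidHom.ext fun γ => ?_
    show π (σ (γ : SL(2, ℤ)) (baseCoset Γ)) = f γ
    rw [(hall _).2]
    refine congrArg f (Subtype.ext ?_)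
    show (r ((γ : SL(2, ℤ)) • baseCoset Γ))⁻¹ * (γ : SL(2, ℤ)) * r (baseCoset Γ) = γ
    rw [smul_baseCoset_of_mem]
    simp [r]
  · show σ (-1 : SL(2, ℤ)) (baseCoset Γ) = 1
    show (ρ (-1 : SL(2, ℤ)) (baseCoset Γ, 1)).2 = 1
    rw [← S_sq, ← hSdef, map_pow, hρS, hP, Equiv.Perm.one_apply]

/-- Homomorphisms out of `Γ ∋ -1` killing `-1` lift along a surjection `π`, provided elements
with square one lift to such elements, and likewise for cubes unless `S T` has no fixed coset. -/
theorem exists_lift_of_subgroup {E E' : Type*} [Group E] [Group E'] (π : E →* E')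
    (hπ : Function.Surjective π) (h2 : ∀ b : E', b ^ 2 = 1 → ∃ a : E, π a = b ∧ a ^ 2 = 1)
    (Γ : Subgroup SL(2, ℤ)) (hΓ : (-1 : SL(2, ℤ)) ∈ Γ)
    (h3 : (∀ x : Coset Γ, matU • x ≠ x) ∨ ∀ b : E', b ^ 3 = 1 → ∃ a : E, π a = b ∧ a ^ 3 = 1)
    (f : Γ →* E') (hf : f ⟨-1, hΓ⟩ = 1) : ∃ g : Γ →* E, π.comp g = f :=
  (exists_lift_of_subgroup_gen π hπ Γ (Or.inr h2) hΓ h3 f hf).imp fun _ h => h.1

section affine

set_option linter.unusedSectionVars false

variable {R : Type u} [CommRing R] (G : Subgroup Rˣ) (V : Type u) [AddCommGroup V] [Module R V]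

/-- Translations combined with the scalars in `G`. -/
@[ext]
structure TwistPair where
  /-- The translation part. -/
  trans : V
  /-- The scalar part. -/
  scal : G

namespace TwistPair

variable {G V}

instance : One (TwistPair G V) := ⟨⟨0, 1⟩⟩
instance : Mul (TwistPair G V) :=
  ⟨fun a b => ⟨a.trans + ((a.scal : Rˣ) : R) • b.trans, a.scal * b.scal⟩⟩
instance : Inv (TwistPair G V) :=
  ⟨fun a => ⟨-((((a.scal⁻¹ : G) : Rˣ) : R) • a.trans), a.scal⁻¹⟩⟩

@[simp] theorem one_trans : (1 : TwistPair G V).trans = 0 := rfl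
@[simp] theorem one_scal : (1 : TwistPair G V).scal = 1 := rfl
@[simp] theorem mul_trans (a b : TwistPair G V) :
    (a * b).trans = a.trans + ((a.scal : Rˣ) : R) • b.trans := rfl
@[simp] theorem mul_scal (a b : TwistPair G V) : (a * b).scal = a.scal * b.scal := rfl
@[simp] theorem inv_trans (a : TwistPair G V) :
    (a⁻¹).trans = -((((a.scal⁻¹ : G) : Rˣ) : R) • a.trans) := rfl
@[simp] theorem inv_scal (a : TwistPair G V) : (a⁻¹).scal = a.scal⁻¹ := rfl

instance : Group (TwistPair G V) where
  mul_assoc a b c := by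
    refine TwistPair.ext ?_ (mul_assoc _ _ _)
    simp only [mul_trans, mul_scal, Subgroup.coe_mul, Units.val_mul, smul_add, mul_smul]; abel
  one_mul a := TwistPair.ext (by simp) (one_mul _)
  mul_one a := TwistPair.ext (by simp) (mul_one _)
  inv_mul_cancel a := TwistPair.ext (by simp) (inv_mul_cancel _)

theorem eq_one_of_pow_eq_one {n : ℕ} (hn : IsUnit (n : R)) (hG : ∀ u : G, u ^ n = 1 → u = 1)
    (a : TwistPair G V) (ha : a ^ n = 1) : a = 1 := by
  have hs : ∀ m : ℕ, (a ^ m).scal = a.scal ^ m := fun m => by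
    induction m with
    | zero => simp
    | succ m ih => rw [pow_succ, mul_scal, ih, pow_succ]
  have hscal : a.scal = 1 := hG _ (by rw [← hs, ha, one_scal])
  have ht : ∀ m : ℕ, (a ^ m).trans = (m : R) • a.trans := fun m => by
    induction m with
    | zero => simp
    | succ m ih =>
      rw [pow_succ, mul_trans, ih, hs, hscal, one_pow]
      simp [add_smul]
  refine TwistPair.ext ?_ hscal
  have h := ht n
  rw [ha, one_trans] at h
  obtain ⟨u, hu⟩ := hn
  rw [← hu] at h
  simpa using congrArg ((↑(u⁻¹ : Rˣ) : R) • ·) h.symm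

/-- Functoriality. -/
def map {W : Type u} [AddCommGroup W] [Module R W] (φ : V →ₗ[R] W) :
    TwistPair G V →* TwistPair G W where
  toFun a := ⟨φ a.trans, a.scal⟩
  map_one' := TwistPair.ext (map_zero φ) rfl
  map_mul' a b := TwistPair.ext (by simp) rfl

end TwistPair

end affine

/-- Twisted cocycles of a subgroup `Γ ∋ -1` of `SL(2, ℤ)` lift along surjections. -/
theorem hasLifts_subgroup {R : Type u} [CommRing R] (Γ : Subgroup SL(2, ℤ))
    (hΓ : (-1 : SL(2, ℤ)) ∈ Γ) (χ : Γ →* Rˣ) (h2 : IsUnit (2 : R))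
    (hχ2 : ∀ γ, χ γ ^ 2 = 1 → χ γ = 1)
    (h3 : (∀ x : Coset Γ, matU • x ≠ x) ∨ (IsUnit (3 : R) ∧ ∀ γ, χ γ ^ 3 = 1 → χ γ = 1)) :
    HasLifts χ := by
  intro A B _ _ _ _ φ hφ f
  have hG : ∀ n : ℕ, (∀ γ, χ γ ^ n = 1 → χ γ = 1) → ∀ u : χ.range, u ^ n = 1 → u = 1 := by
    rintro n h ⟨_, γ, rfl⟩ hu
    exact Subtype.ext (h γ (congrArg Subtype.val hu))
  let π : TwistPair χ.range A →* TwistPair χ.range B := TwistPair.map φ
  have hπ : Function.Surjective π := fun b => by
    obtain ⟨a, ha⟩ := hφ b.trans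
    exact ⟨⟨a, b.scal⟩, TwistPair.ext ha rfl⟩
  let F : Γ →* TwistPair χ.range B :=
    { toFun := fun γ => ⟨f.1 γ, χ.rangeRestrict γ⟩
      map_one' := TwistPair.ext (tCocycles_one χ f) (map_one _)
      map_mul' := fun γ δ => TwistPair.ext (f.2 γ δ) (map_mul _ _ _) }
  have hsq : (⟨-1, hΓ⟩ : Γ) * ⟨-1, hΓ⟩ = 1 := Subtype.ext (by simp)
  have hF : F ⟨-1, hΓ⟩ = 1 := by
    refine TwistPair.eq_one_of_pow_eq_one (n := 2) (by exact_mod_cast h2) (hG 2 hχ2) _ ?_
    rw [pow_two, ← map_mul, hsq, map_one]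
  obtain ⟨g, hg⟩ := exists_lift_of_subgroup π hπ
    (fun b hb => ⟨1, by
      rw [TwistPair.eq_one_of_pow_eq_one (n := 2) (by exact_mod_cast h2) (hG 2 hχ2) b hb, map_one],
      one_pow _⟩)
    Γ hΓ
    (h3.imp id fun h b hb => ⟨1, by
      rw [TwistPair.eq_one_of_pow_eq_one (n := 3) (by exact_mod_cast h.1) (hG 3 h.2) b hb, map_one],
      one_pow _⟩)
    F hF
  have hscal : ∀ γ, (((g γ).scal : χ.range) : Rˣ) = χ γ := fun γ =>
    congrArg Subtype.val (congrArg TwistPair.scal (DFunLike.congr_fun hg γ))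
  refine ⟨⟨fun γ => (g γ).trans, fun γ δ => ?_⟩, Subtype.ext (funext fun γ => ?_)⟩
  · show (g (γ * δ)).trans = (g γ).trans + (χ γ : R) • (g δ).trans
    rw [map_mul, TwistPair.mul_trans, hscal]
  · exact congrArg TwistPair.trans (DFunLike.congr_fun hg γ)

end FLTA.RT
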