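import Fermat.Agent.RT.FreeCocycle
import Mathlib.RingTheory.Filtration
import Mathlib.RingTheory.Nakayama
import Mathlib.RingTheory.LocalRing.Quotient
import Mathlib.LinearAlgebra.FreeModule.Basic
import Mathlib.RingTheory.Ideal.Quotient.Operations
import Mathlib.LinearAlgebra.Pi
import Mathlib.GroupTheory.Finiteness

/-!
# Freeness of the localised twisted cohomology over the coefficient ring

`NatEnd χ` is a natural family of endomorphisms of twisted cohomology; sums, products and scalar
multiples of Hecke operators are such families. For a family `e` which is idempotent on `tH1 χ R`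
and factors there through a Hecke operator minus its degree, `eImage e R` is free over the local
noetherian ring `R` and commutes with base change to quotients of `R`.
-/

set_option autoImplicit false

noncomputable section

universe u

namespace FLTA.RT

open FLTA.Periods

variable {Γ : Type*} [Group Γ] {R : Type u} [CommRing R] {χ : Γ →* Rˣ}

/-- A natural family of endomorphisms of twisted cohomology. -/
structure NatEnd (χ : Γ →* Rˣ) where
  app : ∀ (V : Type u) [AddCommGroup V] [Module R V], tH1 χ V →ₗ[R] tH1 χ V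
  natural : ∀ {V W : Type u} [AddCommGroup V] [Module R V] [AddCommGroup W] [Module R W]
    (φ : V →ₗ[R] W) (x : tH1 χ V), app W (tH1Map χ φ x) = tH1Map χ φ (app V x)

namespace NatEnd

instance : One (NatEnd χ) :=
  ⟨{ app := fun _ _ _ => LinearMap.id, natural := fun _ _ => rfl }⟩

instance : Mul (NatEnd χ) :=
  ⟨fun a b =>
    { app := fun V _ _ => (a.app V).comp (b.app V)
      natural := fun φ x => by simp only [LinearMap.comp_apply, b.natural, a.natural] }⟩

instance : Add (NatEnd χ) :=
  ⟨fun a b =>
    { app := fun V _ _ => a.app V + b.app V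
      natural := fun φ x => by simp only [LinearMap.add_apply, a.natural, b.natural, map_add] }⟩

instance : SMul R (NatEnd χ) :=
  ⟨fun r a =>
    { app := fun V _ _ => r • a.app V
      natural := fun φ x => by simp only [LinearMap.smul_apply, a.natural, map_smul] }⟩

instance : Zero (NatEnd χ) :=
  ⟨{ app := fun _ _ _ => 0, natural := fun φ x => by simp }⟩

variable {V : Type u} [AddCommGroup V] [Module R V]

@[simp] theorem one_app (x : tH1 χ V) : (1 : NatEnd χ).app V x = x := rfl
@[simp] theorem zero_app (x : tH1 χ V) : (0 : NatEnd χ).app V x = 0 := rfl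
@[simp] theorem mul_app (a b : NatEnd χ) (x : tH1 χ V) :
    (a * b).app V x = a.app V (b.app V x) := rfl
@[simp] theorem add_app (a b : NatEnd χ) (x : tH1 χ V) :
    (a + b).app V x = a.app V x + b.app V x := rfl
@[simp] theorem smul_app (r : R) (a : NatEnd χ) (x : tH1 χ V) :
    (r • a).app V x = r • a.app V x := rfl

end NatEnd

section hecke

variable {G : Type*} [Group G] {emb : Γ →* G} {ι : Type*} [Fintype ι] {S : HeckeReps emb ι}
  {c : ι → Rˣ}

/-- A Hecke operator as a natural family. -/
def IsWeight.natEnd (hc : IsWeight χ S c) : NatEnd χ where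
  app V _ _ := hc.op V
  natural φ x := hc.op_natural φ x

/-- A Hecke operator minus its degree. -/
def IsWeight.etaEnd (hc : IsWeight χ S c) : NatEnd χ :=
  hc.natEnd + (-(Fintype.card ι : R)) • 1

theorem IsWeight.etaEnd_eq_zero (hc : IsWeight χ S c) (hrange : ∀ x, ∃ γ, χ γ = c x) {U V : Type u} [AddCommGroup U] [Module R U]
    [AddCommGroup V] [Module R V] (φ : U →ₗ[R] V) (hφ : Function.Injective φ) (y : tH1 χ U)
    (hy : tH1Map χ φ y = 0) : hc.etaEnd.app U y = 0 := by
  rw [etaEnd, NatEnd.add_app, NatEnd.smul_app, NatEnd.one_app, neg_smul, ← sub_eq_add_neg]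
  exact hc.sub_card_eq_zero_of_map_eq_zero hrange φ hφ y hy

end hecke

variable (e : NatEnd χ)

/-- `a` and `b` agree on the coefficient ring. -/
def EqAtRing (a b : NatEnd χ) : Prop :=
  ∀ x : tH1 χ R, a.app R x = b.app R x

/-- The image of `e`. -/
def eImage (V : Type u) [AddCommGroup V] [Module R V] : Submodule R (tH1 χ V) :=
  LinearMap.range (e.app V)

variable {e} {V W : Type u} [AddCommGroup V] [Module R V] [AddCommGroup W] [Module R W]

theorem tH1Map_mem_eImage (φ : V →ₗ[R] W) {x : tH1 χ V} (hx : x ∈ eImage e V) :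
    tH1Map χ φ x ∈ eImage e W := by
  obtain ⟨y, rfl⟩ := hx
  exact ⟨tH1Map χ φ y, e.natural φ y⟩

variable (hlift : HasLifts χ)

/-- Equality at `R` propagates to finite free modules. -/
theorem eq_at_pi (a b : NatEnd χ) (h : EqAtRing a b) (ι : Type) [Fintype ι]
    (x : tH1 χ (ι → R)) : a.app (ι → R) x = b.app (ι → R) x := by
  classical
  have hsum : x = ∑ i, tH1Map χ (LinearMap.single R (fun _ : ι => R) i)
      (tH1Map χ (LinearMap.proj i : (ι → R) →ₗ[R] R) x) := by
    conv_lhs => rw [← tH1Map_id χ x]
    simp only [← tH1Map_comp]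
    rw [← tH1Map_sum]
    congr 2
    refine LinearMap.ext fun f => ?_
    simp [Finset.univ_sum_single]
  rw [hsum, map_sum, map_sum]
  exact Finset.sum_congr rfl fun i _ => by rw [a.natural, b.natural, h]

include hlift in
/-- Equality at `R` propagates to finitely generated modules. -/
theorem eq_at_finite (a b : NatEnd χ) (h : EqAtRing a b) [Module.Finite R V] (x : tH1 χ V) :
    a.app V x = b.app V x := by
  obtain ⟨n, π, hπ⟩ := Module.Finite.exists_fin' R V
  obtain ⟨y, rfl⟩ := tH1Map_surjective χ hlift π hπ x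
  rw [a.natural, b.natural, eq_at_pi a b h]

variable (hidem : EqAtRing (e * e) e)

include hlift hidem in
theorem e_app_of_mem [Module.Finite R V] {x : tH1 χ V} (hx : x ∈ eImage e V) : e.app V x = x := by
  obtain ⟨y, rfl⟩ := hx
  exact eq_at_finite hlift _ _ hidem y

include hlift in
theorem eImage_surjective (φ : V →ₗ[R] W) (hφ : Function.Surjective φ) {y : tH1 χ W}
    (hy : y ∈ eImage e W) : ∃ x ∈ eImage e V, tH1Map χ φ x = y := by
  obtain ⟨z, rfl⟩ := hy
  obtain ⟨x, rfl⟩ := tH1Map_surjective χ hlift φ hφ z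
  exact ⟨e.app V x, LinearMap.mem_range_self _ x, (e.natural φ x).symm⟩

/-- The obstruction to left exactness is killed by `e`. -/
def KillsObstruction (e : NatEnd χ) : Prop :=
  ∀ (U V : Type u) [AddCommGroup U] [Module R U] [AddCommGroup V] [Module R V]
    [Module.Finite R U] (φ : U →ₗ[R] V), Function.Injective φ → ∀ y : tH1 χ U,
      tH1Map χ φ y = 0 → e.app U y = 0

include hlift in
/-- A family which factors at `R` through a Hecke operator minus its degree kills the
obstruction. -/
theorem killsObstruction_of_factor {G : Type*} [Group G] {emb : Γ →* G} {ι : Type*} [Fintype ι]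
    {S : HeckeReps emb ι} {c : ι → Rˣ} (hc : IsWeight χ S c) (hrange : ∀ x, ∃ γ, χ γ = c x)
    (g : NatEnd χ)
    (h : EqAtRing e (g * hc.etaEnd)) : KillsObstruction e := by
  intro U V _ _ _ _ _ φ hφ y hy
  rw [eq_at_finite hlift _ _ h y, NatEnd.mul_app, hc.etaEnd_eq_zero hrange φ hφ y hy, map_zero]

variable (hkill : KillsObstruction e)

include hlift hidem hkill in
theorem eImage_injective {U : Type u} [AddCommGroup U] [Module R U] [Module.Finite R U]
    (φ : U →ₗ[R] V) (hφ : Function.Injective φ) {x : tH1 χ U} (hx : x ∈ eImage e U)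
    (h : tH1Map χ φ x = 0) : x = 0 := by
  rw [← e_app_of_mem hlift hidem hx]
  exact hkill U V φ hφ x h

variable [IsNoetherianRing R]

include hlift hidem in
/-- The kernel of reduction modulo an ideal. -/
theorem mem_smul_of_map_mk_eq_zero (I : Ideal R) {x : tH1 χ R} (hx : x ∈ eImage e R)
    (h : tH1Map χ (I.mkQ : R →ₗ[R] R ⧸ I) x = 0) : x ∈ I • eImage e R := by
  classical
  obtain ⟨n, μ, hμ⟩ := Submodule.fg_iff_exists_fin_generating_family.mp
    (IsNoetherian.noetherian I)
  let ψ : (Fin n → R) →ₗ[R] R := Fintype.linearCombination R μ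
  have hrange : LinearMap.range ψ = I := by rw [Fintype.range_linearCombination, hμ]
  obtain ⟨y, hy⟩ := exists_of_tH1Map_eq_zero χ (I.subtype) I.mkQ I.subtype_injective
    (Submodule.mkQ_surjective I) (by rw [Submodule.ker_mkQ, Submodule.range_subtype]) x h
  let ψ' : (Fin n → R) →ₗ[R] I := ψ.codRestrict I fun c => hrange ▸ LinearMap.mem_range_self ψ c
  have hψ' : Function.Surjective ψ' := fun i => by
    obtain ⟨c, hc⟩ := LinearMap.mem_range.mp (hrange.symm ▸ i.2 : (i : R) ∈ LinearMap.range ψ)
    exact ⟨c, Subtype.ext hc⟩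
  obtain ⟨z, rfl⟩ := tH1Map_surjective χ hlift ψ' hψ' y
  rw [← tH1Map_comp] at hy
  have hx' : x = tH1Map χ (I.subtype.comp ψ') (e.app (Fin n → R) z) := by
    rw [← e.natural, hy, e_app_of_mem hlift hidem hx]
  have hdec : I.subtype.comp ψ' = ∑ i, μ i • (LinearMap.proj i : (Fin n → R) →ₗ[R] R) := by
    refine LinearMap.ext fun c => ?_
    simp [ψ', ψ, Fintype.linearCombination_apply, mul_comm]
  rw [hx', hdec, tH1Map_sum]
  refine Submodule.sum_mem _ fun i _ => ?_
  rw [tH1Map_smul]
  exact Submodule.smul_mem_smul (hμ ▸ Submodule.subset_span ⟨i, rfl⟩)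
    (tH1Map_mem_eImage _ (LinearMap.mem_range_self _ z))

omit [IsNoetherianRing R] in
theorem map_mk_eq_zero_of_mem_smul (I : Ideal R) {x : tH1 χ R} (hx : x ∈ I • eImage e R) :
    tH1Map χ (I.mkQ : R →ₗ[R] R ⧸ I) x = 0 := by
  induction hx using Submodule.smul_induction_on' with
  | smul a ha y _ =>
    rw [map_smul, ← tH1Map_smul,
      show a • (I.mkQ : R →ₗ[R] R ⧸ I) = 0 from LinearMap.ext fun r => ?_, tH1Map_zero]
    rw [LinearMap.smul_apply, ← map_smul, Submodule.mkQ_apply, LinearMap.zero_apply,
      Submodule.Quotient.mk_eq_zero, smul_eq_mul]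
    exact I.mul_mem_right r ha
  | add a _ b _ ha hb => rw [map_add, ha, hb, add_zero]

omit [IsNoetherianRing R] in
/-- A cocycle is determined by its values on generators. -/
theorem tCocycles_ext_of_closure {S : Set Γ} (hS : Subgroup.closure S = ⊤) {V : Type u}
    [AddCommGroup V] [Module R V] {f f' : tCocycles χ V} (h : ∀ s ∈ S, f.1 s = f'.1 s) :
    f = f' := by
  refine Subtype.ext (funext fun g => ?_)
  have hg : g ∈ Subgroup.closure S := hS ▸ Subgroup.mem_top g
  induction hg using Subgroup.closure_induction with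
  | mem s hs => exact h s hs
  | one => rw [tCocycles_one, tCocycles_one]
  | mul a b _ _ ha hb => rw [f.2, f'.2, ha, hb]
  | inv a _ ha =>
    have h1 := f.2 a a⁻¹
    have h2 := f'.2 a a⁻¹
    rw [mul_inv_cancel, tCocycles_one] at h1 h2
    rw [ha] at h1
    have h3 : (χ a : R) • f.1 a⁻¹ = (χ a : R) • f'.1 a⁻¹ := by
      rw [← add_right_inj (f'.1 a), ← h1, ← h2]
    rwa [← Units.smul_def, ← Units.smul_def, smul_left_cancel_iff] at h3

/-- Twisted cohomology of a finitely generated group is finite over a noetherian ring. -/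
theorem finite_tH1 [Group.FG Γ] (V : Type u) [AddCommGroup V] [Module R V] [Module.Finite R V] :
    Module.Finite R (tH1 χ V) := by
  obtain ⟨S, hS, hfin⟩ := Group.fg_iff.mp (inferInstance : Group.FG Γ)
  have : Finite S := hfin
  let ev : tCocycles χ V →ₗ[R] (S → V) :=
    { toFun := fun f s => f.1 s
      map_add' := fun _ _ => rfl
      map_smul' := fun _ _ => rfl }
  have hev : Function.Injective ev := fun f f' h =>
    tCocycles_ext_of_closure hS fun s hs => congrFun h ⟨s, hs⟩
  have : Module.Finite R (tCocycles χ V) := Module.Finite.of_injective ev hev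
  exact Module.Finite.of_surjective _ (tClass_surjective χ)

theorem finite_eImage [Group.FG Γ] (V : Type u) [AddCommGroup V] [Module R V] [Module.Finite R V] :
    Module.Finite R (eImage e V) :=
  haveI := finite_tH1 (χ := χ) V
  inferInstance

include hlift hidem in
/-- Base change to a quotient of the coefficient ring. -/
theorem exists_eImageQuotEquiv (I : Ideal R) :
    ∃ Φ : ((eImage e R) ⧸ (I • ⊤ : Submodule R (eImage e R))) ≃ₗ[R] eImage e (R ⧸ I),
      ∀ x : eImage e R, (Φ (Submodule.Quotient.mk x) : tH1 χ (R ⧸ I)) =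
        tH1Map χ (I.mkQ : R →ₗ[R] R ⧸ I) (x : tH1 χ R) := by
  let f : eImage e R →ₗ[R] eImage e (R ⧸ I) :=
    ((tH1Map χ (I.mkQ : R →ₗ[R] R ⧸ I)).comp (eImage e R).subtype).codRestrict _
      fun x => tH1Map_mem_eImage _ x.2
  have hker : LinearMap.ker f = (I • ⊤ : Submodule R (eImage e R)) := by
    ext x
    rw [LinearMap.mem_ker, Submodule.mem_smul_top_iff I (eImage e R) x]
    exact ⟨fun h => mem_smul_of_map_mk_eq_zero hlift hidem I x.2 (congrArg Subtype.val h),
      fun h => Subtype.ext (map_mk_eq_zero_of_mem_smul I h)⟩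
  have hsurj : Function.Surjective f := fun y => by
    obtain ⟨x, hx, hxy⟩ := eImage_surjective hlift I.mkQ (Submodule.mkQ_surjective I) y.2
    exact ⟨⟨x, hx⟩, Subtype.ext hxy⟩
  exact ⟨(Submodule.quotEquivOfEq _ _ hker.symm).trans (f.quotKerEquivOfSurjective hsurj),
    fun x => rfl⟩

variable [IsLocalRing R]

include hlift hidem hkill in
/-- Freeness over the coefficient ring. -/
theorem free_eImage [Module.Finite R (eImage e R)] : Module.Free R (eImage e R) := by
  classical
  let M := eImage e R
  let 𝔪 := IsLocalRing.maximalIdeal R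
  let k := R ⧸ 𝔪
  let Q := M ⧸ (𝔪 • ⊤ : Submodule R M)
  let _ : Field k := Ideal.Quotient.field 𝔪
  have : Module.Finite R Q := inferInstance
  have : Module.Finite k Q := Module.Finite.of_restrictScalars_finite R k Q
  let b : Module.Basis (Fin (Module.finrank k Q)) k Q := Module.finBasis k Q
  choose g hg using fun i => Submodule.mkQ_surjective (𝔪 • ⊤ : Submodule R M) (b i)
  -- independence modulo the maximal ideal
  have hindep : ∀ c : Fin (Module.finrank k Q) → R,
      tH1Map χ (𝔪.mkQ : R →ₗ[R] k) ((∑ i, c i • g i : M) : tH1 χ R) = 0 → ∀ i, c i ∈ 𝔪 := by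
    intro c hc
    have h1 := mem_smul_of_map_mk_eq_zero hlift hidem 𝔪 (∑ i, c i • g i : M).2 hc
    have h2 : (∑ i, c i • g i : M) ∈ (𝔪 • ⊤ : Submodule R M) :=
      (Submodule.mem_smul_top_iff 𝔪 M _).mpr h1
    have h3 : ∑ i, (Ideal.Quotient.mk 𝔪 (c i)) • b i = 0 := by
      rw [← (Submodule.Quotient.mk_eq_zero _).mpr h2, ← Submodule.mkQ_apply, map_sum]
      exact Finset.sum_congr rfl fun i _ => by rw [map_smul, hg]; rfl
    exact fun i => Ideal.Quotient.eq_zero_iff_mem.mp
      (Fintype.linearIndependent_iff.mp b.linearIndependent _ h3 i)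
  -- spanning
  have hspan : ⊤ ≤ Submodule.span R (Set.range g) := by
    refine Submodule.le_of_le_smul_of_le_jacobson_bot Module.Finite.fg_top
      (IsLocalRing.maximalIdeal_le_jacobson ⊥) (I := 𝔪) fun x _ => ?_
    obtain ⟨c, hc⟩ : ∃ c : Fin (Module.finrank k Q) → R,
        (𝔪 • ⊤ : Submodule R M).mkQ x = ∑ i, Ideal.Quotient.mk 𝔪 (c i) • b i := by
      refine ⟨fun i => (Ideal.Quotient.mk_surjective (b.repr ((𝔪 • ⊤ : Submodule R M).mkQ x) i)).choose,
        ?_⟩
      simp only [(Ideal.Quotient.mk_surjective _).choose_spec]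
      exact (b.sum_repr _).symm
    refine Submodule.mem_sup.mpr ⟨∑ i, c i • g i,
      Submodule.sum_mem _ fun i _ => Submodule.smul_mem _ _ (Submodule.subset_span ⟨i, rfl⟩),
      x - ∑ i, c i • g i, ?_, add_sub_cancel _ _⟩
    rw [← Submodule.Quotient.mk_eq_zero, ← Submodule.mkQ_apply, map_sub, hc, map_sum, sub_eq_zero]
    exact Finset.sum_congr rfl fun i _ => by rw [map_smul, hg]; rfl
  -- linear independence
  have hli : LinearIndependent R g := by
    rw [Fintype.linearIndependent_iff]
    intro a ha i
    suffices h : ∀ n : ℕ, ∀ j, a j ∈ 𝔪 ^ n by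
      have h' : a i ∈ ⨅ n : ℕ, 𝔪 ^ n := Submodule.mem_iInf _ |>.mpr fun n => h n i
      rwa [Ideal.iInf_pow_eq_bot_of_isLocalRing _ (IsLocalRing.maximalIdeal.isMaximal R).ne_top,
        Ideal.mem_bot] at h'
    intro n
    induction n with
    | zero => simp
    | succ n ih =>
      let I : Ideal R := 𝔪 ^ (n + 1)
      -- the graded piece, as a vector space over the residue field
      let P := (𝔪 ^ n : Ideal R) ⧸ (𝔪 • ⊤ : Submodule R (𝔪 ^ n : Ideal R))
      have : Module.Finite R P := inferInstance
      have : Module.Finite k P := Module.Finite.of_restrictScalars_finite R k P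
      let d := Module.finrank k P
      let L : P ≃ₗ[R] (Fin d → k) := ((Module.finBasis k P).equivFun).restrictScalars R
      have hsub : ∀ y : (𝔪 ^ n : Ideal R),
          y ∈ (𝔪 • ⊤ : Submodule R (𝔪 ^ n : Ideal R)) ↔ (y : R) ∈ I := fun y => by
        rw [Submodule.mem_smul_top_iff 𝔪 (𝔪 ^ n : Ideal R) y]
        simp only [I, pow_succ', smul_eq_mul]
      let inc : P →ₗ[R] R ⧸ I := Submodule.liftQ _ ((I.mkQ).comp (𝔪 ^ n : Ideal R).subtype)
        fun y hy => by
          rw [LinearMap.mem_ker, LinearMap.comp_apply, Submodule.mkQ_apply,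
            Submodule.Quotient.mk_eq_zero]
          exact (hsub y).mp hy
      have hinc : Function.Injective inc := by
        rw [← LinearMap.ker_eq_bot, Submodule.ker_liftQ_eq_bot]
        intro y hy
        rw [LinearMap.mem_ker, LinearMap.comp_apply, Submodule.mkQ_apply,
          Submodule.Quotient.mk_eq_zero] at hy
        exact (hsub y).mpr hy
      let φ : (Fin d → k) →ₗ[R] R ⧸ I := inc.comp L.symm.toLinearMap
      have hφ : Function.Injective φ := hinc.comp L.symm.injective
      let v : Fin (Module.finrank k Q) → (Fin d → k) := fun j =>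
        L (Submodule.Quotient.mk ⟨a j, ih j⟩)
      let z : tH1 χ (Fin d → k) :=
        ∑ j, tH1Map χ (LinearMap.toSpanSingleton R _ (v j)) (g j : tH1 χ R)
      have hz : z ∈ eImage e (Fin d → k) :=
        Submodule.sum_mem _ fun j _ => tH1Map_mem_eImage _ (g j).2
      have hφz : tH1Map χ φ z = 0 := by
        have hj : ∀ j, φ.comp (LinearMap.toSpanSingleton R _ (v j)) = a j • I.mkQ := fun j => by
          refine LinearMap.ext_ring ?_
          simp [φ, v, inc, LinearMap.toSpanSingleton_apply]
          show (Submodule.Quotient.mk (a j) : R ⧸ I) = a j • Submodule.Quotient.mk 1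
          rw [← Submodule.Quotient.mk_smul, smul_eq_mul, mul_one]
        rw [map_sum]
        simp only [← tH1Map_comp, hj, tH1Map_smul, ← map_smul]
        rw [← map_sum]
        have h0 : ((∑ j, a j • g j : M) : tH1 χ R) = 0 := by rw [ha]; rfl
        rw [show (∑ j, a j • (g j : tH1 χ R)) = ((∑ j, a j • g j : M) : tH1 χ R) by simp, h0,
          map_zero]
      have hz0 := eImage_injective hlift hidem hkill φ hφ hz hφz
      intro j
      have hvj : v j = 0 := by
        funext t
        obtain ⟨c, hc⟩ : ∃ c : Fin (Module.finrank k Q) → R, ∀ l, v l t = Ideal.Quotient.mk 𝔪 (c l) :=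
          ⟨fun l => (Ideal.Quotient.mk_surjective (v l t)).choose,
            fun l => (Ideal.Quotient.mk_surjective (v l t)).choose_spec.symm⟩
        have ht : tH1Map χ (LinearMap.proj t : (Fin d → k) →ₗ[R] k) z = 0 := by rw [hz0, map_zero]
        have hcomp : ∀ l, (LinearMap.proj t : (Fin d → k) →ₗ[R] k).comp
            (LinearMap.toSpanSingleton R _ (v l)) = c l • 𝔪.mkQ := fun l => by
          refine LinearMap.ext_ring ?_
          simp [hc l, LinearMap.toSpanSingleton_apply, Submodule.mkQ_apply, ← Ideal.Quotient.mk_eq_mk,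
            ← Submodule.Quotient.mk_smul]
        rw [map_sum] at ht
        simp only [← tH1Map_comp, hcomp, tH1Map_smul, ← map_smul] at ht
        rw [← map_sum] at ht
        have hmem := hindep c (by simpa using ht) j
        rw [Pi.zero_apply, hc j]
        exact Ideal.Quotient.eq_zero_iff_mem.mpr hmem
      exact (hsub ⟨a j, ih j⟩).mp
        ((Submodule.Quotient.mk_eq_zero _).mp (L.map_eq_zero_iff.mp hvj))
  exact Module.Free.of_basis (Module.Basis.mk hli hspan)

end FLTA.RT
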