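import Fermat.Agent.RT.CoeffComm
import Fermat.Agent.RT.FreeLift
import Fermat.Agent.RT.FreeMain
import Mathlib.Data.ZMod.Units
import Mathlib.GroupTheory.Schreier
import Mathlib.NumberTheory.ModularForms.CongruenceSubgroups

/-!
# Twisted cohomology of `Γ₀(L)`

Lifting of twisted cocycles, finite generation, the natural families `natHecke χ l` of Hecke
operators (commuting; `T_l - (l + 1)` kills the obstruction to exactness), and the comparison with
homomorphisms where the twist acts trivially, e.g. on coinvariants.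
-/

set_option autoImplicit false

noncomputable section

universe u

open CongruenceSubgroup
open scoped MatrixGroups OnePoint

namespace FLTA.RT

open FLTA.Periods

variable {L : ℕ}

theorem aUnit_surjective (L : ℕ) : Function.Surjective (aUnit L) := by
  intro u
  obtain ⟨a, ha⟩ := ZMod.intCast_surjective (u : ZMod L)
  obtain ⟨x, y, hxy⟩ := (ZMod.coe_int_isUnit_iff_isCoprime a L).mp (ha ▸ u.isUnit)
  have hdet : (!![a, -x; (L : ℤ), y] : Matrix (Fin 2) (Fin 2) ℤ).det = 1 := by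
    rw [Matrix.det_fin_two_of]
    linear_combination hxy
  refine ⟨⟨⟨_, hdet⟩, mem_Gamma0_of_dvd (by simp)⟩, Units.ext ?_⟩
  simpa using ha

theorem neg_one_mem_Gamma0 (L : ℕ) : (-1 : SL(2, ℤ)) ∈ Gamma0 L :=
  mem_Gamma0_of_dvd (by simp)

theorem group_fg_Gamma0 (L : ℕ) [NeZero L] : Group.FG (Gamma0 L) := by
  have : Group.FG SL(2, ℤ) := Group.fg_iff.mpr
    ⟨{ModularGroup.S, ModularGroup.T}, SpecialLinearGroup.SL2Z_generators, Set.toFinite _⟩
  exact Subgroup.fg_of_index_ne_zero _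

/-- A natural number prime to the residue characteristic is a unit. -/
theorem isUnit_natCast_of_coprime {R : Type*} [CommRing R] [IsLocalRing R] {p m : ℕ}
    (hp : (p : R) ∈ IsLocalRing.maximalIdeal R) (h : m.Coprime p) : IsUnit (m : R) := by
  by_contra hm
  have hab := Nat.gcd_eq_gcd_ab m p
  rw [h, Nat.cast_one] at hab
  refine (IsLocalRing.maximalIdeal.isMaximal R).ne_top ((Ideal.eq_top_iff_one _).mpr ?_)
  have : (1 : R) = (m : R) * (Nat.gcdA m p : R) + (p : R) * (Nat.gcdB m p : R) := by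
    have h1 := congrArg (Int.cast : ℤ → R) hab
    push_cast at h1
    exact h1
  rw [this]
  exact add_mem (Ideal.mul_mem_right _ _ ((IsLocalRing.mem_maximalIdeal _).mpr hm))
    (Ideal.mul_mem_right _ _ hp)

theorem eq_one_of_pow_coprime {G : Type*} [Monoid G] {x : G} {m n : ℕ} (h : m.Coprime n)
    (hm : x ^ m = 1) (hn : x ^ n = 1) : x = 1 := by
  have h1 : x ^ Nat.gcd m n = 1 := pow_gcd_eq_one.mpr ⟨hm, hn⟩
  rwa [h, pow_one] at h1

variable {R : Type u} [CommRing R]

/-- Twisted cocycles of `Γ₀(L)` lift, for characters of `p`-power order, `p ≥ 5`. -/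
theorem hasLifts_gamChar (χ : (ZMod L)ˣ →* Rˣ) {p : ℕ} (hp : p.Prime) (hp5 : 5 ≤ p)
    (h2 : IsUnit (2 : R)) (h3 : IsUnit (3 : R)) (hχ : ∀ u, ∃ k : ℕ, χ u ^ p ^ k = 1) :
    HasLifts (gamChar χ) := by
  have key : ∀ n : ℕ, n.Coprime p → ∀ γ, gamChar χ γ ^ n = 1 → gamChar χ γ = 1 := by
    intro n hn γ hγ
    obtain ⟨k, hk⟩ := hχ (aUnit L γ)
    exact eq_one_of_pow_coprime (hn.pow_right k) hγ hk
  have hc : ∀ n : ℕ, 1 < n → n < p → n.Coprime p := fun n h1 h2 =>
    ((hp.coprime_iff_not_dvd).mpr fun h => absurd (Nat.le_of_dvd (by omega) h) (by omega)).symm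
  exact hasLifts_subgroup (Gamma0 L) (neg_one_mem_Gamma0 L) _ h2
    (key 2 (hc 2 (by omega) (by omega))) (Or.inr ⟨h3, key 3 (hc 3 (by omega) (by omega))⟩)

variable (χ : (ZMod L)ˣ →* Rˣ) {l m : ℕ}

theorem isWeight_U [NeZero l] (hlL : l ∣ L) : IsWeight (gamChar χ) (repsU hlL) 1 :=
  ⟨fun γ x => by rw [Pi.one_apply, Pi.one_apply, one_mul, mul_one, gamChar_cocyc_U]⟩

theorem isWeight_T [Fact l.Prime] (hlL : ¬ l ∣ L) (hlL' : l.Coprime L) :
    IsWeight (gamChar χ) (repsT hlL) (hwT χ hlL') :=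
  ⟨fun γ x => gamChar_cocyc_T χ hlL hlL' γ x⟩

theorem hwT_mem_range (hlL' : l.Coprime L) (x : OnePoint (ZMod l)) :
    ∃ γ, gamChar χ γ = hwT χ hlL' x := by
  obtain ⟨γ, hγ⟩ := aUnit_surjective L (repUnit hlL' x)⁻¹
  exact ⟨γ, by rw [gamChar_apply, hγ, hwT_eq, map_inv]⟩

theorem coprime_of_not_dvd [hl : Fact l.Prime] (hlL : ¬ l ∣ L) : l.Coprime L :=
  hl.out.coprime_iff_not_dvd.mpr hlL

section natHecke

variable [NeZero L]

theorem neZero_of_dvd (h : l ∣ L) : NeZero l :=
  ⟨fun h0 => NeZero.ne L (by simpa [h0] using h)⟩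

open Classical in
/-- The Hecke operator at `l` as a natural family: `U_l` if `l ∣ L`, `T_l` if `l` is another
prime, else `0`. -/
def natHecke (l : ℕ) : NatEnd (gamChar χ) :=
  if h : l ∣ L then
    haveI := neZero_of_dvd h
    (isWeight_U χ h).natEnd
  else if hl : l.Prime then
    haveI := Fact.mk hl
    haveI : NeZero l := ⟨hl.ne_zero⟩
    (isWeight_T χ h (coprime_of_not_dvd h)).natEnd
  else 0

theorem natHecke_of_dvd [NeZero l] (h : l ∣ L) : natHecke χ l = (isWeight_U χ h).natEnd :=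
  dif_pos h

theorem natHecke_of_not_dvd [hl : Fact l.Prime] [NeZero l] (h : ¬ l ∣ L) :
    natHecke χ l = (isWeight_T χ h (coprime_of_not_dvd h)).natEnd :=
  (dif_neg h).trans (dif_pos hl.out)

/-- The operators at different primes commute. -/
theorem natHecke_comm (hl : l.Prime) (hm : m.Prime) (V : Type u) [AddCommGroup V] [Module R V]
    (x : tH1 (gamChar χ) V) :
    (natHecke χ l).app V ((natHecke χ m).app V x) =
      (natHecke χ m).app V ((natHecke χ l).app V x) := by
  rcases eq_or_ne l m with rfl | hlm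
  · rfl
  have hco : l.Coprime m := (Nat.coprime_primes hl hm).mpr hlm
  have : NeZero l := ⟨hl.ne_zero⟩
  have : NeZero m := ⟨hm.ne_zero⟩
  by_cases h1 : l ∣ L <;> by_cases h2 : m ∣ L
  · rw [natHecke_of_dvd χ h1, natHecke_of_dvd χ h2]
    exact (triU h1).op_comm (triU h2) hl.pos hm.pos hco _ _ (fun _ _ _ => rfl) (fun _ _ _ => rfl) V x
  · have := Fact.mk hm
    rw [natHecke_of_dvd χ h1, natHecke_of_not_dvd χ h2]
    exact (triU h1).op_comm (triT h2) hl.pos hm.pos hco _ _ (fun _ _ _ => rfl) (hwT_congr χ h2 _) V x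
  · have := Fact.mk hl
    rw [natHecke_of_not_dvd χ h1, natHecke_of_dvd χ h2]
    exact (triT h1).op_comm (triU h2) hl.pos hm.pos hco _ _ (hwT_congr χ h1 _) (fun _ _ _ => rfl) V x
  · have := Fact.mk hl
    have := Fact.mk hm
    rw [natHecke_of_not_dvd χ h1, natHecke_of_not_dvd χ h2]
    exact (triT h1).op_comm (triT h2) hl.pos hm.pos hco _ _ (hwT_congr χ h1 _) (hwT_congr χ h2 _) V x

/-- A family factoring at `R` through `T_l - (l + 1)` kills the obstruction to exactness. -/
theorem killsObstruction_of_sub_deg (hlift : HasLifts (gamChar χ)) (hl : l.Prime) (hlL : ¬ l ∣ L)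
    (e g : NatEnd (gamChar χ))
    (h : ∀ x : tH1 (gamChar χ) R,
      e.app R x = g.app R ((natHecke χ l).app R x - ((l : R) + 1) • x)) :
    KillsObstruction e := by
  have := Fact.mk hl
  have : NeZero l := ⟨hl.ne_zero⟩
  refine killsObstruction_of_factor hlift (isWeight_T χ hlL (coprime_of_not_dvd hlL))
    (hwT_mem_range χ _) g fun x => ?_
  have hcard : Fintype.card (OnePoint (ZMod l)) = l + 1 :=
    Fintype.card_option.trans (by rw [ZMod.card])
  rw [h, natHecke_of_not_dvd χ hlL, NatEnd.mul_app, IsWeight.etaEnd, NatEnd.add_app,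
    NatEnd.smul_app, NatEnd.one_app, hcard, Nat.cast_succ, neg_smul, ← sub_eq_add_neg]

end natHecke

section trivial

variable {Γ : Type*} [Group Γ] {ψ : Γ →* Rˣ} {V : Type u} [AddCommGroup V] [Module R V]
  {W : Type u} [AddCommGroup W] [Module R W]

/-- A cocycle is a homomorphism where the twist acts trivially. -/
def cocycleToHom (htriv : ∀ γ (v : V), (ψ γ : R) • v = v) :
    tCocycles ψ V ≃ₗ[R] (Additive Γ →+ V) where
  toFun f := AddMonoidHom.mk' (fun γ => f.1 (Additive.toMul γ)) fun γ δ => by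
    rw [toMul_add, f.2, htriv]
  invFun φ := ⟨fun γ => φ (Additive.ofMul γ), fun γ δ => by
    show φ (Additive.ofMul (γ * δ)) = φ (Additive.ofMul γ) + (ψ γ : R) • φ (Additive.ofMul δ)
    rw [htriv, ofMul_mul, map_add]⟩
  left_inv f := rfl
  right_inv φ := AddMonoidHom.ext fun _ => rfl
  map_add' f f' := AddMonoidHom.ext fun _ => rfl
  map_smul' r f := AddMonoidHom.ext fun _ => rfl

theorem range_tDelta_eq_bot (htriv : ∀ γ (v : V), (ψ γ : R) • v = v) :
    LinearMap.range (tDelta ψ V) = ⊥ := by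
  rw [LinearMap.range_eq_bot]
  refine LinearMap.ext fun v => Subtype.ext (funext fun γ => ?_)
  rw [tDelta_apply, htriv, sub_self]
  rfl

/-- Twisted cohomology is `Hom(Γ, V)` where the twist acts trivially. -/
def tH1EquivHom (htriv : ∀ γ (v : V), (ψ γ : R) • v = v) : tH1 ψ V ≃ₗ[R] (Additive Γ →+ V) :=
  (Submodule.quotEquivOfEqBot _ (range_tDelta_eq_bot htriv)).trans (cocycleToHom htriv)

theorem tH1EquivHom_class (htriv : ∀ γ (v : V), (ψ γ : R) • v = v) (f : tCocycles ψ V) :
    tH1EquivHom htriv (tClass ψ V f) = cocycleToHom htriv f := rfl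

theorem tH1EquivHom_map (htriv : ∀ γ (v : V), (ψ γ : R) • v = v)
    (htriv' : ∀ γ (v : W), (ψ γ : R) • v = v) (φ : V →ₗ[R] W) (x : tH1 ψ V) :
    tH1EquivHom htriv' (tH1Map ψ φ x) = φ.toAddMonoidHom.comp (tH1EquivHom htriv x) := by
  obtain ⟨f, rfl⟩ := tClass_surjective ψ x
  rfl

/-- Weighted operators become transfers where the twist acts trivially. -/
theorem tH1EquivHom_op {G : Type*} [Group G] {emb : Γ →* G} {ι : Type*} [Fintype ι]
    {S : HeckeReps emb ι} {c : ι → Rˣ} (hc : IsWeight ψ S c)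
    (hrange : ∀ x, ∃ γ, ψ γ = c x) (htriv : ∀ γ (v : V), (ψ γ : R) • v = v) (x : tH1 ψ V) :
    tH1EquivHom htriv (hc.op V x) = S.transfer R (tH1EquivHom htriv x) := by
  obtain ⟨f, rfl⟩ := tClass_surjective ψ x
  refine AddMonoidHom.ext fun γ => ?_
  show ∑ y, (c y : R) • f.1 (S.cocyc (Additive.toMul γ) y) = ∑ y, f.1 (S.cocyc (Additive.toMul γ) y)
  refine Finset.sum_congr rfl fun y _ => ?_
  obtain ⟨δ, hδ⟩ := hrange y
  rw [← hδ, htriv]

/-- The twist acts trivially on the quotient by an ideal containing the augmentation. -/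
theorem smul_eq_self_of_sub_one_mem (I : Ideal R) (hI : ∀ γ, (ψ γ : R) - 1 ∈ I) (γ : Γ)
    (v : R ⧸ I) : (ψ γ : R) • v = v := by
  obtain ⟨r, rfl⟩ := Ideal.Quotient.mk_surjective v
  refine (Ideal.Quotient.eq (I := I) (x := (ψ γ : R) * r) (y := r)).mpr ?_
  simpa [sub_mul] using I.mul_mem_right r (hI γ)

end trivial

/-- On trivial coefficients the twisted operators are the operators on homomorphisms. -/
theorem tH1EquivHom_natHecke [NeZero L] {V : Type u} [AddCommGroup V] [Module R V]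
    (htriv : ∀ γ (v : V), (gamChar χ γ : R) • v = v) (hl : l.Prime) (x : tH1 (gamChar χ) V) :
    tH1EquivHom htriv ((natHecke χ l).app V x) = heckeHom R L l (tH1EquivHom htriv x) := by
  have : NeZero l := ⟨hl.ne_zero⟩
  by_cases h : l ∣ L
  · rw [natHecke_of_dvd χ h, heckeHom_of_dvd R h]
    exact tH1EquivHom_op (isWeight_U χ h) (fun _ => ⟨1, map_one _⟩) htriv x
  · have := Fact.mk hl
    rw [natHecke_of_not_dvd χ h, heckeHom_of_not_dvd R hl h]
    exact tH1EquivHom_op (isWeight_T χ h _) (hwT_mem_range χ _) htriv x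

end FLTA.RT
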