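import Fermat.Agent.RT.RaiseCoeff
import Fermat.Agent.RT.HeckeLocalBoundary
import Fermat.Agent.RT.FreeGamma0
import Fermat.Agent.LevelRaising.AssemblyLattice

/-!
# The degeneracy maps on residual twisted cohomology

Over a field `k` of characteristic `p ≠ 2` on which the twist is trivial, a power of the
Eisenstein operator `T_ℓ - (ℓ + 1)`, `ℓ ≡ 1 mod N q`, kills the kernel of `degI` (Ihara) and maps
everything into the image of `degJ` (duality).
-/

set_option autoImplicit false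

noncomputable section

universe u

namespace FLTA.RT

open CongruenceSubgroup ModularCurve.Period FLTA.Periods FLTA.LevelRaising
open scoped MatrixGroups OnePoint

section parabolic

/-- Parabolic homomorphisms kill elements of small trace if `6` is invertible. -/
theorem isParHom0_of_isParabolicHom {k : Type*} [Field k] {N : ℕ} (h12 : (12 : k) ≠ 0)
    {φ : Additive (Gamma0 N) →+ k} (hφ : IsParabolicHom (Gamma0 N) φ) :
    FLTA.Gamma0.IsParHom0 (Gamma0 N) φ := by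
  intro γ hγ
  rcases (show ((γ : SL(2, ℤ)) : Matrix (Fin 2) (Fin 2) ℤ).trace ^ 2 ≤ 4 from hγ).eq_or_lt with
    h | h
  · exact hφ γ h
  · obtain ⟨δ, n, hδ⟩ := FLTA.Gamma0.ConjClass.exists_conj_eq_pow (γ : SL(2, ℤ)) h
    have hS : (ModularGroup.S : SL(2, ℤ)) ^ 12 = 1 := by decide +kernel
    have hU : (FLTA.Gamma0.Presentation.matU : SL(2, ℤ)) ^ 12 = 1 := by
      decide +kernel
    have h1 : (δ * (γ : SL(2, ℤ)) * δ⁻¹) ^ 12 = 1 := by
      rcases hδ with hδ | hδ <;> rw [hδ, ← pow_mul, mul_comm n, pow_mul]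
      · rw [hS, one_pow]
      · rw [hU, one_pow]
    rw [conj_pow, mul_inv_eq_one, mul_eq_left] at h1
    have h12' : γ ^ 12 = 1 := Subtype.ext h1
    have h0 : (12 : ℕ) • φ (Additive.ofMul γ) = 0 := by
      rw [← map_nsmul, ← ofMul_pow, h12']
      exact map_zero φ
    rw [nsmul_eq_mul, Nat.cast_ofNat] at h0
    exact (mul_eq_zero.mp h0).resolve_left h12

end parabolic

variable {R : Type u} [CommRing R] {k : Type u} [Field k] [Algebra R k] {N q : ℕ}
  (χ : (ZMod N)ˣ →* Rˣ) (htriv : ∀ γ (v : k), (gamChar χ γ : R) • v = v)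

include htriv in
/-- The twist of level `N q` is trivial as well. -/
theorem triv_chiUp (γ : Gamma0 (N * q)) (v : k) : (gamChar (chiUp χ q) γ : R) • v = v := by
  rw [← gamChar_inclHom]
  exact htriv _ v

theorem tH1EquivHom_degIncl [NeZero q] (x : tH1 (gamChar χ) k) :
    tH1EquivHom (triv_chiUp χ htriv) (degIncl (q := q) χ k x) =
      inclRes N q (tH1EquivHom htriv x) := by
  obtain ⟨f, rfl⟩ := tClass_surjective (gamChar χ) x
  refine AddMonoidHom.ext fun γ => ?_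
  show ∑ _u : Unit, ((1 : Rˣ) : R) • f.1 (inclHom N q (Additive.toMul γ)) = _
  simp
  rfl

theorem tH1EquivHom_degConj [NeZero q] (x : tH1 (gamChar χ) k) :
    tH1EquivHom (triv_chiUp χ htriv) (degConj (q := q) χ k x) =
      conjRes N q (tH1EquivHom htriv x) := by
  obtain ⟨f, rfl⟩ := tClass_surjective (gamChar χ) x
  refine AddMonoidHom.ext fun γ => ?_
  show ∑ _u : Unit, ((1 : Rˣ) : R) • f.1 (conjHom N q (Additive.toMul γ)) = _
  simp
  rfl

theorem tH1EquivHom_degAL [NeZero q] (h : Nat.Coprime q N)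
    (y : tH1 (gamChar (chiUp χ q)) k) :
    tH1EquivHom (triv_chiUp χ htriv) (degAL χ k h y) =
      alRes h (tH1EquivHom (triv_chiUp χ htriv) y) := by
  obtain ⟨f, rfl⟩ := tClass_surjective (gamChar (chiUp χ q)) y
  refine AddMonoidHom.ext fun γ => ?_
  show ∑ _u : Unit, ((1 : Rˣ) : R) • f.1 (alHom h (Additive.toMul γ)) = _
  simp
  rfl

theorem tH1EquivHom_degCor [NeZero q] [((Gamma0 (N * q)).subgroupOf (Gamma0 N)).FiniteIndex]
    (y : tH1 (gamChar (chiUp χ q)) k) :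
    tH1EquivHom htriv (degCor χ k y) =
      (corRes (tH1EquivHom (triv_chiUp χ htriv) y) : Additive (Gamma0 N) →+ k) := by
  obtain ⟨f, rfl⟩ := tClass_surjective (gamChar (chiUp χ q)) y
  refine AddMonoidHom.ext fun γ => ?_
  show ∑ z, (gamChar χ z.out : R) • f.1 (Gamma0.corElt (Additive.toMul γ)
      ((Additive.toMul γ)⁻¹ • z))
    = ∑ᶠ z, f.1 (Gamma0.corElt (Additive.toMul γ) z)
  rw [finsum_eq_sum_of_fintype]
  simp only [htriv]
  exact Fintype.sum_equiv (MulAction.toPerm (Additive.toMul γ)⁻¹) _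
    (fun z => f.1 (Gamma0.corElt (Additive.toMul γ) z)) fun z => rfl

variable [NeZero N] {ℓ : ℕ} [hℓ : Fact ℓ.Prime] (hℓN : ¬ ℓ ∣ N)

variable (k) in
/-- The Eisenstein operator `T_ℓ - (ℓ + 1)` on twisted cohomology. -/
def eisT : Module.End R (tH1 (gamChar χ) k) :=
  (isWeight_T χ hℓN (coprime_of_not_dvd hℓN)).op k - ((ℓ + 1 : ℕ) : R) • LinearMap.id

theorem tH1EquivHom_eisT (x : tH1 (gamChar χ) k) :
    tH1EquivHom htriv (eisT k χ hℓN x) = eisOp k N ℓ (tH1EquivHom htriv x) := by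
  rw [eisT, LinearMap.sub_apply, LinearMap.smul_apply, LinearMap.id_apply, map_sub, map_smul,
    eisOp_apply, tH1EquivHom_op _ (hwT_mem_range χ _) htriv,
    heckeHom_of_not_dvd k hℓ.out hℓN, heckeHomT]
  refine AddMonoidHom.ext fun γ => ?_
  show _ - ((ℓ + 1 : ℕ) : R) • tH1EquivHom htriv x γ = _ - ((ℓ : k) + 1) • tH1EquivHom htriv x γ
  rw [Nat.cast_smul_eq_nsmul, nsmul_eq_mul, smul_eq_mul, Nat.cast_succ]
  rfl

include htriv in
/-- The image of the Eisenstein operator lies in `homPar0`. -/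
theorem eisT_mem_homPar0 (h2 : (2 : k) ≠ 0) (hℓ1 : (ℓ : ZMod N) = 1)
    (hell : ∀ φ : Additive (Gamma0 N) →+ k, IsParabolicHom (Gamma0 N) φ →
      FLTA.Gamma0.IsParHom0 (Gamma0 N) φ) (x : tH1 (gamChar χ) k) :
    tH1EquivHom htriv (eisT k χ hℓN x) ∈ FLTA.Gamma0.homPar0 k (Gamma0 N) k := by
  rw [tH1EquivHom_eisT χ htriv]
  refine hell _ ?_
  have := isParabolicHom_of_eisenstein k (fun a ha => ?_) hℓN hℓ1 (tH1EquivHom htriv x)
  · intro γ hγ
    rw [eisOp_apply, show ((ℓ : k) + 1) • tH1EquivHom htriv x = (ℓ + 1) • tH1EquivHom htriv x by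
      rw [← Nat.cast_succ, Nat.cast_smul_eq_nsmul]]
    exact this γ hγ
  · rw [nsmul_eq_mul, Nat.cast_ofNat] at ha
    exact (mul_eq_zero.mp ha).resolve_left h2

variable {p : ℕ} [CharP k p] [NeZero q] (hp : p.Prime) (hp2 : p ≠ 2) (hq : q.Prime)
  (hqN : ¬ q ∣ N) (hℓ1 : (ℓ : ZMod (N * q)) = 1)
  (hell : ∀ φ : Additive (Gamma0 N) →+ k, IsParabolicHom (Gamma0 N) φ →
    FLTA.Gamma0.IsParHom0 (Gamma0 N) φ)

include hℓ1 in
omit [NeZero N] hℓ [NeZero q] in
theorem cast_eq_one_left : (ℓ : ZMod N) = 1 := by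
  simpa using congrArg (ZMod.castHom (dvd_mul_right N q) (ZMod N)) hℓ1

include hℓ1 in
omit [NeZero N] [NeZero q] in
theorem not_dvd_mul_of_cast_eq_one : ¬ ℓ ∣ N * q := by
  intro hd
  obtain ⟨d, hd'⟩ : ((N * q : ℕ) : ℤ) ∣ (ℓ : ℤ) - 1 := by
    rw [← ZMod.intCast_zmod_eq_zero_iff_dvd]
    push_cast
    rw [hℓ1, sub_self]
  obtain ⟨e, he⟩ := hd
  refine hℓ.out.one_lt.ne' (Nat.dvd_one.mp (Int.natCast_dvd_natCast.mp ⟨1 - (e : ℤ) * d, ?_⟩))
  rw [he] at hd'
  push_cast at hd' ⊢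
  linear_combination -hd'

include htriv hp hp2 hq hqN hℓ1 hell in
/-- **Ihara**: `(T_ℓ - (ℓ + 1))³` kills the kernel of `degI`. -/
theorem eisT_cube_eq_zero_of_degI (x y : tH1 (gamChar χ) k) (hxy : degI χ k (q := q) (x, y) = 0) :
    eisT k χ hℓN (eisT k χ hℓN (eisT k χ hℓN x)) = 0 ∧
      eisT k χ hℓN (eisT k χ hℓN (eisT k χ hℓN y)) = 0 := by
  have h2 : (2 : k) ≠ 0 := Ring.two_ne_zero (by rwa [ringChar.eq k p])
  have hℓM := not_dvd_mul_of_cast_eq_one hℓ1
  have hℓq : ¬ ℓ ∣ q := fun h => hℓM (h.trans (dvd_mul_left q N))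
  have hlM : ℓ.Coprime (N * q) := coprime_of_not_dvd hℓM
  have hA : (repsT hℓM).rep = (repsT hℓN).rep := by rw [repsT_rep, repsT_rep]
  have hc' := isWeight_chiUp χ hA (isWeight_T χ hℓN (coprime_of_not_dvd hℓN))
  have h0 : degI χ k (q := q) (eisT k χ hℓN x, eisT k χ hℓN y) = 0 := by
    have h := op_degI χ (triT hℓN) (hℓ.out.coprime_iff_not_dvd.mpr hℓq) hA
      (hwT_congr χ hℓN _) (isWeight_T χ hℓN (coprime_of_not_dvd hℓN)) hc' (x, y)
    rw [hxy, map_zero] at h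
    have e : (eisT k χ hℓN x, eisT k χ hℓN y) =
        ((isWeight_T χ hℓN (coprime_of_not_dvd hℓN)).op k x,
          (isWeight_T χ hℓN (coprime_of_not_dvd hℓN)).op k y) - ((ℓ + 1 : ℕ) : R) • (x, y) := rfl
    rw [e, map_sub, map_smul, ← h, hxy, smul_zero, sub_zero]
  let w : ParH k N × ParH k N :=
    (⟨_, eisT_mem_homPar0 χ htriv hℓN h2 (cast_eq_one_left hℓ1) hell x⟩,
      ⟨_, eisT_mem_homPar0 χ htriv hℓN h2 (cast_eq_one_left hℓ1) hell y⟩)
  have hw : degPull k N q w = 0 := by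
    refine Subtype.ext ?_
    have := congrArg (tH1EquivHom (triv_chiUp χ htriv)) h0
    rw [degI, LinearMap.coprod_apply, map_add, tH1EquivHom_degIncl χ htriv,
      tH1EquivHom_degConj χ htriv, map_zero] at this
    exact this
  obtain ⟨e1, e2⟩ := eis0_sq_of_degPull hp hp2 hq hqN hℓ.out hℓ1 hw
  constructor <;> refine (tH1EquivHom htriv).injective ?_
  · rw [tH1EquivHom_eisT χ htriv, tH1EquivHom_eisT χ htriv, map_zero]
    simpa [w, coe_eis0] using congrArg Subtype.val e1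
  · rw [tH1EquivHom_eisT χ htriv, tH1EquivHom_eisT χ htriv, map_zero]
    simpa [w, coe_eis0] using congrArg Subtype.val e2

include htriv hp hp2 hq hqN hℓ1 hell in
/-- **Duality**: `(T_ℓ - (ℓ + 1))³` maps everything into the image of `degJ`. -/
theorem eisT_cube_mem_range_degJ [((Gamma0 (N * q)).subgroupOf (Gamma0 N)).FiniteIndex]
    (h : Nat.Coprime q N) (x y : tH1 (gamChar χ) k) :
    ∃ z, degJ χ k h z = (eisT k χ hℓN (eisT k χ hℓN (eisT k χ hℓN x)),
      eisT k χ hℓN (eisT k χ hℓN (eisT k χ hℓN y))) := by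
  have h2 : (2 : k) ≠ 0 := Ring.two_ne_zero (by rwa [ringChar.eq k p])
  let v : ParH k N × ParH k N :=
    (⟨_, eisT_mem_homPar0 χ htriv hℓN h2 (cast_eq_one_left hℓ1) hell x⟩,
      ⟨_, eisT_mem_homPar0 χ htriv hℓN h2 (cast_eq_one_left hℓ1) hell y⟩)
  obtain ⟨z, hz⟩ := eis0_sq_mem_range hp hp2 hq hqN h hℓ.out hℓ1 hℓN v
  obtain ⟨z', hz'⟩ := (tH1EquivHom (triv_chiUp χ htriv)).surjective z.1
  refine ⟨z', Prod.ext ?_ ?_⟩ <;> refine (tH1EquivHom htriv).injective ?_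
  · show tH1EquivHom htriv (degCor χ k z') = _
    rw [tH1EquivHom_degCor χ htriv, hz', tH1EquivHom_eisT χ htriv, tH1EquivHom_eisT χ htriv]
    simpa [v, degPush, coe_eis0] using congrArg Subtype.val (congrArg Prod.fst hz)
  · show tH1EquivHom htriv (degCor χ k (degAL χ k h z')) = _
    rw [tH1EquivHom_degCor χ htriv, tH1EquivHom_degAL χ htriv, hz',
      tH1EquivHom_eisT χ htriv, tH1EquivHom_eisT χ htriv]
    simpa [v, degPush, coe_eis0] using congrArg Subtype.val (congrArg Prod.snd hz)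

end FLTA.RT
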