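import Fermat.Agent.Patching.SupportRaising
import Mathlib.RingTheory.Nakayama
import Mathlib.LinearAlgebra.Determinant
import Mathlib.LinearAlgebra.Matrix.ToLinearEquiv
import Mathlib.Algebra.Module.Projective
import Mathlib.RingTheory.Finiteness.Quotient

/-!
# Support raising without a pairing at the coefficient levels

`S` is a local domain, `M`, `M'` are finite free over `S`, `i : Mⁿ → M'` and `j : M' → Mⁿ` commute
with `A`.  If `i` is injective modulo the maximal ideal, `j` is surjective modulo it and the
`S`-determinant of `j ∘ i` is nonzero, then `ker j` and `coker i` have the same annihilator in `A`.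
-/

set_option autoImplicit false

open Module

namespace FLTA.RT

section local_ring

variable {S : Type*} [CommRing S] [IsLocalRing S] {V W : Type*} [AddCommGroup V] [Module S V]
  [AddCommGroup W] [Module S W]

/-- A map which is surjective modulo the maximal ideal is surjective. -/
theorem surjective_of_mod_maximal [Module.Finite S W] (f : V →ₗ[S] W)
    (hf : ∀ w, ∃ v, w - f v ∈ IsLocalRing.maximalIdeal S • (⊤ : Submodule S W)) :
    Function.Surjective f := by
  rw [← LinearMap.range_eq_top]
  refine top_le_iff.mp (Submodule.le_of_le_smul_of_le_jacobson_bot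
    (I := IsLocalRing.maximalIdeal S) Module.Finite.fg_top
    (IsLocalRing.maximalIdeal_le_jacobson ⊥) fun w _ => ?_)
  obtain ⟨v, hv⟩ := hf w
  rw [show w = f v + (w - f v) by abel]
  exact Submodule.add_mem_sup (LinearMap.mem_range_self f v) hv

/-- A map of finite free modules which is injective modulo the maximal ideal has a left
inverse. -/
theorem exists_leftInverse_of_mod_maximal [Module.Finite S V] [Module.Projective S V]
    [Module.Projective S W] (f : V →ₗ[S] W)
    (hf : ∀ v, f v ∈ IsLocalRing.maximalIdeal S • (⊤ : Submodule S W) →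
      v ∈ IsLocalRing.maximalIdeal S • (⊤ : Submodule S V)) :
    ∃ g : W →ₗ[S] V, g ∘ₗ f = LinearMap.id := by
  set 𝔪 := IsLocalRing.maximalIdeal S
  let : Field (S ⧸ 𝔪) := Ideal.Quotient.field 𝔪
  let πV := (𝔪 • (⊤ : Submodule S V)).mkQ
  let πW := (𝔪 • (⊤ : Submodule S W)).mkQ
  let fb : (V ⧸ 𝔪 • (⊤ : Submodule S V)) →ₗ[S ⧸ 𝔪] (W ⧸ 𝔪 • (⊤ : Submodule S W)) :=
    { toFun := Submodule.mapQ _ _ f (by
        rw [← Submodule.map_le_iff_le_comap, Submodule.map_smul'']
        exact Submodule.smul_mono le_rfl le_top)
      map_add' := map_add _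
      map_smul' := fun s x => by
        obtain ⟨t, rfl⟩ := Ideal.Quotient.mk_surjective s
        exact map_smul (Submodule.mapQ _ _ f _) t x }
  have hfb : LinearMap.ker fb = ⊥ := by
    rw [LinearMap.ker_eq_bot']
    intro x hx
    obtain ⟨v, rfl⟩ := Submodule.mkQ_surjective _ x
    exact (Submodule.Quotient.mk_eq_zero _).mpr (hf v ((Submodule.Quotient.mk_eq_zero _).mp hx))
  obtain ⟨gb, hgb⟩ := fb.exists_leftInverse_of_injective hfb
  obtain ⟨g, hg⟩ := Module.projective_lifting_property πV
    ((gb.restrictScalars S) ∘ₗ πW) (Submodule.mkQ_surjective _)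
  have hsurj : Function.Surjective (g ∘ₗ f) := surjective_of_mod_maximal _ fun v => ⟨v, by
    rw [← Submodule.Quotient.eq]
    refine Eq.symm ?_
    calc πV (g (f v)) = gb (fb (πV v)) := LinearMap.congr_fun hg (f v)
      _ = πV v := LinearMap.congr_fun hgb (πV v)⟩
  obtain ⟨u, hu⟩ := Module.projective_lifting_property (g ∘ₗ f) LinearMap.id hsurj
  have hinj : Function.Injective (g ∘ₗ f) :=
    OrzechProperty.injective_of_surjective_endomorphism _ hsurj
  refine ⟨u ∘ₗ g, LinearMap.ext fun v => hinj ?_⟩
  exact LinearMap.congr_fun hu (g (f v))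

end local_ring

section det

variable {S : Type*} [CommRing S] [IsDomain S] {V : Type*} [AddCommGroup V] [Module S V]
  [Module.Free S V] [Module.Finite S V]

/-- An endomorphism is injective modulo a prime ideal only if its determinant avoids the prime. -/
theorem det_notMem_of_injective_mod (F : V →ₗ[S] V) (P : Ideal S) [P.IsPrime]
    (h : ∀ v, F v ∈ P • (⊤ : Submodule S V) → v ∈ P • (⊤ : Submodule S V)) :
    LinearMap.det F ∉ P := by
  classical
  intro hdet
  let b := Module.Free.chooseBasis S V
  have hmem : ∀ v, v ∈ P • (⊤ : Submodule S V) ↔ ∀ k, b.repr v k ∈ P := by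
    intro v
    constructor
    · intro hv k
      refine Submodule.smul_induction_on hv (fun r hr x _ => ?_) fun x y hx hy => ?_
      · rw [map_smul, Finsupp.smul_apply, smul_eq_mul]; exact P.mul_mem_right _ hr
      · rw [map_add, Finsupp.add_apply]; exact P.add_mem hx hy
    · intro hv
      rw [← b.sum_repr v]
      exact Submodule.sum_mem _ fun k _ => Submodule.smul_mem_smul (hv k) Submodule.mem_top
  let q := Ideal.Quotient.mk P
  have hd : ((LinearMap.toMatrix b b F).map q).det = 0 := by
    rw [← RingHom.mapMatrix_apply, ← RingHom.map_det, LinearMap.det_toMatrix]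
    exact Ideal.Quotient.eq_zero_iff_mem.mpr hdet
  obtain ⟨c', hc0, hc⟩ := Matrix.exists_mulVec_eq_zero_iff.mpr hd
  choose c hcc using fun k => Ideal.Quotient.mk_surjective (c' k)
  let v := b.equivFun.symm c
  obtain ⟨k, hk⟩ := Function.ne_iff.mp hc0
  refine hk ?_
  rw [← hcc k]
  refine Ideal.Quotient.eq_zero_iff_mem.mpr ?_
  have hv : ∀ k, b.repr v k = c k := fun k => congrFun (b.equivFun.apply_symm_apply c) k
  rw [← hv k]
  refine (hmem v).mp (h v ((hmem _).mpr fun l => ?_)) k
  rw [← Ideal.Quotient.eq_zero_iff_mem, ← LinearMap.toMatrix_mulVec_repr b b]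
  have := congrFun hc l
  simp only [Matrix.mulVec, dotProduct, Matrix.map_apply, Pi.zero_apply, ← hcc, q,
    ← map_mul, ← map_sum] at this
  simp only [Matrix.mulVec, dotProduct, hv]
  exact this

/-- An endomorphism with nonzero determinant is injective. -/
theorem injective_of_det_ne_zero (F : V →ₗ[S] V) (h : LinearMap.det F ≠ 0) :
    Function.Injective F := by
  classical
  let b := Module.Free.chooseBasis S V
  rw [← LinearMap.det_toMatrix b] at h
  rw [injective_iff_map_eq_zero]
  intro v hv
  refine b.repr.injective (Finsupp.ext fun k => ?_)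
  have h1 : (LinearMap.toMatrix b b F).mulVec (b.repr v) = 0 := by
    rw [LinearMap.toMatrix_mulVec_repr, hv]; simp
  have h2 := congrArg ((LinearMap.toMatrix b b F).adjugate.mulVec) h1
  rw [Matrix.mulVec_mulVec, Matrix.adjugate_mul, Matrix.smul_mulVec, Matrix.one_mulVec,
    Matrix.mulVec_zero] at h2
  have := congrFun h2 k
  simp only [Pi.smul_apply, smul_eq_mul, Pi.zero_apply, mul_eq_zero, h, false_or] at this
  simp [this]

/-- The determinant times every vector lies in the range. -/
theorem det_smul_mem_range (F : V →ₗ[S] V) (v : V) :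
    LinearMap.det F • v ∈ LinearMap.range F := by
  classical
  let b := Module.Free.chooseBasis S V
  refine ⟨b.equivFun.symm ((LinearMap.toMatrix b b F).adjugate.mulVec (b.repr v)),
    b.repr.injective (Finsupp.ext fun k => ?_)⟩
  have h1 := LinearMap.toMatrix_mulVec_repr b b F
    (b.equivFun.symm ((LinearMap.toMatrix b b F).adjugate.mulVec (b.repr v)))
  rw [show (⇑(b.repr (b.equivFun.symm ((LinearMap.toMatrix b b F).adjugate.mulVec (b.repr v))))) =
      (LinearMap.toMatrix b b F).adjugate.mulVec (b.repr v) from b.equivFun.apply_symm_apply _,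
    Matrix.mulVec_mulVec, Matrix.mul_adjugate, Matrix.smul_mulVec, Matrix.one_mulVec,
    LinearMap.det_toMatrix] at h1
  rw [← congrFun h1 k, map_smul]
  rfl

end det

section annihilator

variable {S A : Type} [CommRing S] [IsDomain S] [CommRing A] {V W : Type}
  [AddCommGroup V] [Module S V] [Module A V]
  [AddCommGroup W] [Module S W] [Module A W] [SMulCommClass A S W]

/-- `ker j` and `coker i` have the same annihilator. -/
theorem annihilator_ker_eq_annihilator_coker (i : V →ₗ[A] W) (j : W →ₗ[A] V)
    (hjS : ∀ (s : S) (w : W), j (s • w) = s • j w)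
    (hinj : Function.Injective (j.comp i)) (d : S) (hd : d ≠ 0)
    (hrange : ∀ v, d • v ∈ LinearMap.range (j.comp i))
    (htf : ∀ w : W, d • w ∈ LinearMap.range i → w ∈ LinearMap.range i) :
    Module.annihilator A (LinearMap.ker j) = Module.annihilator A (W ⧸ LinearMap.range i) := by
  ext s
  simp only [Module.mem_annihilator]
  constructor
  · intro hs x
    induction x using Submodule.Quotient.induction_on with
    | _ w =>
      rw [← Submodule.Quotient.mk_smul, Submodule.Quotient.mk_eq_zero]
      obtain ⟨v, hv⟩ := hrange (j w)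
      have hker : d • w - i v ∈ LinearMap.ker j := by
        rw [LinearMap.mem_ker, map_sub, hjS, ← LinearMap.comp_apply, hv,
          sub_self]
      have h0 : s • (d • w - i v) = 0 := congrArg Subtype.val (hs ⟨_, hker⟩)
      refine htf _ ⟨s • v, ?_⟩
      rw [map_smul, ← smul_comm s d w]
      exact (sub_eq_zero.mp (by rw [← smul_sub]; exact h0)).symm
  · intro hs x
    refine Subtype.ext ?_
    have h0 := hs (Submodule.Quotient.mk (x : W))
    rw [← Submodule.Quotient.mk_smul, Submodule.Quotient.mk_eq_zero] at h0
    obtain ⟨v, hv⟩ := h0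
    have hv0 : v = 0 := hinj (by
      rw [map_zero, LinearMap.comp_apply, hv, map_smul, LinearMap.mem_ker.mp x.2, smul_zero])
    show s • (x : W) = 0
    rw [← hv, hv0, map_zero]

end annihilator

section raise

variable {S A : Type} [CommRing S] [IsDomain S] [IsLocalRing S] [CommRing A]
  {M M' : Type} [AddCommGroup M] [Module S M] [Module A M] [Module.Finite A M]
  [Module.Free S M] [Module.Finite S M] [AddCommGroup M'] [Module S M'] [Module A M']
  [SMulCommClass A S M'] [Module.Free S M'] [Module.Finite S M'] [IsNoetherian A M']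
  {ι : Type} [Fintype ι] [DecidableEq ι]

/-- **Support raising.** If `i` is injective and `j` surjective modulo the maximal ideal of `S` and
`j ∘ i` is injective modulo a prime of `S`, then every prime of the support of `M` containing the
determinant of the matrix of `j ∘ i` is in the support of the new part `ker j`. -/
theorem mem_support_new_of_mod [IsNoetherianRing S] (i : (ι → M) →ₗ[A] M')
    (j : M' →ₗ[A] (ι → M))
    (hiS : ∀ (s : S) v, i (s • v) = s • i v) (hjS : ∀ (s : S) w, j (s • w) = s • j w)
    (T : Matrix ι ι A) (hji : ∀ v k, j (i v) k = ∑ l, T k l • v l)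
    (hi : ∀ v, i v ∈ IsLocalRing.maximalIdeal S • (⊤ : Submodule S M') →
      v ∈ IsLocalRing.maximalIdeal S • (⊤ : Submodule S (ι → M)))
    (hj : ∀ w, ∃ v, w - j v ∈ IsLocalRing.maximalIdeal S • (⊤ : Submodule S (ι → M)))
    (P₀ : Ideal S) [P₀.IsPrime]
    (h₀ : ∀ v, j (i v) ∈ P₀ • (⊤ : Submodule S (ι → M)) →
      v ∈ P₀ • (⊤ : Submodule S (ι → M)))
    {P : PrimeSpectrum A} (hP : P ∈ Module.support A M) (hdet : T.det ∈ P.asIdeal) :
    Function.Surjective j ∧ P ∈ Module.support A (LinearMap.ker j) := by
  have : Module.Finite A M' := inferInstance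
  have : Module.Finite A (LinearMap.ker j) := inferInstance
  let iS : (ι → M) →ₗ[S] M' := { toFun := i, map_add' := map_add i, map_smul' := hiS }
  let jS : M' →ₗ[S] (ι → M) := { toFun := j, map_add' := map_add j, map_smul' := hjS }
  obtain ⟨g, hg⟩ := exists_leftInverse_of_mod_maximal iS hi
  have hsurj : Function.Surjective j := surjective_of_mod_maximal jS hj
  let F : (ι → M) →ₗ[S] (ι → M) := jS ∘ₗ iS
  have hdetF : LinearMap.det F ≠ 0 := fun h =>
    det_notMem_of_injective_mod F P₀ h₀ (h ▸ P₀.zero_mem)
  have hann := annihilator_ker_eq_annihilator_coker (S := S) i j hjS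
    (injective_of_det_ne_zero F hdetF) (LinearMap.det F) hdetF (det_smul_mem_range F) fun w hw => by
      obtain ⟨v, hv⟩ := hw
      have hgi : ∀ v, g (i v) = v := fun v => LinearMap.congr_fun hg v
      refine ⟨g w, smul_right_injective M' hdetF ?_⟩
      show LinearMap.det F • i (g w) = LinearMap.det F • w
      rw [← hiS, ← map_smul, ← hv, hgi, hv]
  exact ⟨hsurj, Patching.mem_support_new T hji hsurj hann hP hdet⟩

end raise

end FLTA.RT
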