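import Fermat.Agent.RT.RaiseResidual
import Fermat.Agent.RT.HeckeLocalControl
import Fermat.Agent.RT.RaiseAlgebra

/-!
# The degeneracy maps on the local factor

For families `T`, `T'` of natural endomorphisms at levels `N`, `N q` intertwined by the degeneracy
maps, `degI` and `degJ` restrict to the images of the idempotents of a residual system `a`. If
the system is not Eisenstein at a prime `ℓ ≡ 1 mod N q`, the restriction of `degI` is injective
modulo the maximal ideal and that of `degJ` is surjective.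
-/

set_option autoImplicit false

noncomputable section

universe u

namespace FLTA.RT

open CongruenceSubgroup FLTA.Periods IsLocalRing
open scoped MatrixGroups

attribute [local instance] Ideal.Quotient.field

variable {R : Type u} [CommRing R] [IsLocalRing R] {N q : ℕ} [NeZero N] [NeZero q]
  [((Gamma0 (N * q)).subgroupOf (Gamma0 N)).FiniteIndex] {χ : (ZMod N)ˣ →* Rˣ} {σ : Type*}

/-- `T` and `T'` are intertwined by the degeneracy maps. -/
structure DegIntertwines (h : Nat.Coprime q N) (T : σ → NatEnd (gamChar χ))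
    (T' : σ → NatEnd (gamChar (chiUp χ q))) : Prop where
  incl : ∀ s (V : Type u) [AddCommGroup V] [Module R V] (x : tH1 (gamChar χ) V),
    (T' s).app V (degIncl χ V x) = degIncl χ V ((T s).app V x)
  conj : ∀ s (V : Type u) [AddCommGroup V] [Module R V] (x : tH1 (gamChar χ) V),
    (T' s).app V (degConj χ V x) = degConj χ V ((T s).app V x)
  cor : ∀ s (V : Type u) [AddCommGroup V] [Module R V] (y : tH1 (gamChar (chiUp χ q)) V),
    (T s).app V (degCor χ V y) = degCor χ V ((T' s).app V y)
  corAL : ∀ s (V : Type u) [AddCommGroup V] [Module R V] (y : tH1 (gamChar (chiUp χ q)) V),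
    (T s).app V (degCor χ V (degAL χ V h y)) = degCor χ V (degAL χ V h ((T' s).app V y))

variable [IsNoetherianRing R] [IsAdicComplete (maximalIdeal R) R] {h : Nat.Coprime q N}
  {T : σ → NatEnd (gamChar χ)} {T' : σ → NatEnd (gamChar (chiUp χ q))}

/-- The two restrictions of level `N` to level `N q`. -/
def degUp (q : ℕ) [NeZero q] [((Gamma0 (N * q)).subgroupOf (Gamma0 N)).FiniteIndex]
    (χ : (ZMod N)ˣ →* Rˣ) (V : Type u) [AddCommGroup V] [Module R V] :
    Fin 2 → (tH1 (gamChar χ) V →ₗ[R] tH1 (gamChar (chiUp χ q)) V) :=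
  ![degIncl χ V, degConj χ V]

/-- The two corestrictions of level `N q` to level `N`. -/
def degDown (h : Nat.Coprime q N) (χ : (ZMod N)ˣ →* Rˣ) (V : Type u) [AddCommGroup V]
    [Module R V] : Fin 2 → (tH1 (gamChar (chiUp χ q)) V →ₗ[R] tH1 (gamChar χ) V) :=
  ![degCor χ V, (degCor χ V).comp (degAL χ V h)]

omit [IsLocalRing R] [NeZero N] [IsNoetherianRing R] [IsAdicComplete (maximalIdeal R) R] in
theorem degUp_natural {V W : Type u} [AddCommGroup V] [Module R V] [AddCommGroup W] [Module R W]
    (φ : V →ₗ[R] W) (l : Fin 2) (x : tH1 (gamChar χ) V) :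
    degUp q χ W l (tH1Map _ φ x) = tH1Map _ φ (degUp q χ V l x) := by
  fin_cases l <;> simp [degUp, TSys.op_natural]

omit [IsLocalRing R] [NeZero N] [IsNoetherianRing R] [IsAdicComplete (maximalIdeal R) R] in
theorem degDown_natural {V W : Type u} [AddCommGroup V] [Module R V] [AddCommGroup W] [Module R W]
    (φ : V →ₗ[R] W) (l : Fin 2) (y : tH1 (gamChar (chiUp χ q)) V) :
    degDown h χ W l (tH1Map _ φ y) = tH1Map _ φ (degDown h χ V l y) := by
  fin_cases l <;> simp [degDown, TSys.op_natural]

variable (hT : CommAtRing T) (hT' : CommAtRing T') (hlift : HasLifts (gamChar χ))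
  (hlift' : HasLifts (gamChar (chiUp χ q))) (hd : DegIntertwines h T T') (a : σ → R)

include hT hT' hlift hlift' hd in
/-- The restrictions commute with the idempotents. -/
theorem degUp_localEnd (V : Type u) [AddCommGroup V] [Module R V] [Module.Finite R V] (l : Fin 2)
    (x : tH1 (gamChar χ) V) :
    degUp q χ V l ((localEnd T a).app V x) = (localEnd T' a).app V (degUp q χ V l x) := by
  have := group_fg_Gamma0 N
  have := group_fg_Gamma0 (N * q)
  have := finite_tH1 (χ := gamChar χ) V
  have := finite_tH1 (χ := gamChar (chiUp χ q)) V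
  rw [localEnd_app_finite hT a hlift, localEnd_app_finite hT' a hlift']
  refine localIdem_comm_map (commute_opsAt hT hlift V) (commute_opsAt hT' hlift' V) a _
    (fun s x => ?_) x
  fin_cases l
  · exact (hd.incl s V x).symm
  · exact (hd.conj s V x).symm

include hT hT' hlift hlift' hd in
/-- The corestrictions commute with the idempotents. -/
theorem degDown_localEnd (V : Type u) [AddCommGroup V] [Module R V] [Module.Finite R V] (l : Fin 2)
    (y : tH1 (gamChar (chiUp χ q)) V) :
    degDown h χ V l ((localEnd T' a).app V y) = (localEnd T a).app V (degDown h χ V l y) := by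
  have := group_fg_Gamma0 N
  have := group_fg_Gamma0 (N * q)
  have := finite_tH1 (χ := gamChar χ) V
  have := finite_tH1 (χ := gamChar (chiUp χ q)) V
  rw [localEnd_app_finite hT a hlift, localEnd_app_finite hT' a hlift']
  refine localIdem_comm_map (commute_opsAt hT' hlift' V) (commute_opsAt hT hlift V) a _
    (fun s y => ?_) y
  fin_cases l
  · exact (hd.cor s V y).symm
  · exact (hd.corAL s V y).symm

include hT hT' hlift hlift' hd in
theorem degUp_mem_eImage (V : Type u) [AddCommGroup V] [Module R V] [Module.Finite R V]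
    (l : Fin 2) {x : tH1 (gamChar χ) V} (hx : x ∈ eImage (localEnd T a) V) :
    degUp q χ V l x ∈ eImage (localEnd T' a) V := by
  obtain ⟨y, rfl⟩ := hx
  exact ⟨degUp q χ V l y, (degUp_localEnd hT hT' hlift hlift' hd a V l y).symm⟩

include hT hT' hlift hlift' hd in
theorem degDown_mem_eImage (V : Type u) [AddCommGroup V] [Module R V] [Module.Finite R V]
    (l : Fin 2) {y : tH1 (gamChar (chiUp χ q)) V} (hy : y ∈ eImage (localEnd T' a) V) :
    degDown h χ V l y ∈ eImage (localEnd T a) V := by
  obtain ⟨z, rfl⟩ := hy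
  exact ⟨degDown h χ V l z, (degDown_localEnd hT hT' hlift hlift' hd a V l z).symm⟩

/-- The restrictions on the local factors. -/
def locUp (l : Fin 2) : eImage (localEnd T a) R →ₗ[R] eImage (localEnd T' a) R :=
  LinearMap.codRestrict _ ((degUp q χ R l).comp (eImage (localEnd T a) R).subtype)
    fun x => degUp_mem_eImage hT hT' hlift hlift' hd a R l x.2

/-- The corestrictions on the local factors. -/
def locDown (l : Fin 2) : eImage (localEnd T' a) R →ₗ[R] eImage (localEnd T a) R :=
  LinearMap.codRestrict _ ((degDown h χ R l).comp (eImage (localEnd T' a) R).subtype)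
    fun y => degDown_mem_eImage hT hT' hlift hlift' hd a R l y.2

@[simp] theorem coe_locUp (l : Fin 2) (x : eImage (localEnd T a) R) :
    ((locUp hT hT' hlift hlift' hd a l x : eImage (localEnd T' a) R) :
      tH1 (gamChar (chiUp χ q)) R) = degUp q χ R l x.1 := rfl

@[simp] theorem coe_locDown (l : Fin 2) (y : eImage (localEnd T' a) R) :
    ((locDown hT hT' hlift hlift' hd a l y : eImage (localEnd T a) R) :
      tH1 (gamChar χ) R) = degDown h χ R l y.1 := rfl

variable {p : ℕ} (hp : p.Prime) (hp2 : p ≠ 2) (hpR : (p : R) ∈ maximalIdeal R) (hq : q.Prime)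
  (hqN : ¬ q ∣ N) (hχ : ∀ γ, (gamChar χ γ : R) - 1 ∈ maximalIdeal R) {ℓ : ℕ} [hℓ : Fact ℓ.Prime]
  (hℓN : ¬ ℓ ∣ N) (hℓ1 : (ℓ : ZMod (N * q)) = 1) {s₀ : σ}
  (hs₀ : ∀ (V : Type u) [AddCommGroup V] [Module R V] (x : tH1 (gamChar χ) V),
    (T s₀).app V x = (isWeight_T χ hℓN (coprime_of_not_dvd hℓN)).op V x)
  (ha : IsUnit (a s₀ - ((ℓ : R) + 1)))
  (hell : ∀ φ : Additive (Gamma0 N) →+ (R ⧸ maximalIdeal R),
    ModularCurve.Period.IsParabolicHom (Gamma0 N) φ → FLTA.Gamma0.IsParHom0 (Gamma0 N) φ)

/-- If an idempotent is `z * b` with `z`, `b` commuting, it is a multiple of `b³`. -/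
theorem eq_cube_mul_of_idem {M : Type*} [Monoid M] (e z b : M) (hzb : Commute z b)
    (he : e * e = e) (heB : e = z * b) : e = b * b * b * z ^ 3 * e := by
  have h3 : e ^ 3 = b ^ 3 * z ^ 3 := by rw [heB, hzb.mul_pow, (hzb.pow_pow 3 3).eq]
  rw [show b * b * b = b ^ 3 by rw [pow_succ, pow_two], ← h3,
    show e ^ 3 = e by rw [pow_succ, pow_two, he, he], he]

include hs₀ in
omit [IsNoetherianRing R] [IsAdicComplete (maximalIdeal R) R]
  [((Gamma0 (N * q)).subgroupOf (Gamma0 N)).FiniteIndex] [NeZero q] in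
omit [NeZero N] in
theorem eisT_eq_sub
    (x : tH1 (gamChar χ) (R ⧸ maximalIdeal R)) :
    eisT (R ⧸ maximalIdeal R) χ hℓN x = (T s₀).app (R ⧸ maximalIdeal R) x - ((ℓ : R) + 1) • x := by
  rw [eisT, LinearMap.sub_apply, LinearMap.smul_apply, LinearMap.id_apply, hs₀, Nat.cast_succ]

include hT hlift hs₀ ha in
omit [((Gamma0 (N * q)).subgroupOf (Gamma0 N)).FiniteIndex] [NeZero q] in
/-- The idempotent is divisible by the cube of the Eisenstein operator. -/
theorem exists_localEnd_eq_eisT_cube :
    ∃ z : Module.End R (tH1 (gamChar χ) (R ⧸ maximalIdeal R)),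
      (∀ x, z (eisT (R ⧸ maximalIdeal R) χ hℓN x) = eisT (R ⧸ maximalIdeal R) χ hℓN (z x)) ∧
      ∀ x ∈ eImage (localEnd T a) (R ⧸ maximalIdeal R),
        x = eisT (R ⧸ maximalIdeal R) χ hℓN (eisT (R ⧸ maximalIdeal R) χ hℓN
          (eisT (R ⧸ maximalIdeal R) χ hℓN (z x))) := by
  have hT3 := eisT_eq_sub (T := T) hℓN hs₀
  set k := R ⧸ maximalIdeal R
  have := group_fg_Gamma0 N
  have := finite_tH1 (χ := gamChar χ) k
  have hc := commute_opsAt hT hlift k
  obtain ⟨z, hz, he⟩ := exists_mul_sub_eq_localIdem hc a s₀ ha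
  have hidem := (isIdempotentElem_localIdem hc a).eq
  let := opAlgCommRing (R := R) hc
  let B : opAlg R (opsAt T k) := opGen R (opsAt T k) s₀ -
    algebraMap R _ ((ℓ : R) + 1)
  have hB : ∀ x, (B : Module.End R (tH1 (gamChar χ) k)) x = eisT k χ hℓN x := by
    intro x
    rw [hT3]
    simp only [B, opsAt, AddSubgroupClass.coe_sub, opGen_coe, Subalgebra.coe_algebraMap,
      LinearMap.sub_apply, Module.algebraMap_end_apply]
    rfl
  have hcomm : Commute z (B : Module.End R (tH1 (gamChar χ) k)) :=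
    congrArg Subtype.val (mul_comm (⟨z, hz⟩ : opAlg R (opsAt T k)) B)
  have heB : localIdem (opsAt T k) a = z * (B : Module.End R _) := by
    rw [he]; rfl
  refine ⟨z ^ 3, fun x => ?_, fun x hx => ?_⟩
  · have h3 : z ^ 3 * (B : Module.End R _) = (B : Module.End R _) * z ^ 3 :=
      (Commute.pow_left hcomm 3).eq
    rw [← hB, ← hB]
    exact congrArg (fun f : Module.End R _ => f x) h3
  · obtain ⟨y, rfl⟩ := hx
    rw [← hB, ← hB, ← hB, localEnd_app_finite hT a hlift]
    have h3 := eq_cube_mul_of_idem _ z (B : Module.End R _) hcomm hidem heB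
    exact congrArg (fun f : Module.End R _ => f y) h3

include hp hpR in
omit [NeZero N] [NeZero q] [IsNoetherianRing R] [IsAdicComplete (maximalIdeal R) R] [((Gamma0 (N * q)).subgroupOf (Gamma0 N)).FiniteIndex] in
theorem charP_residue : CharP (R ⧸ maximalIdeal R) p :=
  (CharP.charP_iff_prime_eq_zero hp).mpr (by
    rw [← map_natCast (Ideal.Quotient.mk (maximalIdeal R)), Ideal.Quotient.eq_zero_iff_mem]
    exact hpR)

include hp hp2 hpR hq hqN hχ hℓ1 hs₀ ha hell in
/-- **Injectivity modulo the maximal ideal.** -/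
theorem locUp_injective_mod (x : Fin 2 → eImage (localEnd T a) R)
    (hx : ∑ l, locUp hT hT' hlift hlift' hd a l (x l) ∈
      maximalIdeal R • (⊤ : Submodule R (eImage (localEnd T' a) R))) (l : Fin 2) :
    x l ∈ maximalIdeal R • (⊤ : Submodule R (eImage (localEnd T a) R)) := by
  have := group_fg_Gamma0 N
  have := charP_residue hp hpR
  set k := R ⧸ maximalIdeal R
  let π := (maximalIdeal R).mkQ
  let y : Fin 2 → tH1 (gamChar χ) k := fun l => tH1Map _ π (x l).1
  obtain ⟨z, hzc, hz⟩ := exists_localEnd_eq_eisT_cube hT hlift a hℓN hs₀ ha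
  have hy : ∀ l, y l ∈ eImage (localEnd T a) k := fun l => tH1Map_mem_eImage π (x l).2
  have h0 : degI χ k (q := q) (y 0, y 1) = 0 := by
    have hx' := map_mk_eq_zero_of_mem_smul (maximalIdeal R)
      ((Submodule.mem_smul_top_iff (maximalIdeal R) _ _).mp hx)
    rw [Fin.sum_univ_two, Submodule.coe_add, coe_locUp, coe_locUp, map_add, ← degUp_natural,
      ← degUp_natural] at hx'
    simpa [degI, degUp, y, π] using hx'
  obtain ⟨e0, e1⟩ := eisT_cube_eq_zero_of_degI χ (smul_eq_self_of_sub_one_mem _ hχ) hℓN hp hp2 hq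
    hqN hℓ1 hell (y 0) (y 1) h0
  have hkill : ∀ l, y l = 0 := by
    intro l
    rw [hz _ (hy l), ← hzc, ← hzc, ← hzc]
    fin_cases l
    · exact (congrArg z e0).trans (map_zero z)
    · exact (congrArg z e1).trans (map_zero z)
  exact (Submodule.mem_smul_top_iff (maximalIdeal R) _ _).mpr (mem_smul_of_map_mk_eq_zero hlift
    (eqAtRing_localEnd_sq hT a) (maximalIdeal R) (x l).2 (hkill l))

set_option maxHeartbeats 1000000 in
include hp hp2 hpR hq hqN hχ hℓ1 hs₀ ha hell in
/-- **Surjectivity.** -/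
theorem locDown_surjective (c : Fin 2 → eImage (localEnd T a) R) :
    ∃ y, ∀ l, locDown hT hT' hlift hlift' hd a l y = c l := by
  have := group_fg_Gamma0 N
  have := charP_residue hp hpR
  have := finite_eImage (e := localEnd T a) R
  set k := R ⧸ maximalIdeal R
  let π := (maximalIdeal R).mkQ
  obtain ⟨z, -, hz⟩ := exists_localEnd_eq_eisT_cube hT hlift a hℓN hs₀ ha
  let J : eImage (localEnd T' a) R →ₗ[R] (Fin 2 → eImage (localEnd T a) R) :=
    LinearMap.pi (locDown hT hT' hlift hlift' hd a)
  suffices hJ : Function.Surjective J by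
    obtain ⟨y, hy⟩ := hJ c
    exact ⟨y, fun l => congrFun hy l⟩
  refine surjective_of_mod_maximal J fun c => ?_
  have hc : ∀ l, tH1Map _ π (c l).1 ∈ eImage (localEnd T a) k := fun l =>
    tH1Map_mem_eImage π (c l).2
  obtain ⟨w, hw⟩ := eisT_cube_mem_range_degJ χ (smul_eq_self_of_sub_one_mem _ hχ) hℓN hp hp2 hq
    hqN hℓ1 hell h (z (tH1Map _ π (c 0).1)) (z (tH1Map _ π (c 1).1))
  rw [← hz _ (hc 0), ← hz _ (hc 1)] at hw
  have hw' : ∀ l, degDown h χ k l w = tH1Map _ π (c l).1 := by
    intro l
    fin_cases l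
    · exact congrArg Prod.fst hw
    · exact congrArg Prod.snd hw
  obtain ⟨y, hy, hyw⟩ := eImage_surjective hlift' π (Submodule.mkQ_surjective _)
    (e := localEnd T' a) (LinearMap.mem_range_self _ w)
  refine ⟨⟨y, hy⟩, ?_⟩
  have hl : ∀ l, c l - locDown hT hT' hlift hlift' hd a l ⟨y, hy⟩ ∈
      maximalIdeal R • (⊤ : Submodule R (eImage (localEnd T a) R)) := by
    intro l
    refine (Submodule.mem_smul_top_iff (maximalIdeal R) _ _).mpr
      (mem_smul_of_map_mk_eq_zero hlift (eqAtRing_localEnd_sq hT a) _ (Subtype.coe_prop _) ?_)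
    rw [Submodule.coe_sub, map_sub, coe_locDown, ← degDown_natural, hyw,
      degDown_localEnd hT hT' hlift hlift' hd, hw', sub_eq_zero]
    exact (e_app_of_mem hlift (eqAtRing_localEnd_sq hT a) (hc l)).symm
  rw [← Finset.univ_sum_single (c - J ⟨y, hy⟩)]
  refine Submodule.sum_mem _ fun l _ => ?_
  have := Submodule.mem_map_of_mem (f := LinearMap.single R
    (fun _ : Fin 2 => eImage (localEnd T a) R) l) (hl l)
  rw [Submodule.map_smul''] at this
  exact Submodule.smul_mono le_rfl le_top this

section formulas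

omit [IsLocalRing R] [IsNoetherianRing R] [IsAdicComplete (maximalIdeal R) R] [NeZero N] in
/-- The four composites `degDown k ∘ degUp l`. -/
theorem degDown_degUp [Fact q.Prime] (hqN : ¬ q ∣ N)
    (hc : IsWeight (gamChar χ) (repsT hqN) (hwT χ h)) {V : Type u} [AddCommGroup V] [Module R V]
    (x : tH1 (gamChar χ) V) :
    degDown h χ V 0 (degUp q χ V 0 x) = ((q + 1 : ℕ) : R) • x ∧
    degDown h χ V 0 (degUp q χ V 1 x) = (χ (ZMod.unitOfCoprime q h) : R) • hc.op V x ∧
    degDown h χ V 1 (degUp q χ V 0 x) = (FLTA.RT.gamChar χ (LevelRaising.alGamma h) : R) •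
      (χ (ZMod.unitOfCoprime q h) : R) • hc.op V x ∧
    degDown h χ V 1 (degUp q χ V 1 x) = (FLTA.RT.gamChar χ (LevelRaising.alGamma h) : R) •
      (χ (ZMod.unitOfCoprime q h) : R) • ((q + 1 : ℕ) : R) • x := by
  refine ⟨?_, ?_, ?_, ?_⟩
  · exact degCor_degIncl χ hqN x
  · exact degCor_degConj χ hqN h hc x
  · show degCor χ V (degAL χ V h (degIncl χ V x)) = _
    rw [degAL_degIncl, map_smul, degCor_degConj χ hqN h hc]
  · show degCor χ V (degAL χ V h (degConj χ V x)) = _
    rw [degAL_degConj, map_smul, degCor_degIncl χ hqN, Units.val_mul, mul_smul,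
      smul_comm (χ (ZMod.unitOfCoprime q h) : R)]

omit [IsLocalRing R] [IsNoetherianRing R] [IsAdicComplete (maximalIdeal R) R] in
/-- The Hecke operators at primes other than `q` are intertwined by the degeneracy maps. -/
theorem degIntertwines_natHecke [hq' : Fact q.Prime] (h : Nat.Coprime q N) {τ : Type*}
    (l : τ → ℕ) (hl : ∀ s, (l s).Prime) (hlq : ∀ s, l s ≠ q) :
    DegIntertwines (χ := χ) h (fun s => natHecke χ (l s))
      (fun s => natHecke (chiUp χ q) (l s)) := by
  have key : ∀ s : τ, ∀ (V : Type u) [AddCommGroup V] [Module R V],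
      (∀ x, (natHecke (chiUp χ q) (l s)).app V (degIncl χ V x) =
        degIncl χ V ((natHecke χ (l s)).app V x)) ∧
      (∀ x, (natHecke (chiUp χ q) (l s)).app V (degConj χ V x) =
        degConj χ V ((natHecke χ (l s)).app V x)) ∧
      (∀ y, (natHecke χ (l s)).app V (degCor χ V y) =
        degCor χ V ((natHecke (chiUp χ q) (l s)).app V y)) ∧
      (∀ y, (natHecke χ (l s)).app V (degCor χ V (degAL χ V h y)) =
        degCor χ V (degAL χ V h ((natHecke (chiUp χ q) (l s)).app V y))) := by
    intro s V _ _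
    have hcop : (l s).Coprime q := (Nat.coprime_primes (hl s) hq'.out).mpr (hlq s)
    have : NeZero (l s) := ⟨(hl s).ne_zero⟩
    have := Fact.mk (hl s)
    by_cases hd : l s ∣ N
    · have hd' : l s ∣ N * q := hd.trans (dvd_mul_right N q)
      rw [natHecke_of_dvd χ hd, natHecke_of_dvd (chiUp χ q) hd']
      have hA : (repsU hd').rep = (repsU hd).rep := funext fun x => by simp
      have hat : ∀ x y, (triU hd).top x = (triU hd).top y →
          (1 : ZMod (l s) → Rˣ) x = (1 : ZMod (l s) → Rˣ) y := fun _ _ _ => rfl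
      refine ⟨op_degIncl χ hA (isWeight_U χ hd) _,
        op_degConj χ (triU hd) hcop hA hat (isWeight_U χ hd) _,
        op_degCor χ (triU hd) hcop hA (isWeight_U χ hd) _ h, fun y => ?_⟩
      show (isWeight_U χ hd).op V _ = _
      rw [op_degCor χ (triU hd) hcop hA (isWeight_U χ hd) (isWeight_U (chiUp χ q) hd') h,
        op_degAL χ (triU hd) hcop hA hat (isWeight_U χ hd) (isWeight_U (chiUp χ q) hd') h]
      rfl
    · have hd' : ¬ l s ∣ N * q := fun h' => by
        rcases (hl s).dvd_mul.mp h' with h'' | h''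
        · exact hd h''
        · exact hlq s ((Nat.prime_dvd_prime_iff_eq (hl s) hq'.out).mp h'')
      rw [natHecke_of_not_dvd χ hd, natHecke_of_not_dvd (chiUp χ q) hd']
      have hA : (repsT hd').rep = (repsT hd).rep := by rw [repsT_rep, repsT_rep]
      have hw : hwT (chiUp χ q) (coprime_of_not_dvd hd') = hwT χ (coprime_of_not_dvd hd) :=
        funext fun x => hwT_chiUp χ _ _ x
      have hc' : IsWeight (gamChar (chiUp χ q)) (repsT hd') (hwT χ (coprime_of_not_dvd hd)) :=
        hw ▸ isWeight_T (chiUp χ q) hd' (coprime_of_not_dvd hd')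
      have hop : ∀ y, (isWeight_T (chiUp χ q) hd' (coprime_of_not_dvd hd')).natEnd.app V y =
          hc'.op V y := fun y => by
        obtain ⟨f, rfl⟩ := tClass_surjective _ y
        show tClass _ V _ = tClass _ V _
        congr 1
        exact Subtype.ext (funext fun γ => by simp only [IsWeight.opZ_apply, hw])
      have hat := hwT_congr (p := l s) χ hd (coprime_of_not_dvd hd)
      refine ⟨fun x => ?_, fun x => ?_, fun y => ?_, fun y => ?_⟩
      · rw [hop]; exact op_degIncl χ hA (isWeight_T χ hd _) hc' x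
      · rw [hop]; exact op_degConj χ (triT hd) hcop hA hat (isWeight_T χ hd _) hc' x
      · rw [hop]; exact op_degCor χ (triT hd) hcop hA (isWeight_T χ hd _) hc' h y
      · rw [hop]
        show (isWeight_T χ hd _).op V _ = _
        rw [op_degCor χ (triT hd) hcop hA (isWeight_T χ hd _) hc' h,
          op_degAL χ (triT hd) hcop hA hat (isWeight_T χ hd _) hc' h]
  exact ⟨fun s V _ _ => (key s V).1, fun s V _ _ => (key s V).2.1,
    fun s V _ _ => (key s V).2.2.1, fun s V _ _ => (key s V).2.2.2⟩

end formulas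

end FLTA.RT
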