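import Fermat.Agent.RT.RaiseBase
import Fermat.Agent.RT.RaiseLocal
import Fermat.Agent.RT.HeckeLocalBoundary
import Mathlib.RingTheory.Localization.FractionRing

/-!
# The bottom of raising is regular

Over a domain of characteristic zero with trivial twist, the composite of the degeneracy maps
between level `N` and level `N q` is injective on the factor of a non-Eisenstein eigen system.
-/

set_option autoImplicit false
set_option linter.style.haveILetI false

noncomputable section

open CongruenceSubgroup ModularCurve.Period FLTA.Gamma0 FLTA.Periods FLTA.LevelRaising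
open scoped MatrixGroups

namespace FLTA.RT

/-- Parabolic homomorphisms into a domain in which `12 ≠ 0` are refined parabolic. -/
theorem isParHom0_of_isParabolicHom_domain {O : Type} [CommRing O] [IsDomain O] {N : ℕ}
    (h12 : (12 : O) ≠ 0) {φ : Additive (Gamma0 N) →+ O} (hφ : IsParabolicHom (Gamma0 N) φ) :
    FLTA.Gamma0.IsParHom0 (Gamma0 N) φ := by
  have hinj := IsFractionRing.injective O (FractionRing O)
  have h12' : (12 : FractionRing O) ≠ 0 := by
    rw [← map_ofNat (algebraMap O (FractionRing O)) 12]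
    exact fun h => h12 (hinj (h.trans (map_zero _).symm))
  have h := isParHom0_of_isParabolicHom h12'
    (φ := (algebraMap O (FractionRing O)).toAddMonoidHom.comp φ) (fun γ hγ => by
      simp [hφ γ hγ])
  exact fun γ hγ => hinj (by simpa using h γ hγ)

variable {R : Type} [CommRing R] [IsLocalRing R] [IsNoetherianRing R]
  [IsAdicComplete (IsLocalRing.maximalIdeal R) R] {N q : ℕ} [NeZero N] [NeZero q]
  [((Gamma0 (N * q)).subgroupOf (Gamma0 N)).FiniteIndex] {χ : (ZMod N)ˣ →* Rˣ} {σ : Type*}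
  {T : σ → NatEnd (gamChar χ)} {O : Type} [CommRing O] [IsDomain O] [CharZero O] [Algebra R O]
  [Module.Finite R O] (htriv : ∀ γ (v : O), ((gamChar χ γ : Rˣ) : R) • v = v)

omit [IsLocalRing R] [IsNoetherianRing R] [IsAdicComplete (IsLocalRing.maximalIdeal R) R]
  [IsDomain O] [CharZero O] [Module.Finite R O] [NeZero N] in
include htriv in
theorem gamChar_smul_hom (γ : Gamma0 N) (φ : Additive (Gamma0 N) →+ O) :
    ((gamChar χ γ : Rˣ) : R) • φ = φ :=
  AddMonoidHom.ext fun x => htriv γ (φ x)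

omit [NeZero q] [((Gamma0 (N * q)).subgroupOf (Gamma0 N)).FiniteIndex] in
/-- The homomorphisms of a non-Eisenstein factor are parabolic. -/
theorem isParHom0_of_mem_eImage (hT : CommAtRing T) (hlift : HasLifts (gamChar χ)) (a : σ → R)
    {ℓ : ℕ} [hℓ : Fact ℓ.Prime] (hℓN : ¬ ℓ ∣ N) (hℓ1 : (ℓ : ZMod N) = 1) {s₀ : σ}
    (hs₀ : T s₀ = natHecke χ ℓ) (ha : IsUnit (a s₀ - ((ℓ : R) + 1)))
    {x : tH1 (gamChar χ) O} (hx : x ∈ eImage (localEnd T a) O) :
    FLTA.Gamma0.IsParHom0 (Gamma0 N) (tH1EquivHom htriv x) := by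
  have := group_fg_Gamma0 N
  have := finite_tH1 (χ := gamChar χ) O
  have hc := commute_opsAt hT hlift O
  obtain ⟨z, hz, he⟩ := exists_mul_sub_eq_localIdem hc a s₀ ha
  let := opAlgCommRing (R := R) hc
  obtain ⟨y, rfl⟩ := hx
  rw [localEnd_app_finite hT a hlift, he,
    show (z * (opsAt T O s₀ - algebraMap R _ ((ℓ : R) + 1)) : Module.End R _) =
      (opsAt T O s₀ - algebraMap R _ ((ℓ : R) + 1)) * z from
      congrArg Subtype.val (mul_comm (⟨z, hz⟩ : opAlg R (opsAt T O))
        (opGen R (opsAt T O) s₀ - algebraMap R _ ((ℓ : R) + 1))),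
    Module.End.mul_apply, LinearMap.sub_apply, Module.algebraMap_end_apply, map_sub, map_smul]
  have h2 : ∀ v : O, 2 • v = 0 → v = 0 := fun v hv => by
    rw [nsmul_eq_mul, Nat.cast_ofNat] at hv
    exact (mul_eq_zero.mp hv).resolve_left two_ne_zero
  refine isParHom0_of_isParabolicHom_domain (by norm_num) ?_
  have h := isParabolicHom_of_eisenstein R h2 hℓN hℓ1 (tH1EquivHom htriv (z y))
  rw [show ((ℓ : R) + 1) = (((ℓ + 1 : ℕ)) : R) by push_cast; rfl, Nat.cast_smul_eq_nsmul]
  convert h using 2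
  rw [← tH1EquivHom_natHecke χ htriv hℓ.out]
  simp [opsAt, hs₀]

omit [IsLocalRing R] [IsNoetherianRing R] [IsAdicComplete (IsLocalRing.maximalIdeal R) R]
  [Module.Finite R O] in
/-- Parabolic pairs killed by the composite of the degeneracy maps vanish. -/
theorem eq_zero_of_sum_degDown_degUp [hq : Fact q.Prime] (h : Nat.Coprime q N) (hqN : ¬ q ∣ N)
    (x : Fin 2 → tH1 (gamChar χ) O)
    (hpar : ∀ l, FLTA.Gamma0.IsParHom0 (Gamma0 N) (tH1EquivHom htriv (x l)))
    (hx : ∀ k, ∑ l, degDown h χ O k (degUp q χ O l (x l)) = 0) : x = 0 := by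
  have hc : IsWeight (gamChar χ) (repsT hqN) (hwT χ h) := isWeight_T χ hqN h
  obtain ⟨γu, hγu⟩ := aUnit_surjective N (ZMod.unitOfCoprime q h)
  have hu : (χ (ZMod.unitOfCoprime q h) : R) = (gamChar χ γu : R) := by
    rw [gamChar_apply, hγu]
  have hop : ∀ w, tH1EquivHom htriv (hc.op O w) = heckeHom R N q (tH1EquivHom htriv w) := fun w => by
    rw [heckeHom_of_not_dvd R hq.out hqN]
    exact tH1EquivHom_op hc (hwT_mem_range χ _) htriv w
  set φ := fun l => tH1EquivHom htriv (x l) with hφ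
  have h0 := congrArg (tH1EquivHom htriv) (hx 0)
  have h1 := congrArg (tH1EquivHom htriv) (hx 1)
  obtain ⟨a00, -, a10, -⟩ := degDown_degUp (h := h) hqN hc (x 0)
  obtain ⟨-, a01, -, a11⟩ := degDown_degUp (h := h) hqN hc (x 1)
  rw [Fin.sum_univ_two, a00, a01] at h0
  rw [Fin.sum_univ_two, a10, a11] at h1
  simp only [map_add, map_zero, map_smul, hop, hu, gamChar_smul_hom htriv,
    Nat.cast_smul_eq_nsmul, map_nsmul] at h0 h1
  have hsq : ∀ (α β : Additive (Gamma0 N) →+ O),
      (q + 1) • α + heckeHom R N q β = 0 → heckeHom R N q α + (q + 1) • β = 0 →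
      heckeHom O N q (heckeHom O N q α) = (((q : O) + 1) ^ 2) • α := by
    intro α β e1 e2
    rw [show ((q : O) + 1) ^ 2 = (((q + 1) * (q + 1) : ℕ) : O) by push_cast; ring,
      Nat.cast_smul_eq_nsmul, heckeHom_eq_int O q α, ← heckeHom_eq_int R q α,
      heckeHom_eq_int O q, ← heckeHom_eq_int R q, eq_neg_of_add_eq_zero_left e2, map_neg,
      map_nsmul, eq_neg_of_add_eq_zero_right e1, mul_smul, smul_neg, neg_neg]
  have hzero : ∀ l, φ l = 0 := by
    intro l
    refine eq_zero_of_heckeHom_sq hq.out hqN (hpar l) ?_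
    fin_cases l
    · exact hsq _ _ h0 h1
    · exact hsq _ _ (by rw [add_comm]; exact h1) (by rw [add_comm]; exact h0)
  exact funext fun l => (LinearEquiv.map_eq_zero_iff _).mp (hzero l)

/-- **Regularity at the bottom** on a non-Eisenstein factor. -/
theorem eq_zero_of_sum_degDown_degUp_eImage [Fact q.Prime] (h : Nat.Coprime q N) (hqN : ¬ q ∣ N)
    (hT : CommAtRing T) (hlift : HasLifts (gamChar χ)) (a : σ → R)
    (htriv : ∀ γ (v : O), ((gamChar χ γ : Rˣ) : R) • v = v)
    {ℓ : ℕ} [Fact ℓ.Prime] (hℓN : ¬ ℓ ∣ N) (hℓ1 : (ℓ : ZMod N) = 1) {s₀ : σ}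
    (hs₀ : T s₀ = natHecke χ ℓ) (ha : IsUnit (a s₀ - ((ℓ : R) + 1)))
    (x : Fin 2 → eImage (localEnd T a) O)
    (hx : ∀ k, ∑ l, degDown h χ O k (degUp q χ O l (x l)) = 0) : x = 0 := by
  have := eq_zero_of_sum_degDown_degUp htriv h hqN (fun l => (x l).1)
    (fun l => isParHom0_of_mem_eImage htriv hT hlift a hℓN hℓ1 hs₀ ha (x l).2) hx
  exact funext fun l => Subtype.ext (congrFun this l)

end FLTA.RT
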