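import Fermat.Agent.RT.DiscPush
import Fermat.Agent.RT.Diamond.PointRelation
import Fermat.Agent.BadRed.Galois
import Fermat.Agent.RT.RaiseResidual
import Fermat.Agent.GaloisReps.TateConstruct

/-!
# The discriminant of Frobenius at `q` kills classes with vanishing traces

For classes on `Γ₀(M q)`, `q ∤ M`, with values in a module killed by `p`, `q ≡ 1 mod p`, on which
the good Hecke operators act as the traces of Frobenius of `ρ` and whose traces along both sides
at `q` vanish: the quadratic relation of `ρ` and `(σ² - 1)² = 0` at Frobenius at `q` give that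
`tr(σ)² - 4 q` annihilates them.
-/

set_option autoImplicit false
set_option synthInstance.maxHeartbeats 400000

noncomputable section

open AlgebraicCurve ModularCurve CongruenceSubgroup IsLocalRing
open FLTA.Gamma0 (homPar0 IsParHom0)
open scoped MatrixGroups

namespace FLTA.RT.Disc

open FLTA.Deformation FLTA.Periods

local notation "Qb" => AlgebraicClosure ℚ
local notation "Γℚ" => AlgebraicClosure ℚ ≃ₐ[ℚ] AlgebraicClosure ℚ

variable {A : Type} [CommRing A] [IsLocalRing A] [IsNoetherianRing A] {p : ℕ} [Fact p.Prime]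
  {Y : Type} [AddCommGroup Y] [Module A Y]

omit [IsLocalRing A] [IsNoetherianRing A] in
/-- The relation of a `2 × 2` matrix is inherited by its powers. -/
theorem quadratic_pow {J : Type} [AddCommGroup J] (g : J →+ J) (Θ : Y →+ J)
    (G : Matrix (Fin 2) (Fin 2) A) (hg : ∀ y, g (g (Θ y)) = g (Θ (G.trace • y)) - Θ (G.det • y))
    (k : ℕ) (y : Y) :
    g^[k] (g^[k] (Θ y)) = g^[k] (Θ ((G ^ k).trace • y)) - Θ ((G ^ k).det • y) := by
  obtain ⟨a, b, hG, hk⟩ : ∃ a b : A, G ^ k = a • G + b • 1 ∧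
      ∀ y, g^[k] (Θ y) = g (Θ (a • y)) + Θ (b • y) := by
    induction k with
    | zero => exact ⟨0, 1, by simp, fun y => by simp⟩
    | succ k ih =>
      obtain ⟨a, b, hG, hk⟩ := ih
      refine ⟨a * G.trace + b, -(a * G.det), ?_, fun y => ?_⟩
      · rw [pow_succ, hG, add_mul, smul_mul_assoc, Diamond.mat2_sq, smul_mul_assoc, one_mul,
          smul_sub, smul_smul, smul_smul, add_smul, neg_smul]
        abel
      · rw [Function.iterate_succ_apply', hk, map_add, hg, add_smul, neg_smul, map_add, map_neg,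
          map_add, smul_smul, smul_smul, mul_comm G.trace, mul_comm G.det]
        abel
  have hit : ∀ (j : ℕ) (u v : J), g^[j] (u + v) = g^[j] u + g^[j] v := fun j u v => by
    induction j with
    | zero => rfl
    | succ j ih => rw [Function.iterate_succ_apply', Function.iterate_succ_apply',
        Function.iterate_succ_apply', ih, map_add]
  have hcomm : ∀ x, g^[k] (g x) = g (g^[k] x) := fun x => by
    rw [← Function.iterate_succ_apply, Function.iterate_succ_apply']
  have htr : (G ^ k).trace = a * G.trace + 2 * b := by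
    rw [hG, Matrix.trace_add, Matrix.trace_smul, Matrix.trace_smul, Matrix.trace_one,
      Fintype.card_fin]
    push_cast
    simp only [smul_eq_mul]
    ring
  have hdet : (G ^ k).det = a * a * G.det + a * b * G.trace + b * b := by
    rw [hG]
    simp [Matrix.det_fin_two, Matrix.trace_fin_two]
    ring
  let L : A →+ J := AddMonoidHom.mk' (fun c => g (Θ (c • y))) fun c d => by
    rw [add_smul, map_add, map_add]
  let K : A →+ J := AddMonoidHom.mk' (fun c => Θ (c • y)) fun c d => by rw [add_smul, map_add]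
  have hL : ∀ c, g (Θ (c • y)) = L c := fun _ => rfl
  have hK : ∀ c, Θ (c • y) = K c := fun _ => rfl
  rw [hk y, hit, hcomm, hk, hk, hk, map_add, hg]
  simp only [smul_smul]
  simp only [hL]
  simp only [hK]
  rw [htr, hdet,
    show a * (a * G.trace + 2 * b) = a * a * G.trace + (a * b + a * b) by ring,
    show b * (a * G.trace + 2 * b) = a * b * G.trace + (b * b + b * b) by ring,
    show G.trace * (a * a) = a * a * G.trace by ring, show G.det * (a * a) = a * a * G.det by ring,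
    show b * a = a * b by ring]
  simp only [map_add]
  abel

variable {M : ℕ} [NeZero M]

/-- **The quadratic relation of `ρ`** on points on which the operators act through its traces. -/
theorem galois_relation (ρ : GaloisRepAdic A) (hdet : ρ.DetIsCyclotomic p) (S : Finset ℕ)
    (hpS : p ∈ S) (hMS : ∀ l : ℕ, l.Prime → l ∣ M → l ∈ S) (Θ : Y →+ JZero M)
    (hp : ∀ y, p • Θ y = 0) (k : ℕ) (hker : ∀ a ∈ maximalIdeal A ^ k, ∀ y : Y, Θ (a • y) = 0)
    (hT : ∀ (l : ℕ) (hl : l.Prime), l ∉ S → ∀ P : ValuationSubring Qb, P.LiesOverPrime l →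
      ∀ τ : Γℚ, P.IsFrobeniusAt τ l →
        ∀ y, heckeOperatorBar M ⟨l, hl⟩ (Θ y) = Θ (ρ.trace τ • y))
    (σ : Γℚ) (y : Y) :
    σ • σ • Θ y - σ • Θ (ρ.trace σ • y) + Θ (LinearMap.det (ρ.ρ σ) • y) = 0 := by
  have hpp : p.Prime := Fact.out
  have : NeZero p := ⟨hpp.ne_zero⟩
  obtain ⟨L₁, hL₁, h1⟩ := GaloisReps.exists_level_galMat M p
  obtain ⟨L₂, hL₂, h2⟩ := matCont_toMat ρ k
  have := hL₁
  have := hL₂
  obtain ⟨l, hl, hlS, P, hP, τ, hτ, j, hj⟩ := Density.exists_frobenius_pow_eq (L₁ ⊔ L₂) S σ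
  have hg : ∀ (L : IntermediateField ℚ Qb), L ≤ L₁ ⊔ L₂ → ∀ x ∈ L, ((τ ^ j)⁻¹ * σ) x = x :=
    fun L hL x hx => by
      rw [AlgEquiv.mul_apply, ← hj x (hL hx), ← AlgEquiv.mul_apply, inv_mul_cancel,
        AlgEquiv.one_apply]
  have hfix : ∀ z : JZero M, p • z = 0 → σ • z = τ ^ j • z := fun z hz => by
    have hz' : z ∈ Pic0.torsion Qb (modularFunctionFieldBar M) p :=
      Pic0.mem_torsion.mpr (by rw [natCast_zsmul]; exact hz)
    conv_lhs => rw [← mul_inv_cancel_left (τ ^ j) σ, mul_smul,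
      (GaloisReps.galMat_eq_one_iff M p _).mp (h1 _ (hg L₁ le_sup_left)) ⟨z, hz'⟩]
  have hmat : ∀ i i', toMat ρ σ i i' - (toMat ρ τ ^ j) i i' ∈ maximalIdeal A ^ k := by
    intro i i'
    have e0 : toMat ρ σ - toMat ρ τ ^ j = toMat ρ τ ^ j * (toMat ρ ((τ ^ j)⁻¹ * σ) - 1) := by
      rw [mul_sub, mul_one, ← map_pow, ← map_mul, mul_inv_cancel_left]
    rw [← Matrix.sub_apply, e0, Matrix.mul_apply]
    refine Ideal.sum_mem _ fun x _ => ?_
    rw [Matrix.sub_apply]
    exact Ideal.mul_mem_left _ _ (h2 _ (hg L₂ le_sup_right) x i')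
  have hcongr : ∀ c d : A, c - d ∈ maximalIdeal A ^ k → Θ (c • y) = Θ (d • y) := fun c d h => by
    rw [← sub_eq_zero, ← map_sub, ← sub_smul]
    exact hker _ h y
  have htr : Θ (ρ.trace σ • y) = Θ ((toMat ρ τ ^ j).trace • y) := hcongr _ _ (by
    rw [← trace_toMat, Matrix.trace_fin_two, Matrix.trace_fin_two, add_sub_add_comm]
    exact add_mem (hmat 0 0) (hmat 1 1))
  have hdt : Θ (LinearMap.det (ρ.ρ σ) • y) = Θ ((toMat ρ τ ^ j).det • y) := hcongr _ _ (by
    rw [← LinearMap.det_toMatrix (repBasis ρ), ← toMat_apply, Matrix.det_fin_two,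
      Matrix.det_fin_two,
      show ∀ a b c d a' b' c' d' : A, a * d - b * c - (a' * d' - b' * c') =
        (a - a') * d + a' * (d - d') - ((b - b') * c + b' * (c - c')) by intros; ring]
    exact sub_mem (add_mem (Ideal.mul_mem_right _ _ (hmat 0 0))
      (Ideal.mul_mem_left _ _ (hmat 1 1)))
      (add_mem (Ideal.mul_mem_right _ _ (hmat 0 1)) (Ideal.mul_mem_left _ _ (hmat 1 0))))
  have hlM : ¬ l ∣ M := fun h => hlS (hMS l hl h)
  have hlp : l ≠ p := fun h => hlS (h ▸ hpS)
  have hlp' : ¬ l ∣ p := fun h => hlp ((Nat.prime_dvd_prime_iff_eq hl hpp).mp h)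
  have hfrob : ∀ y, τ • τ • Θ y =
      τ • Θ ((toMat ρ τ).trace • y) - Θ ((toMat ρ τ).det • y) := fun y => by
    have hES := FLTA.Congruence.frobenius_quadratic_torsion hl hlM hP hlp' hτ (hp y)
    rw [show heckeOperatorBar M ⟨l, hl⟩ (τ • Θ y) = τ • heckeOperatorBar M ⟨l, hl⟩ (Θ y) from
        (GaloisReps.heckeOperatorBar_galois M ⟨l, hl⟩ τ (Θ y)).symm,
      hT l hl hlS P hP τ hτ, natCast_zsmul, ← map_nsmul] at hES
    rw [trace_toMat, toMat_apply, LinearMap.det_toMatrix,
      LocalGalois.det_frobenius_eq ρ hdet hl hpp hlp.symm hP hτ, Nat.cast_smul_eq_nsmul]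
    rw [sub_add] at hES
    exact sub_eq_zero.mp hES
  have hrel := quadratic_pow (DistribSMul.toAddMonoidHom (JZero M) τ) Θ (toMat ρ τ) hfrob j y
  have hit : ∀ z : JZero M, (DistribSMul.toAddMonoidHom (JZero M) τ)^[j] z = τ ^ j • z := fun z =>
    smul_iterate_apply τ j z
  simp only [hit] at hrel
  rw [hfix _ (hp y), hfix (τ ^ j • Θ y) (FLTA.Congruence.nsmul_smul_eq_zero (hp y)),
    hfix _ (hp _), htr, hdt, hrel]
  abel

variable {q : ℕ} [NeZero q] [hq : Fact q.Prime]

/-- **At `q ≡ 1 mod p`**: the discriminant kills points killed by both pushforwards. -/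
theorem disc_smul_eq_zero (hqM : ¬ q ∣ M) (hqp : q ≠ p) (hq1 : (q : ZMod p) = 1)
    (ρ : GaloisRepAdic A) (hdet : ρ.DetIsCyclotomic p) (S : Finset ℕ) (hpS : p ∈ S)
    (hMS : ∀ l : ℕ, l.Prime → l ∣ M * q → l ∈ S) (Θ : Y →+ JZero (M * q))
    (hp : ∀ y, p • Θ y = 0) (k : ℕ) (hker : ∀ a ∈ maximalIdeal A ^ k, ∀ y : Y, Θ (a • y) = 0)
    (hT : ∀ (l : ℕ) (hl : l.Prime), l ∉ S → ∀ P : ValuationSubring Qb, P.LiesOverPrime l →
      ∀ τ : Γℚ, P.IsFrobeniusAt τ l →
        ∀ y, heckeOperatorBar (M * q) ⟨l, hl⟩ (Θ y) = Θ (ρ.trace τ • y))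
    (hpush : ∀ y, Carayol.pushAlpha M q (Θ y) = 0 ∧ Carayol.pushBeta M q (Θ y) = 0)
    {P : ValuationSubring Qb} (hP : P.LiesOverPrime q) {F : Γℚ} (hF : P.IsFrobeniusAt F q)
    (y : Y) : Θ ((ρ.trace F ^ 2 - 4 * (q : A)) • y) = 0 := by
  have hpp : p.Prime := Fact.out
  set t := ρ.trace F with ht
  have hone : ∀ z : JZero (M * q), p • z = 0 → q • z = z := fun z hz => by
    have hmod : q % p = 1 := by
      have h := congrArg ZMod.val hq1
      rwa [ZMod.val_natCast, ZMod.val_one] at h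
    have h : ∀ n : ℕ, n % p = 1 → n • z = z := fun n hn => by
      obtain ⟨c, rfl⟩ : ∃ c, n = p * c + 1 := ⟨n / p, by rw [← hn, Nat.div_add_mod]⟩
      rw [add_nsmul, mul_nsmul, hz, smul_zero, zero_add, one_smul]
    exact h q hmod
  have hrel : ∀ y, F • F • Θ y = F • Θ (t • y) - Θ y := fun y => by
    have h := galois_relation ρ hdet S hpS hMS Θ hp k hker hT F y
    rw [LocalGalois.det_frobenius_eq ρ hdet hq.out hpp hqp.symm hP hF, Nat.cast_smul_eq_nsmul,
      map_nsmul, hone _ (hp y), sub_add] at h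
    exact sub_eq_zero.mp h
  have hquart := BadRed.frob_quartic_JZero M q hqM hP hF
    (n := p) (fun h => hqp ((Nat.prime_dvd_prime_iff_eq hq.out hpp).mp h)) (hp y)
    (hpush y).1 (hpush y).2
  have hq2 : ∀ z : JZero (M * q), p • z = 0 → (q ^ 2) • z = z := fun z hz => by
    rw [sq, mul_nsmul, hone z hz, hone z hz]
  have hsub : ∀ z : JZero (M * q), p • z = 0 → p • (F • F • z - z) = 0 := fun z hz => by
    rw [nsmul_sub, FLTA.Congruence.nsmul_smul_eq_zero (FLTA.Congruence.nsmul_smul_eq_zero hz), hz,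
      sub_zero]
  rw [hq2 _ (hsub _ (hp y)), Diamond.galois_smul_sub, Diamond.galois_smul_sub] at hquart
  have h2 : ∀ y, F • F • Θ y + Θ y = F • Θ (t • y) := fun y => by rw [hrel, sub_add_cancel]
  have h4 : F • F • F • F • Θ y + F • F • Θ y + (F • F • Θ y + Θ y) =
      F • F • Θ ((t * t) • y) := by
    rw [← Diamond.galois_smul_add, ← Diamond.galois_smul_add, h2 y,
      ← Diamond.galois_smul_add, h2 (t • y), mul_smul t t y]
  have h5 : F • F • Θ ((t * t) • y) = F • F • ((4 : ℕ) • Θ y) := by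
    have e : F • F • ((4 : ℕ) • Θ y) = (4 : ℕ) • (F • F • Θ y) :=
      (congrArg (F • ·) (map_nsmul (DistribSMul.toAddMonoidHom (JZero (M * q)) F) 4 (Θ y))).trans
        (map_nsmul (DistribSMul.toAddMonoidHom (JZero (M * q)) F) 4 (F • Θ y))
    rw [← h4, e, ← sub_eq_zero, ← sub_eq_zero.mpr hquart]
    abel
  have h6 := MulAction.injective F (MulAction.injective F h5)
  rw [sub_smul, map_sub, pow_two, h6, sub_eq_zero,
    show (4 : A) * (q : A) = ((4 * q : ℕ) : A) by push_cast; rfl, Nat.cast_smul_eq_nsmul,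
    map_nsmul, mul_nsmul', hone _ (hp y)]

/-- **Classes**: the discriminant kills them. -/
theorem disc_classes_eq_zero (hqM : Nat.Coprime q M) (hqp : q ≠ p) (hq1 : (q : ZMod p) = 1)
    (ρ : GaloisRepAdic A) (hdet : ρ.DetIsCyclotomic p) (S : Finset ℕ) (hpS : p ∈ S)
    (hMS : ∀ l : ℕ, l.Prime → l ∣ M * q → l ∈ S) {V : Type} [AddCommGroup V]
    (hV : ∀ v : V, p • v = 0) (u : Y →+ (Additive (Gamma0 (M * q)) →+ V))
    (hpar : ∀ (f : V →+ ZMod p) y, IsParHom0 (Gamma0 (M * q)) (f.comp (u y)))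
    (k : ℕ) (hker : ∀ a ∈ maximalIdeal A ^ k, ∀ y : Y, u (a • y) = 0)
    (hT : ∀ (l : ℕ), l.Prime → l ∉ S → ∀ P : ValuationSubring Qb, P.LiesOverPrime l →
      ∀ τ : Γℚ, P.IsFrobeniusAt τ l →
        ∀ y, heckeHom ℤ (M * q) l (u y) = u (ρ.trace τ • y))
    (htr : ∀ y (b : Bool) (γ : Gamma0 M), ∑ i, u y
      (Additive.ofMul (transCocyc hqM dvd_rfl (isTrans_sideTrans hqM b) γ i)) = 0)
    {P : ValuationSubring Qb} (hP : P.LiesOverPrime q) {F : Γℚ} (hF : P.IsFrobeniusAt F q)
    (y : Y) : u ((ρ.trace F ^ 2 - 4 * (q : A)) • y) = 0 := by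
  have hpp : p.Prime := Fact.out
  have : NeZero p := ⟨hpp.ne_zero⟩
  let pts : (V →+ ZMod p) → Y →+ FLTA.Kummer.JTors (M * q) p := fun f =>
    (FLTA.Kummer.kummerEquiv (M * q) p).symm.toAddMonoidHom.comp
      (AddMonoidHom.mk' (fun y => (⟨f.comp (u y), hpar f y⟩ : homPar0 ℤ (Gamma0 (M * q)) (ZMod p)))
        fun y y' => Subtype.ext (by
          show f.comp (u (y + y')) = f.comp (u y) + f.comp (u y')
          rw [map_add, AddMonoidHom.comp_add]))
  have hpts : ∀ f y, (FLTA.Kummer.kummerEquiv (M * q) p (pts f y)).1 = f.comp (u y) := fun f y =>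
    congrArg Subtype.val ((FLTA.Kummer.kummerEquiv (M * q) p).apply_symm_apply _)
  have key : ∀ (f : V →+ ZMod p), f.comp (u ((ρ.trace F ^ 2 - 4 * (q : A)) • y)) = 0 := by
    intro f
    let Θ : Y →+ JZero (M * q) := (AddSubgroup.subtype _).comp (pts f)
    have h0 : Θ ((ρ.trace F ^ 2 - 4 * (q : A)) • y) = 0 := by
      refine disc_smul_eq_zero (hq.out.coprime_iff_not_dvd.mp hqM) hqp hq1 ρ hdet S hpS hMS Θ
        (fun z => Diamond.nsmul_jTors' (pts f z)) k (fun a ha z => ?_)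
        (fun l hl hlS P' hP' τ hτ z => ?_) (fun z => ?_) hP hF y
      · have h : pts f (a • z) = 0 := by
          refine (FLTA.Kummer.kummerEquiv (M * q) p).injective (Subtype.ext ?_)
          rw [hpts, hker a ha z, map_zero, AddMonoidHom.comp_zero]
          rfl
        exact (congrArg Subtype.val h)
      · let w : FLTA.Kummer.JTors (M * q) p :=
          ⟨heckeOperatorBar (M * q) ⟨l, hl⟩ (pts f z : JZero (M * q)),
            GaloisReps.hecke_mem_torsion (M * q) p ⟨l, hl⟩ _⟩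
        have h : w = pts f (ρ.trace τ • z) := by
          refine (FLTA.Kummer.kummerEquiv (M * q) p).injective (Subtype.ext ?_)
          rw [hpts, FLTA.Kummer.kummerEquiv_heckeOperatorBar (M * q) p ⟨l, hl⟩ (pts f z) w rfl,
            hpts, heckeHom_comp, ← hT l hl hlS P' hP' τ hτ z]
        exact (congrArg Subtype.val h)
      · refine push_eq_zero_of_traces hqM dvd_rfl hqM (pts f z) fun b γ => ?_
        show ∑ i, (FLTA.Kummer.kummerEquiv (M * q) p (pts f z)).1 _ = 0
        simp only [hpts, AddMonoidHom.comp_apply, ← map_sum, htr, map_zero]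
    have h : pts f ((ρ.trace F ^ 2 - 4 * (q : A)) • y) = 0 := Subtype.ext h0
    rw [← hpts, h, map_zero]
    rfl
  let hmod : Module (ZMod p) V := AddCommGroup.zmodModule hV
  refine AddMonoidHom.ext fun g => ?_
  let b := Module.Basis.ofVectorSpace (ZMod p) V
  exact b.forall_coord_eq_zero_iff.mp fun i =>
    DFunLike.congr_fun (key (b.coord i).toAddMonoidHom) g

end FLTA.RT.Disc

end
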