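import Fermat.Agent.RT.DiscSocle
import Fermat.Agent.RT.DiscGalois

/-!
# The discriminant at `q` kills the classes of a factor without a lower system

On the factor of twisted classes at level `L₀ q`, with values in a finite module killed by `p`,
with no system at `L₁` (`L₀ = L₁ ∏ Q`): if the operators act as the traces of Frobenius of `ρ`
then `tr ρ(Frob_q)² - 4 q` acts as zero.
-/

set_option autoImplicit false
set_option synthInstance.maxHeartbeats 400000

noncomputable section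

open IsLocalRing CongruenceSubgroup WeierstrassCurve
open scoped MatrixGroups

namespace FLTA.RT.Disc

open FLTA.Periods

section aux

/-- A finite module is killed by a power of the maximal ideal. -/
theorem exists_pow_smul_eq_bot (A : Type) [CommRing A] [IsLocalRing A] (V : Type) [AddCommGroup V]
    [Module A V] [Finite V] : ∃ j : ℕ, maximalIdeal A ^ j • (⊤ : Submodule A V) = ⊥ := by
  have : Finite (Submodule A V) := Finite.of_injective _ SetLike.coe_injective
  have key : ∀ i j : ℕ, i < j → maximalIdeal A ^ i • (⊤ : Submodule A V) = maximalIdeal A ^ j • ⊤ →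
      maximalIdeal A ^ i • (⊤ : Submodule A V) = ⊥ := by
    intro i j hij h
    refine Submodule.eq_bot_of_le_smul_of_le_jacobson_bot (maximalIdeal A) _
      (Module.Finite.iff_fg.mp Module.Finite.of_finite) ?_ (maximalIdeal_le_jacobson _)
    refine h.trans_le ?_
    rw [← Submodule.mul_smul, ← pow_succ']
    exact Submodule.smul_mono (Ideal.pow_le_pow_right hij) le_rfl
  obtain ⟨i, j, hne, h⟩ := Finite.exists_ne_map_eq_of_infinite
    fun i : ℕ => maximalIdeal A ^ i • (⊤ : Submodule A V)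
  rcases lt_or_gt_of_ne hne with h' | h'
  · exact ⟨i, key i j h' h⟩
  · exact ⟨j, key j i h' h.symm⟩

/-- Twisted classes with values in a finite module form a finite set. -/
theorem finite_tH1_set {Γ : Type} [Group Γ] [Group.FG Γ] {R : Type} [CommRing R] (χ : Γ →* Rˣ)
    (V : Type) [AddCommGroup V] [Module R V] [Finite V] : Finite (tH1 χ V) := by
  obtain ⟨S, hS, hfin⟩ := Group.fg_iff.mp (inferInstance : Group.FG Γ)
  have : Finite S := hfin
  have : Finite (tCocycles χ V) := Finite.of_injective (fun f (s : S) => f.1 s) fun f f' h =>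
    tCocycles_ext_of_closure hS fun s hs => congrFun h ⟨s, hs⟩
  exact Finite.of_surjective _ (tClass_surjective χ)

end aux

variable {R : Type} [CommRing R] [IsLocalRing R] [IsNoetherianRing R]
  [IsAdicComplete (maximalIdeal R) R]

/-- On the factor `T s - c` is surjective when `a s - c` is a unit. -/
theorem exists_sub_apply {Γ : Type} [Group Γ] [Group.FG Γ] {χ : Γ →* Rˣ} {σ : Type}
    {T : σ → NatEnd χ} (hcomm : CommAtRing T) (a : σ → R) (hlift : HasLifts χ) (s : σ) {c : R}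
    (hc : IsUnit (a s - c)) {V : Type} [AddCommGroup V] [Module R V] [Module.Finite R V]
    {z : tH1 χ V} (hz : z ∈ eImage (localEnd T a) V) :
    ∃ w : tH1 χ V, z = (T s).app V w - c • w := by
  have := finite_tH1 (χ := χ) V
  have hT := commute_opsAt hcomm hlift V
  have hze := e_app_of_mem hlift (eqAtRing_localEnd_sq hcomm a) hz
  rw [localEnd_app_finite hcomm a hlift] at hze
  obtain ⟨u, hu, he⟩ := exists_mul_sub_eq_localIdem hT a s hc
  have hmul : u * (opsAt T V s - algebraMap R _ c) = (opsAt T V s - algebraMap R _ c) * u := by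
    letI := opAlgCommRing (R := R) hT
    exact congrArg Subtype.val (mul_comm (⟨u, hu⟩ : opAlg R (opsAt T V))
      ⟨_, sub_mem (Algebra.subset_adjoin (Set.mem_range_self s)) (Subalgebra.algebraMap_mem _ c)⟩)
  refine ⟨u z, hze.symm.trans ?_⟩
  rw [he, hmul, Module.End.mul_apply, LinearMap.sub_apply, Module.algebraMap_end_apply]
  rfl

variable {q : ℕ} [hq : Fact q.Prime] [NeZero q] {L₀ : ℕ} [NeZero L₀]

/-- **The discriminant kills the classes.** -/
theorem disc_class_eq_zero {W : WeierstrassCurve ℤ} {p : ℕ} [Fact p.Prime]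
    [CharP (ResidueField R) p] (hp2 : p ≠ 2) (hqp : q ≠ p) (hq1 : (q : ZMod p) = 1)
    (hqL : Nat.Coprime q L₀) {L₁ : ℕ} [NeZero L₁]
    (hell : ¬ p ∣ 12 ∨ ∃ t : ℕ, t.Prime ∧ t % 3 = 2 ∧ t ∣ L₁) (hno : ¬ HasSystem W p L₁)
    (Q : Finset ℕ) (hL : L₀ = L₁ * ∏ s ∈ Q, s) (S : Finset ℕ) (hpS : p ∈ S)
    (hLS : ∀ l : ℕ, l.Prime → l ∣ L₀ * q → l ∈ S)
    (hne : ∀ M : ℕ, M ≠ 0 → ∃ l : ℕ, l.Prime ∧ l ∉ S ∧ (l : ZMod M) = 1 ∧
      (W.apOfModel l : ResidueField R) ≠ l + 1)
    (α : ℕ → R) (hQ : ∀ s ∈ Q, s.Prime ∧ ¬ s ∣ L₁ ∧ residue R (α s) ≠ 0 ∧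
      residue R (α s) * residue R (α s) ≠ 1)
    (ε : ∀ s : ℕ, (ZMod s)ˣ →* Rˣ) (hε : ∀ s u, residue R (ε s u : R) = 1)
    (hlift : HasLifts (gamChar (sigProd L₀ Q ε)))
    (hlift' : HasLifts (gamChar (chiUp (sigProd L₀ Q ε) q)))
    {σ : Type} (pr : σ → ℕ) (hpr : ∀ s, (pr s).Prime) (hprq : ∀ s, pr s ≠ q) (c : σ → Rˣ)
    (hc : ∀ s, residue R (c s : R) = 1) (a : σ → R)
    (hgood : ∀ l : ℕ, l.Prime → l ∉ S → ∃ s, pr s = l ∧ c s = kap Q ε l ∧
      residue R (a s) = (W.apOfModel l : ResidueField R))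
    (hU : ∀ r ∈ Q, ∃ s, pr s = r ∧ residue R (a s) = residue R (α r))
    {V : Type} [AddCommGroup V] [Module R V] [Finite V] (hV : ∀ v : V, p • v = 0)
    {A : Type} [CommRing A] [IsLocalRing A] [IsNoetherianRing A] (ρ : GaloisRepAdic A)
    (hdet : ρ.DetIsCyclotomic p) {Y : Type} [AddCommGroup Y] [Module A Y]
    (Φ : Y →+ tH1 (gamChar (chiUp (sigProd L₀ Q ε) q)) V)
    (hmem : ∀ y, Φ y ∈ eImage
      (localEnd (fun s => ((c s : Rˣ) : R) • natHecke (chiUp (sigProd L₀ Q ε) q) (pr s)) a) V)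
    (k : ℕ) (hker : ∀ b ∈ maximalIdeal A ^ k, ∀ y : Y, Φ (b • y) = 0)
    (hΦ : ∀ s, pr s ∉ S → ∀ P : ValuationSubring (AlgebraicClosure ℚ), P.LiesOverPrime (pr s) →
      ∀ τ : AlgebraicClosure ℚ ≃ₐ[ℚ] AlgebraicClosure ℚ, P.IsFrobeniusAt τ (pr s) → ∀ y,
        ((c s : Rˣ) : R) • (natHecke (chiUp (sigProd L₀ Q ε) q) (pr s)).app V (Φ y) =
          Φ (ρ.trace τ • y))
    {P : ValuationSubring (AlgebraicClosure ℚ)} (hP : P.LiesOverPrime q)
    {F : AlgebraicClosure ℚ ≃ₐ[ℚ] AlgebraicClosure ℚ} (hF : P.IsFrobeniusAt F q) (y : Y) :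
    Φ ((ρ.trace F ^ 2 - 4 * (q : A)) • y) = 0 := by
  classical
  have hpp : p.Prime := Fact.out
  have := group_fg_Gamma0 L₀
  have := group_fg_Gamma0 (L₀ * q)
  have : Finite (Gamma0 L₀ ⧸ (Gamma0 (L₀ * q)).subgroupOf (Gamma0 L₀)) := inferInstance
  have : Module.Finite R V := Module.Finite.of_finite
  generalize hχ₀ : sigProd L₀ Q ε = χ₀ at *
  let T : σ → NatEnd (gamChar (chiUp χ₀ q)) :=
    fun s => ((c s : Rˣ) : R) • natHecke (chiUp χ₀ q) (pr s)
  have hcomm : CommAtRing T := commAtRing_scaled pr hpr c _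
  have h2k : (2 : ResidueField R) ≠ 0 := by
    rw [show (2 : ResidueField R) = ((2 : ℕ) : ResidueField R) by norm_num, Ne,
      CharP.cast_eq_zero_iff (ResidueField R) p, Nat.prime_dvd_prime_iff_eq hpp Nat.prime_two]
    exact hp2
  have hell' : (12 : ResidueField R) ≠ 0 ∨ ∃ t : ℕ, t.Prime ∧ t % 3 = 2 ∧ t ∣ L₁ :=
    hell.imp_left fun h => by
      rwa [show (12 : ResidueField R) = ((12 : ℕ) : ResidueField R) by norm_num, Ne,
        CharP.cast_eq_zero_iff (ResidueField R) p]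
  have hQ₀ : ∀ r ∈ Q, r.Prime ∧ r ∣ L₀ ∧ ¬ r * r ∣ L₀ ∧
      algebraMap R (ResidueField R) (α r) ≠ 0 := fun r hr => by
    refine ⟨(hQ r hr).1, hL ▸ (Finset.dvd_prod_of_mem _ hr).mul_left L₁, fun hd => ?_,
      (hQ r hr).2.2.1⟩
    rw [hL, ← Finset.mul_prod_erase Q _ hr, mul_left_comm] at hd
    have h1 := Nat.dvd_of_mul_dvd_mul_left (hQ r hr).1.pos hd
    rcases (hQ r hr).1.dvd_mul.mp h1 with h2 | h2
    · exact (hQ r hr).2.1 h2
    · obtain ⟨s, hs, hrs⟩ := Prime.exists_mem_finset_dvd (Nat.prime_iff.mp (hQ r hr).1) h2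
      exact Finset.ne_of_mem_erase hs
        ((Nat.prime_dvd_prime_iff_eq (hQ r hr).1 (hQ s (Finset.mem_of_mem_erase hs)).1).mp hrs).symm
  have hχres : ∀ u, residue R (χ₀ u : R) = 1 := fun u => by
    rw [← hχ₀, sigProd_apply, Units.coe_prod, map_prod]
    refine Finset.prod_eq_one fun s _ => ?_
    rw [Units.val_pow_eq_pow_val, map_pow]
    unfold sigChar
    split_ifs
    · rw [MonoidHom.comp_apply, hε, one_pow]
    · simp
  -- multiplications on classes over the residue field only see residues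
  have hres : ∀ {χ : (ZMod (L₀ * q))ˣ →* Rˣ} (u v : R), residue R u = residue R v →
      ∀ x : tH1 (gamChar χ) (ResidueField R), u • x = v • x := fun {χ} u v huv x => by
    obtain ⟨f, rfl⟩ := tClass_surjective (gamChar χ) x
    rw [← map_smul, ← map_smul]
    exact congrArg _ (Subtype.ext (funext fun g => by
      show u • f.1 g = v • f.1 g
      rw [Algebra.smul_def, Algebra.smul_def, ResidueField.algebraMap_eq, huv]))
  obtain ⟨M, hM0, hqM, hM, J, hnat, hHk, htr, hinj⟩ := exists_chain (k := ResidueField R) (q := q)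
    hpp hp2 h2k S (fun l => (W.apOfModel l : R))
    (fun M hM => by
      obtain ⟨l, hl, hlS, hl1, hlne⟩ := hne M hM
      exact ⟨l, hl, hlS, hl1, by rwa [map_intCast]⟩)
    α ε hε Q L₀ hqL hQ₀ χ₀ hχ₀.symm
  have hMS : ∀ l : ℕ, l.Prime → l ∣ M * q → l ∈ S := fun l hl hd => by
    refine hLS l hl ?_
    rw [hM] at hd
    rcases hl.dvd_mul.mp hd with h | h
    · rcases hl.dvd_mul.mp h with h | h
      · exact h.mul_right q
      · obtain ⟨s, hs, hls⟩ := Prime.exists_mem_finset_dvd (Nat.prime_iff.mp hl) h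
        exact ((Nat.prime_dvd_prime_iff_eq hl (hQ s hs).1).mp hls ▸ (hQ₀ s hs).2.1).mul_right q
    · exact h.mul_left L₀
  have hop : ∀ s l, pr s = l → c s = kap Q ε l → ¬ l ∣ L₀ * q → ∀ z,
      J V ((T s).app V z) = heckeHom ℤ (M * q) l (J V z) := fun s l hsl hcl hl z => by
    rw [NatEnd.smul_app, hcl, hsl, hHk V l (hsl ▸ hpr s) hl z, heckeHom_eq_int]
  obtain ⟨j, hj⟩ := exists_pow_smul_eq_bot R V
  refine eq_zero_of_natural hcomm a hlift' (J := J) hnat ?_ j V hj _ (hmem _) ?_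
  · intro x hx hJ
    refine hinj x (fun l hl hlS _ => ?_) (fun r hr => ?_) hJ
    · obtain ⟨s, rfl, -, hs⟩ := hgood l hl hlS
      have h := hx s
      rw [NatEnd.smul_app, hres (c s : R) 1 (by rw [hc, map_one]), one_smul] at h
      rw [h]
      exact hres _ _ (by rw [hs, map_intCast]) x
    · obtain ⟨s, rfl, hs⟩ := hU r hr
      have h := hx s
      rw [NatEnd.smul_app, hres (c s : R) 1 (by rw [hc, map_one]), one_smul] at h
      rw [h]
      exact hres _ _ hs x
  intro g
  let u : Y →+ (Additive (Gamma0 (M * q)) →+ V) :=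
    ((J V).comp ((natEval T g).app V)).toAddMonoidHom.comp Φ
  refine disc_classes_eq_zero hqM hqp hq1 ρ hdet S hpS hMS hV u (fun f z => ?_) k
    (fun b hb z => ?_) (fun l hl hlS P' hP' τ hτ z => ?_) (fun z b γ => ?_) hP hF y
  · -- the values are refined parabolic
    obtain ⟨ℓ, hℓ, hℓS, hℓ1, hℓne⟩ := hne (M * q) (NeZero.ne _)
    obtain ⟨s, hsl, hcl, has⟩ := hgood ℓ hℓ hℓS
    have hunit : IsUnit (a s - ((ℓ : R) + 1)) := by
      rw [← residue_ne_zero_iff_isUnit, map_sub, has, map_add, map_natCast, map_one, sub_ne_zero]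
      exact hℓne
    obtain ⟨w, hw⟩ := exists_sub_apply hcomm a hlift' s hunit
      (natEval_mem_eImage hcomm a hlift' g (hmem z))
    have hℓL : ¬ ℓ ∣ L₀ * q := fun h => hℓS (hLS ℓ hℓ h)
    have := Fact.mk hℓ
    have hpar := isParabolicHom_of_eisenstein (A := ZMod p) (ZMod p) (fun v hv => by
        rw [nsmul_eq_mul] at hv
        refine (mul_eq_zero.mp hv).resolve_left ?_
        rw [CharP.cast_eq_zero_iff (ZMod p) p, Nat.prime_dvd_prime_iff_eq hpp Nat.prime_two]
        exact hp2)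
      (not_dvd_of_natCast_eq_one hℓ hℓ1) hℓ1 (f.comp (J V w))
    rw [heckeHom_eq_int] at hpar
    have heq : f.comp (u z) = heckeHom ℤ (M * q) ℓ (f.comp (J V w)) -
        (ℓ + 1) • f.comp (J V w) := by
      show f.comp (J V ((natEval T g).app V (Φ z))) = _
      rw [hw, map_sub, hop s ℓ hsl hcl hℓL, map_smul, heckeHom_comp]
      refine AddMonoidHom.ext fun x => ?_
      simp only [AddMonoidHom.comp_apply, AddMonoidHom.sub_apply, AddMonoidHom.smul_apply, map_sub]
      rw [show ((ℓ : R) + 1) = ((ℓ + 1 : ℕ) : R) by push_cast; rfl, Nat.cast_smul_eq_nsmul,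
        map_nsmul]
    rw [heq]
    have hell'' : (12 : ZMod p) ≠ 0 ∨ ∃ t : ℕ, t.Prime ∧ t % 3 = 2 ∧ t ∣ M * q :=
      hell.imp (fun h => by
          rwa [show (12 : ZMod p) = ((12 : ℕ) : ZMod p) by norm_num, Ne,
            CharP.cast_eq_zero_iff (ZMod p) p])
        fun ⟨t, ht, ht3, htL⟩ => ⟨t, ht, ht3, by
          rw [hM, hL]; exact ((htL.mul_right _).mul_right _).mul_right _⟩
    refine isParHom0_of_cond (fun h => ?_) hell'' hpar
    rw [show (2 : ZMod p) = ((2 : ℕ) : ZMod p) by norm_num,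
      CharP.cast_eq_zero_iff (ZMod p) p, Nat.prime_dvd_prime_iff_eq hpp Nat.prime_two] at h
    exact hp2 h
  · show J V ((natEval T g).app V (Φ (b • z))) = 0
    rw [hker b hb z, map_zero, map_zero]
  · obtain ⟨s, hsl, hcl, -⟩ := hgood l hl hlS
    show heckeHom ℤ (M * q) l (J V ((natEval T g).app V (Φ z))) =
      J V ((natEval T g).app V (Φ (ρ.trace τ • z)))
    subst hsl
    rw [← hop s _ rfl hcl (fun h => hlS (hLS _ hl h)), ← hΦ s hlS P' hP' τ hτ z]
    refine congrArg (J V) ?_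
    show (T s).app V ((natEval T g).app V (Φ z)) = (natEval T g).app V ((T s).app V (Φ z))
    have hc' := commute_opsAt hcomm hlift' V
    have h : Commute (opsAt T V s) ((natEval T g).app V) := by
      rw [natEval_app]
      induction g using FreeAlgebra.induction with
      | grade0 r => rw [AlgHom.commutes]; exact (Algebra.commutes r _).symm
      | grade1 t => rw [FreeAlgebra.lift_ι_apply]; exact hc' s t
      | mul v w hv hw => rw [map_mul]; exact hv.mul_right hw
      | add v w hv hw => rw [map_add]; exact hv.add_right hw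
    exact LinearMap.congr_fun h.eq (Φ z)
  · have hz := natEval_mem_eImage hcomm a hlift' g (hmem z)
    refine htr V _ (fun b K hLK hqK => trSys_op_eq_zero hqL hLK _ χ₀ _ fun i => ?_) b γ
    refine degDown_eq_zero hqL pr hpr hprq c a h2k S hne hell' hno Q hL α
      (fun s hs => ⟨(hQ s hs).1, (hQ s hs).2.1,
        hLS s (hQ s hs).1 ((hQ₀ s hs).2.1.mul_right q), (hQ s hs).2.2.2⟩)
      hχres hc (fun l hl hlS _ => ?_) hU hlift hlift' V hz i
    obtain ⟨s, h1, -, h3⟩ := hgood l hl hlS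
    exact ⟨s, h1, h3⟩

end FLTA.RT.Disc

end
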