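import Fermat.Agent.RT.DiscTrans
import Fermat.Agent.Kummer.Pushforward

/-!
# Torsion classes with vanishing traces along both sides are killed by both pushforwards

For a prime `q ∤ M` and `M ∣ K`: the Kummer character of a torsion point of `J₀(M q)` whose traces
along both sides vanish belongs to a point killed by `pushAlpha` and `pushBeta`.
-/

set_option autoImplicit false
set_option linter.style.haveILetI false

noncomputable section

open CongruenceSubgroup ModularCurve AlgebraicCurve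
open scoped MatrixGroups OnePoint
open FLTA.Bridge FLTA.Kummer
open FLTA.Periods (gamma0GL)

namespace FLTA.RT.Disc

local notation "Qb" => AlgebraicClosure ℚ
local notation "ιbar" => AlgHom.toRingHom complexEmbedding

section Transversal

variable (q K : ℕ)

open Classical in
/-- An integer `x` with `q ∣ 1 + K ^ 2 x`, if there is one. -/
def cornerInt : ℤ :=
  if h : ∃ x : ℤ, (q : ℤ) ∣ 1 + (K : ℤ) ^ 2 * x then h.choose else 0

theorem cornerInt_spec (hqK : Nat.Coprime q K) : (q : ℤ) ∣ 1 + (K : ℤ) ^ 2 * cornerInt q K := by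
  have h : ∃ x : ℤ, (q : ℤ) ∣ 1 + (K : ℤ) ^ 2 * x := by
    obtain ⟨u, v, huv⟩ := Nat.isCoprime_iff_coprime.mpr hqK
    exact ⟨-(v * v), u * (1 + v * K), by linear_combination (-(1 + v * (K : ℤ))) * huv⟩
  rw [cornerInt, dif_pos h]
  exact h.choose_spec

/-- Representatives of the cosets of a side group congruent to `1` modulo `K`. -/
def sideTrans : Bool → Option (ZMod q) → SL(2, ℤ)
  | false, some j => ⟨!![1, 0; (K : ℤ) * j.val, 1], by simp [Matrix.det_fin_two_of]⟩
  | false, none => ⟨!![1, (K : ℤ) * cornerInt q K; (K : ℤ), 1 + (K : ℤ) ^ 2 * cornerInt q K],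
      by rw [Matrix.det_fin_two_of]; ring⟩
  | true, some j => ⟨!![1, (K : ℤ) * j.val; 0, 1], by simp [Matrix.det_fin_two_of]⟩
  | true, none => ⟨!![1 + (K : ℤ) ^ 2 * cornerInt q K, (K : ℤ); (K : ℤ) * cornerInt q K, 1],
      by rw [Matrix.det_fin_two_of]; ring⟩

variable {q K}

/-- The side entry of a quotient of two matrices. -/
theorem sideEntry_mul_inv (b : Bool) (g h : SL(2, ℤ)) : sideEntry b (g * h⁻¹) =
    if b then g 0 1 * h 0 0 - g 0 0 * h 0 1 else g 1 0 * h 1 1 - g 1 1 * h 1 0 := by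
  cases b <;>
    simp [sideEntry, Matrix.SpecialLinearGroup.coe_mul, Matrix.SpecialLinearGroup.coe_inv,
      Matrix.mul_apply, Fin.sum_univ_two, Matrix.adjugate_fin_two] <;> ring

/-- The representatives form a transversal. -/
theorem isTrans_sideTrans [hq : Fact q.Prime] (hqK : Nat.Coprime q K) (b : Bool) :
    IsTrans q b K (sideTrans q K b) := by
  have hK : ¬ (q : ℤ) ∣ (K : ℤ) := fun h =>
    hq.out.one_lt.ne' (Nat.eq_one_of_dvd_coprimes hqK dvd_rfl (Int.natCast_dvd_natCast.mp h))
  have hqp : Prime (q : ℤ) := Nat.prime_iff_prime_int.mp hq.out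
  have hc := cornerInt_spec q K hqK
  refine ⟨fun i => ?_, fun i j h => ?_, fun g => ?_⟩
  · rcases i with _ | j <;> cases b <;>
      exact Gamma_mem.mpr ⟨by simp [sideTrans], by simp [sideTrans], by simp [sideTrans],
        by simp [sideTrans]⟩
  · have hcorner : ∀ x : ℤ, ¬ (q : ℤ) ∣ (K : ℤ) + (1 + (K : ℤ) ^ 2 * cornerInt q K) * x :=
      fun x hx => hK ((dvd_add_left (hc.mul_right _)).mp hx)
    rcases i with _ | i <;> rcases j with _ | j
    · rfl
    all_goals rw [mem_sideGroup, sideEntry_mul_inv] at h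
    all_goals cases b <;>
      simp [sideTrans, -ZMod.natCast_val] at h
    · exact absurd (by convert h using 1; ring) (hcorner (-((K : ℤ) * j.val)))
    · exact absurd (by convert h using 1; ring) (hcorner (-((K : ℤ) * j.val)))
    · exact absurd ((dvd_sub_right (hc.mul_left _)).mp h) hK
    · exact absurd ((dvd_sub_right (hc.mul_left _)).mp h) hK
    · exact congrArg some (zmod_val_inj ((hqp.dvd_or_dvd
        (show (q : ℤ) ∣ (K : ℤ) * ((i.val : ℤ) - j.val) by convert h using 1; ring)).resolve_left hK))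
    · exact congrArg some (zmod_val_inj ((hqp.dvd_or_dvd
        (show (q : ℤ) ∣ (K : ℤ) * ((i.val : ℤ) - j.val) by convert h using 1; ring)).resolve_left hK))
  · have hKz : ((K : ℤ) : ZMod q) ≠ 0 := fun h0 =>
      hK ((ZMod.intCast_zmod_eq_zero_iff_dvd _ _).mp h0)
    have hlin : ∀ c d : ℤ, ∃ i : Option (ZMod q),
        Option.elim i ((q : ℤ) ∣ c * (1 + (K : ℤ) ^ 2 * cornerInt q K) - d * K)
          fun j => (q : ℤ) ∣ c - d * ((K : ℤ) * j.val) := fun c d => by
      by_cases hd : (q : ℤ) ∣ d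
      · exact ⟨none, dvd_sub (hc.mul_left _) (hd.mul_right _)⟩
      · have hdz : ((d : ℤ) : ZMod q) ≠ 0 := fun h0 =>
          hd ((ZMod.intCast_zmod_eq_zero_iff_dvd _ _).mp h0)
        refine ⟨some ((c : ZMod q) / ((d : ZMod q) * ((K : ℤ) : ZMod q))), ?_⟩
        show (q : ℤ) ∣ _
        rw [← ZMod.intCast_zmod_eq_zero_iff_dvd]
        push_cast
        rw [ZMod.natCast_zmod_val]
        push_cast at hKz
        field_simp
        ring
    cases b
    · obtain ⟨i, hi⟩ := hlin (g 1 0) (g 1 1)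
      refine ⟨i, ?_⟩
      rw [mem_sideGroup, sideEntry_mul_inv]
      rcases i with _ | j <;> simpa [sideTrans, mul_assoc, -ZMod.natCast_val] using hi
    · obtain ⟨i, hi⟩ := hlin (g 0 1) (g 0 0)
      refine ⟨i, ?_⟩
      rw [mem_sideGroup, sideEntry_mul_inv]
      rcases i with _ | j <;> simpa [sideTrans, mul_assoc, -ZMod.natCast_val] using hi

end Transversal

variable {q M K n : ℕ} [hq : Fact q.Prime] [NeZero q] [NeZero M] [NeZero n]

omit hq [NeZero q] [NeZero n] in
theorem stepElt_frickeConj (hKM : M ∣ K) {b : Bool} {ι : Type} {t : ι → SL(2, ℤ)}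
    (ht : IsTrans q b K t) (γ : Gamma0 M) (i j : ι) :
    let u : ι → Gamma0 M := fun i =>
      frickeConj M ⟨t i, gamma_mem_Gamma0 (gamma_le hKM (ht.mem i))⟩
    u i * γ = frickeConj M (stepElt hKM ht (frickeConj M γ) i j) * u j := by
  intro u
  show _ = frickeConj M (⟨t i, _⟩ * frickeConj M γ * (⟨t j, _⟩ : Gamma0 M)⁻¹) * _
  rw [map_mul, map_mul, frickeConj_frickeConj, map_inv]
  exact (inv_mul_cancel_right _ _).symm

omit hq [NeZero n] in
/-- The Fricke conjugates of the two sides of `D g = h D`. -/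
theorem frickeConj_down_true (g : Gamma0 M) (h : Gamma0 (M * q))
    (h1 : sideMat q true * gamma0GL M g = gamma0GL (M * q) h * sideMat q true)
    (h2 : (h : SL(2, ℤ)) 0 0 = (g : SL(2, ℤ)) 0 0) :
    ((frickeConj M g : Gamma0 M) : SL(2, ℤ)) = (frickeConj (M * q) h : Gamma0 (M * q)) := by
  have e := congrArg Units.val h1
  rw [Units.val_mul, Units.val_mul, val_gamma0GL', val_gamma0GL'] at e
  have e01 := congrFun (congrFun e 0) 1
  have e10 := congrFun (congrFun e 1) 0
  have e11 := congrFun (congrFun e 1) 1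
  simp [sideMat, Matrix.mul_apply, Fin.sum_univ_two,
    ModularForm.val_heckeMatrix (NeZero.ne q)] at e01 e10 e11
  have hqR : (q : ℝ) ≠ 0 := Nat.cast_ne_zero.mpr (NeZero.ne q)
  have a01 : (g : SL(2, ℤ)) 0 1 = (h : SL(2, ℤ)) 0 1 * q := by exact_mod_cast e01
  have a10 : (q : ℤ) * (g : SL(2, ℤ)) 1 0 = (h : SL(2, ℤ)) 1 0 := by exact_mod_cast e10
  have a11 : (g : SL(2, ℤ)) 1 1 = (h : SL(2, ℤ)) 1 1 := by
    have e11' : (((g : SL(2, ℤ)) 1 1 : ℤ) : ℝ) * q = ((h : SL(2, ℤ)) 1 1 : ℤ) * q := by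
      linarith
    exact_mod_cast mul_right_cancel₀ hqR e11'
  obtain ⟨c, hc⟩ := dvd_lowerLeft M g
  have hqM0 : ((M : ℤ) * q) ≠ 0 :=
    mul_ne_zero (natCast_ne_zero' M) (Int.natCast_ne_zero.mpr (NeZero.ne q))
  refine Subtype.ext ?_
  rw [frickeConj_coe, frickeConj_coe, frickeMat, frickeMat, a11, h2, a01, ← a10, hc,
    Int.mul_ediv_cancel_left _ (natCast_ne_zero' M), Nat.cast_mul,
    show (q : ℤ) * ((M : ℤ) * c) = (M : ℤ) * q * c by ring, Int.mul_ediv_cancel_left _ hqM0,
    show (M : ℤ) * ((h : SL(2, ℤ)) 0 1 * q) = (M : ℤ) * q * (h : SL(2, ℤ)) 0 1 by ring]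

omit hq [NeZero n] in
/-- The Fricke conjugates at the two levels differ by `diag(q, 1)`. -/
theorem frickeConj_down_false (g : Gamma0 M) (h : Gamma0 (M * q))
    (h1 : gamma0GL M g = gamma0GL (M * q) h) :
    gamma0GL M (frickeConj M g) * ModularForm.heckeDiagMatrix q =
      ModularForm.heckeDiagMatrix q * gamma0GL (M * q) (frickeConj (M * q) h) := by
  have e : (h : SL(2, ℤ)) = (g : SL(2, ℤ)) :=
    Matrix.SpecialLinearGroup.mapGL_injective (R := ℤ) (S := ℝ) h1.symm
  obtain ⟨c, hc⟩ := dvd_lowerLeft (M * q) h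
  rw [e] at hc
  push_cast at hc
  have hM0 : ((M : ℤ) * q) ≠ 0 :=
    mul_ne_zero (natCast_ne_zero' M) (Int.natCast_ne_zero.mpr (NeZero.ne q))
  have e1 : (g : SL(2, ℤ)) 1 0 / (M : ℤ) = (q : ℤ) * c := by
    rw [hc, mul_assoc, Int.mul_ediv_cancel_left _ (natCast_ne_zero' M)]
  have e2 : (g : SL(2, ℤ)) 1 0 / ((M : ℤ) * q) = c := by
    rw [hc, Int.mul_ediv_cancel_left _ hM0]
  refine Units.ext ?_
  rw [Units.val_mul, Units.val_mul, val_gamma0GL', val_gamma0GL']
  simp only [frickeConj_coe, frickeMat, e, Nat.cast_mul]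
  rw [e1, e2, ModularForm.val_heckeDiagMatrix (NeZero.ne q)]
  ext r s
  fin_cases r <;> fin_cases s <;> simp [Matrix.mul_apply, Fin.sum_univ_two] <;> ring

omit hq [NeZero q] [NeZero n] [NeZero M] in
theorem swap_conj_entry (g : SL(2, ℤ)) :
    let W : SL(2, ℤ) := ⟨!![0, -1; 1, 0], by simp [Matrix.det_fin_two_of]⟩
    ((W * g * W⁻¹ : SL(2, ℤ)) 1 0 : ℤ) = -(g 0 1) := by
  intro W
  rw [Matrix.SpecialLinearGroup.coe_mul, Matrix.SpecialLinearGroup.coe_mul,
    Matrix.SpecialLinearGroup.coe_inv,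
    show (W : Matrix (Fin 2) (Fin 2) ℤ) = !![0, -1; 1, 0] from rfl]
  simp [Matrix.mul_apply, Matrix.vecMul, dotProduct, Fin.sum_univ_two,
    Matrix.adjugate_fin_two_of]

/-- Both pushforwards kill a point with vanishing traces along both sides. -/
theorem push_eq_zero_of_traces (hqM : Nat.Coprime q M) (hKM : M ∣ K) (hqK : Nat.Coprime q K)
    (x : Pic0.torsion Qb (modularFunctionFieldBar (M * q)) n)
    (hu : ∀ (b : Bool) (γ : Gamma0 M), ∑ i, (kummerTorsionEquiv (M * q) n x).1 (Additive.ofMul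
      (transCocyc hqM hKM (isTrans_sideTrans hqK b) γ i)) = 0) :
    Carayol.pushAlpha M q x = 0 ∧ Carayol.pushBeta M q x = 0 := by
  have hqM' : ¬ q ∣ M := hq.out.coprime_iff_not_dvd.mp hqM
  let u : Bool → Option (ZMod q) → Gamma0 M := fun b i => frickeConj M
    ⟨sideTrans q K b i, gamma_mem_Gamma0 (gamma_le hKM ((isTrans_sideTrans hqK b).mem i))⟩
  have hcard : Fintype.card (Option (ZMod q)) = finrankAlong Qb (heckeAlphaBar Qb M q) := by
    rw [finrankAlong_heckeAlphaBar ιbar (normRepsT (N := M) hqM')]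
    exact Fintype.card_congr (Equiv.refl _)
  -- distinct cosets
  have hside : ∀ (b : Bool) (i j : Option (ZMod q)) (k : ℤ),
      (q : ℤ) ∣ (if b then (M : ℤ) * k else k) →
      k = sideEntry b (sideTrans q K b i * (sideTrans q K b j)⁻¹) → i = j := by
    intro b i j k hk hkk
    refine (isTrans_sideTrans hqK b).inj i j ?_
    rw [mem_sideGroup, ← hkk]
    cases b
    · simpa using hk
    · simp only [if_true] at hk
      exact (Int.isCoprime_iff_nat_coprime.mpr (by simpa using hqM)).dvd_of_dvd_mul_left hk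
  have hentry : ∀ (b : Bool) (i j : Option (ZMod q)),
      (((u b i * (u b j)⁻¹ : Gamma0 M) : SL(2, ℤ)) 1 0 : ℤ) =
        -((M : ℤ) * (sideTrans q K b i * (sideTrans q K b j)⁻¹) 0 1) ∧
      (((u b i * (u b j)⁻¹ : Gamma0 M) : SL(2, ℤ)) 0 1 : ℤ) =
        -(((sideTrans q K b i * (sideTrans q K b j)⁻¹) 1 0) / (M : ℤ)) := by
    intro b i j
    rw [show u b i * (u b j)⁻¹ = frickeConj M
      (⟨sideTrans q K b i, gamma_mem_Gamma0 (gamma_le hKM ((isTrans_sideTrans hqK b).mem i))⟩ *
        (⟨sideTrans q K b j, gamma_mem_Gamma0 (gamma_le hKM ((isTrans_sideTrans hqK b).mem j))⟩ :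
          Gamma0 M)⁻¹) by rw [map_mul, map_inv]]
    simp only [frickeConj_coe]
    exact ⟨rfl, rfl⟩
  constructor
  · refine @pushPic_eq_zero_of_transfer M q _ _ n _ (Option (ZMod q)) _ _ (heckeAlphaBar Qb M q)
      (fun i => slPosHom (u true i : SL(2, ℤ))) (fun i y => ?_) ?_ hcard x (fun γ => ?_)
    · exact (congrArg (meroSmul _) (evMero_heckeAlphaBar ιbar y)).trans
        (meroSmul_evMero M ιbar (u true i).2 y)
    · intro i j hij
      have h := RingHom.congr_fun hij (jElt (M * q) Qb (dvd_refl (M * q)))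
      have h' : meroSmul (slPosHom (u true i : SL(2, ℤ)))
          (evMero (M * q) ιbar (jElt (M * q) Qb (dvd_refl (M * q)))) =
          meroSmul (slPosHom (u true j : SL(2, ℤ)))
            (evMero (M * q) ιbar (jElt (M * q) Qb (dvd_refl (M * q)))) := h
      rw [evMero_jElt, meroSmul_algebraMap, meroSmul_algebraMap] at h'
      have hmem := eq_of_jInv_scaleTau_smul_eq (M * q) fun τ =>
        congrArg (fun F : Hol => (F : UpperHalfPlane → ℂ) τ) (IsFractionRing.injective Hol Mero h')
      have hd : (q : ℤ) ∣ ((u true i * (u true j)⁻¹ : Gamma0 M) : SL(2, ℤ)) 1 0 :=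
        FLTA.LevelRaising.dvd_lowerLeft_right hmem
      rw [(hentry true i j).1, dvd_neg] at hd
      exact hside true i j _ hd rfl
    · set ht := isTrans_sideTrans (q := q) hqK true
      refine ⟨(⟨transPerm ht (frickeConj M γ : SL(2, ℤ)), transPerm ht (frickeConj M γ : SL(2, ℤ))⁻¹,
        fun i => by rw [← transPerm_mul, mul_inv_cancel, transPerm_one],
        fun i => by rw [← transPerm_mul, inv_mul_cancel, transPerm_one]⟩ : _ ≃ _),
        fun i => frickeConj (M * q) (transCocyc hqM hKM ht (frickeConj M γ) i), fun i => ?_, ?_⟩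
      · show slPosHom (u true i : SL(2, ℤ)) * slPosHom (γ : SL(2, ℤ)) = slPosHom _ *
          slPosHom (u true (transPerm ht (frickeConj M γ : SL(2, ℤ)) i) : SL(2, ℤ))
        rw [← map_mul, ← map_mul]
        refine congrArg slPosHom (Eq.trans (congrArg Subtype.val (stepElt_frickeConj hKM ht γ i
          (transPerm ht (frickeConj M γ : SL(2, ℤ)) i))) ?_)
        refine congrArg (fun z : SL(2, ℤ) => z * _) ?_
        obtain ⟨h1, h2⟩ := transCocyc_spec hqM hKM ht (frickeConj M γ) i
        exact frickeConj_down_true _ _ h1 h2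
      · rw [← hu true (frickeConj M γ)]
        exact Finset.sum_congr rfl fun i _ => by rw [frickeConj_frickeConj]
  · refine @pushPic_eq_zero_of_transfer M q _ _ n _ (Option (ZMod q)) _ _ (heckeBetaBar Qb M q)
      (fun i => (diagPos q)⁻¹ * slPosHom (u false i : SL(2, ℤ))) (fun i y => ?_) ?_
      (hcard.trans (finrankAlong_heckeBetaBar_eq M q).symm) x (fun γ => ?_)
    · rw [evMero_heckeBetaBar, ← meroSmul_mul, mul_inv_cancel_left]
      exact meroSmul_evMero M ιbar (u false i).2 y
    · intro i j hij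
      have h := RingHom.congr_fun hij (jElt (M * q) Qb (one_dvd (M * q)))
      have h' : meroSmul ((diagPos q)⁻¹ * slPosHom (u false i : SL(2, ℤ)))
          (evMero (M * q) ιbar (jElt (M * q) Qb (one_dvd (M * q)))) =
          meroSmul ((diagPos q)⁻¹ * slPosHom (u false j : SL(2, ℤ)))
            (evMero (M * q) ιbar (jElt (M * q) Qb (one_dvd (M * q)))) := h
      rw [evMero_jElt, meroSmul_algebraMap, meroSmul_algebraMap] at h'
      have h'' := IsFractionRing.injective Hol Mero h'
      let W : SL(2, ℤ) := ⟨!![0, -1; 1, 0], by simp [Matrix.det_fin_two_of]⟩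
      have key : ∀ (k : Option (ZMod q)) (τ : UpperHalfPlane),
          jInv (scaleTau 1 ((((diagPos q)⁻¹ * slPosHom (u false k : SL(2, ℤ)) : GL(2, ℝ)⁺) :
            GL (Fin 2) ℝ) • τ)) = jInv (scaleTau q ((W * (u false k : SL(2, ℤ))) • τ)) := by
        intro k τ
        set z := (u false k : SL(2, ℤ)) • τ
        set w := ((diagPos q)⁻¹ : GL(2, ℝ)⁺) • z with hw
        have hw' : (((diagPos q)⁻¹ * slPosHom (u false k : SL(2, ℤ)) : GL(2, ℝ)⁺) :
            GL (Fin 2) ℝ) • τ = w := by
          rw [hw, Subgroup.coe_mul, mul_smul]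
          rfl
        have hz : scaleTau q w = z := by
          rw [← coe_diagPos_smul, hw]
          show ((diagPos q : GL(2, ℝ)⁺) : GL (Fin 2) ℝ) •
            (((diagPos q)⁻¹ : GL(2, ℝ)⁺) : GL (Fin 2) ℝ) • z = z
          rw [Subgroup.coe_inv, smul_inv_smul]
        have h1 : scaleTau 1 w = w := UpperHalfPlane.ext (by simp [coe_scaleTau])
        have h2 : W • w = scaleTau q (W • z) := by
          refine UpperHalfPlane.ext ?_
          have hzC : (z : ℂ) = q * (w : ℂ) := by rw [← hz, coe_scaleTau]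
          have hp0 : (q : ℂ) ≠ 0 := Nat.cast_ne_zero.mpr (NeZero.ne q)
          have hw0 : (w : ℂ) ≠ 0 := UpperHalfPlane.ne_zero w
          rw [coe_scaleTau, UpperHalfPlane.coe_specialLinearGroup_apply,
            UpperHalfPlane.coe_specialLinearGroup_apply, hzC]
          simp [W]
          field_simp
        rw [hw', h1, mul_smul, ← h2, jInv_smul]
      have hmem := eq_of_jInv_scaleTau_smul_eq q (g := W * (u false i : SL(2, ℤ)))
        (g' := W * (u false j : SL(2, ℤ))) fun τ => by
          rw [← key, ← key]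
          exact congrArg (fun F : Hol => (F : UpperHalfPlane → ℂ) τ) h''
      have hd := FLTA.Periods.dvd_of_mem_Gamma0 hmem
      have e : ((W * (u false i : SL(2, ℤ)) * (W * (u false j : SL(2, ℤ)))⁻¹ : SL(2, ℤ)) 1 0 : ℤ) =
          -(((u false i * (u false j)⁻¹ : Gamma0 M) : SL(2, ℤ)) 0 1) := by
        rw [mul_inv_rev, show W * (u false i : SL(2, ℤ)) * ((u false j : SL(2, ℤ))⁻¹ * W⁻¹) =
          W * ((u false i * (u false j)⁻¹ : Gamma0 M) : SL(2, ℤ)) * W⁻¹ by
            rw [Subgroup.coe_mul, Subgroup.coe_inv]; group]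
        exact swap_conj_entry _
      rw [e, (hentry false i j).2, neg_neg] at hd
      obtain ⟨c, hc⟩ : (M : ℤ) ∣ (sideTrans q K false i * (sideTrans q K false j)⁻¹) 1 0 :=
        FLTA.Periods.dvd_of_mem_Gamma0 ((Gamma0 M).mul_mem
          (gamma_mem_Gamma0 (gamma_le hKM ((isTrans_sideTrans hqK false).mem i)))
          ((Gamma0 M).inv_mem
            (gamma_mem_Gamma0 (gamma_le hKM ((isTrans_sideTrans hqK false).mem j)))))
      rw [hc, Int.mul_ediv_cancel_left _ (natCast_ne_zero' M)] at hd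
      exact hside false i j ((M : ℤ) * c) (by simpa using hd.mul_left (M : ℤ)) hc.symm
    · set ht := isTrans_sideTrans (q := q) hqK false
      refine ⟨(⟨transPerm ht (frickeConj M γ : SL(2, ℤ)), transPerm ht (frickeConj M γ : SL(2, ℤ))⁻¹,
        fun i => by rw [← transPerm_mul, mul_inv_cancel, transPerm_one],
        fun i => by rw [← transPerm_mul, inv_mul_cancel, transPerm_one]⟩ : _ ≃ _),
        fun i => frickeConj (M * q) (transCocyc hqM hKM ht (frickeConj M γ) i), fun i => ?_, ?_⟩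
      · show (diagPos q)⁻¹ * slPosHom (u false i : SL(2, ℤ)) * slPosHom (γ : SL(2, ℤ)) =
          slPosHom _ * ((diagPos q)⁻¹ *
            slPosHom (u false (transPerm ht (frickeConj M γ : SL(2, ℤ)) i) : SL(2, ℤ)))
        rw [mul_assoc, ← map_mul, show (u false i : SL(2, ℤ)) * (γ : SL(2, ℤ)) = _ from
          congrArg Subtype.val (stepElt_frickeConj hKM ht γ i
            (transPerm ht (frickeConj M γ : SL(2, ℤ)) i)), Subgroup.coe_mul, map_mul,
          ← mul_assoc, ← mul_assoc]
        refine congrArg (fun z => z * _) ?_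
        rw [inv_mul_eq_iff_eq_mul, ← mul_assoc, eq_mul_inv_iff_mul_eq]
        obtain ⟨h1, -⟩ := transCocyc_spec hqM hKM ht (frickeConj M γ) i
        simp only [sideMat, Bool.false_eq_true, if_false, one_mul, mul_one] at h1
        exact Subtype.ext (frickeConj_down_false _ _ h1)
      · rw [← hu false (frickeConj M γ)]
        exact Finset.sum_congr rfl fun i _ => by rw [frickeConj_frickeConj]

end FLTA.RT.Disc

end
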