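import Fermat.Agent.RT.OldNewAlgebra
import Fermat.Agent.Kummer.Pushforward
import Fermat.Agent.Carayol.Kernel
import Fermat.Agent.GaloisReps.TateConstruct
import Fermat.Agent.GaloisReps.Plane
import Fermat.Agent.BadRed.Endgame.Degeneracy
import Fermat.Agent.Galois.Places
import Fermat.Prelude.Def_GaloisRep_LocalConditions

/-!
# An eigen class killed by both pushforwards at `q² ∥ N` is not unipotent on inertia at `q`

`u` is a parabolic homomorphism of `Γ₀(M q²)` with values in a finite extension `R` of `ℤ_p`, an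
eigen class of the good Hecke operators whose two traces to `Γ₀(M q)` vanish. A representation with
the Frobenius polynomials of `u` is then not unipotent on inertia at `q`.
-/

set_option autoImplicit false

noncomputable section

open CongruenceSubgroup ModularCurve AlgebraicCurve Polynomial IsLocalRing
open scoped Matrix MatrixGroups
open FLTA.GaloisReps FLTA.Kummer
open FLTA.Gamma0 (homRank homPar0 homPar0Equiv parBasis)
open FLTA.Periods (gamma0GL heckeHom)

namespace FLTA.RT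

variable {p q M : ℕ} [Fact p.Prime] [Fact q.Prime] [NeZero M] [NeZero q]

local instance instNeZeroPrimePower (k : ℕ) : NeZero (p ^ k) :=
  ⟨pow_ne_zero _ (Fact.out (p := p.Prime)).ne_zero⟩

/-- The point of `J₀(N)[p^k]` with coordinates the reductions of `c`. -/
def torsPoint (N : ℕ) [NeZero N] (k : ℕ) (c : Fin (homRank N) → ℤ_[p]) : JTors N (p ^ k) :=
  (torsCoord N (p ^ k)).symm fun i => PadicInt.toZModPow k (c i)

theorem torsCoord_torsPoint (N : ℕ) [NeZero N] (k : ℕ) (c : Fin (homRank N) → ℤ_[p]) :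
    torsCoord N (p ^ k) (torsPoint N k c) = fun i => PadicInt.toZModPow k (c i) :=
  LinearEquiv.apply_symm_apply _ _

/-- The Tate module vectors killed by both pushforwards to level `M q`. -/
def pushKer (p q M : ℕ) [Fact p.Prime] [NeZero q] [NeZero M] :
    Submodule ℤ_[p] (Fin (homRank (M * q * q)) → ℤ_[p]) where
  carrier := {c | ∀ k, BadRed.onTors (M * q) (Carayol.pushAlpha (M * q) q) (p ^ k)
      (torsPoint (M * q * q) k c) = 0 ∧
    BadRed.onTors (M * q) (Carayol.pushBeta (M * q) q) (p ^ k) (torsPoint (M * q * q) k c) = 0}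
  zero_mem' k := by
    have h : torsPoint (M * q * q) k (0 : Fin _ → ℤ_[p]) = 0 := by
      rw [torsPoint, ← map_zero (torsCoord (M * q * q) (p ^ k)).symm]
      exact congrArg _ (_root_.funext fun i => map_zero _)
    simp [h]
  add_mem' {c d} hc hd k := by
    have h : torsPoint (M * q * q) k (c + d) =
        torsPoint (M * q * q) k c + torsPoint (M * q * q) k d := by
      rw [torsPoint, torsPoint, torsPoint, ← map_add]
      exact congrArg _ (_root_.funext fun i => map_add _ _ _)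
    simp [h, (hc k).1, (hc k).2, (hd k).1, (hd k).2]
  smul_mem' a c hc k := by
    have h : torsPoint (M * q * q) k (a • c) =
        PadicInt.toZModPow k a • torsPoint (M * q * q) k c := by
      rw [torsPoint, torsPoint, ← map_smul]
      exact congrArg _ (_root_.funext fun i => map_mul _ _ _)
    rw [h]
    exact ⟨((AddMonoidHom.toZModLinearMap (p ^ k)
        (BadRed.onTors (M * q) (Carayol.pushAlpha (M * q) q) (p ^ k))).map_smul _ _).trans
        (by rw [AddMonoidHom.coe_toZModLinearMap, (hc k).1, smul_zero]),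
      ((AddMonoidHom.toZModLinearMap (p ^ k)
        (BadRed.onTors (M * q) (Carayol.pushBeta (M * q) q) (p ^ k))).map_smul _ _).trans
        (by rw [AddMonoidHom.coe_toZModLinearMap, (hc k).2, smul_zero])⟩

omit [Fact q.Prime] in
theorem coe_torsPoint_mulVec (σ : GalQ) (k : ℕ) (c : Fin (homRank (M * q * q)) → ℤ_[p]) :
    ((torsPoint (M * q * q) k (tateRho (M * q * q) p σ *ᵥ c) : JTors (M * q * q) (p ^ k)) :
        JZero (M * q * q)) = σ • (torsPoint (M * q * q) k c : JZero (M * q * q)) := by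
  have h : torsCoord (M * q * q) (p ^ k) (torsPoint (M * q * q) k (tateRho (M * q * q) p σ *ᵥ c)) =
      torsCoord (M * q * q) (p ^ k)
        (JZero.torsionGaloisRep (M * q * q) (p ^ k) σ (torsPoint (M * q * q) k c)) := by
    rw [← galMat_mulVec, torsCoord_torsPoint, torsCoord_torsPoint]
    funext i
    rw [RingHom.map_mulVec, map_tateRho]
    rfl
  rw [(torsCoord (M * q * q) (p ^ k)).injective h]
  rfl

omit [Fact q.Prime] in
theorem mulVec_mem_pushKer (σ : GalQ) {c : Fin (homRank (M * q * q)) → ℤ_[p]}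
    (hc : c ∈ pushKer p q M) : tateRho (M * q * q) p σ *ᵥ c ∈ pushKer p q M := fun k => by
  refine ⟨Subtype.ext ?_, Subtype.ext ?_⟩
  · show Carayol.pushAlpha (M * q) q _ = 0
    rw [coe_torsPoint_mulVec, Carayol.pushAlpha_galois,
      show Carayol.pushAlpha (M * q) q (torsPoint (M * q * q) k c : JZero (M * q * q)) = 0 from
        congrArg Subtype.val (hc k).1]
    exact smul_zero (A := JZero (M * q)) σ
  · show Carayol.pushBeta (M * q) q _ = 0
    rw [coe_torsPoint_mulVec, Carayol.pushBeta_galois,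
      show Carayol.pushBeta (M * q) q (torsPoint (M * q * q) k c : JZero (M * q * q)) = 0 from
        congrArg Subtype.val (hc k).2]
    exact smul_zero (A := JZero (M * q)) σ

/-- A fixed Tate vector killed by both pushforwards vanishes. -/
theorem eq_zero_of_mem_pushKer_of_fixed (hqp : q ≠ p) (hqM : ¬ q ∣ M)
    {A : ValuationSubring (AlgebraicClosure ℚ)} (hA : A.LiesOverPrime q)
    {c : Fin (homRank (M * q * q)) → ℤ_[p]} (hc : c ∈ pushKer p q M)
    (hfix : ∀ σ ∈ A.inertiaSubgroupIn ℚ, tateRho (M * q * q) p σ *ᵥ c = c) : c = 0 := by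
  obtain ⟨C, hC, hcore⟩ := Carayol.exists_smul_eq_zero_of_inertia_fixed_of_push q M hqM
  have hk : ∀ (k : ℕ) (i : Fin (homRank (M * q * q))),
      PadicInt.toZModPow k ((C : ℤ_[p]) * c i) = 0 := by
    intro k i
    have hcop : (p ^ k).Coprime q :=
      Nat.Coprime.pow_left k ((Nat.coprime_primes Fact.out Fact.out).mpr hqp.symm)
    have h := hcore (p ^ k) hcop A hA (torsPoint (M * q * q) k c)
      (by
        rw [← natCast_zsmul]
        exact Pic0.mem_torsion.mp (torsPoint (M * q * q) k c).2)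
      (fun σ hσ => by rw [← coe_torsPoint_mulVec, hfix σ hσ])
      (congrArg Subtype.val (hc k).1) (congrArg Subtype.val (hc k).2)
    have h' : C • torsPoint (M * q * q) k c = 0 := Subtype.ext h
    have h'' := congrFun (congrArg (torsCoord (M * q * q) (p ^ k)) h') i
    rw [map_nsmul, map_zero, torsCoord_torsPoint] at h''
    simpa [map_mul] using h''
  funext i
  have h0 : (C : ℤ_[p]) * c i = 0 :=
    PadicInt.ext_of_toZModPow.mp fun k => (hk k i).trans (map_zero _).symm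
  exact (mul_eq_zero.mp h0).resolve_left (Nat.cast_ne_zero.mpr hC)

variable {R : Type} [CommRing R] [Algebra ℤ_[p] R]

/-- The Galois action on the Tate module with coefficients in `R`. -/
def tateRhoR (p : ℕ) [Fact p.Prime] (R : Type) [CommRing R] [Algebra ℤ_[p] R] (N : ℕ)
    [NeZero N] : GalQ →* Matrix (Fin (homRank N)) (Fin (homRank N)) R :=
  (algebraMap ℤ_[p] R).mapMatrix.toMonoidHom.comp (tateRho N p)

theorem tateRhoR_apply (N : ℕ) [NeZero N] (σ : GalQ) :
    tateRhoR p R N σ = (tateRho N p σ).map (algebraMap ℤ_[p] R) := rfl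

theorem comp_tateRhoR_mulVec (f : R →ₗ[ℤ_[p]] ℤ_[p]) (N : ℕ) [NeZero N] (σ : GalQ)
    (w : Fin (homRank N) → R) :
    (fun i => f ((tateRhoR p R N σ *ᵥ w) i)) = tateRho N p σ *ᵥ fun i => f (w i) := by
  funext i
  simp only [Matrix.mulVec, dotProduct, tateRhoR_apply, Matrix.map_apply, map_sum]
  refine Finset.sum_congr rfl fun j _ => ?_
  rw [← Algebra.smul_def, map_smul, smul_eq_mul]

omit [Algebra ℤ_[p] R] in
/-- The coordinates of a homomorphism with vanishing traces give vectors in `pushKer`. -/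
theorem comp_mem_pushKer {u : Additive (Gamma0 (M * q * q)) →+ R}
    (hu : u ∈ homPar0 ℤ (Gamma0 (M * q * q)) R)
    (hlow : ∀ (g : Gamma0 (M * q)) (π : ZMod q ≃ ZMod q) (h : ZMod q → Gamma0 (M * q * q)),
      (∀ j : ZMod q, gamma0GL (M * q) (lowerUni (M * q) (j.val : ℤ)) * gamma0GL (M * q) g =
        gamma0GL (M * q * q) (h j) * gamma0GL (M * q) (lowerUni (M * q) ((π j).val : ℤ))) →
      ∑ j, u (Additive.ofMul (h j)) = 0)
    (hupp : ∀ (g : Gamma0 (M * q)) (π : ZMod q ≃ ZMod q) (h : ZMod q → Gamma0 (M * q * q)),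
      (∀ j : ZMod q, ModularForm.heckeMatrix q j.val * gamma0GL (M * q) g =
        gamma0GL (M * q * q) (h j) * ModularForm.heckeMatrix q (π j).val) →
      ∑ j, u (Additive.ofMul (h j)) = 0)
    (f : R →+ ℤ_[p]) :
    (fun i => f (homPar0Equiv (M * q * q) ℤ R ⟨u, hu⟩ i)) ∈ pushKer p q M := by
  intro k
  set x := torsPoint (M * q * q) k fun i => f (homPar0Equiv (M * q * q) ℤ R ⟨u, hu⟩ i) with hx
  let g : R →+ ZMod (p ^ k) := (PadicInt.toZModPow (p := p) k).toAddMonoidHom.comp f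
  have hχ : kummerTorsionEquiv (M * q * q) (p ^ k) x =
      FLTA.Gamma0.homPar0Map (Gamma0 (M * q * q)) g ⟨u, hu⟩ := by
    refine (homPar0Equiv (M * q * q) ℤ (ZMod (p ^ k))).injective ?_
    exact torsCoord_torsPoint (M * q * q) k _
  have hval : ∀ h : ZMod q → Gamma0 (M * q * q), ∑ j, u (Additive.ofMul (h j)) = 0 →
      ∑ j, (kummerTorsionEquiv (M * q * q) (p ^ k) x).1 (Additive.ofMul (h j)) = 0 := fun h h0 => by
    rw [hχ, FLTA.Gamma0.homPar0Map_coe]
    simp only [AddMonoidHom.comp_apply]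
    rw [← map_sum, h0, map_zero]
  exact ⟨Subtype.ext (pushAlpha_eq_zero (dvd_mul_left q M) x fun g π h hh =>
      hval h (hupp g π h hh)),
    Subtype.ext (pushBeta_eq_zero (dvd_mul_left q M) x fun g π h hh =>
      hval h (hlow g π h hh))⟩

section Relation

variable {N : ℕ} [NeZero N] [IsLocalRing R] [IsNoetherianRing R] [IsDomain R]

/-- The relation of the characteristic polynomial of `ρ` holds on an eigenvector whose translates
are eigenvectors. -/
theorem quadratic_on_eigen (hp : (p : R) ∈ maximalIdeal R) (S : Finset ℕ) (a : ℕ → R)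
    (ρ : GaloisRepAdic R)
    (hS : p ∈ S) (hSN : ∀ ℓ : ℕ, ℓ.Prime → ℓ ∣ N → ℓ ∈ S)
    (hcp : ∀ ℓ : ℕ, ℓ.Prime → ℓ ∉ S → ∀ A : ValuationSubring (AlgebraicClosure ℚ),
      A.LiesOverPrime ℓ → ∀ σ : GalQ, A.IsFrobeniusAt σ ℓ →
        LinearMap.charpoly (ρ.ρ σ) = X ^ 2 - C (a ℓ) * X + C (ℓ : R))
    (w : Fin (homRank N) → R)
    (hw : ∀ (ℓ : ℕ) (hℓ : ℓ.Prime) (hℓN : ¬ ℓ ∣ N), ℓ ∉ S → ∀ τ : GalQ,
      (heckeMat N (CuspForm.heckeAlgebra.T hℓ hℓN (Set.notMem_empty ℓ))).map (Int.cast : ℤ → R) *ᵥ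
        (tateRhoR p R N τ *ᵥ w) = a ℓ • (tateRhoR p R N τ *ᵥ w))
    (σ : GalQ) :
    tateRhoR p R N σ *ᵥ (tateRhoR p R N σ *ᵥ w) - ρ.trace σ • (tateRhoR p R N σ *ᵥ w) +
      LinearMap.det (ρ.ρ σ) • w = 0 := by
  classical
  funext i
  refine GaloisReps.eq_zero_of_forall_mem_maximalIdeal_pow fun n => ?_
  let π := Ideal.Quotient.mk (maximalIdeal R ^ n)
  let b := Module.finBasisOfFinrankEq R ρ.V ρ.finrank_eq
  let φ₁ : GalQ →* Matrix (Fin (homRank N)) (Fin (homRank N)) (R ⧸ maximalIdeal R ^ n) :=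
    π.mapMatrix.toMonoidHom.comp (tateRhoR p R N)
  let φ₂ : GalQ →* Matrix (Fin 2) (Fin 2) (R ⧸ maximalIdeal R ^ n) :=
    π.mapMatrix.toMonoidHom.comp (RepTheory.matHom b ρ.ρ)
  have hφ₁ : GaloisFactorsThroughFiniteLevel φ₁ := by
    obtain ⟨L, hL, h1⟩ := isContinuous_tateRho N p n
    refine ⟨L, hL, fun g hg => ?_⟩
    ext i j
    have e := congrFun (congrFun (h1 g hg) i) j
    simp only [Matrix.map_apply] at e
    have hmem : algebraMap ℤ_[p] R (tateRho N p g i j -
        (1 : Matrix (Fin (homRank N)) (Fin (homRank N)) ℤ_[p]) i j) ∈ maximalIdeal R ^ n := by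
      refine algebraMap_mem_pow hp ?_
      rw [map_sub, e, Matrix.one_apply, Matrix.one_apply]
      split <;> simp
    rw [map_sub] at hmem
    show π (algebraMap ℤ_[p] R (tateRho N p g i j)) = _
    rw [Ideal.Quotient.eq.mpr hmem]
    by_cases hij : i = j <;> simp [hij, Matrix.one_apply]
  have hφ₂ : GaloisFactorsThroughFiniteLevel φ₂ := by
    obtain ⟨L, hL, h1⟩ := ρ.isAdicContinuous n
    refine ⟨L, hL, fun g hg => ?_⟩
    ext i j
    have h2 := GaloisReps.repr_mem_of_mem_smul_top b _ (h1 g hg (b j)) i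
    rw [map_sub, Finsupp.sub_apply, b.repr_self] at h2
    show π (LinearMap.toMatrix b b (ρ.ρ g) i j) = _
    rw [LinearMap.toMatrix_apply, Ideal.Quotient.eq.mpr h2]
    by_cases hij : i = j
    · subst hij; simp
    · simp [Ne.symm hij, hij]
  let wb : Fin (homRank N) → R ⧸ maximalIdeal R ^ n := fun i => π (w i)
  have hπ : ∀ τ (v : Fin (homRank N) → R),
      φ₁ τ *ᵥ (fun i => π (v i)) = fun i => π ((tateRhoR p R N τ *ᵥ v) i) := fun τ v =>
    _root_.funext fun i => (RingHom.map_mulVec π _ _ i).symm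
  have key := Density.forall_of_frobenius (φ₁.prod φ₂)
    (Density.galoisFactorsThroughFiniteLevel_prod hφ₁ hφ₂) S
    (fun x => x.1 *ᵥ (x.1 *ᵥ wb) - x.2.trace • (x.1 *ᵥ wb) + x.2.det • wb = 0)
    (fun x m hx => pow_relation x.1 x.2 wb hx m) ?_ σ
  · rw [← Ideal.Quotient.eq_zero_iff_mem]
    have e := congrFun key i
    simp only [MonoidHom.prod_apply, wb, hπ] at e
    rw [show (φ₂ σ).trace = π (ρ.trace σ) from
        (AddMonoidHom.map_trace π.toAddMonoidHom _).symm.trans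
          (congrArg π (RepTheory.matHom_trace b ρ.ρ σ)),
      show (φ₂ σ).det = π (LinearMap.det (ρ.ρ σ)) from
        (RingHom.map_det π _).symm.trans (congrArg π (LinearMap.det_toMatrix b _))] at e
    simpa [π] using e
  · intro ℓ hℓ hℓS A hA τ hτ
    have hℓN : ¬ ℓ ∣ N := fun h => hℓS (hSN ℓ hℓ h)
    have hℓp : ℓ ≠ p := fun h => hℓS (h ▸ hS)
    obtain ⟨ht, hd⟩ := RepTheory.trace_eq_of_charpoly ρ.finrank_eq (hcp ℓ hℓ hℓS A hA τ hτ)
    have hfr := congrArg (fun X => (algebraMap ℤ_[p] R).mapMatrix X *ᵥ w)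
      (tateRho_frobenius N p hℓ hℓN hℓp A hA hτ)
    simp only [map_add, map_sub, map_mul, map_natCast, map_zero, Matrix.zero_mulVec,
      Matrix.add_mulVec, Matrix.sub_mulVec, ← Matrix.mulVec_mulVec, RingHom.mapMatrix_apply,
      map_intCast_map, ← tateRhoR_apply, Matrix.natCast_mulVec] at hfr
    rw [hw ℓ hℓ hℓN hℓS τ] at hfr
    simp only [MonoidHom.prod_apply, wb, hπ]
    rw [show (φ₂ τ).trace = π (a ℓ) from
        (AddMonoidHom.map_trace π.toAddMonoidHom _).symm.trans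
          (congrArg π ((RepTheory.matHom_trace b ρ.ρ τ).trans ht)),
      show (φ₂ τ).det = π (ℓ : R) from
        (RingHom.map_det π _).symm.trans (congrArg π ((LinearMap.det_toMatrix b _).trans hd))]
    funext j
    have e := congrArg π (congrFun hfr j)
    simpa [π] using e

end Relation

variable [IsDomain R] [IsLocalRing R] [IsNoetherianRing R] [CharZero R] [Module.Finite ℤ_[p] R]

/-- **A twisted class killed by both pushforwards is not unipotent on inertia.** -/
theorem not_isUnipotentOnInertiaAt_of_traces (hqp : q ≠ p) (hqM : ¬ q ∣ M)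
    (hp : (p : R) ∈ maximalIdeal R) (S : Finset ℕ) (a : ℕ → R) (ρ : GaloisRepAdic R)
    (hcp : ∀ ℓ : ℕ, ℓ.Prime → ℓ ∉ S → ∀ A : ValuationSubring (AlgebraicClosure ℚ),
      A.LiesOverPrime ℓ → ∀ σ : GalQ, A.IsFrobeniusAt σ ℓ →
        LinearMap.charpoly (ρ.ρ σ) = X ^ 2 - C (a ℓ) * X + C (ℓ : R))
    (u : Additive (Gamma0 (M * q * q)) →+ R) (hu : u ∈ homPar0 ℤ (Gamma0 (M * q * q)) R)
    (hu0 : u ≠ 0)
    (hT : ∀ ℓ : ℕ, ℓ.Prime → ℓ ∉ S → ¬ ℓ ∣ M * q * q → heckeHom ℤ (M * q * q) ℓ u = a ℓ • u)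
    (hlow : ∀ (g : Gamma0 (M * q)) (π : ZMod q ≃ ZMod q) (h : ZMod q → Gamma0 (M * q * q)),
      (∀ j : ZMod q, gamma0GL (M * q) (lowerUni (M * q) (j.val : ℤ)) * gamma0GL (M * q) g =
        gamma0GL (M * q * q) (h j) * gamma0GL (M * q) (lowerUni (M * q) ((π j).val : ℤ))) →
      ∑ j, u (Additive.ofMul (h j)) = 0)
    (hupp : ∀ (g : Gamma0 (M * q)) (π : ZMod q ≃ ZMod q) (h : ZMod q → Gamma0 (M * q * q)),
      (∀ j : ZMod q, ModularForm.heckeMatrix q j.val * gamma0GL (M * q) g =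
        gamma0GL (M * q * q) (h j) * ModularForm.heckeMatrix q (π j).val) →
      ∑ j, u (Additive.ofMul (h j)) = 0) :
    ¬ ρ.IsUnipotentOnInertiaAt q := by
  classical
  intro huni
  let S' : Finset ℕ := insert p (S ∪ (M * q * q).primeFactors)
  have hS'N : ∀ ℓ : ℕ, ℓ.Prime → ℓ ∣ (M * q * q) → ℓ ∈ S' := fun ℓ hℓ h => by
    simp [S', Nat.mem_primeFactors, hℓ, h, NeZero.ne (M * q * q)]
  let Tm : ∀ ℓ : ℕ, ℓ.Prime → ¬ ℓ ∣ (M * q * q) → Matrix (Fin (homRank (M * q * q))) (Fin (homRank (M * q * q))) R :=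
    fun ℓ hℓ hℓN =>
      (heckeMat (M * q * q) (CuspForm.heckeAlgebra.T hℓ hℓN (Set.notMem_empty ℓ))).map (Int.cast : ℤ → R)
  let W : Submodule R (Fin (homRank (M * q * q)) → R) :=
    { carrier := {w | (∀ f : R →ₗ[ℤ_[p]] ℤ_[p], (fun i => f (w i)) ∈ pushKer p q M) ∧
        ∀ (ℓ : ℕ) (hℓ : ℓ.Prime) (hℓN : ¬ ℓ ∣ (M * q * q)), ℓ ∉ S' → Tm ℓ hℓ hℓN *ᵥ w = a ℓ • w}
      zero_mem' := ⟨fun f => by
          have h : (fun i => f ((0 : Fin (homRank (M * q * q)) → R) i)) = 0 := _root_.funext fun i => map_zero f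
          exact h ▸ (pushKer p q M).zero_mem, fun ℓ _ _ _ => by simp⟩
      add_mem' := fun {v w} hv hw => ⟨fun f => by
          simpa [Pi.add_def] using (pushKer p q M).add_mem (hv.1 f) (hw.1 f),
        fun ℓ hℓ hℓN hℓS => by
          rw [Matrix.mulVec_add, hv.2 ℓ hℓ hℓN hℓS, hw.2 ℓ hℓ hℓN hℓS, smul_add]⟩
      smul_mem' := fun r w hw => ⟨fun f => hw.1 (f.comp (LinearMap.mulLeft ℤ_[p] r)),
        fun ℓ hℓ hℓN hℓS => by rw [Matrix.mulVec_smul, hw.2 ℓ hℓ hℓN hℓS, smul_comm]⟩ }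
  have hWσ : ∀ (σ : GalQ), ∀ w ∈ W, tateRhoR p R (M * q * q) σ *ᵥ w ∈ W := by
    intro σ w hw
    refine ⟨fun f => ?_, fun ℓ hℓ hℓN hℓS => ?_⟩
    · rw [comp_tateRhoR_mulVec]
      exact mulVec_mem_pushKer σ (hw.1 f)
    · have hc := ((commute_tateRho (M * q * q) p σ
        (CuspForm.heckeAlgebra.T hℓ hℓN (Set.notMem_empty ℓ))).map
          (algebraMap ℤ_[p] R).mapMatrix).symm.eq
      simp only [RingHom.mapMatrix_apply, map_intCast_map, ← tateRhoR_apply] at hc
      rw [Matrix.mulVec_mulVec, hc, ← Matrix.mulVec_mulVec, hw.2 ℓ hℓ hℓN hℓS,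
        Matrix.mulVec_smul]
  set v := homPar0Equiv (M * q * q) ℤ R ⟨u, hu⟩ with hv
  have hvW : v ∈ W := by
    refine ⟨fun f => comp_mem_pushKer hu hlow hupp f.toAddMonoidHom, fun ℓ hℓ hℓN hℓS => ?_⟩
    have hℓS₀ : ℓ ∉ S := fun h => hℓS (by simp [S', h])
    rw [show Tm ℓ hℓ hℓN *ᵥ v =
        homPar0Equiv (M * q * q) ℤ R ⟨_, FLTA.Periods.heckeHom_mem_homPar0 ℤ ℓ hu⟩ from
      latMat_mulVec_heckeHom (heckeQuot_T_comp hℓ hℓN) ⟨u, hu⟩
        ⟨_, FLTA.Periods.heckeHom_mem_homPar0 ℤ ℓ hu⟩ rfl]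
    funext i
    rw [hv, Pi.smul_apply, FLTA.Gamma0.homPar0Equiv_apply, FLTA.Gamma0.homPar0Equiv_apply]
    exact DFunLike.congr_fun (hT ℓ hℓ hℓS₀ hℓN) _
  have hv0 : (⟨v, hvW⟩ : W) ≠ 0 := by
    intro h
    apply hu0
    have h1 : v = 0 := congrArg Subtype.val h
    exact congrArg Subtype.val
      ((homPar0Equiv (M * q * q) ℤ R).map_eq_zero_iff.mp (hv.symm.trans h1))
  obtain ⟨A, hA⟩ := FLTA.Galois.exists_liesOverPrime (Fact.out : q.Prime)
  let rep : A.inertiaSubgroupIn ℚ →* Module.End R W :=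
    { toFun := fun σ => (Matrix.toLin' (tateRhoR p R (M * q * q) (σ : GalQ))).restrict fun w hw =>
        (Matrix.toLin'_apply (tateRhoR p R (M * q * q) (σ : GalQ)) w).symm ▸ hWσ _ w hw
      map_one' := LinearMap.ext fun w => Subtype.ext (by simp)
      map_mul' := fun σ τ => LinearMap.ext fun w => Subtype.ext (by
        simp [Matrix.mulVec_mulVec]) }
  have hrep : ∀ (σ : A.inertiaSubgroupIn ℚ) (w : W),
      ((rep σ w : W) : Fin (homRank (M * q * q)) → R) = tateRhoR p R (M * q * q) (σ : GalQ) *ᵥ w.1 :=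
    fun σ w => rfl
  have hsq : ∀ σ, (rep σ - 1) * (rep σ - 1) = 0 := by
    intro σ
    refine LinearMap.ext fun w => Subtype.ext ?_
    have h := quadratic_on_eigen hp S' a ρ (Finset.mem_insert_self _ _) hS'N
      (fun ℓ hℓ hℓS => hcp ℓ hℓ fun h => hℓS (by simp [S', h]))
      w.1 (fun ℓ hℓ hℓN hℓS τ => (hWσ τ w.1 w.2).2 ℓ hℓ hℓN hℓS) (σ : GalQ)
    obtain ⟨ht, hd⟩ := RepTheory.trace_eq_of_charpoly (a := (2 : R)) (d := 1) ρ.finrank_eq
      ((huni A hA σ σ.2).trans (by rw [map_ofNat, map_one]; ring))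
    rw [show ρ.trace (σ : GalQ) = 2 from ht, hd, one_smul] at h
    show ((rep σ (rep σ w - w) - (rep σ w - w) : W) : Fin (homRank (M * q * q)) → R) = 0
    rw [← h, Submodule.coe_sub, hrep, Submodule.coe_sub, hrep, Matrix.mulVec_sub, two_smul]
    abel
  obtain ⟨w, hw0, hwfix⟩ := exists_fixed_of_sq_zero
    (fun x hx => Subtype.ext (_root_.funext fun i => by
      have h := congrFun (congrArg Subtype.val hx) i
      exact (add_self_eq_zero).mp h)) rep hsq hv0
  have : Module.Free ℤ_[p] R := by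
    have hinj : Function.Injective (algebraMap ℤ_[p] R) :=
      RingHom.injective_iff_ker_eq_bot _ |>.mpr (by
        rw [eq_bot_iff]
        intro x hx
        by_contra hx0
        rw [Ideal.mem_bot] at hx0
        rw [PadicInt.unitCoeff_spec hx0, RingHom.mem_ker, map_mul, map_pow, map_natCast] at hx
        exact pow_ne_zero _ (Nat.cast_ne_zero.mpr (Fact.out (p := p.Prime)).ne_zero)
          (((PadicInt.unitCoeff hx0).isUnit.map (algebraMap ℤ_[p] R)).mul_right_eq_zero.mp hx))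
    have : FaithfulSMul ℤ_[p] R := (faithfulSMul_iff_algebraMap_injective _ _).mpr hinj
    have : Module.IsTorsionFree ℤ_[p] R := inferInstance
    exact Module.free_of_finite_type_torsion_free'
  let b := Module.Free.chooseBasis ℤ_[p] R
  apply hw0
  refine Subtype.ext (_root_.funext fun i => b.repr.injective (Finsupp.ext fun j => ?_))
  have hc := eq_zero_of_mem_pushKer_of_fixed hqp hqM hA (w.2.1 (b.coord j)) fun σ hσ => by
    rw [← comp_tateRhoR_mulVec]
    exact _root_.funext fun i => congrArg (b.coord j) (congrFun (congrArg Subtype.val (hwfix ⟨σ, hσ⟩)) i)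
  simpa using congrFun hc i

end FLTA.RT

end
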