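import Fermat.Agent.RT.PointClass
import Fermat.Agent.RT.CoeffBase
import Mathlib.RingTheory.LocalRing.ResidueField.Basic
import Mathlib.LinearAlgebra.Matrix.ToLinearEquiv

/-!
# The class of an eigenvector over the fraction field; eigenvalues of small matrices
-/

set_option autoImplicit false

noncomputable section

open IsLocalRing
open scoped Matrix

namespace FLTA.RT

/-- A vector fixed up to a factor by a matrix with small entries forces a small factor. -/
theorem mem_maximalIdeal_of_mulVec {B : Type*} [CommRing B] [IsDomain B] [IsLocalRing B] {d : ℕ}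
    (M : Matrix (Fin d) (Fin d) B) (hM : ∀ i j, M i j ∈ maximalIdeal B) {v : Fin d → B}
    (hv : v ≠ 0) {x : B} (h : M *ᵥ v = x • v) : x ∈ maximalIdeal B := by
  classical
  have h0 : (x • (1 : Matrix (Fin d) (Fin d) B) - M) *ᵥ v = 0 := by
    rw [Matrix.sub_mulVec, Matrix.smul_mulVec, Matrix.one_mulVec, h, sub_self]
  have hdet := Matrix.exists_mulVec_eq_zero_iff.mp ⟨v, hv, h0⟩
  have hres := congrArg (residue B) hdet
  rw [RingHom.map_det, map_zero, RingHom.mapMatrix_apply] at hres
  have hmap : (x • (1 : Matrix (Fin d) (Fin d) B) - M).map (residue B) =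
      residue B x • (1 : Matrix (Fin d) (Fin d) (ResidueField B)) := by
    ext i j
    by_cases hij : i = j
    · subst hij
      simp [(residue_eq_zero_iff _).mpr (hM i i)]
    · simp [hij, (residue_eq_zero_iff _).mpr (hM i j)]
  rw [hmap, Matrix.det_smul, Matrix.det_one, mul_one, Fintype.card_fin] at hres
  exact (residue_eq_zero_iff x).mp (eq_zero_of_pow_eq_zero hres)

/-- A point of a finite local algebra that is local on the base is local. -/
theorem map_mem_maximalIdeal_of_finite {O A B : Type*} [CommRing O] [IsLocalRing O] [CommRing A]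
    [IsLocalRing A] [Algebra O A] [Module.Finite O A] [CommRing B] [IsLocalRing B] (φ : A →+* B)
    (hφ : IsLocalHom (φ.comp (algebraMap O A))) {a : A} (ha : a ∈ maximalIdeal A) :
    φ a ∈ maximalIdeal B := by
  let P : Ideal A := (maximalIdeal B).comap φ
  have : Algebra.IsIntegral O A := Algebra.IsIntegral.of_finite O A
  have : P.IsPrime := Ideal.IsPrime.comap φ
  have hP : (P.comap (algebraMap O A)).IsMaximal := by
    rw [show P.comap (algebraMap O A) = maximalIdeal O from
      ((maximalIdeal.isMaximal O).eq_of_le (Ideal.IsPrime.ne_top inferInstance) fun x hx =>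
        map_nonunit (φ.comp (algebraMap O A)) x hx).symm]
    exact maximalIdeal.isMaximal O
  rw [← IsLocalRing.eq_maximalIdeal
    (Ideal.isMaximal_of_isIntegral_of_isMaximal_comap P hP)] at ha
  exact ha

/-- Powers of a shifted matrix at an eigenvector. -/
theorem map_pow_sub_mulVec {R B : Type*} [CommRing R] [CommRing B] {d : ℕ} (φ : R →+* B)
    (A : Matrix (Fin d) (Fin d) R) (a : R) {v : Fin d → B} {c : B} (h : A.map φ *ᵥ v = c • v)
    (k : ℕ) : ((A - a • 1) ^ k).map φ *ᵥ v = (c - φ a) ^ k • v := by
  have h1 : (φ.mapMatrix (A - a • 1)) *ᵥ v = (c - φ a) • v := by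
    rw [map_sub, Matrix.sub_mulVec, RingHom.mapMatrix_apply, h,
      show φ.mapMatrix (a • (1 : Matrix (Fin d) (Fin d) R)) = φ a • 1 from by
        ext i j
        by_cases hij : i = j <;> simp [hij],
      Matrix.smul_mulVec, Matrix.one_mulVec, sub_smul]
  rw [← RingHom.mapMatrix_apply, map_pow]
  induction k with
  | zero => simp
  | succ k ih =>
    rw [pow_succ, ← Matrix.mulVec_mulVec, h1, Matrix.mulVec_smul, ih, smul_smul, ← pow_succ']

universe u

variable {Γ : Type*} [Group Γ] {R : Type u} [CommRing R] [IsNoetherianRing R] {χ : Γ →* Rˣ}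
  {e : NatEnd χ} {d : ℕ} (b : Module.Basis (Fin d) R (eImage e R))
  {S : Type u} [CommRing S] [IsDomain S] [Algebra R S] [Module.Finite R S]
  (K : Type u) [Field K] [Algebra S K] [IsFractionRing S K] [Algebra R K] [IsScalarTower R S K]

/-- The class of a vector over the fraction field. -/
def fieldClass (v : Fin d → S) : tH1 χ K :=
  tH1Map χ (IsScalarTower.toAlgHom R S K).toLinearMap (vecClass b v)

/-- A nonzero vector gives a nonzero class over the fraction field. -/
theorem fieldClass_ne_zero (hlift : HasLifts χ) (hidem : EqAtRing (e * e) e) {v : Fin d → S}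
    (hv : v ≠ 0) : fieldClass b K v ≠ 0 := by
  intro h0
  set ι : S →ₗ[R] K := (IsScalarTower.toAlgHom R S K).toLinearMap
  have hι : Function.Injective ι := IsFractionRing.injective S K
  obtain ⟨f, hf⟩ := tClass_surjective χ (vecClass b v)
  rw [fieldClass, ← hf, tH1Map_class, tClass_eq_zero_iff] at h0
  obtain ⟨w, hw⟩ := h0
  obtain ⟨⟨w₀, ⟨t, ht⟩⟩, hwt⟩ := IsLocalization.surj (nonZeroDivisors S) w
  have hkill : tH1Map χ (LinearMap.mulLeft R t) (vecClass b v) = 0 := by
    rw [← hf, tH1Map_class, tClass_eq_zero_iff]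
    refine ⟨w₀, Subtype.ext (funext fun γ => hι ?_)⟩
    have hwγ : (χ γ : R) • w - w = ι (f.1 γ) := congrFun (congrArg Subtype.val hw) γ
    show ι ((χ γ : R) • w₀ - w₀) = ι (t * f.1 γ)
    rw [map_sub, map_smul]
    show (χ γ : R) • algebraMap S K w₀ - algebraMap S K w₀ = algebraMap S K (t * f.1 γ)
    rw [map_mul, show algebraMap S K (f.1 γ) = ι (f.1 γ) from rfl, ← hwγ, ← hwt, Algebra.smul_def,
      Algebra.smul_def]
    ring
  rw [map_vecClass] at hkill
  refine hv (funext fun j => ?_)
  have h1 := congrFun (eq_zero_of_vecClass b hlift hidem _ hkill) j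
  exact (mul_eq_zero.mp h1).resolve_left (nonZeroDivisors.ne_zero ht)

omit [IsNoetherianRing R] [IsDomain S] [Module.Finite R S] [IsFractionRing S K] in
/-- At an eigenvector a family acts on the class by the eigenvalue. -/
theorem app_fieldClass (f : NatEnd χ) (A : Matrix (Fin d) (Fin d) R)
    (hA : ∀ j, f.app R (b j : tH1 χ R) = ∑ i, A i j • (b i : tH1 χ R)) {v : Fin d → S} {c : S}
    (hv : A.map (algebraMap R S) *ᵥ v = c • v) :
    f.app K (fieldClass b K v) =
      tH1Map χ (LinearMap.mulLeft R (algebraMap S K c)) (fieldClass b K v) := by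
  rw [fieldClass, f.natural, app_vecClass b f A hA, ← tH1Map_comp]
  rw [map_vecClass, map_vecClass]
  congr 1
  funext i
  show algebraMap S K (∑ j, A i j • v j) = algebraMap S K c * algebraMap S K (v i)
  rw [← map_mul]
  congr 1
  refine Eq.trans (Finset.sum_congr rfl fun j _ => ?_) (congrFun hv i)
  rw [Algebra.smul_def]
  rfl

section Base

open CongruenceSubgroup FLTA.Periods

variable {L : ℕ} [NeZero L] {R : Type} [CommRing R] [IsNoetherianRing R] {χ : (ZMod L)ˣ →* Rˣ}
  {e : NatEnd (gamChar χ)}

/-- An eigenvector over a domain gives a class with its eigenvalues over the fraction field. -/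
theorem exists_base_class_of_vec (hlift : HasLifts (gamChar χ)) (hidem : EqAtRing (e * e) e)
    {d : ℕ} (b : Module.Basis (Fin d) R (eImage e R)) {ι : Type*} (κ : ι → R) (ℓ : ι → ℕ)
    (T : ι → Module.End R (eImage e R))
    (hT : ∀ i (x : eImage e R), ((T i x : eImage e R) : tH1 (gamChar χ) R) =
      κ i • (natHecke χ (ℓ i)).app R (x : tH1 (gamChar χ) R))
    {B K : Type} [CommRing B] [IsDomain B] [Field K] [Algebra R B] [Algebra R K] [Algebra B K]
    [IsFractionRing B K] [IsScalarTower R B K] [Module.Finite R B] (φ : R →+* K)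
    (hφ : φ = (algebraMap B K).comp (algebraMap R B)) {v : Fin d → B} (hv0 : v ≠ 0) (c : ι → B)
    (hv : ∀ i, (LinearMap.toMatrixAlgEquiv b (T i)).map (algebraMap R B) *ᵥ v = c i • v) :
    ∃ x : tH1 (gamChar (charMap φ χ)) K, x ≠ 0 ∧
      ∀ i, φ (κ i) • (natHecke (charMap φ χ) (ℓ i)).app K x = algebraMap B K (c i) • x := by
  rw [← IsScalarTower.algebraMap_eq] at hφ
  subst hφ
  have hφK : ∀ (a : R) (z : K), a • z = algebraMap R K a • z := fun a z =>
    (algebraMap_smul K a z).symm
  refine ⟨tH1Base (algebraMap R K) χ hφK (fieldClass b K v), fun h0 => ?_, fun i => ?_⟩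
  · rw [AddEquiv.map_eq_zero_iff] at h0
    exact fieldClass_ne_zero b K hlift hidem hv0 h0
  · have hM : ∀ j, (κ i • natHecke χ (ℓ i)).app R (b j : tH1 (gamChar χ) R) =
        ∑ k, LinearMap.toMatrixAlgEquiv b (T i) k j • (b k : tH1 (gamChar χ) R) := fun j => by
      rw [NatEnd.smul_app, ← hT i (b j), ← b.sum_repr (T i (b j)),
        AddSubmonoidClass.coe_finsetSum]
      exact Finset.sum_congr rfl fun k _ => by
        simp only [LinearMap.toMatrixAlgEquiv_apply]
        rfl
    have hz := app_fieldClass b K (κ i • natHecke χ (ℓ i)) _ hM (hv i)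
    rw [NatEnd.smul_app] at hz
    have hz' := congrArg (tH1Base (algebraMap R K) χ hφK) hz
    rw [tH1Base_smul, tH1Base_natHecke,
      tH1Base_map (algebraMap R K) χ hφK hφK (LinearMap.mulLeft R (algebraMap B K (c i)))
        (algebraMap B K (c i) • LinearMap.id) (fun y => rfl), tH1Map_smul, tH1Map_id] at hz'
    exact hz'

end Base

end FLTA.RT

end
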