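import Fermat.Agent.RepTheory.DVRExtension

/-!
# Extending a point to a finite algebra

A point of a ring with values in a complete discrete valuation ring extends to a finite injective
extension of that ring, after a finite extension of the valuation ring.
-/

set_option autoImplicit false

noncomputable section

open IsLocalRing

namespace FLTA.RT

open FLTA.RepTheory

/-- A point extends to a finite extension, after a finite extension of the valuation ring. -/
theorem exists_point_extend (O : Type) [CommRing O] [IsDomain O] [IsDiscreteValuationRing O]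
    [IsAdicComplete (maximalIdeal O) O] [Finite (ResidueField O)] [CharZero O]
    {R₀ R : Type*} [CommRing R₀] [CommRing R] (f : R₀ →+* R) (hf : Function.Injective f)
    (hfin : f.Finite) (χ : R₀ →+* O) :
    ∃ E : FiniteDVRExt O, ∃ ψ : R →+* E.R, ψ.comp f = (algebraMap O E.R).comp χ := by
  algebraize [f]
  have : Module.Finite R₀ R := hfin
  have : (RingHom.ker χ).IsPrime := RingHom.ker_isPrime χ
  obtain ⟨P, -, hP, hPc⟩ := Ideal.exists_ideal_over_prime_of_isIntegral (RingHom.ker χ)
    (⊥ : Ideal R) (by
      intro x hx
      rw [Ideal.mem_comap, Ideal.mem_bot] at hx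
      have : x = 0 := hf (by rw [map_zero]; exact hx)
      simp [this])
  have hinjK := algebraMap_algClosure_injective O
  let χ' : R₀ →+* AlgebraicClosure (FractionRing O) := (algebraMap O _).comp χ
  have hker : P.comap f = RingHom.ker χ' :=
    (show P.comap f = RingHom.ker χ from hPc).trans (RingHom.ker_comp_of_injective χ hinjK).symm
  let c : R₀ ⧸ P.comap f →+* AlgebraicClosure (FractionRing O) :=
    Ideal.Quotient.lift _ χ' fun a ha => by
      rw [hker] at ha
      exact ha
  have hcinj : Function.Injective c :=
    RingHom.lift_injective_of_ker_le_ideal _ _ hker.ge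
  obtain ⟨g', hg'⟩ := exists_extend_of_integral (Ideal.quotientMap P f le_rfl)
    Ideal.quotientMap_injective
    (RingHom.IsIntegral.quotient f (algebraMap_isIntegral_iff.mpr
      (inferInstance : Algebra.IsIntegral R₀ R))) c hcinj
  let g : R →+* AlgebraicClosure (FractionRing O) := g'.comp (Ideal.Quotient.mk P)
  have hg : ∀ a, g (f a) = χ' a := fun a =>
    RingHom.congr_fun hg' (Ideal.Quotient.mk _ a)
  obtain ⟨s0, hs0⟩ := Module.Finite.fg_top (R := R₀) (M := R)
  obtain ⟨E, ι, hι, hE⟩ := exists_finiteDVRExt_subset O (g '' s0) (s0.finite_toSet.image _) (by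
    rintro _ ⟨r, -, rfl⟩
    obtain ⟨q, hq, hq0⟩ := Algebra.IsIntegral.isIntegral (R := R₀) r
    refine ⟨q.map χ, hq.map _, ?_⟩
    have h := congrArg g hq0
    rw [Polynomial.hom_eval₂, map_zero] at h
    rw [Polynomial.eval₂_map]
    rwa [show (algebraMap O _).comp χ = g.comp (algebraMap R₀ R) from
      RingHom.ext fun a => (hg a).symm])
  have hrange : ∀ r, g r ∈ Set.range ι.toRingHom := by
    intro r
    have hr : r ∈ Submodule.span R₀ (s0 : Set R) := by rw [hs0]; trivial
    show g r ∈ ι.range
    induction hr using Submodule.span_induction with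
    | mem x hx => exact hE _ ⟨x, hx, rfl⟩
    | zero => rw [map_zero]; exact zero_mem _
    | add x y _ _ hx hy => rw [map_add]; exact add_mem hx hy
    | smul z x _ hx =>
      rw [Algebra.smul_def, map_mul, show g (algebraMap R₀ R z) = algebraMap O _ (χ z) from hg z]
      exact mul_mem (ι.range.algebraMap_mem _) hx
  obtain ⟨ψ, hψ⟩ := exists_factor_of_injective ι.toRingHom hι g hrange
  refine ⟨E, ψ, RingHom.ext fun a => hι ?_⟩
  show ι.toRingHom (ψ (f a)) = ι (algebraMap O E.R (χ a))
  rw [ι.commutes, ← RingHom.comp_apply ι.toRingHom ψ, hψ, hg]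
  rfl

end FLTA.RT

end
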