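import Fermat.Agent.RT.PointEigen
import Fermat.Agent.RT.PointExtend
import Fermat.Agent.RT.PointClassField
import Mathlib.RingTheory.Adjoin.Basic

/-!
# A point of a subfamily of commuting endomorphisms: eigenvectors for the whole family

A point of the algebra generated by part of a commuting family of endomorphisms of a finite free
module extends, after a finite extension of its values, to an eigenvector of the whole family; the
eigenvalues are residually the values around which the endomorphisms are topologically nilpotent.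
-/

set_option autoImplicit false

noncomputable section

open IsLocalRing
open scoped Matrix

namespace FLTA.RT

variable {R M : Type} [CommRing R] [IsNoetherianRing R] [AddCommGroup M] [Module R M]
  {ι ι' : Type} (O : Type) [CommRing O] [IsDomain O] [IsDiscreteValuationRing O]
  [IsAdicComplete (maximalIdeal O) O] [Finite (ResidueField O)] [CharZero O]

/-- A point of a subfamily gives an eigenvector of the whole family after a finite extension. -/
theorem exists_point_eigen_family {d : ℕ} (b : Module.Basis (Fin d) R M) (T : ι → Module.End R M)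
    (hcomm : ∀ s t, T s * T t = T t * T s) (g : ι' → ι) (T' : ι' → Module.End R M)
    (hT' : ∀ l, T' l = T (g l)) (ψ : Algebra.adjoin R (Set.range T') →+* O) :
    ∃ (E : RepTheory.FiniteDVRExt O) (c : ι → E.R) (v : Fin d → E.R), v ≠ 0 ∧
      (∀ l, c (g l) = algebraMap O E.R (ψ ⟨T' l, Algebra.subset_adjoin ⟨l, rfl⟩⟩)) ∧
      ∀ s, (LinearMap.toMatrixAlgEquiv b (T s)).map
        ((algebraMap O E.R).comp (ψ.comp (algebraMap R (Algebra.adjoin R (Set.range T'))))) *ᵥ v =
          c s • v := by
  classical
  have : Module.Finite R M := Module.Finite.of_basis b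
  have : Module.Free R M := Module.Free.of_basis b
  have hle : Algebra.adjoin R (Set.range T') ≤ Algebra.adjoin R (Set.range T) :=
    Algebra.adjoin_mono (by
      rintro _ ⟨l, rfl⟩
      exact ⟨g l, (hT' l).symm⟩)
  have hc : IsMulCommutative (Algebra.adjoin R (Set.range T)) :=
    Algebra.isMulCommutative_adjoin R (by
      rintro _ ⟨s, rfl⟩ _ ⟨t, rfl⟩
      exact hcomm s t)
  have hc' : IsMulCommutative (Algebra.adjoin R (Set.range T')) :=
    Algebra.isMulCommutative_adjoin R (by
      rintro _ ⟨s, rfl⟩ _ ⟨t, rfl⟩
      rw [hT', hT', hcomm])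
  let _ : CommRing (Algebra.adjoin R (Set.range T)) :=
    { Algebra.semiringToRing R with mul_comm := hc.is_comm.comm }
  let _ : CommRing (Algebra.adjoin R (Set.range T')) :=
    { Algebra.semiringToRing R with mul_comm := hc'.is_comm.comm }
  have : Module.Finite R (Algebra.adjoin R (Set.range T)) :=
    Module.IsNoetherian.finite R (Subalgebra.toSubmodule (Algebra.adjoin R (Set.range T)))
  let i : Algebra.adjoin R (Set.range T') →+* Algebra.adjoin R (Set.range T) :=
    (Subalgebra.inclusion hle).toRingHom
  have hfin : i.Finite := by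
    refine RingHom.Finite.of_comp_finite (f := algebraMap R (Algebra.adjoin R (Set.range T'))) ?_
    rw [show i.comp (algebraMap R (Algebra.adjoin R (Set.range T'))) =
      algebraMap R (Algebra.adjoin R (Set.range T)) from RingHom.ext fun a => rfl]
    exact RingHom.finite_algebraMap.mpr inferInstance
  obtain ⟨E, ψ', hψ'⟩ := exists_point_extend O i (Subalgebra.inclusion_injective hle) hfin ψ
  obtain ⟨v, hv0, hv⟩ := exists_eigenVec_adjoin b T hcomm ψ'
  refine ⟨E, fun s => ψ' ⟨T s, Algebra.subset_adjoin ⟨s, rfl⟩⟩, v, hv0, fun l => ?_, fun s => ?_⟩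
  · refine Eq.trans ?_ (RingHom.congr_fun hψ' ⟨T' l, Algebra.subset_adjoin ⟨l, rfl⟩⟩)
    exact congrArg ψ' (Subtype.ext (hT' l).symm)
  · funext k
    refine Eq.trans ?_ (hv s k)
    simp only [Matrix.mulVec, dotProduct, Matrix.map_apply, RingHom.comp_apply]
    refine Finset.sum_congr rfl fun j _ => congrArg (· * v j) ?_
    exact (RingHom.congr_fun hψ' (algebraMap R (Algebra.adjoin R (Set.range T'))
      (LinearMap.toMatrixAlgEquiv b (T s) k j))).symm

omit [IsNoetherianRing R] in
/-- An eigenvalue is residually the value around which the endomorphism is topologically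
nilpotent. -/
theorem residue_eq_of_eigen {O₀ B : Type*} [CommRing O₀] [IsLocalRing O₀] [IsLocalRing R]
    [Algebra O₀ R] [Module.Finite O₀ R] [CommRing B] [IsDomain B] [IsLocalRing B] (φ : R →+* B)
    (hφ : IsLocalHom (φ.comp (algebraMap O₀ R))) {d : ℕ} (b : Module.Basis (Fin d) R M)
    (f : Module.End R M) (a : R) {k : ℕ}
    (hk : ∀ x : M, ((f - a • 1) ^ k) x ∈ maximalIdeal R • (⊤ : Submodule R M)) {v : Fin d → B}
    (hv0 : v ≠ 0) {c : B} (hv : (LinearMap.toMatrixAlgEquiv b f).map φ *ᵥ v = c • v) :
    residue B c = residue B (φ a) := by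
  have hsmall : ∀ i j,
      ((LinearMap.toMatrixAlgEquiv b f - a • 1) ^ k).map φ i j ∈ maximalIdeal B := fun i j => by
    refine map_mem_maximalIdeal_of_finite φ hφ ?_
    rw [show (LinearMap.toMatrixAlgEquiv b f - a • 1) ^ k =
        LinearMap.toMatrixAlgEquiv b ((f - a • 1) ^ k) by
      rw [map_pow, map_sub, map_smul, map_one], LinearMap.toMatrixAlgEquiv_apply]
    exact Submodule.smul_induction_on (p := fun w => b.repr w i ∈ maximalIdeal R) (hk (b j))
      (fun a' ha w _ => by simpa using Ideal.mul_mem_right _ _ ha)
      fun a a' ha ha' => by simpa using add_mem ha ha'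
  have hx := mem_maximalIdeal_of_mulVec _ hsmall hv0 (map_pow_sub_mulVec φ _ a hv k)
  rw [← sub_eq_zero, ← map_sub, residue_eq_zero_iff]
  exact Ideal.IsPrime.mem_of_pow_mem inferInstance _ hx

end FLTA.RT

end
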