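import Fermat.Agent.RT.CoeffChar
import Fermat.Agent.LevelRaising.Degeneracy

/-!
# The cohomological twist by a character modulo `q`

For `q ∣ L`, a character `ε` of `(ℤ/q)ˣ` and a function `f` on `Γ₀(L)`, `twistFun ε f` is the
function `γ ↦ ∑ u, ε(u)⁻¹ • f (t_u γ t_v⁻¹)` on `Γ₀(L q)`, where `t_u` is translation by `u/q` and
`v = u·a⁻²`. It sends cocycles for `χ` to cocycles for `χ'` when `χ = χ'·(ε ∘ a)²`.
-/

set_option autoImplicit false

noncomputable section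

open CongruenceSubgroup
open scoped MatrixGroups

namespace FLTA.RT

open FLTA.Periods FLTA.LevelRaising

variable {L q : ℕ}

theorem real_det_shift (x : ℝ) : (!![(1 : ℝ), x; 0, 1]).det ≠ 0 := by
  simp [Matrix.det_fin_two_of]

/-- Translation by `x`. -/
def shiftGL (x : ℝ) : GL (Fin 2) ℝ :=
  Matrix.GeneralLinearGroup.mkOfDetNeZero !![1, x; 0, 1] (real_det_shift x)

@[simp] theorem val_shiftGL (x : ℝ) :
    ((shiftGL x : GL (Fin 2) ℝ) : Matrix (Fin 2) (Fin 2) ℝ) = !![1, x; 0, 1] := rfl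

/-- The top left entry of an element of `Γ₀(L q)` modulo `q`. -/
def aMod (L q : ℕ) : Gamma0 (L * q) →* (ZMod q)ˣ :=
  (ZMod.unitsMap (Dvd.intro_left L rfl)).comp (aUnit (L * q))

theorem coe_aMod (γ : Gamma0 (L * q)) :
    (aMod L q γ : ZMod q) = (((γ : SL(2, ℤ)) 0 0 : ℤ) : ZMod q) := by
  simp [aMod, ZMod.unitsMap_def]

/-- The permutation `u ↦ u a⁻²`. -/
def twistPerm (γ : Gamma0 (L * q)) (u : (ZMod q)ˣ) : (ZMod q)ˣ :=
  u * ((aMod L q γ)⁻¹) ^ 2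

theorem twistPerm_mul (γ γ' : Gamma0 (L * q)) (u : (ZMod q)ˣ) :
    twistPerm (γ * γ') u = twistPerm γ' (twistPerm γ u) := by
  simp [twistPerm, mul_pow, mul_assoc, mul_comm]

/-- `twistPerm γ` as a permutation. -/
def twistPermEquiv (γ : Gamma0 (L * q)) : (ZMod q)ˣ ≃ (ZMod q)ˣ :=
  Equiv.mulRight (((aMod L q γ)⁻¹) ^ 2)

theorem twistPermEquiv_apply (γ : Gamma0 (L * q)) (u : (ZMod q)ˣ) :
    twistPermEquiv γ u = twistPerm γ u := rfl

variable [NeZero q]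

theorem exists_twistCocyc (hqL : q ∣ L) (γ : Gamma0 (L * q)) (u : (ZMod q)ˣ) :
    ∃ δ : Gamma0 L, shiftGL (((u : ZMod q).val : ℝ) / q) * gamma0GL (L * q) γ
      = gamma0GL L δ * shiftGL (((twistPerm γ u : ZMod q).val : ℝ) / q) := by
  have hq : (q : ℝ) ≠ 0 := Nat.cast_ne_zero.mpr (NeZero.ne q)
  set a := (γ : SL(2, ℤ)) 0 0 with ha
  set b := (γ : SL(2, ℤ)) 0 1 with hb
  set c := (γ : SL(2, ℤ)) 1 0 with hc
  set d := (γ : SL(2, ℤ)) 1 1 with hd
  set i := (u : ZMod q).val with hi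
  set j := (twistPerm γ u : ZMod q).val with hj
  have hdet : a * d - b * c = 1 := by
    have h := (γ : SL(2, ℤ)).det_coe
    rwa [Matrix.det_fin_two] at h
  have hcL : ((L : ℤ) * (q : ℤ)) ∣ c := by exact_mod_cast dvd_of_mem_Gamma0 γ.2
  obtain ⟨k, hk⟩ := hcL
  obtain ⟨l, hl⟩ : (q : ℤ) ∣ L := Int.natCast_dvd_natCast.mpr hqL
  have hcq : ((c : ℤ) : ZMod q) = 0 := by
    rw [ZMod.intCast_zmod_eq_zero_iff_dvd]
    exact ⟨(L : ℤ) * k, by rw [hk]; ring⟩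
  have hau : ((a : ℤ) : ZMod q) = (aMod L q γ : ZMod q) := (coe_aMod γ).symm
  have hda : ((a : ℤ) : ZMod q) * ((d : ℤ) : ZMod q) = 1 := by
    have h := congrArg (Int.cast : ℤ → ZMod q) hdet
    push_cast at h
    linear_combination h + ((b : ℤ) : ZMod q) * hcq
  have hd' : ((d : ℤ) : ZMod q) = ((aMod L q γ)⁻¹ : (ZMod q)ˣ) := by
    rw [← Units.mul_right_inj (aMod L q γ), Units.mul_inv, ← hau, hda]
  obtain ⟨m, hm⟩ : (q : ℤ) ∣ d * i - a * j := by
    rw [← ZMod.intCast_zmod_eq_zero_iff_dvd]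
    push_cast
    rw [hi, hj, ZMod.natCast_zmod_val, ZMod.natCast_zmod_val, hd', hau, twistPerm]
    simp only [Units.val_mul, Units.val_pow_eq_pow_val]
    have h1 : (aMod L q γ : ZMod q) * ((aMod L q γ)⁻¹ : (ZMod q)ˣ) = 1 := Units.mul_inv _
    linear_combination (-(((aMod L q γ)⁻¹ : (ZMod q)ˣ) : ZMod q) * (u : ZMod q)) * h1
  have hlk : c = (q : ℤ) * q * (l * k) := by rw [hk, hl]; ring
  let M : Matrix (Fin 2) (Fin 2) ℤ :=
    !![a + (q : ℤ) * (l * k) * i, b + m - (l * k) * i * j; c, d - (q : ℤ) * (l * k) * j]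
  have hM : M.det = 1 := by
    simp only [M, Matrix.det_fin_two_of]
    linear_combination hdet + (q : ℤ) * (l * k) * hm + ((l * k) * (i : ℤ) * j - m) * hlk
  refine ⟨⟨⟨M, hM⟩, mem_Gamma0_of_dvd ⟨(q : ℤ) * k, ?_⟩⟩, ?_⟩
  · show c = _
    rw [hk]; ring
  · have hmR : (d : ℝ) * i - (a : ℝ) * j = (q : ℝ) * m := by exact_mod_cast hm
    have hlkR : (c : ℝ) = (q : ℝ) * q * ((l : ℝ) * k) := by exact_mod_cast hlk
    ext r s
    fin_cases r <;> fin_cases s <;>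
      simp [M, Matrix.mul_apply, Fin.sum_univ_two, ← ha, ← hb, ← hc, ← hd, -ZMod.natCast_val]
    · rw [hlkR]; field_simp
    · field_simp
      rw [hlkR] at *
      linear_combination hmR
    · rw [hlkR]; field_simp; ring

/-- `t_u γ t_v⁻¹ ∈ Γ₀(L)`. -/
def twistCocyc (hqL : q ∣ L) (γ : Gamma0 (L * q)) (u : (ZMod q)ˣ) : Gamma0 L :=
  (exists_twistCocyc hqL γ u).choose

theorem twistCocyc_spec (hqL : q ∣ L) (γ : Gamma0 (L * q)) (u : (ZMod q)ˣ) :
    shiftGL (((u : ZMod q).val : ℝ) / q) * gamma0GL (L * q) γ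
      = gamma0GL L (twistCocyc hqL γ u) * shiftGL (((twistPerm γ u : ZMod q).val : ℝ) / q) :=
  (exists_twistCocyc hqL γ u).choose_spec

theorem twistCocyc_eq (hqL : q ∣ L) (γ : Gamma0 (L * q)) (u : (ZMod q)ˣ) {δ : Gamma0 L}
    (h : shiftGL (((u : ZMod q).val : ℝ) / q) * gamma0GL (L * q) γ
      = gamma0GL L δ * shiftGL (((twistPerm γ u : ZMod q).val : ℝ) / q)) :
    twistCocyc hqL γ u = δ :=
  gamma0GL_injective (mul_right_cancel ((twistCocyc_spec hqL γ u).symm.trans h))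

theorem twistCocyc_mul (hqL : q ∣ L) (γ γ' : Gamma0 (L * q)) (u : (ZMod q)ˣ) :
    twistCocyc hqL (γ * γ') u
      = twistCocyc hqL γ u * twistCocyc hqL γ' (twistPerm γ u) := by
  refine twistCocyc_eq hqL _ _ ?_
  rw [map_mul, map_mul, ← mul_assoc, twistCocyc_spec hqL γ u, mul_assoc,
    twistCocyc_spec hqL γ' (twistPerm γ u), twistPerm_mul, mul_assoc]

theorem aUnit_twistCocyc (hqL : q ∣ L) (γ : Gamma0 (L * q)) (u : (ZMod q)ˣ) :
    aUnit L (twistCocyc hqL γ u) = aUnit L (inclHom L q γ) := by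
  refine Units.ext ?_
  have h00 := congrArg (fun g : GL (Fin 2) ℝ => g 0 0) (twistCocyc_spec hqL γ u)
  simp [Matrix.mul_apply, Fin.sum_univ_two, -ZMod.natCast_val] at h00
  rw [coe_aUnit, coe_aUnit, inclHom_coe]
  obtain ⟨k, hk⟩ := dvd_of_mem_Gamma0 γ.2
  have hq : (q : ℝ) ≠ 0 := Nat.cast_ne_zero.mpr (NeZero.ne q)
  have hkR : (((γ : SL(2, ℤ)) 1 0 : ℤ) : ℝ) = (L : ℝ) * q * k := by
    rw [hk]; push_cast; ring
  rw [hkR] at h00
  have hZ : ((twistCocyc hqL γ u : SL(2, ℤ)) 0 0 : ℤ)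
      = (γ : SL(2, ℤ)) 0 0 + ((u : ZMod q).val : ℤ) * ((L : ℤ) * k) := by
    apply Int.cast_injective (α := ℝ)
    push_cast
    rw [← h00]
    field_simp
  rw [hZ]
  push_cast
  simp

variable {R : Type*} [CommRing R] {V : Type*} [AddCommGroup V] [Module R V]

/-- The twist of a function on `Γ₀(L)`. -/
def twistFun (hqL : q ∣ L) (ε : (ZMod q)ˣ →* Rˣ) (f : Gamma0 L → V) (γ : Gamma0 (L * q)) : V :=
  ∑ u : (ZMod q)ˣ, (((ε u)⁻¹ : Rˣ) : R) • f (twistCocyc hqL γ u)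

/-- `twistFun` maps cocycles to cocycles. -/
theorem twistFun_mul (hqL : q ∣ L) (ε : (ZMod q)ˣ →* Rˣ) (χ : (ZMod L)ˣ →* Rˣ)
    (χ' : Gamma0 (L * q) →* Rˣ)
    (hχ : ∀ γ, gamChar χ (inclHom L q γ) = χ' γ * ε (aMod L q γ) ^ 2)
    {f : Gamma0 L → V} (hf : ∀ g h, f (g * h) = f g + (gamChar χ g : R) • f h)
    (γ γ' : Gamma0 (L * q)) :
    twistFun hqL ε f (γ * γ') = twistFun hqL ε f γ + (χ' γ : R) • twistFun hqL ε f γ' := by
  simp only [twistFun, twistCocyc_mul, hf, smul_add, Finset.sum_add_distrib, Finset.smul_sum,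
    smul_smul]
  congr 1
  rw [← Equiv.sum_comp (twistPermEquiv γ)
    (fun v => ((χ' γ : R) * (((ε v)⁻¹ : Rˣ) : R)) • f (twistCocyc hqL γ' v))]
  refine Finset.sum_congr rfl fun u _ => ?_
  rw [twistPermEquiv_apply]
  congr 1
  rw [gamChar_apply, aUnit_twistCocyc, ← gamChar_apply, hχ, twistPerm]
  simp only [← Units.val_mul]
  refine congrArg Units.val ?_
  simp only [map_mul, map_pow, map_inv, mul_inv, inv_pow, inv_inv]
  rw [mul_comm, mul_assoc, mul_comm (ε (aMod L q γ) ^ 2)]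

theorem twistFun_smul (hqL : q ∣ L) (ε : (ZMod q)ˣ →* Rˣ) (r : R) (f : Gamma0 L → V)
    (γ : Gamma0 (L * q)) : twistFun hqL ε (r • f) γ = r • twistFun hqL ε f γ := by
  simp only [twistFun, Pi.smul_apply, Finset.smul_sum, smul_smul, mul_comm]

theorem twistFun_add (hqL : q ∣ L) (ε : (ZMod q)ˣ →* Rˣ) (f g : Gamma0 L → V)
    (γ : Gamma0 (L * q)) :
    twistFun hqL ε (f + g) γ = twistFun hqL ε f γ + twistFun hqL ε g γ := by
  simp only [twistFun, Pi.add_apply, smul_add, Finset.sum_add_distrib]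

/-- Naturality in the coefficients. -/
theorem twistFun_map (hqL : q ∣ L) (ε : (ZMod q)ˣ →* Rˣ) {R' W : Type*} [CommRing R']
    [AddCommGroup W] [Module R' W] (φ : R →+* R') (g : V →+ W)
    (hg : ∀ (r : R) (x : V), g (r • x) = φ r • g x) (f : Gamma0 L → V) (γ : Gamma0 (L * q)) :
    g (twistFun hqL ε f γ)
      = twistFun hqL ((Units.map φ.toMonoidHom).comp ε) (fun x => g (f x)) γ := by
  simp only [twistFun, map_sum, hg, MonoidHom.comp_apply, ← map_inv, Units.coe_map]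
  rfl

end FLTA.RT
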