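import Fermat.Agent.RT.CoeffComm
import Fermat.Agent.RT.CoeffTwist

/-!
# Hecke equivariance of the cohomological twist

`twist (T f) = κ • T' (twist f)` in cohomology; for `T_l` one has `κ = ε(l)⁻¹`.
-/

set_option autoImplicit false

noncomputable section

universe u

namespace FLTA.RT

open CongruenceSubgroup FLTA.Periods FLTA.LevelRaising
open scoped MatrixGroups OnePoint

section compare

variable {Γ : Type*} [Group Γ] {R : Type u} [CommRing R] {χ : Γ →* Rˣ} {G : Type*} [Group G]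
  {e : Γ →* G}

/-- Comparison of the transfers attached to two corresponding families of representatives. -/
theorem sum_compare (he : Function.Injective e) {I : Type*} [Fintype I] (P Q : I → G)
    (pP pQ : I → I) (cP cQ : I → Γ) (g : G) (hP : ∀ z, P z * g = e (cP z) * P (pP z))
    (hQ : ∀ z, Q z * g = e (cQ z) * Q (pQ z)) (σ : I ≃ I) (d : I → Γ)
    (hd : ∀ z, P z = e (d z) * Q (σ z)) (huniq : ∀ z w (δ : Γ), e δ * Q z = Q w → z = w)
    (W W' : I → Rˣ) (hw : ∀ z, W z * χ (d z) = W' (σ z)) (c0 : Rˣ)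
    (hWP : ∀ z, W z * χ (cP z) = c0 * W (pP z)) (hpP : Function.Bijective pP)
    {V : Type u} [AddCommGroup V] [Module R V] (f : tCocycles χ V) :
    ∑ z, (W z : R) • f.1 (cP z) - ∑ z, (W' z : R) • f.1 (cQ z)
      = ∑ z, (W z : R) • f.1 (d z) - (c0 : R) • ∑ z, (W z : R) • f.1 (d z) := by
  have key : ∀ z, cP z = d z * cQ (σ z) * (d (pP z))⁻¹ := by
    intro z
    have h := hP z
    rw [hd, hd, mul_assoc (e (d z)), hQ, ← mul_assoc (e (d z)), ← map_mul,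
      ← mul_assoc (e (cP z)), ← map_mul] at h
    have hidx : pQ (σ z) = σ (pP z) := by
      refine huniq _ _ ((cP z * d (pP z))⁻¹ * (d z * cQ (σ z))) ?_
      rw [map_mul, map_inv, mul_assoc, h, inv_mul_cancel_left]
    rw [hidx] at h
    rw [eq_mul_inv_iff_mul_eq, he (mul_right_cancel h)]
  rw [← Equiv.sum_comp σ fun z => (W' z : R) • f.1 (cQ z)]
  have hterm : ∀ z, (W z : R) • f.1 (cP z)
      = (W z : R) • f.1 (d z) + (W' (σ z) : R) • f.1 (cQ (σ z))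
        - (c0 : R) • ((W (pP z) : R) • f.1 (d (pP z))) := by
    intro z
    conv_lhs => rw [key z, cocycle_conj]
    rw [smul_sub, smul_add, smul_smul, smul_smul, smul_smul, ← Units.val_mul, ← Units.val_mul,
      ← Units.val_mul, hw, ← key z, hWP]
  simp only [hterm, Finset.sum_sub_distrib, Finset.sum_add_distrib]
  rw [← Finset.smul_sum, hpP.sum_comp fun z => (W z : R) • f.1 (d z)]
  abel

end compare

variable {L q : ℕ} [NeZero q] {R : Type u} [CommRing R] {V : Type u} [AddCommGroup V] [Module R V]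

/-- The twist as a map on twisted cocycles. -/
def twistZ (hqL : q ∣ L) (ε : (ZMod q)ˣ →* Rˣ) (χ : (ZMod L)ˣ →* Rˣ)
    (χ' : (ZMod (L * q))ˣ →* Rˣ)
    (hχ : ∀ γ, gamChar χ (inclHom L q γ) = gamChar χ' γ * ε (aMod L q γ) ^ 2) :
    tCocycles (gamChar χ) V →ₗ[R] tCocycles (gamChar χ') V where
  toFun f := ⟨twistFun hqL ε f.1, twistFun_mul hqL ε χ (gamChar χ') hχ f.2⟩
  map_add' f g := Subtype.ext (funext fun γ => twistFun_add hqL ε f.1 g.1 γ)
  map_smul' r f := Subtype.ext (funext fun γ => twistFun_smul hqL ε r f.1 γ)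

theorem twistZ_apply (hqL : q ∣ L) (ε : (ZMod q)ˣ →* Rˣ) (χ : (ZMod L)ˣ →* Rˣ)
    (χ' : (ZMod (L * q))ˣ →* Rˣ)
    (hχ : ∀ γ, gamChar χ (inclHom L q γ) = gamChar χ' γ * ε (aMod L q γ) ^ 2)
    (f : tCocycles (gamChar χ) V) (γ : Gamma0 (L * q)) :
    (twistZ hqL ε χ χ' hχ f).1 γ
      = ∑ u : (ZMod q)ˣ, (((ε u)⁻¹ : Rˣ) : R) • f.1 (twistCocyc hqL γ u) := rfl

theorem twistZ_delta (hqL : q ∣ L) (ε : (ZMod q)ˣ →* Rˣ) (χ : (ZMod L)ˣ →* Rˣ)
    (χ' : (ZMod (L * q))ˣ →* Rˣ)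
    (hχ : ∀ γ, gamChar χ (inclHom L q γ) = gamChar χ' γ * ε (aMod L q γ) ^ 2) (v : V) :
    twistZ hqL ε χ χ' hχ (tDelta (gamChar χ) V v)
      = tDelta (gamChar χ') V (∑ u : (ZMod q)ˣ, (((ε u)⁻¹ : Rˣ) : R) • v) := by
  refine Subtype.ext (funext fun γ => ?_)
  simp only [twistZ_apply, tDelta_apply, smul_sub, Finset.sum_sub_distrib, Finset.smul_sum]
  congr 1
  rw [← Equiv.sum_comp (twistPermEquiv γ)
    fun w => (gamChar χ' γ : R) • (((ε w)⁻¹ : Rˣ) : R) • v]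
  refine Finset.sum_congr rfl fun u _ => ?_
  rw [twistPermEquiv_apply, smul_smul, smul_smul, gamChar_apply χ, aUnit_twistCocyc,
    ← gamChar_apply, hχ, twistPerm, ← Units.val_mul, ← Units.val_mul]
  refine congrArg (fun w : Rˣ => (w : R) • v) ?_
  simp only [map_mul, map_pow, map_inv, mul_inv, inv_pow, inv_inv]
  rw [mul_comm, mul_assoc, mul_comm (ε (aMod L q γ) ^ 2)]

/-- The twist on twisted cohomology. -/
def twistH (hqL : q ∣ L) (ε : (ZMod q)ˣ →* Rˣ) (χ : (ZMod L)ˣ →* Rˣ)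
    (χ' : (ZMod (L * q))ˣ →* Rˣ)
    (hχ : ∀ γ, gamChar χ (inclHom L q γ) = gamChar χ' γ * ε (aMod L q γ) ^ 2) :
    tH1 (gamChar χ) V →ₗ[R] tH1 (gamChar χ') V :=
  Submodule.mapQ _ _ (twistZ hqL ε χ χ' hχ) (by
    rintro _ ⟨v, rfl⟩
    exact ⟨_, (twistZ_delta hqL ε χ χ' hχ v).symm⟩)

@[simp] theorem twistH_class (hqL : q ∣ L) (ε : (ZMod q)ˣ →* Rˣ) (χ : (ZMod L)ˣ →* Rˣ)
    (χ' : (ZMod (L * q))ˣ →* Rˣ)
    (hχ : ∀ γ, gamChar χ (inclHom L q γ) = gamChar χ' γ * ε (aMod L q γ) ^ 2)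
    (f : tCocycles (gamChar χ) V) :
    twistH (V := V) hqL ε χ χ' hχ (tClass (gamChar χ) V f)
      = tClass (gamChar χ') V (twistZ hqL ε χ χ' hχ f) := rfl

theorem eq_of_triReal {L : ℕ} {δ : Gamma0 L} {M M' : GL (Fin 2) ℝ} {t t' b b' : ℕ} {r r' : ℝ}
    (hM : (M : Matrix (Fin 2) (Fin 2) ℝ) = !![(t : ℝ), r; 0, (b : ℝ)])
    (hM' : (M' : Matrix (Fin 2) (Fin 2) ℝ) = !![(t' : ℝ), r'; 0, (b' : ℝ)])
    (ht : 0 < t) (ht' : 0 < t') (h : gamma0GL L δ * M = M') :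
    t = t' ∧ b = b' ∧ ∃ m : ℤ, r' = r + m * b := by
  have e : ∀ i j, ((gamma0GL L δ * M : GL (Fin 2) ℝ) : Matrix (Fin 2) (Fin 2) ℝ) i j = M' i j :=
    fun i j => by rw [h]
  have e00 := e 0 0
  have e01 := e 0 1
  have e10 := e 1 0
  have e11 := e 1 1
  simp [hM, hM', Matrix.mul_apply, Fin.sum_univ_two] at e00 e01 e10 e11
  have e00' : (δ : SL(2, ℤ)) 0 0 * t = t' := by exact_mod_cast e00
  have hC : (δ : SL(2, ℤ)) 1 0 = 0 := by
    rcases e10 with h | h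
    · exact_mod_cast h
    · omega
  have hdet : (δ : SL(2, ℤ)) 0 0 * (δ : SL(2, ℤ)) 1 1 = 1 := by
    have := (δ : SL(2, ℤ)).det_coe
    rw [Matrix.det_fin_two, hC, mul_zero, sub_zero] at this
    exact this
  have hA : (δ : SL(2, ℤ)) 0 0 = 1 := by
    rcases Int.eq_one_or_neg_one_of_mul_eq_one hdet with h1 | h1
    · exact h1
    · rw [h1] at e00'; omega
  rw [hA, one_mul] at hdet e00'
  rw [hA] at e01
  rw [hC, hdet] at e11
  push_cast at e01 e11
  exact ⟨by exact_mod_cast e00', by exact_mod_cast (by linarith : (b : ℝ) = b'),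
    ⟨(δ : SL(2, ℤ)) 0 1, by linarith⟩⟩

variable {ι : Type*} [Fintype ι] {A : HeckeReps (gamma0GL L) ι}
  {B : HeckeReps (gamma0GL (L * q)) ι} {l : ℕ}

omit [Fintype ι] [NeZero q] in
theorem rep_mul_shift (T : TriSystem A l) (x : ι) (r : ℝ) :
    ((A.rep x * shiftGL r : GL (Fin 2) ℝ) : Matrix (Fin 2) (Fin 2) ℝ)
      = !![(T.top x : ℝ), (T.top x : ℝ) * r + (T.shift x : ℝ); 0, (T.bot x : ℝ)] := by
  rw [Units.val_mul, T.rep_eq, val_shiftGL]
  ext i j
  fin_cases i <;> fin_cases j <;> simp [Matrix.mul_apply, Fin.sum_univ_two]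

omit [Fintype ι] [NeZero q] in
theorem shift_mul_rep (T : TriSystem B l) (x : ι) (r : ℝ) :
    ((shiftGL r * B.rep x : GL (Fin 2) ℝ) : Matrix (Fin 2) (Fin 2) ℝ)
      = !![(T.top x : ℝ), (T.shift x : ℝ) + r * (T.bot x : ℝ); 0, (T.bot x : ℝ)] := by
  rw [Units.val_mul, T.rep_eq, val_shiftGL]
  ext i j
  fin_cases i <;> fin_cases j <;> simp [Matrix.mul_apply, Fin.sum_univ_two]

omit [Fintype ι] in
theorem TriSystem.twist_uniq (T : TriSystem B l) (hl : 0 < l) (hlq : l.Coprime q)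
    (z w : (ZMod q)ˣ × ι) (δ : Gamma0 L)
    (h : gamma0GL L δ * (shiftGL (((z.1 : ZMod q).val : ℝ) / q) * B.rep z.2)
      = shiftGL (((w.1 : ZMod q).val : ℝ) / q) * B.rep w.2) : z = w := by
  obtain ⟨ht, hb, m, hm⟩ := eq_of_triReal (shift_mul_rep T z.2 _) (shift_mul_rep T w.2 _)
    (T.pos hl _).1 (T.pos hl _).1 h
  rw [← hb] at hm
  have hq : (q : ℝ) ≠ 0 := Nat.cast_ne_zero.mpr (NeZero.ne q)
  have hZ : (T.shift w.2 : ℤ) * q + ((w.1 : ZMod q).val : ℤ) * T.bot z.2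
      = (T.shift z.2 : ℤ) * q + ((z.1 : ZMod q).val : ℤ) * T.bot z.2 + m * T.bot z.2 * q := by
    apply Int.cast_injective (α := ℝ)
    push_cast
    field_simp at hm
    linear_combination hm
  have hunit : IsUnit ((T.bot z.2 : ℕ) : ZMod q) :=
    (ZMod.isUnit_iff_coprime _ _).mpr (Nat.Coprime.of_dvd_left (Dvd.intro_left _ (T.det_eq _)) hlq)
  have h1 : z.1 = w.1 := by
    refine Units.ext (hunit.mul_left_cancel ?_)
    have := congrArg (Int.cast : ℤ → ZMod q) hZ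
    push_cast at this
    rw [ZMod.natCast_self, ZMod.natCast_zmod_val, ZMod.natCast_zmod_val] at this
    linear_combination -this
  refine Prod.ext h1 (T.inj _ _ ht ⟨-m, ?_⟩)
  rw [h1] at hZ
  have hq' : (q : ℤ) ≠ 0 := Int.natCast_ne_zero.mpr (NeZero.ne q)
  refine mul_right_cancel₀ hq' ?_
  linear_combination -hZ

variable (SA : TriSystem A l) (SB : TriSystem B l)

omit [Fintype ι] in
theorem TriSystem.exists_twist_swap (hlq : l.Coprime q) (hl : 0 < l)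
    (htop : ∀ x, SA.top x = SB.top x) (z : (ZMod q)ˣ × ι) :
    ∃ (w : (ZMod q)ˣ × ι) (δ : Gamma0 L),
      A.rep z.2 * shiftGL (((z.1 : ZMod q).val : ℝ) / q)
        = gamma0GL L δ * (shiftGL (((w.1 : ZMod q).val : ℝ) / q) * B.rep w.2) ∧
      SB.top w.2 = SA.top z.2 ∧ aUnit L δ = 1 ∧
      (w.1 : ZMod q) * (SA.bot z.2 : ZMod q) = (SA.top z.2 : ZMod q) * (z.1 : ZMod q) := by
  have hbot : ∀ x, SA.bot x = SB.bot x := fun x => by
    have h := (SA.det_eq x).trans (SB.det_eq x).symm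
    rw [htop] at h
    exact mul_left_cancel₀ (SB.pos hl x).1.ne' h
  obtain ⟨hu, hu'⟩ :
      IsUnit ((SA.top z.2 : ℕ) : ZMod q) ∧ IsUnit ((SA.bot z.2 : ℕ) : ZMod q) :=
    ⟨(ZMod.isUnit_iff_coprime _ _).mpr (Nat.Coprime.of_dvd_left (Dvd.intro _ (SA.det_eq _)) hlq),
      (ZMod.isUnit_iff_coprime _ _).mpr
        (Nat.Coprime.of_dvd_left (Dvd.intro_left _ (SA.det_eq _)) hlq)⟩
  let v : (ZMod q)ˣ := hu'.unit⁻¹ * hu.unit * z.1
  have hv : (v : ZMod q) * (SA.bot z.2 : ZMod q) = (SA.top z.2 : ZMod q) * (z.1 : ZMod q) := by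
    have h1 : ((hu'.unit⁻¹ : (ZMod q)ˣ) : ZMod q) * (hu'.unit : ZMod q) = 1 := Units.inv_mul _
    simp only [v, Units.val_mul, IsUnit.unit_spec] at h1 ⊢
    linear_combination ((SA.top z.2 : ZMod q) * (z.1 : ZMod q)) * h1
  obtain ⟨n, hn⟩ : (q : ℤ) ∣ (SA.top z.2 : ℤ) * ((z.1 : ZMod q).val : ℤ)
      - ((v : ZMod q).val : ℤ) * SA.bot z.2 := by
    rw [← ZMod.intCast_zmod_eq_zero_iff_dvd]
    push_cast
    rw [ZMod.natCast_zmod_val, ZMod.natCast_zmod_val, hv, sub_self]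
  obtain ⟨y, hy1, hy2, m, hm⟩ := SB.surj z.2 ((SA.shift z.2 : ℤ) + n)
  replace hy1 := hy1.trans (htop z.2).symm
  replace hy2 := hy2.trans (hbot z.2).symm
  rw [← hbot] at hm
  let N : Matrix (Fin 2) (Fin 2) ℤ := !![1, -m; 0, 1]
  refine ⟨(v, y), ⟨⟨N, by simp [N, Matrix.det_fin_two_of]⟩, mem_Gamma0_of_dvd (by simp [N])⟩,
    ?_, hy1, Units.ext (by simp [N]), hv⟩
  apply Units.ext
  rw [rep_mul_shift SA, Units.val_mul, shift_mul_rep SB, hy1, hy2]
  have hq : (q : ℝ) ≠ 0 := Nat.cast_ne_zero.mpr (NeZero.ne q)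
  have hnR : (SA.top z.2 : ℝ) * ((z.1 : ZMod q).val : ℝ)
      - ((v : ZMod q).val : ℝ) * (SA.bot z.2 : ℝ) = (q : ℝ) * n := by exact_mod_cast hn
  have hmR : (SB.shift y : ℝ) - ((SA.shift z.2 : ℝ) + n) = (SA.bot z.2 : ℝ) * m := by
    exact_mod_cast hm
  ext i j
  fin_cases i <;> fin_cases j <;>
    simp [N, Matrix.mul_apply, Fin.sum_univ_two, -ZMod.natCast_val]
  field_simp
  linear_combination hnR - (q : ℝ) * hmR

include SA SB in
/-- The twist intertwines twisted operators of degree prime to `q`, up to a scalar. -/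
theorem TriSystem.twistH_op (hqL : q ∣ L) (ε : (ZMod q)ˣ →* Rˣ) (χ : (ZMod L)ˣ →* Rˣ)
    (χ' : (ZMod (L * q))ˣ →* Rˣ)
    (hχ : ∀ γ, gamChar χ (inclHom L q γ) = gamChar χ' γ * ε (aMod L q γ) ^ 2)
    (hlq : l.Coprime q) (hl : 0 < l) (htop : ∀ x, SA.top x = SB.top x)
    {a b : ι → Rˣ} (ha : IsWeight (gamChar χ) A a) (hb : IsWeight (gamChar χ') B b) (κ : Rˣ)
    (hwt : ∀ x y (u v : (ZMod q)ˣ), SA.top x = SB.top y →
      (v : ZMod q) * (SA.bot x : ZMod q) = (SA.top x : ZMod q) * (u : ZMod q) →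
      (ε u)⁻¹ * a x = κ * (b y * (ε v)⁻¹))
    (c : tH1 (gamChar χ) V) :
    twistH (V := V) hqL ε χ χ' hχ (ha.op V c) = (κ : R) • hb.op V (twistH (V := V) hqL ε χ χ' hχ c) := by
  obtain ⟨f, rfl⟩ := tClass_surjective (gamChar χ) c
  rw [IsWeight.op_class, twistH_class, twistH_class, IsWeight.op_class, ← sub_eq_zero,
    ← map_smul, ← map_sub, tClass_eq_zero_iff]
  choose σ d hd htopw ha1 hv using SA.exists_twist_swap SB hlq hl htop
  have hσ : Function.Bijective σ := by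
    refine Finite.injective_iff_bijective.mp fun z w hzw => ?_
    have h : gamma0GL L (d w * (d z)⁻¹) * (A.rep z.2 * shiftGL (((z.1 : ZMod q).val : ℝ) / q))
        = A.rep w.2 * shiftGL (((w.1 : ZMod q).val : ℝ) / q) := by
      rw [hd, hd, hzw, map_mul, map_inv, mul_assoc, inv_mul_cancel_left]
    obtain ⟨ht, hbb, m, hm⟩ := eq_of_triReal (rep_mul_shift SA z.2 _) (rep_mul_shift SA w.2 _)
      (SA.pos hl _).1 (SA.pos hl _).1 h
    have h1 : z.1 = w.1 := by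
      have h2 := hv z
      rw [hzw, hbb, ht, hv w] at h2
      refine Units.ext ((ZMod.isUnit_iff_coprime _ _).mpr
        (Nat.Coprime.of_dvd_left (Dvd.intro _ (SA.det_eq w.2)) hlq) |>.mul_left_cancel h2.symm)
    rw [h1, ← ht] at hm
    refine Prod.ext h1 (SA.inj _ _ ht ⟨-m, ?_⟩)
    apply Int.cast_injective (α := ℝ)
    push_cast
    linarith
  refine ⟨-∑ z : (ZMod q)ˣ × ι, (((ε z.1)⁻¹ * a z.2 : Rˣ) : R) • f.1 (d z),
    Subtype.ext (funext fun γ => ?_)⟩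
  let pP : (ZMod q)ˣ × ι → (ZMod q)ˣ × ι := fun z =>
    (twistPerm γ z.1, A.perm (twistCocyc hqL γ z.1) z.2)
  let pQ : (ZMod q)ˣ × ι → (ZMod q)ˣ × ι := fun z =>
    (twistPerm (B.cocyc γ z.2) z.1, B.perm γ z.2)
  have hpP : Function.Bijective pP := by
    refine Finite.injective_iff_bijective.mp fun z w hzw => ?_
    have h1 : z.1 = w.1 := (twistPermEquiv γ).injective (congrArg Prod.fst hzw)
    have h2 := congrArg Prod.snd hzw
    simp only [pP, h1] at h2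
    exact Prod.ext h1 (A.perm_injective _ h2)
  have hcmp := sum_compare (e := gamma0GL L) (χ := gamChar χ) gamma0GL_injective
    (fun z : (ZMod q)ˣ × ι => A.rep z.2 * shiftGL (((z.1 : ZMod q).val : ℝ) / q))
    (fun z => shiftGL (((z.1 : ZMod q).val : ℝ) / q) * B.rep z.2) pP pQ
    (fun z => A.cocyc (twistCocyc hqL γ z.1) z.2)
    (fun z => twistCocyc hqL (B.cocyc γ z.2) z.1) (gamma0GL (L * q) γ)
    (fun z => by rw [mul_assoc, twistCocyc_spec, ← mul_assoc, A.rep_mul, mul_assoc])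
    (fun z => by rw [mul_assoc, B.rep_mul, ← mul_assoc, twistCocyc_spec, mul_assoc])
    (Equiv.ofBijective σ hσ) d hd (fun z w δ => SB.twist_uniq hl hlq z w δ)
    (fun z => (ε z.1)⁻¹ * a z.2) (fun z => κ * (b z.2 * (ε z.1)⁻¹))
    (fun z => by
      rw [gamChar_apply, ha1, map_one, mul_one]
      exact hwt _ _ _ _ (htopw z).symm (hv z))
    (gamChar χ' γ)
    (fun z => by
      show (ε z.1)⁻¹ * a z.2 * gamChar χ (A.cocyc (twistCocyc hqL γ z.1) z.2)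
        = gamChar χ' γ * ((ε (twistPerm γ z.1))⁻¹ * a (A.perm (twistCocyc hqL γ z.1) z.2))
      rw [mul_assoc, ha.compat, ← mul_assoc, ← mul_assoc, gamChar_apply χ, aUnit_twistCocyc,
        ← gamChar_apply χ, hχ, twistPerm]
      refine congrArg (· * _) ?_
      simp only [map_mul, map_pow, map_inv, mul_inv, inv_pow, inv_inv]
      rw [mul_comm, mul_assoc, mul_comm (ε (aMod L q γ) ^ 2)])
    hpP f
  have hL : (twistZ hqL ε χ χ' hχ (ha.opZ V f)).1 γ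
      = ∑ z : (ZMod q)ˣ × ι,
          (((ε z.1)⁻¹ * a z.2 : Rˣ) : R) • f.1 (A.cocyc (twistCocyc hqL γ z.1) z.2) := by
    simp only [twistZ_apply, IsWeight.opZ_apply, Finset.smul_sum, smul_smul, Units.val_mul,
      Fintype.sum_prod_type]
  have hR : (κ : R) • (hb.opZ V (twistZ hqL ε χ χ' hχ f)).1 γ
      = ∑ z : (ZMod q)ˣ × ι,
          ((κ * (b z.2 * (ε z.1)⁻¹) : Rˣ) : R) • f.1 (twistCocyc hqL (B.cocyc γ z.2) z.1) := by
    simp only [twistZ_apply, IsWeight.opZ_apply, Finset.smul_sum, smul_smul, Units.val_mul,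
      Fintype.sum_prod_type_right, mul_assoc]
  rw [tDelta_apply, Submodule.coe_sub, Submodule.coe_smul, Pi.sub_apply, Pi.smul_apply, hL, hR,
    hcmp, smul_neg]
  abel

section instances

variable {p : ℕ} (hqL : q ∣ L) (ε : (ZMod q)ˣ →* Rˣ) (χ : (ZMod L)ˣ →* Rˣ)
  (χ' : (ZMod (L * q))ˣ →* Rˣ)
  (hχ : ∀ γ, gamChar χ (inclHom L q γ) = gamChar χ' γ * ε (aMod L q γ) ^ 2)

/-- The twist intertwines `T_p` with `ε(p)⁻¹ T_p`. -/
theorem twistH_opT [hp : Fact p.Prime] (hpL : ¬ p ∣ L) (hpL' : ¬ p ∣ L * q) (hc : p.Coprime L)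
    (hc' : p.Coprime (L * q)) (hcq : p.Coprime q)
    (hχp : χ (ZMod.unitOfCoprime p hc)
      = χ' (ZMod.unitOfCoprime p hc') * ε (ZMod.unitOfCoprime p hcq) ^ 2)
    (ha : IsWeight (gamChar χ) (repsT hpL) (hwT χ hc))
    (hb : IsWeight (gamChar χ') (repsT hpL') (hwT χ' hc')) (c : tH1 (gamChar χ) V) :
    twistH (V := V) hqL ε χ χ' hχ (ha.op V c)
      = (((ε (ZMod.unitOfCoprime p hcq))⁻¹ : Rˣ) : R) •
          hb.op V (twistH (V := V) hqL ε χ χ' hχ c) := by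
  refine TriSystem.twistH_op (triT hpL) (triT hpL') hqL ε χ χ' hχ hcq hp.out.pos (fun _ => rfl)
    ha hb _ (fun x y u v hxy huv => ?_) c
  have hyx := hwT_congr χ' hpL' hc' y x hxy.symm
  rw [hyx]
  induction x using OnePoint.rec with
  | infty =>
    have hv : v = ZMod.unitOfCoprime p hcq * u := Units.ext (by simpa [triT] using huv)
    show (ε u)⁻¹ * (χ (ZMod.unitOfCoprime p hc))⁻¹
      = (ε (ZMod.unitOfCoprime p hcq))⁻¹ * ((χ' (ZMod.unitOfCoprime p hc'))⁻¹ * (ε v)⁻¹)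
    rw [hχp, hv, map_mul]
    simp only [← mul_inv]
    refine congrArg (·⁻¹) ?_
    rw [pow_two]
    ac_rfl
  | coe j =>
    have hv : u = v * ZMod.unitOfCoprime p hcq := Units.ext (by simpa [triT] using huv.symm)
    show (ε u)⁻¹ * (1 : Rˣ) = (ε (ZMod.unitOfCoprime p hcq))⁻¹ * ((1 : Rˣ) * (ε v)⁻¹)
    rw [hv, map_mul, one_mul, mul_one, mul_inv_rev]

/-- The twist intertwines `U_p` with `ε(p)⁻¹ U_p`. -/
theorem twistH_opU [NeZero p] (hpL : p ∣ L) (hpL' : p ∣ L * q) (hcq : p.Coprime q)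
    (ha : IsWeight (gamChar χ) (repsU hpL) 1)
    (hb : IsWeight (gamChar χ') (repsU hpL') 1) (c : tH1 (gamChar χ) V) :
    twistH (V := V) hqL ε χ χ' hχ (ha.op V c)
      = (((ε (ZMod.unitOfCoprime p hcq))⁻¹ : Rˣ) : R) •
          hb.op V (twistH (V := V) hqL ε χ χ' hχ c) := by
  refine TriSystem.twistH_op (triU hpL) (triU hpL') hqL ε χ χ' hχ hcq (NeZero.pos p)
    (fun _ => rfl) ha hb _ (fun x y u v _ huv => ?_) c
  have hv : u = v * ZMod.unitOfCoprime p hcq := Units.ext (by simpa [triU] using huv.symm)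
  rw [hv, map_mul, Pi.one_apply, Pi.one_apply, one_mul, mul_one, mul_inv_rev]

end instances

end FLTA.RT
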