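import Fermat.Agent.RT.CoeffTwistInj
import Fermat.Agent.RT.CoeffTwistHecke
import Fermat.Agent.RT.FreeGamma0
import Fermat.Agent.RT.CoeffBase

/-!
# Iterated twists

For a character `χ = ∏ q ∈ Q₀, (ε q ∘ a)²` at primes `q` exactly dividing `L` and a field `K` of
characteristic zero, twisted cohomology embeds into `Hom(Γ₀(N), K)` for a level `N` dividing
`L * ∏ Q₀`; the operator `(∏ ε q (l)) • T_l` becomes `T_l`.
-/

set_option autoImplicit false

noncomputable section

universe u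

namespace FLTA.RT

open CongruenceSubgroup FLTA.Periods FLTA.LevelRaising
open scoped MatrixGroups

variable {R : Type u} [CommRing R]

open Classical in
/-- A character modulo `q` seen modulo `L`. -/
def sigChar (L : ℕ) {q : ℕ} (ε : (ZMod q)ˣ →* Rˣ) : (ZMod L)ˣ →* Rˣ :=
  if h : q ∣ L then ε.comp (ZMod.unitsMap h) else 1

/-- The value at `l` of a character modulo `q`. -/
def epsAt {q : ℕ} (ε : (ZMod q)ˣ →* Rˣ) (l : ℕ) : Rˣ :=
  if h : l.Coprime q then ε (ZMod.unitOfCoprime l h) else 1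

/-- The coefficient character attached to a family of characters. -/
def sigProd (L : ℕ) (Q₀ : Finset ℕ) (ε : ∀ q : ℕ, (ZMod q)ˣ →* Rˣ) : (ZMod L)ˣ →* Rˣ :=
  ∏ q ∈ Q₀, sigChar L (ε q) ^ 2

/-- The normalising factor of `T_l`. -/
def kap (Q₀ : Finset ℕ) (ε : ∀ q : ℕ, (ZMod q)ˣ →* Rˣ) (l : ℕ) : Rˣ :=
  ∏ q ∈ Q₀, epsAt (ε q) l

theorem sigChar_of_dvd {L q : ℕ} (ε : (ZMod q)ˣ →* Rˣ) (h : q ∣ L) (x : (ZMod L)ˣ) :
    sigChar L ε x = ε (ZMod.unitsMap h x) := by
  rw [sigChar, dif_pos h]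
  rfl

theorem sigChar_unitsMap {L M q : ℕ} (ε : (ZMod q)ˣ →* Rˣ) (hqL : q ∣ L) (h : L ∣ M)
    (x : (ZMod M)ˣ) : sigChar L ε (ZMod.unitsMap h x) = sigChar M ε x := by
  rw [sigChar_of_dvd ε hqL, sigChar_of_dvd ε (hqL.trans h)]
  exact congrArg ε (DFunLike.congr_fun (ZMod.unitsMap_comp hqL h) x)

theorem aUnit_incl {L q : ℕ} (γ : Gamma0 (L * q)) :
    aUnit L (inclHom L q γ) = ZMod.unitsMap (dvd_mul_right L q) (aUnit (L * q) γ) :=
  Units.ext (by simp [ZMod.unitsMap_def])

theorem unitsMap_unitOfCoprime {L q l : ℕ} (h : q ∣ L) (hl : l.Coprime L) :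
    ZMod.unitsMap h (ZMod.unitOfCoprime l hl) = ZMod.unitOfCoprime l (hl.coprime_dvd_right h) :=
  Units.ext (by simp [ZMod.unitsMap_def])

theorem sigChar_unitOfCoprime {L q l : ℕ} (ε : (ZMod q)ˣ →* Rˣ) (h : q ∣ L) (hl : l.Coprime L) :
    sigChar L ε (ZMod.unitOfCoprime l hl) = epsAt ε l := by
  rw [sigChar_of_dvd ε h, unitsMap_unitOfCoprime, epsAt, dif_pos (hl.coprime_dvd_right h)]

theorem sigProd_apply (L : ℕ) (Q₀ : Finset ℕ) (ε : ∀ q : ℕ, (ZMod q)ˣ →* Rˣ) (x : (ZMod L)ˣ) :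
    sigProd L Q₀ ε x = ∏ q ∈ Q₀, sigChar L (ε q) x ^ 2 := by
  simp [sigProd, MonoidHom.finsetProd_apply]

theorem sigProd_unitOfCoprime {L l : ℕ} {Q₀ : Finset ℕ} (ε : ∀ q : ℕ, (ZMod q)ˣ →* Rˣ)
    (hQ : ∀ q ∈ Q₀, q ∣ L) (hl : l.Coprime L) :
    sigProd L Q₀ ε (ZMod.unitOfCoprime l hl) = kap Q₀ ε l ^ 2 := by
  rw [sigProd_apply, kap, ← Finset.prod_pow]
  exact Finset.prod_congr rfl fun q hq => by rw [sigChar_unitOfCoprime _ (hQ q hq)]

theorem kap_eq_one {L l : ℕ} {Q₀ : Finset ℕ} (ε : ∀ q : ℕ, (ZMod q)ˣ →* Rˣ)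
    (hQ : ∀ q ∈ Q₀, q ∣ L) (hl : (l : ZMod L) = 1) : kap Q₀ ε l = 1 := by
  refine Finset.prod_eq_one fun q hq => ?_
  unfold epsAt
  split_ifs with h
  · rw [show ZMod.unitOfCoprime l h = 1 from Units.ext (by
      have e := congrArg (ZMod.castHom (hQ q hq) (ZMod q)) hl
      rw [map_natCast, map_one] at e
      exact e), map_one]
  · rfl

theorem charMap_sigProd {R' : Type u} [CommRing R'] (φ : R →+* R') (L : ℕ) (Q₀ : Finset ℕ)
    (ε : ∀ q : ℕ, (ZMod q)ˣ →* Rˣ) :
    charMap φ (sigProd L Q₀ ε) = sigProd L Q₀ fun q => charMap φ (ε q) := by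
  refine MonoidHom.ext fun x => ?_
  rw [sigProd_apply, show charMap φ (sigProd L Q₀ ε) x
      = Units.map (φ : R →* R') (sigProd L Q₀ ε x) from rfl, sigProd_apply, map_prod]
  refine Finset.prod_congr rfl fun q _ => ?_
  rw [map_pow, sigChar, sigChar]
  split_ifs <;> simp [charMap]

theorem coe_kap_charMap {R' : Type u} [CommRing R'] (φ : R →+* R') (Q₀ : Finset ℕ)
    (ε : ∀ q : ℕ, (ZMod q)ˣ →* Rˣ) (l : ℕ) :
    (kap Q₀ (fun q => charMap φ (ε q)) l : R') = φ (kap Q₀ ε l : R) := by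
  simp only [kap, Units.coe_prod, map_prod]
  refine Finset.prod_congr rfl fun q _ => ?_
  unfold epsAt
  split_ifs <;> simp

variable {K : Type u} [Field K] [CharZero K]

/-- Iterated twisting. -/
theorem exists_realisation (Q₀ : Finset ℕ) :
    ∀ (L : ℕ) [NeZero L] (ε : ∀ q : ℕ, (ZMod q)ˣ →* Kˣ),
      (∀ q ∈ Q₀, q.Prime ∧ q ∣ L ∧ ¬ q * q ∣ L) → (∀ q ∈ Q₀, ε q ^ 2 = 1 → ε q = 1) →
      ∀ χ : (ZMod L)ˣ →* Kˣ, χ = sigProd L Q₀ ε →
      ∃ (N : ℕ) (_ : NeZero N) (P : ℕ), N * P = L * (∏ q ∈ Q₀, q) ∧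
        ∃ J : tH1 (gamChar χ) K →ₗ[K] (Additive (Gamma0 N) →+ K), Function.Injective J ∧
          ∀ l : ℕ, l.Prime → ¬ l ∣ L → ∀ x,
            J ((kap Q₀ ε l : K) • (natHecke χ l).app K x) = heckeHom K N l (J x) := by
  classical
  induction Q₀ using Finset.induction_on with
  | empty =>
    intro L _ ε _ _ χ hχ
    have htriv : ∀ γ (v : K), (gamChar χ γ : K) • v = v := fun γ v => by
      rw [hχ, gamChar_apply, sigProd_apply, Finset.prod_empty, Units.val_one, one_smul]
    refine ⟨L, inferInstance, 1, by simp, (tH1EquivHom htriv).toLinearMap,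
      (tH1EquivHom htriv).injective, fun l hl _ x => ?_⟩
    rw [show kap ∅ ε l = 1 from Finset.prod_empty, Units.val_one, one_smul]
    exact tH1EquivHom_natHecke χ htriv hl x
  | @insert q s hqs ih =>
    intro L _ ε hQ hodd χ hχ
    obtain ⟨hqp, hqL, hqq⟩ := hQ q (Finset.mem_insert_self q s)
    have hs : ∀ r ∈ s, r.Prime ∧ r ∣ L ∧ ¬ r * r ∣ L := fun r hr =>
      hQ r (Finset.mem_insert_of_mem hr)
    by_cases hε : ε q = 1
    · -- nothing to twist
      have hχ' : χ = sigProd L s ε := by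
        refine hχ.trans (MonoidHom.ext fun y => ?_)
        rw [sigProd_apply, sigProd_apply, Finset.prod_insert hqs, sigChar_of_dvd _ hqL, hε,
          MonoidHom.one_apply, one_pow, one_mul]
      obtain ⟨N, hN, P, hNP, J, hJ, hJT⟩ := ih L ε hs
        (fun r hr => hodd r (Finset.mem_insert_of_mem hr)) χ hχ'
      refine ⟨N, hN, P * q, ?_, J, hJ, fun l hl hlL x => ?_⟩
      · rw [← mul_assoc, hNP, Finset.prod_insert hqs]
        ring
      · have : epsAt (ε q) l = 1 := by
          unfold epsAt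
          split_ifs <;> simp [hε]
        rw [kap, Finset.prod_insert hqs, this, one_mul]
        exact hJT l hl hlL x
    · -- twist away the component at `q`
      have := Fact.mk hqp
      have : NeZero q := ⟨hqp.ne_zero⟩
      have : NeZero (L * q) := ⟨mul_ne_zero (NeZero.ne L) hqp.ne_zero⟩
      obtain ⟨L', hL'⟩ := hqL
      have hL : L = L' * q := hL'.trans (mul_comm q L')
      have hqL : q ∣ L := ⟨L', hL'⟩
      have hcop : L'.Coprime q := ((hqp.coprime_iff_not_dvd).mpr fun h =>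
        hqq (hL' ▸ mul_dvd_mul_left q h)).symm
      have hL0 : L' ≠ 0 := fun h => NeZero.ne L (by rw [hL', h, mul_zero])
      have hne : ∀ r ∈ s, r ≠ q := fun r hr h => hqs (h ▸ hr)
      have hs' : ∀ r ∈ s, r.Prime ∧ r ∣ L * q ∧ ¬ r * r ∣ L * q := fun r hr =>
        ⟨(hs r hr).1, dvd_mul_of_dvd_left (hs r hr).2.1 q, fun h => (hs r hr).2.2
          ((Nat.Coprime.dvd_of_dvd_mul_right (by
            have hco := (Nat.coprime_primes (hs r hr).1 hqp).mpr (hne r hr)
            exact Nat.Coprime.mul_left hco hco) h))⟩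
      set χ' : (ZMod (L * q))ˣ →* Kˣ := sigProd (L * q) s ε
      have hsplit : ∀ y, χ y = sigChar L (ε q) y ^ 2 * sigProd L s ε y := fun y => by
        rw [hχ, sigProd_apply, sigProd_apply, Finset.prod_insert hqs]
      have hχ' : ∀ γ, gamChar χ (inclHom L q γ) = gamChar χ' γ * ε q (aMod L q γ) ^ 2 := by
        intro γ
        rw [gamChar_apply, gamChar_apply, hsplit, aUnit_incl, mul_comm]
        refine congrArg₂ (· * ·) ?_ ?_
        · rw [sigProd_apply, sigProd_apply]
          exact Finset.prod_congr rfl fun r hr => by rw [sigChar_unitsMap _ (hs r hr).2.1]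
        · rw [sigChar_unitsMap _ hqL, sigChar_of_dvd _ (dvd_mul_left q L)]
          rfl
      obtain ⟨N, hN, P, hNP, J, hJ, hJT⟩ := ih (L * q) ε hs'
        (fun r hr => hodd r (Finset.mem_insert_of_mem hr)) χ' rfl
      -- an element seeing only the component at `q`
      obtain ⟨v, hv⟩ : ∃ v, ε q v ^ 2 ≠ 1 := by
        by_contra! h
        exact hε (hodd q (Finset.mem_insert_self q s) (MonoidHom.ext fun v => by simpa using h v))
      obtain ⟨x, hx1, hx2⟩ : ∃ x : (ZMod L)ˣ, ZMod.unitsMap (Dvd.intro q hL.symm) x = 1 ∧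
          ZMod.unitsMap hqL x = v := by
        subst hL
        let e := ZMod.chineseRemainder hcop
        refine ⟨(Units.mapEquiv e.toMulEquiv).symm (MulEquiv.prodUnits.symm (1, v)), ?_, ?_⟩
        · refine Units.ext ?_
          have := RingHom.congr_fun (RingHom.ext_zmod ((RingHom.fst _ _).comp e.toRingHom)
            (ZMod.castHom (dvd_mul_right L' q) (ZMod L'))) (e.symm (1, (v : ZMod q)))
          show ZMod.castHom (dvd_mul_right L' q) (ZMod L') (e.symm (1, (v : ZMod q))) = 1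
          rw [← this, RingHom.comp_apply, RingEquiv.toRingHom_eq_coe, RingHom.coe_coe,
            RingEquiv.apply_symm_apply]
          rfl
        · refine Units.ext ?_
          have := RingHom.congr_fun (RingHom.ext_zmod ((RingHom.snd _ _).comp e.toRingHom)
            (ZMod.castHom (dvd_mul_left q L') (ZMod q))) (e.symm (1, (v : ZMod q)))
          show ZMod.castHom (dvd_mul_left q L') (ZMod q) (e.symm (1, (v : ZMod q))) = v
          rw [← this, RingHom.comp_apply, RingEquiv.toRingHom_eq_coe, RingHom.coe_coe,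
            RingEquiv.apply_symm_apply]
          rfl
      have hχx : χ x ≠ 1 := by
        rw [hsplit, sigChar_of_dvd _ hqL, hx2, sigProd_apply, Finset.prod_eq_one fun r hr => ?_,
          mul_one]
        · exact hv
        · have hrL' : r ∣ L' := ((Nat.coprime_primes (hs r hr).1 hqp).mpr (hne r hr)
            ).dvd_of_dvd_mul_right (hL ▸ (hs r hr).2.1)
          rw [← sigChar_unitsMap _ hrL' (Dvd.intro q hL.symm), hx1, map_one, one_pow]
      refine ⟨N, hN, P, ?_, J.comp (twistH (V := K) hqL (ε q) χ χ' hχ'),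
        hJ.comp (twistH_injective hL hL0 hcop hqL (ε q) hε χ χ' hχ' x hx1 hχx),
        fun l hl hlL y => ?_⟩
      · rw [hNP, Finset.prod_insert hqs, mul_assoc]
      · haveI := Fact.mk hl
        haveI : NeZero l := ⟨hl.ne_zero⟩
        have hlq : l.Coprime q :=
          (Nat.coprime_primes hl hqp).mpr fun h => hlL (h ▸ hqL)
        have hlL' : ¬ l ∣ L * q := fun h => (hl.dvd_mul.mp h).elim hlL
          (hl.coprime_iff_not_dvd.mp hlq)
        have hχl : χ (ZMod.unitOfCoprime l (coprime_of_not_dvd hlL))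
            = χ' (ZMod.unitOfCoprime l (coprime_of_not_dvd hlL'))
              * ε q (ZMod.unitOfCoprime l hlq) ^ 2 := by
          rw [hsplit, sigChar_unitOfCoprime _ hqL,
            sigProd_unitOfCoprime _ (fun r hr => (hs r hr).2.1),
            sigProd_unitOfCoprime _ (fun r hr => (hs' r hr).2.1), epsAt, dif_pos hlq, mul_comm]
        rw [LinearMap.comp_apply, LinearMap.comp_apply, map_smul, natHecke_of_not_dvd χ hlL]
        show J ((kap (insert q s) ε l : K) • twistH (V := K) hqL (ε q) χ χ' hχ'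
          ((isWeight_T χ hlL (coprime_of_not_dvd hlL)).op K y)) = _
        rw [twistH_opT hqL (ε q) χ χ' hχ' hlL hlL' (coprime_of_not_dvd hlL)
          (coprime_of_not_dvd hlL') hlq hχl (isWeight_T χ hlL _) (isWeight_T χ' hlL' _),
          smul_smul, ← Units.val_mul, kap, Finset.prod_insert hqs, epsAt, dif_pos hlq,
          mul_comm (ε q _), mul_inv_cancel_right, ← hJT l hl hlL' _, kap,
          natHecke_of_not_dvd χ' hlL']
        rfl

end FLTA.RT
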