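import Fermat.Agent.RT.DiscTrans
import Fermat.Agent.RT.CoeffTwistHecke
import Fermat.Agent.RT.Diamond.TwistOld
import Fermat.Agent.RT.Diamond.Twist

/-!
# The twist commutes with the two traces at a prime not dividing the level

For `r ∣ L` and a prime `q ∤ L` the trace along a side at `q` and the twist by a character modulo
`r` commute up to a unit, the transversal being congruent to `1` modulo `L r`.
-/

set_option autoImplicit false

noncomputable section

open CongruenceSubgroup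
open scoped MatrixGroups

universe u

namespace FLTA.RT.Disc

open FLTA.Periods FLTA.LevelRaising

/-- The identity between two names of the same level. -/
def castGamma {A B : ℕ} (h : B = A) : Gamma0 B →* Gamma0 A where
  toFun γ := ⟨(γ : SL(2, ℤ)), h ▸ γ.2⟩
  map_one' := rfl
  map_mul' _ _ := rfl

theorem gamma0GL_castGamma {A B : ℕ} (h : B = A) (γ : Gamma0 B) :
    gamma0GL A (castGamma h γ) = gamma0GL B γ := rfl

variable {q r : ℕ} [NeZero q] [Fact r.Prime] {L : ℕ} {R : Type u} [CommRing R]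

/-- The twist between two named levels. -/
def twistSys {A B : ℕ} (hrA : r ∣ A) (hB : B = A * r) (ε : (ZMod r)ˣ →* Rˣ)
    (χ : (ZMod A)ˣ →* Rˣ) (χ' : (ZMod B)ˣ →* Rˣ)
    (hχ : ∀ γ : Gamma0 B, gamChar χ (inclHom A r (castGamma hB γ)) =
      gamChar χ' γ * ε (aMod A r (castGamma hB γ)) ^ 2) :
    TSys (gamma0GL B) (gamma0GL A) (gamChar χ') (gamChar χ) (ZMod r)ˣ where
  rep u := shiftGL (((u : ZMod r).val : ℝ) / r)
  perm γ := twistPermEquiv (castGamma hB γ)
  cocyc γ := twistCocyc hrA (castGamma hB γ)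
  rep_mul γ u := by
    rw [← gamma0GL_castGamma hB, twistPermEquiv_apply]
    exact twistCocyc_spec hrA _ u
  cocyc_mul g h u := by
    rw [map_mul, twistCocyc_mul]
    rfl
  perm_mul g h u := by
    rw [map_mul, twistPermEquiv_apply, twistPermEquiv_apply, twistPermEquiv_apply, twistPerm_mul]
  w u := (ε u)⁻¹
  compat γ u := by
    rw [gamChar_apply χ, aUnit_twistCocyc, ← gamChar_apply, hχ, twistPermEquiv_apply, twistPerm]
    simp only [map_mul, map_pow, map_inv, mul_inv, inv_pow, inv_inv]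
    rw [mul_left_comm]

theorem twistSys_op {A : ℕ} (hrA : r ∣ A) (ε : (ZMod r)ˣ →* Rˣ) (χ : (ZMod A)ˣ →* Rˣ)
    (χ' : (ZMod (A * r))ˣ →* Rˣ)
    (hχ : ∀ γ, gamChar χ (inclHom A r γ) = gamChar χ' γ * ε (aMod A r γ) ^ 2)
    {V : Type u} [AddCommGroup V] [Module R V] (x : tH1 (gamChar χ) V) :
    (twistSys hrA rfl ε χ χ' hχ).op V x = twistH (V := V) hrA ε χ χ' hχ x := by
  obtain ⟨f, rfl⟩ := tClass_surjective _ x
  rfl

omit [NeZero q] in
/-- Conjugation of a congruence element by a translation. -/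
theorem exists_shift_conj (hrL : r ∣ L) (u : ℤ) {g : SL(2, ℤ)}
    (hg : g ∈ CongruenceSubgroup.Gamma (L * r)) (hqr : Nat.Coprime q r) :
    ∃ h : Gamma0 L, shiftGL ((u : ℝ) / r) * Matrix.SpecialLinearGroup.mapGL ℝ g =
        gamma0GL L h * shiftGL ((u : ℝ) / r) ∧ aUnit L h = 1 ∧
      (h : SL(2, ℤ)) 1 0 = g 1 0 ∧ ((q : ℤ) ∣ u → (q : ℤ) ∣ (h : SL(2, ℤ)) 0 1 - g 0 1) := by
  obtain ⟨l, hl⟩ := hrL
  obtain ⟨h1, h2, h3, h4⟩ := Gamma_mem.mp hg
  have e00 : ((L * r : ℕ) : ℤ) ∣ g 0 0 - 1 := by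
    rw [← ZMod.intCast_zmod_eq_zero_iff_dvd]; push_cast; rw [h1, sub_self]
  have e11 : ((L * r : ℕ) : ℤ) ∣ g 1 1 - 1 := by
    rw [← ZMod.intCast_zmod_eq_zero_iff_dvd]; push_cast; rw [h4, sub_self]
  obtain ⟨a, ha⟩ := e00
  obtain ⟨d, hd⟩ := e11
  obtain ⟨c, hc⟩ := (ZMod.intCast_zmod_eq_zero_iff_dvd _ _).mp h3
  push_cast at ha hd hc
  have hLZ : (L : ℤ) = r * l := by exact_mod_cast hl
  have hdet := g.det_coe
  rw [Matrix.det_fin_two] at hdet
  set b' : ℤ := g 0 1 + u * ((L : ℤ) * (d - a)) - u * u * ((l : ℤ) * c) with hb'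
  let M : Matrix (Fin 2) (Fin 2) ℤ :=
    !![g 0 0 + u * ((L : ℤ) * c), b'; g 1 0, g 1 1 - u * ((L : ℤ) * c)]
  have hM : M.det = 1 := by
    simp only [M, Matrix.det_fin_two_of, hb']
    linear_combination hdet + (u * (L : ℤ) * c) * (hd - ha) +
      (u * u * (l : ℤ) * c - u * (L : ℤ) * (d - a)) * hc + (-(u * u * (L : ℤ) * c * c)) * hLZ
  refine ⟨⟨⟨M, hM⟩, mem_Gamma0_of_dvd ⟨(r : ℤ) * c, by
    show g 1 0 = _
    rw [hc]; ring⟩⟩, ?_, ?_, rfl, fun hq => ?_⟩
  · have hr : (r : ℝ) ≠ 0 := Nat.cast_ne_zero.mpr (Fact.out : r.Prime).ne_zero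
    have haR : ((g 0 0 : ℤ) : ℝ) - 1 = (L : ℝ) * r * a := by exact_mod_cast ha
    have hdR : ((g 1 1 : ℤ) : ℝ) - 1 = (L : ℝ) * r * d := by exact_mod_cast hd
    have hcR : ((g 1 0 : ℤ) : ℝ) = (L : ℝ) * r * c := by exact_mod_cast hc
    have hLR : (L : ℝ) = r * l := by exact_mod_cast hl
    have e : ((Matrix.SpecialLinearGroup.mapGL ℝ g : GL (Fin 2) ℝ) :
        Matrix (Fin 2) (Fin 2) ℝ) = !![((g 0 0 : ℤ) : ℝ), ((g 0 1 : ℤ) : ℝ);
          ((g 1 0 : ℤ) : ℝ), ((g 1 1 : ℤ) : ℝ)] := by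
      ext i j
      fin_cases i <;> fin_cases j <;> simp
    refine Units.ext ?_
    rw [Units.val_mul, Units.val_mul, val_gamma0GL', val_shiftGL, e]
    ext i j
    fin_cases i <;> fin_cases j <;> simp [M, b', Matrix.mul_apply, Fin.sum_univ_two]
    · rw [hcR]; field_simp
    · field_simp
      rw [hLR] at haR hdR hcR ⊢
      linear_combination (u : ℝ) * (hdR - haR)
    · rw [hcR]; field_simp; ring
  · refine Units.ext ?_
    rw [coe_aUnit, Units.val_one]
    show ((g 0 0 + u * ((L : ℤ) * c) : ℤ) : ZMod L) = 1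
    rw [show g 0 0 = 1 + (L : ℤ) * r * a by linarith]
    push_cast
    simp
  · show (q : ℤ) ∣ b' - g 0 1
    obtain ⟨k, rfl⟩ := hq
    exact ⟨k * ((L : ℤ) * (d - a)) - k * ((q : ℤ) * k) * ((l : ℤ) * c), by rw [hb']; ring⟩

omit [Fact r.Prime] in
/-- Elements of level `L q` come from the side group. -/
theorem exists_up (b : Bool) (δ : Gamma0 (L * q)) :
    ∃ g : Gamma0 L, gamma0GL (L * q) δ * sideMat q b = sideMat q b * gamma0GL L g := by
  cases b
  · exact ⟨inclHom L q δ, by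
      simp only [sideMat, Bool.false_eq_true, if_false, one_mul, mul_one, gamma0GL_inclHom]⟩
  · obtain ⟨k, hk⟩ := dvd_lowerLeft_right δ.2
    obtain ⟨c, hc⟩ := dvd_of_mem_Gamma0 δ.2
    push_cast at hc
    have hq : (q : ℤ) ≠ 0 := Int.natCast_ne_zero.mpr (NeZero.ne q)
    have hd := (δ : SL(2, ℤ)).det_coe
    rw [Matrix.det_fin_two, hk] at hd
    refine ⟨⟨⟨!![(δ : SL(2, ℤ)) 0 0, (q : ℤ) * (δ : SL(2, ℤ)) 0 1; k, (δ : SL(2, ℤ)) 1 1], by
        rw [Matrix.det_fin_two_of]; linear_combination hd⟩,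
      mem_Gamma0_of_dvd ⟨c, by
        show k = _
        refine mul_left_cancel₀ hq ?_
        rw [← hk, hc]; ring⟩⟩, ?_⟩
    have hkR : (((δ : SL(2, ℤ)) 1 0 : ℤ) : ℝ) = q * k := by exact_mod_cast hk
    refine Units.ext ?_
    rw [Units.val_mul, Units.val_mul, val_gamma0GL', val_gamma0GL']
    ext i j
    fin_cases i <;> fin_cases j <;>
      simp [sideMat, Matrix.mul_apply, Fin.sum_univ_two,
        ModularForm.val_heckeMatrix (NeZero.ne q), hkR, mul_comm]

variable (q) in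
/-- `d` with `t (u / r) D_b = D_b t (d u / r)`. -/
def sideScale (b : Bool) : ℕ := if b then q else 1

omit [Fact r.Prime] in
theorem shiftGL_mul_sideMat (b : Bool) (x : ℝ) :
    shiftGL x * sideMat q b = sideMat q b * shiftGL ((sideScale q b : ℝ) * x) := by
  cases b
  · simp [sideMat, sideScale]
  · refine Units.ext ?_
    ext i j
    fin_cases i <;> fin_cases j <;>
      simp [sideMat, sideScale, Matrix.mul_apply, Fin.sum_univ_two,
        ModularForm.val_heckeMatrix (NeZero.ne q), mul_comm]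

variable {b : Bool} {ι : Type} [Fintype ι] {K : ℕ} {s : ι → SL(2, ℤ)}

/-- **The twist commutes with the trace along a side.** -/
theorem trSys_twist_comm {L' : ℕ} (hrL : r ∣ L) (hL' : L' = L * r) (hqL : Nat.Coprime q L)
    (hqL' : Nat.Coprime q L') (hB : L' * q = L * q * r) (hK : L' ∣ K) (hs : IsTrans q b K s)
    (ε : (ZMod r)ˣ →* Rˣ) (χ : (ZMod L)ˣ →* Rˣ) (χ' : (ZMod L')ˣ →* Rˣ)
    (hχ : ∀ γ : Gamma0 L', gamChar χ (inclHom L r (castGamma hL' γ)) =
      gamChar χ' γ * ε (aMod L r (castGamma hL' γ)) ^ 2)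
    (hχq : ∀ γ : Gamma0 (L' * q), gamChar (chiUp χ q) (inclHom (L * q) r (castGamma hB γ)) =
      gamChar (chiUp χ' q) γ * ε (aMod (L * q) r (castGamma hB γ)) ^ 2)
    {V : Type u} [AddCommGroup V] [Module R V] (x : tH1 (gamChar (chiUp χ q)) V) :
    ∃ c : Rˣ, (c : R) • (trSys hqL' hK hs χ').op V
        ((twistSys (hrL.mul_right q) hB ε (chiUp χ q) (chiUp χ' q) hχq).op V x) =
      (twistSys hrL hL' ε χ χ' hχ).op V
        ((trSys hqL ((Dvd.intro r hL'.symm).trans hK) hs χ).op V x) := by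
  have hr : r.Prime := Fact.out
  have hqr : Nat.Coprime q r := hqL.coprime_dvd_right hrL
  have hdr : Nat.Coprime (sideScale q b) r := by cases b <;> simp [sideScale] <;> exact hqr
  set du : (ZMod r)ˣ := ZMod.unitOfCoprime (sideScale q b) hdr with hdu
  have hrR : (r : ℝ) ≠ 0 := Nat.cast_ne_zero.mpr hr.ne_zero
  rw [← TSys.op_comp, ← TSys.op_comp]
  refine ⟨(ε du)⁻¹, ?_⟩
  rw [← TSys.op_scale]
  -- the data at an index
  have hdata : ∀ z : ι × (ZMod r)ˣ, ∃ (j : ι) (d : Gamma0 (L * q)) (h : Gamma0 L) (m : ℤ),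
      shiftGL ((((sideScale q b : ℤ) * (z.2 : ZMod r).val : ℤ) : ℝ) / r) *
          Matrix.SpecialLinearGroup.mapGL ℝ (s z.1) =
        gamma0GL L h * shiftGL ((((sideScale q b : ℤ) * (z.2 : ZMod r).val : ℤ) : ℝ) / r) ∧
      ((sideScale q b : ℤ) * (z.2 : ZMod r).val : ℤ) = ((du * z.2 : (ZMod r)ˣ) : ZMod r).val + r * m ∧
      ((h * Diamond.transGamma L m : Gamma0 L) : SL(2, ℤ)) * (s j)⁻¹ ∈ sideGroup q b ∧
      shiftGL (((z.2 : ZMod r).val : ℝ) / r) * transRep q b s z.1 =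
        gamma0GL (L * q) d * (transRep q b s j *
          shiftGL ((((du * z.2 : (ZMod r)ˣ) : ZMod r).val : ℝ) / r)) ∧
      gamChar (chiUp χ q) d = 1 := by
    rintro ⟨i, u⟩
    set x' : ℤ := (sideScale q b : ℤ) * (u : ZMod r).val with hx'
    obtain ⟨h, hh, ha, -, -⟩ := exists_shift_conj (q := q) hrL x'
      (gamma_le (hL' ▸ hK) (hs.mem i)) hqr
    obtain ⟨m, hm⟩ : (r : ℤ) ∣ x' - ((du * u : (ZMod r)ˣ) : ZMod r).val := by
      rw [← ZMod.intCast_zmod_eq_zero_iff_dvd]
      rw [hx']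
      push_cast
      rw [ZMod.natCast_zmod_val, ZMod.natCast_zmod_val, hdu, ZMod.coe_unitOfCoprime,
        sub_self]
    obtain ⟨j, hj⟩ := hs.surj ((h * Diamond.transGamma L m : Gamma0 L) : SL(2, ℤ))
    let tj : Gamma0 L :=
      ⟨s j, gamma_mem_Gamma0 (gamma_le ((Dvd.intro r hL'.symm).trans hK) (hs.mem j))⟩
    obtain ⟨d, hd, hd0⟩ := exists_down hqL (h * Diamond.transGamma L m * tj⁻¹) hj
    refine ⟨j, d, h, m, hh, by linarith, hj, ?_, ?_⟩
    · have hshift : shiftGL ((x' : ℝ) / r) = gamma0GL L (Diamond.transGamma L m) *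
          shiftGL ((((du * u : (ZMod r)ˣ) : ZMod r).val : ℝ) / r) := by
        rw [Diamond.gamma0GL_transGamma, Diamond.shiftGL_mul]
        congr 1
        rw [eq_comm, add_comm, eq_div_iff hrR, add_mul, div_mul_cancel₀ _ hrR]
        have hmR : (x' : ℝ) - ((((du * u : (ZMod r)ˣ) : ZMod r).val : ℕ) : ℝ) = (r : ℝ) * m := by
          exact_mod_cast hm
        linarith
      show _ * (sideMat q b * _) = _ * (sideMat q b * gamma0GL L tj * _)
      rw [← mul_assoc, shiftGL_mul_sideMat, mul_assoc,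
        show ((sideScale q b : ℝ) * (((u : ZMod r).val : ℝ) / r)) = (x' : ℝ) / r by
          rw [hx']; push_cast; ring,
        hh, hshift, ← mul_assoc (gamma0GL L h), ← map_mul,
        show h * Diamond.transGamma L m = (h * Diamond.transGamma L m * tj⁻¹) * tj by group,
        map_mul, ← mul_assoc, ← mul_assoc, hd]
      simp only [mul_assoc]
    · have e : aUnit L (inclHom L q d) = 1 := by
        have : aUnit L (inclHom L q d) = aUnit L (h * Diamond.transGamma L m * tj⁻¹) :=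
          Units.ext (by rw [coe_aUnit, coe_aUnit, inclHom_coe, hd0])
        rw [this, map_mul, map_mul, map_inv, ha,
          aUnit_gamma (g := tj) (gamma_le ((Dvd.intro r hL'.symm).trans hK) (hs.mem j)),
          inv_one, mul_one, one_mul]
        exact Units.ext (by simp [Diamond.transGamma])
      rw [← gamChar_inclHom, gamChar_apply, e, map_one]
  choose j d h m hh hm hj hrep hd using hdata
  let f : ι × (ZMod r)ˣ → (ZMod r)ˣ × ι := fun z => (du * z.2, j z)
  have hbij : Function.Bijective f := by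
    refine (Fintype.bijective_iff_injective_and_card _).mpr ⟨?_, by simp [mul_comm]⟩
    rintro ⟨i, u⟩ ⟨i', u'⟩ he
    obtain ⟨hu, hjj⟩ := Prod.ext_iff.mp he
    obtain rfl : u = u' := mul_left_cancel hu
    refine Prod.ext (hs.inj i i' ?_) rfl
    have hjj' : j (i, u) = j (i', u) := hjj
    have hmm : m (i, u) = m (i', u) := by
      have h1 := (hm (i, u)).symm.trans (hm (i', u))
      exact mul_left_cancel₀ (Int.natCast_ne_zero.mpr hr.ne_zero) (add_left_cancel h1)
    have h1 := (sideGroup q b).mul_mem (hj (i, u)) ((sideGroup q b).inv_mem (hj (i', u)))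
    rw [hjj', hmm] at h1
    set x' : ℤ := (sideScale q b : ℤ) * (u : ZMod r).val with hx'
    obtain ⟨k, hk, -, hk10, hk01⟩ := exists_shift_conj (q := q) hrL x'
      (gamma_le (hL' ▸ hK) (Subgroup.mul_mem _ (hs.mem i) (Subgroup.inv_mem _ (hs.mem i')))) hqr
    have hkk : k = h (i, u) * (h (i', u))⁻¹ := by
      refine gamma0GL_injective (mul_right_cancel (b := shiftGL ((x' : ℝ) / r)) ?_)
      refine hk.symm.trans ?_
      rw [map_mul, map_inv (Matrix.SpecialLinearGroup.mapGL ℝ), ← mul_assoc, hh (i, u), map_mul,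
        map_inv, mul_assoc _ (gamma0GL L (h (i', u)))⁻¹, mul_assoc]
      congr 1
      rw [eq_inv_mul_iff_mul_eq, ← mul_assoc, ← hh (i', u), mul_assoc, mul_inv_cancel, mul_one]
    have h2 : ((k : Gamma0 L) : SL(2, ℤ)) ∈ sideGroup q b := by
      rw [hkk]
      convert h1 using 1
      simp only [Subgroup.coe_mul, Subgroup.coe_inv]
      group
    rw [mem_sideGroup] at h2 ⊢
    cases b
    · simp only [sideEntry, Bool.false_eq_true, if_false] at h2 ⊢
      rwa [hk10] at h2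
    · simp only [sideEntry, if_true] at h2 ⊢
      have := hk01 (by rw [hx']; simp [sideScale])
      exact (dvd_sub_right h2).mp this
  refine TSys.op_eq_of_rep _ _ gamma0GL_injective ?_ (Equiv.ofBijective f hbij) d
    (fun z => hrep z) (fun z => ?_) x
  · rintro ⟨v, i⟩ ⟨v', i'⟩ δ he
    obtain ⟨g, hg⟩ := exists_up b δ
    let ti : ι → Gamma0 L := fun k =>
      ⟨s k, gamma_mem_Gamma0 (gamma_le ((Dvd.intro r hL'.symm).trans hK) (hs.mem k))⟩
    have he' : gamma0GL L (((ti i')⁻¹ * g * ti i)) * shiftGL (((v : ZMod r).val : ℝ) / r) =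
        shiftGL (((v' : ZMod r).val : ℝ) / r) := by
      have e2 : gamma0GL (L * q) δ * (sideMat q b * gamma0GL L (ti i) *
          shiftGL (((v : ZMod r).val : ℝ) / r)) = sideMat q b * gamma0GL L (ti i') *
            shiftGL (((v' : ZMod r).val : ℝ) / r) := he
      rw [← mul_assoc, ← mul_assoc, hg, mul_assoc, mul_assoc, mul_assoc (sideMat q b),
        mul_right_inj] at e2
      rw [map_mul, map_mul, map_inv, mul_assoc, mul_assoc, inv_mul_eq_iff_eq_mul]
      exact e2
    have hv : v = v' := by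
      set g' := (ti i')⁻¹ * g * ti i
      have e0 := congrArg Units.val he'
      rw [Units.val_mul, val_gamma0GL', val_shiftGL, val_shiftGL] at e0
      have a00 := congrArg (fun g : Matrix (Fin 2) (Fin 2) ℝ => g 0 0) e0
      have a01 := congrArg (fun g : Matrix (Fin 2) (Fin 2) ℝ => g 0 1) e0
      simp [Matrix.mul_apply, Fin.sum_univ_two, -ZMod.natCast_val] at a00 a01
      rw [a00] at a01
      have hZ : ((v : ZMod r).val : ℤ) + (r : ℤ) * ((g' : SL(2, ℤ)) 0 1) = (v' : ZMod r).val := by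
        apply Int.cast_injective (α := ℝ)
        push_cast
        field_simp at a01
        linear_combination a01
      have h1 := congrArg (Int.cast : ℤ → ZMod r) hZ
      push_cast at h1
      rw [ZMod.natCast_zmod_val, ZMod.natCast_zmod_val, ZMod.natCast_self, zero_mul, add_zero] at h1
      exact Units.ext h1
    subst hv
    refine Prod.ext rfl (transRep_unique hs i i' δ ?_)
    exact mul_right_cancel ((mul_assoc _ _ _).trans he)
  · show (ε du)⁻¹ * (1 * (ε z.2)⁻¹) * gamChar (chiUp χ q) (d z) = (ε (du * z.2))⁻¹ * 1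
    rw [hd, mul_one, one_mul, mul_one, map_mul, mul_inv]

end FLTA.RT.Disc
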