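import Fermat.Agent.RT.Main.ClassSystem
import Fermat.Agent.RT.RaiseLocal
import Fermat.Agent.RT.HeckeLocalDegeneracy
import Fermat.Agent.RT.Diamond.TwistOld
import Fermat.Agent.RT.Lift.EllipticFree

/-!
# Eigen classes at a prime `r ∥ L r` with `U_r = α`, `α² ≠ 1`, over a field

Such a class of weight two is determined by its trace to level `L` after the Atkin–Lehner map, so
it descends; and its twist by a character trivial in the field does not vanish (Ihara's potentials).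
-/

set_option autoImplicit false

noncomputable section

open CongruenceSubgroup
open scoped MatrixGroups

namespace FLTA.RT.Disc

open FLTA.Periods FLTA.LevelRaising ModularCurve.Period

variable {k : Type} [Field k] {L r : ℕ} [NeZero L] [NeZero r] [hr : Fact r.Prime]

/-- The trace after the Atkin–Lehner map commutes with the operators at other primes. -/
theorem heckeHom_corRes_alRes (h : Nat.Coprime r L) {l : ℕ} (hl : l.Prime) (hlr : l ≠ r)
    [((Gamma0 (L * r)).subgroupOf (Gamma0 L)).FiniteIndex]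
    (f : Additive (Gamma0 (L * r)) →+ k) :
    heckeHom k L l (corRes (alRes h f)) = corRes (alRes h (heckeHom k (L * r) l f)) := by
  set χ : (ZMod L)ˣ →* kˣ := 1
  have htriv : ∀ γ (v : k), (gamChar χ γ : k) • v = v := triv_one L
  obtain ⟨y, rfl⟩ := (tH1EquivHom (triv_chiUp (q := r) χ htriv)).surjective f
  have e := (degIntertwines_natHecke (χ := χ) h (fun _ : Unit => l) (fun _ => hl)
    (fun _ => hlr)).corAL () k y
  have e' := congrArg (tH1EquivHom htriv) e
  rw [tH1EquivHom_natHecke χ htriv hl, tH1EquivHom_degCor χ htriv, tH1EquivHom_degCor χ htriv,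
    tH1EquivHom_degAL χ htriv, tH1EquivHom_degAL χ htriv,
    tH1EquivHom_natHecke _ (triv_chiUp (q := r) χ htriv) hl] at e'
  exact e'

/-- A class with `U_r = α`, `α² ≠ 1`, vanishes if its trace after the Atkin–Lehner map does. -/
theorem eq_zero_of_corRes_alRes (hrL : ¬ r ∣ L) (h : Nat.Coprime r L)
    {f : Additive (Gamma0 (L * r)) →+ k} (hf : IsParabolicHom (Gamma0 (L * r)) f) {α : k}
    (hU : heckeHom k (L * r) r f = α • f) (hα : α * α ≠ 1) (hz : corRes (alRes h f) = 0) :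
    f = 0 := by
  have e := inclRes_corRes_alRes k hrL h hf
  rw [hz, hU] at e
  have e1 : alRes h f = -(α • f) := by
    refine eq_neg_of_add_eq_zero_right ?_
    rw [← e]
    exact AddMonoidHom.ext fun _ => rfl
  have e2 := congrArg (alRes h) e1
  rw [alRes_alRes, show alRes h (-(α • f)) = -(α • alRes h f) from AddMonoidHom.ext fun _ => rfl,
    e1, smul_neg, neg_neg, smul_smul] at e2
  have e3 : (α * α - 1) • f = 0 := by rw [sub_smul, one_smul, ← e2, sub_self]
  exact (smul_eq_zero.mp e3).resolve_left (sub_ne_zero.mpr hα)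

omit [NeZero L] [NeZero r] hr in
theorem finite_index_gamma0 (L r : ℕ) [NeZero (L * r)] :
    ((Gamma0 (L * r)).subgroupOf (Gamma0 L)).FiniteIndex := inferInstance

omit [NeZero L] [NeZero r] hr in
/-- Parabolic classes are refined parabolic in characteristic `≥ 5`, or when a prime `≡ 2 mod 3`
divides the level and `2 ≠ 0`. -/
theorem isParHom0_of_cond {M : ℕ} (h2 : (2 : k) ≠ 0)
    (hell : (12 : k) ≠ 0 ∨ ∃ t : ℕ, t.Prime ∧ t % 3 = 2 ∧ t ∣ M)
    {φ : Additive (Gamma0 M) →+ k} (hφ : IsParabolicHom (Gamma0 M) φ) :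
    FLTA.Gamma0.IsParHom0 (Gamma0 M) φ := by
  rcases hell with h | ⟨t, ht, ht3, htM⟩
  · exact isParHom0_of_isParabolicHom h hφ
  · refine isParHom0_of_isParabolicHom_elliptic ht htM ht3 (fun a ha => ?_) hφ
    rw [← two_mul] at ha
    exact (mul_eq_zero.mp ha).resolve_left h2

/-- An eigen class of level `L ∏ Q` with `U_s = α_s`, `α_s² ≠ 1`, gives a system of level `L`. -/
theorem eigen_eq_zero {W : WeierstrassCurve ℤ} {p : ℕ} [Fact p.Prime] [CharP k p]
    (h2 : (2 : k) ≠ 0) (S : Finset ℕ)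
    (hne : ∀ M : ℕ, M ≠ 0 → ∃ l : ℕ, l.Prime ∧ l ∉ S ∧ (l : ZMod M) = 1 ∧
      (W.apOfModel l : k) ≠ l + 1)
    {L₀ : ℕ} [NeZero L₀] (hell : (12 : k) ≠ 0 ∨ ∃ t : ℕ, t.Prime ∧ t % 3 = 2 ∧ t ∣ L₀)
    (hno : ¬ HasSystem W p L₀) (α : ℕ → k) (Q : Finset ℕ) :
    (∀ s ∈ Q, s.Prime ∧ ¬ s ∣ L₀ ∧ s ∈ S ∧ α s * α s ≠ 1) →
    ∀ (L : ℕ) [NeZero L], L = L₀ * ∏ s ∈ Q, s → ∀ v : Additive (Gamma0 L) →+ k,
      (∀ l : ℕ, l.Prime → l ∉ S → ¬ l ∣ L → heckeHom k L l v = (W.apOfModel l : k) • v) →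
      (∀ s ∈ Q, heckeHom k L s v = α s • v) → v = 0 := by
  classical
  induction Q using Finset.induction_on with
  | empty =>
    intro _ L _ hL v hv _
    by_contra hv0
    obtain ⟨l, hl, hlS, hl1, hl'⟩ := hne L (NeZero.ne L)
    rw [Finset.prod_empty, mul_one] at hL
    subst hL
    have := Fact.mk hl
    have hlL := not_dvd_of_natCast_eq_one hl hl1
    refine hno (hasSystem_of_class hv0 (isParHom0_of_cond h2 hell fun γ hγ => ?_) S hv)
    have h := isParabolicHom_of_eisenstein k (fun a ha => by simpa [h2] using ha) hlL hl1 v γ hγ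
    rw [hv l hl hlS hlL, AddMonoidHom.sub_apply, AddMonoidHom.smul_apply,
      AddMonoidHom.smul_apply, nsmul_eq_mul, smul_eq_mul, ← sub_mul] at h
    refine (mul_eq_zero.mp h).resolve_left (sub_ne_zero.mpr ?_)
    exact_mod_cast hl'
  | @insert r Q hrQ ih =>
    intro hQ L _ hL v hv hU
    obtain ⟨hr, hrL₀, hrS, hαr⟩ := hQ r (Finset.mem_insert_self r Q)
    have hQ' : ∀ s ∈ Q, s.Prime ∧ ¬ s ∣ L₀ ∧ s ∈ S ∧ α s * α s ≠ 1 := fun s hs =>
      hQ s (Finset.mem_insert_of_mem hs)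
    rw [Finset.prod_insert hrQ, mul_comm r, ← mul_assoc] at hL
    generalize hL' : L₀ * ∏ s ∈ Q, s = L' at hL
    subst hL
    have : NeZero L' := ⟨left_ne_zero_of_mul (NeZero.ne (L' * r))⟩
    have : NeZero r := ⟨hr.ne_zero⟩
    have := Fact.mk hr
    have hne' : ∀ s ∈ Q, s ≠ r := fun s hs e => hrQ (e ▸ hs)
    have hrL' : ¬ r ∣ L' := fun hd => by
      rw [← hL'] at hd
      rcases hr.dvd_mul.mp hd with h1 | h1
      · exact hrL₀ h1
      · obtain ⟨s, hs, hrs⟩ := Prime.exists_mem_finset_dvd (Nat.prime_iff.mp hr) h1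
        exact hne' s hs ((Nat.prime_dvd_prime_iff_eq hr (hQ' s hs).1).mp hrs).symm
    have hcop : Nat.Coprime r L' := hr.coprime_iff_not_dvd.mpr hrL'
    have := finite_index_gamma0 L' r
    obtain ⟨l₀, hl₀, hl₀S, hl₁, hl₀'⟩ := hne (L' * r) (NeZero.ne _)
    have := Fact.mk hl₀
    have hpar : IsParabolicHom (Gamma0 (L' * r)) v := by
      intro γ hγ
      have h := isParabolicHom_of_eisenstein k (fun a ha => by simpa [h2] using ha)
        (not_dvd_of_natCast_eq_one hl₀ hl₁) hl₁ v γ hγ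
      rw [hv l₀ hl₀ hl₀S (not_dvd_of_natCast_eq_one hl₀ hl₁), AddMonoidHom.sub_apply,
        AddMonoidHom.smul_apply, AddMonoidHom.smul_apply, nsmul_eq_mul, smul_eq_mul,
        ← sub_mul] at h
      refine (mul_eq_zero.mp h).resolve_left (sub_ne_zero.mpr ?_)
      exact_mod_cast hl₀'
    refine eq_zero_of_corRes_alRes hrL' hcop hpar (hU r (Finset.mem_insert_self r Q)) hαr ?_
    have hcomm : ∀ (c : k) (l : ℕ), heckeHom k (L' * r) l v = c • v → l.Prime → l ≠ r →
        heckeHom k L' l (corRes (alRes hcop v)) = c • corRes (alRes hcop v) := by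
      intro c l h hl hlr
      rw [heckeHom_corRes_alRes hcop hl hlr, h]
      refine AddMonoidHom.ext fun z => ?_
      show ∑ᶠ y, c • (alRes hcop v) _ = c • ∑ᶠ y, (alRes hcop v) _
      rw [smul_finsum]
    refine ih hQ' L' hL'.symm _ (fun l hl hlS hlL => hcomm _ l (hv l hl hlS fun hd => ?_) hl
      fun e => hlS (e ▸ hrS)) fun s hs => hcomm _ s (hU s (Finset.mem_insert_of_mem hs))
        (hQ' s hs).1 (hne' s hs)
    rcases hl.dvd_mul.mp hd with h1 | h1
    · exact hlL h1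
    · exact hlS ((Nat.prime_dvd_prime_iff_eq hl hr).mp h1 ▸ hrS)

section twist

/-- `U_r` at the conjugate of an element of level `L r²`. -/
theorem heckeHom_conjHom_self (hd : r ∣ L * r) (f : Additive (Gamma0 (L * r)) →+ k)
    (γ : Gamma0 (L * r * r)) :
    heckeHom k (L * r) r f (Additive.ofMul (conjHom (L * r) r γ)) =
      f (Additive.ofMul (inclHom (L * r) r γ)) +
        ∑ u : (ZMod r)ˣ, f (Additive.ofMul (twistCocyc hd γ u)) := by
  classical
  rw [heckeHom_of_dvd k hd]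
  show (repsU hd).transferHom f _ = _
  rw [HeckeReps.transferHom_apply]
  set g := conjHom (L * r) r γ with hg
  have hgd : gamma0GL (L * r) g * degGL r = degGL r * gamma0GL (L * r * r) γ := by
    rw [hg, ← degGL_mul]
  have hdeg : ∀ (j : ZMod r) (δ : Gamma0 (L * r)) (i : ZMod r),
      gamma0GL (L * r) δ * shiftGL ((i.val : ℝ) / r) =
        shiftGL ((j.val : ℝ) / r) * gamma0GL (L * r * r) γ →
      (repsU hd).cocyc g j = δ := by
    intro j δ i h
    refine ((repsU hd).eq_of_rep_eq (y := i) ?_).2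
    rw [repsU_rep, repsU_rep]
    refine mul_right_cancel (b := degGL r) ?_
    rw [mul_assoc, hgd, ← mul_assoc, Diamond.heckeMatrix_eq_shift, mul_assoc, ← h, ← mul_assoc,
      scalGL_comm, mul_assoc, ← Diamond.heckeMatrix_eq_shift, ← mul_assoc]
  have h0 : (repsU hd).cocyc g 0 = inclHom (L * r) r γ := hdeg 0 _ 0 (by
    simp [ZMod.val_zero, Diamond.shiftGL_zero_eq, gamma0GL_inclHom])
  have hu : ∀ u : (ZMod r)ˣ, (repsU hd).cocyc g (u : ZMod r) = twistCocyc hd γ u := fun u =>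
    hdeg _ _ _ (twistCocyc_spec hd γ u).symm
  rw [← Finset.add_sum_erase Finset.univ _ (Finset.mem_univ (0 : ZMod r)), h0]
  congr 1
  refine Finset.sum_bij' (fun z hz => Units.mk0 z (Finset.ne_of_mem_erase hz))
    (fun u _ => (u : ZMod r)) (by simp) (fun u _ => by simp [u.ne_zero]) (fun z _ => rfl)
    (fun u _ => Units.ext rfl) (fun z hz => by rw [← hu]; rfl)

/-- Invariance of a potential under `Γ₀(L r)` and its conjugate gives invariance under `Γ₀(L)`. -/
theorem isInv_of_scaled (hrL : ¬ r ∣ L) {h : ℚ × ℚ → k} {α : k} (hα : α ≠ 0)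
    (h1 : ∀ g : Gamma0 (L * r), IsInv h (QMat.ofSL (g : SL(2, ℤ))))
    (heq : ∀ P : ℚ × ℚ, P ≠ 0 → h P = α * h ((QMat.diag (r : ℚ) 1).app P))
    (g : SL(2, ℤ)) (hg : (L : ℤ) ∣ g 1 0) : IsInv h (QMat.ofSL g) := by
  have hrp : Prime (r : ℤ) := Nat.prime_iff_prime_int.mp hr.out
  have hr0 : (r : ℚ) ≠ 0 := Nat.cast_ne_zero.mpr (NeZero.ne r)
  have hD : (QMat.diag (r : ℚ) 1).det ≠ 0 := diag_det_ne
  -- elements with upper right entry divisible by `r`
  have hup : ∀ g : SL(2, ℤ), (L : ℤ) ∣ g 1 0 → (r : ℤ) ∣ g 0 1 → IsInv h (QMat.ofSL g) := by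
    intro g hg hb
    obtain ⟨b, hb⟩ := hb
    obtain ⟨c, hc⟩ := hg
    have hdet := g.det_coe
    rw [Matrix.det_fin_two, hb] at hdet
    let g' : Gamma0 (L * r) := ⟨⟨!![g 0 0, b; (r : ℤ) * g 1 0, g 1 1], by
      rw [Matrix.det_fin_two_of]; linear_combination hdet⟩,
      mem_Gamma0_of_dvd ⟨c, by
        show (r : ℤ) * g 1 0 = _
        rw [hc]; push_cast; ring⟩⟩
    refine IsInv.of_const (by rw [QMat.det_ofSL]; exact one_ne_zero)
      (α⁻¹ * per h (QMat.ofSL (g' : SL(2, ℤ)))) fun P hP => ?_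
    set P' : ℚ × ℚ := (P.1 / r, P.2)
    have hPD : (QMat.diag (r : ℚ) 1).app P' = P := by
      refine Prod.ext ?_ ?_ <;> simp [P', QMat.app, QMat.diag]
      field_simp
    have hP' : P' ≠ 0 := fun h0 => hP (by rw [← hPD, h0]; simp [QMat.app])
    have hg'P : (QMat.diag (r : ℚ) 1).app ((QMat.ofSL (g' : SL(2, ℤ))).app P') =
        (QMat.ofSL g).app P := by
      refine Prod.ext ?_ ?_ <;>
        simp [P', g', QMat.app, QMat.diag, QMat.ofSL, hb] <;> field_simp <;> ring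
    have hne := QMat.app_ne_zero (g := QMat.ofSL (g' : SL(2, ℤ)))
      (by rw [QMat.det_ofSL]; exact one_ne_zero) hP'
    have e := (h1 g').2 P' hP'
    rw [heq _ hne, heq P' hP', hg'P, hPD] at e
    have e2 := congrArg (fun x => α⁻¹ * x) e
    simp only [mul_add, ← mul_assoc, inv_mul_cancel₀ hα, one_mul] at e2
    exact e2
  -- upper left entry prime to `r`
  have hgen : ∀ g : SL(2, ℤ), (L : ℤ) ∣ g 1 0 → ¬ (r : ℤ) ∣ g 0 0 → IsInv h (QMat.ofSL g) := by
    intro g hg ha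
    obtain ⟨c, hc⟩ := hg
    obtain ⟨u, v, huv⟩ := (hrp.coprime_iff_not_dvd.mpr ha)
    set s : ℤ := c * v with hs
    let U : SL(2, ℤ) := ⟨!![1, 0; (L : ℤ) * s, 1], by simp [Matrix.det_fin_two_of]⟩
    have hU : IsInv h (QMat.ofSL U) := hup U (by simp [U]) (by simp [U])
    have hmem : U⁻¹ * g ∈ Gamma0 (L * r) := mem_Gamma0_of_dvd ⟨c * u, by
      rw [Matrix.SpecialLinearGroup.coe_mul, Matrix.SpecialLinearGroup.coe_inv,
        show (U : Matrix (Fin 2) (Fin 2) ℤ) = !![1, 0; (L : ℤ) * s, 1] from rfl]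
      simp [Matrix.mul_apply, Matrix.vecMul, dotProduct, Fin.sum_univ_two,
        Matrix.adjugate_fin_two_of, hc, hs]
      linear_combination (-(L : ℤ) * c) * huv⟩
    have := hU.mul (h1 ⟨_, hmem⟩)
    rwa [← QMat.ofSL_mul, mul_inv_cancel_left] at this
  by_cases ha : (r : ℤ) ∣ g 0 0
  · let T : Gamma0 (L * r) := ⟨⟨!![1, 1; 0, 1], by simp [Matrix.det_fin_two_of]⟩,
      mem_Gamma0_of_dvd (by simp)⟩
    have hTg : IsInv h (QMat.ofSL ((T : SL(2, ℤ)) * g)) := by
      have e : (((T : SL(2, ℤ)) * g : SL(2, ℤ)) : Matrix (Fin 2) (Fin 2) ℤ) =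
          !![1, 1; 0, 1] * (g : Matrix (Fin 2) (Fin 2) ℤ) := rfl
      refine hgen _ (by simpa [e, Matrix.mul_apply, Matrix.vecMul, dotProduct, Fin.sum_univ_two]
        using hg) fun hd => ?_
      simp [e, Matrix.mul_apply, Matrix.vecMul, dotProduct, Fin.sum_univ_two] at hd
      have hc : (r : ℤ) ∣ g 1 0 := (dvd_add_right ha).mp hd
      have hdet := g.det_coe
      rw [Matrix.det_fin_two] at hdet
      exact hrp.not_dvd_one (hdet ▸ dvd_sub (ha.mul_right _) (hc.mul_left _))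
    have := (h1 T⁻¹).mul hTg
    rwa [← QMat.ofSL_mul, Subgroup.coe_inv, inv_mul_cancel_left] at this
  · exact hgen g hg ha

variable {p : ℕ} [CharP k p]

/-- **A twist trivial in the field kills no eigen class with `U_r = α ≠ 0`.** -/
theorem eq_zero_of_twist (hp : p.Prime) (hp2 : p ≠ 2) (hrL : ¬ r ∣ L) (hd : r ∣ L * r)
    {f : Additive (Gamma0 (L * r)) →+ k} (hf : IsParabolicHom (Gamma0 (L * r)) f) {α : k}
    (hα : α ≠ 0) (hU : heckeHom k (L * r) r f = α • f)
    (htw : ∀ γ : Gamma0 (L * r * r),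
      ∑ u : (ZMod r)ˣ, f (Additive.ofMul (twistCocyc hd γ u)) = 0)
    {ℓ : ℕ} [hℓ : Fact ℓ.Prime] [NeZero ℓ] (hℓ1 : (ℓ : ZMod (L * r * r)) = 1) {a : k}
    (hT : heckeHom k (L * r) ℓ f = a • f) (ha : a ≠ (ℓ : k) + 1) : f = 0 := by
  have hM := not_dvd_of_natCast_eq_one hℓ.out hℓ1
  have hℓr : ¬ ℓ ∣ r := fun h => hM (h.trans (dvd_mul_left r (L * r)))
  have hℓLr : ¬ ℓ ∣ L * r := fun h => hM (h.mul_right r)
  have hℓL : ¬ ℓ ∣ L := fun h => hℓLr (h.mul_right r)
  have hℓ1L : (ℓ : ZMod L) = 1 := by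
    have e := congrArg (ZMod.castHom ((dvd_mul_right L r).mul_right r) (ZMod L)) hℓ1
    rwa [map_natCast, map_one] at e
  obtain ⟨h, H⟩ := exists_isPrim hf
  have H' : IsPrim (α • f) fun P => α * h P :=
    ⟨fun t P ht hP => congrArg (α * ·) (H.1 t P ht hP), fun γ P hP => by
      simp only [H.2 γ P hP, mul_add, AddMonoidHom.smul_apply, smul_eq_mul]⟩
  have hxy : ∀ γ : Gamma0 (L * r * r), f (Additive.ofMul (inclHom (L * r) r γ)) =
      (α • f) (Additive.ofMul (conjHom (L * r) r γ)) := fun γ => by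
    rw [← hU, heckeHom_conjHom_self hd, htw, add_zero]
  set w : ℚ × ℚ → k := fun P => potT ℓ h P - ((ℓ : k) + 1) * h P with hw
  have Hw : IsPrim (eisOp k (L * r) ℓ f) w := isPrim_eisOp hℓ.out hℓLr H
  have heq : ∀ P : ℚ × ℚ, P ≠ 0 → w P = α * w ((QMat.diag (r : ℚ) 1).app P) := fun P hP => by
    refine (eisOp_potentials_eq hxy H H' hℓr hℓ1 hP).trans ?_
    simp only [hw, potT, ← Finset.mul_sum]
    ring
  have hinv : ∀ g : SL(2, ℤ), (L : ℤ) ∣ g 1 0 → IsInv w (QMat.ofSL g) :=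
    isInv_of_scaled hrL hα (fun g => Hw.isInv g) heq
  have hD : (QMat.diag (r : ℚ) 1).det ≠ 0 := diag_det_ne
  have hconj : ∀ g : SL(2, ℤ), (L : ℤ) ∣ g 1 0 → IsInv w (conjUp r g) := fun g hg => by
    have hr0 : (r : ℚ) ≠ 0 := Nat.cast_ne_zero.mpr (NeZero.ne r)
    have hcd : (conjUp r g).det = 1 := by
      have h' := QMat.det_ofSL g
      simp only [QMat.det, conjUp, QMat.ofSL] at h' ⊢
      rw [← h']
      field_simp
    refine IsInv.of_const (by rw [hcd]; exact one_ne_zero)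
      (α * per w (QMat.ofSL g)) fun P hP => ?_
    rw [heq _ (QMat.app_ne_zero (by rw [hcd]; exact one_ne_zero) hP), heq P hP, ← mul_add,
      ← (hinv g hg).2 _ (QMat.app_ne_zero hD hP)]
    congr 2
    refine Prod.ext ?_ ?_ <;> simp [conjUp, QMat.ofSL, QMat.diag, QMat.app] <;> field_simp <;> ring
  have HP : IsPot L r w := isPot_of_generators Hw.1 hr.out hrL hinv hconj
  let y : Additive (Gamma0 L) →+ k := AddMonoidHom.mk'
    (fun z => per w (QMat.ofSL ((Additive.toMul z : Gamma0 L) : SL(2, ℤ)))) fun z z' => by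
      show per w (QMat.ofSL (((Additive.toMul z : Gamma0 L) : SL(2, ℤ)) *
        ((Additive.toMul z' : Gamma0 L) : SL(2, ℤ)))) = _
      rw [QMat.ofSL_mul, IsInv.per_mul (hinv _ (dvd_of_mem_Gamma0 (Additive.toMul z).2))
        (hinv _ (dvd_of_mem_Gamma0 (Additive.toMul z').2))]
  have Hy : IsPrim y w := ⟨Hw.1, fun γ P hP => (hinv _ (dvd_of_mem_Gamma0 γ.2)).2 P hP⟩
  have hy := eisOp_eq_zero_of_pot hp hp2 hr.out hrL hℓ.out hℓL hℓ1L Hy HP
  have hinc : eisOp k (L * r) ℓ f = inclRes L r y := AddMonoidHom.ext fun z => by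
    obtain ⟨γ, rfl⟩ := Additive.ofMul.surjective z
    exact (Hw.per_eq' γ).symm
  obtain ⟨hy1, hy2⟩ := isPrim_potT (R := k) hℓ.out hℓL Hy
  have hEE : eisOp k (L * r) ℓ (inclRes L r y) = inclRes L r (eisOp k L ℓ y) := by
    have h1 := (isPrim_eisOp hℓ.out hℓLr Hy.inclRes)
    have h2 := (isPrim_eisOp hℓ.out hℓL Hy).inclRes (q := r)
    exact eq_of_isPrim h1 h2 0 fun P _ => (add_zero _).symm
  have hEf : eisOp k (L * r) ℓ f = (a - ((ℓ : k) + 1)) • f := by
    rw [eisOp_apply, hT, sub_smul]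
  have h2 := hEE
  rw [hy, ← hinc, hEf, map_smul, hEf, smul_smul,
    show inclRes L r (0 : Additive (Gamma0 L) →+ k) = 0 from AddMonoidHom.ext fun _ => rfl] at h2
  exact (smul_eq_zero.mp h2).resolve_left
    (mul_ne_zero (sub_ne_zero.mpr ha) (sub_ne_zero.mpr ha))

end twist

end FLTA.RT.Disc

end
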