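import Fermat.Agent.RT.DiscChain
import Fermat.Agent.RT.Main.ModulesRankOps

/-!
# Factors without eigen classes

A nonzero submodule of a local factor killed by the maximal ideal and stable under the operators
has an eigen vector.  Hence: a factor with no system downstairs is killed by both traces, and a
natural family of maps which is injective on the eigen classes over the residue field detects the
classes of the factor in every coefficient module killed by a power of the maximal ideal.
-/

set_option autoImplicit false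

noncomputable section

open IsLocalRing CongruenceSubgroup
open scoped MatrixGroups

namespace FLTA.RT.Disc

open FLTA.Periods FLTA.LevelRaising

variable {R : Type} [CommRing R] [IsLocalRing R] [IsNoetherianRing R]
  [IsAdicComplete (maximalIdeal R) R]

section eigen

variable {H : Type} [AddCommGroup H] [Module R H] [Module.Finite R H] {σ : Type*}
  {T : σ → Module.End R H}

omit [IsNoetherianRing R] [IsAdicComplete (maximalIdeal R) R] in
/-- The residue field is artinian over the ring. -/
theorem isArtinian_residueField : IsArtinian R (ResidueField R) :=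
  isArtinian_of_surjective_algebraMap (R := ResidueField R) (M := ResidueField R)
    residue_surjective

/-- A finite module killed by the maximal ideal is artinian. -/
theorem isArtinian_of_killed (hm : ∀ r ∈ maximalIdeal R, ∀ v : H, r • v = 0) : IsArtinian R H := by
  have := isArtinian_residueField (R := R)
  obtain ⟨d, π, hπ⟩ := Module.Finite.exists_fin' R H
  refine isArtinian_of_surjective (M := Fin d → ResidueField R)
    (∑ i, ((maximalIdeal R).liftQ (LinearMap.toSpanSingleton R H (π (Pi.single i 1)))
      fun r hr => LinearMap.mem_ker.mpr (hm r hr _)).comp (LinearMap.proj i)) fun v => ?_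
  obtain ⟨c, rfl⟩ := hπ v
  refine ⟨fun i => residue R (c i), ?_⟩
  rw [LinearMap.coe_sum, Finset.sum_apply]
  conv_rhs => rw [pi_eq_sum_univ' c, map_sum]
  exact Finset.sum_congr rfl fun i _ => (π.map_smul (c i) _).symm

/-- A nonzero stable submodule of the factor killed by the maximal ideal has an eigen vector. -/
theorem exists_eigen_of_stable (hT : ∀ s t, Commute (T s) (T t)) (a : σ → R) (K : Submodule R H)
    (hK : ∀ s, ∀ x ∈ K, T s x ∈ K) (hle : K ≤ LinearMap.range (localIdem T a)) (hK0 : K ≠ ⊥)
    (hm : ∀ r ∈ maximalIdeal R, ∀ x ∈ K, r • x = 0) :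
    ∃ v ∈ K, v ≠ 0 ∧ ∀ s, T s v = a s • v := by
  have : Module.Finite R K := Module.Finite.of_injective K.subtype K.injective_subtype
  have : IsArtinian R K := isArtinian_of_killed fun r hr v => Subtype.ext (hm r hr v v.2)
  let T' : σ → Module.End R K := fun s => (T s).restrict (hK s)
  have hT' : ∀ s t, Commute (T' s) (T' t) := fun s t =>
    LinearMap.ext fun x => Subtype.ext (LinearMap.congr_fun (hT s t).eq (x : H))
  have hone : ∀ x : K, localIdem T' a x = x := fun x => Subtype.ext (by
    show K.subtype (localIdem T' a x) = _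
    rw [localIdem_comm_map hT' hT a K.subtype (fun _ _ => rfl) x]
    obtain ⟨y, hy⟩ := hle x.2
    rw [Submodule.subtype_apply, ← hy]
    exact LinearMap.congr_fun (isIdempotentElem_localIdem hT a).eq y)
  have hrange : LinearMap.range (localIdem T' a) = ⊤ :=
    LinearMap.range_eq_top.mpr fun x => ⟨x, hone x⟩
  have hnil : ∀ s, ∃ j : ℕ, ∀ x : K, ((T' s - algebraMap R _ (a s)) ^ j) x = 0 := fun s => by
    obtain ⟨j, hj⟩ := exists_pow_sub_mem hT' a s
    refine ⟨j, fun x => ?_⟩
    have h := hj x (by rw [hrange]; trivial)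
    rw [hrange] at h
    refine Submodule.smul_induction_on h (fun r hr z _ => Subtype.ext (hm r hr z z.2))
      fun y z hy hz => by rw [hy, hz, add_zero]
  obtain ⟨L, ⟨hL0, hLs⟩, hmin⟩ := IsArtinian.set_has_minimal
    {L : Submodule R K | L ≠ ⊥ ∧ ∀ s, ∀ x ∈ L, T' s x ∈ L} ⟨⊤, ⟨fun h => hK0
      ((Submodule.eq_bot_iff K).mpr fun x hx => by
        have h' : (⟨x, hx⟩ : K) ∈ (⊥ : Submodule R K) := h ▸ Submodule.mem_top
        simpa using h'), fun _ _ _ => trivial⟩⟩
  obtain ⟨v, hv, hv0⟩ := Submodule.exists_mem_ne_zero_of_ne_bot hL0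
  refine ⟨v, v.2, fun h => hv0 (Subtype.ext h), fun s => ?_⟩
  set y : Module.End R K := T' s - algebraMap R _ (a s) with hy
  have hcy : ∀ t, ∀ x, T' t (y x) = y (T' t x) := fun t x =>
    LinearMap.congr_fun ((hT' t s).sub_right (Algebra.commutes (a s) (T' t)).symm).eq x
  have hys : ∀ x ∈ L, y x ∈ L := fun x hx => by
    rw [hy, LinearMap.sub_apply, Module.algebraMap_end_apply]
    exact sub_mem (hLs s x hx) (L.smul_mem _ hx)
  have hker : L ≤ LinearMap.ker y := by
    by_contra hnot
    refine hmin (L ⊓ LinearMap.ker y) ⟨fun h0 => ?_, fun t x hx => ⟨hLs t x hx.1, ?_⟩⟩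
      (lt_of_le_of_ne inf_le_left fun e => hnot (e ▸ inf_le_right))
    · obtain ⟨j, hj⟩ := hnil s
      classical
      have hex : ∃ i, (y ^ i) v = 0 := ⟨j, hj v⟩
      have hi : Nat.find hex ≠ 0 := fun e => hv0 (by simpa [e] using Nat.find_spec hex)
      obtain ⟨i, hi⟩ := Nat.exists_eq_succ_of_ne_zero hi
      have hmem : ∀ i, (y ^ i) v ∈ L := fun i => by
        induction i with
        | zero => exact hv
        | succ i ih => rw [pow_succ', Module.End.mul_apply]; exact hys _ ih
      refine Nat.find_min hex (m := i) (by omega) ((Submodule.eq_bot_iff _).mp h0 _ ⟨hmem i, ?_⟩)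
      rw [SetLike.mem_coe, LinearMap.mem_ker, ← Module.End.mul_apply, ← pow_succ']
      have h1 := Nat.find_spec hex
      rwa [hi] at h1
    · rw [SetLike.mem_coe, LinearMap.mem_ker, ← hcy, LinearMap.mem_ker.mp hx.2, map_zero]
  have h := LinearMap.mem_ker.mp (hker hv)
  rw [hy, LinearMap.sub_apply, Module.algebraMap_end_apply, sub_eq_zero] at h
  exact congrArg Subtype.val h

end eigen

section natural

variable {Γ : Type} [Group Γ] [Group.FG Γ] {χ : Γ →* Rˣ} {σ : Type} {T : σ → NatEnd χ}
  (hcomm : CommAtRing T) (a : σ → R) (hlift : HasLifts χ)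

include hcomm hlift in
/-- Every polynomial in the operators preserves the factor. -/
theorem natEval_mem_eImage {V : Type} [AddCommGroup V] [Module R V] [Module.Finite R V]
    (g : FreeAlgebra R σ) {x : tH1 χ V} (hx : x ∈ eImage (localEnd T a) V) :
    (natEval T g).app V x ∈ eImage (localEnd T a) V := by
  have := finite_tH1 (χ := χ) V
  have hc := commute_opsAt hcomm hlift V
  rw [eImage, localEnd_app_finite hcomm a hlift] at hx ⊢
  obtain ⟨y, rfl⟩ := hx
  refine ⟨(natEval T g).app V y, ?_⟩
  have h : Commute (localIdem (opsAt T V) a) ((natEval T g).app V) := by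
    rw [natEval_app]
    induction g using FreeAlgebra.induction with
    | grade0 r => rw [AlgHom.commutes]; exact (Algebra.commutes r _).symm
    | grade1 s => rw [FreeAlgebra.lift_ι_apply]; exact (localIdem_comm hc a s).symm
    | mul u w hu hw => rw [map_mul]; exact hu.mul_right hw
    | add u w hu hw => rw [map_add]; exact hu.add_right hw
  exact LinearMap.congr_fun h.eq y

include hcomm hlift in
/-- An eigen class in any nonzero stable submodule of the factor over the residue field. -/
theorem exists_eigen_natural (K : Submodule R (tH1 χ (ResidueField R)))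
    (hK : ∀ s, ∀ x ∈ K, (T s).app (ResidueField R) x ∈ K) (hle : K ≤ eImage (localEnd T a) (ResidueField R))
    (hK0 : K ≠ ⊥) : ∃ v ∈ K, v ≠ 0 ∧ ∀ s, (T s).app (ResidueField R) v = a s • v := by
  have := Module.Finite.of_surjective (Algebra.linearMap R (ResidueField R)) residue_surjective
  have := finite_tH1 (χ := χ) (ResidueField R)
  refine exists_eigen_of_stable (T := opsAt T (ResidueField R))
    (commute_opsAt hcomm hlift _) a K hK ?_ hK0 fun r hr x _ => ?_
  · rwa [eImage, localEnd_app_finite hcomm a hlift] at hle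
  · obtain ⟨f, rfl⟩ := tClass_surjective χ x
    rw [← map_smul, show r • f = 0 from Subtype.ext (funext fun g => by
      show r • f.1 g = 0
      rw [Algebra.smul_def, show algebraMap R (ResidueField R) r = 0 from
        (residue_eq_zero_iff r).mpr hr, zero_mul]), map_zero]

include hcomm hlift in
/-- A factor without eigen classes over the residue field is zero in every finite module. -/
theorem localEnd_eq_zero (hno : ∀ v ∈ eImage (localEnd T a) (ResidueField R),
      (∀ s, (T s).app (ResidueField R) v = a s • v) → v = 0)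
    (V : Type) [AddCommGroup V] [Module R V] [Module.Finite R V] (x : tH1 χ V) :
    (localEnd T a).app V x = 0 := by
  have := Module.Finite.of_surjective (Algebra.linearMap R (ResidueField R)) residue_surjective
  have hbot : eImage (localEnd T a) (ResidueField R) = ⊥ := by
    by_contra h0
    obtain ⟨v, hv, hv0, hev⟩ := exists_eigen_natural hcomm a hlift _ (fun s x hx => by
      have h := natEval_mem_eImage hcomm a hlift (FreeAlgebra.ι R s) hx
      rwa [natEval_app, FreeAlgebra.lift_ι_apply] at h) le_rfl h0
    exact hv0 (hno v hv hev)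
  refine eq_at_finite hlift (localEnd T a) 0 (fun y => ?_) x
  have := finite_tH1 (χ := χ) R
  have hfg : (eImage (localEnd T a) R).FG := IsNoetherian.noetherian _
  have hz : eImage (localEnd T a) R = ⊥ := by
    refine Submodule.eq_bot_of_le_smul_of_le_jacobson_bot (maximalIdeal R) _ hfg (fun z hz => ?_)
      (IsLocalRing.maximalIdeal_le_jacobson _)
    refine mem_smul_of_map_mk_eq_zero hlift (eqAtRing_localEnd_sq hcomm a) _ hz ?_
    exact (Submodule.eq_bot_iff _).mp hbot _ (tH1Map_mem_eImage _ hz)
  exact (Submodule.eq_bot_iff _).mp hz _ ⟨y, rfl⟩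

variable {Δ : Type} [Group Δ]
  (J : ∀ (V : Type) [AddCommGroup V] [Module R V], tH1 χ V →ₗ[R] (Additive Δ →+ V))
  (hJ : ∀ (V W : Type) [AddCommGroup V] [Module R V] [AddCommGroup W] [Module R W]
    (φ : V →ₗ[R] W) (x : tH1 χ V), J W (tH1Map χ φ x) = φ.toAddMonoidHom.comp (J V x))
  (hinj : ∀ x : tH1 χ (ResidueField R), (∀ s, (T s).app (ResidueField R) x = a s • x) →
    J (ResidueField R) x = 0 → x = 0)

include hcomm hlift hinj in
/-- The family detects the classes of the factor over the residue field. -/
theorem eq_zero_residue {x : tH1 χ (ResidueField R)}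
    (hx : x ∈ eImage (localEnd T a) (ResidueField R))
    (h : ∀ g, J (ResidueField R) ((natEval T g).app (ResidueField R) x) = 0) : x = 0 := by
  have := Module.Finite.of_surjective (Algebra.linearMap R (ResidueField R)) residue_surjective
  let K : Submodule R (tH1 χ (ResidueField R)) := eImage (localEnd T a) _ ⊓
    ⨅ g : FreeAlgebra R σ, LinearMap.ker ((J _).comp ((natEval T g).app _))
  have hmem : ∀ z, z ∈ K ↔ z ∈ eImage (localEnd T a) (ResidueField R) ∧
      ∀ g, J (ResidueField R) ((natEval T g).app (ResidueField R) z) = 0 := fun z => by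
    simp [K, Submodule.mem_iInf]
  by_contra hx0
  obtain ⟨v, hv, hv0, hev⟩ := exists_eigen_natural hcomm a hlift K (fun s z hz => by
      obtain ⟨h1, h2⟩ := (hmem z).mp hz
      have h3 := natEval_mem_eImage hcomm a hlift (FreeAlgebra.ι R s) h1
      rw [natEval_app, FreeAlgebra.lift_ι_apply] at h3
      refine (hmem _).mpr ⟨h3, fun g => ?_⟩
      have h4 := h2 (g * FreeAlgebra.ι R s)
      rwa [natEval_app, map_mul, Module.End.mul_apply, FreeAlgebra.lift_ι_apply,
        ← natEval_app] at h4)
    inf_le_left fun hb => hx0 ((Submodule.eq_bot_iff _).mp hb x ((hmem x).mpr ⟨hx, h⟩))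
  refine hv0 (hinj v hev ?_)
  have h1 := ((hmem v).mp hv).2 1
  rwa [natEval_app, map_one, Module.End.one_apply] at h1

include hcomm hlift hJ hinj in
/-- **Detection**: in a finite module killed by a power of the maximal ideal. -/
theorem eq_zero_of_natural (j : ℕ) : ∀ (V : Type) [AddCommGroup V] [Module R V] [Module.Finite R V],
    (maximalIdeal R ^ j • (⊤ : Submodule R V) = ⊥) → ∀ x : tH1 χ V,
      x ∈ eImage (localEnd T a) V → (∀ g, J V ((natEval T g).app V x) = 0) → x = 0 := by
  induction j with
  | zero =>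
    intro V _ _ _ hV x _ _
    rw [pow_zero, Ideal.one_eq_top, Submodule.top_smul] at hV
    obtain ⟨f, rfl⟩ := tClass_surjective χ x
    rw [show f = 0 from Subtype.ext (funext fun g => (Submodule.eq_bot_iff _).mp hV _ trivial),
      map_zero]
  | succ j ih =>
    intro V _ _ _ hV x hx hJx
    set V' : Submodule R V := maximalIdeal R ^ j • ⊤ with hV'
    have : Module.Finite R V' := Module.Finite.of_injective V'.subtype V'.injective_subtype
    have hquot : maximalIdeal R ^ j • (⊤ : Submodule R (V ⧸ V')) = ⊥ := by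
      rw [← LinearMap.range_eq_top.mpr V'.mkQ_surjective, LinearMap.range_eq_map,
        ← Submodule.map_smul'', ← hV', Submodule.mkQ_map_self]
    have h0 : tH1Map χ V'.mkQ x = 0 := ih _ hquot _ (tH1Map_mem_eImage _ hx) fun g => by
      rw [(natEval T g).natural, hJ, hJx]
      exact AddMonoidHom.ext fun _ => by simp
    obtain ⟨y₀, hy₀⟩ := exists_of_tH1Map_eq_zero χ V'.subtype V'.mkQ V'.injective_subtype
      V'.mkQ_surjective (by rw [Submodule.ker_mkQ, Submodule.range_subtype]) x h0
    set y := (localEnd T a).app V' y₀ with hy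
    have hyx : tH1Map χ V'.subtype y = x := by
      rw [hy, ← (localEnd T a).natural, hy₀, e_app_of_mem hlift (eqAtRing_localEnd_sq hcomm a) hx]
    have hy0 : y = 0 := by
      have hkill : ∀ r ∈ maximalIdeal R, ∀ v : V', r • v = 0 := fun r hr v => Subtype.ext (by
        refine (Submodule.eq_bot_iff _).mp hV _ ?_
        rw [pow_succ', Submodule.mul_smul]
        exact Submodule.smul_mem_smul hr v.2)
      obtain ⟨d, π, hπ⟩ := Module.Finite.exists_fin' R V'
      let hmod : Module (ResidueField R) V' :=
        (show Module.IsTorsionBySet R V' (maximalIdeal R : Set R) from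
          fun v r => hkill r r.2 v).module
      have hall : ∀ φ : V' →ₗ[R] ResidueField R, tH1Map χ φ y = 0 := fun φ =>
        eq_zero_residue hcomm a hlift J hinj (tH1Map_mem_eImage _ (LinearMap.mem_range_self _ _))
          fun g => by
            rw [(natEval T g).natural, hJ]
            have h1 := hJx g
            rw [← hyx, (natEval T g).natural, hJ] at h1
            refine AddMonoidHom.ext fun z => ?_
            have h2 := DFunLike.congr_fun h1 z
            simp only [AddMonoidHom.comp_apply, LinearMap.toAddMonoidHom_coe,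
              Submodule.subtype_apply, AddMonoidHom.zero_apply, ZeroMemClass.coe_eq_zero] at h2
            rw [AddMonoidHom.comp_apply, h2, map_zero, AddMonoidHom.zero_apply]
      have : Module.Finite (ResidueField R) V' := Module.Finite.of_surjective
        (R := ResidueField R) (M := Fin d → ResidueField R)
        (Fintype.linearCombination _ fun i => π (Pi.single i 1)) fun v => by
          obtain ⟨c, rfl⟩ := hπ v
          refine ⟨fun i => residue R (c i), ?_⟩
          rw [Fintype.linearCombination_apply]
          conv_rhs => rw [pi_eq_sum_univ' c, map_sum]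
          exact Finset.sum_congr rfl fun i _ => (π.map_smul _ _).symm
      let b := Module.finBasis (ResidueField R) V'
      let co : ∀ i, V' →ₗ[R] ResidueField R := fun i =>
        ⟨⟨b.coord i, map_add _⟩, fun r w =>
          ((b.coord i).map_smul (residue R r) w).trans (Algebra.smul_def r _).symm⟩
      let sg : ∀ i, ResidueField R →ₗ[R] V' := fun i =>
        ⟨⟨fun c => c • b i, fun c c' => add_smul c c' _⟩, fun r c => by
          show (r • c) • b i = r • c • b i
          rw [Algebra.smul_def, mul_smul]
          rfl⟩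
      have hid : (LinearMap.id : V' →ₗ[R] V') = ∑ i, (sg i).comp (co i) := LinearMap.ext fun w => by
        rw [LinearMap.coe_sum, Finset.sum_apply]
        exact (b.sum_repr w).symm
      rw [← tH1Map_id χ y, hid, tH1Map_sum]
      exact Finset.sum_eq_zero fun i _ => by rw [tH1Map_comp, hall, map_zero]
    rw [← hyx, hy0, map_zero]

end natural

section traces

variable {L₀ : ℕ} [NeZero L₀] {q : ℕ} [hq : Fact q.Prime] [NeZero q]
  [((Gamma0 (L₀ * q)).subgroupOf (Gamma0 L₀)).FiniteIndex]
  (hqL : Nat.Coprime q L₀) {χ : (ZMod L₀)ˣ →* Rˣ} {σ : Type} (pr : σ → ℕ)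
  (hpr : ∀ s, (pr s).Prime) (hprq : ∀ s, pr s ≠ q) (c : σ → Rˣ) (a : σ → R)

omit [IsLocalRing R] [IsNoetherianRing R] [IsAdicComplete (maximalIdeal R) R]
  [((Gamma0 (L₀ * q)).subgroupOf (Gamma0 L₀)).FiniteIndex] hq in
include hpr in
theorem commAtRing_scaled {L : ℕ} [NeZero L] (ψ : (ZMod L)ˣ →* Rˣ) :
    CommAtRing (fun s => ((c s : Rˣ) : R) • natHecke ψ (pr s)) := fun s t => LinearMap.ext fun x => by
  simp only [Module.End.mul_apply, opsAt, NatEnd.smul_app, map_smul]
  rw [natHecke_comm ψ (hpr s) (hpr t), smul_comm]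

omit [IsLocalRing R] [IsNoetherianRing R] [IsAdicComplete (maximalIdeal R) R] in
include hpr hprq in
theorem degIntertwines_scaled : DegIntertwines (χ := χ) hqL
    (fun s => ((c s : Rˣ) : R) • natHecke χ (pr s))
    (fun s => ((c s : Rˣ) : R) • natHecke (chiUp χ q) (pr s)) := by
  have h := degIntertwines_natHecke (χ := χ) hqL pr hpr hprq
  exact ⟨fun s V _ _ x => by simp only [NatEnd.smul_app, map_smul]; rw [h.incl],
    fun s V _ _ x => by simp only [NatEnd.smul_app, map_smul]; rw [h.conj],
    fun s V _ _ x => by simp only [NatEnd.smul_app, map_smul]; rw [h.cor],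
    fun s V _ _ x => by simp only [NatEnd.smul_app, map_smul]; rw [h.corAL]⟩

include hpr hprq in
/-- **No system downstairs**: both traces vanish on the factor. -/
theorem degDown_eq_zero {W : WeierstrassCurve ℤ} {p : ℕ} [Fact p.Prime]
    [CharP (ResidueField R) p] (h2 : (2 : ResidueField R) ≠ 0) (S : Finset ℕ)
    (hne : ∀ M : ℕ, M ≠ 0 → ∃ l : ℕ, l.Prime ∧ l ∉ S ∧ (l : ZMod M) = 1 ∧
      (W.apOfModel l : ResidueField R) ≠ l + 1)
    {L₁ : ℕ} [NeZero L₁]
    (hell : (12 : ResidueField R) ≠ 0 ∨ ∃ t : ℕ, t.Prime ∧ t % 3 = 2 ∧ t ∣ L₁) (hno : ¬ HasSystem W p L₁) (Q : Finset ℕ)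
    (hL : L₀ = L₁ * ∏ s ∈ Q, s) (α : ℕ → R)
    (hQ : ∀ s ∈ Q, s.Prime ∧ ¬ s ∣ L₁ ∧ s ∈ S ∧ residue R (α s) * residue R (α s) ≠ 1)
    (hχ : ∀ u, residue R (χ u : R) = 1) (hc : ∀ s, residue R (c s : R) = 1)
    (hgood : ∀ l : ℕ, l.Prime → l ∉ S → ¬ l ∣ L₀ →
      ∃ s, pr s = l ∧ residue R (a s) = (W.apOfModel l : ResidueField R))
    (hU : ∀ r ∈ Q, ∃ s, pr s = r ∧ residue R (a s) = residue R (α r))
    (hlift : HasLifts (gamChar χ)) (hlift' : HasLifts (gamChar (chiUp χ q)))
    (V : Type) [AddCommGroup V] [Module R V] [Module.Finite R V]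
    {x : tH1 (gamChar (chiUp χ q)) V}
    (hx : x ∈ eImage (localEnd (fun s => ((c s : Rˣ) : R) • natHecke (chiUp χ q) (pr s)) a) V)
    (i : Fin 2) : degDown hqL χ V i x = 0 := by
  have := group_fg_Gamma0 L₀
  obtain ⟨y, rfl⟩ := hx
  rw [degDown_localEnd (commAtRing_scaled pr hpr c χ) (commAtRing_scaled pr hpr c _) hlift hlift'
    (degIntertwines_scaled hqL pr hpr hprq c) a V i y]
  refine localEnd_eq_zero (commAtRing_scaled pr hpr c χ) a hlift (fun v _ hev => ?_) V _
  have htriv : ∀ γ (w : ResidueField R), (gamChar χ γ : R) • w = w := fun γ w => by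
    rw [Algebra.smul_def, ResidueField.algebraMap_eq, gamChar_apply, hχ, one_mul]
  have key : ∀ s, heckeHom (ResidueField R) L₀ (pr s) (tH1EquivHom htriv v) =
      residue R (a s) • tH1EquivHom htriv v := fun s => by
    have h := congrArg (tH1EquivHom htriv) (hev s)
    rw [NatEnd.smul_app, map_smul, map_smul, tH1EquivHom_natHecke _ _ (hpr s), heckeHom_eq_int,
      ← heckeHom_eq_int (𝕜 := ResidueField R)] at h
    refine AddMonoidHom.ext fun z => ?_
    have h' := DFunLike.congr_fun h z
    simp only [AddMonoidHom.smul_apply, Algebra.smul_def, ResidueField.algebraMap_eq, hc,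
      one_mul] at h'
    exact h'
  refine (tH1EquivHom htriv).injective ((eigen_eq_zero h2 S hne hell hno (fun r => residue R (α r)) Q
    hQ L₀ hL _ (fun l hl hlS hlL => ?_) fun r hr => ?_).trans (map_zero _).symm)
  · obtain ⟨s, rfl, hs⟩ := hgood l hl hlS hlL
    rw [key, hs]
  · obtain ⟨s, rfl, hs⟩ := hU r hr
    rw [key, hs]

end traces

end FLTA.RT.Disc

end
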