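import Mathlib.Algebra.Module.BigOperators
import Mathlib.Tactic.Group
import Mathlib.Tactic.Abel
import Mathlib.Algebra.Group.Units.Basic

/-!
# Vanishing of a weighted transfer of a twisted crossed homomorphism

A weighted transfer `∑ x, w x • u (δ x)` vanishes when the representatives factor through a system
of distinct cosets and the twisted weights sum to zero over each fibre.
-/

set_option autoImplicit false

namespace FLTA.RT

variable {Γ Γ' G R M : Type*} [Group Γ] [Group Γ'] [Group G] [CommRing R] [AddCommGroup M]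
  [Module R M]

theorem crossed_one (χ : Γ →* Rˣ) (u : Γ → M)
    (hu : ∀ g h, u (g * h) = u g + (χ g : R) • u h) : u 1 = 0 := by
  have h := hu 1 1
  simpa using h

theorem crossed_inv (χ : Γ →* Rˣ) (u : Γ → M)
    (hu : ∀ g h, u (g * h) = u g + (χ g : R) • u h) (g : Γ) :
    u g⁻¹ = -((χ g⁻¹ : R) • u g) := by
  have h := hu g⁻¹ g
  rw [inv_mul_cancel, crossed_one χ u hu] at h
  exact eq_neg_of_add_eq_zero_left h.symm

theorem crossed_conj (χ : Γ →* Rˣ) (u : Γ → M)
    (hu : ∀ g h, u (g * h) = u g + (χ g : R) • u h) (θ φ θ' : Γ) :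
    u (θ * φ * θ'⁻¹) =
      u θ + (χ θ : R) • u φ - (χ (θ * φ * θ'⁻¹) : R) • u θ' := by
  rw [hu, hu, crossed_inv χ u hu, smul_neg, smul_smul, ← Units.val_mul, ← map_mul]
  abel

/-- The weighted transfer vanishes if its twisted weights cancel on every fibre. -/
theorem weighted_transfer_eq_zero {ι κ : Type*} [Fintype ι] [Fintype κ] [DecidableEq κ]
    (e : Γ →* G) (he : Function.Injective e) (f : Γ' →* G) (g : Γ')
    (χ : Γ →* Rˣ) (u : Γ → M) (hu : ∀ a b, u (a * b) = u a + (χ a : R) • u b)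
    (r : ι → G) (π : ι ≃ ι) (δ : ι → Γ) (hr : ∀ x, r x * f g = e (δ x) * r (π x))
    (w : ι → R) (hw : ∀ x, w x * (χ (δ x) : R) = w (π x))
    (σ : ι → κ) (θ : ι → Γ) (s : κ → G) (hs : ∀ x, r x = e (θ x) * s (σ x))
    (huniq : ∀ a b c, e c * s a = s b → a = b)
    (hfib : ∀ y, ∑ x ∈ Finset.univ.filter (fun x => σ x = y), w x * (χ (θ x) : R) = 0) :
    ∑ x, w x • u (δ x) = 0 := by
  classical
  set φ : ι → Γ := fun x => (θ x)⁻¹ * δ x * θ (π x) with hφ
  have hrel : ∀ x, s (σ x) * f g = e (φ x) * s (σ (π x)) := by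
    intro x
    have h := hr x
    rw [hs x, hs (π x)] at h
    simp only [hφ, map_mul, map_inv, mul_assoc]
    rw [← h]
    simp only [mul_assoc, inv_mul_cancel_left]
  have hconst : ∀ x y, σ x = σ y → φ x = φ y := by
    intro x y hxy
    have h := (hrel x).symm.trans (hxy ▸ hrel y)
    have hc : e ((φ y)⁻¹ * φ x) * s (σ (π x)) = s (σ (π y)) := by
      rw [map_mul, map_inv, mul_assoc, h, inv_mul_cancel_left]
    have heq := huniq _ _ _ hc
    rw [heq] at h
    exact he (mul_right_cancel h)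
  have hval : ∀ x, w x • u (δ x) =
      w x • u (θ x) + (w x * (χ (θ x) : R)) • u (φ x) - w (π x) • u (θ (π x)) := by
    intro x
    have hδ : δ x = θ x * φ x * (θ (π x))⁻¹ := by simp only [hφ]; group
    have h := crossed_conj χ u hu (θ x) (φ x) (θ (π x))
    rw [← hδ] at h
    rw [h, smul_sub, smul_add, smul_smul, smul_smul, hw]
  rw [Finset.sum_congr rfl fun x _ => hval x, Finset.sum_sub_distrib, Finset.sum_add_distrib,
    Equiv.sum_comp π (fun x => w x • u (θ x)), add_sub_cancel_left,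
    ← Finset.sum_fiberwise Finset.univ σ]
  refine Finset.sum_eq_zero fun y _ => ?_
  rcases (Finset.univ.filter fun x => σ x = y).eq_empty_or_nonempty with h | ⟨x₀, hx₀⟩
  · rw [h, Finset.sum_empty]
  · rw [Finset.sum_congr rfl fun x hx => show (w x * (χ (θ x) : R)) • u (φ x) =
        (w x * (χ (θ x) : R)) • u (φ x₀) by
        rw [hconst x x₀ ((Finset.mem_filter.mp hx).2.trans (Finset.mem_filter.mp hx₀).2.symm)],
      ← Finset.sum_smul, hfib y, zero_smul]

end FLTA.RT
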