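import Fermat.Agent.RT.CoeffTwist
import Fermat.Agent.RT.TwistFibre

/-!
# A twisted class is killed by both degeneracy pushforwards

For a prime `q` exactly dividing `L` and a cocycle `f` on `Γ₀(L)` for `(ε ∘ a)²`, both traces of
`twistFun ε f` from `Γ₀(L q)` down to `Γ₀(L)` vanish, as soon as the values of `ε` add up to zero.
The traces are stated for any choice of the permutation and of the cocycle of the coset
representatives `[1, 0; L m, 1]`, resp. `diag(q, 1)⁻¹ [1, j; 0, 1]`.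
-/

set_option autoImplicit false

noncomputable section

open CongruenceSubgroup
open scoped MatrixGroups

namespace FLTA.RT

open FLTA.Periods FLTA.LevelRaising

variable {L k q : ℕ} [Fact q.Prime] {R : Type*} [CommRing R] {V : Type*} [AddCommGroup V]
  [Module R V]

theorem gamma0GL_mk_apply (M : Matrix (Fin 2) (Fin 2) ℤ) (hM : M.det = 1)
    (hM' : (⟨M, hM⟩ : SL(2, ℤ)) ∈ Gamma0 L) (r s : Fin 2) :
    (gamma0GL L ⟨⟨M, hM⟩, hM'⟩ : GL (Fin 2) ℝ) r s = (M r s : ℝ) :=
  gamma0GL_apply _ r s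

/-- The lower translation `[1, 0; t, 1]`. -/
def lowerGL (t : ℝ) : GL (Fin 2) ℝ :=
  Matrix.GeneralLinearGroup.mkOfDetNeZero !![1, 0; t, 1] (by simp [Matrix.det_fin_two_of])

@[simp] theorem val_lowerGL (t : ℝ) :
    ((lowerGL t : GL (Fin 2) ℝ) : Matrix (Fin 2) (Fin 2) ℝ) = !![1, 0; t, 1] := rfl

/-- The character `(ε ∘ a)²` on `Γ₀(L)`. -/
def sqChar (hqL : q ∣ L) (ε : (ZMod q)ˣ →* Rˣ) : (ZMod L)ˣ →* Rˣ :=
  (ε.comp (ZMod.unitsMap hqL)) ^ 2

theorem gamChar_sqChar (hqL : q ∣ L) (ε : (ZMod q)ˣ →* Rˣ) (θ : Gamma0 L) (x : (ZMod q)ˣ)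
    (hx : (((θ : SL(2, ℤ)) 0 0 : ℤ) : ZMod q) = x) :
    (gamChar (sqChar hqL ε) θ : R) = (ε x : R) ^ 2 := by
  have h : ZMod.unitsMap hqL (aUnit L θ) = x :=
    Units.ext (by simpa [ZMod.unitsMap_def] using hx)
  simp [gamChar_apply, sqChar, h]

theorem sum_inv_eq_zero {ε : (ZMod q)ˣ →* Rˣ} (hε : ∑ x : (ZMod q)ˣ, (ε x : R) = 0) :
    ∑ x : (ZMod q)ˣ, (((ε x)⁻¹ : Rˣ) : R) = 0 := by
  rw [← hε]
  exact Fintype.sum_equiv (Equiv.inv _) _ _ fun x => by simp

theorem twist_weight (hqL : q ∣ L) (ε : (ZMod q)ˣ →* Rˣ) (γ : Gamma0 (L * q)) (u : (ZMod q)ˣ) :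
    (((ε u)⁻¹ : Rˣ) : R) * (gamChar (sqChar hqL ε) (twistCocyc hqL γ u) : R) =
      (((ε (twistPerm γ u))⁻¹ : Rˣ) : R) := by
  rw [gamChar_sqChar hqL ε _ (aMod L q γ) (by
      rw [coe_aMod]
      have h := congrArg (fun x : (ZMod L)ˣ => ((ZMod.unitsMap hqL x : (ZMod q)ˣ) : ZMod q))
        (aUnit_twistCocyc hqL γ u)
      simpa [ZMod.unitsMap_def] using h), ← Units.val_pow_eq_pow_val, ← Units.val_mul, twistPerm]
  refine congrArg Units.val ?_
  simp [mul_comm]

/-- The sum over the twist of a trace factors through a system of fewer representatives. -/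
theorem sum_twist_trace_eq_zero {κ : Type*} [Fintype κ] [DecidableEq κ] (hqL : q ∣ L)
    (ε : (ZMod q)ˣ →* Rˣ) {f : Gamma0 L → V}
    (hf : ∀ g h, f (g * h) = f g + (gamChar (sqChar hqL ε) g : R) • f h)
    (g : Gamma0 L) (T : ZMod q → GL (Fin 2) ℝ) (π : ZMod q ≃ ZMod q)
    (h : ZMod q → Gamma0 (L * q))
    (hrel : ∀ m, T m * gamma0GL L g = gamma0GL (L * q) (h m) * T (π m))
    (σ : (ZMod q)ˣ × ZMod q → κ) (θ : (ZMod q)ˣ × ZMod q → Gamma0 L) (s : κ → GL (Fin 2) ℝ)
    (hs : ∀ x, shiftGL (((x.1 : ZMod q).val : ℝ) / q) * T x.2 = gamma0GL L (θ x) * s (σ x))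
    (huniq : ∀ a b c, gamma0GL L c * s a = s b → a = b)
    (hfib : ∀ y, ∑ x ∈ Finset.univ.filter (fun x => σ x = y),
      (((ε x.1)⁻¹ : Rˣ) : R) * (gamChar (sqChar hqL ε) (θ x) : R) = 0) :
    ∑ m, twistFun hqL ε f (h m) = 0 := by
  simp only [twistFun]
  rw [Finset.sum_comm, ← Fintype.sum_prod_type'
    (f := fun (u : (ZMod q)ˣ) (m : ZMod q) => (((ε u)⁻¹ : Rˣ) : R) • f (twistCocyc hqL (h m) u))]
  let P : (ZMod q)ˣ × ZMod q ≃ (ZMod q)ˣ × ZMod q :=
    (Equiv.prodComm _ _).trans ((Equiv.prodShear π fun m => twistPermEquiv (h m)).trans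
      (Equiv.prodComm _ _))
  refine weighted_transfer_eq_zero (gamma0GL L) gamma0GL_injective (gamma0GL L) g
    (gamChar (sqChar hqL ε)) f hf (fun x => shiftGL (((x.1 : ZMod q).val : ℝ) / q) * T x.2) P
    (fun x => twistCocyc hqL (h x.2) x.1) (fun x => ?_)
    (fun x => (((ε x.1)⁻¹ : Rˣ) : R)) (fun x => ?_) σ θ s hs huniq hfib
  · show _ * _ * _ = _ * (shiftGL (((twistPerm (h x.2) x.1 : ZMod q).val : ℝ) / q) * T (π x.2))
    rw [mul_assoc, hrel, ← mul_assoc, twistCocyc_spec, mul_assoc]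
  · exact twist_weight hqL ε (h x.2) x.1

/-- The base representatives for the composite with the first trace. -/
def baseFirst (L k q : ℕ) [Fact q.Prime] : Option (ZMod q)ˣ → GL (Fin 2) ℝ
  | some a => shiftGL (((a : ZMod q).val : ℝ) / q)
  | none => shiftGL (((-((k : ZMod q))⁻¹).val : ℝ) / q) * lowerGL (L : ℝ)

open Classical in
/-- The fibre map for the composite with the first trace. -/
def fibFirst (k q : ℕ) [Fact q.Prime] (x : (ZMod q)ˣ × ZMod q) : Option (ZMod q)ˣ :=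
  if h : (1 + (x.1 : ZMod q) * k * x.2) = 0 then none else some (x.1 * (Units.mk0 _ h)⁻¹)

theorem baseFirst_unique (hL : L = q * k) (hqk : ¬ q ∣ k) :
    ∀ a b c, gamma0GL L c * baseFirst L k q a = baseFirst L k q b → a = b := by
  have hq : (q : ℝ) ≠ 0 := Nat.cast_ne_zero.mpr (NeZero.ne q)
  have hLR : (L : ℝ) = q * k := by exact_mod_cast hL
  have hk : (k : ZMod q) ≠ 0 := by rwa [Ne, ZMod.natCast_eq_zero_iff]
  have hA : ∀ (a : ℕ) (b : ZMod q) (c : Gamma0 L),
      gamma0GL L c * shiftGL ((a : ℝ) / q) ≠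
        shiftGL (((-((k : ZMod q))⁻¹).val : ℝ) / q) * lowerGL (L : ℝ) := by
    intro a _ c hc
    have h00 := congrArg (fun g : GL (Fin 2) ℝ => g 0 0) hc
    simp [Matrix.mul_apply, Fin.sum_univ_two, hLR, -ZMod.natCast_val] at h00
    have hZ : ((c : SL(2, ℤ)) 0 0 : ℤ) = 1 + ((-((k : ZMod q))⁻¹).val : ℤ) * k := by
      apply Int.cast_injective (α := ℝ)
      push_cast
      rw [h00]
      field_simp
    have h0 : (((c : SL(2, ℤ)) 0 0 : ℤ) : ZMod q) = 0 := by
      rw [hZ]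
      push_cast
      rw [ZMod.natCast_zmod_val, neg_mul, inv_mul_cancel₀ hk, add_neg_cancel]
    obtain ⟨t, ht⟩ := dvd_of_mem_Gamma0 c.2
    have hdet := congrArg (Int.cast : ℤ → ZMod q) (c : SL(2, ℤ)).det_coe
    rw [Matrix.det_fin_two, ht] at hdet
    push_cast at hdet
    rw [h0, show (L : ZMod q) = 0 from
      (ZMod.natCast_eq_zero_iff _ _).mpr ⟨k, hL⟩] at hdet
    simp at hdet
  intro a b c hc
  rcases a with _ | a <;> rcases b with _ | b
  · rfl
  · exfalso
    refine hA (b : ZMod q).val 0 c⁻¹ ?_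
    show gamma0GL L c⁻¹ * baseFirst L k q (some b) = baseFirst L k q none
    rw [← hc, map_inv, inv_mul_cancel_left]
  · exact absurd hc (hA (a : ZMod q).val 0 c)
  · have h00 := congrArg (fun g : GL (Fin 2) ℝ => g 0 0) hc
    have h01 := congrArg (fun g : GL (Fin 2) ℝ => g 0 1) hc
    simp [baseFirst, Matrix.mul_apply, Fin.sum_univ_two, -ZMod.natCast_val] at h00 h01
    rw [h00] at h01
    have hZ : ((a : ZMod q).val : ℤ) + (q : ℤ) * ((c : SL(2, ℤ)) 0 1) = (b : ZMod q).val := by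
      apply Int.cast_injective (α := ℝ)
      push_cast
      field_simp at h01
      linear_combination h01
    have h := congrArg (Int.cast : ℤ → ZMod q) hZ
    push_cast at h
    rw [ZMod.natCast_zmod_val, ZMod.natCast_zmod_val, ZMod.natCast_self, zero_mul, add_zero] at h
    exact congrArg some (Units.ext h)

theorem exists_thetaFirst (hL : L = q * k) (hqk : ¬ q ∣ k) (x : (ZMod q)ˣ × ZMod q) :
    ∃ θ : Gamma0 L,
      shiftGL (((x.1 : ZMod q).val : ℝ) / q) * lowerGL ((L : ℝ) * x.2.val) =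
        gamma0GL L θ * baseFirst L k q (fibFirst k q x) ∧
      (((θ : SL(2, ℤ)) 0 0 : ℤ) : ZMod q) =
        (fibFirst k q x).elim (-((x.1 : ZMod q) * k)) (fun _ => 1 + (x.1 : ZMod q) * k * x.2) := by
  have hq : (q : ℝ) ≠ 0 := Nat.cast_ne_zero.mpr (NeZero.ne q)
  have hLR : (L : ℝ) = q * k := by exact_mod_cast hL
  have hLZ : (L : ℤ) = q * k := by exact_mod_cast hL
  have hk : (k : ZMod q) ≠ 0 := by rwa [Ne, ZMod.natCast_eq_zero_iff]
  obtain ⟨u, m⟩ := x
  set i := (u : ZMod q).val with hi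
  have hiq : ((i : ℤ) : ZMod q) = u := by rw [hi, Int.cast_natCast, ZMod.natCast_zmod_val]
  set l := m.val with hl
  have hlq : ((l : ℤ) : ZMod q) = m := by rw [hl, Int.cast_natCast, ZMod.natCast_zmod_val]
  by_cases hv : (1 + (u : ZMod q) * k * m) = 0
  · have hfib : fibFirst k q (u, m) = none := dif_pos hv
    set i₀ := (-((k : ZMod q))⁻¹).val with hi₀
    have hi₀q : ((i₀ : ℤ) : ZMod q) = -((k : ZMod q))⁻¹ := by
      rw [hi₀, Int.cast_natCast, ZMod.natCast_zmod_val]
    obtain ⟨b, hb⟩ : (q : ℤ) ∣ i * (1 + i₀ * k) - i₀ * (1 + i * (k * l)) := by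
      rw [← ZMod.intCast_zmod_eq_zero_iff_dvd]
      push_cast at hiq hlq hi₀q ⊢
      rw [hiq, hlq, hi₀q, neg_mul, inv_mul_cancel₀ hk]
      linear_combination (k : ZMod q)⁻¹ * hv
    let M : Matrix (Fin 2) (Fin 2) ℤ :=
      !![1 + i * (k * l) - i * k, b; (L : ℤ) * (l - 1), 1 + i₀ * k - i₀ * (k * l)]
    have hM : M.det = 1 := by
      simp only [M, Matrix.det_fin_two_of, hLZ]
      linear_combination ((k : ℤ) * (l - 1)) * hb
    refine ⟨⟨⟨M, hM⟩, mem_Gamma0_of_dvd (show (L : ℤ) ∣ (L : ℤ) * (l - 1) from dvd_mul_right _ _)⟩,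
      ?_, ?_⟩
    · have hbR : (i : ℝ) * (1 + i₀ * k) - i₀ * (1 + i * (k * l)) = q * b := by exact_mod_cast hb
      rw [hfib]
      ext r s
      fin_cases r <;> fin_cases s <;>
        simp [baseFirst, M, -MonoidHom.coe_comp, gamma0GL_mk_apply, Matrix.mul_apply, Fin.sum_univ_two, hLR, ← hi₀,
          -ZMod.natCast_val]
      all_goals field_simp
      · linear_combination (k : ℝ) * hbR
      · linear_combination hbR
      all_goals ring
    · rw [hfib]
      show ((1 + (i : ℤ) * (k * l) - i * k : ℤ) : ZMod q) = _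
      push_cast at hiq hlq ⊢
      rw [hiq, hlq]
      simp only [Option.elim_none]
      linear_combination hv
  · have hfib : fibFirst k q (u, m) = some (u * (Units.mk0 _ hv)⁻¹) := dif_neg hv
    set j := ((u * (Units.mk0 _ hv)⁻¹ : (ZMod q)ˣ) : ZMod q).val with hj
    have hjq : ((j : ℤ) : ZMod q) = (u : ZMod q) * (1 + (u : ZMod q) * k * m)⁻¹ := by
      rw [hj, Int.cast_natCast, ZMod.natCast_zmod_val]
      simp
    obtain ⟨b, hb⟩ : (q : ℤ) ∣ i - j * (1 + i * (k * l)) := by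
      rw [← ZMod.intCast_zmod_eq_zero_iff_dvd]
      push_cast at hiq hlq hjq ⊢
      rw [hiq, hlq, hjq, show 1 + (u : ZMod q) * ((k : ZMod q) * m) = 1 + (u : ZMod q) * k * m by
        ring, mul_assoc, inv_mul_cancel₀ hv, mul_one, sub_self]
    let M : Matrix (Fin 2) (Fin 2) ℤ :=
      !![1 + i * (k * l), b; (L : ℤ) * l, 1 - j * (k * l)]
    have hM : M.det = 1 := by
      simp only [M, Matrix.det_fin_two_of, hLZ]
      linear_combination ((k : ℤ) * l) * hb
    refine ⟨⟨⟨M, hM⟩, mem_Gamma0_of_dvd (show (L : ℤ) ∣ (L : ℤ) * l from dvd_mul_right _ _)⟩,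
      ?_, ?_⟩
    · have hbR : (i : ℝ) - j * (1 + i * (k * l)) = q * b := by exact_mod_cast hb
      rw [hfib]
      ext r s
      fin_cases r <;> fin_cases s <;>
        simp [baseFirst, M, -MonoidHom.coe_comp, gamma0GL_mk_apply, Matrix.mul_apply, Fin.sum_univ_two, hLR, ← hj,
          -ZMod.natCast_val, -Units.val_mul]
      all_goals field_simp
      · linear_combination hbR
      all_goals ring
    · rw [hfib]
      show ((1 + (i : ℤ) * (k * l) : ℤ) : ZMod q) = _
      push_cast at hiq hlq ⊢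
      rw [hiq, hlq]
      simp only [Option.elim_some]
      ring

/-- **The first pushforward of a twisted class vanishes.** -/
theorem sum_twistFun_first (hL : L = q * k) (hqk : ¬ q ∣ k) (hqL : q ∣ L) (ε : (ZMod q)ˣ →* Rˣ)
    (hε : ∑ x : (ZMod q)ˣ, (ε x : R) = 0) {f : Gamma0 L → V}
    (hf : ∀ g h, f (g * h) = f g + (gamChar (sqChar hqL ε) g : R) • f h)
    (g : Gamma0 L) (π : ZMod q ≃ ZMod q) (h : ZMod q → Gamma0 (L * q))
    (hrel : ∀ m : ZMod q, lowerGL ((L : ℝ) * m.val) * gamma0GL L g =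
      gamma0GL (L * q) (h m) * lowerGL ((L : ℝ) * (π m).val)) :
    ∑ m, twistFun hqL ε f (h m) = 0 := by
  classical
  have hk : (k : ZMod q) ≠ 0 := by rwa [Ne, ZMod.natCast_eq_zero_iff]
  choose θ hθ hθ0 using exists_thetaFirst (L := L) hL hqk
  refine sum_twist_trace_eq_zero hqL ε hf g (fun m => lowerGL ((L : ℝ) * m.val)) π h hrel
    (fibFirst k q) θ (baseFirst L k q) hθ (baseFirst_unique hL hqk) fun y => ?_
  set K : (ZMod q)ˣ := Units.mk0 (k : ZMod q) hk with hK
  rcases y with _ | a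
  · refine (Finset.sum_bij' (t := (Finset.univ : Finset (ZMod q)ˣ))
      (g := fun u => (ε u : R) * (ε (-K) : R) ^ 2)
      (i := fun x _ => x.1) (j := fun u _ => (u, (((-(u * K))⁻¹ : (ZMod q)ˣ) : ZMod q)))
      (fun _ _ => Finset.mem_univ _) (fun u _ => ?_) (fun x hx => ?_) (fun _ _ => rfl)
      (fun x hx => ?_)).trans (by rw [← Finset.sum_mul, hε, zero_mul])
    · rw [Finset.mem_filter]
      refine ⟨Finset.mem_univ _, dif_pos ?_⟩
      simp only [hK, Units.val_neg, Units.val_mul, Units.val_inv_eq_inv_val, Units.val_mk0]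
      field_simp
      ring
    · have hv := (Finset.mem_filter.mp hx).2
      simp only [fibFirst, dite_eq_left_iff, reduceCtorEq, imp_false, not_not] at hv
      refine Prod.ext rfl ?_
      simp only [hK, Units.val_neg, Units.val_mul, Units.val_inv_eq_inv_val, Units.val_mk0]
      field_simp
      linear_combination -hv
    · have hv := (Finset.mem_filter.mp hx).2
      have h0 := hθ0 x
      rw [hv, Option.elim_none] at h0
      rw [gamChar_sqChar hqL ε (θ x) (-(x.1 * K)) (by rw [h0]; simp [hK]),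
        ← Units.val_pow_eq_pow_val, ← Units.val_pow_eq_pow_val, ← Units.val_mul, ← Units.val_mul]
      refine congrArg Units.val ?_
      rw [show -(x.1 * K) = x.1 * -K by rw [mul_neg], map_mul, mul_pow, ← mul_assoc]
      congr 1
      rw [sq, inv_mul_cancel_left]
  · refine (Finset.sum_bij' (t := (Finset.univ : Finset (ZMod q)ˣ))
      (g := fun v => (ε v : R) * (((ε a)⁻¹ : Rˣ) : R))
      (i := fun x _ => a⁻¹ * x.1)
      (j := fun v _ => (a * v, ((v : ZMod q) - 1) * (((a * v * K)⁻¹ : (ZMod q)ˣ) : ZMod q)))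
      (fun _ _ => Finset.mem_univ _) (fun v _ => ?_) (fun x hx => ?_) (fun v _ => by simp)
      (fun x hx => ?_)).trans (by rw [← Finset.sum_mul, hε, zero_mul])
    · rw [Finset.mem_filter]
      refine ⟨Finset.mem_univ _, ?_⟩
      have hval : (1 + ((a * v : (ZMod q)ˣ) : ZMod q) * k *
          (((v : ZMod q) - 1) * (((a * v * K)⁻¹ : (ZMod q)ˣ) : ZMod q))) = v := by
        simp only [hK, Units.val_mul, Units.val_inv_eq_inv_val, Units.val_mk0]
        field_simp
        ring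
      rw [fibFirst, dif_neg (by rw [hval]; exact v.ne_zero)]
      refine congrArg some ?_
      rw [show Units.mk0 _ _ = v from Units.ext hval, mul_inv_cancel_right]
    · have hv := (Finset.mem_filter.mp hx).2
      simp only [fibFirst] at hv
      split_ifs at hv with h0
      simp only [Option.some.injEq, mul_inv_eq_iff_eq_mul] at hv
      have hx1 : (x.1 : ZMod q) = a * (1 + (x.1 : ZMod q) * k * x.2) := congrArg Units.val hv
      refine Prod.ext (by simp) ?_
      simp only [hK, mul_inv_cancel_left, Units.val_mul, Units.val_inv_eq_inv_val, Units.val_mk0]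
      field_simp
      linear_combination hx1
    · have hv := (Finset.mem_filter.mp hx).2
      have h0 := hθ0 x
      rw [hv, Option.elim_some] at h0
      simp only [fibFirst] at hv
      split_ifs at hv with hne
      simp only [Option.some.injEq, mul_inv_eq_iff_eq_mul] at hv
      rw [gamChar_sqChar hqL ε (θ x) (a⁻¹ * x.1)
        (by rw [h0]; nth_rewrite 2 [hv]; simp), ← Units.val_pow_eq_pow_val, ← Units.val_mul,
        ← Units.val_mul]
      refine congrArg Units.val ?_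
      rw [map_mul, map_inv, mul_pow, sq (ε x.1), inv_pow]
      rw [← mul_assoc, mul_comm (ε x.1)⁻¹, mul_assoc, inv_mul_cancel_left, sq, mul_inv_rev]
      exact mul_right_comm _ _ _

theorem exists_thetaSecond (j : ZMod q) (u : (ZMod q)ˣ) :
    ∃ θ : Gamma0 L, shiftGL (((u : ZMod q).val : ℝ) / q) *
        ((ModularForm.heckeDiagMatrix q)⁻¹ * shiftGL (j.val : ℝ)) =
        gamma0GL L θ *
          (shiftGL ((((u : ZMod q) + j).val : ℝ) / q) * (ModularForm.heckeDiagMatrix q)⁻¹) ∧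
      (((θ : SL(2, ℤ)) 0 0 : ℤ) : ZMod q) = 1 := by
  have hq : (q : ℝ) ≠ 0 := Nat.cast_ne_zero.mpr (NeZero.ne q)
  obtain ⟨b, hb⟩ : (q : ℤ) ∣ ((u : ZMod q).val : ℤ) + j.val - ((u : ZMod q) + j).val := by
    rw [← ZMod.intCast_zmod_eq_zero_iff_dvd]
    push_cast
    simp
  refine ⟨⟨⟨!![1, b; 0, 1], by simp [Matrix.det_fin_two_of]⟩,
    mem_Gamma0_of_dvd (by simp)⟩, ?_, by simp⟩
  have hD : ((ModularForm.heckeDiagMatrix q)⁻¹ : GL (Fin 2) ℝ) =
      Matrix.GeneralLinearGroup.mkOfDetNeZero !![(q : ℝ)⁻¹, 0; 0, 1] (by simp [hq]) := by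
    refine inv_eq_of_mul_eq_one_right ?_
    ext r s
    fin_cases r <;> fin_cases s <;>
      simp [Matrix.mul_apply, Fin.sum_univ_two, ModularForm.val_heckeDiagMatrix (NeZero.ne q),
        Matrix.GeneralLinearGroup.mkOfDetNeZero, hq]
  have hbR : ((u : ZMod q).val : ℝ) + j.val - ((u : ZMod q) + j).val = q * b := by
    exact_mod_cast hb
  rw [hD]
  ext r s
  fin_cases r <;> fin_cases s <;>
    simp [-MonoidHom.coe_comp, gamma0GL_mk_apply, Matrix.mul_apply, Fin.sum_univ_two,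
      Matrix.GeneralLinearGroup.mkOfDetNeZero, -ZMod.natCast_val]
  field_simp
  linear_combination hbR

/-- **The second pushforward of a twisted class vanishes.** -/
theorem sum_twistFun_second (hqL : q ∣ L) (ε : (ZMod q)ˣ →* Rˣ)
    (hε : ∑ x : (ZMod q)ˣ, (ε x : R) = 0) {f : Gamma0 L → V}
    (hf : ∀ g h, f (g * h) = f g + (gamChar (sqChar hqL ε) g : R) • f h)
    (g : Gamma0 L) (π : ZMod q ≃ ZMod q) (h : ZMod q → Gamma0 (L * q))
    (hrel : ∀ j : ZMod q,
      ((ModularForm.heckeDiagMatrix q)⁻¹ * shiftGL (j.val : ℝ)) * gamma0GL L g =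
        gamma0GL (L * q) (h j) *
          ((ModularForm.heckeDiagMatrix q)⁻¹ * shiftGL ((π j).val : ℝ))) :
    ∑ j, twistFun hqL ε f (h j) = 0 := by
  classical
  have hq : (q : ℝ) ≠ 0 := Nat.cast_ne_zero.mpr (NeZero.ne q)
  choose θ hθ hθ0 using fun x : (ZMod q)ˣ × ZMod q => exists_thetaSecond (L := L) x.2 x.1
  refine sum_twist_trace_eq_zero hqL ε hf g
    (fun j => (ModularForm.heckeDiagMatrix q)⁻¹ * shiftGL (j.val : ℝ)) π h hrel
    (fun x => (x.1 : ZMod q) + x.2) θ
    (fun b => shiftGL ((b.val : ℝ) / q) * (ModularForm.heckeDiagMatrix q)⁻¹) hθ ?_ ?_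
  · intro a b c hc
    rw [← mul_assoc, mul_left_inj] at hc
    have h00 := congrArg (fun g : GL (Fin 2) ℝ => g 0 0) hc
    have h01 := congrArg (fun g : GL (Fin 2) ℝ => g 0 1) hc
    simp [Matrix.mul_apply, Fin.sum_univ_two, -ZMod.natCast_val] at h00 h01
    rw [h00] at h01
    have hZ : (a.val : ℤ) + (q : ℤ) * ((c : SL(2, ℤ)) 0 1) = b.val := by
      apply Int.cast_injective (α := ℝ)
      push_cast
      field_simp at h01
      linear_combination h01
    have h := congrArg (Int.cast : ℤ → ZMod q) hZ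
    push_cast at h
    rwa [ZMod.natCast_zmod_val, ZMod.natCast_zmod_val, ZMod.natCast_self, zero_mul, add_zero] at h
  · intro y
    rw [Finset.sum_bij' (t := (Finset.univ : Finset (ZMod q)ˣ))
      (g := fun u => (((ε u)⁻¹ : Rˣ) : R))
      (i := fun x _ => x.1) (j := fun u _ => (u, y - (u : ZMod q)))
      (fun _ _ => Finset.mem_univ _) (fun u _ => by simp) (fun x hx => ?_) (fun _ _ => rfl)
      (fun x _ => ?_)]
    · exact sum_inv_eq_zero hε
    · have := (Finset.mem_filter.mp hx).2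
      exact Prod.ext rfl (by rw [← this]; simp)
    · rw [gamChar_sqChar hqL ε (θ x) 1 (by rw [hθ0 x, Units.val_one]), map_one, Units.val_one,
        one_pow, mul_one]

end FLTA.RT
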