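import Fermat.Agent.RT.CoeffChain
import Fermat.Agent.RT.TwistPush
import Fermat.Agent.RT.HeckeLocalBoundary
import Fermat.Agent.Kummer.HeckeReps

/-!
# Twisting down to one prime and then away

`exists_realisation_to`: twisting away a set of components of the coefficient character, the others
being kept.  `exists_parabolic_of_twist`: twisting away the last component at `q` gives a parabolic
eigenhomomorphism at the level `N q` whose two traces to level `N` vanish.
-/

set_option autoImplicit false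

noncomputable section

universe u

open CongruenceSubgroup ModularCurve.Period
open scoped MatrixGroups

namespace FLTA.RT

open FLTA.Periods FLTA.LevelRaising

variable {K : Type u} [Field K] [CharZero K]

/-- A unit modulo `L' q` trivial modulo `L'` with a given reduction modulo `q`. -/
theorem exists_unit_crt {L' q : ℕ} (hcop : L'.Coprime q) (v : (ZMod q)ˣ) :
    ∃ x : (ZMod (L' * q))ˣ, ZMod.unitsMap (dvd_mul_right L' q) x = 1 ∧
      ZMod.unitsMap (dvd_mul_left q L') x = v := by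
  let e := ZMod.chineseRemainder hcop
  refine ⟨(Units.mapEquiv e.toMulEquiv).symm (MulEquiv.prodUnits.symm (1, v)), ?_, ?_⟩
  · refine Units.ext ?_
    have := RingHom.congr_fun (RingHom.ext_zmod ((RingHom.fst _ _).comp e.toRingHom)
      (ZMod.castHom (dvd_mul_right L' q) (ZMod L'))) (e.symm (1, (v : ZMod q)))
    show ZMod.castHom (dvd_mul_right L' q) (ZMod L') (e.symm (1, (v : ZMod q))) = 1
    rw [← this, RingHom.comp_apply, RingEquiv.toRingHom_eq_coe, RingHom.coe_coe,
      RingEquiv.apply_symm_apply]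
    rfl
  · refine Units.ext ?_
    have := RingHom.congr_fun (RingHom.ext_zmod ((RingHom.snd _ _).comp e.toRingHom)
      (ZMod.castHom (dvd_mul_left q L') (ZMod q))) (e.symm (1, (v : ZMod q)))
    show ZMod.castHom (dvd_mul_left q L') (ZMod q) (e.symm (1, (v : ZMod q))) = v
    rw [← this, RingHom.comp_apply, RingEquiv.toRingHom_eq_coe, RingHom.coe_coe,
      RingEquiv.apply_symm_apply]
    rfl

/-- Iterated twisting, keeping the components in `T`. -/
theorem exists_realisation_to (T Q₀ : Finset ℕ) :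
    ∀ (L : ℕ) [NeZero L] (ε : ∀ q : ℕ, (ZMod q)ˣ →* Kˣ), Disjoint Q₀ T →
      (∀ q ∈ Q₀ ∪ T, q.Prime ∧ q ∣ L ∧ ¬ q * q ∣ L) → (∀ q ∈ Q₀, ε q ^ 2 = 1 → ε q = 1) →
      ∀ χ : (ZMod L)ˣ →* Kˣ, χ = sigProd L (Q₀ ∪ T) ε →
      ∃ (N : ℕ) (_ : NeZero N) (P : ℕ), N * P = L * (∏ q ∈ Q₀, q) ∧
        (∀ q ∈ T, q ∣ N ∧ ¬ q * q ∣ N) ∧ (∀ l : ℕ, l.Prime → l ∣ N → l ∣ L) ∧
        ∃ J : tH1 (gamChar χ) K →ₗ[K] tH1 (gamChar (sigProd N T ε)) K, Function.Injective J ∧
          ∀ l : ℕ, l.Prime → ¬ l ∣ L → ∀ x,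
            J ((kap Q₀ ε l : K) • (natHecke χ l).app K x) =
              (natHecke (sigProd N T ε) l).app K (J x) := by
  classical
  induction Q₀ using Finset.induction_on with
  | empty =>
    intro L _ ε _ hQ _ χ hχ
    rw [Finset.empty_union] at hQ hχ
    refine ⟨L, inferInstance, 1, by simp, fun q hq => ⟨(hQ q hq).2.1, (hQ q hq).2.2⟩,
      fun l _ h => h, (tH1Cast (V := K) hχ).toLinearMap, (tH1Cast (V := K) hχ).injective,
      fun l hl hlL x => ?_⟩
    rw [show kap ∅ ε l = 1 from Finset.prod_empty, Units.val_one, one_smul]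
    exact tH1Cast_natHecke (V := K) hχ l x
  | @insert q s hqs ih =>
    intro L _ ε hdisj hQ hodd χ hχ
    obtain ⟨hqp, hqL, hqq⟩ := hQ q (by simp)
    have hqT : q ∉ T := Finset.disjoint_left.mp hdisj (Finset.mem_insert_self q s)
    have hsT : Disjoint s T := hdisj.mono_left (Finset.subset_insert q s)
    have hqsT : q ∉ s ∪ T := by simp [hqs, hqT]
    have hins : insert q s ∪ T = insert q (s ∪ T) := Finset.insert_union q s T
    have hs : ∀ r ∈ s ∪ T, r.Prime ∧ r ∣ L ∧ ¬ r * r ∣ L := fun r hr =>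
      hQ r (hins ▸ Finset.mem_insert_of_mem hr)
    have hodd' : ∀ r ∈ s, ε r ^ 2 = 1 → ε r = 1 := fun r hr =>
      hodd r (Finset.mem_insert_of_mem hr)
    have hsplit : ∀ y, χ y = sigChar L (ε q) y ^ 2 * sigProd L (s ∪ T) ε y := fun y => by
      rw [hχ, sigProd_apply, sigProd_apply, hins, Finset.prod_insert hqsT]
    by_cases hε : ε q = 1
    · -- nothing to twist
      have hχ' : χ = sigProd L (s ∪ T) ε := MonoidHom.ext fun y => by
        rw [hsplit, sigChar_of_dvd _ hqL, hε, MonoidHom.one_apply, one_pow, one_mul]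
      obtain ⟨N, hN, P, hNP, hT, hNL, J, hJ, hJT⟩ := ih L ε hsT hs hodd' χ hχ'
      refine ⟨N, hN, P * q, ?_, hT, hNL, J, hJ, fun l hl hlL x => ?_⟩
      · rw [← mul_assoc, hNP, Finset.prod_insert hqs]
        ring
      · have : epsAt (ε q) l = 1 := by
          unfold epsAt
          split_ifs <;> simp [hε]
        rw [kap, Finset.prod_insert hqs, this, one_mul]
        exact hJT l hl hlL x
    · -- twist away the component at `q`
      have := Fact.mk hqp
      have : NeZero q := ⟨hqp.ne_zero⟩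
      have : NeZero (L * q) := ⟨mul_ne_zero (NeZero.ne L) hqp.ne_zero⟩
      obtain ⟨L', hL'⟩ := hqL
      have hL : L = L' * q := hL'.trans (mul_comm q L')
      have hqL : q ∣ L := ⟨L', hL'⟩
      have hcop : L'.Coprime q := ((hqp.coprime_iff_not_dvd).mpr fun h =>
        hqq (hL' ▸ mul_dvd_mul_left q h)).symm
      have hL0 : L' ≠ 0 := fun h => NeZero.ne L (by rw [hL', h, mul_zero])
      have hne : ∀ r ∈ s ∪ T, r ≠ q := fun r hr h => hqsT (h ▸ hr)
      have hs' : ∀ r ∈ s ∪ T, r.Prime ∧ r ∣ L * q ∧ ¬ r * r ∣ L * q := fun r hr =>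
        ⟨(hs r hr).1, dvd_mul_of_dvd_left (hs r hr).2.1 q, fun h => (hs r hr).2.2
          ((Nat.Coprime.dvd_of_dvd_mul_right (by
            have hco := (Nat.coprime_primes (hs r hr).1 hqp).mpr (hne r hr)
            exact Nat.Coprime.mul_left hco hco) h))⟩
      set χ' : (ZMod (L * q))ˣ →* Kˣ := sigProd (L * q) (s ∪ T) ε
      have hχ' : ∀ γ, gamChar χ (inclHom L q γ) = gamChar χ' γ * ε q (aMod L q γ) ^ 2 := by
        intro γ
        rw [gamChar_apply, gamChar_apply, hsplit, aUnit_incl, mul_comm]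
        refine congrArg₂ (· * ·) ?_ ?_
        · rw [sigProd_apply, sigProd_apply]
          exact Finset.prod_congr rfl fun r hr => by rw [sigChar_unitsMap _ (hs r hr).2.1]
        · rw [sigChar_unitsMap _ hqL, sigChar_of_dvd _ (dvd_mul_left q L)]
          rfl
      obtain ⟨N, hN, P, hNP, hT, hNL, J, hJ, hJT⟩ := ih (L * q) ε hsT hs' hodd' χ' rfl
      obtain ⟨v, hv⟩ : ∃ v, ε q v ^ 2 ≠ 1 := by
        by_contra! h
        exact hε (hodd q (Finset.mem_insert_self q s) (MonoidHom.ext fun v => by simpa using h v))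
      obtain ⟨x, hx1, hx2⟩ : ∃ x : (ZMod L)ˣ, ZMod.unitsMap (Dvd.intro q hL.symm) x = 1 ∧
          ZMod.unitsMap hqL x = v := by
        subst hL
        exact exists_unit_crt hcop v
      have hχx : χ x ≠ 1 := by
        rw [hsplit, sigChar_of_dvd _ hqL, hx2, sigProd_apply, Finset.prod_eq_one fun r hr => ?_,
          mul_one]
        · exact hv
        · have hrL' : r ∣ L' := ((Nat.coprime_primes (hs r hr).1 hqp).mpr (hne r hr)
            ).dvd_of_dvd_mul_right (hL ▸ (hs r hr).2.1)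
          rw [← sigChar_unitsMap _ hrL' (Dvd.intro q hL.symm), hx1, map_one, one_pow]
      refine ⟨N, hN, P, ?_, hT, fun l hl hd => ?_, J.comp (twistH (V := K) hqL (ε q) χ χ' hχ'),
        hJ.comp (twistH_injective hL hL0 hcop hqL (ε q) hε χ χ' hχ' x hx1 hχx),
        fun l hl hlL y => ?_⟩
      · rw [hNP, Finset.prod_insert hqs, mul_assoc]
      · exact (hl.dvd_mul.mp (hNL l hl hd)).elim id fun h =>
          ((Nat.prime_dvd_prime_iff_eq hl hqp).mp h) ▸ hqL
      · have := Fact.mk hl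
        have : NeZero l := ⟨hl.ne_zero⟩
        have hlq : l.Coprime q :=
          (Nat.coprime_primes hl hqp).mpr fun h => hlL (h ▸ hqL)
        have hlL' : ¬ l ∣ L * q := fun h => (hl.dvd_mul.mp h).elim hlL
          (hl.coprime_iff_not_dvd.mp hlq)
        have hχl : χ (ZMod.unitOfCoprime l (coprime_of_not_dvd hlL))
            = χ' (ZMod.unitOfCoprime l (coprime_of_not_dvd hlL'))
              * ε q (ZMod.unitOfCoprime l hlq) ^ 2 := by
          rw [hsplit, sigChar_unitOfCoprime _ hqL,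
            sigProd_unitOfCoprime _ (fun r hr => (hs r hr).2.1),
            sigProd_unitOfCoprime _ (fun r hr => (hs' r hr).2.1), epsAt, dif_pos hlq, mul_comm]
        rw [LinearMap.comp_apply, LinearMap.comp_apply, map_smul, natHecke_of_not_dvd χ hlL]
        show J ((kap (insert q s) ε l : K) • twistH (V := K) hqL (ε q) χ χ' hχ'
          ((isWeight_T χ hlL (coprime_of_not_dvd hlL)).op K y)) = _
        rw [twistH_opT hqL (ε q) χ χ' hχ' hlL hlL' (coprime_of_not_dvd hlL)
          (coprime_of_not_dvd hlL') hlq hχl (isWeight_T χ hlL _) (isWeight_T χ' hlL' _),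
          smul_smul, ← Units.val_mul, kap, Finset.prod_insert hqs, epsAt, dif_pos hlq,
          mul_comm (ε q _), mul_inv_cancel_right, ← hJT l hl hlL' _, kap,
          natHecke_of_not_dvd χ' hlL']
        rfl

/-- A representative `[1, j; 0, q]` is a scalar times `diag(q, 1)⁻¹ [1, j; 0, 1]`. -/
theorem exists_central_heckeMatrix (q : ℕ) [NeZero q] :
    ∃ z : GL (Fin 2) ℝ, (∀ g, z * g = g * z) ∧ ∀ j : ℕ,
      ModularForm.heckeMatrix q j = z * ((ModularForm.heckeDiagMatrix q)⁻¹ * shiftGL (j : ℝ)) := by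
  have hq : (q : ℝ) ≠ 0 := Nat.cast_ne_zero.mpr (NeZero.ne q)
  let z : GL (Fin 2) ℝ := Matrix.GeneralLinearGroup.mkOfDetNeZero !![(q : ℝ), 0; 0, q]
    (by simp [Matrix.det_fin_two_of, hq])
  have hzv : (z : Matrix (Fin 2) (Fin 2) ℝ) = (q : ℝ) • 1 := by
    ext r s
    fin_cases r <;> fin_cases s <;> simp [z, Matrix.GeneralLinearGroup.mkOfDetNeZero]
  refine ⟨z, fun g => Units.ext ?_, fun j => ?_⟩
  · simp [hzv]
  · have hD : ((ModularForm.heckeDiagMatrix q)⁻¹ : GL (Fin 2) ℝ) =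
        Matrix.GeneralLinearGroup.mkOfDetNeZero !![(q : ℝ)⁻¹, 0; 0, 1] (by simp [hq]) := by
      refine inv_eq_of_mul_eq_one_right ?_
      ext r s
      fin_cases r <;> fin_cases s <;>
        simp [Matrix.mul_apply, Fin.sum_univ_two, ModularForm.val_heckeDiagMatrix (NeZero.ne q),
          Matrix.GeneralLinearGroup.mkOfDetNeZero, hq]
    rw [hD]
    ext r s
    fin_cases r <;> fin_cases s <;>
      simp [hzv, Matrix.mul_apply, Fin.sum_univ_two, ModularForm.val_heckeMatrix (NeZero.ne q),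
        Matrix.GeneralLinearGroup.mkOfDetNeZero, hq]

theorem gamma0GL_lowerUni_eq (L : ℕ) (j : ℕ) :
    gamma0GL L (Kummer.lowerUni L (j : ℤ)) = lowerGL ((L : ℝ) * j) := by
  ext r s
  fin_cases r <;> fin_cases s <;>
    simp [Kummer.lowerUni, -MonoidHom.coe_comp, gamma0GL_mk_apply]

/-- **Twisting away the last component.** -/
theorem exists_parabolic_of_twist {N q : ℕ} [NeZero N] [NeZero (N * q)] [Fact q.Prime]
    (hqN : q ∣ N) (hqq : ¬ q * q ∣ N) (ε : (ZMod q)ˣ →* Kˣ) (hε : ε ^ 2 ≠ 1)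
    (χ : (ZMod N)ˣ →* Kˣ) (hχ : χ = sqChar hqN ε) (S : Finset ℕ)
    (y : tH1 (gamChar χ) K) (hy0 : y ≠ 0) (a : ℕ → K)
    (hy : ∀ l : ℕ, l.Prime → l ∉ S → ¬ l ∣ N →
      (epsAt ε l : K) • (natHecke χ l).app K y = a l • y)
    (hl₀ : ∃ l : ℕ, l.Prime ∧ l ∉ S ∧ ¬ l ∣ N * q ∧ (l : ZMod (N * q)) = 1 ∧ a l ≠ (l : K) + 1) :
    ∃ u : Additive (Gamma0 (N * q)) →+ K, u ≠ 0 ∧ IsParabolicHom (Gamma0 (N * q)) u ∧
      (∀ l : ℕ, l.Prime → l ∉ S → ¬ l ∣ N * q → heckeHom K (N * q) l u = a l • u) ∧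
      (∀ (g : Gamma0 N) (π : ZMod q ≃ ZMod q) (h : ZMod q → Gamma0 (N * q)),
        (∀ j : ZMod q, gamma0GL N (Kummer.lowerUni N (j.val : ℤ)) * gamma0GL N g =
          gamma0GL (N * q) (h j) * gamma0GL N (Kummer.lowerUni N ((π j).val : ℤ))) →
        ∑ j, u (Additive.ofMul (h j)) = 0) ∧
      ∀ (g : Gamma0 N) (π : ZMod q ≃ ZMod q) (h : ZMod q → Gamma0 (N * q)),
        (∀ j : ZMod q, ModularForm.heckeMatrix q j.val * gamma0GL N g =
          gamma0GL (N * q) (h j) * ModularForm.heckeMatrix q (π j).val) →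
        ∑ j, u (Additive.ofMul (h j)) = 0 := by
  classical
  subst hχ
  have hqp : q.Prime := Fact.out
  obtain ⟨k, hk⟩ := hqN
  have hqN : q ∣ N := ⟨k, hk⟩
  have hqk : ¬ q ∣ k := fun h => hqq (hk ▸ mul_dvd_mul_left q h)
  have hcop : k.Coprime q := (hqp.coprime_iff_not_dvd.mpr hqk).symm
  have hk0 : k ≠ 0 := fun h => NeZero.ne N (by rw [hk, h, mul_zero])
  have hN : N = k * q := hk.trans (mul_comm q k)
  have hχapp : ∀ y : (ZMod N)ˣ, sqChar hqN ε y = ε (ZMod.unitsMap hqN y) ^ 2 := fun y => rfl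
  have hχ1 : ∀ γ, gamChar (sqChar hqN ε) (inclHom N q γ) =
      gamChar (1 : (ZMod (N * q))ˣ →* Kˣ) γ * ε (aMod N q γ) ^ 2 := fun γ => by
    rw [gamChar_apply, gamChar_apply, hχapp, MonoidHom.one_apply, one_mul, aUnit_incl]
    congr 2
    exact Units.ext (by simp [aMod, ZMod.unitsMap_def])
  have htriv : ∀ γ (v : K), (gamChar (1 : (ZMod (N * q))ˣ →* Kˣ) γ : K) • v = v := fun γ v => by
    rw [gamChar_apply, MonoidHom.one_apply, Units.val_one, one_smul]
  obtain ⟨f, rfl⟩ := tClass_surjective _ y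
  let Φ := (tH1EquivHom htriv).toLinearMap.comp (twistH (V := K) hqN ε _ 1 hχ1)
  obtain ⟨v, hv⟩ : ∃ v, ε v ^ 2 ≠ 1 := by
    by_contra! h
    exact hε (MonoidHom.ext fun v => by simpa using h v)
  have hinj : Function.Injective Φ := by
    obtain ⟨x, hx1, hx2⟩ : ∃ x : (ZMod N)ˣ, ZMod.unitsMap (Dvd.intro q hN.symm) x = 1 ∧
        ZMod.unitsMap hqN x = v := by
      subst hN
      exact exists_unit_crt hcop v
    exact (tH1EquivHom htriv).injective.comp
      (twistH_injective hN hk0 hcop hqN ε (fun h => hε (MonoidHom.ext fun t => by simp [h])) _ _ hχ1 x hx1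
        (by rwa [hχapp, hx2]))
  let u := Φ (tClass _ K f)
  have hu : ∀ γ, u (Additive.ofMul γ) = twistFun hqN ε f.1 γ := fun γ => rfl
  have hu0 : u ≠ 0 := fun h => hy0 (hinj (h.trans (map_zero Φ).symm))
  have hT : ∀ l : ℕ, l.Prime → l ∉ S → ¬ l ∣ N * q → heckeHom K (N * q) l u = a l • u := by
    intro l hl hlS hlM
    have := Fact.mk hl
    have : NeZero l := ⟨hl.ne_zero⟩
    have hlN : ¬ l ∣ N := fun h => hlM (dvd_mul_of_dvd_left h q)
    have hlq : l.Coprime q :=
      (Nat.coprime_primes hl hqp).mpr fun h => hlM (h ▸ dvd_mul_left q N)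
    have h1 := congrArg Φ (hy l hl hlS hlN)
    rw [map_smul, map_smul, natHecke_of_not_dvd _ hlN] at h1
    rw [← h1]
    show _ = (epsAt ε l : K) • tH1EquivHom htriv (twistH (V := K) hqN ε _ 1 hχ1
      ((isWeight_T (sqChar hqN ε) hlN (coprime_of_not_dvd hlN)).op K (tClass _ K f)))
    rw [twistH_opT hqN ε _ 1 hχ1 hlN hlM (coprime_of_not_dvd hlN)
      (coprime_of_not_dvd hlM) hlq (by
        rw [hχapp, MonoidHom.one_apply, one_mul, unitsMap_unitOfCoprime])
      (isWeight_T _ hlN _) (isWeight_T _ hlM _), map_smul, smul_smul, ← Units.val_mul, epsAt,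
      dif_pos hlq, mul_inv_cancel, Units.val_one, one_smul]
    show heckeHom K (N * q) l (tH1EquivHom htriv (twistH (V := K) hqN ε _ 1 hχ1 (tClass _ K f))) = _
    rw [← tH1EquivHom_natHecke _ htriv hl, natHecke_of_not_dvd _ hlM]
    rfl
  refine ⟨u, hu0, ?_, hT, fun g π h hh => ?_, fun g π h hh => ?_⟩
  · obtain ⟨l, hl, hlS, hlM, hl1, hne⟩ := hl₀
    have := Fact.mk hl
    have h1 := isParabolicHom_of_eisenstein K (fun b hb => by simpa using hb) hlM hl1 u
    rw [hT l hl hlS hlM, ← Nat.cast_smul_eq_nsmul K, ← sub_smul, Nat.cast_succ] at h1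
    intro γ hγ
    exact (smul_eq_zero.mp (h1 γ hγ)).resolve_left (sub_ne_zero.mpr hne)
  all_goals
    have hsum : ∑ x : (ZMod q)ˣ, (ε x : K) = 0 :=
      sum_hom_units_eq_zero ((Units.coeHom K).comp ε) fun h1 => hε <| by
        ext t
        have h2 : (ε t : K) = 1 := congrArg (fun φ : (ZMod q)ˣ →* K => φ t) h1
        simp [h2]
    simp only [hu]
  · refine sum_twistFun_first hk hqk hqN ε hsum f.2 g π h fun m => ?_
    have h2 := hh m
    simpa only [gamma0GL_lowerUni_eq] using h2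
  · obtain ⟨z, hz, hzj⟩ := exists_central_heckeMatrix q
    refine sum_twistFun_second hqN ε hsum f.2 g π h fun j => ?_
    have h2 := hh j
    rw [hzj, hzj, ← mul_assoc (gamma0GL (N * q) (h j)) z, ← hz, mul_assoc z, mul_assoc z] at h2
    exact mul_left_cancel h2

end FLTA.RT

end
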