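import Fermat.Agent.BadRed.Toric
import Fermat.Agent.BadRed.ModularSym
import Fermat.Agent.LevelLowering.GlobalPlane
import Fermat.Agent.EllReducible.Basic
import Fermat.Prelude.Def_ModularCurve_HeckeModule

/-!
# The end of Mazur's principle at `q ≢ 1 (mod p)`

A copy of `E[p]` inside the toric classes of `J₀(M q)` at `q` is stable under the involution `w`,
as `Frob_q = -q w` there.  So the Frobenius at `q` is central in the image, hence a scalar of
square `q²` and determinant `q`, and `q ≡ 1 (mod p)`.
-/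

set_option autoImplicit false
set_option synthInstance.maxHeartbeats 400000
set_option maxHeartbeats 1000000

noncomputable section

open AlgebraicCurve ModularCurve WeierstrassCurve WeierstrassCurve.Affine.Point IsLocalRing

namespace FLTA.RT

open FLTA.EllReducible (Tors)

local notation "Qb" => AlgebraicClosure ℚ
local notation "Γ" => AlgebraicClosure ℚ ≃ₐ[ℚ] AlgebraicClosure ℚ

/-- An endomorphism commuting with a spanning set is a scalar. -/
theorem exists_eq_smul_one_of_span_eq_top {K V : Type*} [Field K] [AddCommGroup V] [Module K V]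
    {s : Set (Module.End K V)} (hs : Submodule.span K s = ⊤) (f : Module.End K V)
    (hf : ∀ g ∈ s, g * f = f * g) : ∃ c : K, f = c • (1 : Module.End K V) := by
  have hall : ∀ g : Module.End K V, g * f = f * g := fun g => by
    have hg : g ∈ Submodule.span K s := hs.symm ▸ Submodule.mem_top
    induction hg using Submodule.span_induction with
    | mem x hx => exact hf x hx
    | zero => rw [zero_mul, mul_zero]
    | add x y _ _ hx hy => rw [add_mul, mul_add, hx, hy]
    | smul a x _ hx => rw [smul_mul_assoc, mul_smul_comm, hx]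
  rcases subsingleton_or_nontrivial V with hV | hV
  · exact ⟨0, LinearMap.ext fun x => Subsingleton.elim _ _⟩
  obtain ⟨v, hv⟩ := exists_ne (0 : V)
  obtain ⟨φ, hφ⟩ : ∃ φ : V →ₗ[K] K, φ v = 1 := by
    obtain ⟨φ, hφ⟩ := LinearMap.exists_extend
      (LinearEquiv.coord K V v hv : K ∙ v →ₗ[K] K)
    refine ⟨φ, ?_⟩
    have h := LinearMap.congr_fun hφ ⟨v, Submodule.mem_span_singleton_self v⟩
    exact h.trans (LinearEquiv.coord_self K V v hv)
  refine ⟨φ (f v), LinearMap.ext fun x => ?_⟩
  have h := LinearMap.congr_fun (hall (φ.smulRight x)) v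
  simp only [Module.End.mul_apply, LinearMap.smulRight_apply, hφ, one_smul] at h
  rw [LinearMap.smul_apply, Module.End.one_apply]
  exact h.symm

section End

variable {W : WeierstrassCurve ℤ} (hΔ : W.Δ ≠ 0) {p : ℕ} [Fact p.Prime]
  {M q : ℕ} [NeZero M] [NeZero q] [hq : Fact q.Prime]
  {A : ValuationSubring (AlgebraicClosure ℚ)} (hA : A.LiesOverPrime q) (hqM : ¬ q ∣ M)
  [CharP (ResidueField A) q] [PerfectRing (ResidueField A) q]

/-- The involution commutes with Galois on classes. -/
theorem wAut_smul_galois (σ : Γ) (x : JZero (M * q)) :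
    (BadRed.badFibre M q A hA hqM).wAut • σ • x = σ • (BadRed.badFibre M q A hA hqM).wAut • x := by
  have h : (BadRed.badFibre M q A hA hqM).wAut *
      arithmeticGalois (modularFunctionFieldFull (M * q)) σ =
      arithmeticGalois (modularFunctionFieldFull (M * q)) σ *
        (BadRed.badFibre M q A hA hqM).wAut :=
    Subtype.ext (Prod.ext (RingEquiv.ext fun f => BadRed.galois_smul_swap M q _
      (BadRed.swapBar_alpha M q hqM) (BadRed.swapBar_beta M q hqM) σ f)
      (RingEquiv.ext fun _ => rfl))
  rw [galois_smul_pic0_def, galois_smul_pic0_def, ← mul_smul, ← mul_smul, h]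

include hΔ hA hqM in
/-- **Mazur's end.** An irreducible `E[p]` cannot consist of toric classes unless
`q ≡ 1 (mod p)`. -/
theorem false_of_toric_plane (hp2 : p ≠ 2) (hqp : q ≠ p) (hq1 : (q : ZMod p) ≠ 1)
    (hirr : GaloisRepIsIrreducible (K := Qb) ℚ (W.map (Int.castRingHom ℚ)) p)
    (iota : Tors (W.map (Int.castRingHom ℚ)) p →+ JZero (M * q))
    (hinj : Function.Injective iota)
    (hsmul : ∀ (σ : Γ) (x : Tors (W.map (Int.castRingHom ℚ)) p), iota (σ • x) = σ • iota x)
    (htor : ∀ x, (BadRed.badFibre M q A hA hqM).IsToric p (iota x)) : False := by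
  classical
  haveI := FLTA.Galois.isAlgClosed_residueField A
  haveI := FLTA.LevelLowering.isElliptic_map_rat hΔ
  have hp : p.Prime := Fact.out
  haveI : NeZero p := ⟨hp.ne_zero⟩
  obtain ⟨φ, hφ⟩ := FLTA.Galois.exists_isFrobeniusAt hq.out hA
  obtain ⟨s, hs, hsF⟩ := BadRed.exists_frobSym M q A hA hqM hφ
  have hpk : (p : ResidueField A) ≠ 0 := by
    rw [Ne, CharP.cast_eq_zero_iff (ResidueField A) q, Nat.prime_dvd_prime_iff_eq hq.out hp]
    exact hqp
  set w := (BadRed.badFibre M q A hA hqM).wAut with hwdef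
  have hqne : (q : ZMod p) ≠ 0 := by
    rw [Ne, ZMod.natCast_eq_zero_iff, Nat.prime_dvd_prime_iff_eq hp hq.out]
    exact fun h => hqp h.symm
  have hkey : ∀ x, φ • iota x = -(q • (w • iota x)) := fun x => by
    have h := (BadRed.badFibre M q A hA hqM).frob_smul_of_isToric hpk s hsF (htor x)
    rwa [hs, ← galois_smul_pic0_def] at h
  let ρ := galoisRepModuleEnd (K := Qb) ℚ (W.map (Int.castRingHom ℚ)) p
  have hρ : ∀ (g : Γ) x, ρ g x = g • x := fun g x => rfl
  set r : ZMod p := (q : ZMod p)⁻¹ with hrdef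
  let L : Module.End (ZMod p) (Tors (W.map (Int.castRingHom ℚ)) p) := -(r • ρ φ)
  have hιp : ∀ x, p • iota x = 0 := fun x => by
    rw [← map_nsmul]
    convert map_zero iota using 2
    rw [← Nat.cast_smul_eq_nsmul (ZMod p), ZMod.natCast_self, zero_smul]
  have hL : ∀ x, iota (L x) = w • iota x := fun x => by
    have hwp : p • (w • iota x) = 0 :=
      (map_nsmul (DistribSMul.toAddMonoidHom (Pic0 Qb (modularFunctionFieldBar (M * q))) w)
        p (iota x)).symm.trans ((congrArg (w • ·) (hιp x)).trans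
          (smul_zero (A := Pic0 Qb (modularFunctionFieldBar (M * q))) w))
    have e : ((r.val * q : ℕ) : ZMod p) = 1 := by
      rw [Nat.cast_mul, ZMod.natCast_zmod_val, hrdef, inv_mul_cancel₀ hqne]
    have hmod : (r.val * q) % p = 1 % p := by
      rw [← ZMod.val_natCast p (r.val * q), e, ← Nat.cast_one, ZMod.val_natCast]
    show iota (-(r • ρ φ x)) = _
    rw [map_neg, ← ZMod.natCast_zmod_val r, Nat.cast_smul_eq_nsmul, map_nsmul, hρ, hsmul, hkey,
      neg_nsmul, neg_neg, ← mul_nsmul']
    have h1 : r.val * q = 1 + p * ((r.val * q) / p) := by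
      have := Nat.mod_add_div (r.val * q) p
      rw [hmod, Nat.mod_eq_of_lt hp.one_lt] at this
      omega
    rw [h1, add_nsmul, one_nsmul, mul_comm p, mul_nsmul', hwp, nsmul_zero, add_zero]
  have hw2 : ∀ y : JZero (M * q), w • w • y = y := fun y => by
    have : w * w = 1 := Subtype.ext (Prod.ext
      (RingEquiv.ext fun f => BadRed.swapBar_swapBar M q hqM f) (RingEquiv.ext fun _ => rfl))
    rw [← mul_smul, this, one_smul]
  have hcomm : ∀ g, ρ g * L = L * ρ g := fun g => LinearMap.ext fun x => hinj (by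
    rw [Module.End.mul_apply, Module.End.mul_apply, hρ, hsmul, hL, hL, hρ, hsmul,
      wAut_smul_galois hA hqM g (iota x)])
  have hspan : Submodule.span (ZMod p) (Set.range ρ) = ⊤ :=
    FLTA.LevelLowering.planeRep_spans hΔ hp2 hirr
  obtain ⟨c, hc⟩ := exists_eq_smul_one_of_span_eq_top hspan L (by
      rintro _ ⟨g, rfl⟩
      exact hcomm g)
  obtain ⟨x, hx⟩ : ∃ x : Tors (W.map (Int.castRingHom ℚ)) p, x ≠ 0 :=
    haveI := hirr.1
    exists_ne 0
  have hc2 : c * c = 1 := by
    have h : L (L x) = x := hinj (by rw [hL, hL, hw2])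
    rw [hc] at h
    simp only [LinearMap.smul_apply, Module.End.one_apply, smul_smul] at h
    by_contra hne
    refine hx ((smul_eq_zero.mp ?_).resolve_left (sub_ne_zero.mpr hne))
    rw [sub_smul, h, one_smul, sub_self]
  have hρφ : ρ φ = (-(q : ZMod p) * c) • (1 : Module.End (ZMod p) _) := by
    have h : -((q : ZMod p)) • L = ρ φ := by
      show -((q : ZMod p)) • -(r • ρ φ) = ρ φ
      rw [neg_smul, smul_neg, neg_neg, smul_smul, hrdef, mul_inv_cancel₀ hqne, one_smul]
    rw [← h, hc, smul_smul]
  have hdet : LinearMap.det (ρ φ) = (q : ZMod p) := by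
    rw [EllTorsion.det_galoisRepModuleEnd_eq_cyclotomic _ p
      (IsAlgClosed.card_rootsOfUnity_eq Qb p) φ]
    exact FLTA.Galois.modularCyclotomicCharacter_frobenius hq.out hA hφ
      (fun h => hqp ((Nat.prime_dvd_prime_iff_eq hq.out hp).mp h)) _
  have hrank : Module.finrank (ZMod p) (Tors (W.map (Int.castRingHom ℚ)) p) = 2 :=
    (FLTA.LevelLowering.planeRep hΔ (p := p)).finrank_eq
  rw [hρφ, LinearMap.det_smul, map_one, mul_one, hrank] at hdet
  refine hq1 (mul_left_cancel₀ hqne ?_)
  linear_combination hdet - (q : ZMod p) ^ 2 * hc2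

end End

end FLTA.RT

end
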