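import Fermat.Agent.RT.MazurFrame
import Fermat.Agent.BadRed.Ramified.Toricity
import Fermat.Agent.BadRed.Ramified.CuspEta
import Fermat.Agent.BadRed.Ramified.CuspPlaces
import Fermat.Agent.LevelLowering.EtaUnitCusp
import Fermat.Agent.GenusKahler.Fibres

/-!
# The eta quotient on the fibre of `X₀(M q)` at `q`, `M` squarefree

`H = Δ(τ)/Δ(qτ)` has scalings of valuation difference `-12`; besides the two cusps of the fibre it
has at most `2 (d(M) - 1)` zeros and poles, while on each component the order of its reduction at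
each of `d(M) - 1` unglued cusps is `± (q - 1) B` with `B ∣ M`.
-/

set_option autoImplicit false
set_option synthInstance.maxHeartbeats 400000
set_option maxHeartbeats 800000

noncomputable section

open AlgebraicCurve ModularCurve IsLocalRing

namespace FLTA.RT

local notation "Qb" => AlgebraicClosure ℚ

theorem cuspCount_of_squarefree {N : ℕ} (h : Squarefree N) : cuspCount N = N.divisors.card := by
  rw [cuspCount, Finset.card_eq_sum_ones]
  refine Finset.sum_congr rfl fun d hd => ?_
  have hd' := Nat.dvd_of_mem_divisors hd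
  rw [Nat.Coprime.gcd_eq_one (Nat.coprime_of_squarefree_mul (by rwa [Nat.mul_div_cancel' hd'])),
    Nat.totient_one]

theorem dedekindPsi_of_squarefree {N : ℕ} (h : Squarefree N) :
    dedekindPsi N = ∑ d ∈ N.divisors, d := by
  rw [dedekindPsi, Finset.filter_true_of_mem fun d hd =>
    h.squarefree_of_dvd (Nat.dvd_of_mem_divisors hd)]
  exact Nat.sum_div_divisors N fun d => d

variable (M q : ℕ) [NeZero M] [NeZero q] [hq : Fact q.Prime]
  (A : ValuationSubring (AlgebraicClosure ℚ)) (hA : A.LiesOverPrime q) (hqM : ¬ q ∣ M)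
  [CharP (ResidueField A) q] [PerfectRing (ResidueField A) q]

/-- The eta quotient of level `M q`. -/
abbrev etaH : modularFunctionFieldBar (M * q) :=
  LevelLowering.etaUnit q (M * q) (dvd_mul_left q M)

/-- `j` in the reduced field. -/
abbrev jBarK : modularFunctionFieldFullC (ResidueField A) M :=
  Igusa.jEl M 1 (one_dvd M)

omit hq [CharP (ResidueField A) q] [PerfectRing (ResidueField A) q] in
theorem coe_jBarK : (jBarK M A : LaurentSeries (ResidueField A)) = jqModC (ResidueField A) := by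
  rw [Igusa.coe_jEl, qExpand_one_apply]

theorem etaSeries_mem : LevelLowering.etaSeries (ResidueField A) q ∈
    modularFunctionFieldFullC (ResidueField A) M :=
  LevelLowering.etaSeries_mem_fullC q hq.out (ResidueField A) M

/-- The reduction of `H` on the first component. -/
abbrev etaRed : modularFunctionFieldFullC (ResidueField A) M :=
  ⟨LevelLowering.etaSeries (ResidueField A) q, etaSeries_mem M q A⟩

theorem etaRed_ne_zero : etaRed M q A ≠ 0 := fun h =>
  LevelLowering.etaSeries_ne_zero (R := ResidueField A) q (congrArg Subtype.val h)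

/-- At a pole of `j` the reduction of `H` has order `q - 1` times that of `j`. -/
theorem ord_etaRed {u : Place (ResidueField A) (modularFunctionFieldFullC (ResidueField A) M)}
    (hu : u.ord (jBarK M A) < 0) :
    u.ord (etaRed M q A) = ((q : ℤ) - 1) * u.ord (jBarK M A) := by
  obtain ⟨P, hP, hdeg, hPe⟩ := LevelLowering.exists_poly_etaSeries_modP q hq.out
  obtain ⟨h, -⟩ := BadRed.Ramified.ord_eval₂_monic u hu (Int.castRingHom (ResidueField A)) hP
  rw [hdeg, Nat.cast_sub (NeZero.pos q), Nat.cast_one] at h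
  rw [← h]
  congr 1
  apply Subtype.ext
  rw [show ((P.eval₂ ((algebraMap (ResidueField A)
      (modularFunctionFieldFullC (ResidueField A) M)).comp (Int.castRingHom (ResidueField A)))
      (jBarK M A) : modularFunctionFieldFullC (ResidueField A) M) :
        LaurentSeries (ResidueField A)) =
      (modularFunctionFieldFullC (ResidueField A) M).val (P.eval₂ ((algebraMap (ResidueField A)
      (modularFunctionFieldFullC (ResidueField A) M)).comp (Int.castRingHom (ResidueField A)))
      (jBarK M A)) from rfl, ← AlgHom.coe_toRingHom, Polynomial.hom_eval₂]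
  refine (hPe (ResidueField A)).trans ?_
  congr 1
  · exact Subsingleton.elim _ _
  · exact (coe_jBarK M A).symm

theorem ex_w_etaH :
    ((BadRed.swapBar M q hqM (etaH M q) : modularFunctionFieldBar (M * q)) : LaurentSeries Qb) =
      algebraMap Qb (LaurentSeries Qb) ((q : Qb) ^ 12) * LevelLowering.etaSeriesInv Qb q := by
  have h := LevelLowering.w_etaUnit_mul q M (BadRed.swapBar M q hqM)
    (BadRed.swapBar_swapBar M q hqM) fun x => by
      rw [BadRed.swapBar_apply_alpha, coe_heckeBetaBar]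
  have h1 : ((BadRed.swapBar M q hqM (etaH M q) : modularFunctionFieldBar (M * q)) :
      LaurentSeries Qb) * LevelLowering.etaSeries Qb q =
      algebraMap Qb (LaurentSeries Qb) ((q : Qb) ^ 12) := congrArg Subtype.val h
  rw [← h1, mul_assoc, LevelLowering.etaSeries_mul_inv, mul_one]

/-- The scalings of `H`: `1` and `q ^ (-12)`. -/
theorem exists_scaledRed_etaH : ∃ d : (BadRed.badFibre M q A hA hqM).ScaledRed (etaH M q),
    d.c 0 = 1 ∧ d.c 1 = ((q : Qb) ^ 12)⁻¹ ∧ d.p 0 = etaRed M q A ∧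
      d.p 1 = (etaRed M q A)⁻¹ := by
  set BF := BadRed.badFibre M q A hA hqM
  have hinv : ((etaRed M q A)⁻¹ : modularFunctionFieldFullC (ResidueField A) M).val =
      LevelLowering.etaSeriesInv (ResidueField A) q := by
    rw [IntermediateField.coe_inv]
    exact inv_eq_of_mul_eq_one_right (LevelLowering.etaSeries_mul_inv q)
  refine ⟨⟨![1, ((q : Qb) ^ 12)⁻¹], ![etaRed M q A, (etaRed M q A)⁻¹],
    Fin.forall_fin_two.mpr ⟨etaRed_ne_zero M q A, inv_ne_zero (etaRed_ne_zero M q A)⟩,
    Fin.forall_fin_two.mpr ⟨?_, ?_⟩⟩, rfl, rfl, rfl, rfl⟩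
  · refine BadRed.BadFibre.HasRed.of_int BF ?_ ?_
    · show BadRed.IntSeries A (BF.e 0 ((1 : Qb) • etaH M q))
      rw [one_smul]
      exact LevelLowering.intSeries_etaSeries q A
    · show (etaRed M q A : LaurentSeries (ResidueField A)) =
        BadRed.redSeries A _ (BF.e 0 ((1 : Qb) • etaH M q))
      rw [one_smul]
      exact (LevelLowering.redSeries_etaSeries q A _).symm
  · have he : BF.e 1 (((q : Qb) ^ 12)⁻¹ • etaH M q) = LevelLowering.etaSeriesInv Qb q := by
      rw [Algebra.smul_def, map_mul, AlgHom.commutes]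
      show algebraMap Qb (LaurentSeries Qb) _ *
        ((BadRed.swapBar M q hqM (etaH M q) : modularFunctionFieldBar (M * q)) :
          LaurentSeries Qb) = _
      rw [ex_w_etaH, ← mul_assoc, ← map_mul,
        inv_mul_cancel₀ (pow_ne_zero _ (Nat.cast_ne_zero.mpr (NeZero.ne q))), map_one, one_mul]
    refine BadRed.BadFibre.HasRed.of_int BF ?_ ?_
    · show BadRed.IntSeries A (BF.e 1 (((q : Qb) ^ 12)⁻¹ • etaH M q))
      rw [he]
      exact LevelLowering.intSeries_etaSeriesInv q A
    · show ((etaRed M q A)⁻¹ : modularFunctionFieldFullC (ResidueField A) M).val =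
        BadRed.redSeries A _ (BF.e 1 (((q : Qb) ^ 12)⁻¹ • etaH M q))
      rw [he, hinv]
      exact (LevelLowering.redSeries_etaSeriesInv q A _).symm

theorem diffVal_etaH : (BadRed.badFibre M q A hA hqM).DiffVal (etaH M q) (-12) := by
  obtain ⟨d, h0, h1, -, -⟩ := exists_scaledRed_etaH M q A hA hqM
  refine ⟨d, ?_⟩
  have hq0 : (q : Qb) ≠ 0 := Nat.cast_ne_zero.mpr (NeZero.ne q)
  rw [h0, h1, div_one]
  refine ⟨inv_ne_zero (pow_ne_zero _ hq0), ?_, ?_⟩ <;>
    · rw [show ((q : Qb) ^ (-12 : ℤ)) = ((q : Qb) ^ 12)⁻¹ by rw [zpow_neg]; rfl,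
        div_self (inv_ne_zero (pow_ne_zero _ hq0))]
      exact A.one_mem

theorem fixed_etaH : (inertiaSys M q A hA hqM).Fixed (etaH M q) := fun s _ => by
  apply Subtype.ext
  ext i
  refine (s.ex_σ (etaH M q) i).trans ?_
  show SemilinearAut.baseAut s.σ ((LevelLowering.etaSeries Qb q).coeff i) =
    (LevelLowering.etaSeries Qb q).coeff i
  rw [LevelLowering.coeff_etaSeries_eq_intCast, map_intCast]

theorem bar_eq_fullC (L : ℕ) [NeZero L] :
    modularFunctionFieldBar L = modularFunctionFieldFullC Qb L :=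
  FLTA.Curves.laurentBaseChange_full_eq L Qb

/-- An embedding of level `q` with `j ↦ j(t^q)`, `j_q ↦ j` and `H ↦ q ^ 12 / H`. -/
theorem exists_swapExpansion :
    ∃ e : modularFunctionFieldFullC Qb q →ₐ[Qb] LaurentSeries Qb,
      e (Igusa.jEl q 1 (one_dvd q)) = Igusa.jExp 1 q ∧ e (Igusa.jEl q q dvd_rfl) = Igusa.jExp 1 1 ∧
      ∀ hH, (e ⟨LevelLowering.etaSeries Qb q, hH⟩).order = (q : ℤ) - 1 := by
  have h1q : ¬ q ∣ 1 := hq.out.not_dvd_one
  have hle : modularFunctionFieldFullC Qb q ≤ modularFunctionFieldBar (1 * q) :=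
    (bar_eq_fullC (1 * q)).symm ▸ Igusa.mem_full_of_dvd (dvd_mul_left q 1)
  refine ⟨((modularFunctionFieldBar (1 * q)).val.comp (BadRed.swapBar 1 q h1q)).comp
    (IntermediateField.inclusion hle), ?_, ?_, fun hH => ?_⟩
  · show ((BadRed.swapBar 1 q h1q (IntermediateField.inclusion hle (Igusa.jEl q 1 (one_dvd q))) :
      modularFunctionFieldBar (1 * q)) : LaurentSeries Qb) = _
    rw [show IntermediateField.inclusion hle (Igusa.jEl q 1 (one_dvd q)) =
        heckeAlphaBar Qb 1 q (BadRed.jBar 1) from Subtype.ext (by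
          rw [coe_heckeAlphaBar]
          show (Igusa.jEl (K := Qb) q 1 (one_dvd q) : LaurentSeries Qb) = _
          rw [Igusa.coe_jEl, qExpand_one_apply]
          rfl),
      BadRed.swapBar_apply_alpha, coe_heckeBetaBar, Igusa.jExp_one]
    rfl
  · show ((BadRed.swapBar 1 q h1q (IntermediateField.inclusion hle (Igusa.jEl q q dvd_rfl)) :
      modularFunctionFieldBar (1 * q)) : LaurentSeries Qb) = _
    rw [show IntermediateField.inclusion hle (Igusa.jEl q q dvd_rfl) =
        heckeBetaBar Qb 1 q (BadRed.jBar 1) from Subtype.ext (by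
          rw [coe_heckeBetaBar]
          show (Igusa.jEl (K := Qb) q q dvd_rfl : LaurentSeries Qb) = _
          rw [Igusa.coe_jEl]
          rfl),
      show BadRed.swapBar 1 q h1q (heckeBetaBar Qb 1 q (BadRed.jBar 1)) =
        heckeAlphaBar Qb 1 q (BadRed.jBar 1) from DFunLike.congr_fun (BadRed.swapBar_beta 1 q h1q) _,
      coe_heckeAlphaBar, Igusa.jExp_one, qExpand_one_apply]
    rfl
  · show ((BadRed.swapBar 1 q h1q (IntermediateField.inclusion hle
      ⟨LevelLowering.etaSeries Qb q, hH⟩) : modularFunctionFieldBar (1 * q)) :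
        LaurentSeries Qb).order = _
    rw [show IntermediateField.inclusion hle ⟨LevelLowering.etaSeries Qb q, hH⟩ = etaH 1 q from
      Subtype.ext rfl, ex_w_etaH]
    have hne : LevelLowering.etaSeriesInv Qb q ≠ 0 := fun h => by
      simpa [h] using LevelLowering.etaSeries_mul_inv (R := Qb) q
    rw [HahnSeries.order_mul ((map_ne_zero _).mpr
      (pow_ne_zero _ (Nat.cast_ne_zero.mpr (NeZero.ne q)))) hne,
      algebraMap_laurentSeries_eq_single,
      HahnSeries.order_single (pow_ne_zero _ (Nat.cast_ne_zero.mpr (NeZero.ne q))), zero_add]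
    have h := congrArg HahnSeries.order (LevelLowering.etaSeries_mul_inv (R := Qb) q)
    rw [HahnSeries.order_mul (LevelLowering.etaSeries_ne_zero q) hne,
      LevelLowering.order_etaSeries, HahnSeries.order_one] at h
    linarith

/-- The poles of `j` in characteristic zero, with the orders of `H`. -/
theorem exists_etaH_places (hsq : Squarefree (M * q)) :
    ∃ v : Fin 2 → ℕ → Place Qb (modularFunctionFieldBar (M * q)),
      v 0 1 = (BadRed.badFibre M q A hA hqM).P 0 ∧ v 1 1 = (BadRed.badFibre M q A hA hqM).P 1 ∧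
      (∀ i, ∀ B ∈ M.divisors, |(v i B).ord (etaH M q)| = ((q : ℤ) - 1) * B) ∧
      ∀ w, (∀ i, ∀ B ∈ M.divisors, w ≠ v i B) → w.ord (etaH M q) = 0 := by
  classical
  set BF := BadRed.badFibre M q A hA hqM
  have hK : ((M * q : ℕ) : Qb) ≠ 0 := Nat.cast_ne_zero.mpr (NeZero.ne _)
  have hle : modularFunctionFieldBar (M * q) ≤ modularFunctionFieldFullC Qb (M * q) :=
    (bar_eq_fullC (M * q)).le
  have hHq : LevelLowering.etaSeries Qb q ∈ modularFunctionFieldFullC Qb q :=
    (bar_eq_fullC q).le (LevelLowering.etaSeries_mem_bar q q dvd_rfl)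
  have hjne : BadRed.jBar (M * q) ≠ 0 := BadRed.jBar_ne_zero _
  have hH0 : etaH M q ≠ 0 := LevelLowering.etaUnit_ne_zero q _ _
  obtain ⟨e1, he1, he1q, he1H⟩ := exists_swapExpansion q
  have h1q : (1 : ℤ) ≤ q := by exact_mod_cast NeZero.pos q
  have hB : ∀ (i : Fin 2) (B : ℕ), B ∣ M → ∃ v : Place Qb (modularFunctionFieldBar (M * q)),
      v.ord (BadRed.jBar (M * q)) = -((![1, q] i * B : ℕ) : ℤ) ∧
      |v.ord (etaH M q)| = ((q : ℤ) - 1) * B := by
    intro i B hB
    obtain ⟨A', hA'⟩ := hB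
    have hN : M * q = q * (A' * B) := by rw [hA']; ring
    have key : ∀ (φ : modularFunctionFieldFullC Qb (M * q) →ₐ[Qb] LaurentSeries Qb) (o : ℤ),
        (∃ x, x ≠ 0 ∧ ((φ x).order = 1 ∨ (φ x).order = -1)) →
        (φ (Igusa.jEl (M * q) 1 (one_dvd _))).order = -((![1, q] i * B : ℕ) : ℤ) →
        (∀ hx, (φ ⟨LevelLowering.etaSeries Qb q, hx⟩).order = o) →
        |o| = ((q : ℤ) - 1) * B →
        ∃ v : Place Qb (modularFunctionFieldBar (M * q)),
          v.ord (BadRed.jBar (M * q)) = -((![1, q] i * B : ℕ) : ℤ) ∧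
          |v.ord (etaH M q)| = ((q : ℤ) - 1) * B := by
      intro φ o ⟨x, hx0, hx⟩ hj hH ho
      have hx' : (x : LaurentSeries Qb) ∈ modularFunctionFieldBar (M * q) :=
        (bar_eq_fullC (M * q)).symm.le x.2
      obtain ⟨v, hv⟩ := BadRed.exists_seriesPlace (φ.comp (IntermediateField.inclusion hle))
        ⟨⟨x, hx'⟩, fun h => hx0 (Subtype.ext (show (x : LaurentSeries Qb) = 0 from
          congrArg Subtype.val h)), hx⟩
      refine ⟨v, ?_, ?_⟩
      · rw [hv _ hjne, ← hj, AlgHom.comp_apply]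
        congr 2
        exact Subtype.ext (by rw [Igusa.coe_jEl, qExpand_one_apply]; rfl)
      · rw [hv _ hH0, AlgHom.comp_apply]
        exact (congrArg (|·|) (hH (hle (etaH M q).2))).trans ho
    revert i
    refine Fin.forall_fin_two.mpr ⟨fun key => ?_, fun key => ?_⟩
    · obtain ⟨φ, hx, hj, hH⟩ := BadRed.Ramified.exists_cuspExpansion_over Qb q q 1
        (modularFunctionFieldFullC Qb q).val
        (by rw [IntermediateField.coe_val, Igusa.coe_jEl, Igusa.jExp_one])
        (by rw [IntermediateField.coe_val, Igusa.coe_jEl, Igusa.jExp_one]) (mul_one q) (M * q)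
        hsq hK A' B hN
      refine key φ ((B : ℤ) * (1 - q)) hx (by simpa using hj)
        (fun h => (hH ⟨_, hHq⟩ h).trans ?_) ?_
      · rw [IntermediateField.coe_val, LevelLowering.order_etaSeries]
      · rw [abs_mul, Nat.abs_cast, abs_of_nonpos (by omega)]
        ring
    · obtain ⟨φ, hx, hj, hH⟩ := BadRed.Ramified.exists_cuspExpansion_over Qb q 1 q e1 he1 he1q
        (one_mul q) (M * q) hsq hK A' B hN
      refine key φ ((B : ℤ) * ((q : ℤ) - 1)) hx (by simpa using hj)
        (fun h => (hH ⟨_, hHq⟩ h).trans ?_) ?_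
      · rw [he1H hHq]
      · rw [abs_mul, Nat.abs_cast, abs_of_nonneg (by omega)]
        ring
  choose v hv using fun (i : Fin 2) (B : {x // x ∈ M.divisors}) =>
    hB i B.1 (Nat.dvd_of_mem_divisors B.2)
  let vv : Fin 2 → ℕ → Place Qb (modularFunctionFieldBar (M * q)) := fun i B =>
    if h : B ∈ M.divisors then v i ⟨B, h⟩ else BF.P 0
  have hvv : ∀ i, ∀ B ∈ M.divisors, (vv i B).ord (BadRed.jBar (M * q)) =
      -((![1, q] i * B : ℕ) : ℤ) ∧ |(vv i B).ord (etaH M q)| = ((q : ℤ) - 1) * B := fun i B h => by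
    simp only [vv, dif_pos h]
    exact hv i ⟨B, h⟩
  -- these are all the poles of `j`
  obtain ⟨Z, hZ, -, hcard⟩ :=
    GenusKahler.exists_poles (L := Qb) (M * q) complexEmbedding.toRingHom
  have hj : Congruence.jGenBar (L := Qb) (M * q) 1 (one_dvd _) = Bridge.jF (M * q) Qb :=
    LevelLowering.jGenBar_eq_jElt (M * q) (one_dvd _)
  have hj' : BadRed.jBar (M * q) = Bridge.jF (M * q) Qb := by
    rw [← hj]
    exact Subtype.ext (by rw [Congruence.coe_jGenBar, qExpand_one_apply]; rfl)
  have hdist : Set.InjOn (fun x : Fin 2 × ℕ => ![1, q] x.1 * x.2)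
      ((Finset.univ ×ˢ M.divisors : Finset (Fin 2 × ℕ)) : Set (Fin 2 × ℕ)) := by
    rintro ⟨i, B⟩ hx ⟨i', B'⟩ hy h
    simp only [Finset.coe_product, Set.mem_prod, Finset.coe_univ, Set.mem_univ, true_and,
      Finset.mem_coe] at hx hy h
    have hq' : ∀ {C C' : ℕ}, C ∈ M.divisors → 1 * C = q * C' → False := fun hC h =>
      hqM ((Dvd.intro _ (h.symm.trans (one_mul _))).trans (Nat.dvd_of_mem_divisors hC))
    revert i i'
    refine Fin.forall_fin_two.mpr ⟨Fin.forall_fin_two.mpr ⟨fun h => ?_, fun h => ?_⟩,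
      Fin.forall_fin_two.mpr ⟨fun h => ?_, fun h => ?_⟩⟩
    · exact Prod.ext rfl (by simpa using h)
    · exact (hq' hx h).elim
    · exact (hq' hy h.symm).elim
    · exact Prod.ext rfl (Nat.eq_of_mul_eq_mul_left (NeZero.pos q) h)
  have hpos : ∀ i : Fin 2, 0 < ![1, q] i :=
    Fin.forall_fin_two.mpr ⟨Nat.one_pos, NeZero.pos q⟩
  have himg : (Finset.univ ×ˢ M.divisors).image (fun x : Fin 2 × ℕ => vv x.1 x.2) = Z := by
    refine Finset.eq_of_subset_of_card_le (fun w hw => ?_) ?_
    · obtain ⟨⟨i, B⟩, hx, rfl⟩ := Finset.mem_image.mp hw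
      have hBm := (Finset.mem_product.mp hx).2
      rw [hZ, ← hj', (hvv i B hBm).1, neg_lt_zero, Int.natCast_pos]
      exact Nat.mul_pos (hpos i) (Nat.pos_of_mem_divisors hBm)
    · rw [Finset.card_image_of_injOn, hcard, cuspCount_of_squarefree hsq,
        Nat.Coprime.card_divisors_mul (hq.out.coprime_iff_not_dvd.mpr hqM).symm,
        hq.out.divisors, Finset.card_insert_of_notMem (by simpa using hq.out.one_lt.ne),
        Finset.card_singleton, Finset.card_product, Finset.card_univ, Fintype.card_fin, mul_comm]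
      intro x hx y hy h
      refine hdist hx hy ?_
      have h1 := (hvv x.1 x.2 (Finset.mem_product.mp hx).2).1
      rw [show vv x.1 x.2 = vv y.1 y.2 from h, (hvv y.1 y.2 (Finset.mem_product.mp hy).2).1,
        neg_inj, Nat.cast_inj] at h1
      exact h1.symm
  have hmem : ∀ w, w.ord (BadRed.jBar (M * q)) < 0 →
      ∃ i, ∃ B ∈ M.divisors, vv i B = w ∧ w.ord (BadRed.jBar (M * q)) =
        -((![1, q] i * B : ℕ) : ℤ) := fun w hw => by
    rw [hj', ← hZ, ← himg, Finset.mem_image] at hw
    obtain ⟨⟨i, B⟩, hx, rfl⟩ := hw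
    exact ⟨i, B, (Finset.mem_product.mp hx).2, rfl, (hvv i B (Finset.mem_product.mp hx).2).1⟩
  have hfix : ∀ i : Fin 2, (BF.P i).ord (BadRed.jBar (M * q)) = -((![1, q] i : ℕ) : ℤ) →
      vv i 1 = BF.P i := fun i hi => by
    obtain ⟨i', B, hBm, hw, hord⟩ := hmem (BF.P i) (by
      rw [hi, neg_lt_zero, Int.natCast_pos]
      exact hpos i)
    rw [hi, neg_inj, Nat.cast_inj] at hord
    obtain ⟨rfl, rfl⟩ := Prod.mk.inj (hdist (x₁ := (i, 1)) (x₂ := (i', B)) (by
      simp [NeZero.ne M]) (by simpa using hBm)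
      (show ![1, q] i * 1 = _ by rw [mul_one]; exact hord))
    exact hw
  refine ⟨vv, hfix 0 ?_, hfix 1 ?_, fun i B h => (hvv i B h).2, fun w hw => ?_⟩
  · show (BadRed.cuspBar (M * q)).ord (BadRed.jBar (M * q)) = _
    rw [BadRed.ord_cuspBar_jBar]
    rfl
  · rw [← BadRed.jBar_mul M q]
    refine (BF.ord_P_one_a (BadRed.jBar_ne_zero M)).trans ?_
    show (q : ℤ) * (BadRed.cuspBar M).ord (BadRed.jBar M) = _
    rw [BadRed.ord_cuspBar_jBar, mul_neg_one]
    rfl
  · refine LevelLowering.ord_etaUnit_eq_zero q (M * q) (dvd_mul_left q M) w ?_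
    rw [hj, ← hj', ← not_lt]
    intro h
    obtain ⟨i, B, hBm, hvw, -⟩ := hmem w h
    exact hw i B hBm hvw.symm

/-- The poles of `j` in the reduced field are the images of those in characteristic `0`. -/
theorem mapDomain_poleDiv (hsq : Squarefree M) :
    Finsupp.mapDomain (PlaceRed.placeRed M hqM A hA)
        ((BadRed.badFibre M q A hA hqM).rr'.poleDiv (BadRed.jBar M)) =
      (BadRed.badFibre M q A hA hqM).rrk.poleDiv (jBarK M A) := by
  classical
  haveI : IsAlgClosed (ResidueField A) := FLTA.Galois.isAlgClosed_residueField A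
  set BF := BadRed.badFibre M q A hA hqM
  have hK := PlaceRed.natCast_residue_ne_zero M hqM A hA
  have hjint : BadRed.IntSeries A (BadRed.jBar M : LaurentSeries Qb) :=
    BadRed.Series.intSeries_jqModC (A := A)
  obtain ⟨hjmem, hjred⟩ := BadRed.red_of_intSeries M q A hA hqM (BadRed.jBar M) hjint
  have hjk : (PlaceRed.gaussRedModL M hqM A hA).red ⟨BadRed.jBar M, hjmem⟩ = jBarK M A :=
    Subtype.ext (by
      rw [hjred, coe_jBarK]
      show BadRed.redSeries A _ (jqModC Qb) = _
      rw [← coeffMap_jqModC A.subtype, BadRed.redSeries_coeffMap, coeffMap_jqModC])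
  have hjne : jBarK M A ≠ 0 := fun h => jqModC_ne_zero_of_nontrivial (ResidueField A)
    ((coe_jBarK M A).symm.trans (congrArg Subtype.val h))
  have hr := PlaceRed.isPlaceMap_placeRed M hqM A hA ⟨BadRed.jBar M, hjmem⟩
    (by rw [hjk]; exact hjne) (BF.rr'.divisorOf (BadRed.jBar M))
    fun P => BF.rr'.divisorOf_apply _ P
  rw [hjk] at hr
  -- the pushforward dominates
  have hle : BF.rrk.poleDiv (jBarK M A) ≤ Finsupp.mapDomain (PlaceRed.placeRed M hqM A hA)
      (BF.rr'.poleDiv (BadRed.jBar M)) := Finsupp.le_def.mpr fun Q => by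
    have hnn : 0 ≤ BF.rr'.divisorOf (BadRed.jBar M) + BF.rr'.poleDiv (BadRed.jBar M) :=
      Finsupp.le_def.mpr fun P => by
        simp only [Finsupp.coe_add, Pi.add_apply, Finsupp.coe_zero, Pi.zero_apply,
          PlaceRed.RRCurve.poleDiv_apply, PlaceRed.RRCurve.divisorOf_apply]
        omega
    have h2 := Finsupp.le_def.mp
      (PlaceRed.mapDomain_nonneg (PlaceRed.placeRed M hqM A hA) hnn) Q
    rw [Finsupp.mapDomain_add, Finsupp.add_apply, hr Q, Finsupp.zero_apply] at h2
    have h3 := Finsupp.le_def.mp (PlaceRed.mapDomain_nonneg (PlaceRed.placeRed M hqM A hA)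
      (BF.rr'.poleDiv_nonneg (BadRed.jBar M))) Q
    rw [Finsupp.zero_apply] at h3
    rw [PlaceRed.RRCurve.poleDiv_apply]
    omega
  refine (BF.rrk.eq_of_le_of_degree_le hle ?_).symm
  -- the degrees
  obtain ⟨Z, hZ, hsum, -⟩ :=
    GenusKahler.exists_poles (L := Qb) M complexEmbedding.toRingHom
  have hj : BadRed.jBar M = Bridge.jF M Qb := by
    show BadRed.jBar M = Bridge.jElt M Qb (one_dvd M)
    rw [← LevelLowering.jGenBar_eq_jElt M (one_dvd _)]
    exact Subtype.ext (by rw [Congruence.coe_jGenBar, qExpand_one_apply]; rfl)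
  rw [PlaceRed.degree_mapDomain_eq BF.rr' BF.rrk, PlaceRed.RRCurve.degree_eq_sum BF.rr', Finsupp.sum,
    show (BF.rr'.poleDiv (BadRed.jBar M)).support = Z by
      ext v
      rw [Finsupp.mem_support_iff, hZ, PlaceRed.RRCurve.poleDiv_apply, hj]
      omega,
    Finset.sum_congr rfl (fun v hv => show BF.rr'.poleDiv (BadRed.jBar M) v =
        -v.ord (Bridge.jF M Qb) by
      rw [PlaceRed.RRCurve.poleDiv_apply, hj]
      have := (hZ v).mp hv
      omega), hsum, dedekindPsi_of_squarefree hsq]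
  choose v hv using fun B (hB : B ∈ M.divisors) =>
    BadRed.Ramified.exists_cuspPlace (ResidueField A) M hsq hK (Nat.dvd_of_mem_divisors hB)
  have hD := BF.rrk.degree_mono (D := ∑ B ∈ M.divisors.attach,
      Finsupp.single (v B.1 B.2) (B.1 : ℤ)) (E := BF.rrk.poleDiv (jBarK M A))
    (Finsupp.le_def.mpr fun Q => by
      rw [Finsupp.finsetSum_apply, PlaceRed.RRCurve.poleDiv_apply]
      by_cases hx : ∃ B : {x // x ∈ M.divisors}, v B.1 B.2 = Q
      · obtain ⟨B, rfl⟩ := hx
        rw [Finset.sum_eq_single_of_mem B (Finset.mem_attach _ _) fun B' _ hB' =>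
          Finsupp.single_eq_of_ne fun h => hB' (Subtype.ext (by
            have h1 := hv B.1 B.2
            rw [h, hv B'.1 B'.2] at h1
            omega)), Finsupp.single_eq_same]
        rw [show (v B.1 B.2).ord (jBarK M A) = -(B.1 : ℤ) from hv B.1 B.2]
        omega
      · rw [Finset.sum_eq_zero fun B _ => Finsupp.single_eq_of_ne fun h => hx ⟨B, h.symm⟩]
        omega)
  rw [map_sum] at hD
  simp only [BF.rrk.degree_single_eq] at hD
  rw [Finset.sum_attach M.divisors (fun x => (x : ℤ))] at hD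
  rw [Nat.cast_sum]
  exact hD

theorem badFibre_inf : (BadRed.badFibre M q A hA hqM).inf = BadRed.cuspBar M := rfl

theorem badFibre_infk :
    (BadRed.badFibre M q A hA hqM).infk = BadRed.cuspFullC (ResidueField A) M := rfl

theorem badFibre_a_jBar :
    (BadRed.badFibre M q A hA hqM).a (BadRed.jBar M) = BadRed.jBar (M * q) :=
  BadRed.jBar_mul M q

/-- A multiple of `H` with poles only at the two cusps. -/
theorem exists_mul_etaH_mem {x : modularFunctionFieldBar M} (hx0 : x ≠ 0) {d : ℕ}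
    (hxinf : x ∈ riemannRochSpace (Finsupp.single (BadRed.badFibre M q A hA hqM).inf (d : ℤ)))
    (hxord : ∀ c, c ≠ (BadRed.badFibre M q A hA hqM).inf →
      ((q : ℤ) - 1) * max (-c.ord (BadRed.jBar M)) 0 ≤ c.ord x) :
    ∃ l, (BadRed.badFibre M q A hA hqM).a x * etaH M q ∈
      riemannRochSpace ((BadRed.badFibre M q A hA hqM).cuspDiv l) := by
  haveI : IsAlgClosed (ResidueField A) := FLTA.Galois.isAlgClosed_residueField A
  set BF := BadRed.badFibre M q A hA hqM
  have hq1 : (1 : ℤ) ≤ q := by exact_mod_cast NeZero.pos q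
  have hax := BF.a_mem_riemannRochSpace hq.out.two_le hxinf
  obtain ⟨L, hL⟩ : ∃ L, L = q * d := ⟨_, rfl⟩
  rw [← hL] at hax
  have hax0 : BF.a x ≠ 0 := (map_ne_zero BF.a).mpr hx0
  have hH0 : etaH M q ≠ 0 := LevelLowering.etaUnit_ne_zero q _ _
  refine ⟨L + ((BF.P 0).ord (etaH M q)).natAbs + ((BF.P 1).ord (etaH M q)).natAbs,
    mem_riemannRochSpace_iff.mpr fun v => Or.inr ?_⟩
  rw [v.ord_mul hax0 hH0]
  have hv := (mem_riemannRochSpace_iff.mp hax v).resolve_left hax0
  by_cases h0 : v = BF.P 0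
  · rw [h0, BF.cuspDiv_apply hq.out.two_le] at hv ⊢
    simp only [Nat.cast_add] at hv ⊢
    omega
  by_cases h1 : v = BF.P 1
  · rw [h1, BF.cuspDiv_apply hq.out.two_le] at hv ⊢
    simp only [Nat.cast_add] at hv ⊢
    omega
  rw [BF.cuspDiv_apply_of_ne _ h0 h1] at hv ⊢
  -- compare with the multiple of `j`
  have hjne : BadRed.jBar M ≠ 0 := BadRed.jBar_ne_zero M
  have hy : ∀ c : Place Qb (modularFunctionFieldBar M), c ≠ BF.inf →
      0 ≤ c.ord (x * BadRed.jBar M ^ (q - 1)) := fun c hc => by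
    rw [c.ord_mul hx0 (pow_ne_zero _ hjne), FLTA.Curves.ord_pow, Nat.cast_sub (NeZero.pos q),
      Nat.cast_one]
    have h := hxord c hc
    have := mul_le_mul_of_nonneg_left (le_max_left (-c.ord (BadRed.jBar M)) 0)
      (sub_nonneg.mpr hq1)
    rw [mul_neg] at this
    omega
  have hy' : 0 ≤ v.ord (BF.a (x * BadRed.jBar M ^ (q - 1))) :=
    not_lt.mp fun hneg => by
      rcases BF.eq_P_of_ord_neg hq.out.two_le hy hneg with h | h
      · exact h0 h
      · exact h1 h
  rw [map_mul, map_pow, badFibre_a_jBar M q A hA hqM,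
    v.ord_mul hax0 (pow_ne_zero _ (BadRed.jBar_ne_zero _)), FLTA.Curves.ord_pow,
    Nat.cast_sub (NeZero.pos q), Nat.cast_one] at hy'
  have hj : Congruence.jGenBar (L := Qb) (M * q) 1 (one_dvd _) = BadRed.jBar (M * q) :=
    Subtype.ext (by rw [Congruence.coe_jGenBar, qExpand_one_apply]; rfl)
  have habs : |v.ord (etaH M q)| ≤
      ((q : ℤ) - 1) * max (-v.ord (BadRed.jBar (M * q))) 0 :=
    hj ▸ LevelLowering.abs_ord_etaUnit_le q (M * q) (dvd_mul_left q M) v
  rw [abs_le] at habs
  rcases le_or_gt 0 (v.ord (BadRed.jBar (M * q))) with hp | hp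
  · rw [max_eq_right (by omega), mul_zero] at habs
    omega
  · rw [max_eq_left (by omega), mul_neg] at habs
    omega

/-- The reduction of `H`. -/
theorem isRed_etaH : (BadRed.badFibre M q A hA hqM).IsRed (etaH M q) ![etaRed M q A, 0] := by
  set BF := BadRed.badFibre M q A hA hqM
  have he1 : BF.e 1 (etaH M q) =
      algebraMap Qb (LaurentSeries Qb) ((q : Qb) ^ 12) * LevelLowering.etaSeriesInv Qb q :=
    ex_w_etaH M q hqM
  have hq12 : ((q : Qb) ^ 12) ∈ A := pow_mem (natCast_mem A q) 12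
  have he1' : BF.e 1 (etaH M q) = ((q : Qb) ^ 12) • LevelLowering.etaSeriesInv Qb q := by
    rw [he1]
    ext i
    simp [algebraMap_laurentSeries_eq_single]
  refine ⟨Fin.forall_fin_two.mpr ⟨LevelLowering.intSeries_etaSeries q A, ?_⟩,
    Fin.forall_fin_two.mpr ⟨?_, ?_⟩⟩
  · show BadRed.IntSeries A (BF.e 1 (etaH M q))
    rw [he1']
    exact (LevelLowering.intSeries_etaSeriesInv q A).smul hq12
  · exact (LevelLowering.redSeries_etaSeries q A _).symm
  · show BF.exk 0 = BadRed.redSeries A _ (BF.e 1 (etaH M q))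
    rw [map_zero, he1',
      BadRed.redSeries_smul hq12 (LevelLowering.intSeries_etaSeriesInv q A)]
    have : IsLocalRing.residue A ⟨_, hq12⟩ = 0 := by
      rw [show (⟨_, hq12⟩ : A) = ((q : A)) ^ 12 from Subtype.ext (by push_cast; rfl), map_pow,
        map_natCast, CharP.cast_eq_zero, zero_pow (by norm_num)]
    rw [this, zero_smul]

/-- No pole of `j` other than `∞` is glued. -/
theorem notMem_of_pole (hsq : Squarefree M)
    {S : Finset (Place (ResidueField A) (modularFunctionFieldFullC (ResidueField A) M))} {m₀ : ℕ}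
    (hS : (BadRed.badFibre M q A hA hqM).IsGluing S m₀)
    {u : Place (ResidueField A) (modularFunctionFieldFullC (ResidueField A) M)}
    (hu : u.ord (jBarK M A) < 0) (hu' : u ≠ (BadRed.badFibre M q A hA hqM).infk) : u ∉ S :=
  haveI : IsAlgClosed (ResidueField A) := FLTA.Galois.isAlgClosed_residueField A
  BadRed.BadFibre.IsGluing.notMem_of_pole (BadRed.badFibre M q A hA hqM) hS
    (r := PlaceRed.placeRed M hqM A hA)
    (fun D hD => PlaceRed.reduces_mapDomain hqM hA
      (PlaceRed.isPlaceReductionModL_placeRed M hqM A hA) D hD)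
    (BadRed.placeRed_cuspBar M q A hA hqM) (mapDomain_poleDiv M q A hA hqM hsq)
    (isRed_etaH M q A hA hqM) (etaRed_ne_zero M q A)
    (fun _ _ hx hinf hord => exists_mul_etaH_mem M q A hA hqM hx hinf hord) hu hu'
    (ord_etaRed M q A hu)

theorem frobq_smul_jBarK :
    (BadRed.badFibre M q A hA hqM).frobq • jBarK M A = jBarK M A := by
  apply Subtype.ext
  ext i
  refine ((BadRed.badFibre M q A hA hqM).exk_frobq (jBarK M A) i).trans ?_
  show ((jBarK M A : LaurentSeries (ResidueField A)).coeff i) ^ q =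
    (jBarK M A : LaurentSeries (ResidueField A)).coeff i
  rw [coe_jBarK, ← coeffMap_jqModC (Int.castRingHom (ResidueField A)), coeffMap_coeff]
  rw [eq_intCast, ← frobenius_def, map_intCast]

/-- The places where `H` has zeros or poles, with matching unglued points of the components. -/
structure EtaCusps where
  /-- the zeros and poles of `H` -/
  v : Fin 2 → ℕ → Place Qb (modularFunctionFieldBar (M * q))
  /-- the cusps of the reduced field -/
  u : ℕ → Place (ResidueField A) (modularFunctionFieldFullC (ResidueField A) M)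
  ord_v : ∀ i, ∀ B ∈ M.divisors, |(v i B).ord (etaH M q)| = ((q : ℤ) - 1) * B
  ord_eq_zero : ∀ w, w ≠ (BadRed.badFibre M q A hA hqM).P 0 →
    w ≠ (BadRed.badFibre M q A hA hqM).P 1 →
    (∀ i, ∀ B ∈ M.divisors.erase 1, w ≠ v i B) → w.ord (etaH M q) = 0
  u_inj : ∀ B ∈ M.divisors.erase 1, ∀ B' ∈ M.divisors.erase 1, u B = u B' → B = B'
  ne_infk : ∀ B ∈ M.divisors.erase 1, u B ≠ (BadRed.badFibre M q A hA hqM).infk
  not_node : ∀ S m₀, (BadRed.badFibre M q A hA hqM).IsGluing S m₀ →
    ∀ (i : Fin 2), ∀ B ∈ M.divisors.erase 1, ∀ Q ∈ S,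
      (BadRed.badFibre M q A hA hqM).nodePt i Q ≠ u B
  ord_u : ∀ (dH : (BadRed.badFibre M q A hA hqM).ScaledRed (etaH M q)) (i : Fin 2),
    ∀ B ∈ M.divisors.erase 1, |Place.ord (u B) (dH.p i)| = ((q : ℤ) - 1) * B

/-- **The eta quotient with its unglued cusps.** -/
theorem nonempty_etaCusps (hsq : Squarefree (M * q)) : Nonempty (EtaCusps M q A hA hqM) := by
  classical
  haveI : IsAlgClosed (ResidueField A) := FLTA.Galois.isAlgClosed_residueField A
  set BF := BadRed.badFibre M q A hA hqM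
  have hK := PlaceRed.natCast_residue_ne_zero M hqM A hA
  have hjne : jBarK M A ≠ 0 := fun h => jqModC_ne_zero_of_nontrivial (ResidueField A)
    ((coe_jBarK M A).symm.trans (congrArg Subtype.val h))
  have hv0 : BF.infk.ord (jBarK M A) = -1 := by
    show (BadRed.cuspFullC (ResidueField A) M).ord (jBarK M A) = -1
    rw [BadRed.ord_cuspFullC _ M _ hjne, coe_jBarK, BadRed.order_jqModC]
  choose u hu using fun B : {x // x ∈ M.divisors} =>
    BadRed.Ramified.exists_cuspPlace (ResidueField A) M hsq.of_mul_left hK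
      (Nat.dvd_of_mem_divisors B.2)
  let uu : ℕ → Place (ResidueField A) (modularFunctionFieldFullC (ResidueField A) M) := fun B =>
    if h : B ∈ M.divisors then u ⟨B, h⟩ else BF.infk
  have huu : ∀ B ∈ M.divisors, (uu B).ord (jBarK M A) = -(B : ℤ) := fun B h => by
    simp only [uu, dif_pos h]
    exact hu ⟨B, h⟩
  have hneg : ∀ B ∈ M.divisors.erase 1, (uu B).ord (jBarK M A) < 0 := fun B h => by
    rw [huu B (Finset.mem_of_mem_erase h)]
    have := Nat.pos_of_mem_divisors (Finset.mem_of_mem_erase h)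
    omega
  have hne : ∀ B ∈ M.divisors.erase 1, uu B ≠ BF.infk := fun B h h' => by
    have h1 := huu B (Finset.mem_of_mem_erase h)
    rw [h', hv0] at h1
    exact Finset.ne_of_mem_erase h (by omega)
  obtain ⟨v, hv0P, hv1P, hv, hvz⟩ := exists_etaH_places M q A hA hqM hsq
  refine ⟨⟨v, uu, hv, fun w h0 h1 hw => hvz w fun i B hB => ?_, fun B hB B' hB' h => ?_, hne,
    fun S m₀ hS => ?_, fun dH i B hB => ?_⟩⟩
  · rcases eq_or_ne B 1 with rfl | hB1
    · revert i
      exact Fin.forall_fin_two.mpr ⟨hv0P ▸ h0, hv1P ▸ h1⟩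
    · exact hw i B (Finset.mem_erase.mpr ⟨hB1, hB⟩)
  · have h1 := huu B (Finset.mem_of_mem_erase hB)
    rw [h, huu B' (Finset.mem_of_mem_erase hB')] at h1
    omega
  · refine Fin.forall_fin_two.mpr ⟨fun B hB Q hQ h => ?_, fun B hB Q hQ h => ?_⟩
    · exact notMem_of_pole M q A hA hqM hsq.of_mul_left hS (hneg B hB) (hne B hB)
        ((h : Q = uu B) ▸ hQ)
    · have hQpole : Q.ord (jBarK M A) < 0 := by
        rw [← SemilinearAut.ord_smul BF.frobq Q (jBarK M A), frobq_smul_jBarK,
          show BF.frobq • Q = uu B from h]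
        exact hneg B hB
      exact notMem_of_pole M q A hA hqM hsq.of_mul_left hS hQpole
        (fun h' => hS.infk_notMem (h' ▸ hQ)) hQ
  · obtain ⟨d, -, -, hp0, hp1⟩ := exists_scaledRed_etaH M q A hA hqM
    have hnn : (0 : ℤ) ≤ ((q : ℤ) - 1) * B :=
      mul_nonneg (by have := NeZero.pos q; omega) (Int.natCast_nonneg B)
    rw [d.ord_p_eq dH i]
    have h := ord_etaRed M q A (hneg B hB)
    rw [huu B (Finset.mem_of_mem_erase hB), mul_neg] at h
    revert i
    refine Fin.forall_fin_two.mpr ⟨?_, ?_⟩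
    · rw [hp0, h, abs_neg, abs_of_nonneg hnn]
    · rw [hp1, Place.ord_inv, h, neg_neg, abs_of_nonneg hnn]

/-- The eta quotient as toricity input at a prime `p` not dividing `q - 1`. -/
theorem exists_etaFun {p : ℕ} (hp : p.Prime) (hp5 : 5 ≤ p) (hsq : Squarefree (M * q))
    (hq1 : (q : ZMod p) ≠ 1) :
    ∃ E : (BadRed.badFibre M q A hA hqM).EtaFun (inertiaSys M q A hA hqM) p,
      IsCoprime (p : ℤ) E.e := by
  classical
  obtain ⟨T⟩ := nonempty_etaCusps M q A hA hqM hsq
  have hpi : Prime (p : ℤ) := Nat.prime_iff_prime_int.mp hp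
  have hq1' : ¬ (p : ℤ) ∣ (q : ℤ) - 1 := fun hd => hq1 <| by
    rw [← Int.cast_natCast q, show (1 : ZMod p) = ((1 : ℤ) : ZMod p) from Int.cast_one.symm,
      ZMod.intCast_eq_intCast_iff_dvd_sub]
    rwa [← neg_sub, dvd_neg]
  set D := (M.divisors.erase 1).filter fun B => ¬ p ∣ B with hD
  refine ⟨⟨etaH M q, -12, fixed_etaH M q A hA hqM,
    (Finset.univ ×ˢ D).image (fun x : Fin 2 × ℕ => T.v x.1 x.2), fun w h0 h1 hw => ?_,
    diffVal_etaH M q A hA hqM, fun _ => D.image T.u, ?_, fun i u hu => ?_, ?_,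
    fun dH i u hu => ?_⟩, ?_⟩
  · by_cases hx : ∃ i, ∃ B ∈ M.divisors.erase 1, T.v i B = w
    · obtain ⟨i, B, hB, rfl⟩ := hx
      have hpB : p ∣ B := by
        by_contra hpB
        exact hw (Finset.mem_image.mpr ⟨(i, B), Finset.mem_product.mpr
          ⟨Finset.mem_univ i, Finset.mem_filter.mpr ⟨hB, hpB⟩⟩, rfl⟩)
      rw [← dvd_abs, T.ord_v i B (Finset.mem_of_mem_erase hB)]
      exact dvd_mul_of_dvd_right (Int.natCast_dvd_natCast.mpr hpB) _
    · rw [T.ord_eq_zero w h0 h1 fun i B hB h => hx ⟨i, B, hB, h.symm⟩]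
      exact dvd_zero _
  · refine Finset.card_image_le.trans ?_
    rw [Finset.card_product, Finset.card_univ, Fintype.card_fin, two_mul,
      Finset.card_image_of_injOn fun B hB B' hB' h =>
        T.u_inj B (Finset.mem_filter.mp hB).1 B' (Finset.mem_filter.mp hB').1 h]
  · obtain ⟨B, hB, rfl⟩ := Finset.mem_image.mp hu
    exact T.ne_infk B (Finset.mem_filter.mp hB).1
  · intro S m₀ hS i u hu
    obtain ⟨B, hB, rfl⟩ := Finset.mem_image.mp hu
    exact T.not_node S m₀ hS i B (Finset.mem_filter.mp hB).1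
  · obtain ⟨B, hB, rfl⟩ := Finset.mem_image.mp hu
    obtain ⟨hBm, hpB⟩ := Finset.mem_filter.mp hB
    rw [hpi.coprime_iff_not_dvd, ← dvd_abs, T.ord_u dH i B hBm]
    intro hd
    rcases hpi.dvd_or_dvd hd with hd | hd
    · exact hq1' hd
    · exact hpB (Int.natCast_dvd_natCast.mp hd)
  · show IsCoprime (p : ℤ) (-12)
    refine IsCoprime.neg_right (Int.isCoprime_iff_nat_coprime.mpr ((hp.coprime_iff_not_dvd).mpr ?_))
    intro hd
    rw [show (12 : ℤ).natAbs = 12 from rfl] at hd
    have h : p ≤ 12 := Nat.le_of_dvd (by norm_num) hd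
    interval_cases p <;> first | omega | norm_num at hp

end FLTA.RT

end
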