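import Fermat.Prelude.Def_GaloisRep_DeformationRingData
import Fermat.Agent.Deformation.Universal
import Fermat.Agent.RT.DeformConditions
import Fermat.Agent.Density.Frobenius
import Fermat.Agent.Galois.Cyclotomic

/-!
Basic properties of universal deformation rings: topological generation by (Frobenius) traces,
maps to Hecke algebras and presentations as quotients of power series rings.
-/

set_option autoImplicit false

noncomputable section

namespace FLTA.RT

open IsLocalRing GaloisRep FLTA.Deformation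

section alg

variable {𝒪 : Type} [CommRing 𝒪] [IsLocalRing 𝒪] [Finite (ResidueField 𝒪)]
variable {B : Type} [CommRing B] [IsLocalRing B] [Algebra 𝒪 B]

omit [Finite (ResidueField 𝒪)] in
lemma isUnit_subalgebra (hB : IsArtinianTestAlgebra 𝒪 B) (B₀ : Subalgebra 𝒪 B) (x : B₀)
    (hx : IsUnit (x : B)) : IsUnit x := by
  haveI := hB.isArtinian
  obtain ⟨c, hc⟩ := hB.residue_surjective (residue B x)
  have hc' : (x : B) - algebraMap 𝒪 B c ∈ maximalIdeal B := Ideal.Quotient.eq.mp hc.symm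
  have hcu : IsUnit c := by
    by_contra h
    haveI := hB.isLocalHom
    exact (add_mem hc' (map_nonunit (algebraMap 𝒪 B) c h) : _ ∈ maximalIdeal B)
      (by rwa [sub_add_cancel])
  obtain ⟨n, hn⟩ := (isArtinianRing_iff_isNilpotent_maximalIdeal B).mp hB.isArtinian
  have hnil : IsNilpotent (x - algebraMap 𝒪 B₀ c) :=
    ⟨n, Subtype.ext (by simpa [hn] using Ideal.pow_mem_pow hc' n)⟩
  have := hnil.isUnit_add_left_of_commute (hcu.map (algebraMap 𝒪 B₀)) (Commute.all _ _)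
  rwa [add_sub_cancel] at this

omit [Finite (ResidueField 𝒪)] in
lemma isLocalRing_subalgebra (hB : IsArtinianTestAlgebra 𝒪 B) (B₀ : Subalgebra 𝒪 B) :
    IsLocalRing B₀ := by
  haveI : Nontrivial B₀ := ⟨⟨0, 1, fun h => zero_ne_one (α := B) (congrArg Subtype.val h)⟩⟩
  refine IsLocalRing.of_isUnit_or_isUnit_one_sub_self fun x => ?_
  exact (IsLocalRing.isUnit_or_isUnit_one_sub_self (x : B)).imp (isUnit_subalgebra hB B₀ x)
    (isUnit_subalgebra hB B₀ (1 - x))

lemma test_subalgebra (hB : IsArtinianTestAlgebra 𝒪 B) (B₀ : Subalgebra 𝒪 B) [IsLocalRing B₀] :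
    IsArtinianTestAlgebra 𝒪 B₀ where
  isLocalHom := ⟨fun c hc => hB.isLocalHom.map_nonunit c (hc.map B₀.val)⟩
  residue_surjective := fun y => by
    obtain ⟨x, rfl⟩ := residue_surjective y
    obtain ⟨c, hc⟩ := hB.residue_surjective (residue B (x : B))
    refine ⟨c, Ideal.Quotient.eq.mpr fun hu => ?_⟩
    exact (Ideal.Quotient.eq.mp hc : _ ∈ maximalIdeal B) (hu.map B₀.val)
  isArtinian := by
    haveI := finite_of_test hB
    exact isArtinian_of_finite

omit [Finite (ResidueField 𝒪)] in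
/-- Traces of powers of a `2 × 2` matrix lie in any subalgebra containing trace and determinant. -/
lemma trace_pow_mem {R : Type} [CommRing R] [Algebra 𝒪 R] (U : Subalgebra 𝒪 R) (M : Mat2 R)
    (ht : M.trace ∈ U) (hd : M.det ∈ U) : ∀ k : ℕ, (M ^ k).trace ∈ U
  | 0 => by simpa [Matrix.trace_fin_two] using U.add_mem U.one_mem U.one_mem
  | 1 => by simpa using ht
  | k + 2 => by
    have h1 := trace_pow_mem U M ht hd k
    have h2 := trace_pow_mem U M ht hd (k + 1)
    have key : M * M = M.trace • M - M.det • 1 := by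
      rw [Matrix.trace_fin_two, Matrix.det_fin_two]
      ext i j
      fin_cases i <;> fin_cases j <;> simp [Matrix.mul_apply, Fin.sum_univ_two] <;> ring
    have : M ^ (k + 2) = M.trace • M ^ (k + 1) - M.det • M ^ k := by
      rw [pow_add, pow_two, key, mul_sub, mul_smul_comm, mul_smul_comm, mul_one, pow_succ]
    rw [this, Matrix.trace_sub, Matrix.trace_smul, Matrix.trace_smul]
    exact U.sub_mem (U.mul_mem ht h2) (U.mul_mem hd h1)

end alg

section ring

variable {𝒪 : Type} [CommRing 𝒪] [IsDomain 𝒪] [IsDiscreteValuationRing 𝒪]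
  [IsAdicComplete (maximalIdeal 𝒪) 𝒪] [Finite (ResidueField 𝒪)]
variable {ρbar : ResidualGaloisRep (ResidueField 𝒪)} {P : RepPred 𝒪}
  (h𝒟 : IsDeformationCondition 𝒪 P) (D : GaloisRep.DeformationRingData 𝒪 ρbar P)

lemma resCond_universal : ResCond ρbar D.ρ.trace :=
  (residual_isEquiv_iff ρbar D.absIrr D.residue_surjective D.ρ).mp D.residual_isEquiv

/-- Maps out of the universal ring are determined by the traces. -/
theorem existsUnique_map_trace (A : Type) [CommRing A] [IsLocalRing A] [IsNoetherianRing A]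
    [IsAdicComplete (maximalIdeal A) A] [Algebra 𝒪 A] [IsLocalHom (algebraMap 𝒪 A)]
    (hA : Function.Surjective (residue A ∘ algebraMap 𝒪 A)) (ρA : GaloisRepAdic A) (hP : P ρA)
    (hres : ResCond ρbar ρA.trace) :
    ∃ φ : D.R →ₐ[𝒪] A, IsLocalHom (φ : D.R →+* A) ∧ (∀ σ, φ (D.ρ.trace σ) = ρA.trace σ) ∧
      ∀ ψ : D.R →ₐ[𝒪] A, IsLocalHom (ψ : D.R →+* A) →
        (∀ σ, ψ (D.ρ.trace σ) = ρA.trace σ) → ψ = φ := by
  haveI := henselianLocalRing_of_complete A
  obtain ⟨φ, ⟨hφ, he⟩, huniq⟩ := D.universal A hA ρA hP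
    ((residual_isEquiv_iff ρbar D.absIrr hA ρA).mpr hres)
  refine ⟨φ, hφ, fun σ => ?_, fun ψ hψ ht => huniq ψ ⟨hψ, ?_⟩⟩
  · have := trace_eq_of_isEquiv he σ
    rwa [trace_baseChangeAlong] at this
  · refine isEquiv_of_trace_eq ρbar D.absIrr hA (fun σ => ?_) fun σ => ?_
    · rw [trace_baseChangeAlong]
      show ψ (D.ρ.trace σ) - _ ∈ _
      rw [ht]
      exact hres σ
    · rw [trace_baseChangeAlong]
      exact ht σ

include h𝒟 in
/-- The traces of the universal representation generate the universal ring topologically. -/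
theorem adjoin_trace_dense (n : ℕ) (x : D.R) :
    ∃ y ∈ Algebra.adjoin 𝒪 (Set.range D.ρ.trace), x - y ∈ maximalIdeal D.R ^ (n + 1) := by
  haveI := isLocalRing_modPow D.R n
  haveI := finite_residue D.residue_surjective
  haveI := Ideal.finite_quotient_pow (IsNoetherian.noetherian (maximalIdeal D.R)) (n + 1)
  have hB := test_finiteQuotient (inferInstance : IsLocalHom (algebraMap 𝒪 D.R))
    D.residue_surjective (maximalIdeal D.R ^ (n + 1))
  haveI := hB.isArtinian
  haveI := hB.isLocalHom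
  have hDef := isDef_truncation h𝒟 D.residue_surjective D.ρ D.isOfType (resCond_universal D) n hB
  let q := Ideal.Quotient.mkₐ 𝒪 (maximalIdeal D.R ^ (n + 1))
  let B₀ := Algebra.adjoin 𝒪 (Set.range fun σ => q (D.ρ.trace σ))
  haveI := isLocalRing_subalgebra hB B₀
  have hB₀ := test_subalgebra hB B₀
  haveI := hB₀.isArtinian
  haveI := hB₀.isLocalHom
  let T₀ : GalQ → B₀ := fun σ => ⟨q (D.ρ.trace σ), Algebra.subset_adjoin ⟨σ, rfl⟩⟩
  have hT₀ : IsDef ρbar P B₀ T₀ :=
    IsDef.descend D.absIrr h𝒟 hB₀ hB B₀.val Subtype.val_injective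
      (fun σ hu => hDef.1 σ (hu.map B₀.val)) hDef
  obtain ⟨hres₀, ρ₀, hρ₀, hP₀⟩ := hT₀
  have hres₀' : ResCond ρbar ρ₀.trace := by rwa [show ρ₀.trace = T₀ from funext hρ₀]
  obtain ⟨φ, hφ, hφt, -⟩ := existsUnique_map_trace D B₀ hB₀.residue_surjective ρ₀ hP₀ hres₀'
  obtain ⟨hres, ρB, hρB, hPB⟩ := id hDef
  obtain ⟨χ, -, -, huniq⟩ := existsUnique_map_trace D _ hB.residue_surjective ρB hPB
    (by rwa [show ρB.trace = _ from funext hρB])
  have e1 : q = χ := huniq q (isLocalHom_mk _) fun σ => (hρB σ).symm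
  have e2 : B₀.val.comp φ = χ := by
    have hl : IsLocalHom ((B₀.val.comp φ : D.R →ₐ[𝒪] D.R ⧸ maximalIdeal D.R ^ (n + 1)) : D.R →+* D.R ⧸ maximalIdeal D.R ^ (n + 1)) := ⟨fun a ha => by
      refine hφ.map_nonunit a (isUnit_subalgebra hB B₀ (φ a) ?_)
      exact ha⟩
    refine huniq _ hl fun σ => ?_
    rw [AlgHom.comp_apply, hφt, hρ₀, hρB]
    rfl
  have hx : q x ∈ (Algebra.adjoin 𝒪 (Set.range D.ρ.trace)).map q := by
    rw [AlgHom.map_adjoin, ← Set.range_comp]
    have hqx : q x = ((φ x : B₀) : D.R ⧸ maximalIdeal D.R ^ (n + 1)) := by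
      rw [e1, ← e2]; rfl
    rw [hqx]
    exact (φ x).2
  obtain ⟨y, hy, hyx⟩ := hx
  exact ⟨y, hy, Ideal.Quotient.eq.mp hyx.symm⟩

/-- The Frobenius traces outside a finite set of primes. -/
def frobTraces {A : Type} [CommRing A] [IsLocalRing A] (ρ : GaloisRepAdic A) (S : Finset ℕ) :
    Set A :=
  {t | ∃ ℓ : ℕ, ℓ.Prime ∧ ℓ ∉ S ∧ ∃ A : ValuationSubring (AlgebraicClosure ℚ), A.LiesOverPrime ℓ ∧
    ∃ τ : GalQ, A.IsFrobeniusAt τ ℓ ∧ ρ.trace τ = t}

omit [IsAdicComplete (maximalIdeal 𝒪) 𝒪] [Finite (ResidueField 𝒪)] in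
/-- With cyclotomic determinant, every trace is a limit of polynomials in Frobenius traces. -/
theorem trace_mem_frob_dense {A : Type} [CommRing A] [IsLocalRing A] [IsNoetherianRing A]
    [Algebra 𝒪 A] (ρ : GaloisRepAdic A) {p : ℕ} [Fact p.Prime] (hc : ρ.DetIsCyclotomic p)
    (S : Finset ℕ) (hpS : p ∈ S) (n : ℕ) (σ : GalQ) :
    ∃ y ∈ Algebra.adjoin 𝒪 (frobTraces ρ S), ρ.trace σ - y ∈ maximalIdeal A ^ (n + 1) := by
  obtain ⟨L, hL, h1⟩ := matCont_toMat ρ (n + 1)
  let q := Ideal.Quotient.mk (maximalIdeal A ^ (n + 1))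
  let f : GalQ →* Mat2 (A ⧸ maximalIdeal A ^ (n + 1)) :=
    q.mapMatrix.toMonoidHom.comp (toMat ρ)
  have hf : GaloisFactorsThroughFiniteLevel f := ⟨L, hL, fun τ hτ => by
    ext i j
    show q (toMat ρ τ i j) = _
    have := Ideal.Quotient.eq.mpr (h1 τ hτ i j)
    rw [this]
    by_cases h : i = j
    · subst h; simp
    · simp [Matrix.one_apply_ne h]⟩
  obtain ⟨ℓ, hℓ, hℓS, P, hP, τ, hτ, k, hk⟩ :=
    FLTA.Density.exists_frobenius_pow_map_eq f hf S σ
  refine ⟨((toMat ρ τ) ^ k).trace, ?_, ?_⟩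
  · refine trace_pow_mem _ _ ?_ ?_ k
    · rw [trace_toMat]
      exact Algebra.subset_adjoin ⟨ℓ, hℓ, hℓS, P, hP, τ, hτ, rfl⟩
    · rw [toMat_apply, LinearMap.det_toMatrix]
      have hne : ℓ ≠ p := fun h => hℓS (h ▸ hpS)
      have : LinearMap.det (ρ.ρ τ) = (ℓ : A) := by
        refine sub_eq_zero.mp (IsHausdorff.haus (I := maximalIdeal A)
          (inferInstance : IsHausdorff _ A) _ fun m => ?_)
        rw [SModEq.zero, smul_eq_mul, Ideal.mul_top]
        have hd := hc.2 m τ ℓ (fun μ hμ =>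
          FLTA.Galois.frobenius_apply_rootOfUnity hℓ hP hτ (n := p ^ m)
            (fun h => hne ((Nat.prime_dvd_prime_iff_eq hℓ Fact.out).mp (hℓ.dvd_of_dvd_pow h))) hμ)
        refine (Ideal.span_le.mpr ?_) hd
        simpa using Ideal.pow_mem_pow hc.1 m
      rw [this]
      exact natCast_mem _ ℓ
  · have e : f σ = f τ ^ k := hk.symm
    rw [← Ideal.Quotient.eq_zero_iff_mem, map_sub, sub_eq_zero, ← trace_toMat]
    show q (toMat ρ σ).trace = q ((toMat ρ τ) ^ k).trace
    rw [AddMonoidHom.map_trace q, AddMonoidHom.map_trace q]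
    congr 1
    exact e.trans (map_pow q.mapMatrix (toMat ρ τ) k).symm

include h𝒟 in
/-- Frobenius traces outside `S` generate the universal ring topologically. -/
theorem adjoin_frobTrace_dense {p : ℕ} [Fact p.Prime] (hc : D.ρ.DetIsCyclotomic p) (S : Finset ℕ)
    (hpS : p ∈ S) (n : ℕ) (x : D.R) :
    ∃ y ∈ Algebra.adjoin 𝒪 (frobTraces D.ρ S), x - y ∈ maximalIdeal D.R ^ (n + 1) := by
  obtain ⟨z, hz, hxz⟩ := adjoin_trace_dense h𝒟 D n x
  suffices h : ∃ y ∈ Algebra.adjoin 𝒪 (frobTraces D.ρ S), z - y ∈ maximalIdeal D.R ^ (n + 1) by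
    obtain ⟨y, hy, hzy⟩ := h
    refine ⟨y, hy, ?_⟩
    have := add_mem hxz hzy
    rwa [sub_add_sub_cancel] at this
  let U := Algebra.adjoin 𝒪 (frobTraces D.ρ S)
  let q := Ideal.Quotient.mkₐ 𝒪 (maximalIdeal D.R ^ (n + 1))
  have hle : (Algebra.adjoin 𝒪 (Set.range D.ρ.trace)).map q ≤ U.map q := by
    rw [AlgHom.map_adjoin]
    refine Algebra.adjoin_le ?_
    rintro _ ⟨_, ⟨σ, rfl⟩, rfl⟩
    obtain ⟨y, hy, h⟩ := trace_mem_frob_dense (𝒪 := 𝒪) D.ρ hc S hpS n σ
    exact ⟨y, hy, (Ideal.Quotient.eq.mpr h).symm⟩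
  obtain ⟨y, hy, h⟩ := hle ⟨z, hz, rfl⟩
  exact ⟨y, hy, Ideal.Quotient.eq.mp h.symm⟩

end ring

section powerSeries

variable {𝒪 : Type} [CommRing 𝒪] [IsDomain 𝒪] [IsDiscreteValuationRing 𝒪]
variable {A : Type} [CommRing A] [IsLocalRing A] [IsNoetherianRing A]
  [IsAdicComplete (maximalIdeal A) A] [Algebra 𝒪 A]

/-- Evaluation of power series in a complete local algebra. -/
theorem exists_eval {r : ℕ} (hs : Function.Surjective (residue A ∘ algebraMap 𝒪 A))
    (a : Fin r → A) (ha : ∀ i, a i ∈ maximalIdeal A) :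
    ∃ γ : MvPowerSeries (Fin r) 𝒪 →ₐ[𝒪] A, ∀ i, γ (MvPowerSeries.X i) = a i := by
  haveI hl : ∀ n, IsLocalRing (A ⧸ maximalIdeal A ^ (n + 1)) := isLocalRing_modPow A
  haveI hart : ∀ n, IsArtinianRing (A ⧸ maximalIdeal A ^ (n + 1)) := fun n => by
    haveI : IsNoetherianRing (A ⧸ maximalIdeal A ^ (n + 1)) := inferInstance
    refine (isArtinianRing_iff_isNilpotent_maximalIdeal _).mpr ⟨n + 1, ?_⟩
    rw [Ideal.zero_eq_bot, ← le_bot_iff, ← Ideal.map_quotient_self (maximalIdeal A ^ (n + 1)),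
      Ideal.map_pow]
    refine Ideal.pow_right_mono (fun y hy => ?_) _
    obtain ⟨x, rfl⟩ := Ideal.Quotient.mk_surjective y
    exact Ideal.mem_map_of_mem _ ((mem_maximalIdeal_quot x).mp hy)
  let ev : ∀ n, MvPowerSeries (Fin r) 𝒪 →ₐ[𝒪] A ⧸ maximalIdeal A ^ (n + 1) := fun n =>
    haveI := hart n
    artEval (fun i => Ideal.Quotient.mk _ (a i)) fun i => (mem_maximalIdeal_quot _).mpr (ha i)
  have hev : ∀ n i, ev n (MvPowerSeries.X i) = Ideal.Quotient.mk _ (a i) := fun n i => by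
    haveI := hart n
    exact artEval_X _ _ i
  have hcompat : ∀ {m n : ℕ} (hle : m ≤ n),
      (Ideal.Quotient.factorₐ 𝒪 (Ideal.pow_le_pow_right (I := maximalIdeal A)
        (Nat.succ_le_succ hle))).comp (ev n) = ev m := by
    intro m n hle
    haveI := hart m
    refine powerSeries_algHom_ext (residue_surjective_quot hs _) fun i => ?_
    rw [AlgHom.comp_apply, hev, hev]
    rfl
  let f : (n : ℕ) → MvPowerSeries (Fin r) 𝒪 →ₐ[𝒪] A ⧸ maximalIdeal A ^ n := fun n =>
    (Ideal.Quotient.factorₐ 𝒪 (Ideal.pow_le_pow_right n.le_succ)).comp (ev n)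
  have hf : ∀ {m n : ℕ} (hle : m ≤ n),
      (Ideal.Quotient.factorₐ 𝒪 (Ideal.pow_le_pow_right hle)).comp (f n) = f m := by
    intro m n hle
    apply AlgHom.ext
    intro x
    simp only [f, AlgHom.comp_apply, ← hcompat hle]
    obtain ⟨y, hy⟩ := Ideal.Quotient.mk_surjective (ev n x)
    rw [← hy]
    rfl
  refine ⟨IsAdicComplete.liftAlgHom (maximalIdeal A) f hf, fun i => ?_⟩
  refine sub_eq_zero.mp (IsHausdorff.haus (I := maximalIdeal A)
    (inferInstance : IsHausdorff _ A) _ fun n => ?_)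
  rw [SModEq.zero, smul_eq_mul, Ideal.mul_top, ← Ideal.Quotient.eq_zero_iff_mem, map_sub,
    sub_eq_zero, IsAdicComplete.mk_liftAlgHom]
  show (Ideal.Quotient.factorₐ 𝒪 (Ideal.pow_le_pow_right n.le_succ)) (ev n (MvPowerSeries.X i)) = _
  rw [hev]
  rfl

/-- Elements generating `m_A` together with `m_𝒪` give a surjection from the power series ring. -/
theorem exists_surjective_powerSeries [IsAdicComplete (maximalIdeal 𝒪) 𝒪] {r : ℕ}
    [IsLocalHom (algebraMap 𝒪 A)]
    (hs : Function.Surjective (residue A ∘ algebraMap 𝒪 A)) (a : Fin r → A)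
    (ha : ∀ i, a i ∈ maximalIdeal A)
    (hgen : maximalIdeal A ≤ (maximalIdeal 𝒪).map (algebraMap 𝒪 A) ⊔ Ideal.span (Set.range a)) :
    ∃ γ : MvPowerSeries (Fin r) 𝒪 →ₐ[𝒪] A, Function.Surjective γ ∧
      ∀ i, γ (MvPowerSeries.X i) = a i := by
  obtain ⟨γ, hγ⟩ := exists_eval hs a ha
  refine ⟨γ, ?_, hγ⟩
  haveI := isAdicComplete_powerSeries 𝒪 r
  set m := maximalIdeal (MvPowerSeries (Fin r) 𝒪)
  have hm : maximalIdeal A ≤ m.map γ.toRingHom := by
    refine hgen.trans (sup_le ?_ ?_)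
    · refine Ideal.map_le_iff_le_comap.mpr fun c hc => ?_
      rw [Ideal.mem_comap, ← γ.commutes c]
      refine Ideal.mem_map_of_mem _ ?_
      exact map_nonunit (algebraMap 𝒪 (MvPowerSeries (Fin r) 𝒪)) c hc
    · rw [Ideal.span_le]
      rintro _ ⟨i, rfl⟩
      rw [SetLike.mem_coe, ← hγ i]
      have hX : (MvPowerSeries.X i : MvPowerSeries (Fin r) 𝒪) ∈ m := by
        rw [mem_maximalIdeal, mem_nonunits_iff, MvPowerSeries.isUnit_iff_constantCoeff,
          MvPowerSeries.constantCoeff_X]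
        exact not_isUnit_zero
      exact Ideal.mem_map_of_mem γ.toRingHom hX
  have step : ∀ n, ∀ x ∈ maximalIdeal A ^ n, ∃ s ∈ m ^ n, x - γ s ∈ maximalIdeal A ^ (n + 1) := by
    intro n x hx
    have hx' : x ∈ (m ^ n).map γ.toRingHom := by
      rw [Ideal.map_pow]
      exact Ideal.pow_right_mono hm n hx
    rw [Ideal.map] at hx'
    induction hx' using Submodule.span_induction with
    | mem y hy =>
      obtain ⟨s, hs', rfl⟩ := hy
      exact ⟨s, hs', by simp⟩
    | zero => exact ⟨0, zero_mem _, by simp⟩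
    | add y z hy hz ihy ihz =>
      have hmem : ∀ {w}, w ∈ Ideal.span (⇑γ.toRingHom '' ↑(m ^ n)) → w ∈ maximalIdeal A ^ n := by
        intro w hw
        refine (Ideal.span_le.mpr ?_) hw
        rintro _ ⟨s, hs', rfl⟩
        exact map_mem_pow hs γ hs'
      obtain ⟨s, hs', h⟩ := ihy (hmem hy)
      obtain ⟨t, ht', h'⟩ := ihz (hmem hz)
      exact ⟨s + t, add_mem hs' ht', by rw [map_add, add_sub_add_comm]; exact add_mem h h'⟩
    | smul b y hy ihy =>
      have hyn : y ∈ maximalIdeal A ^ n := by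
        refine (Ideal.span_le.mpr ?_) hy
        rintro _ ⟨s, hs', rfl⟩
        exact map_mem_pow hs γ hs'
      obtain ⟨s, hs', h⟩ := ihy hyn
      obtain ⟨c, hc⟩ := hs (residue A b)
      have hbc : b - algebraMap 𝒪 A c ∈ maximalIdeal A := Ideal.Quotient.eq.mp hc.symm
      refine ⟨algebraMap 𝒪 _ c * s, Ideal.mul_mem_left _ _ hs', ?_⟩
      rw [map_mul, AlgHom.commutes, smul_eq_mul,
        show b * y - algebraMap 𝒪 A c * γ s =
          (b - algebraMap 𝒪 A c) * y + algebraMap 𝒪 A c * (y - γ s) by ring]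
      refine add_mem ?_ (Ideal.mul_mem_left _ _ h)
      rw [pow_succ']
      exact Ideal.mul_mem_mul hbc hyn
  intro x
  choose f hf hf' using step
  let seq : (n : ℕ) → {s : MvPowerSeries (Fin r) 𝒪 // x - γ s ∈ maximalIdeal A ^ n} := fun n =>
    Nat.rec ⟨0, by simp⟩ (fun n s => ⟨s.1 + f n (x - γ s.1) s.2, by
      rw [map_add, ← sub_sub]; exact hf' n _ s.2⟩) n
  have hstep : ∀ n, (seq (n + 1)).1 - (seq n).1 ∈ m ^ n := fun n => by
    show (seq n).1 + f n (x - γ (seq n).1) (seq n).2 - (seq n).1 ∈ _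
    rw [add_sub_cancel_left]
    exact hf n _ (seq n).2
  have hle : ∀ {k n}, k ≤ n → (seq n).1 - (seq k).1 ∈ m ^ k := by
    intro k n hkn
    induction n, hkn using Nat.le_induction with
    | base => simp
    | succ n hkn ih =>
      have := add_mem (Ideal.pow_le_pow_right hkn (hstep n)) ih
      rwa [sub_add_sub_cancel] at this
  obtain ⟨s, hs'⟩ := IsPrecomplete.prec (inferInstance : IsPrecomplete m _)
    (f := fun n => (seq n).1) (fun {k n} hkn => by
      rw [SModEq.sub_mem, smul_eq_mul, Ideal.mul_top, ← neg_sub]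
      exact neg_mem (hle hkn))
  refine ⟨s, (sub_eq_zero.mp (IsHausdorff.haus (I := maximalIdeal A)
    (inferInstance : IsHausdorff _ A) _ fun n => ?_)).symm⟩
  rw [SModEq.zero, smul_eq_mul, Ideal.mul_top]
  have h2 := hs' n
  rw [SModEq.sub_mem, smul_eq_mul, Ideal.mul_top] at h2
  have := add_mem (seq n).2 (map_mem_pow hs γ h2)
  rwa [map_sub, sub_add_sub_cancel] at this

end powerSeries

end FLTA.RT
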