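import Fermat.Agent.TaylorWiles.Primes
import Fermat.Agent.TaylorWiles.Setup
import Fermat.Agent.TaylorWiles.SelmerBound
import Fermat.Agent.TaylorWiles.LocalAway
import Fermat.Agent.PoitouTate.LocalDuality
import Fermat.Prelude.Def_GaloisRep_ComplexConjugation

/-!
# Taylor–Wiles primes for a general family of local conditions

For a finite set `T` containing `p` and the ramified primes and local conditions `L₀` on `T` there
are, for every `n`, `r` Taylor–Wiles primes of level `n` such that for every family `L ≥ L₀` on `T`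
the Selmer group with everything allowed at the Taylor–Wiles primes satisfies
`dim Sel + ∑_T h⁰ + f ≤ ∑_T dim L + r f`.
-/

set_option autoImplicit false

open ExtCitation Module Polynomial

noncomputable section

namespace FLTA.RT

open FLTA.PT FLTA.TW

attribute [local instance] FLTA.PT.factPrime

theorem cycloChar_complexConjugation (p : ℕ) [Fact p.Prime] :
    (cycloChar p complexConjugation : ZMod p) = -1 := by
  have hp : p.Prime := Fact.out
  rw [cycloChar_eq_of_apply p (a := p - 1) fun t ht => ?_, Nat.cast_sub hp.one_le, Nat.cast_one,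
    CharP.cast_eq_zero, zero_sub]
  apply complexEmbedding.toRingHom.injective
  show complexEmbedding (complexConjugation t) = complexEmbedding (t ^ (p - 1))
  have h1 : ‖complexEmbedding t‖ = 1 :=
    Complex.norm_eq_one_of_pow_eq_one (by rw [← map_pow, ht, map_one]) hp.ne_zero
  rw [complexEmbedding_complexConjugation, ← Complex.inv_eq_conj h1, ← map_inv₀]
  refine congrArg _ (inv_eq_of_mul_eq_one_right ?_)
  rw [← pow_succ', Nat.sub_add_cancel hp.one_le, ht]

section orth

variable {p : ℕ} [Fact p.Prime] {V W : Type} [AddCommGroup V] [Module (ZMod p) V]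
  [AddCommGroup W] [Module (ZMod p) W]
variable {ρ : Representation (ZMod p) GQ V} {σ : Representation (ZMod p) GQ W}
variable (P : Pairing (cycloChar p) ρ σ)

theorem orth_anti (q : Nat.Primes) {L L' : Cond ρ} (h : L q ≤ L' q) :
    orth P L' q ≤ orth P L q :=
  Submodule.map_mono fun _ hy x hx => hy x (h hx)

theorem orth_eq_bot [Finite V] [Finite W] (hp : p ≠ 2) (hP : P.Perfect) (hρ : Smooth lvlQ ρ)
    (hσ : Smooth lvlQ σ) (q : Nat.Primes) {L : Cond ρ} (hL : L q = ⊤) : orth P L q = ⊥ := by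
  rw [eq_bot_iff]
  rintro _ ⟨y, hy, rfl⟩
  rw [Submodule.mem_bot]
  refine (H1cπ_eq_zero _ _).2 (mem_B1_of_forall_cup11_right p q (P.comp (loc q)) hp (hP.comp q)
    (smooth_comap hρ (loc q)) (smooth_comap hσ (loc q)) _ y.2 fun a ha => ?_)
  exact hy ⟨a, ha⟩ (by rw [hL]; trivial)

end orth

theorem smooth_lvlS_mono {p : ℕ} [Fact p.Prime] {V : Type} [AddCommGroup V] [Module (ZMod p) V]
    {ρ : Representation (ZMod p) GQ V} {T T' : Finset Nat.Primes} (hT : T ⊆ T')
    (h : Smooth (lvlS T) ρ) : Smooth (lvlS T') ρ := fun v => by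
  obtain ⟨U, ⟨hn, F, hF, hle⟩, hfix⟩ := h v
  exact ⟨U, ⟨hn, F, ⟨hF.1, fun q hq => hF.2 q fun hq' => hq (hT hq')⟩, hle⟩, hfix⟩

variable (p : ℕ) [Fact p.Prime] {k : Type} [Field k] [Finite k] [Algebra (ZMod p) k]

/-- Conditions `L` on `T`, everything at the other primes of the set. -/
def extTop {V : Type} [AddCommGroup V] [Module (ZMod p) V] {ρ : Representation (ZMod p) GQ V}
    (T : Finset Nat.Primes) (L : Cond ρ) : Cond ρ :=
  fun q => open scoped Classical in if q ∈ T then L q else ⊤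

/-- The bound for given Taylor–Wiles primes killing the dual Selmer group of `L₀`. -/
theorem finrank_selmer_extTop_le (hp : p ≠ 2) (M : GQ →* Matrix (Fin 2) (Fin 2) k)
    (hdet : ∀ g, (M g).det = algebraMap (ZMod p) k (cycloChar p g : ZMod p))
    (h0 : fixedBy (ad0Rep p M) ⊤ = ⊥) (T : Finset Nat.Primes) (hpT : pPrime p ∈ T)
    (hlev : ∃ U ∈ lvlS T, ∀ s ∈ U, M s = 1) (L₀ : Cond (ad0Rep p M)) {r : ℕ}
    (qv : Fin r → Nat.Primes) (hinj : Function.Injective qv)
    (hqv : ∀ i, qv i ∉ T ∧ p ∣ (qv i : ℕ) - 1 ∧ (∀ s ∈ inertiaG (qv i), M (loc (qv i) s) = 1) ∧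
      ∀ φ : GQ, (primeLocalPlace (qv i)).IsFrobeniusAt φ (qv i : ℕ) →
        ∃ α β : k, α ≠ β ∧ (M φ).charpoly = (X - C α) * (X - C β))
    (hkill : ∀ c ∈ selmer (ad0Dual p M) (condAt (ad0Dual p M) T (orth (ad0Pairing p M) L₀)),
      (∀ i, locQ (ad0Dual p M) (qv i) c = 0) → c = 0)
    (L : Cond (ad0Rep p M)) (hL : ∀ q ∈ T, L₀ q ≤ L q) :
    Finite (selmer _ (condAt _ (T ∪ Finset.univ.image qv) (extTop p T L))) ∧
      finrank (ZMod p) (selmer _ (condAt _ (T ∪ Finset.univ.image qv) (extTop p T L))) +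
          (∑ q ∈ T, finrank (ZMod p) (fixedBy ((ad0Rep p M).comp (loc q)) ⊤)) +
          finrank (ZMod p) k ≤
        (∑ q ∈ T, finrank (ZMod p) (L q)) + r * finrank (ZMod p) k := by
  classical
  have hP : (ad0Pairing p M).Perfect := ad0Pairing_perfect p M hp
  have hρT : Smooth (lvlS T) (ad0Rep p M) := smooth_ad0Rep p M hlev
  have hσT : Smooth (lvlS T) (ad0Dual p M) := smooth_ad0Dual p M hpT hlev
  have hρQ := smooth_lvlQ_of_lvlS p hρT
  have hσQ := smooth_lvlQ_of_lvlS p hσT
  have hTQ : Disjoint T (Finset.univ.image qv) := Finset.disjoint_left.mpr fun q hq hq' => by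
    obtain ⟨i, -, rfl⟩ := Finset.mem_image.mp hq'
    exact (hqv i).1 hq
  have hρS := smooth_lvlS_mono (T' := T ∪ Finset.univ.image qv) Finset.subset_union_left hρT
  have hσS := smooth_lvlS_mono (T' := T ∪ Finset.univ.image qv) Finset.subset_union_left hσT
  refine ⟨finite_selmer_condAt p _ hρS _, ?_⟩
  have hc : complexConjugation * complexConjugation = 1 := complexConjugation_mul_self
  have hχ := cycloChar_complexConjugation p
  have hGW := finrank_selmer_le p hp (ad0Pairing p M) hP (T ∪ Finset.univ.image qv)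
    (Finset.mem_union_left _ hpT) hρS hσS (extTop p T L)
  have hdual : selmer (ad0Dual p M) (condAt (ad0Dual p M) (T ∪ Finset.univ.image qv)
      (orth (ad0Pairing p M) (extTop p T L))) = ⊥ := by
    rw [eq_bot_iff]
    intro x hx
    rw [mem_selmer] at hx
    rw [Submodule.mem_bot]
    have hz : ∀ i, locQ (ad0Dual p M) (qv i) x = 0 := fun i => by
      have h := hx (qv i)
      rw [condAt, if_pos (Finset.mem_union_right _ (Finset.mem_image_of_mem _ (Finset.mem_univ i))),
        orth_eq_bot (ad0Pairing p M) hp hP hρQ hσQ _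
          (L := extTop p T L) (if_neg (hqv i).1), Submodule.mem_bot] at h
      exact h
    refine hkill x ((mem_selmer _).mpr fun q => ?_) hz
    by_cases hq : q ∈ T
    · have h := hx q
      rw [condAt, if_pos (Finset.mem_union_left _ hq)] at h
      rw [condAt, if_pos hq]
      exact orth_anti (ad0Pairing p M) q (show L₀ q ≤ extTop p T L q by
        rw [extTop, if_pos hq]; exact hL q hq) h
    · by_cases hq' : q ∈ Finset.univ.image qv
      · obtain ⟨i, -, rfl⟩ := Finset.mem_image.mp hq'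
        rw [hz i]
        exact Submodule.zero_mem _
      · have h := hx q
        rw [condAt, if_neg (by simp only [Finset.mem_union, hq, hq', or_self, not_false_iff])] at h
        rwa [condAt, if_neg hq]
  rw [hdual, finrank_bot, add_zero, h0, finrank_bot, add_zero,
    Finset.sum_union hTQ, Finset.sum_union hTQ, finrank_ad0] at hGW
  have hC := finrank_fixedBy_conj_le p M complexConjugation hc hχ hp (hdet _)
  have hsT : ∑ q ∈ T, finrank (ZMod p) (extTop p T L q) = ∑ q ∈ T, finrank (ZMod p) (L q) :=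
    Finset.sum_congr rfl fun q hq => by rw [show extTop p T L q = L q from if_pos hq]
  have hsQ : ∑ q ∈ Finset.univ.image qv, finrank (ZMod p) (extTop p T L q) ≤
      (∑ q ∈ Finset.univ.image qv, finrank (ZMod p) (fixedBy ((ad0Rep p M).comp (loc q)) ⊤)) +
        r * finrank (ZMod p) k := by
    refine le_of_le_of_eq (Finset.sum_le_sum (g := fun q =>
      finrank (ZMod p) (fixedBy ((ad0Rep p M).comp (loc q)) ⊤) + finrank (ZMod p) k)
      fun q hq => ?_) ?_
    · have hqT : q ∉ T := Finset.disjoint_right.mp hTQ hq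
      obtain ⟨i, -, rfl⟩ := Finset.mem_image.mp hq
      obtain ⟨φ, hφ⟩ :=
        FLTA.Galois.exists_isFrobeniusAt (qv i).2 (primeLocalPlace_liesOverPrime (qv i))
      haveI : Finite (H1L (ad0Rep p M) (qv i)) := finite_localH1 p (qv i) hρQ
      haveI : Module.Finite (ZMod p) (H1L (ad0Rep p M) (qv i)) := Module.Finite.of_finite
      rw [show extTop p T L (qv i) = ⊤ from if_neg hqT, finrank_top]
      exact FLTA.TaylorWiles.finrank_H1L_taylorWiles p M hp (qv i) (hqv i).2.1 hρQ
        (hqv i).2.2.1 φ hφ ((hqv i).2.2.2 φ hφ)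
    · rw [Finset.sum_add_distrib, Finset.sum_const, smul_eq_mul,
        Finset.card_image_of_injective _ hinj, Finset.card_univ, Fintype.card_fin]
  rw [hsT] at hGW
  omega

/-- Taylor–Wiles primes bounding the Selmer groups of all families of conditions above `L₀`. -/
theorem exists_selmer_bound (hp : p ≠ 2) (ρbar : ResidualGaloisRep k)
    (hdet : (GaloisRepAdic.ofResidualGaloisRep ρbar).DetIsCyclotomic p)
    (hsplit : ∀ g, ∃ α β : k, LinearMap.charpoly (ρbar.ρ g) = (X - C α) * (X - C β))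
    (habs : ρbar.IsAbsolutelyIrreducible)
    (hTW : ∀ (K : Type) [Field K] [Algebra k K] (G : Subgroup GQ), G.index = 2 →
      ∀ V : Submodule K (ρbar.baseChange K).V,
        (∀ σ ∈ G, ∀ x ∈ V, (ρbar.baseChange K).ρ σ x ∈ V) → V = ⊥ ∨ V = ⊤)
    (T : Finset Nat.Primes) (hpT : pPrime p ∈ T) (S : Finset ℕ) (hTS : ∀ q ∈ T, (q : ℕ) ∈ S)
    (hur : ∀ q : Nat.Primes, q ∉ T → ρbar.IsUnramifiedAt (q : ℕ))
    (L₀ : Cond (ad0Rep p (Deformation.barMat ρbar))) :
    ∃ r : ℕ, ∀ n : ℕ, ∃ qv : Fin r → Nat.Primes, Function.Injective qv ∧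
      (∀ i, (qv i : ℕ) ∉ S ∧ p ^ (n + 1) ∣ (qv i : ℕ) - 1 ∧
        ∀ P : ValuationSubring Qb, P.LiesOverPrime (qv i : ℕ) → ∀ φ : GQ,
          P.IsFrobeniusAt φ (qv i : ℕ) →
            ∃ α β : k, α ≠ β ∧ LinearMap.charpoly (ρbar.ρ φ) = (X - C α) * (X - C β)) ∧
      ∀ L : Cond (ad0Rep p (Deformation.barMat ρbar)), (∀ q ∈ T, L₀ q ≤ L q) →
        Finite (selmer _ (condAt _ (T ∪ Finset.univ.image qv) (extTop p T L))) ∧
        finrank (ZMod p) (selmer _ (condAt _ (T ∪ Finset.univ.image qv) (extTop p T L))) +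
            (∑ q ∈ T, finrank (ZMod p)
              (fixedBy ((ad0Rep p (Deformation.barMat ρbar)).comp (loc q)) ⊤)) +
            finrank (ZMod p) k ≤
          (∑ q ∈ T, finrank (ZMod p) (L q)) + r * finrank (ZMod p) k := by
  classical
  have hurM : ∀ q : Nat.Primes, q ∉ T → ∀ A : ValuationSubring Qb, A.LiesOverPrime (q : ℕ) →
      ∀ s ∈ A.inertiaSubgroupIn ℚ, Deformation.barMat ρbar s = 1 := fun q hq A hA s hs => by
    show LinearMap.toMatrix _ _ (ρbar.ρ s) = 1
    rw [hur q hq A hA s hs, LinearMap.toMatrix_one]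
  have hlev := exists_level_lvlS (Deformation.barMat ρbar) T (by
    obtain ⟨F, hF, h1⟩ := ρbar.factorsThroughFiniteLevel
    exact ⟨F, hF, fun s hs => by
      show LinearMap.toMatrix _ _ (ρbar.ρ s) = 1
      rw [h1 s hs, LinearMap.toMatrix_one]⟩) hurM
  have hσT : Smooth (lvlS T) (ad0Dual p (Deformation.barMat ρbar)) := smooth_ad0Dual p _ hpT hlev
  haveI : Finite (selmer (ad0Dual p (Deformation.barMat ρbar)) (condAt _ T
      (orth (ad0Pairing p (Deformation.barMat ρbar)) L₀))) := finite_selmer_condAt p T hσT _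
  haveI : Module.Finite (ZMod p) (selmer (ad0Dual p (Deformation.barMat ρbar)) (condAt _ T
      (orth (ad0Pairing p (Deformation.barMat ρbar)) L₀))) := Module.Finite.of_finite
  refine ⟨finrank (ZMod p) (selmer (ad0Dual p (Deformation.barMat ρbar)) (condAt _ T
      (orth (ad0Pairing p (Deformation.barMat ρbar)) L₀))), fun n => ?_⟩
  obtain ⟨qv, hinj, hprop, hkill⟩ := exists_taylorWiles_primes p hp ρbar (Deformation.barBasis ρbar)
    (Deformation.barMat ρbar) (fun g => rfl) (det_eq_cycloChar p ρbar hdet) hsplit habs hTW S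
    (fun ℓ hℓ hℓS => hur ⟨ℓ, hℓ⟩ fun h => hℓS (hTS _ h))
    (selmer (ad0Dual p (Deformation.barMat ρbar)) (condAt _ T
      (orth (ad0Pairing p (Deformation.barMat ρbar)) L₀))) n
  refine ⟨qv, hinj, hprop, fun L hL => ?_⟩
  refine finrank_selmer_extTop_le p hp _ (det_eq_cycloChar p ρbar hdet)
    (fixedBy_ad0_top p _ hp ρbar habs rfl) T hpT hlev L₀ qv hinj (fun i => ?_) hkill L hL
  have hiT : qv i ∉ T := fun h => (hprop i).1 (hTS _ h)
  refine ⟨hiT, (dvd_pow_self p n.succ_ne_zero).trans (hprop i).2.1,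
    fun s hs => hurM _ hiT _ (primeLocalPlace_liesOverPrime (qv i)) _ hs, fun φ hφ => ?_⟩
  obtain ⟨α, β, hne, hcp⟩ := (hprop i).2.2 _ (primeLocalPlace_liesOverPrime (qv i)) φ hφ
  exact ⟨α, β, hne, by
    rw [← hcp, ← LinearMap.charpoly_toMatrix (ρbar.ρ φ) (Deformation.barBasis ρbar)]
    rfl⟩

end FLTA.RT

end
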