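import Fermat.Agent.GenusKahler.Fibres
import Fermat.Agent.Bridge.Places

/-!
# The zeros of `j` when `Γ₀(N)` has no elliptic point of order three

If a prime `r ≡ 2 (mod 3)` divides `N` then every zero of `j` on `X₀(N)` is triple.
-/

set_option autoImplicit false

noncomputable section

open scoped MatrixGroups
open UpperHalfPlane hiding I
open CongruenceSubgroup ModularCurve AlgebraicCurve FLTA.Bridge
open ModularForm (E₄)

namespace FLTA.RT

theorem nuThree_eq_zero {N r : ℕ} (hr : r.Prime) (hrN : r ∣ N) (hr3 : r % 3 = 2) :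
    nuThree N = 0 := by
  have := Fact.mk hr
  rw [nuThree, Nat.card_eq_zero]
  refine Or.inl ⟨fun ⟨x, hx⟩ => ?_⟩
  set y := ZMod.castHom hrN (ZMod r) x
  have hy : y ^ 2 + y + 1 = 0 := by
    rw [← map_one (ZMod.castHom hrN (ZMod r)), ← map_pow, ← map_add, ← map_add, hx, map_zero]
  have hy3 : y ^ 3 = 1 := by linear_combination (y - 1) * hy
  have hy0 : y ≠ 0 := fun h => by simp [h] at hy
  have hd1 : orderOf y ∣ 3 := orderOf_dvd_of_pow_eq_one hy3
  have hd2 : orderOf y ∣ r - 1 := orderOf_dvd_of_pow_eq_one (ZMod.pow_card_sub_one_eq_one hy0)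
  have h1 : orderOf y ∣ Nat.gcd 3 (r - 1) := Nat.dvd_gcd hd1 hd2
  have hcop : Nat.gcd 3 (r - 1) = 1 :=
    (Nat.Prime.coprime_iff_not_dvd Nat.prime_three).mpr fun h => by omega
  rw [hcop, Nat.dvd_one, orderOf_eq_one_iff] at h1
  rw [h1] at hy
  have h3 : ((3 : ℕ) : ZMod r) = 0 := by push_cast; linear_combination hy
  rw [ZMod.natCast_eq_zero_iff] at h3
  have := (Nat.prime_dvd_prime_iff_eq hr Nat.prime_three).mp h3
  omega

variable (N : ℕ) [NeZero N] {L : Type*} [Field L] [Algebra ℚ L] [IsAlgClosed L] (ι : L →+* ℂ)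

include ι in
/-- A zero of `j` has order `3`. -/
theorem ord_jF_eq_three {r : ℕ} (hr : r.Prime) (hrN : r ∣ N) (hr3 : r % 3 = 2)
    (v : Place L (laurentBaseChange L (modularFunctionFieldFull N)))
    (hv : 0 < v.ord (jF N L)) : v.ord (jF N L) = 3 := by
  have : CharZero L := charZero_of_injective_algebraMap (algebraMap ℚ L).injective
  have hle : ∀ w : Place L (laurentBaseChange L (modularFunctionFieldFull N)),
      0 < w.ord (jF N L) → w.ord (jF N L) ≤ 3 := by
    intro w hw
    rcases exists_eq_placeAt_or_cuspPlace N ι w with ⟨τ, hτ, rfl⟩ | ⟨g, rfl⟩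
    · have hmul := ordF_eq_mul_ord_placeAt N ι τ hτ (jF N L)
      have he : (0 : ℤ) < ellipticIndex N τ := by exact_mod_cast ellipticIndex_pos N τ
      have hpos : 0 < ordF N ι τ (jF N L - algebraMap L _ 0) := by
        rw [map_zero, sub_zero, hmul]
        exact mul_pos he hw
      have hj : jInv τ = ι 0 := jInv_eq_of_ordF_pos N ι hpos
      have h4 : E₄ τ = 0 := by
        rw [map_zero, jInv, div_eq_zero_iff, or_iff_left (ModularForm.discriminant_ne_zero τ),
          pow_eq_zero_iff (by norm_num)] at hj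
        exact hj
      have h3 : ordF N ι τ (jF N L) = 3 := by
        have h := ordF_jF_sub N ι τ 0 hj.symm
        rw [map_zero, sub_zero, hj, map_zero] at h
        rw [h, analyticOrderNatAt, GenusKahler.analyticOrderAt_jFun_E4_zero h4]
        rfl
      rw [h3] at hmul
      nlinarith
    · rw [ord_jF_cuspPlace] at hw
      omega
  obtain ⟨Z, hZ, hsum, hcard⟩ := GenusKahler.exists_zeros_zero (N := N) (L := L) ι
  simp only [map_zero, sub_zero] at hZ hsum
  rw [nuThree_eq_zero hr hrN hr3] at hcard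
  have heq : ∑ w ∈ Z, w.ord (jF N L) = ∑ w ∈ Z, (3 : ℤ) := by
    rw [hsum, Finset.sum_const, nsmul_eq_mul]
    omega
  exact (Finset.sum_eq_sum_iff_of_le fun w hw => hle w ((hZ w).mp hw)).mp heq v ((hZ v).mpr hv)

include ι in
/-- Off the poles the orders of `j` are divisible by `3`. -/
theorem three_dvd_ord_jF {r : ℕ} (hr : r.Prime) (hrN : r ∣ N) (hr3 : r % 3 = 2)
    (v : Place L (laurentBaseChange L (modularFunctionFieldFull N)))
    (hv : 0 ≤ v.ord (jF N L)) : (3 : ℤ) ∣ v.ord (jF N L) := by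
  rcases hv.eq_or_lt with h | h
  · rw [← h]; exact dvd_zero 3
  · rw [ord_jF_eq_three N ι hr hrN hr3 v h]

end FLTA.RT

end
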