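import Fermat.Agent.EllReduction.Api
import Fermat.Agent.EllTorsion.MulFormula
import Fermat.Agent.Galois.PlacesFinite
import Fermat.Agent.LevelLowering.InertiaFrameUnram
import Mathlib.AlgebraicGeometry.EllipticCurve.DivisionPolynomial.Degree
import Mathlib.RingTheory.Polynomial.Vieta

/-!
# `p`-torsion in the kernel of reduction at `p`

If every `p`-torsion point lies in the kernel of reduction at `p` (good supersingular reduction),
every non-zero one has parameter of valuation exactly `p ^ (1 / (p² - 1))`, inertia acts through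
a commutative group, and the inertia orbit of such a point is as large as `p² - 1`.
-/

set_option autoImplicit false

open scoped Classical
open WeierstrassCurve WeierstrassCurve.Affine Polynomial

open scoped WeierstrassCurve.Affine

namespace FLTA.RT

open FLTA.EllReduction

local notation "Qbar" => AlgebraicClosure ℚ
local notation "Γ" => AlgebraicClosure ℚ ≃ₐ[ℚ] AlgebraicClosure ℚ

section Poly

variable {A : ValuationSubring Qbar}

/-- The product over a proper sub-multiset of numbers of absolute value `> 1` is smaller. -/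
theorem valuation_prod_lt {m t : Multiset Qbar} (hm : ∀ x ∈ m, 1 < A.valuation x) (ht : t ≤ m)
    (hne : t ≠ m) : A.valuation t.prod < A.valuation m.prod := by
  obtain ⟨u, rfl⟩ := Multiset.le_iff_exists_add.mp ht
  have key : ∀ w : Multiset Qbar, (∀ x ∈ w, 1 < A.valuation x) →
      w = 0 ∨ 1 < A.valuation w.prod := by
    intro w hw
    induction w using Multiset.induction_on with
    | empty => exact Or.inl rfl
    | cons a s ih =>
      right
      have ha := hw a (Multiset.mem_cons_self a s)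
      rw [Multiset.prod_cons, map_mul]
      rcases ih (fun x hx => hw x (Multiset.mem_cons_of_mem hx)) with rfl | h
      · simpa using ha
      · exact one_lt_mul_of_le_of_lt ha.le h
  have ht0 : (0 : A.ValueGroup) < A.valuation t.prod := by
    rcases key t (fun x hx => hm x (Multiset.mem_add.mpr (Or.inl hx))) with rfl | h
    · simp
    · exact zero_lt_one.trans h
  rw [Multiset.prod_add, map_mul]
  rcases key u (fun x hx => hm x (Multiset.mem_add.mpr (Or.inr hx))) with rfl | h
  · exact absurd (add_zero t).symm hne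
  · exact lt_mul_of_one_lt_right ht0 h

/-- An integer polynomial with leading coefficient `p` and no integral root over `p` has all its
roots of absolute value `|p| ^ (-1 / degree)`. -/
theorem valuation_root_pow {p : ℕ} (hp : p.Prime) (hA : A.LiesOverPrime p) (f : ℤ[X])
    (hlead : f.leadingCoeff = (p : ℤ))
    (hroots : ∀ x : Qbar, (f.map (Int.castRingHom Qbar)).IsRoot x → 1 < A.valuation x)
    {x : Qbar} (hx : (f.map (Int.castRingHom Qbar)).IsRoot x) :
    A.valuation x ^ f.natDegree * A.valuation (p : Qbar) = 1 := by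
  obtain ⟨g, hg⟩ : ∃ g, g = f.map (Int.castRingHom Qbar) := ⟨_, rfl⟩
  obtain ⟨d, hd⟩ : ∃ d, d = f.natDegree := ⟨_, rfl⟩
  have hinj : Function.Injective (Int.castRingHom Qbar) := Int.cast_injective
  have hdg : g.natDegree = d := by rw [hg, hd, natDegree_map_eq_of_injective hinj]
  have hlg : g.leadingCoeff = (p : Qbar) := by
    rw [hg, leadingCoeff_map_of_injective hinj, hlead]; simp
  have hg0 : g ≠ 0 := fun h => by
    rw [h, leadingCoeff_zero] at hlg; exact hp.ne_zero (by exact_mod_cast hlg.symm)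
  have hs : g.Splits := IsAlgClosed.splits g
  have hcard : g.roots.card = d := hdg ▸ hs.natDegree_eq_card_roots.symm
  have hm : ∀ y ∈ g.roots, 1 < A.valuation y := fun y hy =>
    hroots y (hg ▸ (mem_roots hg0).mp hy)
  have hxg : g.IsRoot x := hg ▸ hx
  have hd0 : 0 < d := hcard ▸ Multiset.card_pos_iff_exists_mem.mpr ⟨x, (mem_roots hg0).mpr hxg⟩
  have hpv : A.valuation (p : Qbar) < 1 := (A.mem_nonunits_iff).1 hA
  have hp0 : (0 : A.ValueGroup) < A.valuation (p : Qbar) :=
    A.valuation.pos_iff.mpr (Nat.cast_ne_zero.mpr hp.ne_zero)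
  have hint : ∀ i, A.valuation (g.coeff i) ≤ 1 := fun i => by
    rw [hg, coeff_map]; exact valuation_le_one_of_mem (intCast_mem A _)
  have hsmall : ∀ i, A.valuation (g.coeff i) < 1 → A.valuation (g.coeff i) ≤ A.valuation (p : Qbar) := by
    intro i hi
    rw [hg, coeff_map] at hi ⊢
    rw [eq_intCast] at hi ⊢
    have hdvd : (p : ℤ) ∣ f.coeff i := by
      by_contra hnd
      rw [valuation_intCast_of_not_dvd hp hA hnd] at hi
      exact lt_irrefl _ hi
    obtain ⟨e, he⟩ := hdvd
    rw [he, Int.cast_mul, map_mul, Int.cast_natCast]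
    exact mul_le_of_le_one_right' (valuation_le_one_of_mem (intCast_mem A e))
  have hc : ∀ i ≤ d, A.valuation (g.coeff i)
      = A.valuation (p : Qbar) * A.valuation (g.roots.esymm (d - i)) := by
    intro i hi
    rw [Polynomial.coeff_eq_esymm_roots_of_card (k := i) (hcard.trans hdg.symm) (by rw [hdg]; exact hi), hlg, hdg, map_mul,
      map_mul, map_pow, Valuation.map_neg, map_one, one_pow, mul_one]
  have hprod : A.valuation (g.coeff 0) = A.valuation (p : Qbar) * A.valuation g.roots.prod := by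
    rw [hc 0 (Nat.zero_le d), Nat.sub_zero, ← hcard, Multiset.esymm, Multiset.powersetCard_self]
    simp
  have hPgt : 1 < A.valuation g.roots.prod := by
    have := valuation_prod_lt hm (Multiset.zero_le g.roots) (fun h => by
      rw [← h, Multiset.card_zero] at hcard; omega)
    simpa using this
  have h0 : A.valuation (g.coeff 0) = 1 := by
    refine le_antisymm (hint 0) (not_lt.mp fun hlt => ?_)
    have h := hsmall 0 hlt
    rw [hprod] at h
    exact absurd h (not_le.mpr (lt_mul_of_one_lt_right hp0 hPgt))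
  have hmid : ∀ i, 0 < i → i < d → A.valuation (g.coeff i) ≤ A.valuation (p : Qbar) := by
    intro i hi hid
    refine hsmall i ?_
    rw [hc i hid.le]
    calc A.valuation (p : Qbar) * A.valuation (g.roots.esymm (d - i))
        < A.valuation (p : Qbar) * A.valuation g.roots.prod := by
          refine mul_lt_mul_of_pos_left ?_ hp0
          rw [Multiset.esymm]
          have : ∀ M : Multiset (Multiset Qbar), (∀ t ∈ M, A.valuation t.prod < A.valuation g.roots.prod) →
              A.valuation (M.map Multiset.prod).sum < A.valuation g.roots.prod := by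
            intro M hM
            induction M using Multiset.induction_on with
            | empty => simpa using zero_lt_one.trans hPgt
            | cons a s ih =>
              rw [Multiset.map_cons, Multiset.sum_cons]
              exact A.valuation.map_add_lt (hM a (Multiset.mem_cons_self a s))
                (ih fun t ht => hM t (Multiset.mem_cons_of_mem ht))
          refine this _ fun t ht => ?_
          rw [Multiset.mem_powersetCard] at ht
          exact valuation_prod_lt hm ht.1 fun h => by rw [h, hcard] at ht; omega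
      _ = 1 := by rw [← hprod, h0]
  have hv1 : 1 < A.valuation x := hroots x hx
  have hlast : A.valuation (g.coeff d * x ^ d) = A.valuation (p : Qbar) * A.valuation x ^ d := by
    rw [map_mul, map_pow, ← hdg, coeff_natDegree, hlg]
  have hsum : (g.coeff 0 + g.coeff d * x ^ d)
      + ∑ i ∈ Finset.Ioo 0 d, g.coeff i * x ^ i = 0 := by
    have h := hxg.eq_zero
    rw [eval_eq_sum_range, hdg, Finset.sum_range_succ,
      show Finset.range d = insert 0 (Finset.Ioo 0 d) from by ext; simp; omega,
      Finset.sum_insert (by simp)] at h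
    rw [← h]; ring
  have hrest : A.valuation (∑ i ∈ Finset.Ioo 0 d, g.coeff i * x ^ i)
      < A.valuation (p : Qbar) * A.valuation x ^ d := by
    refine A.valuation.map_sum_lt (mul_pos hp0 (pow_pos (zero_lt_one.trans hv1) d)).ne' fun i hi => ?_
    rw [Finset.mem_Ioo] at hi
    rw [map_mul, map_pow]
    exact mul_lt_mul_of_le_of_lt_of_nonneg_of_pos (hmid i hi.1 hi.2)
      (pow_lt_pow_right₀ hv1 hi.2) zero_le hp0
  rw [← hd, mul_comm]
  rw [add_eq_zero_iff_eq_neg] at hsum
  have hv := congrArg A.valuation hsum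
  rw [Valuation.map_neg] at hv
  rcases lt_trichotomy (A.valuation (p : Qbar) * A.valuation x ^ d) 1 with hlt | heq | hgt
  · rw [A.valuation.map_add_eq_of_lt_left (by rw [h0, hlast]; exact hlt), h0] at hv
    rw [← hv] at hrest
    exact absurd hrest (not_lt.mpr hlt.le)
  · exact heq
  · rw [A.valuation.map_add_eq_of_lt_right (by rw [h0, hlast]; exact hgt), hlast] at hv
    rw [← hv] at hrest
    exact absurd hrest (lt_irrefl _)

end Poly

section Kernel

variable {W : WeierstrassCurve ℤ} {p : ℕ} {A : ValuationSubring Qbar}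

theorem zCoord_smul (σ : Γ) (P : GeomPoint W) :
    zCoord (σ • P) = σ (zCoord P) := by
  cases P with
  | zero => exact (map_zero σ).symm
  | some x y h =>
    show -(σ x) / σ y = σ (-x / y)
    rw [map_div₀, map_neg]

theorem nsmul_smul (σ : Γ) (n : ℕ) (P : GeomPoint W) : n • (σ • P) = σ • (n • P) :=
  ((Affine.Point.map (W' := W.map (Int.castRingHom ℚ)) σ.toAlgHom).map_nsmul n P).symm

theorem valuation_zCoord_pow (hΔ : W.Δ ≠ 0) (hp : p.Prime) (hp2 : p ≠ 2)
    (hA : A.LiesOverPrime p) (hall : ∀ P : GeomPoint W, p • P = 0 → P ∈ E1Z W A)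
    {P : GeomPoint W} (hP : p • P = 0) (hP0 : P ≠ 0) :
    A.valuation (zCoord P) ^ (p ^ 2 - 1) = A.valuation (p : Qbar) := by
  have hodd : Odd p := hp.odd_of_ne_two hp2
  have hpZ : ((p : ℕ) : ℤ) ≠ 0 := by exact_mod_cast hp.ne_zero
  haveI : (geomCurve W).IsElliptic :=
    ⟨by rw [geomCurve_Δ]; exact isUnit_iff_ne_zero.mpr (Int.cast_ne_zero.mpr hΔ)⟩
  have hmap : (geomCurve W).preΨ' p = (W.preΨ' p).map (Int.castRingHom Qbar) := by
    rw [geomCurve_eq, map_preΨ']
  have hroots : ∀ x : Qbar, ((W.preΨ' p).map (Int.castRingHom Qbar)).IsRoot x →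
      1 < A.valuation x := by
    intro x hx
    obtain ⟨y, hy⟩ : ∃ y, (geomCurve W).toAffine.Equation x y := by
      let q : Qbar[X] := X ^ 2 + C ((geomCurve W).a₁ * x + (geomCurve W).a₃) * X
        - C (x ^ 3 + (geomCurve W).a₂ * x ^ 2 + (geomCurve W).a₄ * x + (geomCurve W).a₆)
      have hdeg : q.degree = 2 := by
        have hq' : q = C 1 * X ^ 2 + C ((geomCurve W).a₁ * x + (geomCurve W).a₃) * X
          + C (-(x ^ 3 + (geomCurve W).a₂ * x ^ 2 + (geomCurve W).a₄ * x + (geomCurve W).a₆)) := by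
          simp only [q, map_one, one_mul, map_neg]; ring
        rw [hq']; exact degree_quadratic one_ne_zero
      obtain ⟨y, hy⟩ := IsAlgClosed.exists_root q (by rw [hdeg]; decide)
      refine ⟨y, ?_⟩
      simp only [q, IsRoot.def, eval_add, eval_sub, eval_mul, eval_pow, eval_C, eval_X] at hy
      rw [equation_iff]
      linear_combination hy
    have hns := (equation_iff_nonsingular (x := x) (y := y)).mp hy
    have h0 := (EllTorsion.nsmul_eq_zero_iff_of_odd hns hodd).mpr (hmap ▸ hx)
    exact one_lt_valuation_of_notMem (hall _ h0)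
  cases P with
  | zero => exact absurd rfl hP0
  | some x y h =>
    have hx : ((W.preΨ' p).map (Int.castRingHom Qbar)).IsRoot x :=
      hmap ▸ (EllTorsion.nsmul_eq_zero_iff_of_odd h hodd).mp hP
    have hr := valuation_root_pow hp hA _
      (by rw [W.leadingCoeff_preΨ' hpZ, if_neg (Nat.not_even_iff_odd.2 hodd)]) hroots hx
    rw [W.natDegree_preΨ' hpZ, if_neg (Nat.not_even_iff_odd.2 hodd)] at hr
    obtain ⟨-, -, -, hxz, -⟩ := kernel_coords (geomCurve_integralAt W A) h.1 (hall _ hP)
    rw [zCoord_some]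
    obtain ⟨j, hj⟩ : 2 ∣ p ^ 2 - 1 :=
      even_iff_two_dvd.mp (Nat.Odd.sub_odd hodd.pow odd_one)
    rw [hj, Nat.mul_div_cancel_left _ two_pos] at hr
    rw [hj, pow_mul]
    have hx0 : A.valuation x ^ j ≠ 0 := left_ne_zero_of_mul_eq_one hr
    apply mul_left_cancel₀ hx0
    rw [← mul_pow, hxz, one_pow, hr]

theorem smul_zero_point (g : Γ) : g • (0 : GeomPoint W) = 0 := rfl

theorem valuation_apply_of_mem_inertia (hp : p.Prime) (hA : A.LiesOverPrime p) {σ : Γ}
    (hσ : σ ∈ A.inertiaSubgroupIn ℚ) (x : Qbar) : A.valuation (σ x) = A.valuation x :=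
  (actsTriviallyMod_of_mem_inertiaSubgroupIn hσ).valuation_eq hp hA x

/-- Two torsion points in the kernel with close parameters are equal. -/
theorem eq_of_zCoord_close (hΔ : W.Δ ≠ 0) (hp : p.Prime) (hp2 : p ≠ 2)
    (hA : A.LiesOverPrime p) (hall : ∀ P : GeomPoint W, p • P = 0 → P ∈ E1Z W A)
    {P Q : GeomPoint W} (hP : p • P = 0) (hQ : p • Q = 0) (hP0 : P ≠ 0) (hQ0 : Q ≠ 0)
    (h : A.valuation (zCoord P - zCoord Q) < A.valuation (zCoord P)) : P = Q := by
  have hd : (p ^ 2 - 1) ≠ 0 := by
    have := hp.two_le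
    have : 4 ≤ p ^ 2 := by nlinarith
    omega
  have same : ∀ R : GeomPoint W, p • R = 0 → R ≠ 0 →
      A.valuation (zCoord R) = A.valuation (zCoord P) := fun R hR hR0 =>
    (pow_left_inj₀ zero_le zero_le hd).mp
      ((valuation_zCoord_pow hΔ hp hp2 hA hall hR hR0).trans
        (valuation_zCoord_pow hΔ hp hp2 hA hall hP hP0).symm)
  have hr : A.valuation (zCoord P) < 1 := by
    refine (pow_lt_one_iff_of_nonneg zero_le hd).mp ?_
    rw [valuation_zCoord_pow hΔ hp hp2 hA hall hP hP0]
    exact (A.mem_nonunits_iff).1 hA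
  by_contra hne
  have hD : p • (P - Q) = 0 := by
    rw [nsmul_sub, hP, hQ]; exact sub_self _
  have hDr := same _ hD (sub_ne_zero.mpr hne)
  have hadd := zCoord_add (geomCurve_integralAt W A) (hall _ hD) (hall _ hQ)
    (r := A.valuation (zCoord P)) hDr.le (same Q hQ hQ0).le hr
  rw [sub_add_cancel] at hadd
  have hlt : A.valuation (zCoord (P - Q)) < A.valuation (zCoord P) := by
    have e : zCoord (P - Q)
        = (zCoord P - zCoord Q) - (zCoord P - zCoord (P - Q) - zCoord Q) := by ring
    rw [e]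
    refine lt_of_le_of_lt (A.valuation.map_sub _ _) (max_lt h (hadd.trans_lt ?_))
    have hpos : (0 : A.ValueGroup) < A.valuation (zCoord P) :=
      zero_le.lt_of_ne fun h0 => absurd (h0 ▸ h) (not_lt.mpr zero_le)
    rw [sq]
    exact mul_lt_of_lt_one_left hpos hr
  exact hlt.ne hDr

/-- Inertia commutes on `E[p]` in the supersingular case. -/
theorem smul_comm_of_mem_inertia (hΔ : W.Δ ≠ 0) (hp : p.Prime) (hp2 : p ≠ 2)
    (hA : A.LiesOverPrime p) (hall : ∀ P : GeomPoint W, p • P = 0 → P ∈ E1Z W A)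
    {σ τ : Γ} (hσ : σ ∈ A.inertiaSubgroupIn ℚ) (hτ : τ ∈ A.inertiaSubgroupIn ℚ)
    {P : GeomPoint W} (hP : p • P = 0) : σ • τ • P = τ • σ • P := by
  by_cases hP0 : P = 0
  · subst hP0; simp only [smul_zero_point]
  have ne0 : ∀ (g : Γ) (R : GeomPoint W), R ≠ 0 → g • R ≠ 0 := fun g R hR h =>
    hR (by rw [← inv_smul_smul g R, h, smul_zero_point])
  have tors : ∀ (g : Γ) (R : GeomPoint W), p • R = 0 → p • (g • R) = 0 := fun g R hR => by
    rw [nsmul_smul, hR, smul_zero_point]
  refine eq_of_zCoord_close hΔ hp hp2 hA hall (tors _ _ (tors _ _ hP)) (tors _ _ (tors _ _ hP))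
    (ne0 _ _ (ne0 _ _ hP0)) (ne0 _ _ (ne0 _ _ hP0)) ?_
  have aσ := actsTriviallyMod_of_mem_inertiaSubgroupIn hσ
  have aτ := actsTriviallyMod_of_mem_inertiaSubgroupIn hτ
  rw [zCoord_smul, zCoord_smul, zCoord_smul, zCoord_smul]
  have hz : zCoord P ≠ 0 := by
    have h1 := valuation_zCoord_pow hΔ hp hp2 hA hall hP hP0
    intro h0
    rw [h0, map_zero, zero_pow (by have := hp.two_le; have : 4 ≤ p ^ 2 := by nlinarith
                                   omega)] at h1
    exact (A.valuation.pos_iff.mpr (Nat.cast_ne_zero.mpr hp.ne_zero)).ne h1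
  obtain ⟨z, hzdef⟩ : ∃ z, z = zCoord P := ⟨_, rfl⟩
  rw [← hzdef] at hz ⊢
  obtain ⟨u, hu⟩ : ∃ u, u = σ z / z := ⟨_, rfl⟩
  obtain ⟨w, hw⟩ : ∃ w, w = τ z / z := ⟨_, rfl⟩
  have eσ : σ z = z * u := by rw [hu]; field_simp
  have eτ : τ z = z * w := by rw [hw]; field_simp
  have vu : A.valuation u = 1 := by
    rw [hu, map_div₀, valuation_apply_of_mem_inertia hp hA hσ, div_self (A.valuation.ne_zero_iff.mpr hz)]
  have vw : A.valuation w = 1 := by
    rw [hw, map_div₀, valuation_apply_of_mem_inertia hp hA hτ, div_self (A.valuation.ne_zero_iff.mpr hz)]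
  have mem1 : ∀ {c : Qbar}, A.valuation c = 1 → c ∈ A := fun h => (A.valuation_le_one_iff _).mp h.le
  have hone : A.valuation (u * σ w - w * τ u) < 1 := by
    have e : u * σ w - w * τ u = u * (σ w - w) - w * (τ u - u) := by ring
    rw [e]
    refine lt_of_le_of_lt (A.valuation.map_sub _ _) (max_lt ?_ ?_)
    · rw [map_mul, vu, one_mul]; exact (aσ w (mem1 vw)).2
    · rw [map_mul, vw, one_mul]; exact (aτ u (mem1 vu)).2
  rw [eτ, map_mul, eσ, map_mul, eτ, show z * u * σ w - z * w * τ u = z * (u * σ w - w * τ u) by ring,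
    map_mul, show z * u * σ w = z * (u * σ w) by ring, map_mul, map_mul, vu,
    valuation_apply_of_mem_inertia hp hA hσ, vw, one_mul, mul_one]
  exact mul_lt_of_lt_one_right (A.valuation.pos_iff.mpr hz) hone

/-- The inertia orbit of a non-zero point is too large for inertia to have small exponent. -/
theorem exists_smul_pow_ne (hΔ : W.Δ ≠ 0) (hp : p.Prime) (hp2 : p ≠ 2)
    (hA : A.LiesOverPrime p) (hall : ∀ P : GeomPoint W, p • P = 0 → P ∈ E1Z W A)
    {m : ℕ} (hm0 : 0 < m) (hm : m < p ^ 2 - 1) {P : GeomPoint W} (hP : p • P = 0) (hP0 : P ≠ 0) :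
    ∃ σ ∈ A.inertiaSubgroupIn ℚ, σ ^ m • P ≠ P := by
  by_contra hcon
  push Not at hcon
  obtain ⟨d, hd⟩ : ∃ d, d = p ^ 2 - 1 := ⟨_, rfl⟩
  have hv := valuation_zCoord_pow hΔ hp hp2 hA hall hP hP0
  rw [← hd] at hv
  have hpv : A.valuation (p : Qbar) < 1 := (A.mem_nonunits_iff).1 hA
  have hp0 : (0 : A.ValueGroup) < A.valuation (p : Qbar) :=
    A.valuation.pos_iff.mpr (Nat.cast_ne_zero.mpr hp.ne_zero)
  have hd0 : d ≠ 0 := by omega
  obtain ⟨z, hzdef⟩ : ∃ z, z = zCoord P := ⟨_, rfl⟩
  rw [← hzdef] at hv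
  have hz : z ≠ 0 := fun h0 => by rw [h0, map_zero, zero_pow hd0] at hv; exact hp0.ne hv
  have hvz : (0 : A.ValueGroup) < A.valuation z := A.valuation.pos_iff.mpr hz
  have hzalg : IsIntegral ℚ z := Algebra.IsIntegral.isIntegral z
  set O : Set Qbar := (fun σ : Γ => σ z) '' (A.inertiaSubgroupIn ℚ : Set Γ) with hO
  have hfin : O.Finite := ((minpoly ℚ z).rootSet_finite Qbar).subset (by
    rintro _ ⟨σ, -, rfl⟩
    rw [mem_rootSet]
    exact ⟨minpoly.ne_zero hzalg, by rw [aeval_algHom_apply, minpoly.aeval, map_zero]⟩)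
  have hzO : z ∈ O := ⟨1, one_mem _, rfl⟩
  have hs0 : 0 < hfin.toFinset.card := Finset.card_pos.mpr ⟨z, hfin.mem_toFinset.mpr hzO⟩
  have hvO : ∀ x ∈ O, A.valuation x = A.valuation z := by
    rintro _ ⟨σ, hσ, rfl⟩
    exact valuation_apply_of_mem_inertia hp hA hσ z
  have hOne : ∀ x ∈ O, x ≠ 0 := fun x hx h0 => by
    have := hvO x hx; rw [h0, map_zero] at this; exact hvz.ne this
  -- the norm over the orbit is fixed by inertia
  obtain ⟨N, hN⟩ : ∃ N, N = ∏ x ∈ hfin.toFinset, x := ⟨_, rfl⟩
  have hN0 : N ≠ 0 := hN ▸ Finset.prod_ne_zero_iff.mpr fun x hx => hOne x (hfin.mem_toFinset.mp hx)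
  have hNfix : ∀ σ ∈ A.inertiaSubgroupIn ℚ, σ N = N := by
    intro σ hσ
    rw [hN, map_prod]
    have himg : hfin.toFinset.image σ = hfin.toFinset := by
      refine Finset.eq_of_subset_of_card_le ?_
        (by rw [Finset.card_image_of_injective _ σ.injective])
      intro y hy
      obtain ⟨x, hx, rfl⟩ := Finset.mem_image.mp hy
      obtain ⟨τ, hτ, rfl⟩ := hfin.mem_toFinset.mp hx
      exact hfin.mem_toFinset.mpr ⟨σ * τ, mul_mem hσ hτ, rfl⟩
    conv_rhs => rw [← himg]
    rw [Finset.prod_image σ.injective.injOn]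
  obtain ⟨k, hk⟩ := LevelLowering.exists_zpow_valuation_eq_of_fixed hp hA hN0 hNfix
  have hvN : A.valuation N = A.valuation z ^ hfin.toFinset.card := by
    rw [hN, map_prod, Finset.prod_congr rfl fun x hx => hvO x (hfin.mem_toFinset.mp hx),
      Finset.prod_const]
  rw [hvN, ← hv, ← zpow_natCast (A.valuation z) d, ← zpow_natCast, ← zpow_mul] at hk
  have hvz1 : A.valuation z < 1 := (pow_lt_one_iff_of_nonneg zero_le hd0).mp (hv ▸ hpv)
  have hdle : d ≤ hfin.toFinset.card := by
    have h1 : (hfin.toFinset.card : ℤ) = d * k := (zpow_right_strictAnti₀ hvz hvz1).injective hk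
    have hk0 : 0 < k := by
      by_contra hk0
      have : (d : ℤ) * k ≤ 0 := mul_nonpos_of_nonneg_of_nonpos (by positivity) (not_lt.mp hk0)
      omega
    have : (d : ℤ) ≤ d * k := le_mul_of_one_le_right (by positivity) hk0
    omega
  -- residues of the ratios are distinct `m`-th roots of unity
  have hmem : ∀ x ∈ O, x / z ∈ A := fun x hx =>
    (A.valuation_le_one_iff _).mp (by rw [map_div₀, hvO x hx, div_self hvz.ne'])
  let r : O → IsLocalRing.ResidueField A := fun x =>
    IsLocalRing.residue A ⟨x.1 / z, hmem x.1 x.2⟩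
  have hres : ∀ {a b : Qbar} (ha : a ∈ A) (hb : b ∈ A),
      IsLocalRing.residue A ⟨a, ha⟩ = IsLocalRing.residue A ⟨b, hb⟩ ↔ A.valuation (a - b) < 1 :=
    fun ha hb => residue_eq_residue_iff
  have rinj : Function.Injective r := by
    rintro ⟨_, σ, hσ, rfl⟩ ⟨_, τ, hτ, rfl⟩ h
    refine Subtype.ext ?_
    simp only [r] at h
    rw [hres] at h
    have h' : A.valuation (σ z - τ z) < A.valuation z := by
      have e : σ z - τ z = z * (σ z / z - τ z / z) := by field_simp
      rw [e, map_mul]
      exact mul_lt_of_lt_one_right hvz h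
    have ne0 : ∀ g : Γ, g • P ≠ 0 := fun g h => hP0 (by rw [← inv_smul_smul g P, h, smul_zero_point])
    have tors : ∀ g : Γ, p • (g • P) = 0 := fun g => by rw [nsmul_smul, hP, smul_zero_point]
    have := eq_of_zCoord_close hΔ hp hp2 hA hall (tors σ) (tors τ) (ne0 σ) (ne0 τ)
      (by rw [zCoord_smul, zCoord_smul, ← hzdef,
            valuation_apply_of_mem_inertia hp hA hσ]; exact h')
    have := congrArg zCoord this
    rwa [zCoord_smul, zCoord_smul, ← hzdef] at this
  have rroot : ∀ x : O, r x ^ m = 1 := by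
    rintro ⟨_, σ, hσ, rfl⟩
    obtain ⟨u, hu⟩ : ∃ u, u = σ z / z := ⟨_, rfl⟩
    have eσ : σ z = z * u := by rw [hu]; field_simp
    have huA : u ∈ A := hu ▸ hmem _ ⟨σ, hσ, rfl⟩
    have key : ∀ i : ℕ, ∃ c : Qbar, ∃ hc : c ∈ A, (σ ^ i) z = z * c ∧
        IsLocalRing.residue A ⟨c, hc⟩ = IsLocalRing.residue A ⟨u, huA⟩ ^ i := by
      intro i
      induction i with
      | zero => exact ⟨1, one_mem A, by simp, by rw [pow_zero]; exact map_one (IsLocalRing.residue A)⟩
      | succ i ih =>
        obtain ⟨c, hc, e, hr⟩ := ih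
        have hσc := actsTriviallyMod_of_mem_inertiaSubgroupIn hσ c hc
        refine ⟨u * σ c, mul_mem huA hσc.1, ?_, ?_⟩
        · rw [pow_succ', AlgEquiv.mul_apply, e, map_mul, eσ, mul_assoc]
        · rw [pow_succ', ← hr, show (⟨u * σ c, mul_mem huA hσc.1⟩ : A) = ⟨u, huA⟩ * ⟨σ c, hσc.1⟩
            from rfl, map_mul, (hres hσc.1 hc).mpr hσc.2]
    obtain ⟨c, hc, e, hr⟩ := key m
    have hfix : (σ ^ m) z = z := by
      rw [hzdef, ← zCoord_smul, hcon σ hσ]
    rw [hfix] at e
    have hc1 : c = 1 := mul_left_cancel₀ hz (by rw [← e, mul_one])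
    subst hc1
    simp only [r, ← hu]
    rw [← hr]
    exact map_one (IsLocalRing.residue A)
  have hle : hfin.toFinset.card ≤ m := by
    haveI := hfin.to_subtype
    haveI := Fintype.ofFinite O
    rw [← Set.ncard_eq_toFinset_card O hfin, ← Nat.card_coe_set_eq, Nat.card_eq_fintype_card]
    calc Fintype.card O = (Finset.univ.image r).card :=
          (Finset.card_image_of_injective _ rinj).symm
      _ ≤ (nthRoots m (1 : IsLocalRing.ResidueField A)).toFinset.card := by
          refine Finset.card_le_card fun y hy => ?_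
          obtain ⟨x, -, rfl⟩ := Finset.mem_image.mp hy
          rw [Multiset.mem_toFinset, mem_nthRoots hm0]
          exact rroot x
      _ ≤ m := (Multiset.toFinset_card_le _).trans (card_nthRoots m 1)
  omega

end Kernel

end FLTA.RT
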