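import Fermat.Agent.RT.S59Interface
import Fermat.Agent.RT.LowerQ.Congruence
import Fermat.Agent.RT.LowerP.Ordinary
import Fermat.Agent.RT.LowerP.Supersingular
import Fermat.Agent.RT.LowerP.AuxLevel

/-!
# `p` leaves the level at a prime of good reduction (`LowerP`)

The `p`-new alternative of the global step is impossible at an ordinary place by the kernel of the
toric projection and at a supersingular place by the action of inertia on toric classes.
-/

set_option autoImplicit false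

noncomputable section

open WeierstrassCurve

namespace FLTA.RT

variable {p : ℕ} {W : WeierstrassCurve ℤ}

/-- Lowering at `p`, given the auxiliary prime in the level when `p = 3`. -/
theorem lowerP_of_aux (hW : LiftingCurve p W) {M : ℕ} (hM : M ≠ 0) (hpM : ¬ p ∣ M)
    (hgood : W.IsGoodPrimeFor p)
    (haux : p = 3 → ∃ r : ℕ, r.Prime ∧ r % 3 = 2 ∧ r ∣ M)
    (hmod : W.IsResiduallyModularOfLevel p (p * M)) : W.IsResiduallyModularOfLevel p M := by
  obtain ⟨hp, hp2⟩ : p.Prime ∧ p ≠ 2 := by rcases hW.hp with rfl | rfl <;> norm_num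
  haveI : Fact p.Prime := ⟨hp⟩
  haveI : NeZero M := ⟨hM⟩
  haveI : NeZero (p * M) := ⟨mul_ne_zero hp.ne_zero hM⟩
  rcases LevelLowering.exists_curveData_or_residuallyModular W hW.hΔ p hp2 hW.irreducible (p * M) M
    rfl hmod with h | hD
  · exact h
  · obtain ⟨D⟩ := hD
    have hlev : ∀ ℓ : ℕ, ℓ.Prime → ℓ ∣ p * M →
        ℓ ∈ ({p} ∪ (p * M).primeFactors ∪ W.Δ.natAbs.primeFactors : Finset ℕ) := fun ℓ hℓ h => by
      simp [Nat.mem_primeFactors, hℓ, h, hp.ne_zero, hM]
    by_cases hord : (p : ℤ) ∣ W.apOfModel p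
    · exact (LowerPSS.false_of_curveData hW.hΔ hp2 hgood hord (mul_comm p M) hpM
        (by simp) hlev D).elim
    · exact (LowerPOrd.false_of_curveData hW.hΔ hp2 (Or.inl ⟨hgood, hord⟩) (mul_comm p M) hpM
        haux (by simp) hlev D).elim

/-- **`p` leaves the level.** -/
theorem lowerP : LowerP := by
  intro p W hW M hsq hgood hpM hmod
  obtain ⟨hp, hp2⟩ : p.Prime ∧ p ≠ 2 := by rcases hW.hp with rfl | rfl <;> norm_num
  haveI : Fact p.Prime := ⟨hp⟩
  obtain ⟨M, rfl⟩ := hpM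
  rw [Nat.mul_div_cancel_left M hp.pos]
  obtain ⟨hcop, -, hsqM⟩ := Nat.squarefree_mul_iff.mp hsq
  have hM : M ≠ 0 := hsqM.ne_zero
  have hpM : ¬ p ∣ M := hp.coprime_iff_not_dvd.mp hcop
  by_cases haux : p = 3 → ∃ r : ℕ, r.Prime ∧ r % 3 = 2 ∧ r ∣ M
  · exact lowerP_of_aux hW hM hpM hgood haux hmod
  obtain ⟨rfl, -⟩ := Classical.not_imp.mp haux
  obtain ⟨r, hr, hr3, hr2, hrM, hgr, har⟩ :=
    LowerPAux.exists_aux_prime hW (mul_ne_zero hp.ne_zero hM)
  have hr3' : ¬ (3 : ℕ) ∣ r := by omega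
  have hMr : ¬ 3 ∣ M * r := fun h =>
    ((Nat.prime_three.dvd_mul).mp h).elim hpM hr3'
  have hsqMr : Squarefree (M * r) :=
    Nat.squarefree_mul_iff.mpr ⟨((hr.coprime_iff_not_dvd).mpr fun h => hrM (h.mul_left 3)).symm,
      hsqM, hr.squarefree⟩
  haveI : NeZero (3 * (M * r)) := ⟨mul_ne_zero (by norm_num) hsqMr.ne_zero⟩
  have hup := LowerQ.residual_of_hasSystem hW.hΔ hp2
    (mul_dvd_mul_left 3 (dvd_mul_right M r))
    (LowerQ.hasSystem_of_residual hW.hΔ (mul_ne_zero (by norm_num) hM) hmod)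
  exact LowerPAux.descend_aux hW hsqMr hr hr3 hr2 hgr har
    (lowerP_of_aux hW hsqMr.ne_zero hMr hgood (fun _ => ⟨r, hr, hr3, dvd_mul_left r M⟩) hup)

end FLTA.RT

end
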