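import Fermat.Agent.RT.LowerQ
import Fermat.Agent.RT.Main.Avoidance

/-!
# Ihara avoidance for lifting curves, and step (C)
-/

set_option autoImplicit false

noncomputable section

open WeierstrassCurve

namespace FLTA.RT

open FLTA.LevelLowering (planeRep)

/-- Ihara avoidance for lifting curves. -/
theorem avoidanceAt : AvoidanceAt := by
  intro W hΔ p _ N q hW hsf hq hq2 hqp hqN hunr hsys hat hell hq1 htr
  exact avoidanceStep W hΔ p N q
    { three_le := by rcases hW.hp with h | h <;> omega
      elliptic := hell
      semistable := hW.semistable
      irreducible := hW.irreducible
      squarefree := hsf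
      at_p := hat
      prime := hq
      ne_two := hq2
      ne := hqp
      dvd := hqN
      unramified := hunr
      system := hsys } hq1 htr

/-- **Step (C)**: unramified primes leave a squarefree level. -/
theorem lowerQ : LowerQ :=
  lowerQ_of avoidanceAt

end FLTA.RT

end
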