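import Fermat.Agent.BadRed.Ramified.Valuation
import Fermat.Agent.BadRed.Ramified.Places
import Fermat.Agent.BadRed.Toric.Galois
import Fermat.Agent.BadRed.ModularSym
import Fermat.Agent.LevelLowering.InertiaFrameUnram
import Fermat.Prelude.Def_ModularCurve_HeckeModule

/-!
# The inertia system of the fibre of `X₀(M q)` at `q`

The common fixed field of inertia at `A` is unramified, and inertia-fixed torsion classes of
`J₀(M q)` have inertia-fixed Kummer functions.
-/

set_option autoImplicit false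
set_option synthInstance.maxHeartbeats 400000
set_option maxHeartbeats 1000000

noncomputable section

open AlgebraicCurve ModularCurve IsLocalRing

namespace FLTA.RT

variable (M q : ℕ) [NeZero M] [NeZero q] [hq : Fact q.Prime]
  (A : ValuationSubring (AlgebraicClosure ℚ)) (hA : A.LiesOverPrime q) (hqM : ¬ q ∣ M)
  [CharP (ResidueField A) q] [PerfectRing (ResidueField A) q]

include hA in
/-- An element fixed by inertia is a power of `q` times a unit. -/
theorem exists_hasVal_of_fixed {c : AlgebraicClosure ℚ} (hc0 : c ≠ 0)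
    (hc : ∀ σ ∈ A.inertiaSubgroupIn ℚ, σ c = c) : ∃ v : ℤ, BadRed.HasVal A q c v := by
  obtain ⟨v, hv⟩ := FLTA.LevelLowering.exists_zpow_valuation_eq_of_fixed hq.out hA hc0 hc
  have hq0 : A.valuation (q : AlgebraicClosure ℚ) ≠ 0 :=
    A.valuation.ne_zero_iff.mpr (Nat.cast_ne_zero.mpr hq.out.ne_zero)
  refine ⟨v, hc0, (A.valuation_le_one_iff _).mp ?_, (A.valuation_le_one_iff _).mp ?_⟩
  · rw [map_div₀, map_zpow₀, hv, div_self (zpow_ne_zero _ hq0)]
  · rw [map_div₀, map_zpow₀, hv, div_self (zpow_ne_zero _ hq0)]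

/-- The inertia symmetries of the fibre of `X₀(M q)` at `A`. -/
def inertiaSys : (BadRed.badFibre M q A hA hqM).InertiaSys where
  I := {s | s.IsInertia ∧ ∃ σ ∈ A.inertiaSubgroupIn ℚ,
    s.σ = arithmeticGalois (modularFunctionFieldFull (M * q)) σ}
  isInertia _ h := h.1
  exists_val c hc0 hc := exists_hasVal_of_fixed q A hA hc0 fun σ hσ => by
    obtain ⟨s, hs, hsI⟩ := BadRed.exists_inertiaSym M q A hA hqM hσ
    have h := hc s ⟨hsI, σ, hσ, hs⟩
    rw [hs] at h
    exact h

theorem mem_inertiaSys {s : (BadRed.badFibre M q A hA hqM).Sym} :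
    s ∈ (inertiaSys M q A hA hqM).I ↔ s.IsInertia ∧ ∃ σ ∈ A.inertiaSubgroupIn ℚ,
      s.σ = arithmeticGalois (modularFunctionFieldFull (M * q)) σ := Iff.rfl

/-- An inertia-fixed class has an inertia-fixed Kummer function. -/
theorem exists_fixed_kummer_jZero {n : ℕ} {x : JZero (M * q)} (hx : n • x = 0)
    (hfix : ∀ σ ∈ A.inertiaSubgroupIn ℚ, σ • x = x) :
    ∃ (D : Divisor.degZero (K := AlgebraicClosure ℚ) (F := modularFunctionFieldBar (M * q)))
      (f : modularFunctionFieldBar (M * q)), f ≠ 0 ∧ Pic0.mk D = x ∧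
      (∀ v : Place (AlgebraicClosure ℚ) (modularFunctionFieldBar (M * q)),
        (n : ℤ) * (D : Divisor (AlgebraicClosure ℚ) (modularFunctionFieldBar (M * q))) v = v.ord f) ∧
      (inertiaSys M q A hA hqM).Fixed f := by
  set B := BadRed.badFibre M q A hA hqM
  obtain ⟨D, f, hf, hDx, hD, hI⟩ := BadRed.Ramified.exists_fixed_kummer B.ex (P := B.P 0)
    B.ord_P_zero B.rrF hx
    (I := (fun s : B.Sym => s.σ) '' (inertiaSys M q A hA hqM).I) (by
      rintro _ ⟨s, ⟨-, σ, hσ, hs⟩, rfl⟩
      refine ⟨s.ex_σ, B.smul_P s 0, ?_⟩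
      show s.σ • x = x
      rw [hs, ← galois_smul_pic0_def]
      exact hfix σ hσ)
  exact ⟨D, f, hf, hDx, hD, fun s hs => (hI _ ⟨s, hs, rfl⟩).1⟩

end FLTA.RT

end
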