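import Fermat.Agent.LevelLowering.HeckeReduced
import Fermat.Agent.BadRed.Ramified.Toricity
import Fermat.Agent.BadRed.ModularFibre

/-!
# Hecke operators on the fibre of `X₀(M q)` at `q`

The Hecke data of the fibre, and the reduction of an eigenclass separated from level `M`: once
its reduced divisors are divisible by `p`, its reductions are `p`-th powers.
-/

set_option autoImplicit false
set_option synthInstance.maxHeartbeats 400000
set_option maxHeartbeats 1000000

noncomputable section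

open AlgebraicCurve ModularCurve IsLocalRing FLTA.LevelLowering

namespace FLTA.RT

local notation "Qb" => AlgebraicClosure ℚ

variable (M q : ℕ) [NeZero M] [NeZero q] [hq : Fact q.Prime]
  (A : ValuationSubring (AlgebraicClosure ℚ)) (hA : A.LiesOverPrime q) (hqM : ¬ q ∣ M)
  [CharP (ResidueField A) q] [PerfectRing (ResidueField A) q]

/-- `T_l` on the fibre of `X₀(M q)`. -/
def heckeData (l : ℕ) [NeZero l] (hl : l.Prime) (hlq : l ≠ q) (hlM : ¬ l ∣ M) :
    HeckeData (BadRed.badFibre M q A hA hqM) l where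
  ζ := zetaA l A
  primitive := zetaA_primitive l A
  T := heckeNormHom (M * q) l
  Tk := heckeFullHom IsLocalRing.residue_surjective M l
    (FLTA.PlaceRed.natCast_residue_ne_zero M hqM A hA) hl hlM
  T_w x := heckeNormHom_swap l M q hl hlq hqM _ (BadRed.swapBar_alpha M q hqM)
    (BadRed.swapBar_beta M q hqM) x
  ex_T x := isHeckeImage_heckeNormHom (M * q) l hl (fun h => (hl.dvd_mul.mp h).elim hlM
    (fun h' => hlq ((Nat.prime_dvd_prime_iff_eq hl hq.out).mp h'))) (zetaA_primitive l A) x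
  exk_Tk y := isHeckeImage_heckeFullHom IsLocalRing.residue_surjective M l
    (FLTA.PlaceRed.natCast_residue_ne_zero M hqM A hA) hl hlM y

variable {M q A} {hA hqM}

/-- The reductions of an eigenfunction separated from level `M` are `p`-th powers when their
divisors are divisible by `p`. -/
theorem exists_pow_eq_red {p : ℕ} [Fact p.Prime] {S : Finset ℕ}
    (hS : ∀ ℓ : ℕ, ℓ.Prime → ℓ ∣ M * q → ℓ ∈ S) (a : ℕ → ℤ)
    (t : FreeAlgebra ℤ {ℓ : Nat.Primes // (ℓ : ℕ) ∉ S}) (ht1 : heckeLiftMod p a S t = 1)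
    (ht0 : heckeLiftBar M S t = 0)
    {Dv : Divisor.degZero (K := Qb) (F := modularFunctionFieldBar (M * q))}
    {f : modularFunctionFieldBar (M * q)} (hf : f ≠ 0)
    (hD : ∀ v, (p : ℤ) * (Dv : Divisor Qb (modularFunctionFieldBar (M * q))) v = v.ord f)
    (heig : ∀ ℓ : Nat.Primes, (ℓ : ℕ) ∉ S →
      heckeOperatorBar (M * q) ℓ (Pic0.mk Dv) = a ℓ • Pic0.mk Dv)
    (d : (BadRed.badFibre M q A hA hqM).ScaledRed f) (i : Fin 2)
    (hdvd : ∀ v : Place (ResidueField A) (modularFunctionFieldFullC (ResidueField A) M),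
      (p : ℤ) ∣ v.ord (d.p i)) :
    ∃ η, η ^ p = d.p i := by
  classical
  haveI := FLTA.Galois.isAlgClosed_residueField A
  have hp : p.Prime := Fact.out
  have hSM : ∀ ℓ : ℕ, ℓ.Prime → ℓ ∣ M → ℓ ∈ S := fun ℓ hℓ h => hS ℓ hℓ (h.trans (dvd_mul_right M q))
  have hk := FLTA.PlaceRed.rrCurve_fullC M hqM A hA
  haveI := hk.principal
  obtain ⟨Z, hZ, -⟩ := HasPrincipalDivisors.exists_divisor (K := ResidueField A) (d.p i) (d.p_ne i)
  refine FLTA.LevelLowering.exists_pow_eq_of_eigen (FLTA.PlaceRed.rrCurve_bar M) hk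
    (FLTA.PlaceRed.isPlaceMap_placeRed M hqM A hA)
    (heckeFamily IsLocalRing.residue_surjective M
      (FLTA.PlaceRed.natCast_residue_ne_zero M hqM A hA) hSM) hp.ne_zero
    (fun ℓ => a (ℓ.1 : ℕ)) t ht1
    (fun D hD0 => isPrincipal_divEval IsLocalRing.residue_surjective M _ hSM t ht0 D hD0)
    (d.p_ne i) (E := Z.mapRange (fun z => z / (p : ℤ)) (Int.zero_ediv _))
    (fun Q => ?_) (fun ℓ => ?_)
  · rw [Finsupp.mapRange_apply, hZ, Int.mul_ediv_cancel' (hdvd Q)]
  · haveI : NeZero (ℓ.1 : ℕ) := ⟨ℓ.1.2.ne_zero⟩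
    obtain ⟨c, h, hc, -, heq⟩ := exists_heckeNormHom_eq ℓ.1 hf hD (heig ℓ.1 ℓ.2) (a (ℓ.1 : ℕ))
      (by rw [sub_self]; exact dvd_zero _)
    exact BadRed.BadFibre.red_hecke_eigen
      (heckeData M q A hA hqM (ℓ.1 : ℕ) ℓ.1.2
        (fun h => ℓ.2 (h ▸ hS q hq.out (dvd_mul_left q M)))
        (fun h => ℓ.2 (hSM _ ℓ.1.2 h))) hp.pos d heq i

end FLTA.RT

end
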