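import Fermat.Agent.BadRed.Ramified.Toricity

/-!
# Reductions of fixed Kummer functions, with a prime power modulus

If a fixed `H` has valuation difference `p ^ k * e`, `e` prime to `p`, node orders divisible by
`p ^ k` and, off a set `C` matched by unglued points `U`, orders divisible by `p ^ (k + 1)`, then a
fixed `f` with `p ∣ ord f` everywhere and valuation difference divisible by `p` has reductions
with all orders divisible by `p`.  For `k = 1` this covers `p = 3` and the discriminant quotient.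
-/

set_option autoImplicit false

noncomputable section

open AlgebraicCurve FLTA.Curves

namespace FLTA.BadRed.BadFibre

variable {K : Type*} [Field K] {A : ValuationSubring K}
  {k : Type*} [Field k] {π : A →+* k} {q : ℕ} [NeZero q]
  {F : Type*} [Field F] [Algebra K F] {F' : Type*} [Field F'] [Algebra K F']
  {Fk : Type*} [Field Fk] [Algebra k Fk] {g gF : ℕ} {B : BadFibre A π q F F' Fk g gF}

/-- For fixed Kummer functions, `n ∣ v_f` makes the reduced divisors divisible by `n`. -/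
def RedDvd (B : BadFibre A π q F F' Fk g gF) (J : B.InertiaSys) (n : ℕ) : Prop :=
  ∀ f : F, J.Fixed f → (∀ v : Place K F, (n : ℤ) ∣ v.ord f) → ∀ (d : B.ScaledRed f) (vf : ℤ),
    B.DiffVal f vf → (n : ℤ) ∣ vf → ∀ (i : Fin 2) (v : Place k Fk), (n : ℤ) ∣ v.ord (d.p i)

variable [IsAlgClosed K] [CharZero K] [IsAlgClosed k] [Fact q.Prime] [CharP k q]
  {S : Finset (Place k Fk)} {m₀ : ℕ} {J : B.InertiaSys}

/-- If all nodes are good, all reduced orders are divisible. -/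
theorem dvd_ord_red_of_nodes (hS : B.IsGluing S m₀) {n : ℕ} (hn : 0 < n) {f : F}
    (hdvd : ∀ v : Place K F, (n : ℤ) ∣ v.ord f) (d : B.ScaledRed f)
    (h0 : ∀ Q ∈ S, (n : ℤ) ∣ Q.ord (d.p 0)) (i : Fin 2) (v : Place k Fk) :
    (n : ℤ) ∣ v.ord (d.p i) := by
  classical
  obtain ⟨h01, hout⟩ := good_zero_eq_good_one hS hn (fun u _ _ => hdvd u) d
  have h0' : ∀ Q ∈ S, Q ∈ d.good n S 0 := fun Q hQ => ScaledRed.mem_good.mpr ⟨hQ, h0 Q hQ⟩
  have hall : ∀ Q ∈ S, Q ∈ d.good n S i := fun Q hQ => by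
    revert i
    exact Fin.forall_fin_two.mpr ⟨h0' Q hQ, h01 ▸ h0' Q hQ⟩
  by_cases hx : ∃ Q ∈ S, B.nodePt i Q = v
  · obtain ⟨Q, hQ, rfl⟩ := hx
    exact (ScaledRed.mem_good.mp (hall Q hQ)).2
  have h := hout i v fun Q hQ hQv => hx ⟨Q, hQ, hQv⟩
  rcases eq_or_ne v B.infk with rfl | hv
  · rw [d.wDiv_infk] at h
    simpa using dvd_add h (hdvd (B.P i))
  · rwa [d.wDiv_of_ne i hv] at h

/-- The valuation difference of a fixed function with a good node and few exceptions. -/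
theorem dvd_diffVal_of_good (hS : B.IsGluing S m₀) {N : ℕ} (hNk : (N : k) ≠ 0) {G : F}
    (hG0 : G ≠ 0) (hGfix : J.Fixed G) (C : Finset (Place K F))
    (hC : ∀ v : Place K F, v ≠ B.P 0 → v ≠ B.P 1 → v ∉ C → (N : ℤ) ∣ v.ord G)
    (U : Fin 2 → Finset (Place k Fk))
    (hU : ∀ (dG : B.ScaledRed G) (i : Fin 2), ∀ u ∈ U i,
      ¬ (N : ℤ) ∣ dG.wDiv i u ∧ ∀ Q ∈ S, B.nodePt i Q ≠ u)
    (hCU : C.card ≤ (U 0).card + (U 1).card) {Q : Place k Fk} (hQ : Q ∈ S)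
    (hQG : ∀ dG : B.ScaledRed G, (N : ℤ) ∣ Q.ord (dG.p 0)) {v : ℤ} (hv : B.DiffVal G v) :
    (N : ℤ) ∣ v := by
  classical
  have hN : 0 < N := Nat.pos_of_ne_zero fun h => hNk (by rw [h, Nat.cast_zero])
  obtain ⟨dG, hdG⟩ := exists_fixed_scaledRed hG0 hGfix
  have hgood : Q ∈ dG.good N S 0 := ScaledRed.mem_good.mpr ⟨hQ, hQG dG⟩
  obtain ⟨δ, hδ⟩ := exists_scalars hN dG
  have hδ0 : ∀ l, δ l ≠ 0 := fun l h0 => by
    have := hδ l
    rw [h0, zero_pow hN.ne', zero_mul] at this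
    exact zero_ne_one this
  obtain ⟨m, hm⟩ := J.exists_val (δ 0 / δ 1) (div_ne_zero (hδ0 0) (hδ0 1))
    fun s hs => ratio_fixed_of_good hS hNk C hC hGfix dG U (hU dG) hCU hdG hδ ⟨Q, hgood⟩ hs
  have hpow : HasVal A q (dG.c 1 / dG.c 0) ((N : ℤ) * m) := by
    have e : dG.c 1 / dG.c 0 = (δ 0 / δ 1) ^ N := by
      rw [div_pow, eq_inv_of_mul_eq_one_left (hδ 0), eq_inv_of_mul_eq_one_left (hδ 1), inv_div_inv]
    rw [e]
    exact hm.pow N
  exact ⟨m, (hv.hasVal dG).unique π hpow⟩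

/-- **The eta function gives `RedDvd`.** -/
theorem redDvd_of_primePow {p j : ℕ} [hp : Fact p.Prime] (hpk : (p : k) ≠ 0) (hS : B.IsGluing S m₀)
    {H : F} (hH : J.Fixed H) {e : ℤ} (hHv : B.DiffVal H ((p : ℤ) ^ j * e))
    (he : IsCoprime (p : ℤ) e) (C : Finset (Place K F))
    (hC : ∀ v : Place K F, v ≠ B.P 0 → v ≠ B.P 1 → v ∉ C → (p : ℤ) ^ (j + 1) ∣ v.ord H)
    (U : Fin 2 → Finset (Place k Fk)) (hCU : C.card ≤ (U 0).card + (U 1).card)
    (hUinf : ∀ i, ∀ u ∈ U i, u ≠ B.infk)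
    (hUnode : ∀ i, ∀ u ∈ U i, ∀ Q ∈ S, B.nodePt i Q ≠ u)
    (hUord : ∀ (dH : B.ScaledRed H) (i : Fin 2), ∀ u ∈ U i,
      ¬ (p : ℤ) ^ (j + 1) ∣ u.ord (dH.p i))
    (hnode : ∀ (dH : B.ScaledRed H), ∀ Q ∈ S, (p : ℤ) ^ j ∣ Q.ord (dH.p 0)) :
    RedDvd B J p := by
  classical
  intro f hfix hdvd d vf hvf hpvf
  refine dvd_ord_red_of_nodes hS hp.out.pos hdvd d fun Q hQ => ?_
  by_contra hQf
  obtain ⟨dH, -⟩ := exists_fixed_scaledRed (J := J) hHv.ne_zero hH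
  have hdvd' : B.DvdOffCusps p f := fun u _ _ => hdvd u
  set N := p ^ (j + 1) with hN
  have hNZ : (N : ℤ) = (p : ℤ) ^ (j + 1) := by rw [hN, Nat.cast_pow]
  have hN0 : (N : ℤ) ≠ 0 := Int.natCast_ne_zero.mpr (pow_ne_zero _ hp.out.ne_zero)
  have hNk : (N : k) ≠ 0 := by rw [hN, Nat.cast_pow]; exact pow_ne_zero _ hpk
  have hpj : (p : ℤ) ^ j ∣ (N : ℤ) := hNZ ▸ pow_dvd_pow _ j.le_succ
  set a := Q.ord (d.p 0)
  set h := Q.ord (dH.p 0)
  set r := (h % (N : ℤ)).toNat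
  set t := ((-a) % (N : ℤ)).toNat
  have hr : (r : ℤ) = h % (N : ℤ) := Int.toNat_of_nonneg (Int.emod_nonneg _ hN0)
  have ht : (t : ℤ) = (-a) % (N : ℤ) := Int.toNat_of_nonneg (Int.emod_nonneg _ hN0)
  have hcr : (N : ℤ) ∣ (r : ℤ) - h := by
    rw [hr, ← Int.modEq_iff_dvd]
    exact (Int.mod_modEq _ _).symm
  have hct : (N : ℤ) ∣ (t : ℤ) + a := by
    rw [ht, ← sub_neg_eq_add, ← Int.modEq_iff_dvd]
    exact (Int.mod_modEq _ _).symm
  have hpr : (p : ℤ) ^ j ∣ (r : ℤ) := by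
    have := dvd_add (hpj.trans hcr) (hnode dH Q hQ)
    rwa [sub_add_cancel] at this
  have hcop : IsCoprime (p : ℤ) (t : ℤ) := by
    refine ((Nat.prime_iff_prime_int.mp hp.out).coprime_iff_not_dvd).mpr fun hpt => hQf ?_
    have hpN : (p : ℤ) ∣ (N : ℤ) := hNZ ▸ dvd_pow_self _ j.succ_ne_zero
    have := dvd_sub (hpN.trans hct) hpt
    rwa [add_sub_cancel_left] at this
  have hrf : ∀ x : ℤ, (p : ℤ) ∣ x → (N : ℤ) ∣ (r : ℤ) * x := fun x hx => by
    rw [hNZ, pow_succ]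
    exact mul_dvd_mul hpr hx
  set G := f ^ r * H ^ t with hG
  have hG0 : G ≠ 0 := mul_ne_zero (pow_ne_zero _ d.ne_zero) (pow_ne_zero _ dH.ne_zero)
  have hredG : ∀ (dG : B.ScaledRed G) (i : Fin 2) (v : Place k Fk),
      v.ord (dG.p i) = (r : ℤ) * v.ord (d.p i) + (t : ℤ) * v.ord (dH.p i) := fun dG i v => by
    rw [((d.pow r).mul (dH.pow t)).ord_p_eq dG i,
      show ((d.pow r).mul (dH.pow t)).p i = d.p i ^ r * dH.p i ^ t from rfl,
      Place.ord_mul _ (pow_ne_zero _ (d.p_ne i)) (pow_ne_zero _ (dH.p_ne i)),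
      FLTA.Curves.ord_pow, FLTA.Curves.ord_pow]
  have key := dvd_diffVal_of_good hS hNk hG0 ((hfix.pow r).mul (hH.pow t)) C
    (fun v h0 h1 hv => by
      rw [v.ord_mul (pow_ne_zero _ d.ne_zero) (pow_ne_zero _ dH.ne_zero), FLTA.Curves.ord_pow,
        FLTA.Curves.ord_pow]
      refine dvd_add (hrf _ (hdvd v)) (dvd_mul_of_dvd_right ?_ _)
      rw [hNZ]
      exact hC v h0 h1 hv)
    U (fun dG i u hu => ⟨fun hu' => hUord dH i u hu ?_, hUnode i u hu⟩) hCU hQ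
    (fun dG => by
      rw [hredG dG 0 Q, show (r : ℤ) * a + t * h = ((r : ℤ) - h) * a + ((t : ℤ) + a) * h by ring]
      exact dvd_add (dvd_mul_of_dvd_left hcr _) (dvd_mul_of_dvd_left hct _))
    ((hvf.pow r).mul (hHv.pow t))
  · rw [dvd_add_right (hrf _ hpvf), hNZ, pow_succ] at key
    rw [show (t : ℤ) * ((p : ℤ) ^ j * e) = (p : ℤ) ^ j * ((t : ℤ) * e) by ring] at key
    have hpj0 : (p : ℤ) ^ j ≠ 0 := pow_ne_zero _ (Int.natCast_ne_zero.mpr hp.out.ne_zero)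
    exact (Nat.prime_iff_prime_int.mp hp.out).not_isUnit
      ((hcop.mul_right he).isUnit_of_dvd' dvd_rfl ((mul_dvd_mul_iff_left hpj0).mp key))
  · have hpf := (good_zero_eq_good_one hS hp.out.pos hdvd' d).2 i u (hUnode i u hu)
    rw [d.wDiv_of_ne i (hUinf i u hu)] at hpf
    rw [dG.wDiv_of_ne i (hUinf i u hu), hredG dG i u, dvd_add_right (hrf _ hpf), hNZ] at hu'
    exact (hcop.pow_left (m := j + 1)).dvd_of_dvd_mul_left hu'

end FLTA.BadRed.BadFibre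

end
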