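import Fermat.Agent.RT.MazurEnd
import Fermat.Agent.RT.MazurFrame
import Fermat.Agent.RT.MazurHecke
import Fermat.Agent.RT.MazurNode
import Fermat.Agent.LevelLowering.GlobalCurve

/-!
# The core of Mazur's principle at `q ≢ 1 (mod p)`

An irreducible `E[p]`, unramified at `q`, in an eigenspace of `J₀(M q)[p]` separated from level
`M` consists of toric classes, given `RedDvd` for the fibre; so `q ≡ 1 (mod p)`.
-/

set_option autoImplicit false
set_option synthInstance.maxHeartbeats 400000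
set_option maxHeartbeats 2000000

noncomputable section

open AlgebraicCurve ModularCurve WeierstrassCurve WeierstrassCurve.Affine.Point IsLocalRing
open FLTA.LevelLowering (heckeLiftMod heckeLiftBar CurveGlobalData)

namespace FLTA.RT

open FLTA.EllReducible (Tors)

local notation "Qb" => AlgebraicClosure ℚ
local notation "Γ" => AlgebraicClosure ℚ ≃ₐ[ℚ] AlgebraicClosure ℚ

variable {W : WeierstrassCurve ℤ} {p : ℕ} [Fact p.Prime]
  {M q : ℕ} [NeZero M] [NeZero q] [hq : Fact q.Prime]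
  {A : ValuationSubring (AlgebraicClosure ℚ)} (hA : A.LiesOverPrime q) (hqM : ¬ q ∣ M)
  [CharP (ResidueField A) q] [PerfectRing (ResidueField A) q]

include hA hqM in
/-- An eta function whose valuation difference is prime to `p` gives `RedDvd`. -/
theorem redDvd_of_etaFun (hqp : q ≠ p)
    (E : (BadRed.badFibre M q A hA hqM).EtaFun (inertiaSys M q A hA hqM) p)
    (he : IsCoprime (p : ℤ) E.e) :
    (BadRed.badFibre M q A hA hqM).RedDvd (inertiaSys M q A hA hqM) p := by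
  haveI := FLTA.Galois.isAlgClosed_residueField A
  have hpk : (p : ResidueField A) ≠ 0 := by
    rw [Ne, CharP.cast_eq_zero_iff (ResidueField A) q, Nat.prime_dvd_prime_iff_eq hq.out Fact.out]
    exact hqp
  obtain ⟨T, m₀, hT⟩ := (BadRed.badFibre M q A hA hqM).exists_isGluing
  exact fun f hfix hdvd d vf hvf hpv i v =>
    BadRed.BadFibre.dvd_ord_red hT hpk E he hfix hdvd d hvf hpv i v

/-- An inertia-fixed eigenclass of `J₀(M q)[p]` separated from level `M` is toric. -/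
theorem isToric_of_fixed_eigen (hqp : q ≠ p) {S : Finset ℕ}
    (hS : ∀ ℓ : ℕ, ℓ.Prime → ℓ ∣ M * q → ℓ ∈ S) (a : ℕ → ℤ)
    (t : FreeAlgebra ℤ {ℓ : Nat.Primes // (ℓ : ℕ) ∉ S}) (ht1 : heckeLiftMod p a S t = 1)
    (ht0 : heckeLiftBar M S t = 0)
    (hne : ∃ ℓ : ℕ, ℓ.Prime ∧ ℓ ∉ S ∧ ¬ (p : ℤ) ∣ a ℓ - (ℓ + 1))
    (hR : (BadRed.badFibre M q A hA hqM).RedDvd (inertiaSys M q A hA hqM) p)
    {x : JZero (M * q)} (hx : p • x = 0)
    (hfix : ∀ σ ∈ A.inertiaSubgroupIn ℚ, σ • x = x)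
    (heig : ∀ ℓ : Nat.Primes, (ℓ : ℕ) ∉ S → heckeOperatorBar (M * q) ℓ x = a ℓ • x) :
    (BadRed.badFibre M q A hA hqM).IsToric p x := by
  classical
  haveI := FLTA.Galois.isAlgClosed_residueField A
  have hp : p.Prime := Fact.out
  set B := BadRed.badFibre M q A hA hqM with hB
  obtain ⟨D, f, hf, hDx, hD, hJ⟩ := exists_fixed_kummer_jZero M q A hA hqM hx hfix
  obtain ⟨d, -⟩ := BadRed.BadFibre.exists_fixed_scaledRed hf hJ
  obtain ⟨vf, hvf⟩ := (inertiaSys M q A hA hqM).exists_diffVal hf hJ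
  subst hDx
  have hvfp : (p : ℤ) ∣ vf := by
    obtain ⟨l, hl, hlS, hla⟩ := hne
    haveI : NeZero l := ⟨hl.ne_zero⟩
    obtain ⟨c, h, -, -, heq⟩ := FLTA.LevelLowering.exists_heckeNormHom_eq (⟨l, hl⟩ : Nat.Primes)
      hf hD (heig ⟨l, hl⟩ hlS) (a l) (by rw [sub_self]; exact dvd_zero _)
    have h1 := BadRed.BadFibre.dvd_of_hecke_eigen (J := inertiaSys M q A hA hqM)
      (heckeData M q A hA hqM l hl (fun e => hlS (e ▸ hS q hq.out (dvd_mul_left q M)))
        (fun e => hlS (hS l hl (e.trans (dvd_mul_right M q))))) hp.pos hJ hvf heq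
    exact ((Nat.prime_iff_prime_int.mp hp).dvd_or_dvd h1).resolve_left hla
  refine BadRed.BadFibre.isToric_of_scaledRed rfl hD d hp.pos fun i => ?_
  exact exists_pow_eq_red hS a t ht1 ht0 hf hD heig d i
    (hR f hJ (fun v => ⟨_, (hD v).symm⟩) d vf hvf hvfp i)

/-- **The core of Mazur's principle.** -/
theorem false_of_eigenPlane (hΔ : W.Δ ≠ 0) (hp2 : p ≠ 2) (hqp : q ≠ p) (hq1 : (q : ZMod p) ≠ 1)
    (hirr : GaloisRepIsIrreducible (K := Qb) ℚ (W.map (Int.castRingHom ℚ)) p)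
    {S : Finset ℕ} (hS : ∀ ℓ : ℕ, ℓ.Prime → ℓ ∣ M * q → ℓ ∈ S) (a : ℕ → ℤ)
    (iota : Tors (W.map (Int.castRingHom ℚ)) p →+ JZero (M * q))
    (hinj : Function.Injective iota)
    (hsmul : ∀ (σ : Γ) (x : Tors (W.map (Int.castRingHom ℚ)) p), iota (σ • x) = σ • iota x)
    (heig : ∀ ℓ : Nat.Primes, (ℓ : ℕ) ∉ S → ∀ x, heckeOperatorBar (M * q) ℓ (iota x) = a ℓ • iota x)
    (t : FreeAlgebra ℤ {ℓ : Nat.Primes // (ℓ : ℕ) ∉ S}) (ht1 : heckeLiftMod p a S t = 1)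
    (ht0 : heckeLiftBar M S t = 0)
    (hne : ∃ ℓ : ℕ, ℓ.Prime ∧ ℓ ∉ S ∧ ¬ (p : ℤ) ∣ a ℓ - (ℓ + 1))
    (hunr : ∀ σ ∈ A.inertiaSubgroupIn ℚ, ∀ x : Tors (W.map (Int.castRingHom ℚ)) p, σ • x = x)
    (hR : (BadRed.badFibre M q A hA hqM).RedDvd (inertiaSys M q A hA hqM) p) : False := by
  refine false_of_toric_plane hΔ hA hqM hp2 hqp hq1 hirr iota hinj hsmul fun x => ?_
  refine isToric_of_fixed_eigen hA hqM hqp hS a t ht1 ht0 hne hR ?_
    (fun σ hσ => by rw [← hsmul, hunr σ hσ x]) (fun ℓ hℓ => heig ℓ hℓ x)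
  rw [← map_nsmul]
  convert map_zero iota using 2
  rw [← Nat.cast_smul_eq_nsmul (ZMod p), ZMod.natCast_self, zero_smul]

/-- The form for the global data of an arbitrary integral model. -/
theorem false_of_curveGlobalData (hΔ : W.Δ ≠ 0) (hp2 : p ≠ 2) (hqp : q ≠ p)
    (hq1 : (q : ZMod p) ≠ 1)
    (hirr : GaloisRepIsIrreducible (K := Qb) ℚ (W.map (Int.castRingHom ℚ)) p)
    {S : Finset ℕ} (hS : ∀ ℓ : ℕ, ℓ.Prime → ℓ ∣ M * q → ℓ ∈ S)
    (G : CurveGlobalData W p (M * q) M S)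
    (hunr : ∀ σ ∈ A.inertiaSubgroupIn ℚ, ∀ x : Tors (W.map (Int.castRingHom ℚ)) p, σ • x = x)
    (hR : (BadRed.badFibre M q A hA hqM).RedDvd (inertiaSys M q A hA hqM) p) : False :=
  false_of_eigenPlane hA hqM hΔ hp2 hqp hq1 hirr hS (fun ℓ => W.apOfModel ℓ) G.iota
    G.iota_injective G.iota_smul G.hecke_iota G.t G.t_eval G.t_old G.exists_not_eisenstein hunr hR

end FLTA.RT

end
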