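import Fermat.Agent.RT.HeckeLocalRing
import Mathlib.Algebra.Algebra.Subalgebra.Basic
import Mathlib.RingTheory.Adjoin.Basic

/-!
# The idempotent of a residual eigen system

For commuting elements `T s` of a finite algebra `A` over a complete noetherian local ring `R`
and residual eigenvalues given by `a : σ → R`, `localIdem T a` is the idempotent of the
commutative algebra they generate which cuts out the maximal ideal `(𝔪, T s - a s)`; it is zero
if this ideal is the unit ideal.
-/

set_option autoImplicit false

noncomputable section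

open IsLocalRing

universe u

namespace FLTA.RT

variable {R : Type u} [CommRing R] {A : Type u} [Ring A] [Algebra R A] {σ : Type*}

/-- The algebra generated by a family. -/
abbrev opAlg (R : Type u) [CommRing R] [Algebra R A] (T : σ → A) : Subalgebra R A :=
  Algebra.adjoin R (Set.range T)

/-- A member of a family as an element of the algebra it generates. -/
def opGen (R : Type u) [CommRing R] [Algebra R A] (T : σ → A) (s : σ) : opAlg R T :=
  ⟨T s, Algebra.subset_adjoin (Set.mem_range_self s)⟩

@[simp] theorem opGen_coe (T : σ → A) (s : σ) : (opGen R T s : A) = T s := rfl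

/-- The multiplication of `opAlg` is commutative for a commuting family. -/
abbrev opAlgCommRing {T : σ → A} (hT : ∀ s t, Commute (T s) (T t)) : CommRing (opAlg R T) :=
  { (inferInstance : Ring (opAlg R T)) with
    mul_comm := fun x y => Subtype.ext <| by
      have key : ∀ z ∈ opAlg R T, ∀ w ∈ opAlg R T, Commute z w := fun z hz w hw => by
        refine Algebra.commute_of_mem_adjoin_of_forall_mem_commute hw fun b hb => ?_
        obtain ⟨t, rfl⟩ := hb
        refine (Algebra.commute_of_mem_adjoin_of_forall_mem_commute hz fun b hb => ?_).symm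
        obtain ⟨s, rfl⟩ := hb
        exact hT t s
      exact key _ x.2 _ y.2 }

variable [IsLocalRing R]

/-- The ideal of the residual eigen system. -/
def eigIdeal (T : σ → A) (a : σ → R) : Ideal (opAlg R T) :=
  Ideal.span (Set.range (fun s => opGen R T s - algebraMap R (opAlg R T) (a s)) ∪
    algebraMap R (opAlg R T) '' (maximalIdeal R : Set R))

theorem opGen_sub_mem (T : σ → A) (a : σ → R) (s : σ) :
    opGen R T s - algebraMap R (opAlg R T) (a s) ∈ eigIdeal T a :=
  Ideal.subset_span (Or.inl ⟨s, rfl⟩)

theorem algebraMap_mem_eigIdeal (T : σ → A) (a : σ → R) {r : R} (hr : r ∈ maximalIdeal R) :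
    algebraMap R (opAlg R T) r ∈ eigIdeal T a :=
  Ideal.subset_span (Or.inr ⟨r, hr, rfl⟩)

/-- `e` is the idempotent of the residual eigen system `a`. -/
structure IsLocalIdem (T : σ → A) (a : σ → R) (e : A) : Prop where
  mem : e ∈ opAlg R T
  idem : IsIdempotentElem e
  mem_iff : ∀ P : Ideal (opAlg R T), P.IsMaximal →
    ((⟨e, mem⟩ : opAlg R T) ∈ P ↔ ¬ eigIdeal T a ≤ P)

open Classical in
/-- The idempotent of the residual eigen system `a`. -/
def localIdem (T : σ → A) (a : σ → R) : A :=
  if h : ∃ e, IsLocalIdem T a e then h.choose else 0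

/-- Every element of the algebra has a scalar residue. -/
theorem exists_sub_mem_eigIdeal {T : σ → A} (hT : ∀ s t, Commute (T s) (T t)) (a : σ → R)
    (y : opAlg R T) : ∃ c : R, y - algebraMap R (opAlg R T) c ∈ eigIdeal T a := by
  letI := opAlgCommRing (R := R) hT
  obtain ⟨y, hy⟩ := y
  induction hy using Algebra.adjoin_induction with
  | mem x hx =>
    obtain ⟨s, rfl⟩ := hx
    exact ⟨a s, opGen_sub_mem T a s⟩
  | algebraMap r => exact ⟨r, by
      show algebraMap R (opAlg R T) r - algebraMap R (opAlg R T) r ∈ eigIdeal T a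
      simp⟩
  | add x z hx hz ihx ihz =>
    obtain ⟨c, hc⟩ := ihx
    obtain ⟨d, hd⟩ := ihz
    refine ⟨c + d, ?_⟩
    have := add_mem hc hd
    rwa [show (⟨x + z, add_mem hx hz⟩ : opAlg R T) = ⟨x, hx⟩ + ⟨z, hz⟩ from rfl, map_add,
      add_sub_add_comm]
  | mul x z hx hz ihx ihz =>
    obtain ⟨c, hc⟩ := ihx
    obtain ⟨d, hd⟩ := ihz
    refine ⟨c * d, ?_⟩
    rw [show (⟨x * z, mul_mem hx hz⟩ : opAlg R T) = ⟨x, hx⟩ * ⟨z, hz⟩ from rfl, map_mul]
    convert add_mem (Ideal.mul_mem_left _ (⟨x, hx⟩ : opAlg R T) hd)
      (Ideal.mul_mem_left _ (algebraMap R (opAlg R T) d) hc) using 1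
    ring

variable [IsNoetherianRing R]

theorem finite_opAlg [Module.Finite R A] (T : σ → A) : Module.Finite R (opAlg R T) :=
  Module.Finite.of_injective (opAlg R T).val.toLinearMap Subtype.val_injective

namespace IsLocalIdem

variable {T : σ → A} {a : σ → R} {e e' : A}

theorem isCutOut (hT : ∀ s t, Commute (T s) (T t)) (h : IsLocalIdem T a e) :
    letI := opAlgCommRing (R := R) hT
    IsCutOut (eigIdeal T a) (⟨e, h.mem⟩ : opAlg R T) := by
  letI := opAlgCommRing (R := R) hT
  exact ⟨Subtype.ext h.idem, h.mem_iff⟩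

theorem unique (hT : ∀ s t, Commute (T s) (T t)) (h : IsLocalIdem T a e)
    (h' : IsLocalIdem T a e') : e = e' := by
  letI := opAlgCommRing (R := R) hT
  exact congrArg Subtype.val ((h.isCutOut hT).unique (h'.isCutOut hT))

theorem eq_localIdem (hT : ∀ s t, Commute (T s) (T t)) (h : IsLocalIdem T a e) :
    e = localIdem T a := by
  have hex : ∃ e, IsLocalIdem T a e := ⟨e, h⟩
  rw [localIdem, dif_pos hex]
  exact h.unique hT hex.choose_spec

end IsLocalIdem

variable [IsAdicComplete (maximalIdeal R) R] [Module.Finite R A]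

theorem isLocalIdem_localIdem {T : σ → A} (hT : ∀ s t, Commute (T s) (T t)) (a : σ → R) :
    IsLocalIdem T a (localIdem T a) := by
  letI := opAlgCommRing (R := R) hT
  haveI : Module.Finite R (opAlg R T) := finite_opAlg T
  obtain ⟨e, he⟩ := exists_isCutOut (B := opAlg R T) R (eigIdeal T a)
  have h : IsLocalIdem T a (e : A) :=
    ⟨e.2, congrArg Subtype.val he.idem.eq, fun P hP => he.mem_iff P hP⟩
  rw [← h.eq_localIdem hT]
  exact h

section

variable {T : σ → A} (hT : ∀ s t, Commute (T s) (T t)) (a : σ → R)
include hT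

theorem localIdem_mem : localIdem T a ∈ opAlg R T := (isLocalIdem_localIdem hT a).mem

theorem isIdempotentElem_localIdem : IsIdempotentElem (localIdem T a) :=
  (isLocalIdem_localIdem hT a).idem

theorem commute_localIdem {x : A} (hx : ∀ s, Commute x (T s)) : Commute x (localIdem T a) :=
  Algebra.commute_of_mem_adjoin_of_forall_mem_commute (localIdem_mem hT a) fun b hb => by
    obtain ⟨s, rfl⟩ := hb
    exact hx s

theorem localIdem_comm (s : σ) : Commute (T s) (localIdem T a) :=
  commute_localIdem hT a (hT s)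

/-- An element with unit residue is invertible on the local factor. -/
theorem exists_mul_eq_localIdem {y : A} (hy : y ∈ opAlg R T) {c : R} (hc : IsUnit c)
    (hyc : (⟨y, hy⟩ : opAlg R T) - algebraMap R (opAlg R T) c ∈ eigIdeal T a) :
    ∃ z ∈ opAlg R T, localIdem T a = z * y := by
  letI := opAlgCommRing (R := R) hT
  obtain ⟨z, hz⟩ := ((isLocalIdem_localIdem hT a).isCutOut hT).exists_eq_mul
    (y := (⟨y, hy⟩ : opAlg R T)) fun P hP hle hmem => hP.ne_top (P.eq_top_of_isUnit_mem
      (x := algebraMap R (opAlg R T) c) (by simpa using sub_mem hmem (hle hyc)) (hc.map _))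
  rw [mul_comm] at hz
  exact ⟨z, z.2, congrArg Subtype.val hz⟩

/-- `T s - c` is invertible on the local factor when `a s - c` is a unit. -/
theorem exists_mul_sub_eq_localIdem (s : σ) {c : R} (hc : IsUnit (a s - c)) :
    ∃ z ∈ opAlg R T, localIdem T a = z * (T s - algebraMap R A c) := by
  refine exists_mul_eq_localIdem hT a
    (sub_mem (Algebra.subset_adjoin (Set.mem_range_self s)) (Subalgebra.algebraMap_mem _ c)) hc ?_
  convert opGen_sub_mem T a s using 1
  refine Subtype.ext ?_
  simp only [AddSubgroupClass.coe_sub, Subalgebra.coe_algebraMap, map_sub, opGen_coe]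
  abel

/-- A simple residual root of a quadratic lifts to the local factor. -/
theorem exists_root_localIdem (s : σ) {q α : R}
    (h0 : α * α - a s * α + q ∈ maximalIdeal R) (h1 : IsUnit (α + α - a s)) :
    ∃ r ∈ opAlg R T, localIdem T a * (r * r - T s * r + algebraMap R A q) = 0 ∧
      ∃ hr : r ∈ opAlg R T,
        ∀ P : Ideal (opAlg R T), P.IsMaximal → eigIdeal T a ≤ P →
          (⟨r, hr⟩ : opAlg R T) - algebraMap R (opAlg R T) α ∈ P := by
  letI := opAlgCommRing (R := R) hT
  haveI : Module.Finite R (opAlg R T) := finite_opAlg T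
  set φ := algebraMap R (opAlg R T)
  obtain ⟨r, hr, hmem⟩ := ((isLocalIdem_localIdem hT a).isCutOut hT).exists_root R
    (opGen R T s) (φ q) (φ α)
    (fun P hP hle => by
      convert sub_mem (hle (algebraMap_mem_eigIdeal T a h0))
        (P.mul_mem_left (φ α) (hle (opGen_sub_mem T a s))) using 1
      simp only [φ, map_add, map_sub, map_mul]
      ring)
    (fun P hP hle hbad => hP.ne_top (P.eq_top_of_isUnit_mem (x := φ (α + α - a s)) (by
      convert add_mem hbad (hle (opGen_sub_mem T a s)) using 1
      simp only [φ, map_add, map_sub]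
      ring) (h1.map φ)))
  exact ⟨r, r.2, congrArg Subtype.val hr, r.2, hmem⟩

/-- If the eigen system is exact in a quotient where `𝔪` acts by zero then the factor is `1`. -/
theorem localIdem_eq_one (hTa : ∀ s, T s = algebraMap R A (a s))
    (hm : ∀ r ∈ maximalIdeal R, algebraMap R A r = 0) : localIdem T a = 1 := by
  refine (IsLocalIdem.eq_localIdem hT ⟨one_mem _, .one, fun P hP => ?_⟩).symm
  refine iff_of_false (fun h => hP.ne_top (P.eq_top_iff_one.mpr h)) (not_not_intro ?_)
  rw [eigIdeal, Ideal.span_le]
  rintro x (⟨s, rfl⟩ | ⟨r, hr, rfl⟩)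
  · have : opGen R T s - algebraMap R (opAlg R T) (a s) = 0 :=
      Subtype.ext (sub_eq_zero.mpr (hTa s))
    simp [this]
  · have : algebraMap R (opAlg R T) r = 0 := Subtype.ext (hm r hr)
    simp [this]

/-- Functoriality. -/
theorem map_localIdem {A' : Type u} [Ring A'] [Algebra R A'] [Module.Finite R A']
    (f : A →ₐ[R] A') {T' : σ → A'} (hTT' : ∀ s, f (T s) = T' s) :
    f (localIdem T a) = localIdem T' a := by
  have hT' : ∀ s t, Commute (T' s) (T' t) := fun s t => by
    rw [← hTT', ← hTT']; exact (hT s t).map f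
  letI := opAlgCommRing (R := R) hT
  letI := opAlgCommRing (R := R) hT'
  have hrange : (opAlg R T).map f = opAlg R T' := by
    rw [AlgHom.map_adjoin, ← Set.range_comp]
    exact congrArg _ (congrArg Set.range (funext hTT'))
  let g : opAlg R T →ₐ[R] opAlg R T' :=
    (f.comp (opAlg R T).val).codRestrict _ fun x => hrange ▸ ⟨x, x.2, rfl⟩
  have hg : Function.Surjective g := fun y => by
    have : (y : A') ∈ (opAlg R T).map f := hrange.symm ▸ y.2
    obtain ⟨x, hx, hxy⟩ := this
    exact ⟨⟨x, hx⟩, Subtype.ext hxy⟩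
  have hid : (eigIdeal T a).map g.toRingHom = eigIdeal T' a := by
    simp only [eigIdeal, Ideal.map_span, Set.image_union, Set.image_image, ← Set.range_comp]
    congr 2
    · refine congrArg Set.range (funext fun s => Subtype.ext ?_)
      simp [g, hTT']
    · exact Set.image_congr fun r _ => g.commutes r
  have h := ((isLocalIdem_localIdem hT a).isCutOut hT).map g.toRingHom hg
  rw [hid] at h
  exact IsLocalIdem.eq_localIdem hT' ⟨(g ⟨_, localIdem_mem hT a⟩).2,
    congrArg Subtype.val h.idem.eq, fun P hP => h.mem_iff P hP⟩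

end

section modules

variable {H : Type u} [AddCommGroup H] [Module R H] [Module.Finite R H]
  {H' : Type u} [AddCommGroup H'] [Module R H'] [Module.Finite R H']

omit [IsLocalRing R] [IsAdicComplete (maximalIdeal R) R] [Module.Finite R A] in
theorem comp_eq_of_mem_opAlg {T : σ → Module.End R H} {T' : σ → Module.End R H'} (i : H →ₗ[R] H')
    (hi : ∀ s x, i (T s x) = T' s (i x)) {z : Module.End R H × Module.End R H'}
    (hz : z ∈ opAlg R (fun s => (T s, T' s))) (x : H) : i (z.1 x) = z.2 (i x) := by
  induction hz using Algebra.adjoin_induction generalizing x with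
  | mem z hz =>
    obtain ⟨s, rfl⟩ := hz
    exact hi s x
  | algebraMap r => simp
  | add z w _ _ hz hw => simp [hz, hw]
  | mul z w _ _ hz hw => simp [hz, hw]

/-- Intertwining maps commute with the idempotents. -/
theorem localIdem_comm_map {T : σ → Module.End R H} {T' : σ → Module.End R H'}
    (hT : ∀ s t, Commute (T s) (T t)) (hT' : ∀ s t, Commute (T' s) (T' t)) (a : σ → R)
    (i : H →ₗ[R] H') (hi : ∀ s x, i (T s x) = T' s (i x)) (x : H) :
    i (localIdem T a x) = localIdem T' a (i x) := by
  have hTT : ∀ s t, Commute (T s, T' s) (T t, T' t) := fun s t => (hT s t).prod (hT' s t)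
  rw [← map_localIdem (T' := T) hTT a (AlgHom.fst R _ _) (fun _ => rfl),
    ← map_localIdem (T' := T') hTT a (AlgHom.snd R _ _) (fun _ => rfl)]
  exact comp_eq_of_mem_opAlg i hi (localIdem_mem hTT a) x

/-- The factor of a simultaneous residual eigenvector. -/
theorem map_localIdem_of_residual {T : σ → Module.End R H} (hT : ∀ s t, Commute (T s) (T t)) (a : σ → R)
    (π : H →ₗ[R] H') (v : H) (hπ : ∀ s x, π (T s x) = a s • π x)
    (hm : ∀ r ∈ maximalIdeal R, ∀ y : H', r • y = 0) : π (localIdem T a v) = π v := by
  let T' : σ → Module.End R H' := fun s => algebraMap R _ (a s)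
  have hT' : ∀ s t, Commute (T' s) (T' t) := fun s t => Algebra.commutes _ _
  rw [localIdem_comm_map hT hT' a π (fun s x => by simp [T', hπ]) v,
    localIdem_eq_one hT' a (fun _ => rfl) (fun r hr => LinearMap.ext fun y => hm r hr y)]
  rfl

end modules

end FLTA.RT
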