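import Fermat.Agent.RT.RaiseBound
import Fermat.Agent.Gamma0.Complex.Main
import Fermat.Agent.Periods.EichlerShimura
import Fermat.Agent.Periods.HeckePeriods
import Mathlib.LinearAlgebra.Matrix.ToLinearEquiv
import Mathlib.Algebra.Algebra.Basic

/-!
# `T_q ^ 2 - (q + 1) ^ 2` is injective on the homology of `X₀(N)` in characteristic zero
-/

set_option autoImplicit false

open CongruenceSubgroup ModularCurve.Period FLTA.Periods FLTA.Gamma0
open scoped MatrixGroups

namespace FLTA.RT

variable {N : ℕ} [NeZero N] {q : ℕ}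

theorem eq_zero_of_heckeTLin_sq (hq : q.Prime) (hqN : ¬ q ∣ N) (f : CuspForm (Gamma0 N) 2)
    (hf : CuspForm.heckeTLin 2 hq hqN (CuspForm.heckeTLin 2 hq hqN f) =
      (((q : ℂ) + 1) ^ 2) • f) : f = 0 := by
  set T := CuspForm.heckeTLin (N := N) 2 hq hqN
  have key : ∀ (c : ℂ) (g : CuspForm (Gamma0 N) 2), ‖c‖ = (q : ℝ) + 1 → T g = c • g → g = 0 := by
    intro c g hc hg
    by_contra hne
    refine (norm_lt_of_heckeT_eq hne hq.two_le (c := c) fun τ => ?_).ne hc
    have := DFunLike.congr_fun hg τ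
    simpa [T] using this
  have hn : ‖((q : ℂ) + 1)‖ = (q : ℝ) + 1 := by
    rw [show ((q : ℂ) + 1) = (((q + 1 : ℕ) : ℂ)) by push_cast; ring, Complex.norm_natCast]
    push_cast; ring
  have h1 : T f + ((q : ℂ) + 1) • f = 0 := key ((q : ℂ) + 1) _ hn (by
    rw [map_add, map_smul, hf, smul_add, smul_smul, ← sq, add_comm])
  exact key (-((q : ℂ) + 1)) f (by rw [norm_neg, hn])
    (by rw [neg_smul]; exact eq_neg_of_add_eq_zero_left h1)

theorem eq_zero_of_heckeHom_sq_complex (hq : q.Prime) (hqN : ¬ q ∣ N)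
    {φ : Additive (Gamma0 N) →+ ℂ} (hφ : IsParHom0 (Gamma0 N) φ)
    (h : heckeHom ℂ N q (heckeHom ℂ N q φ) = (((q : ℂ) + 1) ^ 2) • φ) : φ = 0 := by
  have hmem : φ ∈ LinearMap.range (ModularCurve.periodHomPair N) := by
    rw [periodHomPair_range]
    exact homPar0_le_parabolicHoms ℂ _ _ hφ
  obtain ⟨⟨f, g⟩, rfl⟩ := hmem
  rw [← periodHomPair_heckeTLin hq hqN, ← periodHomPair_heckeTLin hq hqN, ← map_smul] at h
  have h2 := periodHomPair_injective N h
  rw [Prod.smul_mk, Prod.mk.injEq] at h2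
  rw [eq_zero_of_heckeTLin_sq hq hqN f h2.1, eq_zero_of_heckeTLin_sq hq hqN g h2.2]
  exact map_zero _

/-- In characteristic zero `T_q ^ 2 - (q + 1) ^ 2` is injective on refined parabolic homs. -/
theorem eq_zero_of_heckeHom_sq (hq : q.Prime) (hqN : ¬ q ∣ N) {R : Type} [CommRing R] [IsDomain R]
    [CharZero R] {φ : Additive (Gamma0 N) →+ R} (hφ : IsParHom0 (Gamma0 N) φ)
    (h : heckeHom R N q (heckeHom R N q φ) = (((q : R) + 1) ^ 2) • φ) : φ = 0 := by
  classical
  let e := homPar0Equiv N ℤ ℤ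
  let u : Fin (homRank N) → (Additive (Gamma0 N) →+ ℤ) := fun i => (e.symm (Pi.single i 1)).1
  have hu : ∀ i j, u i (Additive.ofMul (parBasis N j)) = if j = i then 1 else 0 := fun i j => by
    have := congrFun (e.apply_symm_apply (Pi.single i 1)) j
    rw [homPar0Equiv_apply] at this
    rw [this, Pi.single_apply]
  let A : Matrix (Fin (homRank N)) (Fin (homRank N)) ℤ := fun j i =>
    heckeHom ℤ N q (heckeHom ℤ N q (u i)) (Additive.ofMul (parBasis N j)) -
      if j = i then ((q : ℤ) + 1) ^ 2 else 0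
  have hcast : ∀ (R' : Type _) [CommRing R'] (v : Fin (homRank N) → R') (j : Fin (homRank N)),
      heckeHom R' N q (heckeHom R' N q (∑ i, v i • (Int.castAddHom R').comp (u i)))
          (Additive.ofMul (parBasis N j)) -
        ((((q : R') + 1) ^ 2) • ∑ i, v i • (Int.castAddHom R').comp (u i))
          (Additive.ofMul (parBasis N j)) =
      (A.map (Int.castRingHom R')).mulVec v j := by
    intro R' _ v j
    simp only [map_sum, map_smul]
    simp only [heckeHom_eq_int R' q, heckeHom_comp, AddMonoidHom.finsetSum_apply,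
      AddMonoidHom.smul_apply, AddMonoidHom.comp_apply, Int.coe_castAddHom, smul_eq_mul, hu,
      Matrix.mulVec, dotProduct, Matrix.map_apply, A, eq_intCast, Int.cast_sub,
      Finset.mul_sum, ← Finset.sum_sub_distrib]
    refine Finset.sum_congr rfl fun i _ => ?_
    split_ifs <;> push_cast <;> ring
  have hpar : ∀ (R' : Type _) [CommRing R'] (v : Fin (homRank N) → R'),
      IsParHom0 (Gamma0 N) (∑ i, v i • (Int.castAddHom R').comp (u i)) := fun R' _ v =>
    (homPar0 R' (Gamma0 N) R').sum_mem fun i _ =>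
      (homPar0 R' (Gamma0 N) R').smul_mem _ ((e.symm _).2.comp _)
  have hval : ∀ (R' : Type _) [CommRing R'] (v : Fin (homRank N) → R') (j : Fin (homRank N)),
      (∑ i, v i • (Int.castAddHom R').comp (u i)) (Additive.ofMul (parBasis N j)) = v j := by
    intro R' _ v j
    simp [AddMonoidHom.finsetSum_apply, hu]
  have hdet : A.det ≠ 0 := by
    intro h0
    obtain ⟨v, hv0, hv⟩ := Matrix.exists_mulVec_eq_zero_iff.mpr h0
    have hC : ∀ j, (A.map (Int.castRingHom ℂ)).mulVec (fun i => (v i : ℂ)) j = 0 := fun j => by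
      have := congrArg (fun w : Fin (homRank N) → ℤ => ((w j : ℤ) : ℂ)) hv
      simp only [Pi.zero_apply, Int.cast_zero] at this
      rw [← this]
      simp [Matrix.mulVec, dotProduct]
    set ψ := ∑ i, (v i : ℂ) • (Int.castAddHom ℂ).comp (u i) with hψdef
    have hψ : ψ = 0 := eq_zero_of_heckeHom_sq_complex hq hqN (hpar ℂ _) (homPar0_ext N
      (heckeHom_isParHom0 ℂ q (heckeHom_isParHom0 ℂ q (hpar ℂ _)))
      ((homPar0 ℂ (Gamma0 N) ℂ).smul_mem _ (hpar ℂ _))
      fun j => sub_eq_zero.mp ((hcast ℂ (fun i => (v i : ℂ)) j).trans (hC j)))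
    refine hv0 (funext fun j => ?_)
    have := hval ℂ (fun i => (v i : ℂ)) j
    rw [← hψdef, hψ, AddMonoidHom.zero_apply] at this
    simpa using this.symm
  set v : Fin (homRank N) → R := fun i => φ (Additive.ofMul (parBasis N i))
  have hφv : φ = ∑ i, v i • (Int.castAddHom R).comp (u i) :=
    homPar0_ext N hφ (hpar R v) fun j => (hval R v j).symm
  have h0 : (A.map (Int.castRingHom R)).mulVec v = 0 := funext fun j => by
    rw [← hcast R v j, ← hφv, h, sub_self]
    rfl
  have hdetR : (A.map (Int.castRingHom R)).det ≠ 0 := by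
    rw [← RingHom.mapMatrix_apply, ← RingHom.map_det, eq_intCast]
    exact_mod_cast hdet
  have hv : v = 0 := by
    by_contra hne
    exact hdetR (Matrix.exists_mulVec_eq_zero_iff.mp ⟨v, hne, h0⟩)
  exact homPar0_ext N hφ (fun _ _ => rfl) fun j => congrFun hv j

end FLTA.RT
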