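import Fermat.Agent.RT.CoeffChain
import Fermat.Agent.RT.HeckeLocalBoundary
import Fermat.Agent.LevelRaising.AssemblyIdentities
import Fermat.Agent.Periods.HeckeQuot

/-!
# Twisted classes at a point of the coefficient ring

For a ring homomorphism `φ : R →+* K` into a field of characteristic zero, the part of
`tH1 χ R` cut out by a family factoring through `T_l - (l + 1)`, `l ≡ 1`, maps to parabolic
homomorphisms of `Γ₀(L ∏ Q₀)`, the normalised operators becoming the Hecke operators there.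
-/

set_option autoImplicit false

noncomputable section

universe u

open CongruenceSubgroup ModularCurve.Period
open scoped MatrixGroups

namespace FLTA.RT

open FLTA.Periods FLTA.LevelRaising

/-- `heckeQuot T_l` is `T_l` of the universal parabolic homomorphism. -/
theorem heckeQuot_T_comp_parMk {N l : ℕ} [NeZero N] (hl : l.Prime) (hlN : ¬ l ∣ N) :
    (heckeQuot N (CuspForm.heckeAlgebra.T hl hlN (Set.notMem_empty l))).toAddMonoidHom.comp
        (parMk (Gamma0 N)) = heckeHom ℤ N l (parMk (Gamma0 N)) := by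
  obtain ⟨M, hM⟩ := exists_parQuot_factor
    (heckeHom_isParabolicHom ℤ l (parMk_isParabolicHom (Gamma0 N)))
  have h : IsTranspose N (CuspForm.heckeTLin 2 hl hlN) M.toIntLinearMap := fun f g =>
    parQuot_hom_ext (Gamma0 N) (by
      rw [pairQuot_comp_parMk, periodHomPair_heckeTLin hl hlN, ← pairQuot_comp_parMk,
        heckeHom_eq_int, heckeHom_comp, ← hM]
      rfl)
  rw [(heckeQuot_isTranspose N (CuspForm.heckeAlgebra.T hl hlN (Set.notMem_empty l))).unique h]
  exact hM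

section inclusion

variable {N P : ℕ} {A : Type*} [AddCommGroup A]

theorem isParabolicHom_inclRes {x : Additive (Gamma0 N) →+ A}
    (hx : IsParabolicHom (Gamma0 N) x) : IsParabolicHom (Gamma0 (N * P)) (inclRes N P x) :=
  fun γ hγ => hx (inclHom N P γ) hγ

theorem inclRes_injective [NeZero (N * P)] [IsAddTorsionFree A] {x : Additive (Gamma0 N) →+ A}
    (h : inclRes N P x = 0) : x = 0 := by
  refine AddMonoidHom.ext fun g => ?_
  obtain ⟨k, hk0, -, hk⟩ := Subgroup.exists_pow_mem_of_index_ne_zero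
    (H := Gamma0 (N * P)) Subgroup.FiniteIndex.index_ne_zero ((Additive.toMul g : Gamma0 N) : SL(2, ℤ))
  have h1 : x (k • g) = 0 := by
    have h2 := DFunLike.congr_fun h (Additive.ofMul ⟨_, hk⟩)
    rw [inclRes_apply] at h2
    exact h2
  rw [map_nsmul] at h1
  exact nsmul_right_injective hk0.ne' (h1.trans (nsmul_zero k).symm)

end inclusion

variable {L : ℕ} [NeZero L] {R : Type u} [CommRing R] {K : Type u} [Field K]

/-- Push forward of cocycles along a point. -/
def ptCocycles (φ : R →+* K) (χ : (ZMod L)ˣ →* Rˣ) :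
    tCocycles (gamChar χ) R →ₛₗ[φ] tCocycles (gamChar (charMap φ χ)) K where
  toFun f := ⟨fun γ => φ (f.1 γ), fun γ δ => by
    show φ (f.1 (γ * δ)) = φ (f.1 γ) + _ • φ (f.1 δ)
    rw [f.2, map_add, smul_eq_mul, smul_eq_mul, map_mul, coe_gamChar_charMap]⟩
  map_add' f g := Subtype.ext (funext fun γ => map_add φ _ _)
  map_smul' r f := Subtype.ext (funext fun γ => map_mul φ _ _)

/-- Push forward of classes along a point. -/
def ptMap (φ : R →+* K) (χ : (ZMod L)ˣ →* Rˣ) :
    tH1 (gamChar χ) R →ₛₗ[φ] tH1 (gamChar (charMap φ χ)) K :=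
  Submodule.mapQ _ _ (ptCocycles φ χ) (by
    rintro _ ⟨v, rfl⟩
    refine ⟨φ v, Subtype.ext (funext fun γ => ?_)⟩
    show (gamChar (charMap φ χ) γ : K) • φ v - φ v = φ ((gamChar χ γ : R) • v - v)
    rw [map_sub, smul_eq_mul, smul_eq_mul, map_mul, coe_gamChar_charMap])

theorem ptMap_class (φ : R →+* K) (χ : (ZMod L)ˣ →* Rˣ) (f : tCocycles (gamChar χ) R) :
    ptMap φ χ (tClass (gamChar χ) R f) = tClass (gamChar (charMap φ χ)) K (ptCocycles φ χ f) :=
  rfl

theorem ptMap_natHecke (φ : R →+* K) (χ : (ZMod L)ˣ →* Rˣ) {l : ℕ} (hl : l.Prime) (hlL : ¬ l ∣ L)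
    (x : tH1 (gamChar χ) R) :
    ptMap φ χ ((natHecke χ l).app R x) = (natHecke (charMap φ χ) l).app K (ptMap φ χ x) := by
  have := Fact.mk hl
  have : NeZero l := ⟨hl.ne_zero⟩
  obtain ⟨f, rfl⟩ := tClass_surjective (gamChar χ) x
  rw [natHecke_of_not_dvd χ hlL, natHecke_of_not_dvd _ hlL]
  show ptMap φ χ ((isWeight_T χ hlL (coprime_of_not_dvd hlL)).op R (tClass (gamChar χ) R f))
    = (isWeight_T (charMap φ χ) hlL (coprime_of_not_dvd hlL)).op K
      (ptMap φ χ (tClass (gamChar χ) R f))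
  rw [IsWeight.op_class, ptMap_class, ptMap_class, IsWeight.op_class]
  refine congrArg _ (Subtype.ext (funext fun γ => ?_))
  show φ _ = _
  simp only [IsWeight.opZ_apply, map_sum, smul_eq_mul, map_mul, coe_hwT_charMap]
  rfl

variable [CharZero K]

/-- The parabolic homomorphisms attached to the part of `tH1` at a point. -/
theorem exists_parPoint {χ : (ZMod L)ˣ →* Rˣ} {e : NatEnd (gamChar χ)} (Q₀ : Finset ℕ)
    (ε : ∀ q : ℕ, (ZMod q)ˣ →* Rˣ) (hQ : ∀ q ∈ Q₀, q.Prime ∧ q ∣ L ∧ ¬ q * q ∣ L)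
    (hodd : ∀ q ∈ Q₀, ∀ u, ∃ n, Odd n ∧ ε q u ^ n = 1) (hχ : χ = sigProd L Q₀ ε)
    {M : ℕ} [hM0 : NeZero M] (hM : M = L * ∏ q ∈ Q₀, q)
    {l₀ : ℕ} (hl₀ : l₀.Prime) (hl₀M : ¬ l₀ ∣ M) (hl₀1 : (l₀ : ZMod M) = 1)
    (hfac : ∀ x, ∃ y, e.app R x = (natHecke χ l₀).app R y - ((l₀ : R) + 1) • y)
    (φ : R →+* K) :
    ∃ Ψ : eImage e R →+ (parQuot (Gamma0 M) →+ K), (∀ (r : R) x, Ψ (r • x) = φ r • Ψ x) ∧
      (∀ x, Ψ x = 0 → ptMap φ χ (x : tH1 (gamChar χ) R) = 0) ∧
      ∀ (l : ℕ) (hl : l.Prime) (hlM : ¬ l ∣ M) (x x' : eImage e R),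
        (x' : tH1 (gamChar χ) R) = (kap Q₀ ε l : R) • (natHecke χ l).app R (x : tH1 (gamChar χ) R) →
        Ψ x' = (Ψ x).comp
          (heckeQuot M (CuspForm.heckeAlgebra.T hl hlM (Set.notMem_empty l))).toAddMonoidHom := by
  obtain ⟨N, hN, P, hNP, J, hJ, hJT⟩ := exists_realisation (K := K) Q₀ L
    (fun q => charMap φ (ε q)) hQ (fun q hq h => MonoidHom.ext fun v => by
      obtain ⟨n, ⟨k, rfl⟩, hn⟩ := hodd q hq v
      have h1 : (charMap φ (ε q) v) ^ (2 * k + 1) = 1 := by
        show Units.map (φ : R →* K) (ε q v) ^ (2 * k + 1) = 1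
        rw [← map_pow, hn, map_one]
      have h2 : charMap φ (ε q) v ^ 2 = 1 := DFunLike.congr_fun h v
      rwa [pow_succ, pow_mul, h2, one_pow, one_mul] at h1)
    (charMap φ χ) (by rw [hχ, charMap_sigProd])
  obtain rfl : M = N * P := hM.trans hNP.symm
  have : NeZero P := ⟨fun h => hM0.out (by rw [h, mul_zero])⟩
  have hLM : L ∣ N * P := ⟨_, hNP⟩
  have hJT' : ∀ l, l.Prime → ¬ l ∣ N * P → ∀ x,
      J (φ (kap Q₀ ε l : R) • ptMap φ χ ((natHecke χ l).app R x))
        = heckeHom K N l (J (ptMap φ χ x)) := fun l hl hlM x => by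
    rw [ptMap_natHecke φ χ hl (fun h => hlM (h.trans hLM)), ← coe_kap_charMap]
    exact hJT l hl (fun h => hlM (h.trans hLM)) _
  have hparN : ∀ x : eImage e R, IsParabolicHom (Gamma0 N)
      (J (ptMap φ χ (x : tH1 (gamChar χ) R))) := by
    rintro ⟨x, z, rfl⟩
    obtain ⟨y, hy⟩ := hfac z
    have := Fact.mk hl₀
    have h1 : (l₀ : ZMod N) = 1 := by
      have e1 := congrArg (ZMod.castHom (dvd_mul_right N P) (ZMod N)) hl₀1
      rwa [map_natCast, map_one] at e1
    have h2 : φ (kap Q₀ ε l₀ : R) = 1 := by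
      rw [kap_eq_one ε (fun q hq => (hQ q hq).2.1) ?_, Units.val_one, map_one]
      have e1 := congrArg (ZMod.castHom hLM (ZMod L)) hl₀1
      rwa [map_natCast, map_one] at e1
    have h3 : J (ptMap φ χ (e.app R z))
        = heckeHom K N l₀ (J (ptMap φ χ y)) - (l₀ + 1) • J (ptMap φ χ y) := by
      rw [hy, map_sub, map_sub, LinearMap.map_smulₛₗ, map_smul, ← hJT' l₀ hl₀ hl₀M y, h2,
        one_smul, map_add, map_natCast, map_one, ← Nat.cast_smul_eq_nsmul K, Nat.cast_succ]
    show IsParabolicHom (Gamma0 N) (J (ptMap φ χ (e.app R z)))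
    rw [h3]
    exact isParabolicHom_of_eisenstein K
      (fun a ha => by simpa using ha)
      (fun h => hl₀M (h.trans (dvd_mul_right N P))) h1 _
  have hpar := fun x => isParabolicHom_inclRes (P := P) (hparN x)
  choose u hu using fun x => exists_parQuot_factor (hpar x)
  have key : ∀ (x : eImage e R) v, v.comp (parMk (Gamma0 (N * P)))
      = inclRes N P (J (ptMap φ χ (x : tH1 (gamChar χ) R))) → u x = v := fun x v hv =>
    parQuot_hom_ext _ ((hu x).trans hv.symm)
  have hadd : ∀ x y, u (x + y) = u x + u y := fun x y => key _ _ (by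
    rw [AddMonoidHom.add_comp, hu, hu, Submodule.coe_add, map_add, map_add]
    rfl)
  have hsmul : ∀ (r : R) x, u (r • x) = φ r • u x := fun r x => key _ _ (by
    show (φ r • u x).comp _ = _
    rw [Submodule.coe_smul, LinearMap.map_smulₛₗ, map_smul]
    ext γ
    have h := DFunLike.congr_fun (hu x) (Additive.ofMul γ)
    show φ r • u x (parMk _ (Additive.ofMul γ)) = _
    rw [← AddMonoidHom.comp_apply, h]
    rfl)
  refine ⟨AddMonoidHom.mk' u hadd, hsmul, fun x hx => ?_,
    fun l hl hlM x x' hxx' => key x' _ ?_⟩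
  · have h := hu x
    rw [show u x = 0 from hx, AddMonoidHom.zero_comp] at h
    exact hJ ((inclRes_injective h.symm).trans (map_zero J).symm)
  · show ((u x).comp _).comp _ = _
    rw [hxx', LinearMap.map_smulₛₗ, hJT' l hl hlM, ← heckeHom_inclRes K hl hlM (hparN x), ← hu x,
      heckeHom_eq_int, heckeHom_comp, ← heckeQuot_T_comp_parMk hl hlM, AddMonoidHom.comp_assoc]

end FLTA.RT
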