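import Mathlib.RingTheory.Support
import Mathlib.RingTheory.LocalRing.Basic
import Mathlib.LinearAlgebra.Charpoly.BaseChange
import Mathlib.RingTheory.LocalRing.Module
import Mathlib.RingTheory.LocalRing.ResidueField.Ideal
import Mathlib.LinearAlgebra.Matrix.ToLin
import Mathlib.LinearAlgebra.Dual.Lemmas
import Mathlib.RingTheory.Localization.FractionRing
import Mathlib.RingTheory.Localization.Integer

/-!
# Eigenvectors at a point of a commutative algebra of matrices

A point `ψ` of a commutative algebra acting faithfully on a finite module has a semilinear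
eigenfunctional; for an algebra of matrices it has an eigenvector over the image ring.
-/

set_option autoImplicit false

noncomputable section

open scoped TensorProduct Matrix

namespace FLTA.RT

/-- A point of a ring acting faithfully on a finite module has an eigenfunctional. -/
theorem exists_eigenFunctional {A Q K : Type*} [CommRing A] [AddCommGroup Q] [Module A Q]
    [Module.Finite A Q] [Field K] (hQ : ∀ a : A, (∀ x : Q, a • x = 0) → a = 0) (ψ : A →+* K) :
    ∃ g : Q →+ K, g ≠ 0 ∧ ∀ (a : A) (x : Q), g (a • x) = ψ a * g x := by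
  classical
  let P : Ideal A := RingHom.ker ψ
  have : P.IsPrime := RingHom.ker_isPrime ψ
  have hann : Module.annihilator A Q ≤ P := fun a ha => by
    rw [hQ a (Module.mem_annihilator.mp ha)]
    exact P.zero_mem
  have hmem : (⟨P, this⟩ : PrimeSpectrum A) ∈ Module.support A Q :=
    Module.mem_support_iff_of_finite.mpr hann
  have : Nontrivial (P.ResidueField ⊗[A] Q) :=
    (Module.mem_support_iff_nontrivial_residueField_tensorProduct ⟨P, this⟩).mp hmem
  obtain ⟨z, hz⟩ := exists_ne (0 : P.ResidueField ⊗[A] Q)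
  obtain ⟨f, hf⟩ : ∃ f : Module.Dual P.ResidueField (P.ResidueField ⊗[A] Q), f z ≠ 0 := by
    by_contra! h
    exact hz ((Module.forall_dual_apply_eq_zero_iff P.ResidueField z).mp h)
  let ι : P.ResidueField →+* K := Ideal.ResidueField.lift P ψ le_rfl fun a ha =>
    (show ψ a ≠ 0 from fun h => ha h).isUnit
  refine ⟨AddMonoidHom.mk' (fun x => ι (f (1 ⊗ₜ[A] x))) fun x y => by
    rw [TensorProduct.tmul_add, map_add, map_add], fun h0 => hf ?_, fun a x => ?_⟩
  · have h1 : ∀ w : P.ResidueField ⊗[A] Q, f w = 0 := fun w => by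
      induction w using TensorProduct.induction_on with
      | zero => exact map_zero f
      | add x y hx hy => rw [map_add, hx, hy, add_zero]
      | tmul c x =>
        have h2 : f (1 ⊗ₜ[A] x) = 0 := ι.injective ((DFunLike.congr_fun h0 x).trans (map_zero ι).symm)
        rw [show c ⊗ₜ[A] x = c • ((1 : P.ResidueField) ⊗ₜ[A] x) by
          rw [TensorProduct.smul_tmul', smul_eq_mul, mul_one], map_smul, h2, smul_zero]
    exact h1 z
  · show ι (f (1 ⊗ₜ[A] (a • x))) = ψ a * ι (f (1 ⊗ₜ[A] x))
    rw [show (1 : P.ResidueField) ⊗ₜ[A] (a • x) =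
        algebraMap A P.ResidueField a • ((1 : P.ResidueField) ⊗ₜ[A] x) by
      rw [algebraMap_smul, TensorProduct.smul_tmul', TensorProduct.smul_tmul], map_smul,
      smul_eq_mul, map_mul]
    congr 1
    exact Ideal.ResidueField.lift_algebraMap _ _ _ _ _

/-- A point of a commutative algebra of matrices has an eigenvector. -/
theorem exists_eigenVec {R A K : Type*} [CommRing R] [CommRing A] [Algebra R A] [Field K]
    {d : ℕ} (ρ : A →ₐ[R] Matrix (Fin d) (Fin d) R) (hρ : Function.Injective ρ) (ψ : A →+* K) :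
    ∃ v : Fin d → K, v ≠ 0 ∧
      ∀ a : A, (ρ a).map (ψ.comp (algebraMap R A)) *ᵥ v = ψ a • v := by
  classical
  let : SMul A (Fin d → R) := ⟨fun a x => x ᵥ* ρ a⟩
  let : Module A (Fin d → R) :=
    { one_smul := fun x => by show x ᵥ* ρ 1 = x; rw [map_one, Matrix.vecMul_one]
      mul_smul := fun a b x => by
        show x ᵥ* ρ (a * b) = (x ᵥ* ρ b) ᵥ* ρ a
        rw [mul_comm, map_mul, Matrix.vecMul_vecMul]
      smul_zero := fun a => Matrix.zero_vecMul _
      smul_add := fun a x y => Matrix.add_vecMul _ _ _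
      add_smul := fun a b x => by
        show x ᵥ* ρ (a + b) = x ᵥ* ρ a + x ᵥ* ρ b
        rw [map_add, Matrix.vecMul_add]
      zero_smul := fun x => by show x ᵥ* ρ 0 = 0; rw [map_zero, Matrix.vecMul_zero] }
  have hsmul : ∀ (r : R) (x : Fin d → R), algebraMap R A r • x = r • x := fun r x => by
    show x ᵥ* ρ (algebraMap R A r) = r • x
    rw [AlgHom.commutes, Algebra.algebraMap_eq_smul_one, Matrix.vecMul_smul, Matrix.vecMul_one]
  have : IsScalarTower R A (Fin d → R) := ⟨fun r a x => by
    rw [Algebra.smul_def, mul_smul, hsmul]⟩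
  have : Module.Finite A (Fin d → R) := Module.Finite.of_restrictScalars_finite R A _
  obtain ⟨g, hg0, hg⟩ := exists_eigenFunctional (A := A) (Q := Fin d → R) (fun a ha => hρ (by
    rw [map_zero]
    refine Matrix.ext fun i j => ?_
    have h := congrFun (ha (Pi.single i 1)) j
    change ((Pi.single i (1 : R) : Fin d → R) ᵥ* ρ a) j = 0 at h
    simpa [Matrix.single_one_vecMul] using h)) ψ
  have hexp : ∀ x : Fin d → R,
      g x = ∑ j, ψ (algebraMap R A (x j)) * g (Pi.single j (1 : R)) := fun x => by
    conv_lhs => rw [← Finset.univ_sum_single x]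
    rw [map_sum]
    refine Finset.sum_congr rfl fun j _ => ?_
    rw [← hg, hsmul, ← Pi.single_smul', smul_eq_mul, mul_one]
  refine ⟨fun i => g (Pi.single i (1 : R)), fun h0 => hg0 (AddMonoidHom.ext fun x => ?_), fun a => ?_⟩
  · rw [hexp x, AddMonoidHom.zero_apply]
    exact Finset.sum_eq_zero fun j _ => by rw [congrFun h0 j, Pi.zero_apply, mul_zero]
  · funext i
    rw [Pi.smul_apply, smul_eq_mul, ← hg, hexp (a • (Pi.single i (1 : R) : Fin d → R))]
    simp only [Matrix.mulVec, dotProduct]
    refine Finset.sum_congr rfl fun j _ => ?_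
    show ψ (algebraMap R A (ρ a i j)) * g (Pi.single j (1 : R)) =
      ψ (algebraMap R A (((Pi.single i (1 : R) : Fin d → R) ᵥ* ρ a) j)) * _
    rw [Matrix.single_one_vecMul]
    rfl

/-- A point with values in a domain has an eigenvector over that domain. -/
theorem exists_eigenVec_integral {R A B : Type*} [CommRing R] [CommRing A] [Algebra R A]
    [CommRing B] [IsDomain B] {d : ℕ} (ρ : A →ₐ[R] Matrix (Fin d) (Fin d) R)
    (hρ : Function.Injective ρ) (ψ : A →+* B) :
    ∃ v : Fin d → B, v ≠ 0 ∧
      ∀ a : A, (ρ a).map (ψ.comp (algebraMap R A)) *ᵥ v = ψ a • v := by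
  let ι : B →+* FractionRing B := algebraMap B (FractionRing B)
  have hι : Function.Injective ι := IsFractionRing.injective B _
  obtain ⟨w, hw0, hw⟩ := exists_eigenVec ρ hρ (ι.comp ψ)
  obtain ⟨s, hs⟩ := IsLocalization.exist_integer_multiples_of_finite (nonZeroDivisors B) w
  choose v hv using hs
  have hv' : (fun i => ι (v i)) = ι (s : B) • w := funext fun i => by
    rw [show ι (v i) = (s : B) • w i from hv i, Algebra.smul_def]
    rfl
  have hs0 : ι (s : B) ≠ 0 := (map_ne_zero_iff ι hι).mpr (nonZeroDivisors.coe_ne_zero s)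
  refine ⟨v, fun h => hw0 ((smul_eq_zero.mp ?_).resolve_left hs0), fun a => ?_⟩
  · rw [← hv', h]
    exact funext fun i => map_zero ι
  · refine funext fun i => hι ?_
    rw [RingHom.map_mulVec, Matrix.map_map, show ⇑ι ∘ v = _ from hv',
      Pi.smul_apply, smul_eq_mul, map_mul]
    have h1 : ι (v i) = ι (s : B) * w i := congrFun hv' i
    have h2 := congrFun (hw a) i
    rw [Pi.smul_apply, smul_eq_mul] at h2
    rw [h1, Matrix.mulVec_smul, Pi.smul_apply, smul_eq_mul]
    rw [show ((ρ a).map (ι ∘ (ψ.comp (algebraMap R A)))) =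
      (ρ a).map ((ι.comp ψ).comp (algebraMap R A)) from rfl, h2]
    show _ * (ι (ψ a) * _) = _
    ring

/-- A point of an algebra generated by commuting endomorphisms of a free module has an
eigenvector. -/
theorem exists_eigenVec_adjoin {R M B : Type*} [CommRing R] [AddCommMonoid M] [Module R M]
    [CommRing B] [IsDomain B] {d : ℕ} (b : Module.Basis (Fin d) R M) {ι : Type*}
    (T : ι → Module.End R M) (hcomm : ∀ i j, T i * T j = T j * T i)
    (ψ : Algebra.adjoin R (Set.range T) →+* B) :
    ∃ v : Fin d → B, v ≠ 0 ∧ ∀ i k,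
      ∑ j, ψ (algebraMap R _ (LinearMap.toMatrixAlgEquiv b (T i) k j)) * v j =
        ψ ⟨T i, Algebra.subset_adjoin ⟨i, rfl⟩⟩ * v k := by
  have hc : IsMulCommutative (Algebra.adjoin R (Set.range T)) :=
    Algebra.isMulCommutative_adjoin R (by
      rintro _ ⟨i, rfl⟩ _ ⟨j, rfl⟩
      exact hcomm i j)
  let _ : CommRing (Algebra.adjoin R (Set.range T)) :=
    { Algebra.semiringToRing R with mul_comm := hc.is_comm.comm }
  obtain ⟨v, hv0, hv⟩ := exists_eigenVec_integral
    ((LinearMap.toMatrixAlgEquiv b).toAlgHom.comp (Algebra.adjoin R (Set.range T)).val)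
    ((LinearMap.toMatrixAlgEquiv b).injective.comp Subtype.val_injective) ψ
  exact ⟨v, hv0, fun i k => congrFun (hv ⟨T i, Algebra.subset_adjoin ⟨i, rfl⟩⟩) k⟩

/-- An operator residual to `a` does not take a value `c` with `a - c` a unit at any point. -/
theorem apply_ne_of_pow_sub_mem {R M B : Type*} [CommRing R] [IsLocalRing R] [AddCommGroup M]
    [Module R M] [Module.Finite R M] [CommRing B] [Nontrivial B]
    {A : Subalgebra R (Module.End R M)} (ψ : A →+* B) (T : A) (a c : R) {k : ℕ}
    (hk : ∀ x : M, (((T : Module.End R M) - a • 1) ^ k) x ∈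
      IsLocalRing.maximalIdeal R • (⊤ : Submodule R M))
    (hu : IsUnit (a - c)) : ψ T ≠ ψ (algebraMap R A c) := by
  intro he
  have hle : LinearMap.range (((T : Module.End R M) - a • 1) ^ k) ≤
      IsLocalRing.maximalIdeal R • (⊤ : Submodule R M) := by
    rintro _ ⟨x, rfl⟩
    exact hk x
  obtain ⟨f, hf, -, hcoef, h0⟩ :=
    LinearMap.exists_monic_and_natDegree_eq_and_coeff_mem_pow_and_aeval_eq_zero R _ _ hle
  have hA : Polynomial.aeval ((T - algebraMap R A a) ^ k) f = 0 :=
    (Subtype.val_injective : Function.Injective A.val) (by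
      show A.val (Polynomial.aeval _ f) = A.val 0
      rw [← Polynomial.aeval_algHom_apply, map_zero, map_pow, map_sub, AlgHom.commutes,
        Algebra.algebraMap_eq_smul_one]
      exact h0)
  have hunit : IsUnit (f.eval ((c - a) ^ k)) := by
    rw [Polynomial.eval_eq_sum_range, Finset.sum_range_succ, hf.coeff_natDegree, one_mul]
    refine IsLocalRing.notMem_maximalIdeal.mp fun hmem => ?_
    refine IsLocalRing.notMem_maximalIdeal.mpr ((IsUnit.pow k (?_ : IsUnit (c - a))).pow _)
      ((Ideal.add_mem_iff_right _ (Submodule.sum_mem _ fun i hi => Ideal.mul_mem_right _ _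
        (Ideal.pow_le_self (Nat.sub_ne_zero_of_lt (Finset.mem_range.mp hi)) (hcoef i)))).mp hmem)
    rw [← neg_sub]
    exact hu.neg
  refine (hunit.map (ψ.comp (algebraMap R A))).ne_zero ?_
  have h1 := congrArg ψ hA
  rw [map_zero, Polynomial.aeval_def, Polynomial.hom_eval₂, map_pow, map_sub, he, ← map_sub,
    ← map_sub, ← map_pow] at h1
  rw [← h1, ← Polynomial.eval₂_at_apply]
  simp

end FLTA.RT

end
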