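import Fermat.Agent.RT.FreeMain
import Fermat.Agent.RT.PointEigen

/-!
# Classes attached to vectors in a coefficient module

For a basis `b` of the image of an idempotent family and a vector `v` with entries in a finite
module `V`, `vecClass b v` is a class with coefficients in `V`; it vanishes only for `v = 0`.
-/

set_option autoImplicit false

noncomputable section

universe u

namespace FLTA.RT

variable {Γ : Type*} [Group Γ] {R : Type u} [CommRing R] {χ : Γ →* Rˣ} {e : NatEnd χ}
  {d : ℕ} (b : Module.Basis (Fin d) R (eImage e R))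
  {V : Type u} [AddCommGroup V] [Module R V]

/-- The class with coefficients `v` in the basis `b`. -/
def vecClass (v : Fin d → V) : tH1 χ V :=
  ∑ j, tH1Map χ (LinearMap.toSpanSingleton R V (v j)) (b j : tH1 χ R)

theorem vecClass_mem (v : Fin d → V) : vecClass b v ∈ eImage e V :=
  Submodule.sum_mem _ fun j _ => tH1Map_mem_eImage _ (b j).2

theorem map_vecClass {W : Type u} [AddCommGroup W] [Module R W] (π : V →ₗ[R] W) (v : Fin d → V) :
    tH1Map χ π (vecClass b v) = vecClass b fun j => π (v j) := by
  simp only [vecClass, map_sum, ← tH1Map_comp]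
  refine Finset.sum_congr rfl fun j _ => ?_
  rw [show π.comp (LinearMap.toSpanSingleton R V (v j)) = LinearMap.toSpanSingleton R W (π (v j))
    from LinearMap.ext_ring (by simp)]

/-- Over the coefficient ring a class determines its vector. -/
theorem eq_zero_of_vecClass_ring (c : Fin d → R) (h : vecClass b c = 0) : c = 0 := by
  have h1 : ∑ j, c j • b j = 0 := Subtype.ext (by
    rw [ZeroMemClass.coe_zero, ← h, vecClass, AddSubmonoidClass.coe_finsetSum]
    refine Finset.sum_congr rfl fun j _ => ?_
    rw [show LinearMap.toSpanSingleton R R (c j) = c j • LinearMap.id from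
      LinearMap.ext_ring (by simp), tH1Map_smul, tH1Map_id]
    rfl)
  exact funext fun j => Fintype.linearIndependent_iff.mp b.linearIndependent c h1 j

/-- Every class in the image over a finite free module is a `vecClass`. -/
theorem exists_vecClass_eq {m : ℕ} {z : tH1 χ (Fin m → R)} (hz : z ∈ eImage e (Fin m → R)) :
    ∃ a : Fin d → (Fin m → R), vecClass b a = z := by
  classical
  let pr : Fin m → eImage e R := fun i =>
    ⟨tH1Map χ (LinearMap.proj i : (Fin m → R) →ₗ[R] R) z, tH1Map_mem_eImage _ hz⟩
  refine ⟨fun j i => b.repr (pr i) j, ?_⟩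
  have hsum : z = ∑ i, tH1Map χ (LinearMap.single R (fun _ : Fin m => R) i)
      (tH1Map χ (LinearMap.proj i : (Fin m → R) →ₗ[R] R) z) := by
    conv_lhs => rw [← tH1Map_id χ z]
    simp only [← tH1Map_comp]
    rw [← tH1Map_sum]
    congr 2
    exact LinearMap.ext fun f => by simp [Finset.univ_sum_single]
  rw [hsum, vecClass]
  have hj : ∀ j, LinearMap.toSpanSingleton R (Fin m → R) (fun i => b.repr (pr i) j) =
      ∑ i, b.repr (pr i) j • LinearMap.single R (fun _ : Fin m => R) i := fun j =>
    LinearMap.ext_ring (by
      rw [LinearMap.toSpanSingleton_apply, one_smul, LinearMap.sum_apply]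
      conv_lhs => rw [← Finset.univ_sum_single (fun i => b.repr (pr i) j)]
      exact Finset.sum_congr rfl fun i _ => by simp [← Pi.single_smul'])
  simp only [hj, tH1Map_sum, tH1Map_smul]
  rw [Finset.sum_comm]
  refine Finset.sum_congr rfl fun i _ => ?_
  simp only [← map_smul, ← map_sum]
  congr 1
  have h1 := congrArg Subtype.val (b.sum_repr (pr i))
  rw [AddSubmonoidClass.coe_finsetSum] at h1
  exact h1

variable [IsNoetherianRing R] (hlift : HasLifts χ) (hidem : EqAtRing (e * e) e)

include hlift hidem in
/-- A nonzero vector gives a nonzero class. -/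
theorem eq_zero_of_vecClass [Module.Finite R V] (v : Fin d → V) (h : vecClass b v = 0) :
    v = 0 := by
  classical
  obtain ⟨k, π, hπ⟩ := Module.Finite.exists_fin' R V
  choose w hw using fun j => hπ (v j)
  have hv : v = fun j => π (w j) := funext fun j => (hw j).symm
  have hz : tH1Map χ π (vecClass b w) = 0 := by rw [map_vecClass, ← hv, h]
  obtain ⟨y, hy⟩ := exists_of_tH1Map_eq_zero χ (LinearMap.ker π).subtype π
    (LinearMap.ker π).subtype_injective hπ (by rw [Submodule.range_subtype]) _ hz
  have : Module.Finite R (LinearMap.ker π) := Module.Finite.of_injective (LinearMap.ker π).subtype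
    (LinearMap.ker π).subtype_injective
  obtain ⟨m, ρ, hρ⟩ := Module.Finite.exists_fin' R (LinearMap.ker π)
  obtain ⟨y', rfl⟩ := tH1Map_surjective χ hlift ρ hρ y
  obtain ⟨a, ha⟩ := exists_vecClass_eq b (z := e.app (Fin m → R) y')
    (LinearMap.mem_range_self _ _)
  set g := (LinearMap.ker π).subtype.comp ρ
  have key : vecClass b w = vecClass b fun j => g (a j) := by
    rw [← map_vecClass, ha, ← e.natural, tH1Map_comp, hy,
      e_app_of_mem hlift hidem (vecClass_mem b w)]
  funext j
  have hwj : w j = g (a j) := by
    funext t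
    have h2 := congrArg (tH1Map χ (LinearMap.proj t : (Fin k → R) →ₗ[R] R)) key
    rw [map_vecClass, map_vecClass] at h2
    have h3 := eq_zero_of_vecClass_ring b
      (fun j => w j t - g (a j) t) (by
        have hsub : ∀ c c' : Fin d → R, vecClass b (fun j => c j - c' j) =
            vecClass b c - vecClass b c' := fun c c' => by
          simp only [vecClass, ← Finset.sum_sub_distrib]
          refine Finset.sum_congr rfl fun j _ => ?_
          rw [eq_sub_iff_add_eq, ← tH1Map_add]
          congr 1
          exact congrArg (tH1Map χ) (LinearMap.ext_ring (by simp))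
        rw [hsub]
        exact sub_eq_zero.mpr h2)
    exact sub_eq_zero.mp (congrFun h3 j)
  rw [Pi.zero_apply, ← hw j, hwj]
  exact (ρ (a j)).2

omit [IsNoetherianRing R] in
/-- The action of a family on a class through its matrix. -/
theorem app_vecClass (f : NatEnd χ) (A : Matrix (Fin d) (Fin d) R)
    (hA : ∀ j, f.app R (b j : tH1 χ R) = ∑ i, A i j • (b i : tH1 χ R)) (v : Fin d → V) :
    f.app V (vecClass b v) = vecClass b fun i => ∑ j, A i j • v j := by
  simp only [vecClass, map_sum, f.natural, hA, map_smul, ← tH1Map_smul]
  rw [Finset.sum_comm]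
  refine Finset.sum_congr rfl fun i _ => ?_
  rw [← tH1Map_sum]
  congr 1
  exact congrArg (tH1Map χ) (LinearMap.ext_ring (by simp))

end FLTA.RT

end
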