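import Fermat.Agent.RT.OldNew
import Fermat.Agent.RT.DiscPush
import Fermat.Agent.RT.RaiseBottomRegular
import Fermat.Agent.LT2.PatchedOld
import Fermat.Agent.BadRed.Galois

/-!
# Homomorphisms on `Γ₀(M q)` fixed by `U_q ^ 2` have a quartic relation at Frobenius

For a prime `q ∤ M` a non-Eisenstein homomorphism fixed by `U_q ^ 2` has vanishing traces to level
`M`, by the injectivity of `T_q ^ 2 - (q + 1) ^ 2` at level `M`. So its coordinates in the Tate
module are killed by `(Frob² - q²)(Frob² - 1)`.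
-/

set_option autoImplicit false

noncomputable section

open CongruenceSubgroup ModularCurve AlgebraicCurve
open scoped Matrix MatrixGroups
open FLTA.Periods FLTA.LevelRaising
open FLTA.GaloisReps FLTA.Kummer
open FLTA.Gamma0 (homRank homPar0 homPar0Equiv IsParHom0)

namespace FLTA.RT

variable {M q : ℕ} [NeZero M] [NeZero q] [hq : Fact q.Prime]

set_option maxHeartbeats 1000000 in
/-- **A non-Eisenstein homomorphism fixed by `U_q ^ 2` has vanishing traces.** -/
theorem sum_transCocyc_eq_zero_of_sq_fixed {K : Type} [Field K] [CharZero K]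
    (hqM : ¬ q ∣ M) (hcop : Nat.Coprime q M) {ℓ : ℕ} [hℓ : Fact ℓ.Prime] (hℓM : ¬ ℓ ∣ M)
    (hℓq : ℓ ≠ q) (hℓ1 : (ℓ : ZMod M) = 1) (u z : Additive (Gamma0 (M * q)) →+ K)
    (hu : u = heckeHom K (M * q) ℓ z - (ℓ + 1) • z)
    (hUU : heckeHom K (M * q) q (heckeHom K (M * q) q u) = u)
    (b : Bool) (γ : Gamma0 M) :
    ∑ i, u (Additive.ofMul (Disc.transCocyc hcop dvd_rfl (Disc.isTrans_sideTrans hcop b) γ i))
      = 0 := by
  classical
  have : NeZero (M * q) := ⟨mul_ne_zero (NeZero.ne M) (NeZero.ne q)⟩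
  let χ : (ZMod M)ˣ →* Kˣ := 1
  have htriv : ∀ γ (v : K), (gamChar χ γ : K) • v = v := fun γ v => by
    rw [gamChar_apply, MonoidHom.one_apply, Units.val_one, one_smul]
  have htriv' : ∀ γ (v : K), (gamChar (chiUp χ q) γ : K) • v = v := fun γ v => by
    rw [← gamChar_inclHom]; exact htriv _ v
  have hχ1 : χ (ZMod.unitOfCoprime q hcop) = 1 := rfl
  set e := tH1EquivHom (R := K) (V := K) htriv
  set e' := tH1EquivHom (R := K) (V := K) htriv'
  obtain ⟨y, rfl⟩ := e'.surjective u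
  obtain ⟨w, rfl⟩ := e'.surjective z
  have hy : y = (natHecke (chiUp χ q) ℓ).app K w - ((ℓ : K) + 1) • w := e'.injective (by
    rw [hu, map_sub, map_smul, tH1EquivHom_natHecke _ htriv' hℓ.out, ← Nat.cast_smul_eq_nsmul K,
      Nat.cast_succ])
  have hU : (natHecke (chiUp χ q) q).app K ((natHecke (chiUp χ q) q).app K y) = y :=
    e'.injective (by
      rw [tH1EquivHom_natHecke _ htriv' hq.out, tH1EquivHom_natHecke _ htriv' hq.out]; exact hUU)
  have hd := degIntertwines_natHecke (χ := χ) hcop (fun _ : Unit => ℓ) (fun _ => hℓ.out)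
    (fun _ => hℓq)
  have hpar : ∀ v : tH1 (gamChar χ) K,
      IsParHom0 (Gamma0 M) (e ((natHecke χ ℓ).app K v - ((ℓ : K) + 1) • v)) := by
    intro v
    refine isParHom0_of_isParabolicHom_domain (by norm_num) ?_
    rw [map_sub, map_smul, tH1EquivHom_natHecke _ htriv hℓ.out, ← Nat.cast_succ,
      Nat.cast_smul_eq_nsmul]
    exact isParabolicHom_of_eisenstein K (fun c hc => by simpa using hc) hℓM hℓ1 _
  set a := degCor χ K y with hadef
  set c := degCor χ K (degAL χ K hcop y) with hcdef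
  have ha : IsParHom0 (Gamma0 M) (e a) := by
    have : a = (natHecke χ ℓ).app K (degCor χ K w) - ((ℓ : K) + 1) • degCor χ K w := by
      rw [hadef, hy, map_sub, map_smul, hd.cor () K w]
    rw [this]; exact hpar _
  have hc : IsParHom0 (Gamma0 M) (e c) := by
    have : c = (natHecke χ ℓ).app K (degCor χ K (degAL χ K hcop w)) -
        ((ℓ : K) + 1) • degCor χ K (degAL χ K hcop w) := by
      rw [hcdef, hy, map_sub, map_sub, map_smul, map_smul, hd.corAL () K w]
    rw [this]; exact hpar _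
  have hTc : IsParHom0 (Gamma0 M) (e ((natHecke χ q).app K c)) := by
    rw [tH1EquivHom_natHecke _ htriv hq.out]
    exact FLTA.Periods.heckeHom_mem_homPar0 K q hc
  -- `U (U y)` in terms of the two traces
  have h1 : (natHecke (chiUp χ q) q).app K y = degIncl χ K c - degAL χ K hcop y :=
    eq_sub_of_add_eq (LT2.upOp_add_degAL χ K hqM hcop y)
  have h2 : (natHecke (chiUp χ q) q).app K (degAL χ K hcop y) = degIncl χ K a - y := by
    have h := LT2.upOp_add_degAL χ K hqM hcop (degAL χ K hcop y)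
    rw [LT2.degAL_degAL χ hcop, hχ1, inv_one, Units.val_one, one_smul] at h
    exact eq_sub_of_add_eq h
  have h3 : degIncl χ K ((natHecke χ q).app K c - a) + degConj χ K (-c) =
      (0 : tH1 (gamChar (chiUp χ q)) K) := by
    have h := hU
    rw [h1, map_sub, h2, LT2.upOp_degIncl χ K hqM hcop, hχ1, inv_one, Units.val_one, one_smul] at h
    rw [map_sub, map_neg]
    linear_combination (norm := abel) h
  have hpair := eq_zero_of_sum_degDown_degUp (R := K) (O := K) (χ := χ) htriv hcop hqM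
    ![(natHecke χ q).app K c - a, -c]
    (fun l => by
      fin_cases l
      · show IsParHom0 _ (e (_ - a))
        rw [map_sub]
        exact (homPar0 K (Gamma0 M) K).sub_mem hTc ha
      · show IsParHom0 _ (e (-c))
        rw [map_neg]
        exact (homPar0 K (Gamma0 M) K).neg_mem hc)
    (fun k => by
      rw [Fin.sum_univ_two, ← map_add]
      exact (congrArg (degDown hcop χ K k) h3).trans (map_zero _))
  have hc0 : c = 0 := neg_eq_zero.mp (congrFun hpair 1)
  have ha0 : a = 0 := by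
    have h := congrFun hpair 0
    simpa [hc0] using h
  have hdown : ∀ l, degDown hcop χ K l y = 0 := fun l => by
    fin_cases l
    · exact ha0
    · exact hc0
  have hop := congrArg (fun v => e v (Additive.ofMul γ))
    (Disc.trSys_op_eq_zero hcop dvd_rfl (Disc.isTrans_sideTrans hcop b) χ y hdown)
  simp only [map_zero, AddMonoidHom.zero_apply] at hop
  rw [← hop]
  obtain ⟨f, rfl⟩ := tClass_surjective (gamChar (chiUp χ q)) y
  show _ = ∑ i, ((1 : Kˣ) : K) • f.1 (Disc.transCocyc hcop dvd_rfl _ γ i)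
  simp only [Units.val_one, one_smul]
  rfl

variable {p : ℕ} [Fact p.Prime]

local instance instNeZeroPrimePow (k : ℕ) : NeZero (p ^ k) :=
  ⟨pow_ne_zero _ (Fact.out (p := p.Prime)).ne_zero⟩

/-- The Galois action on the points `torsPoint`. -/
theorem coe_torsPoint_tateRho (N : ℕ) [NeZero N] (σ : GalQ) (k : ℕ)
    (c : Fin (homRank N) → ℤ_[p]) :
    ((torsPoint N k (tateRho N p σ *ᵥ c) : JTors N (p ^ k)) : JZero N) =
      σ • (torsPoint N k c : JZero N) := by
  have h : torsCoord N (p ^ k) (torsPoint N k (tateRho N p σ *ᵥ c)) =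
      torsCoord N (p ^ k) (JZero.torsionGaloisRep N (p ^ k) σ (torsPoint N k c)) := by
    rw [← galMat_mulVec, torsCoord_torsPoint, torsCoord_torsPoint]
    funext i
    rw [RingHom.map_mulVec, map_tateRho]
    rfl
  rw [(torsCoord N (p ^ k)).injective h]
  rfl

set_option maxHeartbeats 1000000 in
/-- **The quartic relation from vanishing traces.** -/
theorem quartic_of_traces {R : Type} [CommRing R] [Algebra ℤ_[p] R] [Module.Free ℤ_[p] R]
    (hqM : ¬ q ∣ M) (hcop : Nat.Coprime q M) (hqp : q ≠ p)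
    {u : Additive (Gamma0 (M * q)) →+ R} (hu : u ∈ homPar0 ℤ (Gamma0 (M * q)) R)
    (htr : ∀ b γ, ∑ i, u (Additive.ofMul
      (Disc.transCocyc hcop dvd_rfl (Disc.isTrans_sideTrans hcop b) γ i)) = 0)
    {A : ValuationSubring (AlgebraicClosure ℚ)} (hA : A.LiesOverPrime q) {τ : GalQ}
    (hτ : A.IsFrobeniusAt τ q) :
    tateRhoR p R (M * q) (τ ^ 4) *ᵥ homPar0Equiv (M * q) ℤ R ⟨u, hu⟩ -
      ((q : R) ^ 2 + 1) • (tateRhoR p R (M * q) (τ ^ 2) *ᵥ homPar0Equiv (M * q) ℤ R ⟨u, hu⟩) +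
        ((q : R) ^ 2) • homPar0Equiv (M * q) ℤ R ⟨u, hu⟩ = 0 := by
  classical
  have : NeZero (M * q) := ⟨mul_ne_zero (NeZero.ne M) (NeZero.ne q)⟩
  set v := homPar0Equiv (M * q) ℤ R ⟨u, hu⟩ with hv
  let b := Module.Free.chooseBasis ℤ_[p] R
  funext i
  refine b.repr.injective (Finsupp.ext fun j => ?_)
  set f : R →ₗ[ℤ_[p]] ℤ_[p] := b.coord j with hf
  set c : Fin (homRank (M * q)) → ℤ_[p] := fun i => f (v i) with hc
  set d := tateRho (M * q) p (τ ^ 4) *ᵥ c - tateRho (M * q) p (τ ^ 2) *ᵥ c -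
    ((q : ℤ_[p]) ^ 2) • (tateRho (M * q) p (τ ^ 2) *ᵥ c - c) with hd
  have hk : ∀ k, torsPoint (M * q) k d = 0 := by
    intro k
    set x := torsPoint (M * q) k c with hx
    let g : R →+ ZMod (p ^ k) := (PadicInt.toZModPow (p := p) k).toAddMonoidHom.comp f.toAddMonoidHom
    have hχ : Kummer.kummerTorsionEquiv (M * q) (p ^ k) x =
        FLTA.Gamma0.homPar0Map (Gamma0 (M * q)) g ⟨u, hu⟩ := by
      refine (homPar0Equiv (M * q) ℤ (ZMod (p ^ k))).injective ?_
      exact torsCoord_torsPoint (M * q) k _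
    obtain ⟨hα, hβ⟩ := Disc.push_eq_zero_of_traces (K := M) hcop dvd_rfl hcop x fun b γ => by
      rw [hχ, FLTA.Gamma0.homPar0Map_coe]
      simp only [AddMonoidHom.comp_apply]
      rw [← map_sum, htr, map_zero]
    have hn : ¬ q ∣ p ^ k := fun h =>
      hqp ((Nat.prime_dvd_prime_iff_eq hq.out Fact.out).mp (hq.out.dvd_of_dvd_pow h))
    have h4 := BadRed.frob_quartic_JZero M q hqM hA hτ hn (x := (x : JZero (M * q)))
      (by rw [← natCast_zsmul]; exact Pic0.mem_torsion.mp x.2) hα hβ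
    have h2 : ∀ n : ℕ, ((τ ^ n) • (x : JZero (M * q))) =
        (torsPoint (M * q) k (tateRho (M * q) p (τ ^ n) *ᵥ c) : JZero (M * q)) := fun n =>
      (coe_torsPoint_tateRho (M * q) _ k c).symm
    refine Subtype.ext ?_
    have hsub : ∀ a b, torsPoint (M * q) (p := p) k (a - b) =
        torsPoint (M * q) k a - torsPoint (M * q) k b := by
      intro a b
      rw [torsPoint, torsPoint, torsPoint, ← map_sub]
      exact congrArg _ (_root_.funext fun i => map_sub _ _ _)
    have hsmul : ∀ (m : ℕ) a, torsPoint (M * q) (p := p) k ((m : ℤ_[p]) • a) =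
        m • torsPoint (M * q) k a := by
      intro m a
      rw [torsPoint, torsPoint, ← map_nsmul]
      refine congrArg _ (_root_.funext fun i => ?_)
      rw [Pi.smul_apply, smul_eq_mul, map_mul, map_natCast, Pi.smul_apply, nsmul_eq_mul]
    rw [hd, hsub, hsub, ← Nat.cast_pow, hsmul, hsub, ← hx]
    simp only [AddSubgroupClass.coe_sub, AddSubmonoidClass.coe_nsmul, ← h2, ZeroMemClass.coe_zero]
    simp only [smul_sub, ← mul_smul] at h4
    rw [sub_eq_zero]
    simpa only [pow_succ, pow_zero, one_mul, mul_assoc] using h4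
  have hd0 : d = 0 := by
    funext i
    refine PadicInt.ext_of_toZModPow.mp fun k => ?_
    have h := congrFun (congrArg (torsCoord (M * q) (p ^ k)) (hk k)) i
    rw [map_zero, torsCoord_torsPoint] at h
    exact h.trans (map_zero _).symm
  have e4 := congrFun (comp_tateRhoR_mulVec (R := R) f (M * q) (τ ^ 4) v) i
  have e2 := congrFun (comp_tateRhoR_mulVec (R := R) f (M * q) (τ ^ 2) v) i
  have hi := congrFun hd0 i
  simp only [hd, Pi.sub_apply, Pi.smul_apply, smul_eq_mul, Pi.zero_apply] at hi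
  rw [← hc] at e4 e2
  have hqR : ((q : R) ^ 2) = algebraMap ℤ_[p] R ((q : ℤ_[p]) ^ 2) := by rw [map_pow, map_natCast]
  show f _ = f _
  simp only [Pi.add_apply, Pi.sub_apply, Pi.smul_apply, smul_eq_mul, Pi.zero_apply, map_zero,
    map_add, map_sub, add_mul, one_mul, hqR, ← Algebra.smul_def, map_smul, e4, e2]
  linear_combination hi

/-- **The quartic relation of a homomorphism fixed by `U_q ^ 2`.** -/
theorem quartic_of_sq_fixed {R K : Type} [CommRing R] [Algebra ℤ_[p] R] [Module.Free ℤ_[p] R]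
    [Field K] [CharZero K] (ι : R →+ K) (hι : Function.Injective ι)
    (hqM : ¬ q ∣ M) (hqp : q ≠ p) {ℓ : ℕ} (hℓ : ℓ.Prime) (hℓM : ¬ ℓ ∣ M) (hℓq : ℓ ≠ q)
    (hℓ1 : (ℓ : ZMod M) = 1)
    {u : Additive (Gamma0 (M * q)) →+ R} (hu : u ∈ homPar0 ℤ (Gamma0 (M * q)) R)
    (z : Additive (Gamma0 (M * q)) →+ K)
    (hz : ι.comp u = heckeHom K (M * q) ℓ z - (ℓ + 1) • z)
    (hUU : heckeHom ℤ (M * q) q (heckeHom ℤ (M * q) q u) = u)
    {A : ValuationSubring (AlgebraicClosure ℚ)} (hA : A.LiesOverPrime q) {τ : GalQ}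
    (hτ : A.IsFrobeniusAt τ q) :
    tateRhoR p R (M * q) (τ ^ 4) *ᵥ homPar0Equiv (M * q) ℤ R ⟨u, hu⟩ -
      ((q : R) ^ 2 + 1) • (tateRhoR p R (M * q) (τ ^ 2) *ᵥ homPar0Equiv (M * q) ℤ R ⟨u, hu⟩) +
        ((q : R) ^ 2) • homPar0Equiv (M * q) ℤ R ⟨u, hu⟩ = 0 := by
  have := Fact.mk hℓ
  have hcop : Nat.Coprime q M := hq.out.coprime_iff_not_dvd.mpr hqM
  refine quartic_of_traces hqM hcop hqp hu (fun b γ => hι ?_) hA hτ
  rw [map_sum, map_zero]
  refine sum_transCocyc_eq_zero_of_sq_fixed hqM hcop hℓM hℓq hℓ1 (ι.comp u) z hz ?_ b γ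
  rw [heckeHom_eq_int K q (ι.comp u), heckeHom_comp, heckeHom_eq_int, heckeHom_comp, hUU]

end FLTA.RT

end
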