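import Fermat.Agent.Periods.Hecke

/-!
# Characters of `Γ₀(L)` through the top left entry, and Hecke weights

`aUnit L γ = γ₀₀ mod L`. For `χ : (ℤ/L)ˣ →* Rˣ` the twisted coefficient character is
`gamChar χ = χ ∘ aUnit L`; the Hecke representatives get the weights `hwT χ` (`T_p`) and `1` (`U_p`).
-/

set_option autoImplicit false

noncomputable section

open CongruenceSubgroup
open scoped MatrixGroups OnePoint

open P2MW.S_ModularForm_heckeT_slash_eq_self_of_mem_Gamma0.ModularForm.HeckeSlashInvariance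
  (heckeRep)

namespace FLTA.RT

open FLTA.Periods

variable (L : ℕ)

theorem intCast_det_Gamma0 (γ : Gamma0 L) :
    (((γ : SL(2, ℤ)) 0 0 : ℤ) : ZMod L) * (((γ : SL(2, ℤ)) 1 1 : ℤ) : ZMod L) = 1 := by
  have h := congrArg (Int.cast : ℤ → ZMod L) (γ : SL(2, ℤ)).det_coe
  rw [Matrix.det_fin_two] at h
  push_cast at h
  linear_combination h + (((γ : SL(2, ℤ)) 0 1 : ℤ) : ZMod L) * Gamma0_mem.mp γ.2

/-- The top left entry modulo `L`. -/
def aUnit : Gamma0 L →* (ZMod L)ˣ where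
  toFun γ := Units.mkOfMulEqOne _ _ (intCast_det_Gamma0 L γ)
  map_one' := Units.ext (by simp)
  map_mul' γ δ := Units.ext (by
    simp only [Units.val_mkOfMulEqOne, Units.val_mul, Subgroup.coe_mul,
      Matrix.SpecialLinearGroup.coe_mul, Matrix.mul_apply, Fin.sum_univ_two, Int.cast_add,
      Int.cast_mul]
    linear_combination (((γ : SL(2, ℤ)) 0 1 : ℤ) : ZMod L) * Gamma0_mem.mp δ.2)

@[simp] theorem coe_aUnit (γ : Gamma0 L) :
    (aUnit L γ : ZMod L) = (((γ : SL(2, ℤ)) 0 0 : ℤ) : ZMod L) := rfl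

variable {L} {R : Type*} [CommRing R]

/-- The coefficient character of `Γ₀(L)` attached to `χ`. -/
def gamChar (χ : (ZMod L)ˣ →* Rˣ) : Gamma0 L →* Rˣ := χ.comp (aUnit L)

theorem gamChar_apply (χ : (ZMod L)ˣ →* Rˣ) (γ : Gamma0 L) : gamChar χ γ = χ (aUnit L γ) := rfl

/-- An integral upper triangular matrix relation determines the top left entries mod `L`. -/
theorem mul_intCast_topLeft {A B : GL (Fin 2) ℝ} {a b : ℤ} (hA0 : A 0 0 = (a : ℝ))
    {a01 : ℤ} (hA1 : A 0 1 = (a01 : ℝ)) (hB0 : B 0 0 = (b : ℝ)) (hB1 : B 1 0 = 0)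
    {γ δ : Gamma0 L} (h : A * gamma0GL L γ = gamma0GL L δ * B) :
    (a : ZMod L) * (((γ : SL(2, ℤ)) 0 0 : ℤ) : ZMod L)
      = (((δ : SL(2, ℤ)) 0 0 : ℤ) : ZMod L) * (b : ZMod L) := by
  have h00 := congrArg (fun g : GL (Fin 2) ℝ => g 0 0) h
  simp only [Units.val_mul, Matrix.mul_apply, Fin.sum_univ_two, gamma0GL_apply, hA0, hA1, hB0,
    hB1, mul_zero, add_zero] at h00
  have hz : a * (γ : SL(2, ℤ)) 0 0 + a01 * (γ : SL(2, ℤ)) 1 0 = (δ : SL(2, ℤ)) 0 0 * b := by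
    exact_mod_cast h00
  have hz' := congrArg (Int.cast : ℤ → ZMod L) hz
  push_cast at hz'
  linear_combination hz' - (a01 : ZMod L) * Gamma0_mem.mp γ.2

variable {p : ℕ}

/-- The `T_p` weights of the representatives: `χ(p)⁻¹` on `diag(p,1)`, else `1`. -/
def hwT (χ : (ZMod L)ˣ →* Rˣ) (hpL : p.Coprime L) (x : OnePoint (ZMod p)) : Rˣ :=
  x.elim (χ (ZMod.unitOfCoprime p hpL))⁻¹ fun _ => 1

/-- The underlying units of the weights. -/
def repUnit (hpL : p.Coprime L) (x : OnePoint (ZMod p)) : (ZMod L)ˣ :=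
  x.elim (ZMod.unitOfCoprime p hpL) fun _ => 1

theorem hwT_eq (χ : (ZMod L)ˣ →* Rˣ) (hpL : p.Coprime L) (x : OnePoint (ZMod p)) :
    hwT χ hpL x = (χ (repUnit hpL x))⁻¹ := by
  induction x using OnePoint.rec with
  | infty => rfl
  | coe j => exact (show (χ 1)⁻¹ = 1 by rw [map_one, inv_one]).symm

theorem heckeRep_entries (hp : p ≠ 0) (hpL : p.Coprime L) (x : OnePoint (ZMod p)) :
    ∃ a b : ℤ, heckeRep p x 0 0 = (a : ℝ) ∧ heckeRep p x 0 1 = (b : ℝ) ∧
      heckeRep p x 1 0 = 0 ∧ ((a : ℤ) : ZMod L) = repUnit hpL x := by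
  induction x using OnePoint.rec with
  | infty =>
    refine ⟨p, 0, ?_, ?_, ?_, ?_⟩
    all_goals simp [heckeRep, repUnit, ModularForm.val_heckeDiagMatrix hp]
  | coe j =>
    refine ⟨1, (j.val : ℕ), ?_, ?_, ?_, ?_⟩
    all_goals simp [heckeRep, repUnit, ModularForm.val_heckeMatrix hp]

theorem aUnit_cocyc_T [Fact p.Prime] (hpN : ¬ p ∣ L) (hpL : p.Coprime L) (γ : Gamma0 L)
    (x : OnePoint (ZMod p)) :
    aUnit L ((repsT hpN).cocyc γ x) * repUnit hpL ((repsT hpN).perm γ x)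
      = repUnit hpL x * aUnit L γ := by
  have hp : p ≠ 0 := (Fact.out : p.Prime).ne_zero
  obtain ⟨a, a', ha, ha', -, haL⟩ := heckeRep_entries hp hpL x
  obtain ⟨b, b', hb, -, hb10, hbL⟩ := heckeRep_entries hp hpL ((repsT hpN).perm γ x)
  refine Units.ext ?_
  rw [Units.val_mul, Units.val_mul, ← hbL, ← haL]
  exact (mul_intCast_topLeft (A := (repsT hpN).rep x) ha ha' hb hb10
    ((repsT hpN).rep_mul γ x)).symm

theorem gamChar_cocyc_T [Fact p.Prime] (χ : (ZMod L)ˣ →* Rˣ) (hpN : ¬ p ∣ L) (hpL : p.Coprime L)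
    (γ : Gamma0 L) (x : OnePoint (ZMod p)) :
    hwT χ hpL x * gamChar χ ((repsT hpN).cocyc γ x)
      = gamChar χ γ * hwT χ hpL ((repsT hpN).perm γ x) := by
  have h := congrArg χ (aUnit_cocyc_T hpN hpL γ x)
  rw [map_mul, map_mul] at h
  rw [hwT_eq, hwT_eq, inv_mul_eq_iff_eq_mul, ← mul_assoc, eq_mul_inv_iff_mul_eq]
  exact h

theorem gamChar_cocyc_U [NeZero p] (χ : (ZMod L)ˣ →* Rˣ) (hpN : p ∣ L) (γ : Gamma0 L) (x : ZMod p) :
    gamChar χ ((repsU hpN).cocyc γ x) = gamChar χ γ := by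
  have hp : p ≠ 0 := NeZero.ne p
  rw [gamChar_apply, gamChar_apply]
  refine congrArg χ (Units.ext ?_)
  have h := mul_intCast_topLeft (A := (repsU hpN).rep x)
    (B := (repsU hpN).rep ((repsU hpN).perm γ x)) (a := 1) (b := 1) (a01 := (x.val : ℕ))
    (by simp [ModularForm.val_heckeMatrix hp]) (by simp [ModularForm.val_heckeMatrix hp])
    (by simp [ModularForm.val_heckeMatrix hp]) (by simp [ModularForm.val_heckeMatrix hp])
    ((repsU hpN).rep_mul γ x)
  simpa using h.symm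

end FLTA.RT
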