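import Fermat.Agent.RT.Diamond.TwistKeep
import Fermat.Agent.RT.CoeffPoints
import Fermat.Agent.RT.RaiseBottomRegular
import Mathlib.RingTheory.Localization.Integer

/-!
# Twisted classes at an integral point of the coefficient ring

For a point `φ : R → O` in a domain of characteristic zero and a non-Eisenstein factor, finitely
generated over `R`, the twisted classes map to parabolic homomorphisms with values in `O` of a
classical level `N`, the normalised operators at the good and the kept primes becoming the Hecke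
operators there.
-/

set_option autoImplicit false

noncomputable section

open CongruenceSubgroup ModularCurve.Period
open scoped MatrixGroups
open FLTA.Gamma0 (homRank homPar0 homPar0Equiv IsParHom0 homPar0_ext)

namespace FLTA.RT

open FLTA.Periods FLTA.LevelRaising

/-- `U_l` commutes with the passage to a point. -/
theorem ptMap_natHecke_dvd {L : ℕ} [NeZero L] {R K : Type} [CommRing R] [Field K] (φ : R →+* K)
    (χ : (ZMod L)ˣ →* Rˣ) {l : ℕ} (hl : l.Prime) (hlL : l ∣ L) (x : tH1 (gamChar χ) R) :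
    ptMap φ χ ((natHecke χ l).app R x) = (natHecke (charMap φ χ) l).app K (ptMap φ χ x) := by
  have : NeZero l := ⟨hl.ne_zero⟩
  obtain ⟨f, rfl⟩ := tClass_surjective (gamChar χ) x
  rw [natHecke_of_dvd χ hlL, natHecke_of_dvd _ hlL]
  show ptMap φ χ ((isWeight_U χ hlL).op R (tClass (gamChar χ) R f))
    = (isWeight_U (charMap φ χ) hlL).op K (ptMap φ χ (tClass (gamChar χ) R f))
  rw [IsWeight.op_class, ptMap_class, ptMap_class, IsWeight.op_class]
  refine congrArg _ (Subtype.ext (funext fun γ => ?_))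
  show φ _ = _
  simp only [IsWeight.opZ_apply, map_sum, smul_eq_mul, map_mul, Pi.one_apply, Units.val_one,
    map_one]
  rfl

variable {L : ℕ} [NeZero L] {R : Type} [CommRing R] {O : Type} [CommRing O] [IsDomain O]
  [CharZero O]

set_option maxHeartbeats 1000000 in
/-- **Coordinates of twisted classes at a point.** -/
theorem exists_pointHom {χ : (ZMod L)ˣ →* Rˣ} {e : NatEnd (gamChar χ)}
    [Module.Finite R (eImage e R)] (T Q₀ : Finset ℕ) (ε : ∀ r : ℕ, (ZMod r)ˣ →* Rˣ)
    (hdisj : Disjoint Q₀ T) (hQ : ∀ r ∈ Q₀ ∪ T, r.Prime ∧ r ∣ L ∧ ¬ r * r ∣ L)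
    (hεT : ∀ r ∈ T, ε r = 1) (hodd : ∀ r ∈ Q₀, ∀ u, ∃ n, Odd n ∧ ε r u ^ n = 1)
    (hχ : χ = sigProd L Q₀ ε) {l₀ : ℕ} (hl₀ : l₀.Prime) (hl₀L : ¬ l₀ ∣ L * ∏ r ∈ Q₀, r)
    (hl₀1 : (l₀ : ZMod (L * ∏ r ∈ Q₀, r)) = 1)
    (hfac : ∀ x, ∃ y, e.app R x = (natHecke χ l₀).app R y - ((l₀ : R) + 1) • y)
    (φ : R →+* O) :
    ∃ (N : ℕ) (_ : NeZero N), (∀ l : ℕ, l.Prime → l ∣ N → l ∣ L) ∧
      (∀ r ∈ T, r ∣ N ∧ ¬ r * r ∣ N) ∧ (l₀ : ZMod N) = 1 ∧
      ∃ U : eImage e R →+ homPar0 ℤ (Gamma0 N) O,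
        (∀ x, U x = 0 →
          ptMap ((algebraMap O (FractionRing O)).comp φ) χ (x : tH1 (gamChar χ) R) = 0) ∧
        (∀ l : ℕ, l.Prime → (¬ l ∣ L ∨ l ∈ T) → ∀ x x' : eImage e R,
          (x' : tH1 (gamChar χ) R) = (kap Q₀ ε l : R) • (natHecke χ l).app R x.1 →
            (U x').1 = heckeHom ℤ N l (U x).1) ∧
        ∀ x, ∃ z : Additive (Gamma0 N) →+ FractionRing O,
          (algebraMap O (FractionRing O)).toAddMonoidHom.comp (U x).1 =
            heckeHom (FractionRing O) N l₀ z - (l₀ + 1) • z := by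
  classical
  set K := FractionRing O
  set ι := algebraMap O K with hιdef
  have hι : Function.Injective ι := IsFractionRing.injective O K
  have : CharZero K := charZero_of_injective_algebraMap hι
  set ψ : R →+* K := ι.comp φ
  set εK : ∀ r : ℕ, (ZMod r)ˣ →* Kˣ := fun r => charMap ψ (ε r)
  have hεTK : ∀ r ∈ T, εK r = 1 := fun r hr => MonoidHom.ext fun v => by
    show Units.map (ψ : R →* K) (ε r v) = 1
    rw [hεT r hr, MonoidHom.one_apply, map_one]
  have hχK : charMap ψ χ = sigProd L (Q₀ ∪ T) εK := by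
    rw [hχ, charMap_sigProd]
    refine MonoidHom.ext fun y => ?_
    rw [sigProd_apply, sigProd_apply, Finset.prod_union hdisj,
      Finset.prod_eq_one (s := T) fun r hr => ?_, mul_one]
    rw [sigChar_of_dvd _ (hQ r (Finset.mem_union_right _ hr)).2.1, hεTK r hr, MonoidHom.one_apply,
      one_pow]
  obtain ⟨N, hN, P, hNP, hT, hNL, -, J, hJ, hJT⟩ :=
    exists_realisation_keep T Q₀ L εK hdisj hQ (fun r hr h => MonoidHom.ext fun v => by
      obtain ⟨n, ⟨k, rfl⟩, hn⟩ := hodd r hr v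
      have h1 : (εK r v) ^ (2 * k + 1) = 1 := by
        show Units.map (ψ : R →* K) (ε r v) ^ (2 * k + 1) = 1
        rw [← map_pow, hn, map_one]
      have h2 : εK r v ^ 2 = 1 := DFunLike.congr_fun h v
      rwa [pow_succ, pow_mul, h2, one_pow, one_mul] at h1)
      (charMap ψ χ) hχK
  have hNM : N ∣ L * ∏ r ∈ Q₀, r := ⟨P, hNP.symm⟩
  have hl₀N : ¬ l₀ ∣ N := fun h => hl₀L (h.trans hNM)
  have hl₀1N : (l₀ : ZMod N) = 1 := by
    have e1 := congrArg (ZMod.castHom hNM (ZMod N)) hl₀1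
    rwa [map_natCast, map_one] at e1
  have hone : sigProd N T εK = 1 := MonoidHom.ext fun y => by
    rw [sigProd_apply, MonoidHom.one_apply]
    refine Finset.prod_eq_one fun r hr => ?_
    rw [sigChar_of_dvd _ (hT r hr).1, hεTK r hr, MonoidHom.one_apply, one_pow]
  have htriv : ∀ γ (v : K), (gamChar (1 : (ZMod N)ˣ →* Kˣ) γ : K) • v = v := fun γ v => by
    rw [gamChar_apply, MonoidHom.one_apply, Units.val_one, one_smul]
  -- the homomorphism with values in the fraction field
  let H : tH1 (gamChar χ) R →+ (Additive (Gamma0 N) →+ K) :=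
    (((tH1EquivHom (V := K) htriv).toLinearMap.comp
      ((tH1Cast (V := K) hone).toLinearMap.comp J)).toAddMonoidHom).comp (ptMap ψ χ).toAddMonoidHom
  have hHsmul : ∀ (r : R) x, H (r • x) = ψ r • H x := fun r x => by
    simp only [H, AddMonoidHom.comp_apply, LinearMap.toAddMonoidHom_coe, LinearMap.map_smulₛₗ,
      map_smul, RingHom.id_apply]
  have hHT : ∀ l : ℕ, l.Prime → (¬ l ∣ L ∨ l ∈ T) → ∀ x,
      H ((kap Q₀ ε l : R) • (natHecke χ l).app R x) = heckeHom K N l (H x) := by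
    intro l hl hlL x
    have hpt : ptMap ψ χ ((natHecke χ l).app R x) =
        (natHecke (charMap ψ χ) l).app K (ptMap ψ χ x) := by
      rcases hlL with h | h
      · exact ptMap_natHecke ψ χ hl h x
      · exact ptMap_natHecke_dvd ψ χ hl (hQ l (Finset.mem_union_right _ h)).2.1 x
    simp only [H, AddMonoidHom.comp_apply, LinearMap.toAddMonoidHom_coe, LinearMap.map_smulₛₗ,
      LinearMap.comp_apply, LinearEquiv.coe_coe]
    have h := congrArg (tH1Cast (V := K) hone) (hJT l hl hlL (ptMap ψ χ x))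
    rw [map_smul, map_smul, tH1Cast_natHecke] at h
    have h' := congrArg (tH1EquivHom (V := K) htriv) h
    rw [map_smul, tH1EquivHom_natHecke _ htriv hl] at h'
    rw [hpt, RingHom.id_apply, ← coe_kap_charMap]
    exact h'
  have hHz : ∀ x : eImage e R, ∃ z, H x.1 = heckeHom K N l₀ z - (l₀ + 1) • z := by
    rintro ⟨x, hx⟩
    obtain ⟨w, hw⟩ := hx
    obtain ⟨y, hy⟩ := hfac w
    refine ⟨H y, ?_⟩
    change H x = _
    rw [← hw]
    have hk : kap Q₀ ε l₀ = 1 := by
      refine kap_eq_one ε (fun r hr => (hQ r (Finset.mem_union_left _ hr)).2.1) ?_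
      have e1 := congrArg (ZMod.castHom (dvd_mul_right L (∏ r ∈ Q₀, r)) (ZMod L)) hl₀1
      rwa [map_natCast, map_one] at e1
    have h := hHT l₀ hl₀ (Or.inl fun h => hl₀L (h.mul_right _)) y
    rw [hk, Units.val_one, one_smul] at h
    rw [hy, map_sub, hHsmul, h, map_add, map_natCast, map_one, ← Nat.cast_succ,
      Nat.cast_smul_eq_nsmul]
  have hHpar : ∀ x : eImage e R, IsParHom0 (Gamma0 N) (H x.1) := fun x => by
    obtain ⟨z, hz⟩ := hHz x
    have := Fact.mk hl₀
    refine isParHom0_of_isParabolicHom_domain (by norm_num) ?_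
    rw [hz]
    exact isParabolicHom_of_eisenstein K (fun c hc => by simpa using hc) hl₀N hl₀1N z
  -- a common denominator
  obtain ⟨s, hs⟩ := (Module.Finite.fg_top : (⊤ : Submodule R (eImage e R)).FG)
  obtain ⟨⟨c, hc⟩, hcint⟩ := IsLocalization.exist_integer_multiples (nonZeroDivisors O)
    (s ×ˢ (Finset.univ : Finset (Fin (homRank N))))
    fun xi => (homPar0Equiv N ℤ K ⟨H xi.1.1, hHpar xi.1⟩) xi.2
  have hint : ∀ (x : eImage e R) i, ∃ o : O, ι o = ι c * H x.1 (Additive.ofMul (Gamma0.parBasis N i)) := by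
    intro x i
    have hx : x ∈ Submodule.span R (s : Set (eImage e R)) := by rw [hs]; trivial
    induction hx using Submodule.span_induction with
    | mem y hy =>
      obtain ⟨o, ho⟩ := hcint (y, i) (Finset.mem_product.mpr ⟨hy, Finset.mem_univ i⟩)
      exact ⟨o, ho.trans (Algebra.smul_def _ _)⟩
    | zero => exact ⟨0, by simp⟩
    | add a b _ _ ha hb =>
      obtain ⟨o, ho⟩ := ha
      obtain ⟨o', ho'⟩ := hb
      exact ⟨o + o', by rw [map_add, ho, ho', Submodule.coe_add, map_add, AddMonoidHom.add_apply,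
        mul_add]⟩
    | smul r a _ ha =>
      obtain ⟨o, ho⟩ := ha
      refine ⟨φ r * o, ?_⟩
      rw [map_mul, ho, Submodule.coe_smul, hHsmul]
      show ι (φ r) * _ = ι c * (ψ r • _)
      rw [smul_eq_mul]
      show ι (φ r) * _ = ι c * (ι (φ r) * _)
      ring
  choose o ho using hint
  let u : eImage e R → homPar0 ℤ (Gamma0 N) O := fun x => (homPar0Equiv N ℤ O).symm (o x)
  have hu : ∀ x, ι.toAddMonoidHom.comp (u x).1 = ι c • H x.1 := fun x => by
    refine homPar0_ext N ((u x).2.comp ι.toAddMonoidHom) ?_ fun i => ?_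
    · exact (homPar0 K (Gamma0 N) K).smul_mem (ι c) (hHpar x)
    · show ι ((u x).1 (Additive.ofMul (Gamma0.parBasis N i))) = ι c • H x.1 _
      rw [← FLTA.Gamma0.homPar0Equiv_apply, LinearEquiv.apply_symm_apply, ho, smul_eq_mul]
  have hinj : ∀ v w : homPar0 ℤ (Gamma0 N) O,
      ι.toAddMonoidHom.comp v.1 = ι.toAddMonoidHom.comp w.1 → v = w := fun v w h =>
    Subtype.ext (AddMonoidHom.ext fun g => hι (DFunLike.congr_fun h g))
  refine ⟨N, hN, hNL, hT, hl₀1N, AddMonoidHom.mk' u fun x y => hinj _ _ ?_, fun x hx => ?_,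
    fun l hl hlL x x' hxx' => ?_, fun x => ?_⟩
  · rw [hu, Submodule.coe_add, map_add, smul_add, ← hu, ← hu, Submodule.coe_add,
      AddMonoidHom.comp_add]
  · have h := hu x
    rw [show u x = 0 from hx, ZeroMemClass.coe_zero, AddMonoidHom.comp_zero, eq_comm,
      smul_eq_zero] at h
    have h0 : H x.1 = 0 := h.resolve_left fun h0 =>
      nonZeroDivisors.ne_zero hc (hι (h0.trans (map_zero ι).symm))
    exact hJ ((tH1Cast (V := K) hone).injective ((tH1EquivHom (V := K) htriv).injective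
      (h0.trans (by simp))))
  · suffices h : ι.toAddMonoidHom.comp (u x').1 =
        ι.toAddMonoidHom.comp (heckeHom ℤ N l (u x).1) from
      AddMonoidHom.ext fun g => hι (DFunLike.congr_fun h g)
    rw [hu, hxx', hHT l hl hlL, ← heckeHom_comp, hu, heckeHom_eq_int K, ← heckeHom_eq_int K,
      ← map_smul, heckeHom_eq_int K]
  · obtain ⟨z, hz⟩ := hHz x
    refine ⟨ι c • z, ?_⟩
    show ι.toAddMonoidHom.comp (u x).1 = _
    rw [hu, hz, smul_sub, map_smul, smul_comm]

end FLTA.RT

end
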