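import Fermat.Agent.RT.ClassicalQuadratic
import Fermat.Agent.RT.ClassicalNewTrace
import Fermat.Agent.RT.CoeffPointCoords

/-!
# Hecke operators and traces of Frobenius on twisted level modules

An algebra with a representation acts on a non-Eisenstein factor of twisted classes through the
traces of Frobenius at the good primes. If the integral points of the coefficients separate, then
the normalised `T_q` at every prime `q ∤ p L` acts as the trace of Frobenius at `q`, and the square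
of the trace at a prime `q ∥ L` is `(q + 1) ^ 2` where the normalised `U_q` is an involution.
-/

set_option autoImplicit false

noncomputable section

open CongruenceSubgroup ModularCurve IsLocalRing
open scoped Matrix MatrixGroups
open FLTA.GaloisReps
open FLTA.Gamma0 (homRank homPar0 homPar0Equiv)

namespace FLTA.RT

open FLTA.Periods FLTA.LevelRaising

variable {p : ℕ} [Fact p.Prime] {L : ℕ} [NeZero L] {R : Type} [CommRing R]
  {χ : (ZMod L)ˣ →* Rˣ} {e : NatEnd (gamChar χ)} [Module.Finite R (eImage e R)]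
  {A : Type} [CommRing A] [IsLocalRing A] [IsNoetherianRing A]
  (α : A →+* Module.End R (eImage e R)) (ρ : GaloisRepAdic A)
  (hA : ∀ n, ∃ k : ℕ, maximalIdeal A ^ k ≤ Ideal.span {(p : A) ^ n})
  (Q₀ : Finset ℕ) (ε : ∀ r : ℕ, (ZMod r)ˣ →* Rˣ)
  (hQ : ∀ r ∈ Q₀, r.Prime ∧ r ∣ L ∧ ¬ r * r ∣ L)
  (hodd : ∀ r ∈ Q₀, ∀ u, ∃ n, Odd n ∧ ε r u ^ n = 1) (hχ : χ = sigProd L Q₀ ε)
  {l₀ : ℕ} (hl₀ : l₀.Prime) (hl₀L : ¬ l₀ ∣ L * ∏ r ∈ Q₀, r)
  (hl₀1 : (l₀ : ZMod (L * ∏ r ∈ Q₀, r)) = 1)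
  (hfac : ∀ x, ∃ y, e.app R x = (natHecke χ l₀).app R y - ((l₀ : R) + 1) • y)
  (hlift : HasLifts (gamChar χ)) (hidem : EqAtRing (e * e) e) (hkill : KillsObstruction e)
  {O : Type} [CommRing O] [IsDomain O] [CharZero O] [IsLocalRing O] [IsNoetherianRing O]
  [Algebra ℤ_[p] O] [Module.Free ℤ_[p] O] (hpO : (p : O) ∈ maximalIdeal O)
  {ι : Type} (pt : ι → R →+* O) (hsep : ∀ r : R, (∀ i, pt i r = 0) → r = 0)
  (S : Finset ℕ) (hpS : p ∈ S) (hLS : ∀ ℓ : ℕ, ℓ.Prime → ℓ ∣ L → ℓ ∈ S)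
  (hgood : ∀ ℓ : ℕ, ℓ.Prime → ℓ ∉ S → ∀ P : ValuationSubring (AlgebraicClosure ℚ),
    P.LiesOverPrime ℓ → ∀ τ : GalQ, P.IsFrobeniusAt τ ℓ → LinearMap.det (ρ.ρ τ) = (ℓ : A) ∧
      ∀ x : eImage e R, (α (ρ.trace τ) x : tH1 (gamChar χ) R) =
        (kap Q₀ ε ℓ : R) • (natHecke χ ℓ).app R x.1)

omit [Module.Finite R (eImage e R)] [IsLocalRing A] [IsNoetherianRing A] [IsLocalRing O]
  [IsNoetherianRing O] [Algebra ℤ_[p] O] [Module.Free ℤ_[p] O] in
include hlift hidem hkill hsep in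
/-- A class killed at all points vanishes. -/
theorem eq_zero_of_points (x : eImage e R)
    (h : ∀ i, ptMap ((algebraMap O (FractionRing O)).comp (pt i)) χ (x : tH1 (gamChar χ) R) = 0) :
    x = 0 :=
  eq_zero_of_ptMap hlift hidem hkill (fun i => (algebraMap O (FractionRing O)).comp (pt i))
    (fun r hr => hsep r fun i => IsFractionRing.injective O (FractionRing O)
      ((hr i).trans (map_zero _).symm)) x h

include hA hQ hodd hχ hl₀ hl₀L hl₀1 hfac hlift hidem hkill hpO hsep hpS hLS hgood in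
/-- **The normalised `T_q` is the trace of Frobenius.** -/
theorem heckeAct_eq_trace {q : ℕ} (hq : q.Prime) (hqL : ¬ q ∣ L) (hqp : q ≠ p)
    {P : ValuationSubring (AlgebraicClosure ℚ)} (hP : P.LiesOverPrime q) {τ : GalQ}
    (hτ : P.IsFrobeniusAt τ q) (hdet : LinearMap.det (ρ.ρ τ) = (q : A)) (x x' : eImage e R)
    (hx : (x' : tH1 (gamChar χ) R) = (kap Q₀ ε q : R) • (natHecke χ q).app R x.1) :
    α (ρ.trace τ) x = x' := by
  refine sub_eq_zero.mp (eq_zero_of_points hlift hidem hkill pt hsep _ fun i => ?_)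
  obtain ⟨N, hN, hNL, -, -, U, hU0, hUT, -⟩ := exists_pointHom (e := e) ∅ Q₀ ε
    (Finset.disjoint_empty_right _) (fun r hr => hQ r (by simpa using hr)) (by simp) hodd hχ hl₀
    hl₀L hl₀1 hfac (pt i)
  refine hU0 _ ?_
  rw [map_sub, sub_eq_zero]
  refine (homPar0Equiv N ℤ O).injective ?_
  let f : eImage e R →+ (Fin (homRank N) → O) :=
    (homPar0Equiv N ℤ O).toLinearMap.toAddMonoidHom.comp U
  have hmat : ∀ (ℓ : ℕ) (hℓ : ℓ.Prime) (hℓN : ¬ ℓ ∣ N) (y y' : eImage e R),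
      ¬ ℓ ∣ L → (y' : tH1 (gamChar χ) R) = (kap Q₀ ε ℓ : R) • (natHecke χ ℓ).app R y.1 →
      heckeMatR O N hℓ hℓN *ᵥ f y = f y' := fun ℓ hℓ hℓN y y' hℓL hy =>
    latMat_mulVec_heckeHom (heckeQuot_T_comp hℓ hℓN) (U y) (U y') (hUT ℓ hℓ (Or.inl hℓL) y y' hy)
  have hqN : ¬ q ∣ N := fun h => hqL (hNL q hq h)
  show f (α (ρ.trace τ) x) = f x'
  rw [← hmat q hq hqN x x' hqL hx]
  exact (heckeMatR_eq_trace α f ρ hpO hA S hpS (fun ℓ hℓ h => hLS ℓ hℓ (hNL ℓ hℓ h))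
    (fun ℓ hℓ hℓN hℓS P hP τ hτ => ⟨(hgood ℓ hℓ hℓS P hP τ hτ).1, fun y =>
      hmat ℓ hℓ hℓN y _ (fun h => hℓS (hLS ℓ hℓ h)) ((hgood ℓ hℓ hℓS P hP τ hτ).2 y)⟩)
    hq hqN hqp hP hτ hdet x).symm

include hA hQ hodd hχ hl₀ hl₀L hl₀1 hfac hlift hidem hkill hpO hsep hpS hLS hgood in
/-- **The square of the trace where the normalised `U_q` is an involution.** -/
theorem trace_sq_of_involution {q : ℕ} [hqf : Fact q.Prime] (hqQ : q ∉ Q₀) (hqL : q ∣ L)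
    (hqL2 : ¬ q * q ∣ L) (hεq : ε q = 1) (hqp : q ≠ p)
    {P : ValuationSubring (AlgebraicClosure ℚ)} (hP : P.LiesOverPrime q) {τ : GalQ}
    (hτ : P.IsFrobeniusAt τ q) (hdet : LinearMap.det (ρ.ρ τ) = (q : A)) (x x' : eImage e R)
    (hx : (x' : tH1 (gamChar χ) R) = (kap Q₀ ε q : R) • (natHecke χ q).app R x.1)
    (hx' : (x : tH1 (gamChar χ) R) = (kap Q₀ ε q : R) • (natHecke χ q).app R x'.1) :
    α (ρ.trace τ ^ 2 - ((q : A) + 1) ^ 2) x = 0 := by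
  have : NeZero q := ⟨hqf.out.ne_zero⟩
  refine eq_zero_of_points hlift hidem hkill pt hsep _ fun i => ?_
  obtain ⟨N, hN, hNL, hT, hl₀1N, U, hU0, hUT, hUz⟩ := exists_pointHom (e := e) {q} Q₀ ε
    (Finset.disjoint_singleton_right.mpr hqQ) (fun r hr => by
      rcases Finset.mem_union.mp hr with h | h
      · exact hQ r h
      · rw [Finset.mem_singleton.mp h]; exact ⟨hqf.out, hqL, hqL2⟩)
    (fun r hr => by rw [Finset.mem_singleton.mp hr]; exact hεq) hodd hχ hl₀ hl₀L hl₀1 hfac (pt i)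
  obtain ⟨hqN, hqN2⟩ := hT q (Finset.mem_singleton_self q)
  obtain ⟨M, rfl⟩ : ∃ M, N = M * q := ⟨N / q, (Nat.div_mul_cancel hqN).symm⟩
  have : NeZero M := ⟨fun h => hN.out (by rw [h, zero_mul])⟩
  have hqM : ¬ q ∣ M := fun h => hqN2 (Nat.mul_dvd_mul_right h q)
  refine hU0 _ ((homPar0Equiv (M * q) ℤ O).injective ?_)
  rw [map_zero]
  let f : eImage e R →+ (Fin (homRank (M * q)) → O) :=
    (homPar0Equiv (M * q) ℤ O).toLinearMap.toAddMonoidHom.comp U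
  refine trace_sq_sub_eq_zero α f ρ hpO hA S hpS (fun ℓ hℓ h => hLS ℓ hℓ (hNL ℓ hℓ h))
    (fun ℓ hℓ hℓN hℓS P hP τ hτ => ⟨(hgood ℓ hℓ hℓS P hP τ hτ).1, fun y =>
      latMat_mulVec_heckeHom (heckeQuot_T_comp hℓ hℓN) (U y) (U _)
        (hUT ℓ hℓ (Or.inl fun h => hℓS (hLS ℓ hℓ h)) y _ ((hgood ℓ hℓ hℓS P hP τ hτ).2 y))⟩)
    hdet x ?_
  obtain ⟨z, hz⟩ := hUz x
  have hl₀M : (l₀ : ZMod M) = 1 := by
    have e1 := congrArg (ZMod.castHom (dvd_mul_right M q) (ZMod M)) hl₀1N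
    rwa [map_natCast, map_one] at e1
  have hl₀q : l₀ ≠ q := fun h => hl₀L ((h ▸ hqL).mul_right _)
  refine quartic_of_sq_fixed (algebraMap O (FractionRing O)).toAddMonoidHom
    (IsFractionRing.injective O (FractionRing O)) hqM hqp hl₀
    (fun h => hl₀L ((hNL l₀ hl₀ (h.mul_right q)).mul_right _)) hl₀q hl₀M (U x).2 z hz ?_ hP hτ
  rw [← hUT q hqf.out (Or.inr (Finset.mem_singleton_self q)) x x' hx,
    ← hUT q hqf.out (Or.inr (Finset.mem_singleton_self q)) x' x hx']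

omit [IsLocalRing A] [IsNoetherianRing A] [IsLocalRing O] [IsNoetherianRing O]
  [Algebra ℤ_[p] O] [Module.Free ℤ_[p] O] in
include hQ hodd hχ hl₀ hl₀L hl₀1 hfac hlift hidem hkill hsep in
/-- **The Hecke bound**: the square of the normalised `T_q` is never `(q + 1) ^ 2`. -/
theorem eq_zero_of_heckeAct_sq {q : ℕ} (hq : q.Prime) (hqL : ¬ q ∣ L) (x x' x'' : eImage e R)
    (hx : (x' : tH1 (gamChar χ) R) = (kap Q₀ ε q : R) • (natHecke χ q).app R x.1)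
    (hx' : (x'' : tH1 (gamChar χ) R) = (kap Q₀ ε q : R) • (natHecke χ q).app R x'.1)
    (hsq : x'' = ((q + 1) ^ 2) • x) : x = 0 := by
  refine eq_zero_of_points hlift hidem hkill pt hsep _ fun i => ?_
  obtain ⟨N, hN, hNL, -, -, U, hU0, hUT, -⟩ := exists_pointHom (e := e) ∅ Q₀ ε
    (Finset.disjoint_empty_right _) (fun r hr => hQ r (by simpa using hr)) (by simp) hodd hχ hl₀
    hl₀L hl₀1 hfac (pt i)
  refine hU0 _ (Subtype.ext (eq_zero_of_heckeHom_sq hq (fun h => hqL (hNL q hq h)) (U x).2 ?_))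
  rw [heckeHom_eq_int O, heckeHom_eq_int O q (U x).1, ← hUT q hq (Or.inl hqL) x x' hx,
    ← hUT q hq (Or.inl hqL) x' x'' hx', hsq, map_nsmul, AddSubmonoidClass.coe_nsmul,
    ← Nat.cast_smul_eq_nsmul O, Nat.cast_pow, Nat.cast_succ]

end FLTA.RT

end
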