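import Mathlib.RingTheory.IntegralDomain
import Fermat.Agent.RT.CoeffTwistHecke

/-!
# Injectivity of the cohomological twist in characteristic zero
-/

set_option autoImplicit false

noncomputable section

universe u

namespace FLTA.RT

open CongruenceSubgroup FLTA.Periods FLTA.LevelRaising
open scoped MatrixGroups

section general

variable {Γ : Type*} [Group Γ] {K : Type u} [Field K] [CharZero K] {χ : Γ →* Kˣ}
  {V : Type u} [AddCommGroup V] [Module K V]

/-- A cocycle vanishing on a normal subgroup of finite index, on which `χ` is trivial, is a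
coboundary. -/
theorem exists_tDelta_of_vanish (H : Subgroup Γ) [H.Normal] [H.FiniteIndex]
    (f : tCocycles χ V) (hχ : ∀ h ∈ H, χ h = 1) (hf : ∀ h ∈ H, f.1 h = 0) :
    ∃ v, tDelta χ V v = f := by
  classical
  let Q := Γ ⧸ H
  haveI : Fintype Q := Fintype.ofFinite Q
  have hout : ∀ g : Γ, f.1 ((g : Q).out) = f.1 g := by
    intro g
    obtain ⟨h, hh⟩ := QuotientGroup.mk_out_eq_mul H g
    rw [hh, f.2, hf h.1 h.2, smul_zero, add_zero]
  let S : V := ∑ x : Q, f.1 x.out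
  have hS : ∀ g : Γ, (Fintype.card Q : K) • f.1 g = S - (χ g : K) • S := by
    intro g
    have h1 : ∑ x : Q, f.1 (g * x.out) = S := by
      rw [show S = ∑ x : Q, f.1 x.out from rfl,
        ← Equiv.sum_comp (Equiv.mulLeft (g : Q)) fun x : Q => f.1 x.out]
      refine Finset.sum_congr rfl fun x _ => ?_
      rw [Equiv.coe_mulLeft, ← hout (g * x.out), QuotientGroup.mk_mul, QuotientGroup.out_eq']
    simp only [f.2 g, Finset.sum_add_distrib, ← Finset.smul_sum, Finset.sum_const,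
      Finset.card_univ] at h1
    rw [eq_sub_iff_add_eq, Nat.cast_smul_eq_nsmul]
    exact h1
  have hn : (Fintype.card Q : K) ≠ 0 := Nat.cast_ne_zero.mpr Fintype.card_ne_zero
  refine ⟨-((Fintype.card Q : K)⁻¹ • S), Subtype.ext (funext fun g => ?_)⟩
  have h := congrArg (fun w => (Fintype.card Q : K)⁻¹ • w) (hS g)
  simp only [inv_smul_smul₀ hn] at h
  rw [tDelta_apply, h, smul_sub, smul_neg, smul_smul, smul_smul, mul_comm]
  abel

end general

section convolution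

variable {q : ℕ} [hq : Fact q.Prime] {K : Type u} [Field K] [CharZero K]
  {V : Type u} [AddCommGroup V] [Module K V]

/-- If all translates of `ψ` are orthogonal to a nontrivial character then `ψ` is constant. -/
theorem eq_zero_index_of_orthogonal (ε : (ZMod q)ˣ →* Kˣ) (hε : ε ≠ 1) (ψ : ZMod q → V)
    (h : ∀ s, ∑ u : (ZMod q)ˣ, (((ε u)⁻¹ : Kˣ) : K) • ψ ((u : ZMod q) + s) = 0) (s : ZMod q) :
    ψ s = ψ 0 := by
  classical
  have hsum : ∑ t : (ZMod q)ˣ, ((ε t : Kˣ) : K) = 0 :=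
    sum_hom_units_eq_zero ((Units.coeHom K).comp ε) fun h1 => hε <| by
      ext t
      exact congrArg (fun φ : (ZMod q)ˣ →* K => φ t) h1
  suffices H : ∀ φ : ZMod q → V,
      (∀ s, ∑ u : (ZMod q)ˣ, (((ε u)⁻¹ : Kˣ) : K) • φ ((u : ZMod q) + s) = 0) →
      (q : K) • φ 0 = ∑ x, φ x by
    have h0 := H ψ h
    have hs := H (fun x => ψ (x + s)) fun r => by
      have := h (r + s)
      simpa only [add_assoc] using this
    have e : ∑ x, ψ (x + s) = ∑ x, ψ x := Equiv.sum_comp (Equiv.addRight s) ψ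
    rw [e, ← h0, zero_add] at hs
    exact smul_right_injective V (Nat.cast_ne_zero.mpr hq.out.ne_zero : (q : K) ≠ 0) hs
  intro φ hφ
  have hT : ∑ u : (ZMod q)ˣ, ∑ t : (ZMod q)ˣ,
      ((ε t : Kˣ) : K) • φ ((u : ZMod q) * (1 - t)) = 0 := by
    have hz : ∑ r : (ZMod q)ˣ, ((ε (-r) : Kˣ) : K) •
        ∑ u : (ZMod q)ˣ, (((ε u)⁻¹ : Kˣ) : K) • φ ((u : ZMod q) + r) = 0 := by
      simp only [hφ, smul_zero, Finset.sum_const_zero]
    simp only [Finset.smul_sum, smul_smul] at hz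
    rw [Finset.sum_comm] at hz
    rw [← hz]
    refine Finset.sum_congr rfl fun u _ => ?_
    rw [← Equiv.sum_comp ((Equiv.mulLeft u).trans (Equiv.neg _)) fun r : (ZMod q)ˣ =>
      (((ε (-r) : Kˣ) : K) * (((ε u)⁻¹ : Kˣ) : K)) • φ ((u : ZMod q) + (r : ZMod q))]
    refine Finset.sum_congr rfl fun t _ => ?_
    simp only [Equiv.trans_apply, Equiv.neg_apply, Equiv.coe_mulLeft, neg_neg, map_mul,
      Units.val_neg, Units.val_mul]
    congr 1
    · rw [mul_comm (ε u : K), mul_assoc, Units.mul_inv, mul_one]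
    · congr 1; ring
  rw [Finset.sum_comm] at hT
  set S' := ∑ v : (ZMod q)ˣ, φ v with hS'
  have hinner : ∀ t : (ZMod q)ˣ, t ≠ 1 →
      ∑ u : (ZMod q)ˣ, ((ε t : Kˣ) : K) • φ ((u : ZMod q) * (1 - t)) = (ε t : K) • S' := by
    intro t ht
    have hne : (1 - (t : ZMod q)) ≠ 0 := sub_ne_zero.mpr fun h1 => ht (Units.ext h1.symm)
    rw [hS', Finset.smul_sum, ← Equiv.sum_comp (Equiv.mulRight (Units.mk0 _ hne))
      fun v : (ZMod q)ˣ => (ε t : K) • φ v]
    simp
  rw [← Finset.add_sum_erase _ _ (Finset.mem_univ (1 : (ZMod q)ˣ)),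
    Finset.sum_congr rfl fun t ht => hinner t (Finset.ne_of_mem_erase ht), ← Finset.sum_smul,
    Finset.sum_erase_eq_sub (Finset.mem_univ _), hsum] at hT
  simp only [map_one, Units.val_one, one_smul, sub_self, mul_zero, Finset.sum_const,
    Finset.card_univ, ZMod.card_units, zero_sub, neg_smul] at hT
  have hu : ∑ x, φ x = φ 0 + S' := by
    rw [← Finset.add_sum_erase _ _ (Finset.mem_univ (0 : ZMod q))]
    congr 1
    exact (Finset.sum_bij (fun (v : (ZMod q)ˣ) _ => (v : ZMod q))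
      (fun v _ => Finset.mem_erase.mpr ⟨v.ne_zero, Finset.mem_univ _⟩)
      (fun v _ w _ h => Units.ext h)
      (fun x hx => ⟨Units.mk0 x (Finset.ne_of_mem_erase hx), Finset.mem_univ _, rfl⟩)
      (fun _ _ => rfl)).symm
  rw [hu, ← sub_eq_zero, ← hT]
  have hq1 : (q : K) = ((q - 1 : ℕ) : K) + 1 := by
    rw [← Nat.cast_succ, Nat.succ_eq_add_one, Nat.sub_add_cancel hq.out.one_le]
  rw [hq1, add_smul, one_smul, Nat.cast_smul_eq_nsmul]
  abel

end convolution

variable {L L' q : ℕ} [hq : Fact q.Prime] {K : Type u} [Field K] [CharZero K]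
  {V : Type u} [AddCommGroup V] [Module K V]

/-- Lower unipotent matrices. -/
def lowerUni (k : ℤ) : SL(2, ℤ) := ⟨!![1, 0; k, 1], by simp [Matrix.det_fin_two_of]⟩

/-- Upper unipotent matrices. -/
def upperUni (k : ℤ) : SL(2, ℤ) := ⟨!![1, k; 0, 1], by simp [Matrix.det_fin_two_of]⟩

theorem upperUni_add (a b : ℤ) : upperUni (a + b) = upperUni a * upperUni b := by
  apply Subtype.ext
  simp [upperUni, Matrix.SpecialLinearGroup.coe_mul, Matrix.mul_fin_two, add_comm]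

theorem upperUni_zero : upperUni 0 = 1 := by
  apply Subtype.ext
  simp [upperUni, Matrix.one_fin_two]

theorem upperUni_inv (a : ℤ) : (upperUni a)⁻¹ = upperUni (-a) :=
  inv_eq_of_mul_eq_one_right (by rw [← upperUni_add, add_neg_cancel, upperUni_zero])

/-- The twist is injective in characteristic zero. -/
theorem twistH_injective (hL : L = L' * q) (hL0 : L' ≠ 0) (hcop : L'.Coprime q) (hqL : q ∣ L)
    (ε : (ZMod q)ˣ →* Kˣ) (hε : ε ≠ 1) (χ : (ZMod L)ˣ →* Kˣ) (χ' : (ZMod (L * q))ˣ →* Kˣ)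
    (hχ : ∀ γ, gamChar χ (inclHom L q γ) = gamChar χ' γ * ε (aMod L q γ) ^ 2)
    (x : (ZMod L)ˣ) (hx : ZMod.unitsMap (Dvd.intro q hL.symm) x = 1) (hχx : χ x ≠ 1) :
    Function.Injective (twistH (V := V) hqL ε χ χ' hχ) := by
  classical
  rw [injective_iff_map_eq_zero]
  intro c hc
  obtain ⟨f, rfl⟩ := tClass_surjective (gamChar χ) c
  rw [twistH_class, tClass_eq_zero_iff] at hc
  obtain ⟨v₀, hv₀⟩ := hc
  have hq0 : (q : ℤ) ≠ 0 := Int.natCast_ne_zero.mpr hq.out.ne_zero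
  have hqR : (q : ℝ) ≠ 0 := Nat.cast_ne_zero.mpr hq.out.ne_zero
  let P : SL(2, ℤ) → Prop := fun g => (q : ℤ) ∣ g 0 1 ∧ (L' : ℤ) ∣ g 1 0
  have down : ∀ g, P g → ∃ δ : Gamma0 L, (δ : SL(2, ℤ)) 0 0 = g 0 0 ∧
      (q : ℤ) * (δ : SL(2, ℤ)) 0 1 = g 0 1 ∧ (δ : SL(2, ℤ)) 1 0 = (q : ℤ) * g 1 0 ∧
      (δ : SL(2, ℤ)) 1 1 = g 1 1 := by
    rintro g ⟨⟨b, hb⟩, ⟨k, hk⟩⟩
    have hd := g.det_coe
    rw [Matrix.det_fin_two, hb] at hd
    refine ⟨⟨⟨!![g 0 0, b; (q : ℤ) * g 1 0, g 1 1], ?_⟩, mem_Gamma0_of_dvd ⟨k, ?_⟩⟩,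
      rfl, hb.symm, rfl, rfl⟩
    · rw [Matrix.det_fin_two_of]; linear_combination hd
    · show (q : ℤ) * g 1 0 = _
      rw [hk, hL]; push_cast; ring
  choose dn h00 h01 h10 h11 using down
  let F : SL(2, ℤ) → V := fun g => if h : P g then f.1 (dn g h) else 0
  have hFeq : ∀ g (h : P g), F g = f.1 (dn g h) := fun g h => dif_pos h
  have hdn : ∀ g (h : P g) (δ : Gamma0 L), (δ : SL(2, ℤ)) 0 0 = g 0 0 →
      (q : ℤ) * (δ : SL(2, ℤ)) 0 1 = g 0 1 → (δ : SL(2, ℤ)) 1 0 = (q : ℤ) * g 1 0 →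
      (δ : SL(2, ℤ)) 1 1 = g 1 1 → dn g h = δ := by
    intro g h δ e00 e01 e10 e11
    apply Subtype.ext
    apply Subtype.ext
    ext i j
    fin_cases i <;> fin_cases j
    · exact (h00 g h).trans e00.symm
    · exact mul_left_cancel₀ hq0 ((h01 g h).trans e01.symm)
    · exact (h10 g h).trans e10.symm
    · exact (h11 g h).trans e11.symm
  have hmulP : ∀ g h, P g → P h → P (g * h) := by
    rintro g h ⟨hg1, hg2⟩ ⟨hh1, hh2⟩
    simp only [P, Matrix.SpecialLinearGroup.coe_mul, Matrix.mul_apply, Fin.sum_univ_two]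
    exact ⟨dvd_add (dvd_mul_of_dvd_right hh1 _) (dvd_mul_of_dvd_left hg1 _),
      dvd_add (dvd_mul_of_dvd_left hg2 _) (dvd_mul_of_dvd_right hh2 _)⟩
  let aL : SL(2, ℤ) → K := fun g => if h : P g then (gamChar χ (dn g h) : K) else 0
  have hFmul : ∀ g h, P g → P h → F (g * h) = F g + aL g • F h := by
    intro g h hg hh
    have e : dn (g * h) (hmulP g h hg hh) = dn g hg * dn h hh := by
      refine hdn _ _ _ ?_ ?_ ?_ ?_ <;>
        simp only [Subgroup.coe_mul, Matrix.SpecialLinearGroup.coe_mul, Matrix.mul_apply,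
          Fin.sum_univ_two, h00, h10, h11]
      · linear_combination (h 1 0) * h01 g hg
      · linear_combination (g 0 0) * h01 h hh + (h 1 1) * h01 g hg
      · ring
      · linear_combination (g 1 0) * h01 h hh
    rw [hFeq _ (hmulP g h hg hh), e, f.2, hFeq g hg, hFeq h hh]
    simp only [aL, dif_pos hg]
  let M : ℕ := L * q
  have hLdvd : (L' : ℤ) ∣ (M : ℤ) := ⟨(q : ℤ) * q, by simp [M, hL]; ring⟩
  have hqdvd : (q : ℤ) ∣ (M : ℤ) := ⟨L, by simp [M]; ring⟩
  have hGamma : ∀ g ∈ CongruenceSubgroup.Gamma M,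
      (M : ℤ) ∣ g 0 0 - 1 ∧ (M : ℤ) ∣ g 0 1 ∧ (M : ℤ) ∣ g 1 0 := by
    intro g hg
    rw [Gamma_mem] at hg
    obtain ⟨h1, h2, h3, -⟩ := hg
    refine ⟨?_, (ZMod.intCast_zmod_eq_zero_iff_dvd _ _).mp h2,
      (ZMod.intCast_zmod_eq_zero_iff_dvd _ _).mp h3⟩
    rw [← ZMod.intCast_zmod_eq_zero_iff_dvd]
    push_cast
    rw [h1, sub_self]
  have hGP : ∀ g ∈ CongruenceSubgroup.Gamma M, P g := fun g hg =>
    ⟨hqdvd.trans (hGamma g hg).2.1, hLdvd.trans (hGamma g hg).2.2⟩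
  have hχone : ∀ g (h : P g), (L : ℤ) ∣ g 0 0 - 1 → gamChar χ (dn g h) = 1 := by
    intro g h hg
    rw [gamChar_apply]
    have : aUnit L (dn g h) = 1 := Units.ext (by
      rw [coe_aUnit, h00, Units.val_one, ← sub_eq_zero]
      have := (ZMod.intCast_zmod_eq_zero_iff_dvd _ _).mpr hg
      push_cast at this
      exact this)
    rw [this, map_one]
  have hGone : ∀ g ∈ CongruenceSubgroup.Gamma M, aL g = 1 := fun g hg => by
    simp only [aL, dif_pos (hGP g hg)]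
    rw [hχone g (hGP g hg) ((Int.natCast_dvd_natCast.mpr ⟨q, rfl⟩).trans (hGamma g hg).1),
      Units.val_one]
  have hnormal : ∀ h, ∀ g ∈ CongruenceSubgroup.Gamma M,
      h * g * h⁻¹ ∈ CongruenceSubgroup.Gamma M := fun h g hg =>
    (CongruenceSubgroup.Gamma_normal M).conj_mem g hg h
  have hconj : ∀ h, P h → ∀ g ∈ CongruenceSubgroup.Gamma M, F (h * g * h⁻¹) = aL h • F g := by
    intro h hh g hg
    have h1 := hFmul (h * g * h⁻¹) h (hGP _ (hnormal h g hg)) hh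
    rw [inv_mul_cancel_right, hFmul h g hh (hGP g hg), hGone _ (hnormal h g hg), one_smul,
      add_comm] at h1
    exact (add_right_cancel h1).symm
  have hinvP : ∀ h, P h → aL h = 1 → ∀ g ∈ CongruenceSubgroup.Gamma M, F (h * g * h⁻¹) = F g :=
    fun h hh h1 g hg => by rw [hconj h hh g hg, h1, one_smul]
  have hper : ∀ k : ℤ, P (upperUni (k * q)) ∧ aL (upperUni (k * q)) = 1 := by
    intro k
    have hP : P (upperUni (k * q)) := ⟨by simp [upperUni], by simp [upperUni]⟩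
    refine ⟨hP, ?_⟩
    simp only [aL, dif_pos hP]
    rw [hχone _ hP (by simp [upperUni]), Units.val_one]
  have hid : ∀ g ∈ CongruenceSubgroup.Gamma M,
      ∑ w : (ZMod q)ˣ, (((ε w)⁻¹ : Kˣ) : K) •
        F (upperUni ((w : ZMod q).val : ℤ) * g * (upperUni ((w : ZMod q).val : ℤ))⁻¹) = 0 := by
    intro g hg
    obtain ⟨hMa, -, hMc⟩ := hGamma g hg
    have hP := hGP g hg
    have hmem : ((dn g hP : Gamma0 L) : SL(2, ℤ)) ∈ Gamma0 (L * q) :=
      mem_Gamma0_of_dvd (by rw [h10]; exact dvd_mul_of_dvd_right hMc _)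
    let γ : Gamma0 (L * q) := ⟨_, hmem⟩
    have haU : aUnit (L * q) γ = 1 := Units.ext (by
      rw [coe_aUnit, Units.val_one]
      show (((dn g hP : SL(2, ℤ)) 0 0 : ℤ) : ZMod (L * q)) = 1
      rw [h00, ← sub_eq_zero]
      have := (ZMod.intCast_zmod_eq_zero_iff_dvd _ _).mpr hMa
      push_cast at this
      exact this)
    have haM : aMod L q γ = 1 := by rw [aMod, MonoidHom.comp_apply, haU, map_one]
    have hR : (twistZ hqL ε χ χ' hχ f).1 γ = 0 := by
      rw [← hv₀, tDelta_apply, gamChar_apply, haU, map_one, Units.val_one, one_smul, sub_self]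
    rw [twistZ_apply] at hR
    rw [← hR]
    refine Finset.sum_congr rfl fun w _ => ?_
    congr 1
    have hw : twistPerm γ w = w := by rw [twistPerm, haM, inv_one, one_pow, mul_one]
    set i : ℤ := ((w : ZMod q).val : ℤ)
    have hgi := hGP _ (hnormal (upperUni i) g hg)
    rw [hFeq _ hgi]
    refine congrArg f.1 (twistCocyc_eq hqL γ w ?_).symm
    rw [hw]
    ext r s
    have e01 : ((q : ℝ)) * (((dn g hP : SL(2, ℤ)) 0 1 : ℤ) : ℝ) = ((g 0 1 : ℤ) : ℝ) := by
      exact_mod_cast h01 g hP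
    have f01 : ((q : ℝ)) * (((dn _ hgi : SL(2, ℤ)) 0 1 : ℤ) : ℝ)
        = (((upperUni i * g * (upperUni i)⁻¹ : SL(2, ℤ)) 0 1 : ℤ) : ℝ) := by
      exact_mod_cast h01 _ hgi
    have eg : (upperUni i * g * (upperUni i)⁻¹ : SL(2, ℤ)) 0 1
        = (upperUni i * g * upperUni (-i) : SL(2, ℤ)) 0 1 := by rw [upperUni_inv]
    rw [eg] at f01
    simp only [Matrix.SpecialLinearGroup.coe_mul, upperUni, Matrix.mul_apply, Fin.sum_univ_two]
      at f01
    push_cast at f01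
    simp [Matrix.vecMul, dotProduct, Fin.sum_univ_two, -ZMod.natCast_val] at f01
    fin_cases r <;> fin_cases s <;>
      simp [γ, Matrix.mul_apply, Matrix.vecMul, dotProduct, Fin.sum_univ_two, h00, h10, h11,
        upperUni_inv, upperUni, i, -ZMod.natCast_val] at f01 ⊢
    all_goals field_simp
    all_goals first | ring1 | linear_combination e01 - f01 | linear_combination f01 - e01
  have hTinv : ∀ g ∈ CongruenceSubgroup.Gamma M, ∀ k : ℤ,
      F (upperUni k * g * (upperUni k)⁻¹) = F g := by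
    intro g hg k
    let ψ : ZMod q → V := fun s =>
      F (upperUni (s.val : ℤ) * g * (upperUni (s.val : ℤ))⁻¹)
    have hψ : ∀ k : ℤ, F (upperUni k * g * (upperUni k)⁻¹) = ψ k := by
      intro k
      obtain ⟨m, hm⟩ : (q : ℤ) ∣ k - ((k : ZMod q).val : ℤ) := by
        rw [← ZMod.intCast_zmod_eq_zero_iff_dvd]; simp
      have hk : k = m * q + ((k : ZMod q).val : ℤ) := by linarith
      conv_lhs => rw [hk, upperUni_add, mul_inv_rev, mul_assoc (upperUni (m * q)),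
        ← mul_assoc, mul_assoc (upperUni (m * q))]
      exact hinvP _ (hper m).1 (hper m).2 _ (hnormal _ g hg)
    have horth : ∀ s, ∑ w : (ZMod q)ˣ, (((ε w)⁻¹ : Kˣ) : K) • ψ ((w : ZMod q) + s) = 0 := by
      intro s
      rw [← hid _ (hnormal (upperUni (s.val : ℤ)) g hg)]
      refine Finset.sum_congr rfl fun w _ => ?_
      congr 1
      rw [show (w : ZMod q) + s = (((w : ZMod q).val : ℤ) + (s.val : ℤ) : ℤ) by simp, ← hψ,
        upperUni_add, mul_inv_rev]
      simp only [mul_assoc]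
    rw [hψ, eq_zero_index_of_orthogonal ε hε ψ horth]
    simp [ψ, upperUni_zero]
  let Inv : SL(2, ℤ) → Prop := fun h =>
    ∀ g ∈ CongruenceSubgroup.Gamma M, F (h * g * h⁻¹) = F g
  have hImul : ∀ h h', Inv h → Inv h' → Inv (h * h') := fun h h' hh hh' g hg => by
    rw [mul_inv_rev, ← hh' g hg, ← hh (h' * g * h'⁻¹) (hnormal h' g hg)]
    simp only [mul_assoc]
  have hIlow : ∀ k : ℤ, (L' : ℤ) ∣ k → Inv (lowerUni k) := by
    intro k hk
    have hP : P (lowerUni k) := ⟨by simp [lowerUni], by simpa [lowerUni] using hk⟩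
    refine hinvP _ hP ?_
    simp only [aL, dif_pos hP]
    rw [hχone _ hP (by simp [lowerUni]), Units.val_one]
  have hcrt : ∀ r : ZMod q, ∃ k : ℤ, (L' : ℤ) ∣ k ∧ ((k : ℤ) : ZMod q) = r := by
    intro r
    have hu : IsUnit ((L' : ℕ) : ZMod q) := (ZMod.isUnit_iff_coprime _ _).mpr hcop
    refine ⟨(L' : ℤ) * (((hu.unit⁻¹ : (ZMod q)ˣ) : ZMod q) * r).val, dvd_mul_right _ _, ?_⟩
    push_cast
    rw [ZMod.natCast_zmod_val, ← mul_assoc, IsUnit.unit_spec, mul_inv_cancel₀ hu.ne_zero, one_mul]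
  set α : ℤ := ((x : ZMod L).val : ℤ) with hα
  haveI : NeZero L := ⟨hL ▸ Nat.mul_ne_zero hL0 hq.out.ne_zero⟩
  have hαL : ((α : ℤ) : ZMod L) = x := by simp [hα]
  have hαL' : ((α : ℤ) : ZMod L') = 1 := by
    have h := congrArg Units.val hx
    rw [ZMod.unitsMap_def, Units.coe_map, Units.val_one, ← hαL] at h
    simpa using h
  have hαq : IsUnit ((α : ℤ) : ZMod q) := by
    have h : IsUnit ((ZMod.castHom hqL (ZMod q)) (x : ZMod L)) := x.isUnit.map _
    rwa [← hαL, map_intCast] at h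
  obtain ⟨k₁, hk₁, hk₁q⟩ := hcrt (-((hαq.unit⁻¹ : (ZMod q)ˣ) : ZMod q))
  obtain ⟨k₂, hk₂, hk₂q⟩ := hcrt 1
  set g₀ := upperUni α * lowerUni k₁ * upperUni (α - 1) * lowerUni k₂ * upperUni (-1) with hg₀
  have hI₀ : Inv g₀ := hImul _ _ (hImul _ _ (hImul _ _ (hImul _ _ (fun g hg => hTinv g hg α)
    (hIlow k₁ hk₁)) fun g hg => hTinv g hg _) (hIlow k₂ hk₂)) fun g hg => hTinv g hg _
  have e00 : g₀ 0 0 = (1 + α * k₁) * (1 + (α - 1) * k₂) + α * k₂ := by
    simp [hg₀, upperUni, lowerUni, Matrix.SpecialLinearGroup.coe_mul, Matrix.mul_fin_two]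
    ring
  have e01 : g₀ 0 1 = -((1 + α * k₁) * (1 + (α - 1) * k₂) + α * k₂)
      + (1 + α * k₁) * (α - 1) + α := by
    simp [hg₀, upperUni, lowerUni, Matrix.SpecialLinearGroup.coe_mul, Matrix.mul_fin_two]
    ring
  have e10 : g₀ 1 0 = k₁ * (1 + (α - 1) * k₂) + k₂ := by
    simp [hg₀, upperUni, lowerUni, Matrix.SpecialLinearGroup.coe_mul, Matrix.mul_fin_two]
    ring
  have hα1 : ((α : ℤ) : ZMod q) * ((hαq.unit⁻¹ : (ZMod q)ˣ) : ZMod q) = 1 := hαq.mul_val_inv
  have hP₀ : P g₀ := by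
    refine ⟨?_, ?_⟩
    · rw [e01, ← ZMod.intCast_zmod_eq_zero_iff_dvd]
      push_cast
      rw [hk₁q, hk₂q]
      linear_combination hα1
    · rw [e10]
      exact dvd_add (dvd_mul_of_dvd_left hk₁ _) hk₂
  have haU₀ : aUnit L (dn g₀ hP₀) = x := by
    refine Units.ext ?_
    rw [coe_aUnit, h00, ← hαL, ← sub_eq_zero, ← Int.cast_sub, ZMod.intCast_zmod_eq_zero_iff_dvd,
      hL]
    push_cast
    have hcop' : IsCoprime (L' : ℤ) (q : ℤ) := Int.isCoprime_iff_nat_coprime.mpr hcop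
    refine hcop'.mul_dvd ?_ ?_
    · rw [← ZMod.intCast_zmod_eq_zero_iff_dvd, e00]
      push_cast
      rw [hαL', (ZMod.intCast_zmod_eq_zero_iff_dvd k₁ L').mpr hk₁,
        (ZMod.intCast_zmod_eq_zero_iff_dvd k₂ L').mpr hk₂]
      ring
    · rw [← ZMod.intCast_zmod_eq_zero_iff_dvd, e00]
      push_cast
      rw [hk₁q, hk₂q]
      linear_combination -((α : ℤ) : ZMod q) * hα1
  have hF0 : ∀ g ∈ CongruenceSubgroup.Gamma M, F g = 0 := by
    intro g hg
    have h := hconj g₀ hP₀ g hg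
    rw [hI₀ g hg] at h
    simp only [aL, dif_pos hP₀, gamChar_apply, haU₀] at h
    have h' : ((χ x : K) - 1) • F g = 0 := by rw [sub_smul, one_smul, ← h, sub_self]
    exact (smul_eq_zero.mp h').resolve_left (sub_ne_zero.mpr fun e => hχx (Units.ext e))
  haveI : NeZero (M * q) :=
    ⟨Nat.mul_ne_zero (Nat.mul_ne_zero (NeZero.ne L) hq.out.ne_zero) hq.out.ne_zero⟩
  rw [tClass_eq_zero_iff]
  let H : Subgroup (Gamma0 L) := (CongruenceSubgroup.Gamma (M * q)).subgroupOf (Gamma0 L)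
  haveI : H.Normal := (CongruenceSubgroup.Gamma_normal (M * q)).subgroupOf _
  haveI : H.FiniteIndex := inferInstance
  have hmemH : ∀ h ∈ H, ((M : ℤ) * q) ∣ (h : SL(2, ℤ)) 0 0 - 1 ∧
      ((M : ℤ) * q) ∣ (h : SL(2, ℤ)) 1 0 := by
    intro h hh
    rw [Subgroup.mem_subgroupOf, Gamma_mem] at hh
    obtain ⟨h1, -, h3, -⟩ := hh
    have e3 := (ZMod.intCast_zmod_eq_zero_iff_dvd _ _).mp h3
    push_cast at e3
    refine ⟨?_, e3⟩
    have e1 : ((((h : SL(2, ℤ)) 0 0 - 1 : ℤ)) : ZMod (M * q)) = 0 := by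
      push_cast; rw [h1, sub_self]
    exact_mod_cast (ZMod.intCast_zmod_eq_zero_iff_dvd _ _).mp e1
  refine exists_tDelta_of_vanish H f (fun h hh => ?_) fun h hh => ?_
  · have e : aUnit L h = 1 := Units.ext (by
      rw [coe_aUnit, Units.val_one, ← sub_eq_zero]
      have hd : (L : ℤ) ∣ (h : SL(2, ℤ)) 0 0 - 1 :=
        (dvd_mul_of_dvd_left ⟨(q : ℤ), by simp [M]⟩ _).trans (hmemH h hh).1
      have := (ZMod.intCast_zmod_eq_zero_iff_dvd _ _).mpr hd
      push_cast at this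
      exact this)
    rw [gamChar_apply, e, map_one]
  · obtain ⟨ha, k, hk⟩ := hmemH h hh
    rw [Subgroup.mem_subgroupOf, Gamma_mem] at hh
    obtain ⟨-, h2, -, h4⟩ := hh
    let g : SL(2, ℤ) := ⟨!![(h : SL(2, ℤ)) 0 0, (q : ℤ) * (h : SL(2, ℤ)) 0 1; (M : ℤ) * k,
      (h : SL(2, ℤ)) 1 1], by
        rw [Matrix.det_fin_two_of]
        have hd := (h : SL(2, ℤ)).det_coe
        rw [Matrix.det_fin_two, hk] at hd
        linear_combination hd⟩
    have hcast : ∀ z : ℤ, ((M * q : ℕ) : ℤ) ∣ z → ((z : ℤ) : ZMod M) = 0 := fun z hz =>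
      (ZMod.intCast_zmod_eq_zero_iff_dvd _ _).mpr
        ((Int.natCast_dvd_natCast.mpr (dvd_mul_right M q)).trans hz)
    have hg : g ∈ CongruenceSubgroup.Gamma M := by
      rw [Gamma_mem]
      refine ⟨?_, ?_, ?_, ?_⟩
      · have := hcast _ (by exact_mod_cast ha)
        push_cast at this
        exact sub_eq_zero.mp this
      · show (((q : ℤ) * (h : SL(2, ℤ)) 0 1 : ℤ) : ZMod M) = 0
        exact hcast _ (dvd_mul_of_dvd_right ((ZMod.intCast_zmod_eq_zero_iff_dvd _ _).mp h2) _)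
      · show (((M : ℤ) * k : ℤ) : ZMod M) = 0
        simp
      · show (((h : SL(2, ℤ)) 1 1 : ℤ) : ZMod M) = 1
        have h4' : ((((h : SL(2, ℤ)) 1 1 - 1 : ℤ)) : ZMod (M * q)) = 0 := by
          push_cast; rw [h4, sub_self]
        have := hcast _ ((ZMod.intCast_zmod_eq_zero_iff_dvd _ _).mp h4')
        push_cast at this
        exact sub_eq_zero.mp this
    have := hF0 g hg
    rw [hFeq g (hGP g hg), hdn g (hGP g hg) h rfl rfl
      (by show _ = (q : ℤ) * ((M : ℤ) * k); rw [hk]; ring) rfl] at this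
    exact this

end FLTA.RT
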