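import Mathlib.RingTheory.Valuation.ValuationSubring
import Mathlib.Tactic.LinearCombination
import Mathlib.Data.Fin.VecNotation

/-!
# The cone of pairs (nilpotent, Frobenius) with an eigen line

Trace-free matrices are given by triples `a ↦ [[a₂, 2a₀], [2a₁, -a₂]]` (twice the matrix).  A cone
point is a pair with `M(v)` nilpotent, `M(w)² = π²` and `M(w) M(v) = π M(v)`; it has an eigen
line, which in a valuation ring is spanned by some `(1 + u b, b)`, and is then parametrised.
-/

set_option autoImplicit false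

noncomputable section

namespace FLTA.RT.Component

variable {R : Type} [CommRing R]

/-- The equations of the cone. -/
structure IsConePoint (π : R) (v w : Fin 3 → R) : Prop where
  nilp : v 2 ^ 2 + 4 * v 0 * v 1 = 0
  frob : w 2 ^ 2 + 4 * w 0 * w 1 = π ^ 2
  eigen00 : w 2 * v 2 + 4 * w 0 * v 1 = π * v 2
  eigen01 : 2 * (w 2 * v 0 - w 0 * v 2) = 2 * π * v 0
  eigen10 : 2 * (w 1 * v 2 - w 2 * v 1) = 2 * π * v 1
  eigen11 : 4 * w 1 * v 0 + w 2 * v 2 = -(π * v 2)

/-- A ring map preserves cone points. -/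
theorem IsConePoint.map {S : Type} [CommRing S] (f : R →+* S) {π : R} {v w : Fin 3 → R}
    (h : IsConePoint π v w) : IsConePoint (f π) (fun j => f (v j)) fun j => f (w j) := by
  refine ⟨?_, ?_, ?_, ?_, ?_, ?_⟩
  · simpa [map_ofNat] using congrArg f h.nilp
  · simpa [map_ofNat] using congrArg f h.frob
  · simpa [map_ofNat] using congrArg f h.eigen00
  · simpa [map_ofNat] using congrArg f h.eigen01
  · simpa [map_ofNat] using congrArg f h.eigen10
  · simpa [map_ofNat] using congrArg f h.eigen11

/-- An injective ring map reflects cone points. -/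
theorem IsConePoint.of_map {S : Type} [CommRing S] (f : R →+* S) (hf : Function.Injective f)
    {π : R} {v w : Fin 3 → R}
    (h : IsConePoint (f π) (fun j => f (v j)) fun j => f (w j)) : IsConePoint π v w := by
  refine ⟨hf ?_, hf ?_, hf ?_, hf ?_, hf ?_, hf ?_⟩
  · simpa [map_ofNat] using h.nilp
  · simpa [map_ofNat] using h.frob
  · simpa [map_ofNat] using h.eigen00
  · simpa [map_ofNat] using h.eigen01
  · simpa [map_ofNat] using h.eigen10
  · simpa [map_ofNat] using h.eigen11

/-- The inertia triple with parameters `u, b, s`. -/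
def coneV (u b s : R) : Fin 3 → R :=
  ![s * (1 + u * b) ^ 2, -(s * b ^ 2), -(2 * s * (1 + u * b) * b)]

/-- The Frobenius triple with parameters `u, b, r`. -/
def coneW (π u b r : R) : Fin 3 → R :=
  ![-(π * (1 + u * b) * u) + r * (1 + u * b) ^ 2, π * b - r * b ^ 2,
    π * (2 * (1 + u * b) - 1) - 2 * r * (1 + u * b) * b]

theorem isConePoint_cone (π u b s r : R) : IsConePoint π (coneV u b s) (coneW π u b r) := by
  constructor <;> simp [coneV, coneW] <;> ring

theorem map_coneV {S : Type} [CommRing S] (f : R →+* S) (u b s : R) (j : Fin 3) :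
    f (coneV u b s j) = coneV (f u) (f b) (f s) j := by
  fin_cases j <;> simp [coneV, map_ofNat]

theorem map_coneW {S : Type} [CommRing S] (f : R →+* S) (π u b r : R) (j : Fin 3) :
    f (coneW π u b r j) = coneW (f π) (f u) (f b) (f r) j := by
  fin_cases j <;> simp [coneW, map_ofNat]

/-- The line spanned by `(1 + u b, b)` is killed by `M(v)` and is the `π`-eigen line of `M(w)`. -/
structure IsEigenLine (π u b : R) (v w : Fin 3 → R) : Prop where
  v0 : v 2 * (1 + u * b) + 2 * v 0 * b = 0
  v1 : 2 * v 1 * (1 + u * b) - v 2 * b = 0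
  w0 : w 2 * (1 + u * b) + 2 * w 0 * b = π * (1 + u * b)
  w1 : 2 * w 1 * (1 + u * b) - w 2 * b = π * b

theorem IsEigenLine.of_map {S : Type} [CommRing S] (f : R →+* S) (hf : Function.Injective f)
    {π u b : R} {v w : Fin 3 → R}
    (h : IsEigenLine (f π) (f u) (f b) (fun j => f (v j)) fun j => f (w j)) :
    IsEigenLine π u b v w := by
  refine ⟨hf ?_, hf ?_, hf ?_, hf ?_⟩
  · simpa [map_ofNat] using h.v0
  · simpa [map_ofNat] using h.v1
  · simpa [map_ofNat] using h.w0
  · simpa [map_ofNat] using h.w1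

/-- A triple killing the line `(1 + u b, b)` has one parameter. -/
theorem triple_eq [IsDomain R] (h2 : (2 : R) ≠ 0) (u b : R) (a : Fin 3 → R)
    (h0 : a 2 * (1 + u * b) + 2 * a 0 * b = 0) (h1 : 2 * a 1 * (1 + u * b) - a 2 * b = 0) :
    a = coneV u b (a 0 + u * a 2 - u ^ 2 * a 1) := by
  funext j
  apply mul_left_cancel₀ h2
  fin_cases j <;>
    simp only [coneV, Fin.zero_eta, Fin.mk_one, Fin.reduceFinMk, Matrix.cons_val]
  · linear_combination -(2 * u * (1 + u * b) - u ^ 2 * b) * h0 + u ^ 2 * (1 + u * b) * h1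
  · linear_combination b * h0 + (1 + u * b - 2 * u * b) * h1
  · linear_combination 2 * (1 + u * b) * h0 - 2 * u ^ 2 * b * h1

/-- The parameters of a point on an eigen line. -/
theorem IsEigenLine.eq_cone [IsDomain R] (h2 : (2 : R) ≠ 0) {π u b : R} {v w : Fin 3 → R}
    (h : IsEigenLine π u b v w) :
    v = coneV u b (v 0 + u * v 2 - u ^ 2 * v 1) ∧
      w = coneW π u b ((w 0 + π * (1 + u * b) * u) + u * (w 2 - π * (2 * (1 + u * b) - 1))
        - u ^ 2 * (w 1 - π * b)) := by
  refine ⟨triple_eq h2 u b v h.v0 h.v1, ?_⟩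
  have hw := triple_eq h2 u b
    ![w 0 + π * (1 + u * b) * u, w 1 - π * b, w 2 - π * (2 * (1 + u * b) - 1)]
    (by simp only [Matrix.cons_val]; linear_combination h.w0)
    (by simp only [Matrix.cons_val]; linear_combination h.w1)
  funext j
  have := congrFun hw j
  fin_cases j <;> simp [coneV, coneW] at this ⊢ <;> linear_combination this

variable {K : Type} [Field K]

/-- A nonzero vector on the eigen line. -/
theorem exists_eigenVector (h2 : (2 : K) ≠ 0) {π : K} {v w : Fin 3 → K} (h : IsConePoint π v w) :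
    ∃ c d : K, (c ≠ 0 ∨ d ≠ 0) ∧ v 2 * c + 2 * v 0 * d = 0 ∧ 2 * v 1 * c - v 2 * d = 0 ∧
      w 2 * c + 2 * w 0 * d = π * c ∧ 2 * w 1 * c - w 2 * d = π * d := by
  by_cases hA : v 2 ≠ 0 ∨ 2 * v 1 ≠ 0
  · exact ⟨v 2, 2 * v 1, hA, by linear_combination h.nilp, by ring,
      by linear_combination h.eigen00, by linear_combination h.eigen10⟩
  push Not at hA
  by_cases hB : v 0 = 0
  · have hv2 := hA.1
    have hv1 := hA.2
    have e0 : ∀ c d : K, v 2 * c + 2 * v 0 * d = 0 := fun c d => by rw [hv2, hB]; ring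
    have e1 : ∀ c d : K, 2 * v 1 * c - v 2 * d = 0 := fun c d => by rw [hv2, hv1]; ring
    by_cases hC : 2 * w 0 ≠ 0 ∨ π - w 2 ≠ 0
    · exact ⟨2 * w 0, π - w 2, hC, e0 _ _, e1 _ _, by ring, by linear_combination h.frob⟩
    push Not at hC
    have hw0 : w 0 = 0 := (mul_eq_zero.mp hC.1).resolve_left h2
    have hw2 : w 2 = π := (sub_eq_zero.mp hC.2).symm
    by_cases hD : w 2 + π ≠ 0 ∨ 2 * w 1 ≠ 0
    · exact ⟨w 2 + π, 2 * w 1, hD, e0 _ _, e1 _ _, by rw [hw0, hw2]; ring,
        by rw [hw2]; ring⟩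
    push Not at hD
    exact ⟨1, 0, Or.inl one_ne_zero, e0 _ _, e1 _ _, by rw [hw0, hw2]; ring,
      by linear_combination hD.2⟩
  · exact ⟨2 * v 0, -v 2, Or.inl (mul_ne_zero h2 hB), by ring, by linear_combination h.nilp,
      by linear_combination h.eigen01, by linear_combination h.eigen11⟩

/-- Every cone point has an eigen line with integral parameters. -/
theorem exists_isEigenLine (h2 : (2 : K) ≠ 0) (B : ValuationSubring K) {π : K}
    {v w : Fin 3 → K} (h : IsConePoint π v w) :
    ∃ u b : K, u ∈ B ∧ b ∈ B ∧ IsEigenLine π u b v w := by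
  obtain ⟨c, d, hne, h0, h1, h3, h4⟩ := exists_eigenVector h2 h
  have key : ∀ {u b : K} (t : K), t * (1 + u * b) = c → t * b = d → t ≠ 0 →
      IsEigenLine π u b v w := by
    intro u b t hc hd ht
    subst hc hd
    exact ⟨mul_left_cancel₀ ht (by linear_combination h0),
      mul_left_cancel₀ ht (by linear_combination h1),
      mul_left_cancel₀ ht (by linear_combination h3),
      mul_left_cancel₀ ht (by linear_combination h4)⟩
  by_cases hd : d = 0
  · subst hd
    exact ⟨0, 0, B.zero_mem, B.zero_mem,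
      key c (by ring) (by ring) (hne.resolve_right (by simp))⟩
  rcases B.mem_or_inv_mem (c / d) with hB | hB
  · exact ⟨c / d - 1, 1, sub_mem hB B.one_mem, B.one_mem,
      key d (by field_simp; ring) (by ring) hd⟩
  · by_cases hc : c = 0
    · subst hc
      exact ⟨-1, 1, B.neg_mem _ B.one_mem, B.one_mem, key d (by ring) (by ring) hd⟩
    · rw [inv_div] at hB
      exact ⟨0, d / c, B.zero_mem, hB, key c (by ring) (by field_simp) hc⟩

end FLTA.RT.Component
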