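import Fermat.Agent.RT.ComponentPrime
import Fermat.Agent.RT.ComponentCone
import Fermat.Agent.RT.Local.Prime
import Mathlib.RingTheory.AdicCompletion.Noetherian
import Mathlib.RingTheory.Adjoin.FG
import Mathlib.RingTheory.Valuation.LocalSubring
import Mathlib.RingTheory.Localization.FractionRing

/-!
# The component of Steinberg sites

Coordinates: for every cone site `i` an inertia triple and a Frobenius triple; the other ones are
free or fixed at a constant (unramified scalar sites, non-scalar sites, extra variables).  The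
component is prime, lies below every prime containing the relations, and has dimension at most
that of power series in `3` parameters per cone site and the free coordinates.
-/

set_option autoImplicit false

noncomputable section

namespace FLTA.RT.Component

open IsLocalRing MvPowerSeries

/-- The eigen lines of cone points over a local Noetherian domain are defined over a separated
extension in which the remaining parameters are small. -/
theorem exists_line_ring {κ D : Type} [Finite κ] [CommRing D] [IsDomain D] [IsNoetherianRing D]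
    [IsLocalRing D] (h2 : IsUnit (2 : D)) (c : κ → D) (v w : κ → Fin 3 → D)
    (hcone : ∀ i, IsConePoint (c i) (v i) (w i)) (hc : ∀ i, c i ∈ maximalIdeal D)
    (hv : ∀ i j, v i j ∈ maximalIdeal D) (hw : ∀ i j, w i j ∈ maximalIdeal D) :
    ∃ (V : Type) (_ : CommRing V) (g : D →+* V) (I : Ideal V) (_ : IsHausdorff I V)
      (u b s t : κ → V), Function.Injective g ∧ (∀ x ∈ maximalIdeal D, g x ∈ I) ∧
      (∀ i, s i ∈ I ∧ t i ∈ I) ∧ ∀ i j, g (v i j) = coneV (u i) (b i) (s i) j ∧
        g (w i j) = coneW (g (c i)) (u i) (b i) (t i) j := by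
  classical
  cases nonempty_fintype κ
  let f : D →+* FractionRing D := algebraMap D (FractionRing D)
  have hf : Function.Injective f := IsFractionRing.injective D (FractionRing D)
  let eA : D ≃+* f.range := RingEquiv.ofBijective f.rangeRestrict
    ⟨fun x y h => hf (congrArg Subtype.val h), f.rangeRestrict_surjective⟩
  obtain ⟨B, hAB, hmB⟩ := Ideal.image_subset_nonunits_valuationSubring
    ((maximalIdeal D).map eA) (fun h => (maximalIdeal.isMaximal D).ne_top (by
      have := congrArg (Ideal.comap eA) h
      rwa [Ideal.comap_map_of_bijective _ eA.bijective, Ideal.comap_top] at this))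
  have hfB : ∀ x, f x ∈ B := fun x => hAB ⟨x, rfl⟩
  have h2K : (2 : FractionRing D) ≠ 0 := by
    have := h2.map f
    rw [map_ofNat] at this
    exact this.ne_zero
  choose u b hu hb hline using fun i => exists_isEigenLine h2K B ((hcone i).map f)
  let V := Algebra.adjoin D (Set.range u ∪ Set.range b)
  have : IsNoetherianRing V := isNoetherianRing_of_fg
    (Subalgebra.fg_def.mpr ⟨_, (Set.finite_range u).union (Set.finite_range b), rfl⟩)
  have hVB : ∀ x : V, (x : FractionRing D) ∈ B := fun x => by
    refine Algebra.adjoin_induction (p := fun x _ => x ∈ B) ?_ hfB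
      (fun _ _ _ _ => B.add_mem _ _) (fun _ _ _ _ => B.mul_mem _ _) x.2
    rintro _ (⟨i, rfl⟩ | ⟨i, rfl⟩)
    · exact hu i
    · exact hb i
  let I : Ideal V := (maximalIdeal D).map (algebraMap D V)
  have hI : I ≠ ⊤ := by
    intro htop
    let toB : V →+* B := (algebraMap V (FractionRing D)).codRestrict B.toSubring fun x => hVB x
    have hle : I ≤ (maximalIdeal B).comap toB := by
      rw [Ideal.map_le_iff_le_comap]
      intro x hx
      rw [Ideal.mem_comap, Ideal.mem_comap, ← ValuationSubring.coe_mem_nonunits_iff]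
      exact hmB ⟨eA x, Ideal.mem_map_of_mem _ hx, rfl⟩
    rw [htop, top_le_iff, Ideal.comap_eq_top_iff] at hle
    exact (maximalIdeal.isMaximal B).ne_top hle
  let uV : κ → V := fun i => ⟨u i, Algebra.subset_adjoin (Or.inl ⟨i, rfl⟩)⟩
  let bV : κ → V := fun i => ⟨b i, Algebra.subset_adjoin (Or.inr ⟨i, rfl⟩)⟩
  let g : D →+* V := algebraMap D V
  have h2V : (2 : V) ≠ 0 := by
    intro h
    exact h2K (congrArg Subtype.val h)
  have hgm : ∀ x ∈ maximalIdeal D, g x ∈ I := fun x hx => Ideal.mem_map_of_mem g hx
  refine ⟨V, inferInstance, g, I, IsHausdorff.of_isDomain I hI, uV, bV,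
    fun i => g (v i 0) + uV i * g (v i 2) - uV i ^ 2 * g (v i 1),
    fun i => (g (w i 0) + g (c i) * (1 + uV i * bV i) * uV i)
      + uV i * (g (w i 2) - g (c i) * (2 * (1 + uV i * bV i) - 1))
      - uV i ^ 2 * (g (w i 1) - g (c i) * bV i),
    fun x y h => hf (congrArg Subtype.val h), hgm, fun i => ⟨?_, ?_⟩, fun i j => ?_⟩
  · exact sub_mem (add_mem (hgm _ (hv i 0)) (Ideal.mul_mem_left _ _ (hgm _ (hv i 2))))
      (Ideal.mul_mem_left _ _ (hgm _ (hv i 1)))
  · have hcI := hgm _ (hc i)
    exact sub_mem (add_mem (add_mem (hgm _ (hw i 0))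
        (Ideal.mul_mem_right _ _ (Ideal.mul_mem_right _ _ hcI)))
      (Ideal.mul_mem_left _ _ (sub_mem (hgm _ (hw i 2)) (Ideal.mul_mem_right _ _ hcI))))
      (Ideal.mul_mem_left _ _ (sub_mem (hgm _ (hw i 1)) (Ideal.mul_mem_right _ _ hcI)))
  · have hK : IsEigenLine (g (c i)) (uV i) (bV i) (fun j => g (v i j)) fun j => g (w i j) :=
      IsEigenLine.of_map V.val.toRingHom Subtype.val_injective (hline i)
    exact ⟨congrFun (hK.eq_cone h2V).1 j, congrFun (hK.eq_cone h2V).2 j⟩

variable {σ ι L O : Type} [CommRing O] [IsDomain O] [IsDiscreteValuationRing O]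
  (e : σ ≃ ((ι × Fin 3) ⊕ (ι × Fin 3)) ⊕ L) (π : ι → O) (cst : L → Option O)

/-- The inertia triple of the site `i`. -/
def siteV (i : ι) (j : Fin 3) : MvPowerSeries σ O := X (e.symm (Sum.inl (Sum.inl (i, j))))

/-- The Frobenius triple of the site `i`. -/
def siteW (i : ι) (j : Fin 3) : MvPowerSeries σ O := X (e.symm (Sum.inl (Sum.inr (i, j))))

/-- The other coordinate `l`. -/
def siteL (l : L) : MvPowerSeries σ O := X (e.symm (Sum.inr l))

/-- The relations of the component hold modulo `Q`. -/
structure SatisfiesRels (Q : Ideal (MvPowerSeries σ O)) : Prop where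
  cone : ∀ i, IsConePoint (Ideal.Quotient.mk Q (C (π i)))
    (fun j => Ideal.Quotient.mk Q (siteV e i j)) fun j => Ideal.Quotient.mk Q (siteW e i j)
  const : ∀ l c, cst l = some c → siteL e l - C c ∈ Q

omit [IsDomain O] [IsDiscreteValuationRing O] in
/-- Relations pass to larger ideals. -/
theorem SatisfiesRels.mono {Q Q' : Ideal (MvPowerSeries σ O)} (h : SatisfiesRels e π cst Q)
    (hle : Q ≤ Q') : SatisfiesRels e π cst Q' :=
  ⟨fun i => by simpa using (h.cone i).map (Ideal.Quotient.factor hle),
    fun l c hc => hle (h.const l c hc)⟩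

/-- Unrestricted parameters: the eigen lines. -/
abbrev BigPar (ι : Type) : Type := ι ⊕ ι

/-- Small parameters. -/
abbrev SmallPar (ι L : Type) : Type := (ι ⊕ ι) ⊕ L

/-- The unrestricted parameters `u i`, `b i`. -/
abbrev parU (i : ι) : MvPolynomial (BigPar ι ⊕ SmallPar ι L) O :=
  MvPolynomial.X (Sum.inl (Sum.inl i))

/-- The second unrestricted parameter. -/
abbrev parB (i : ι) : MvPolynomial (BigPar ι ⊕ SmallPar ι L) O :=
  MvPolynomial.X (Sum.inl (Sum.inr i))

/-- The values of the coordinates. -/
def coordVal (a : σ) : MvPolynomial (BigPar ι ⊕ SmallPar ι L) O :=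
  Sum.elim
    (Sum.elim
      (fun ij => coneV (parU ij.1) (parB ij.1)
        (MvPolynomial.X (Sum.inr (Sum.inl (Sum.inl ij.1)))) ij.2)
      fun ij => coneW (MvPolynomial.C (π ij.1)) (parU ij.1) (parB ij.1)
        (MvPolynomial.X (Sum.inr (Sum.inl (Sum.inr ij.1)))) ij.2)
    (fun l => (cst l).elim (MvPolynomial.X (Sum.inr (Sum.inr l))) MvPolynomial.C) (e a)

/-- The constants are topologically nilpotent. -/
structure SmallConst : Prop where
  cone : ∀ i, π i ∈ maximalIdeal O
  other : ∀ l c, cst l = some c → c ∈ maximalIdeal O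

variable {e π cst}

theorem isSmall_coordVal (hs : SmallConst π cst) {ϖ : O}
    (hϖ : maximalIdeal O = Ideal.span {ϖ}) : IsSmall (coordVal e π cst) ϖ := by
  have hC : ∀ c ∈ maximalIdeal O, (MvPolynomial.C c : MvPolynomial (BigPar ι ⊕ SmallPar ι L) O) ∈
      Ideal.span {MvPolynomial.C ϖ} := fun c hc => by
    rw [hϖ, Ideal.mem_span_singleton] at hc
    exact Ideal.mem_span_singleton.mpr (map_dvd MvPolynomial.C hc)
  have hX : ∀ θ, shrink ϖ (MvPolynomial.X (Sum.inr θ) :
      MvPolynomial (BigPar ι ⊕ SmallPar ι L) O) ∈ Ideal.span {MvPolynomial.C ϖ} := fun θ => by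
    rw [shrink, MvPolynomial.eval₂Hom_X', Sum.elim_inr]
    exact Ideal.mul_mem_right _ _ (Ideal.mem_span_singleton_self _)
  intro a
  rcases h : e a with (⟨i, j⟩ | ⟨i, j⟩) | l
  · simp only [coordVal, h, Sum.elim_inl, map_coneV]
    fin_cases j <;>
      simp only [coneV, Fin.zero_eta, Fin.mk_one, Fin.reduceFinMk, Matrix.cons_val]
    · exact Ideal.mul_mem_right _ _ (hX _)
    · exact neg_mem (Ideal.mul_mem_right _ _ (hX _))
    · exact neg_mem (Ideal.mul_mem_right _ _ (Ideal.mul_mem_right _ _
        (Ideal.mul_mem_left _ _ (hX _))))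
  · have hπ : shrink ϖ (MvPolynomial.C (π i) : MvPolynomial (BigPar ι ⊕ SmallPar ι L) O) ∈
        Ideal.span {MvPolynomial.C ϖ} := by
      rw [shrink, MvPolynomial.eval₂Hom_C]; exact hC _ (hs.cone i)
    simp only [coordVal, h, Sum.elim_inl, Sum.elim_inr, map_coneW]
    fin_cases j <;>
      simp only [coneW, Fin.zero_eta, Fin.mk_one, Fin.reduceFinMk, Matrix.cons_val]
    · exact add_mem (neg_mem (Ideal.mul_mem_right _ _ (Ideal.mul_mem_right _ _ hπ)))
        (Ideal.mul_mem_right _ _ (hX _))
    · exact sub_mem (Ideal.mul_mem_right _ _ hπ) (Ideal.mul_mem_right _ _ (hX _))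
    · exact sub_mem (Ideal.mul_mem_right _ _ hπ) (Ideal.mul_mem_right _ _
        (Ideal.mul_mem_right _ _ (Ideal.mul_mem_left _ _ (hX _))))
  · simp only [coordVal, h, Sum.elim_inr]
    cases hc : cst l with
    | none => exact hX _
    | some c =>
      rw [Option.elim_some, shrink, MvPolynomial.eval₂Hom_C]
      exact hC _ (hs.other l c hc)

variable [Finite σ]

/-- The component. -/
def component (e : σ ≃ ((ι × Fin 3) ⊕ (ι × Fin 3)) ⊕ L) (hs : SmallConst π cst) {ϖ : O}
    (hϖ : maximalIdeal O = Ideal.span {ϖ}) : Ideal (MvPowerSeries σ O) :=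
  paramKer (isSmall_coordVal (e := e) hs hϖ)

variable (hs : SmallConst π cst) {ϖ : O} (hϖ : maximalIdeal O = Ideal.span {ϖ})

include hϖ

omit [Finite σ] in
lemma prime_uniformiser : Prime ϖ :=
  ((IsDiscreteValuationRing.irreducible_iff_uniformizer ϖ).mpr hϖ).prime

include hs

theorem component_isPrime : (component e hs hϖ).IsPrime :=
  paramKer_isPrime _ (prime_uniformiser hϖ)

/-- The component satisfies its relations. -/
theorem satisfiesRels_component : SatisfiesRels e π cst (component e hs hϖ) := by
  let E : MvPolynomial σ O →+* MvPolynomial (BigPar ι ⊕ SmallPar ι L) O :=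
    MvPolynomial.eval₂Hom MvPolynomial.C (coordVal e π cst)
  let q : MvPolynomial σ O →+* MvPowerSeries σ O ⧸ component e hs hϖ :=
    (Ideal.Quotient.mk _).comp MvPolynomial.coeToMvPowerSeries.ringHom
  have hq : ∀ F ∈ RingHom.ker E, q F = 0 := fun F hF =>
    Ideal.Quotient.eq_zero_iff_mem.mpr (coe_mem_paramKer _ hF)
  let q' : MvPolynomial σ O ⧸ RingHom.ker E →+* MvPowerSeries σ O ⧸ component e hs hϖ :=
    Ideal.Quotient.lift _ q hq
  refine ⟨fun i => ?_, fun l c hc => ?_⟩
  · have hE : IsConePoint (RingHom.kerLift E (Ideal.Quotient.mk _ (MvPolynomial.C (π i))))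
        (fun j => RingHom.kerLift E
          (Ideal.Quotient.mk _ (MvPolynomial.X (e.symm (Sum.inl (Sum.inl (i, j)))))))
        (fun j => RingHom.kerLift E
          (Ideal.Quotient.mk _ (MvPolynomial.X (e.symm (Sum.inl (Sum.inr (i, j))))))) := by
      simp only [RingHom.kerLift_mk, E, MvPolynomial.eval₂Hom_C, MvPolynomial.eval₂Hom_X',
        coordVal, Equiv.apply_symm_apply, Sum.elim_inl, Sum.elim_inr]
      exact isConePoint_cone _ _ _ _ _
    have h := (hE.of_map _ (RingHom.kerLift_injective E)).map q'
    simpa [q', q, siteV, siteW] using h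
  · have h : E (MvPolynomial.X (e.symm (Sum.inr l)) - MvPolynomial.C c) = 0 := by
      simp [E, coordVal, hc]
    have := coe_mem_paramKer (isSmall_coordVal (e := e) hs hϖ) h
    rw [← MvPolynomial.coeToMvPowerSeries.ringHom_apply, map_sub] at this
    simpa [siteL, component] using this

variable [Fintype ι] [Fintype L] [IsAdicComplete (maximalIdeal O) O] (h2 : IsUnit (2 : O))

include h2

/-- **Separation.** The component lies below every prime containing its relations. -/
theorem component_le {Q : Ideal (MvPowerSeries σ O)} [Q.IsPrime]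
    (hQ : SatisfiesRels e π cst Q) : component e hs hϖ ≤ Q := by
  classical
  have : IsLocalRing (MvPowerSeries σ O ⧸ Q) :=
    IsLocalRing.of_surjective' _ Ideal.Quotient.mk_surjective
  have hm : ∀ x ∈ maximalIdeal (MvPowerSeries σ O),
      Ideal.Quotient.mk Q x ∈ maximalIdeal (MvPowerSeries σ O ⧸ Q) := fun x hx =>
    Local.mk_mem_maximalIdeal hx
  have hC : ∀ c ∈ maximalIdeal O, (C c : MvPowerSeries σ O) ∈ maximalIdeal _ := fun c hc =>
    (Local.mem_maximalIdeal_iff _).mpr (by simpa using hc)
  have h2D : IsUnit (2 : MvPowerSeries σ O ⧸ Q) := by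
    have := (Local.two_unit_series (σ := σ) h2).map (Ideal.Quotient.mk Q)
    rwa [map_ofNat] at this
  obtain ⟨V, _, g, I, hI, u, b, s, t, hg, hgm, hst, hcone⟩ := exists_line_ring h2D
    (fun i => Ideal.Quotient.mk Q (C (π i))) (fun i j => Ideal.Quotient.mk Q (siteV e i j))
    (fun i j => Ideal.Quotient.mk Q (siteW e i j)) hQ.cone (fun i => hm _ (hC _ (hs.cone i)))
    (fun i j => hm _ (Local.X_mem_maximalIdeal _)) fun i j => hm _ (Local.X_mem_maximalIdeal _)
  let φ : MvPowerSeries σ O →+* V := g.comp (Ideal.Quotient.mk Q)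
  have hφI : ∀ x ∈ maximalIdeal (MvPowerSeries σ O), φ x ∈ I := fun x hx => hgm _ (hm x hx)
  let η : BigPar ι ⊕ SmallPar ι L → V :=
    Sum.elim (Sum.elim u b) (Sum.elim (Sum.elim s t) fun l => φ (siteL e l))
  have hle := paramKer_le_ker (isSmall_coordVal (e := e) hs hϖ) (prime_uniformiser hϖ) I
    (φ.comp C) φ (fun c => rfl) (hφI _ (hC _ (hϖ ▸ Ideal.mem_span_singleton_self ϖ)))
    (fun a => hφI _ (Local.X_mem_maximalIdeal _)) η
    (fun θ => by
      rcases θ with (i | i) | l
      · exact (hst i).1
      · exact (hst i).2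
      · exact hφI _ (Local.X_mem_maximalIdeal _))
    (fun a => by
      rcases h : e a with (⟨i, j⟩ | ⟨i, j⟩) | l
      · have ha : a = e.symm (Sum.inl (Sum.inl (i, j))) := by rw [← h, Equiv.symm_apply_apply]
        simp only [coordVal, h, Sum.elim_inl, map_coneV, MvPolynomial.eval₂Hom_X', η,
          Sum.elim_inr]
        rw [ha]
        exact (hcone i j).1
      · have ha : a = e.symm (Sum.inl (Sum.inr (i, j))) := by rw [← h, Equiv.symm_apply_apply]
        simp only [coordVal, h, Sum.elim_inl, Sum.elim_inr, map_coneW, MvPolynomial.eval₂Hom_X',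
          MvPolynomial.eval₂Hom_C, η]
        rw [ha]
        exact (hcone i j).2
      · have ha : a = e.symm (Sum.inr l) := by rw [← h, Equiv.symm_apply_apply]
        simp only [coordVal, h, Sum.elim_inr]
        cases hc : cst l with
        | none => simp [η, ha, siteL]
        | some c =>
          have h0 : φ (siteL e l - C c) = 0 := by
            show g (Ideal.Quotient.mk Q _) = 0
            rw [Ideal.Quotient.eq_zero_iff_mem.mpr (hQ.const l c hc), map_zero]
          rw [Option.elim_some, MvPolynomial.eval₂Hom_C, RingHom.comp_apply, ha]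
          rw [map_sub, sub_eq_zero] at h0
          exact h0)
  intro x hx
  have h0 : g (Ideal.Quotient.mk Q x) = 0 := RingHom.mem_ker.mp (hle hx)
  exact Ideal.Quotient.eq_zero_iff_mem.mp (hg (h0.trans (map_zero g).symm))

/-- **Dimension.** -/
theorem ringKrullDim_component_le {r : ℕ}
    (hr : Fintype.card ι * 3 + Nat.card {l // cst l = none} ≤ r) :
    ringKrullDim (MvPowerSeries σ O ⧸ component e hs hϖ) ≤
      ringKrullDim (MvPowerSeries (Fin r) O) := by
  classical
  set C₀ := component e hs hϖ with hC₀
  have := component_isPrime (e := e) hs hϖ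
  have : IsLocalRing (MvPowerSeries σ O ⧸ C₀) :=
    IsLocalRing.of_surjective' _ Ideal.Quotient.mk_surjective
  let τ := (ι × Fin 3) ⊕ {l // cst l = none}
  have hτ : Fintype.card τ ≤ r := by
    simpa [τ, Nat.card_eq_fintype_card] using hr
  obtain ⟨emb⟩ : Nonempty (τ ↪ Fin r) :=
    Function.Embedding.nonempty_of_card_le (by simpa using hτ)
  let par : τ → MvPowerSeries σ O := Sum.elim
    (fun ij => ![siteV e ij.1 0 + siteV e ij.1 1 - (siteW e ij.1 0 + siteW e ij.1 1),
      siteV e ij.1 0 - siteV e ij.1 1 + (siteW e ij.1 0 - siteW e ij.1 1),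
      siteW e ij.1 2] ij.2)
    fun l => siteL e l.1
  have hX : ∀ a : σ, (X a : MvPowerSeries σ O) ∈ maximalIdeal _ := Local.X_mem_maximalIdeal
  have hpar : ∀ t, par t ∈ maximalIdeal (MvPowerSeries σ O) := by
    rintro (⟨i, j⟩ | l)
    · fin_cases j
      · exact sub_mem (add_mem (hX _) (hX _)) (add_mem (hX _) (hX _))
      · exact add_mem (sub_mem (hX _) (hX _)) (sub_mem (hX _) (hX _))
      · exact hX _
    · exact hX _
  let val : Fin r → MvPowerSeries σ O := Function.extend emb par 0
  have hval : ∀ k, val k ∈ maximalIdeal (MvPowerSeries σ O) := fun k => by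
    by_cases hk : ∃ t, emb t = k
    · obtain ⟨t, rfl⟩ := hk
      simpa [val, emb.injective.extend_apply] using hpar t
    · simp [val, Function.extend_apply' _ _ _ hk]
  let θ₀ : MvPowerSeries (Fin r) O →+* MvPowerSeries σ O :=
    Local.evalHom (maximalIdeal _) C val hval
  have hfin : ((Ideal.Quotient.mk C₀).comp θ₀).Finite := by
    refine Local.finite_of_params (Ideal.Quotient.mk C₀) Ideal.Quotient.mk_surjective _
      (fun c => by simp [θ₀]) (fun k => ?_) fun Q' hQ' hcQ hθQ a => ?_
    · rw [RingHom.comp_apply]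
      exact Local.mk_mem_maximalIdeal (by simpa [θ₀] using hval k)
    · set Q := Q'.comap (Ideal.Quotient.mk C₀) with hQdef
      have hQp : Q.IsPrime := Ideal.IsPrime.comap _ (K := Q') (hK := hQ')
      have hle : C₀ ≤ Q := fun x hx => by
        rw [hQdef, Ideal.mem_comap, Ideal.Quotient.eq_zero_iff_mem.mpr hx]; exact zero_mem _
      have hrel := (satisfiesRels_component (e := e) hs hϖ).mono e π cst hle
      have hparQ : ∀ t, par t ∈ Q := fun t => by
        have := hθQ (emb t)
        simpa [θ₀, val, emb.injective.extend_apply, hQdef] using this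
      have hCQ : ∀ c ∈ maximalIdeal O, C c ∈ Q := fun c hc => hcQ c hc
      have h2S : IsUnit (2 : MvPowerSeries σ O) := Local.two_unit_series h2
      change X a ∈ Q
      rcases h : e a with (⟨i, j⟩ | ⟨i, j⟩) | l
      all_goals have ha : a = e.symm (e a) := (Equiv.symm_apply_apply e a).symm
      all_goals rw [h] at ha
      all_goals rw [ha]
      iterate 2
        obtain ⟨hn, hf, h00, h01, h10, h11⟩ := hrel.cone i
        have hπ0 : Ideal.Quotient.mk Q (C (π i)) = 0 :=
          Ideal.Quotient.eq_zero_iff_mem.mpr (hCQ _ (hs.cone i))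
        have h20 : (2 : MvPowerSeries σ O ⧸ Q) ≠ 0 := by
          have := (h2S.map (Ideal.Quotient.mk Q)).ne_zero
          rwa [map_ofNat] at this
        rw [hπ0] at hf h00 h01 h10 h11
        have m02 : siteV e i 0 * siteW e i 2 - siteV e i 2 * siteW e i 0 ∈ Q := by
          rw [← Ideal.Quotient.eq_zero_iff_mem]
          simp only [map_sub, map_mul]
          exact mul_left_cancel₀ h20 (by linear_combination h01)
        have m12 : siteV e i 1 * siteW e i 2 - siteV e i 2 * siteW e i 1 ∈ Q := by
          rw [← Ideal.Quotient.eq_zero_iff_mem]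
          simp only [map_sub, map_mul]
          exact mul_left_cancel₀ h20 (by linear_combination -h10)
        have m01 : siteV e i 0 * siteW e i 1 - siteV e i 1 * siteW e i 0 ∈ Q := by
          rw [← Ideal.Quotient.eq_zero_iff_mem]
          simp only [map_sub, map_mul]
          exact mul_left_cancel₀ (mul_ne_zero h20 h20) (by linear_combination h11 - h00)
        have hmin : ∀ k l : Fin 3, siteV e i k * siteW e i l - siteV e i l * siteW e i k ∈ Q := by
          intro k l
          fin_cases k <;> fin_cases l <;>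
            first
              | exact m01 | exact m02 | exact m12
              | (rw [sub_self]; exact Q.zero_mem)
              | (convert Q.neg_mem m01 using 1; simp; done)
              | (convert Q.neg_mem m02 using 1; simp; done)
              | (convert Q.neg_mem m12 using 1; simp)
        have hq : Local.Q3 (fun k => siteV e i k) ∈ Q := by
          rw [← Ideal.Quotient.eq_zero_iff_mem, Local.map_Q3]
          exact hn
        have hall := Local.mem_of_params h2S Q (fun k => siteV e i k) (fun k => siteW e i k)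
          (by simpa [par] using hparQ (Sum.inl (i, 0))) (by simpa [par] using hparQ (Sum.inl (i, 1)))
          (by simpa [par] using hparQ (Sum.inl (i, 2))) hmin hq j
        first | exact hall.1 | exact hall.2
      cases hc : cst l with
      | none => simpa [par, siteL] using hparQ (Sum.inr ⟨l, hc⟩)
      | some c =>
        have := add_mem (hrel.const l c hc) (hCQ c (hs.other l c hc))
        simpa [siteL] using this
  exact Local.ringKrullDim_le_of_integral _ (RingHom.IsIntegral.of_finite hfin)

omit h2

/-- Evaluation at a point with values in the maximal ideal. -/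
def coordHom (a : σ → O) (ha : ∀ k, a k ∈ maximalIdeal O) : MvPowerSeries σ O →+* O :=
  Local.evalHom (maximalIdeal O) (RingHom.id O) a ha

end FLTA.RT.Component
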