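import Fermat.Agent.RT.Local.Model

/-!
# Two by two matrices satisfying the tame relation

If `P * T = T ^ q * P` with `det T = 1`, `P` invertible, `T` unipotent modulo the maximal ideal of
a local domain and `q ≡ 1 mod p`, then the eigenvalues of `T` are `p`-power roots of unity killed
by `q - 1`, and if they are not `1` then `P` commutes with `T`, i.e. the trace-free vectors of `P`
and `T` are parallel and `Q (v T) = (ψ - ψ⁻¹) ^ 2`.
-/

set_option autoImplicit false

noncomputable section

namespace FLTA.RT.LocalGalois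

open Matrix

local notation "Mat[" R "]" => Matrix (Fin 2) (Fin 2) R

/-- The coordinates `(M₀₁, M₁₀, M₀₀ - M₁₁)` of the trace-free part. -/
def vec3 {R : Type} [CommRing R] (M : Mat[R]) : Fin 3 → R := ![M 0 1, M 1 0, M 0 0 - M 1 1]

lemma map_vec3 {R S : Type} [CommRing R] [CommRing S] (f : R →+* S) (M : Mat[R]) (i : Fin 3) :
    f (vec3 M i) = vec3 (M.map f) i := by
  fin_cases i <;> simp [vec3]

lemma Q3_vec3 {R : Type} [CommRing R] (M : Mat[R]) :
    Local.Q3 (vec3 M) = M.trace ^ 2 - 4 * M.det := by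
  simp [Local.Q3, vec3, trace_fin_two, det_fin_two]; ring

/-- Two matrices commute iff their trace-free vectors are parallel. -/
lemma commute_iff_minors {R : Type} [CommRing R] (M N : Mat[R]) :
    Commute M N ↔ ∀ i j, vec3 M i * vec3 N j = vec3 M j * vec3 N i := by
  constructor
  · intro h
    have h00 := congrFun (congrFun h.eq 0) 0
    have h01 := congrFun (congrFun h.eq 0) 1
    have h10 := congrFun (congrFun h.eq 1) 0
    simp [mul_apply, Fin.sum_univ_two] at h00 h01 h10
    intro i j
    fin_cases i <;> fin_cases j <;> simp [vec3] <;>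
      first
        | linear_combination h00
        | linear_combination -h00
        | linear_combination h01
        | linear_combination -h01
        | linear_combination h10
        | linear_combination -h10
        | ring
  · intro h
    have e01 := h 0 1
    have e02 := h 0 2
    have e12 := h 1 2
    simp [vec3] at e01 e02 e12
    ext i j
    fin_cases i <;> fin_cases j <;> simp [mul_apply, Fin.sum_univ_two] <;>
      first
        | linear_combination e01
        | linear_combination -e01
        | linear_combination e02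
        | linear_combination -e02
        | linear_combination e12
        | linear_combination -e12

section Field

variable {K : Type} [Field K] {P T : Mat[K]} {q : ℕ}

lemma det_sub_scalar (T : Mat[K]) (x : K) :
    (T - x • 1).det = x ^ 2 - T.trace * x + T.det := by
  simp [det_fin_two, trace_fin_two]; ring

/-- `x ↦ x ^ q` permutes the eigenvalues. -/
lemma eigen_pow (hP : IsUnit P.det) (hrel : P * T = T ^ q * P) (hdet : T.det = 1) {x : K}
    (hx : x ^ 2 - T.trace * x + 1 = 0) : x ^ q = x ∨ x ^ q * x = 1 := by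
  have h1 : (T ^ q - (x ^ q) • (1 : Mat[K])).det = 0 := by
    have hc : Commute T (x • (1 : Mat[K])) := (Commute.one_right T).smul_right x
    have e : (T ^ q - (x ^ q) • (1 : Mat[K])) =
        (T - x • 1) * ∑ i ∈ Finset.range q, T ^ i * (x • (1 : Mat[K])) ^ (q - 1 - i) := by
      rw [hc.mul_geom_sum₂, smul_pow, one_pow]
    rw [e, det_mul, det_sub_scalar, hdet, hx, zero_mul]
  have h2 : P * (T - (x ^ q) • 1) = (T ^ q - (x ^ q) • 1) * P := by
    simp [mul_sub, sub_mul, hrel]
  have h3 := congrArg Matrix.det h2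
  rw [det_mul, det_mul, h1, zero_mul, det_sub_scalar, hdet] at h3
  have hy := (mul_eq_zero.mp h3).resolve_left hP.ne_zero
  rcases mul_eq_zero.mp (show (x ^ q - x) * (x ^ q + x - T.trace) = 0 by
      linear_combination hy - hx) with h | h
  · exact .inl (sub_eq_zero.mp h)
  · exact .inr (by linear_combination -hx + x * h)

/-- With distinct eigenvalues fixed by `x ↦ x ^ q`, the matrix is fixed too. -/
lemma pow_eq_self (hdet : T.det = 1) {x : K} (hx : x ^ 2 - T.trace * x + 1 = 0)
    (hxq : x ^ q = x) (hne : x * x ≠ 1) : T ^ q = T := by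
  set y := T.trace - x with hy
  have hxy : x * y = 1 := by rw [hy]; linear_combination -hx
  have hyq : y ^ q = y := by
    have : y = x⁻¹ := eq_inv_of_mul_eq_one_right hxy
    rw [this, inv_pow, hxq]
  have hd : x - y ≠ 0 := fun h => hne (by rw [sub_eq_zero.mp h] at hxy ⊢; exact hxy)
  have hT2 : T * T = T.trace • T - 1 := by
    ext i j
    fin_cases i <;> fin_cases j <;>
      simp [mul_apply, Fin.sum_univ_two, trace_fin_two] <;>
      rw [det_fin_two] at hdet <;> first | linear_combination -hdet | ring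
  have hN' : ∀ n : ℕ, T ^ n * (T - y • 1) = x ^ n • (T - y • 1) := by
    intro n
    induction n with
    | zero => simp
    | succ n ih =>
      have e : T * (T - y • 1) = x • (T - y • 1) := by
        rw [mul_sub, hT2, Matrix.mul_smul, mul_one, smul_sub, smul_smul, hxy, one_smul, hy, sub_smul]
        abel
      rw [pow_succ', mul_assoc, ih, Matrix.mul_smul, e, smul_smul, pow_succ]
  have hN : ∀ n : ℕ, T ^ n * (T - x • 1) = y ^ n • (T - x • 1) := by
    intro n
    induction n with
    | zero => simp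
    | succ n ih =>
      have e : T * (T - x • 1) = y • (T - x • 1) := by
        rw [mul_sub, hT2, Matrix.mul_smul, mul_one, smul_sub, smul_smul, mul_comm y, hxy, one_smul,
          hy, sub_smul]
        abel
      rw [pow_succ', mul_assoc, ih, Matrix.mul_smul, e, smul_smul, pow_succ]
  have h1 : (x - y) • (1 : Mat[K]) = (T - y • 1) - (T - x • 1) := by rw [sub_smul]; abel
  have h2 : (x - y) • T ^ q = (x - y) • T := by
    calc (x - y) • T ^ q = T ^ q * ((x - y) • 1) := by rw [Matrix.mul_smul, mul_one]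
      _ = x ^ q • (T - y • 1) - y ^ q • (T - x • 1) := by rw [h1, mul_sub, hN', hN]
      _ = (x - y) • T := by
        rw [hxq, hyq]
        module
  exact smul_right_injective Mat[K] hd h2

end Field

/-- A root of unity of order prime to a prime ideal and congruent to one is one. -/
lemma eq_one_of_pow_eq_one_of_sub_mem {S : Type} [CommRing S] [IsDomain S] (I : Ideal S) {n : ℕ}
    (hn : (n : S) ∉ I) {x : S} (hx : x - 1 ∈ I) (hxn : x ^ n = 1) : x = 1 := by
  have h : (∑ i ∈ Finset.range n, x ^ i) * (x - 1) = 0 := by rw [geom_sum_mul, hxn, sub_self]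
  refine sub_eq_zero.mp ((mul_eq_zero.mp h).resolve_left fun hs => hn ?_)
  have h1 : ∀ i : ℕ, x ^ i - 1 ∈ I := fun i => by
    rw [← geom_sum_mul]; exact I.mul_mem_left _ hx
  have h2 : (n : S) = -∑ i ∈ Finset.range n, (x ^ i - 1) := by
    rw [Finset.sum_sub_distrib, hs]; simp
  rw [h2]
  exact neg_mem (sum_mem fun i _ => h1 i)

section Local

variable {R : Type} [CommRing R] [IsLocalRing R] [IsDomain R] {P T : Mat[R]} {p q a : ℕ}

/-- An eigenvalue of `T`, with the facts forced by the tame relation, over an algebraic closure of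
the fraction field. -/
lemma exists_eigen (hp : p.Prime) (hp2 : p ≠ 2) (hpR : (p : R) ∈ IsLocalRing.maximalIdeal R)
    (hq : 1 < q) (hpq : p ∣ q - 1) (hrel : P * T = T ^ q * P) (hP : IsUnit P.det)
    (hdet : T.det = 1) (htr : T.trace - 2 ∈ IsLocalRing.maximalIdeal R)
    (ha : ∀ b, p ^ b ∣ q - 1 → b ≤ a) :
    ∃ (K : Type) (_ : Field K) (f : R →+* K) (x : K), Function.Injective f ∧
      x ^ 2 - f T.trace * x + 1 = 0 ∧ x ^ q = x ∧ x ^ p ^ a = 1 := by
  let K := AlgebraicClosure (FractionRing R)
  have hinj : Function.Injective (algebraMap R K) := by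
    rw [IsScalarTower.algebraMap_eq R (FractionRing R) K, RingHom.coe_comp]
    exact (algebraMap (FractionRing R) K).injective.comp (IsFractionRing.injective R _)
  refine ⟨K, inferInstance, algebraMap R K, ?_⟩
  set t := algebraMap R K T.trace with ht
  obtain ⟨x, hx⟩ : ∃ x : K, x ^ 2 - t * x + 1 = 0 := by
    obtain ⟨d, hd⟩ := IsAlgClosed.exists_pow_nat_eq (t ^ 2 - 4) zero_lt_two
    refine ⟨(t + d) / 2, ?_⟩
    have h2 : (2 : K) ≠ 0 := fun h => hp2 (by
      have h2R : (2 : R) = 0 := hinj (by rw [map_ofNat, h, map_zero])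
      by_contra hne
      obtain ⟨k, hk⟩ := hp.odd_of_ne_two hne
      refine (IsLocalRing.maximalIdeal.isMaximal R).ne_top ((Ideal.eq_top_iff_one _).mpr ?_)
      have hp1 : (p : R) = 1 := by rw [hk]; push_cast; rw [h2R, zero_mul, zero_add]
      rwa [hp1] at hpR)
    show ((t + d) / 2) ^ 2 - t * ((t + d) / 2) + 1 = 0
    have h4 : (4 : K) ≠ 0 := by
      have e : (4 : K) = 2 ^ 2 := by norm_num
      rw [e]
      exact pow_ne_zero _ h2
    have e : ((t + d) / 2) * 2 = t + d := div_mul_cancel₀ _ h2
    refine mul_left_cancel₀ h4 ?_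
    rw [mul_zero]
    linear_combination ((t + d) / 2 * 2 + (t + d) - 2 * t) * e + hd
  refine ⟨x, hinj, hx, ?_⟩
  have hxint : IsIntegral R x := by
    refine ⟨Polynomial.X ^ 2 - Polynomial.C T.trace * Polynomial.X + 1, by monicity!, ?_⟩
    simpa [← ht] using hx
  let S := integralClosure R K
  let X : S := ⟨x, hxint⟩
  obtain ⟨I, hI, hIc⟩ := Ideal.exists_ideal_over_maximal_of_isIntegral (S := S)
    (IsLocalRing.maximalIdeal R) (by
      rw [(RingHom.injective_iff_ker_eq_bot _).mp (fun a b h => hinj (congrArg Subtype.val h))]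
      exact bot_le)
  have hmem : ∀ r ∈ IsLocalRing.maximalIdeal R, algebraMap R S r ∈ I := fun r hr => by
    rwa [← hIc, Ideal.mem_comap] at hr
  have hX1 : X - 1 ∈ I := by
    refine hI.isPrime.mem_of_pow_mem 2 ?_
    have e : (X - 1) ^ 2 = algebraMap R S (T.trace - 2) * X := Subtype.ext (by
      show (x - 1) ^ 2 = algebraMap R K (T.trace - 2) * x
      rw [map_sub, map_ofNat]
      linear_combination hx)
    rw [e]
    exact I.mul_mem_right _ (hmem _ htr)
  have hnat : ∀ n : ℕ, ¬ p ∣ n → (n : S) ∉ I := fun n hn h => by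
    have h1 : (n : R) ∈ IsLocalRing.maximalIdeal R := by
      rw [← hIc, Ideal.mem_comap, map_natCast]; exact h
    obtain ⟨u, v, huv⟩ := (Nat.isCoprime_iff_coprime.mpr (hp.coprime_iff_not_dvd.mpr hn))
    refine (IsLocalRing.maximalIdeal.isMaximal R).ne_top ((Ideal.eq_top_iff_one _).mpr ?_)
    have h2 := congrArg (fun z : ℤ => (z : R)) huv
    push_cast at h2
    rw [← h2]
    exact add_mem (Ideal.mul_mem_left _ _ hpR) (Ideal.mul_mem_left _ _ h1)
  have hxq : x ^ q = x := by
    have hPK : IsUnit ((algebraMap R K).mapMatrix P).det := by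
      rw [← RingHom.map_det]; exact hP.map _
    rcases eigen_pow (P := (algebraMap R K).mapMatrix P) (T := (algebraMap R K).mapMatrix T) hPK
      (by rw [← map_mul, hrel, map_mul, map_pow]) (by rw [← RingHom.map_det, hdet, map_one])
      (x := x) (by
        have : ((algebraMap R K).mapMatrix T).trace = t := by
          simp [ht, trace_fin_two]
        rw [this]; exact hx) with h | h
    · exact h
    · have hq1 : ¬ p ∣ q + 1 := fun h' => by
        have h2 : p ∣ 2 := by
          have := Nat.dvd_sub h' hpq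
          rwa [show q + 1 - (q - 1) = 2 by omega] at this
        exact hp2 ((Nat.prime_dvd_prime_iff_eq hp Nat.prime_two).mp h2)
      have hX : X = 1 := eq_one_of_pow_eq_one_of_sub_mem I (hnat _ hq1) hX1
        (Subtype.ext (by
          show x ^ (q + 1) = 1
          rw [pow_succ, h]))
      have hx1 : x = 1 := congrArg Subtype.val hX
      rw [hx1, one_pow]
  refine ⟨hxq, ?_⟩
  have hx0 : x ≠ 0 := fun h => by rw [h] at hx; simp at hx
  have hx1 : x ^ (q - 1) = 1 := by
    refine mul_right_cancel₀ hx0 ?_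
    rw [← pow_succ, Nat.sub_add_cancel hq.le, hxq, one_mul]
  obtain ⟨b, m, hpm, hbm⟩ := Nat.exists_eq_pow_mul_and_not_dvd
    (show q - 1 ≠ 0 by omega) p hp.ne_one
  have hXb : X ^ p ^ b - 1 ∈ I := by
    rw [← geom_sum_mul]; exact I.mul_mem_left _ hX1
  have hX : X ^ p ^ b = 1 := eq_one_of_pow_eq_one_of_sub_mem I (hnat m hpm) hXb
    (Subtype.ext (by
      show (x ^ p ^ b) ^ m = 1
      rw [← pow_mul, ← hbm, hx1]))
  have hxb : x ^ p ^ b = 1 := congrArg Subtype.val hX
  obtain ⟨c, hc⟩ := Nat.exists_eq_add_of_le (ha b (hbm ▸ dvd_mul_right _ _))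
  rw [hc, pow_add, pow_mul, hxb, one_pow]

/-- The trace of `T` is `η + η⁻¹` for a `p`-power root of unity `η` of `R` killed by `q - 1`. -/
theorem exists_trace_eq (hp : p.Prime) (hp2 : p ≠ 2)
    (hpR : (p : R) ∈ IsLocalRing.maximalIdeal R)
    (hq : 1 < q) (hpq : p ∣ q - 1) (hrel : P * T = T ^ q * P) (hP : IsUnit P.det)
    (hdet : T.det = 1) (htr : T.trace - 2 ∈ IsLocalRing.maximalIdeal R)
    (ha : ∀ b, p ^ b ∣ q - 1 → b ≤ a) {ζ : R} (hζ : IsPrimitiveRoot ζ (p ^ a)) :
    ∃ i < p ^ a, T.trace = ζ ^ i + ζ ^ (p ^ a - i) ∧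
      Local.Q3 (vec3 T) = (ζ ^ i - ζ ^ (p ^ a - i)) ^ 2 := by
  obtain ⟨K, _, f, x, hinj, hx, -, hxa⟩ := exists_eigen hp hp2 hpR hq hpq hrel hP hdet htr ha
  have : NeZero (p ^ a) := ⟨(pow_pos hp.pos a).ne'⟩
  obtain ⟨i, hi, he⟩ := (hζ.map_of_injective hinj).eq_pow_of_pow_eq_one hxa
  have hinv : ζ ^ i * ζ ^ (p ^ a - i) = 1 := by
    rw [← pow_add, Nat.add_sub_cancel' hi.le, hζ.pow_eq_one]
  have hx0 : x ≠ 0 := fun h => by rw [h] at hx; simp at hx
  have htr' : T.trace = ζ ^ i + ζ ^ (p ^ a - i) := hinj (mul_right_cancel₀ hx0 (by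
    have h1 := congrArg f hinv
    rw [map_mul, map_one] at h1
    rw [map_add, map_pow f ζ i, he]
    rw [map_pow f ζ i, he] at h1
    linear_combination -hx - h1))
  refine ⟨i, hi, htr', ?_⟩
  rw [Q3_vec3, hdet, htr']
  linear_combination (-4) * (-hinv)

/-- If `T` is not unipotent then it commutes with `P`. -/
theorem commute_of_trace_ne_two (hp : p.Prime) (hp2 : p ≠ 2)
    (hpR : (p : R) ∈ IsLocalRing.maximalIdeal R)
    (hq : 1 < q) (hpq : p ∣ q - 1) (hrel : P * T = T ^ q * P) (hP : IsUnit P.det)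
    (hdet : T.det = 1) (htr : T.trace - 2 ∈ IsLocalRing.maximalIdeal R) (hne : T.trace ≠ 2) :
    Commute P T := by
  have ha : ∀ b, p ^ b ∣ q - 1 → b ≤ q := fun b hb =>
    (Nat.lt_pow_self hp.one_lt).le.trans ((Nat.le_of_dvd (by omega) hb).trans (Nat.sub_le q 1))
  obtain ⟨K, _, f, x, hinj, hx, hxq, hxa⟩ := exists_eigen hp hp2 hpR hq hpq hrel hP hdet htr ha
  have hsq : x * x ≠ 1 := fun h => by
    obtain ⟨k, hk⟩ := (hp.odd_of_ne_two hp2).pow (n := q)
    have hx1 : x = 1 := by rwa [hk, pow_succ, pow_mul, sq, h, one_pow, one_mul] at hxa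
    refine hne (hinj ?_)
    rw [map_ofNat]
    rw [hx1] at hx
    linear_combination -hx
  have htrK : (f.mapMatrix T).trace = f T.trace := by simp [trace_fin_two]
  have hTK : (f.mapMatrix T) ^ q = f.mapMatrix T :=
    pow_eq_self (by rw [← RingHom.map_det, hdet, map_one]) (by rw [htrK]; exact hx) hxq hsq
  have hT : T ^ q = T := Matrix.map_injective hinj (by
    rw [← map_pow] at hTK
    exact hTK)
  rw [hT] at hrel
  exact hrel

end Local

end FLTA.RT.LocalGalois
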