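import Fermat.Agent.RT.Component
import Fermat.Agent.RT.LocalMatrix

/-!
# Points on Steinberg components

A point with Steinberg relations at every cone site lies on the component; so does the standard
point, whose inertia is non-zero.  Matrices with the tame relation, unipotent inertia and the trace
`α (q + 1)` of Frobenius give cone points.
-/

set_option autoImplicit false

noncomputable section

namespace FLTA.RT.Component

open IsLocalRing MvPowerSeries

section steinberg

variable {R : Type} [CommRing R] [IsDomain R]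

open Matrix in
/-- Unipotent inertia, determinant `q` and trace `α (q + 1)` of Frobenius give a cone point. -/
theorem isConePoint_of_tame {T P : Matrix (Fin 2) (Fin 2) R} {q : ℕ} {α : R} (hα : α ^ 2 = 1)
    (hq1 : (q : R) ≠ 1) (hq2 : (q : R) + 1 ≠ 0) (htrT : T.trace = 2) (hdetT : T.det = 1)
    (htrP : P.trace = α * ((q : R) + 1)) (hdetP : P.det = q) (hrel : P * T = T ^ q * P) :
    IsConePoint (α * ((q : R) - 1)) (LocalGalois.vec3 T) (LocalGalois.vec3 P) := by
  obtain ⟨N, hNdef⟩ : ∃ N, N = T - 1 := ⟨_, rfl⟩
  have htN : N 0 0 + N 1 1 = 0 := by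
    rw [trace_fin_two] at htrT
    simp only [hNdef, Matrix.sub_apply, Matrix.one_apply_eq]
    linear_combination htrT
  have hdN : N 0 0 * N 1 1 - N 0 1 * N 1 0 = 0 := by
    rw [trace_fin_two] at htrT
    rw [det_fin_two] at hdetT
    simp only [hNdef, Matrix.sub_apply, Matrix.one_apply_eq,
      Matrix.one_apply_ne (show (0 : Fin 2) ≠ 1 by decide),
      Matrix.one_apply_ne (show (1 : Fin 2) ≠ 0 by decide)]
    linear_combination hdetT - htrT
  have hN2 : N * N = 0 := by
    ext i j
    fin_cases i <;> fin_cases j <;> simp [Matrix.mul_apply, Fin.sum_univ_two] <;>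
      first
        | linear_combination N 0 0 * htN - hdN
        | linear_combination N 1 1 * htN - hdN
        | linear_combination N 0 1 * htN
        | linear_combination N 1 0 * htN
  have hTq : T ^ q = 1 + (q : R) • N := by
    have hT : T = 1 + N := by rw [hNdef]; abel
    have hall : ∀ k : ℕ, T ^ k = 1 + (k : R) • N := by
      intro k
      induction k with
      | zero => simp
      | succ k ih =>
        rw [pow_succ, ih, hT]
        simp only [add_mul, mul_add, Matrix.smul_mul, hN2, smul_zero, one_mul, mul_one,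
          Nat.cast_succ]
        module
    exact hall q
  have hPN : P * N = (q : R) • (N * P) := by
    rw [hNdef, mul_sub, mul_one, hrel, hTq, add_mul, one_mul, Matrix.smul_mul, hNdef]
    abel
  have hCH : P * P = P.trace • P - (q : R) • 1 := by
    rw [← hdetP]
    ext i j
    fin_cases i <;> fin_cases j <;>
      simp [Matrix.mul_apply, Fin.sum_univ_two, trace_fin_two, det_fin_two] <;> ring
  have hkey : (α * ((q : R) + 1) * (1 - q)) • (P * N) = ((q : R) * (1 - q ^ 2)) • N := by
    have h1 : P * P * N = ((q : R) * q) • (N * (P * P)) := by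
      rw [mul_assoc, hPN, Matrix.mul_smul, ← mul_assoc, hPN, Matrix.smul_mul, mul_assoc, smul_smul]
    rw [hCH, sub_mul, mul_sub, Matrix.smul_mul, Matrix.smul_mul, Matrix.mul_smul, Matrix.mul_smul,
      mul_one, one_mul, smul_sub, htrP, smul_smul, smul_smul] at h1
    ext i j
    have e1 := congrFun (congrFun h1 i) j
    have e2 := congrFun (congrFun hPN i) j
    simp only [Matrix.sub_apply, Matrix.smul_apply, smul_eq_mul] at e1 e2 ⊢
    linear_combination e1 - α * ((q : R) + 1) * (q : R) * e2
  have heig : ∀ i j, (P * N) i j = α * q * N i j := by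
    intro i j
    have e := congrFun (congrFun hkey i) j
    simp only [Matrix.smul_apply, smul_eq_mul] at e
    have hne : α * ((q : R) + 1) * (1 - q) ≠ 0 :=
      mul_ne_zero (mul_ne_zero (fun h => by simp [h] at hα) hq2) (sub_ne_zero.mpr (Ne.symm hq1))
    refine mul_left_cancel₀ hne (e.trans ?_)
    linear_combination -((q : R) + 1) * (1 - q) * q * N i j * hα
  have h00 := heig 0 0
  have h01 := heig 0 1
  have h10 := heig 1 0
  have h11 := heig 1 1
  rw [trace_fin_two] at htrP htrT
  rw [det_fin_two] at hdetP hdetT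
  simp only [Matrix.mul_apply, Fin.sum_univ_two, hNdef, Matrix.sub_apply, Matrix.one_apply_eq,
    Matrix.one_apply_ne (show (0 : Fin 2) ≠ 1 by decide),
    Matrix.one_apply_ne (show (1 : Fin 2) ≠ 0 by decide), sub_zero] at h00 h01 h10 h11
  constructor <;> simp [LocalGalois.vec3]
  · linear_combination (T 0 0 + T 1 1 + 2) * htrT - 4 * hdetT
  · linear_combination (P 0 0 + P 1 1 + α * ((q : R) + 1)) * htrP - 4 * hdetP
      + 4 * (q : R) * hα
  · linear_combination 4 * h00 - (T 0 0 - T 1 1) * htrP - (2 * P 0 0 - 2 * α * (q : R)) * htrT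
  · linear_combination 4 * h01 - 2 * T 0 1 * htrP - 2 * P 0 1 * htrT
  · linear_combination 4 * h10 - 2 * T 1 0 * htrP - 2 * P 1 0 * htrT
  · linear_combination 4 * h11 + (T 0 0 - T 1 1) * htrP + (2 * α * (q : R) - 2 * P 1 1) * htrT

end steinberg

variable {σ ι L O : Type} [CommRing O] [IsDomain O] [IsDiscreteValuationRing O] [Finite σ]
  [Fintype ι] [Fintype L] [IsAdicComplete (maximalIdeal O) O]
  {e : σ ≃ ((ι × Fin 3) ⊕ (ι × Fin 3)) ⊕ L} {π : ι → O} {cst : L → Option O}
  (hs : SmallConst π cst) {ϖ : O} (hϖ : maximalIdeal O = Ideal.span {ϖ}) (h2 : IsUnit (2 : O))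

include h2

/-- A point satisfying the relations lies on the component. -/
theorem component_le_ker {D : Type} [CommRing D] [IsDomain D] (φ : MvPowerSeries σ O →+* D)
    (hcone : ∀ i, IsConePoint (φ (C (π i))) (fun j => φ (siteV e i j)) fun j => φ (siteW e i j))
    (hconst : ∀ l c, cst l = some c → φ (siteL e l) = φ (C c)) :
    component e hs hϖ ≤ RingHom.ker φ := by
  have : (RingHom.ker φ).IsPrime := RingHom.ker_isPrime φ
  refine component_le hs hϖ h2 ⟨fun i => ?_, fun l c hc => ?_⟩
  · refine IsConePoint.of_map (RingHom.kerLift φ) (RingHom.kerLift_injective φ) ?_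
    simpa only [RingHom.kerLift_mk] using hcone i
  · rw [RingHom.mem_ker, map_sub, hconst l c hc, sub_self]

/-- The values of the standard point. -/
def stdVal (e : σ ≃ ((ι × Fin 3) ⊕ (ι × Fin 3)) ⊕ L) (π : ι → O) (cst : L → Option O) (ϖ : O)
    (free : L → O) (a : σ) : O :=
  Sum.elim (Sum.elim (fun ij => ![ϖ, 0, 0] ij.2) fun ij => ![0, 0, π ij.1] ij.2)
    (fun l => (cst l).getD (free l)) (e a)

/-- A point of the component with non-zero inertia at every cone site and prescribed free
coordinates. -/
theorem exists_point (free : L → O) (hfree : ∀ l, free l ∈ maximalIdeal O) :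
    ∃ x : MvPowerSeries σ O →+* O, (∀ c, x (C c) = c) ∧ component e hs hϖ ≤ RingHom.ker x ∧
      (∀ i, x (siteV e i 0) = ϖ) ∧ (∀ i, x (siteW e i 2) = π i) ∧
      ∀ l, cst l = none → x (siteL e l) = free l := by
  have hϖm : ϖ ∈ maximalIdeal O := hϖ ▸ Ideal.mem_span_singleton_self ϖ
  have hval : ∀ a, stdVal e π cst ϖ free a ∈ maximalIdeal O := fun a => by
    rcases h : e a with (⟨i, j⟩ | ⟨i, j⟩) | l
    · simp only [stdVal, h, Sum.elim_inl]
      fin_cases j <;> simp [hϖm]
    · simp only [stdVal, h, Sum.elim_inl, Sum.elim_inr]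
      fin_cases j <;> simp [hs.cone i]
    · simp only [stdVal, h, Sum.elim_inr]
      cases hc : cst l with
      | none => exact hfree l
      | some c => exact hs.other l c hc
  let x := coordHom (stdVal e π cst ϖ free) hval
  have hC : ∀ c, x (C c) = c := fun c => by simp [x, coordHom]
  have hX : ∀ a, x (X a) = stdVal e π cst ϖ free a := fun a => by simp [x, coordHom]
  refine ⟨x, hC, component_le_ker hs hϖ h2 x (fun i => ?_) (fun l c hc => ?_), fun i => ?_,
    fun i => ?_, fun l hl => ?_⟩
  · constructor <;> simp [siteV, siteW, hX, hC, stdVal]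
    · ring
  · simp [siteL, hX, hC, stdVal, hc]
  · simp [siteV, hX, stdVal]
  · simp [siteW, hX, stdVal]
  · simp [siteL, hX, stdVal, hl]

end FLTA.RT.Component
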