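import Fermat.Agent.RT.Local.Series
import Mathlib.RingTheory.DiscreteValuationRing.Basic
import Mathlib.RingTheory.Polynomial.Basic

/-!
# Parametrised primes of power series rings

Parameters come in two groups: unrestricted ones `U` and small ones `Θ`.  Values
`val : σ → MvPolynomial (U ⊕ Θ) O` divisible by `ϖ` after `θ ↦ ϖ θ` define the ideal `paramKer`
of the series vanishing on the parametrisation.  It is prime, since `ϖ` is prime in the polynomial
ring, and is contained in the kernel of every point with such parameters in a separated ring.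
-/

set_option autoImplicit false

noncomputable section

namespace FLTA.RT.Component

open IsLocalRing MvPowerSeries

variable {σ U Θ O : Type} [CommRing O] (ϖ : O)

/-- The substitution `θ ↦ ϖ θ` of the small parameters. -/
def shrink : MvPolynomial (U ⊕ Θ) O →+* MvPolynomial (U ⊕ Θ) O :=
  MvPolynomial.eval₂Hom MvPolynomial.C (Sum.elim (fun u => MvPolynomial.X (Sum.inl u))
    fun θ => MvPolynomial.C ϖ * MvPolynomial.X (Sum.inr θ))

/-- The small-parameter degree. -/
def smallDeg [Fintype Θ] (d : U ⊕ Θ →₀ ℕ) : ℕ := ∑ θ, d (Sum.inr θ)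

lemma coeff_shrink [Finite U] [Fintype Θ] (F : MvPolynomial (U ⊕ Θ) O) (d : U ⊕ Θ →₀ ℕ) :
    (shrink ϖ F).coeff d = ϖ ^ smallDeg d * F.coeff d := by
  classical
  have := Fintype.ofFinite U
  induction F using MvPolynomial.induction_on' with
  | add p q hp hq => rw [map_add, MvPolynomial.coeff_add, MvPolynomial.coeff_add, hp, hq, mul_add]
  | monomial e c =>
    have h : shrink ϖ (MvPolynomial.monomial e c) =
        MvPolynomial.monomial e (ϖ ^ smallDeg e * c) := by
      rw [shrink, MvPolynomial.eval₂Hom_monomial, Finsupp.prod_fintype _ _ fun _ => pow_zero _,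
        Fintype.prod_sum_type, MvPolynomial.monomial_eq, Finsupp.prod_fintype _ _
          fun _ => pow_zero _, Fintype.prod_sum_type]
      simp only [Sum.elim_inl, Sum.elim_inr, mul_pow, Finset.prod_mul_distrib, map_mul, map_pow,
        Finset.prod_pow_eq_pow_sum, smallDeg]
      ring
    rw [h, MvPolynomial.coeff_monomial, MvPolynomial.coeff_monomial]
    split_ifs with he
    · rw [he]
    · rw [mul_zero]

variable [Finite σ]

/-- The value of the truncation of order `n` at `ϖ`-divisible values. -/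
def truncVal {S : Type} [CommRing S] (I : Ideal S) (φ : O →+* S) (a : σ → S) (ha : ∀ i, a i ∈ I)
    (n : ℕ) : MvPowerSeries σ O →+* S ⧸ I ^ n :=
  (Ideal.Quotient.lift (MvPolynomial.idealOfVars σ O ^ n)
      ((Ideal.Quotient.mk (I ^ n)).comp (MvPolynomial.eval₂Hom φ a)) fun p hp => by
        rw [RingHom.comp_apply, Ideal.Quotient.eq_zero_iff_mem]
        have h := Ideal.mem_map_of_mem (MvPolynomial.eval₂Hom φ a) hp
        rw [Ideal.map_pow] at h
        refine Ideal.pow_right_mono ?_ n h
        rw [MvPolynomial.idealOfVars, Ideal.map_span, Ideal.span_le]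
        rintro _ ⟨_, ⟨i, rfl⟩, rfl⟩
        simpa using ha i).comp
    (truncTotalAlgHom σ O n).toRingHom

lemma truncVal_apply {S : Type} [CommRing S] (I : Ideal S) (φ : O →+* S) (a : σ → S)
    (ha : ∀ i, a i ∈ I) (n : ℕ) (f : MvPowerSeries σ O) :
    truncVal I φ a ha n f =
      Ideal.Quotient.mk (I ^ n) (MvPolynomial.eval₂Hom φ a (truncTotal n f)) := rfl

lemma truncVal_compat {S : Type} [CommRing S] (I : Ideal S) (φ : O →+* S) (a : σ → S)
    (ha : ∀ i, a i ∈ I) {m n : ℕ} (hle : m ≤ n) :
    (Ideal.Quotient.factorPow I hle).comp (truncVal I φ a ha n) = truncVal I φ a ha m := by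
  ext f
  rw [RingHom.comp_apply, truncVal_apply, truncVal_apply, Ideal.Quotient.factor_mk,
    Ideal.Quotient.mk_eq_mk_iff_sub_mem, ← map_sub]
  have h := Ideal.mem_map_of_mem (MvPolynomial.eval₂Hom φ a)
    (truncTotal_sub_truncTotal_mem_pow_idealOfVars hle le_rfl f)
  rw [Ideal.map_pow] at h
  refine Ideal.pow_right_mono ?_ m h
  rw [MvPolynomial.idealOfVars, Ideal.map_span, Ideal.span_le]
  rintro _ ⟨_, ⟨i, rfl⟩, rfl⟩
  simpa using ha i

variable {ϖ} (val : σ → MvPolynomial (U ⊕ Θ) O)

/-- The shrunk values are divisible by `ϖ`. -/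
abbrev IsSmall (ϖ : O) : Prop :=
  ∀ a, shrink ϖ (val a) ∈ Ideal.span {MvPolynomial.C ϖ}

variable {val} (hval : IsSmall val ϖ)

/-- The series vanishing on the parametrisation. -/
def paramKer : Ideal (MvPowerSeries σ O) :=
  ⨅ n, RingHom.ker (truncVal (Ideal.span {MvPolynomial.C ϖ}) MvPolynomial.C
    (fun a => shrink ϖ (val a)) hval n)

lemma mem_paramKer {f : MvPowerSeries σ O} :
    f ∈ paramKer hval ↔ ∀ n, (MvPolynomial.C ϖ : MvPolynomial (U ⊕ Θ) O) ^ n ∣
      MvPolynomial.eval₂Hom MvPolynomial.C (fun a => shrink ϖ (val a)) (truncTotal n f) := by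
  simp only [paramKer, Submodule.mem_iInf, RingHom.mem_ker, truncVal_apply,
    Ideal.Quotient.eq_zero_iff_mem, Ideal.span_singleton_pow, Ideal.mem_span_singleton]

/-- A polynomial in the coordinates vanishing on the values is in the parametrised ideal. -/
theorem coe_mem_paramKer {F : MvPolynomial σ O}
    (hF : MvPolynomial.eval₂Hom MvPolynomial.C val F = 0) :
    (F : MvPowerSeries σ O) ∈ paramKer hval := by
  simp only [paramKer, Submodule.mem_iInf, RingHom.mem_ker, truncVal_apply]
  intro n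
  have h : (truncTotal n (F : MvPowerSeries σ O) - F) ∈ MvPolynomial.idealOfVars σ O ^ n := by
    refine (MvPolynomial.mem_pow_idealOfVars_iff' ..).mpr fun d hd => ?_
    rw [MvPolynomial.coeff_sub, coeff_truncTotal _ hd, MvPolynomial.coeff_coe, sub_self]
  have h' := Ideal.mem_map_of_mem
    (MvPolynomial.eval₂Hom MvPolynomial.C fun a => shrink ϖ (val a)) h
  rw [Ideal.map_pow] at h'
  have h0 : MvPolynomial.eval₂Hom MvPolynomial.C (fun a => shrink ϖ (val a)) F = 0 := by
    have : (MvPolynomial.eval₂Hom MvPolynomial.C fun a => shrink ϖ (val a)) =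
        (shrink ϖ).comp (MvPolynomial.eval₂Hom MvPolynomial.C val) := by
      refine MvPolynomial.ringHom_ext (fun c => ?_) fun a => ?_
      · simp [shrink]
      · simp
    rw [this, RingHom.comp_apply, hF, map_zero]
  rw [map_sub, h0, sub_zero] at h'
  rw [Ideal.Quotient.eq_zero_iff_mem]
  refine Ideal.pow_right_mono ?_ n h'
  rw [MvPolynomial.idealOfVars, Ideal.map_span, Ideal.span_le]
  rintro _ ⟨_, ⟨i, rfl⟩, rfl⟩
  simpa using hval i

/-- The parametrised ideal is prime. -/
theorem paramKer_isPrime [IsDomain O] (hϖ : Prime ϖ) : (paramKer hval).IsPrime := by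
  classical
  set π : MvPolynomial (U ⊕ Θ) O := MvPolynomial.C ϖ
  have hπ : Prime π := (MvPolynomial.prime_C_iff _).mpr hϖ
  set E : ℕ → MvPowerSeries σ O → MvPolynomial (U ⊕ Θ) O := fun n f =>
    MvPolynomial.eval₂Hom MvPolynomial.C (fun a => shrink ϖ (val a)) (truncTotal n f)
  have hmem : ∀ {f}, f ∈ paramKer hval ↔ ∀ n, π ^ n ∣ E n f := fun {f} => mem_paramKer hval
  have hcompat : ∀ {m n}, m ≤ n → ∀ f, π ^ m ∣ E n f - E m f := by
    intro m n hmn f
    have h := RingHom.congr_fun (truncVal_compat (Ideal.span {π}) MvPolynomial.C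
      (fun a => shrink ϖ (val a)) hval hmn) f
    rw [RingHom.comp_apply, truncVal_apply, truncVal_apply, Ideal.Quotient.factor_mk,
      Ideal.Quotient.mk_eq_mk_iff_sub_mem, Ideal.span_singleton_pow,
      Ideal.mem_span_singleton] at h
    exact h
  -- the exact order of a series outside the ideal
  have hord : ∀ {f}, f ∉ paramKer hval → ∃ a n₀, ∀ n, n₀ ≤ n → a < n ∧
      π ^ a ∣ E n f ∧ ¬ π ^ (a + 1) ∣ E n f := by
    intro f hf
    rw [hmem] at hf
    push Not at hf
    obtain ⟨N, hN⟩ := hf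
    have hex : ∃ a, ¬ π ^ a ∣ E N f := ⟨N, hN⟩
    have hpos : Nat.find hex ≠ 0 := fun h0 => by
      have := Nat.find_spec hex
      rw [h0, pow_zero] at this
      exact this (one_dvd _)
    obtain ⟨a, ha⟩ := Nat.exists_eq_succ_of_ne_zero hpos
    have h1 : π ^ a ∣ E N f := not_not.mp (Nat.find_min hex (by omega))
    rw [Nat.succ_eq_add_one] at ha
    have h2 : ¬ π ^ (a + 1) ∣ E N f := by rw [← ha]; exact Nat.find_spec hex
    have haN : a + 1 ≤ N := by rw [← ha]; exact Nat.find_le hN
    refine ⟨a, N, fun n hn => ⟨by omega, ?_, fun h => h2 ?_⟩⟩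
    · simpa using dvd_add ((pow_dvd_pow π (by omega : a ≤ N)).trans (hcompat hn f)) h1
    · simpa using dvd_sub h ((pow_dvd_pow π haN).trans (hcompat hn f))
  refine ⟨fun h => ?_, fun {f g} hfg => ?_⟩
  · have h1 := hmem.mp ((Ideal.eq_top_iff_one _).mp h) 1
    have h2 : truncTotal 1 (1 : MvPowerSeries σ O) = 1 := by
      ext d
      rw [coeff_truncTotal_eq_ite, MvPolynomial.coeff_one, coeff_one]
      by_cases hd : d = 0
      · simp [hd]
      · rw [if_neg (by rw [Nat.lt_one_iff, Finsupp.degree_eq_zero_iff]; exact hd), if_neg]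
        exact fun h => hd h.symm
    simp only [E, h2, map_one, pow_one] at h1
    exact hπ.not_isUnit (isUnit_of_dvd_one h1)
  · by_contra hcon
    push Not at hcon
    obtain ⟨a, n₁, ha⟩ := hord hcon.1
    obtain ⟨b, n₂, hb⟩ := hord hcon.2
    obtain ⟨n, hn1, hn2, hn⟩ : ∃ n, n₁ ≤ n ∧ n₂ ≤ n ∧ a + b + 1 ≤ n :=
      ⟨n₁ + n₂ + (a + b + 1), by omega, by omega, by omega⟩
    obtain ⟨-, ⟨F, hF⟩, hF'⟩ := ha n hn1
    obtain ⟨-, ⟨G, hG⟩, hG'⟩ := hb n hn2
    have hmul : π ^ n ∣ E n (f * g) - E n f * E n g := by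
      have h := map_mul (truncVal (Ideal.span {π}) MvPolynomial.C
        (fun a => shrink ϖ (val a)) hval n) f g
      simp only [truncVal_apply] at h
      rw [← map_mul, Ideal.Quotient.mk_eq_mk_iff_sub_mem, Ideal.span_singleton_pow,
        Ideal.mem_span_singleton] at h
      exact h
    have h3 : π ^ (a + b + 1) ∣ E n f * E n g := by
      have := dvd_sub ((pow_dvd_pow π hn).trans (hmem.mp hfg n)) ((pow_dvd_pow π hn).trans hmul)
      simpa using this
    rw [hF, hG, show π ^ a * F * (π ^ b * G) = π ^ (a + b) * (F * G) by ring,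
      show π ^ (a + b + 1) = π ^ (a + b) * π from pow_succ π _] at h3
    rcases hπ.dvd_or_dvd ((mul_dvd_mul_iff_left (pow_ne_zero _ hπ.ne_zero)).mp h3) with h | h
    · exact hF' (by rw [hF, pow_succ]; exact mul_dvd_mul_left _ h)
    · exact hG' (by rw [hG, pow_succ]; exact mul_dvd_mul_left _ h)

/-- A point with admissible parameters lies on the parametrised prime. -/
theorem paramKer_le_ker [IsDomain O] [Finite U] [Finite Θ] (hϖ : Prime ϖ) {V : Type}
    [CommRing V] (I : Ideal V) [IsHausdorff I V] (ι : O →+* V) (φ : MvPowerSeries σ O →+* V)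
    (hC : ∀ c, φ (C c) = ι c) (hι : ι ϖ ∈ I) (hX : ∀ a, φ (X a) ∈ I) (η : U ⊕ Θ → V)
    (hη : ∀ θ, η (Sum.inr θ) ∈ I)
    (hφ : ∀ a, φ (X a) = MvPolynomial.eval₂Hom ι η (val a)) :
    paramKer hval ≤ RingHom.ker φ := by
  classical
  have := Fintype.ofFinite Θ
  intro f hf
  rw [RingHom.mem_ker]
  apply IsHausdorff.haus (inferInstance : IsHausdorff I V)
  intro N
  rw [SModEq.sub_mem, sub_zero, smul_eq_mul, Ideal.mul_top]
  have h1 : φ (f - (truncTotal N f : MvPolynomial σ O)) ∈ I ^ N := by
    have h := Ideal.mem_map_of_mem φ (Local.sub_truncTotal_mem f N)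
    rw [Ideal.map_pow] at h
    refine Ideal.pow_right_mono ?_ N h
    rw [Ideal.map_span, Ideal.span_le]
    rintro _ ⟨_, ⟨i, rfl⟩, rfl⟩
    exact hX i
  have h2 : φ ((truncTotal N f : MvPolynomial σ O) : MvPowerSeries σ O) ∈ I ^ N := by
    have e : φ.comp MvPolynomial.coeToMvPowerSeries.ringHom =
        (MvPolynomial.eval₂Hom ι η).comp (MvPolynomial.eval₂Hom MvPolynomial.C val) := by
      refine MvPolynomial.ringHom_ext (fun c => ?_) fun a => ?_
      · simp [hC]
      · simp [hφ]
    have e' := RingHom.congr_fun e (truncTotal N f)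
    simp only [RingHom.comp_apply, MvPolynomial.coeToMvPowerSeries.ringHom_apply] at e'
    rw [e']
    set F := MvPolynomial.eval₂Hom MvPolynomial.C val (truncTotal N f) with hF
    have hsh : shrink ϖ F =
        MvPolynomial.eval₂Hom MvPolynomial.C (fun a => shrink ϖ (val a)) (truncTotal N f) := by
      rw [hF, ← RingHom.comp_apply]
      exact RingHom.congr_fun (MvPolynomial.ringHom_ext (fun c => by simp [shrink])
        fun a => by simp) _
    have hdvd : MvPolynomial.C (ϖ ^ N) ∣ shrink ϖ F := by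
      rw [map_pow, hsh]
      exact (mem_paramKer hval).mp hf N
    rw [MvPolynomial.C_dvd_iff_dvd_coeff] at hdvd
    rw [MvPolynomial.as_sum F, map_sum]
    refine Submodule.sum_mem _ fun d _ => ?_
    have hd := hdvd d
    rw [coeff_shrink] at hd
    have hprod : (d.prod fun i e => η i ^ e) ∈ I ^ smallDeg d := by
      have := Fintype.ofFinite U
      rw [Finsupp.prod_fintype _ _ (fun _ => pow_zero _), Fintype.prod_sum_type, smallDeg,
        ← Finset.prod_pow_eq_pow_sum]
      exact Ideal.mul_mem_left _ _ (Ideal.prod_mem_prod fun θ _ => Ideal.pow_mem_pow (hη θ) _)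
    rw [MvPolynomial.eval₂Hom_monomial]
    by_cases hk : N ≤ smallDeg d
    · exact Ideal.mul_mem_left _ _ (Ideal.pow_le_pow_right hk hprod)
    · obtain ⟨k, hk'⟩ := Nat.exists_eq_add_of_le (Nat.le_of_not_le hk)
      rw [hk', pow_add, mul_dvd_mul_iff_left (pow_ne_zero _ hϖ.ne_zero)] at hd
      obtain ⟨c, hc⟩ := hd
      rw [hc, map_mul, map_pow, hk', mul_right_comm, add_comm (smallDeg d) k, pow_add]
      exact Ideal.mul_mem_right _ _ (Ideal.mul_mem_mul (Ideal.pow_mem_pow hι _) hprod)
  have h3 := add_mem h1 h2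
  rwa [← map_add, sub_add_cancel] at h3

end FLTA.RT.Component
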