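import Fermat.Agent.RT.DiscTwist
import Fermat.Agent.RT.DiscPush
import Fermat.Agent.RT.DiscOld
import Fermat.Agent.RT.CoeffChain

/-!
# Iterated twists on the classes with coefficients in a module

At a prime `q ∤ L` and primes `r ∈ Q`, `r ∥ L`: twisting `tH1` at level `L q` for the character
`∏ (ε_r ∘ a)²` at every `r` gives a natural map to `Hom(Γ₀(M q), V)`, `M = L ∏ Q`, equivariant
for the normalised operators, carrying vanishing traces along the sides at `q` to vanishing traces,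
and injective on the eigen classes with values in a field where the twist is trivial.
-/

set_option autoImplicit false

noncomputable section

open CongruenceSubgroup
open scoped MatrixGroups OnePoint

namespace FLTA.RT.Disc

open FLTA.Periods FLTA.LevelRaising

section same

variable {Γ : Type} [Group Γ] {R : Type} [CommRing R] {χ χ' : Γ →* Rˣ} {V : Type}
  [AddCommGroup V] [Module R V]

/-- Two twists acting equally on `V` give the same classes. -/
def sameTwist (h : ∀ γ (v : V), (χ γ : R) • v = (χ' γ : R) • v) :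
    tH1 χ V →ₗ[R] tH1 χ' V :=
  Submodule.mapQ _ _
    { toFun := fun f => (⟨f.1, fun a b => (f.2 a b).trans (by rw [h])⟩ : tCocycles χ' V)
      map_add' := fun _ _ => rfl
      map_smul' := fun _ _ => rfl }
    (by
      rintro _ ⟨v, rfl⟩
      exact ⟨v, Subtype.ext (funext fun γ => by
        show (tDelta χ' V v).1 γ = (tDelta χ V v).1 γ
        rw [tDelta_apply, tDelta_apply, h])⟩)

theorem sameTwist_symm (h : ∀ γ (v : V), (χ γ : R) • v = (χ' γ : R) • v) (x : tH1 χ V) :
    sameTwist (fun γ v => (h γ v).symm) (sameTwist h x) = x := by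
  obtain ⟨f, rfl⟩ := tClass_surjective χ x
  rfl

theorem sameTwist_map {W : Type} [AddCommGroup W] [Module R W]
    (h : ∀ γ (v : V), (χ γ : R) • v = (χ' γ : R) • v)
    (h' : ∀ γ (v : W), (χ γ : R) • v = (χ' γ : R) • v) (φ : V →ₗ[R] W) (x : tH1 χ V) :
    sameTwist h' (tH1Map χ φ x) = tH1Map χ' φ (sameTwist h x) := by
  obtain ⟨f, rfl⟩ := tClass_surjective χ x
  rfl

end same

variable {R : Type} [CommRing R]

theorem sameTwist_natHecke {L : ℕ} [NeZero L] {χ χ' : (ZMod L)ˣ →* Rˣ} {V : Type} [AddCommGroup V]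
    [Module R V] (h : ∀ γ (v : V), (gamChar χ γ : R) • v = (gamChar χ' γ : R) • v) {l : ℕ}
    (hl : l.Prime) (x : tH1 (gamChar χ) V) :
    sameTwist h ((natHecke χ l).app V x) = (natHecke χ' l).app V (sameTwist h x) := by
  have : NeZero l := ⟨hl.ne_zero⟩
  have := Fact.mk hl
  obtain ⟨f, rfl⟩ := tClass_surjective (gamChar χ) x
  by_cases hd : l ∣ L
  · rw [natHecke_of_dvd χ hd, natHecke_of_dvd χ' hd]
    rfl
  · rw [natHecke_of_not_dvd χ hd, natHecke_of_not_dvd χ' hd]
    show sameTwist h ((isWeight_T χ hd _).op V (tClass _ V f)) =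
      (isWeight_T χ' hd _).op V (sameTwist h (tClass _ V f))
    refine congrArg (tClass (gamChar χ') V) (Subtype.ext (funext fun γ => ?_))
    show ∑ z, (hwT χ (coprime_of_not_dvd hd) z : R) • f.1 ((repsT hd).cocyc γ z) =
      ∑ z, (hwT χ' (coprime_of_not_dvd hd) z : R) • f.1 ((repsT hd).cocyc γ z)
    refine Finset.sum_congr rfl fun z _ => ?_
    obtain ⟨δ, hδ⟩ := hwT_mem_range χ (coprime_of_not_dvd hd) z
    rw [← hδ, h, gamChar_apply]
    rw [gamChar_apply] at hδ
    have key : ∀ u : (ZMod L)ˣ, ∀ v : V, (χ u : R) • v = (χ' u : R) • v := fun u v => by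
      obtain ⟨g, rfl⟩ := aUnit_surjective L u
      exact h g v
    rw [← key (aUnit L δ), hδ, hwT_eq, hwT_eq, ← map_inv, ← map_inv, key]

/-- A scalar acting as one on the module acts as one on the classes. -/
theorem smul_eq_self_of_smul {Γ : Type} [Group Γ] {χ : Γ →* Rˣ} {V : Type} [AddCommGroup V]
    [Module R V] (c : R) (hc : ∀ v : V, c • v = v) (x : tH1 χ V) : c • x = x := by
  obtain ⟨f, rfl⟩ := tClass_surjective χ x
  rw [← map_smul]
  exact congrArg _ (Subtype.ext (funext fun γ => hc _))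

theorem chiUp_sigProd_eq (L q : ℕ) (Q : Finset ℕ) (ε : ∀ r : ℕ, (ZMod r)ˣ →* Rˣ)
    (hQ : ∀ r ∈ Q, r ∣ L) : chiUp (sigProd L Q ε) q = sigProd (L * q) Q ε := by
  refine MonoidHom.ext fun x => ?_
  rw [chiUp, MonoidHom.comp_apply, sigProd_apply, sigProd_apply]
  exact Finset.prod_congr rfl fun r hr => by rw [sigChar_unitsMap _ (hQ r hr)]

section twist

variable {r A B : ℕ} [Fact r.Prime] (hrA : r ∣ A) (hB : B = A * r) (ε : (ZMod r)ˣ →* Rˣ)
  (χ : (ZMod A)ˣ →* Rˣ) (χ' : (ZMod B)ˣ →* Rˣ)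
  (hχ : ∀ γ : Gamma0 B, gamChar χ (inclHom A r (castGamma hB γ)) =
    gamChar χ' γ * ε (aMod A r (castGamma hB γ)) ^ 2)

/-- The twist intertwines the operators at a prime not dividing the levels up to `ε(l)`. -/
theorem twistSys_natHecke_T [NeZero A] [NeZero B] {l : ℕ} (hl : l.Prime) (hlB : ¬ l ∣ B)
    (hlr : l.Coprime r) (hlA : l.Coprime A) (hlB' : l.Coprime B)
    (hχl : χ (ZMod.unitOfCoprime l hlA) =
      χ' (ZMod.unitOfCoprime l hlB') * ε (ZMod.unitOfCoprime l hlr) ^ 2)
    {V : Type} [AddCommGroup V] [Module R V] (x : tH1 (gamChar χ) V) :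
    (twistSys hrA hB ε χ χ' hχ).op V ((natHecke χ l).app V x) =
      (((ε (ZMod.unitOfCoprime l hlr))⁻¹ : Rˣ) : R) •
        (natHecke χ' l).app V ((twistSys hrA hB ε χ χ' hχ).op V x) := by
  subst hB
  have hlA' : ¬ l ∣ A := fun h => hlB (h.mul_right r)
  have := Fact.mk hl
  have : NeZero l := ⟨hl.ne_zero⟩
  rw [natHecke_of_not_dvd χ hlA', natHecke_of_not_dvd χ' hlB]
  show (twistSys hrA rfl ε χ χ' hχ).op V ((isWeight_T χ hlA' _).op V x) =
    _ • (isWeight_T χ' hlB _).op V ((twistSys hrA rfl ε χ χ' hχ).op V x)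
  rw [twistSys_op hrA ε χ χ' hχ, twistSys_op hrA ε χ χ' hχ]
  exact twistH_opT hrA ε χ χ' hχ hlA' hlB hlA hlB' hlr hχl _ _ x

/-- The twist intertwines the operators at a prime dividing the level up to `ε(l)`. -/
theorem twistSys_natHecke_U [NeZero A] [NeZero B] {l : ℕ} [NeZero l] (hlA : l ∣ A)
    (hlr : l.Coprime r) {V : Type} [AddCommGroup V] [Module R V] (x : tH1 (gamChar χ) V) :
    (twistSys hrA hB ε χ χ' hχ).op V ((natHecke χ l).app V x) =
      (((ε (ZMod.unitOfCoprime l hlr))⁻¹ : Rˣ) : R) •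
        (natHecke χ' l).app V ((twistSys hrA hB ε χ χ' hχ).op V x) := by
  subst hB
  rw [natHecke_of_dvd χ hlA, natHecke_of_dvd χ' (hlA.mul_right r)]
  show (twistSys hrA rfl ε χ χ' hχ).op V ((isWeight_U χ hlA).op V x) =
    _ • (isWeight_U χ' (hlA.mul_right r)).op V ((twistSys hrA rfl ε χ χ' hχ).op V x)
  rw [twistSys_op hrA ε χ χ' hχ, twistSys_op hrA ε χ χ' hχ]
  exact twistH_opU hrA ε χ χ' hχ hlA _ hlr _ _ x

/-- A twist trivial in a field kills no eigen class with `U_r = α ≠ 0`. -/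
theorem eq_zero_of_twistSys [NeZero A] [NeZero B] {k : Type} [Field k] [Algebra R k] {p : ℕ}
    [CharP k p] (hp : p.Prime) (hp2 : p ≠ 2) {L₁ : ℕ} [NeZero L₁] (hA : A = L₁ * r)
    (hrL : ¬ r ∣ L₁) (hε : ∀ u, algebraMap R k (ε u : R) = 1)
    (htriv : ∀ γ (v : k), (gamChar χ γ : R) • v = v)
    (htriv' : ∀ γ (v : k), (gamChar χ' γ : R) • v = v)
    (x : tH1 (gamChar χ) k) {α : k} (hα : α ≠ 0)
    (hU : tH1EquivHom htriv ((natHecke χ r).app k x) = α • tH1EquivHom htriv x)
    {ℓ : ℕ} [hℓ : Fact ℓ.Prime] (hℓ1 : (ℓ : ZMod B) = 1) {a : k}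
    (hT : tH1EquivHom htriv ((natHecke χ ℓ).app k x) = a • tH1EquivHom htriv x)
    (ha : a ≠ (ℓ : k) + 1) (h2 : (2 : k) ≠ 0)
    (hx : (twistSys hrA hB ε χ χ' hχ).op k x = 0) : x = 0 := by
  subst hB hA
  have : NeZero r := ⟨(Fact.out : r.Prime).ne_zero⟩
  have : NeZero ℓ := ⟨hℓ.out.ne_zero⟩
  set f := tH1EquivHom htriv x with hf
  rw [tH1EquivHom_natHecke χ htriv (Fact.out : r.Prime), heckeHom_eq_int,
    ← heckeHom_eq_int (𝕜 := k), ← hf] at hU
  rw [tH1EquivHom_natHecke χ htriv hℓ.out, heckeHom_eq_int, ← heckeHom_eq_int (𝕜 := k), ← hf] at hT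
  have hℓ1' : (ℓ : ZMod (L₁ * r)) = 1 := by
    have e := congrArg (ZMod.castHom (dvd_mul_right (L₁ * r) r) (ZMod (L₁ * r))) hℓ1
    rwa [map_natCast, map_one] at e
  have hℓL : ¬ ℓ ∣ L₁ * r := not_dvd_of_natCast_eq_one hℓ.out hℓ1'
  have hpar : ModularCurve.Period.IsParabolicHom (Gamma0 (L₁ * r)) f := by
    intro γ hγ
    have h := isParabolicHom_of_eisenstein k (fun z hz => by simpa [h2] using hz) hℓL hℓ1' f γ hγ
    rw [hT, AddMonoidHom.sub_apply, AddMonoidHom.smul_apply, AddMonoidHom.smul_apply,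
      nsmul_eq_mul, smul_eq_mul, ← sub_mul] at h
    refine (mul_eq_zero.mp h).resolve_left (sub_ne_zero.mpr ?_)
    exact_mod_cast ha
  have hf0 : f = 0 := by
    refine eq_zero_of_twist hp hp2 hrL hrA hpar hα hU (fun γ => ?_) hℓ1 hT ha
    have h := congrArg (fun y => tH1EquivHom htriv' y (Additive.ofMul γ)) hx
    simp only [map_zero, AddMonoidHom.zero_apply] at h
    rw [← h, hf]
    obtain ⟨g, rfl⟩ := tClass_surjective (gamChar χ) x
    show _ = ∑ u : (ZMod r)ˣ, (((ε u)⁻¹ : Rˣ) : R) • g.1 (twistCocyc hrA γ u)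
    refine Finset.sum_congr rfl fun u _ => ?_
    rw [← map_inv, Algebra.smul_def, hε, one_mul]
    rfl
  exact (tH1EquivHom htriv).injective (hf0.trans (map_zero _).symm)

end twist

variable {q : ℕ} [hq : Fact q.Prime] [NeZero q] {k : Type} [Field k] [Algebra R k] {p : ℕ}
  [CharP k p]

/-- Classes at level `L q` go to homomorphisms on `Γ₀(M q)`. -/
abbrev ChainMap (L q M : ℕ) (χ : (ZMod L)ˣ →* Rˣ) : Type 1 :=
  ∀ (V : Type) [AddCommGroup V] [Module R V],
    tH1 (gamChar (chiUp χ q)) V →ₗ[R] (Additive (Gamma0 (M * q)) →+ V)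

/-- **Iterated twists at `q ∤ L`.** -/
theorem exists_chain (hp : p.Prime) (hp2 : p ≠ 2) (h2 : (2 : k) ≠ 0) (S : Finset ℕ) (a : ℕ → R)
    (hne : ∀ M : ℕ, M ≠ 0 → ∃ l : ℕ, l.Prime ∧ l ∉ S ∧ (l : ZMod M) = 1 ∧
      algebraMap R k (a l) ≠ (l : k) + 1)
    (α : ℕ → R) (ε : ∀ r : ℕ, (ZMod r)ˣ →* Rˣ) (hε : ∀ r u, algebraMap R k (ε r u : R) = 1)
    (Q : Finset ℕ) :
    ∀ (L : ℕ) [NeZero L] (hqL : Nat.Coprime q L),
      (∀ r ∈ Q, r.Prime ∧ r ∣ L ∧ ¬ r * r ∣ L ∧ algebraMap R k (α r) ≠ 0) →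
      ∀ χ : (ZMod L)ˣ →* Rˣ, χ = sigProd L Q ε →
      ∃ (M : ℕ) (_ : NeZero M) (hqM : Nat.Coprime q M), M = L * ∏ r ∈ Q, r ∧
        ∃ J : ChainMap L q M χ,
          (∀ (V W : Type) [AddCommGroup V] [Module R V] [AddCommGroup W] [Module R W]
            (φ : V →ₗ[R] W) x, J W (tH1Map _ φ x) = φ.toAddMonoidHom.comp (J V x)) ∧
          (∀ (V : Type) [AddCommGroup V] [Module R V] (l : ℕ), l.Prime → ¬ l ∣ L * q → ∀ x,
            J V ((kap Q ε l : R) • (natHecke (chiUp χ q) l).app V x) =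
              heckeHom R (M * q) l (J V x)) ∧
          (∀ (V : Type) [AddCommGroup V] [Module R V] (x : tH1 (gamChar (chiUp χ q)) V),
            (∀ (b : Bool) (K : ℕ) (hLK : L ∣ K) (hqK : Nat.Coprime q K),
              (trSys hqL hLK (isTrans_sideTrans hqK b) χ).op V x = 0) →
            ∀ b γ, ∑ i, J V x
              (Additive.ofMul (transCocyc hqM dvd_rfl (isTrans_sideTrans hqM b) γ i)) = 0) ∧
          (∀ x : tH1 (gamChar (chiUp χ q)) k,
            (∀ l : ℕ, l.Prime → l ∉ S → ¬ l ∣ L * q →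
              (natHecke (chiUp χ q) l).app k x = a l • x) →
            (∀ r ∈ Q, (natHecke (chiUp χ q) r).app k x = α r • x) → J k x = 0 → x = 0) := by
  classical
  induction Q using Finset.induction_on with
  | empty =>
    intro L _ hqL _ χ hχ
    have h1 : ∀ u, χ u = 1 := fun u => by rw [hχ, sigProd_apply, Finset.prod_empty]
    have htriv : ∀ (V : Type) [AddCommGroup V] [Module R V] (γ : Gamma0 L) (v : V),
        (gamChar χ γ : R) • v = v := fun V _ _ γ v => by
      rw [gamChar_apply, h1, Units.val_one, one_smul]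
    have htriv' : ∀ (V : Type) [AddCommGroup V] [Module R V] (γ : Gamma0 (L * q)) (v : V),
        (gamChar (chiUp χ q) γ : R) • v = v := fun V _ _ γ v => by
      rw [← gamChar_inclHom]; exact htriv V _ v
    refine ⟨L, inferInstance, hqL, by simp, fun V _ _ => (tH1EquivHom (htriv' V)).toLinearMap,
      fun V W _ _ _ _ φ x => tH1EquivHom_map (htriv' V) (htriv' W) φ x,
      fun V _ _ l hl _ x => ?_, fun V _ _ x hx b γ => ?_, fun x _ _ hx => ?_⟩
    · rw [show kap ∅ ε l = 1 from Finset.prod_empty, Units.val_one, one_smul]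
      exact tH1EquivHom_natHecke _ (htriv' V) hl x
    · have h := congrArg (fun y => tH1EquivHom (htriv V) y (Additive.ofMul γ))
        (hx b L dvd_rfl hqL)
      simp only [map_zero, AddMonoidHom.zero_apply] at h
      rw [← h]
      obtain ⟨f, rfl⟩ := tClass_surjective (gamChar (chiUp χ q)) x
      show _ = ∑ i, ((1 : Rˣ) : R) • f.1 (transCocyc hqL dvd_rfl _ γ i)
      simp only [Units.val_one, one_smul]
      rfl
    · exact (tH1EquivHom (htriv' k)).injective (hx.trans (map_zero _).symm)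
  | @insert r s hrs ih =>
    intro L _ hqL hQ χ hχ
    obtain ⟨hr, hrL, hrr, hαr⟩ := hQ r (Finset.mem_insert_self r s)
    have := Fact.mk hr
    have : NeZero r := ⟨hr.ne_zero⟩
    have : NeZero (L * r) := ⟨mul_ne_zero (NeZero.ne L) hr.ne_zero⟩
    have hne' : ∀ x ∈ s, x ≠ r := fun x hx e => hrs (e ▸ hx)
    have hs : ∀ x ∈ s, x.Prime ∧ x ∣ L ∧ ¬ x * x ∣ L ∧ algebraMap R k (α x) ≠ 0 := fun x hx =>
      hQ x (Finset.mem_insert_of_mem hx)
    have hs' : ∀ x ∈ s, x.Prime ∧ x ∣ L * r ∧ ¬ x * x ∣ L * r ∧ algebraMap R k (α x) ≠ 0 :=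
      fun x hx => ⟨(hs x hx).1, (hs x hx).2.1.mul_right r, fun h => (hs x hx).2.2.1
        (Nat.Coprime.dvd_of_dvd_mul_right (by
          have hco := (Nat.coprime_primes (hs x hx).1 hr).mpr (hne' x hx)
          exact Nat.Coprime.mul_left hco hco) h), (hs x hx).2.2.2⟩
    have hqr : Nat.Coprime q r := hqL.coprime_dvd_right hrL
    have hqL' : Nat.Coprime q (L * r) := Nat.Coprime.mul_right hqL hqr
    set χ' : (ZMod (L * r))ˣ →* Rˣ := sigProd (L * r) s ε
    have hB : L * r * q = L * q * r := by ring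
    have hsplit : ∀ y, χ y = sigProd L s ε y * sigChar L (ε r) y ^ 2 := fun y => by
      rw [hχ, sigProd_apply, sigProd_apply, Finset.prod_insert hrs, mul_comm]
    have hχ' : ∀ γ : Gamma0 (L * r), gamChar χ (inclHom L r (castGamma rfl γ)) =
        gamChar χ' γ * ε r (aMod L r (castGamma rfl γ)) ^ 2 := by
      intro γ
      rw [gamChar_apply, gamChar_apply, hsplit, aUnit_incl]
      refine congrArg₂ (· * ·) ?_ ?_
      · rw [sigProd_apply, sigProd_apply]
        exact Finset.prod_congr rfl fun x hx =>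
          congrArg (· ^ 2) (sigChar_unitsMap (ε x) (hs x hx).2.1 (dvd_mul_right L r) _)
      · rw [sigChar_unitsMap _ hrL, sigChar_of_dvd _ (dvd_mul_left r L)]
        rfl
    have hχq : ∀ γ : Gamma0 (L * r * q),
        gamChar (chiUp χ q) (inclHom (L * q) r (castGamma hB γ)) =
          gamChar (chiUp χ' q) γ * ε r (aMod (L * q) r (castGamma hB γ)) ^ 2 := by
      intro γ
      rw [← gamChar_inclHom, ← gamChar_inclHom,
        show inclHom L q (inclHom (L * q) r (castGamma hB γ)) =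
          inclHom L r (castGamma rfl (inclHom (L * r) q γ)) from Subtype.ext rfl, hχ']
      congr 3
      exact Units.ext (by rw [coe_aMod, coe_aMod]; rfl)
    obtain ⟨M, hM0, hqM, hM, J, hnat, hHk, htr, hinj⟩ :=
      ih (L * r) hqL' hs' χ' rfl
    refine ⟨M, hM0, hqM, by rw [hM, Finset.prod_insert hrs]; ring,
      fun V _ _ => (J V).comp ((twistSys (hrL.mul_right q) hB (ε r) (chiUp χ q) (chiUp χ' q)
        hχq).op V), fun V W _ _ _ _ φ x => ?_, fun V _ _ l hl hlL x => ?_,
      fun V _ _ x hx => htr V _ fun b K hLK hqK => ?_, fun x hxT hxU hx => ?_⟩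
    · rw [LinearMap.comp_apply, LinearMap.comp_apply, TSys.op_natural, hnat]
    · have hlr : l.Coprime r := (Nat.coprime_primes hl hr).mpr fun e =>
        hlL (e ▸ hrL.mul_right q)
      have hlL' : ¬ l ∣ L * r * q := fun h => by
        rw [hB] at h
        exact (hl.dvd_mul.mp h).elim hlL (hl.coprime_iff_not_dvd.mp hlr)
      have hlA : l.Coprime (L * q) := hl.coprime_iff_not_dvd.mpr hlL
      have hlB : l.Coprime (L * r * q) := hl.coprime_iff_not_dvd.mpr hlL'
      have hχl : chiUp χ q (ZMod.unitOfCoprime l hlA) =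
          chiUp χ' q (ZMod.unitOfCoprime l hlB) * ε r (ZMod.unitOfCoprime l hlr) ^ 2 := by
        rw [chiUp, chiUp, MonoidHom.comp_apply, MonoidHom.comp_apply, unitsMap_unitOfCoprime,
          unitsMap_unitOfCoprime, hsplit, sigChar_unitOfCoprime _ hrL, epsAt, dif_pos hlr,
          sigProd_unitOfCoprime _ (fun x hx => (hs x hx).2.1),
          sigProd_unitOfCoprime _ (fun x hx => (hs' x hx).2.1)]
      rw [LinearMap.comp_apply, LinearMap.comp_apply, map_smul,
        twistSys_natHecke_T (hrL.mul_right q) hB (ε r) _ _ hχq hl hlL' hlr hlA hlB hχl, smul_smul,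
        ← Units.val_mul, kap, Finset.prod_insert hrs, epsAt, dif_pos hlr, mul_comm (ε r _),
        mul_inv_cancel_right]
      exact hHk V l hl hlL' _
    · have hLK' : L ∣ K := (Dvd.intro r rfl).trans hLK
      obtain ⟨c, hc⟩ := trSys_twist_comm hrL rfl hqL hqL' hB hLK (isTrans_sideTrans hqK b) (ε r)
        χ χ' hχ' hχq x
      rw [hx b K hLK' hqK, map_zero, ← Units.smul_def, smul_eq_zero_iff_eq] at hc
      exact hc
    · have htc : ∀ (u : (ZMod r)ˣ) (v : k), (ε r u : R) • v = v := fun u v => by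
        rw [Algebra.smul_def, hε, one_mul]
      have hχtriv : ∀ {L : ℕ} (Q : Finset ℕ) (γ : Gamma0 L) (v : k),
          (gamChar (sigProd L Q ε) γ : R) • v = v := fun {L} Q γ v => by
        rw [Algebra.smul_def, gamChar_apply, sigProd_apply, Units.coe_prod, map_prod,
          Finset.prod_eq_one fun x _ => ?_, one_mul]
        rw [Units.val_pow_eq_pow_val, map_pow]
        unfold sigChar
        split_ifs
        · rw [MonoidHom.comp_apply, hε, one_pow]
        · simp
      have htA : ∀ (γ : Gamma0 (L * q)) (v : k), (gamChar (chiUp χ q) γ : R) • v = v := fun γ v => by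
        rw [← gamChar_inclHom, hχ]; exact hχtriv _ _ v
      have htB : ∀ (γ : Gamma0 (L * r * q)) (v : k), (gamChar (chiUp χ' q) γ : R) • v = v :=
        fun γ v => by rw [← gamChar_inclHom]; exact hχtriv _ _ v
      set y := (twistSys (hrL.mul_right q) hB (ε r) (chiUp χ q) (chiUp χ' q) hχq).op k x with hy
      have hy0 : y = 0 := by
        refine hinj y (fun l hl hlS hlL' => ?_) (fun x' hx' => ?_) hx
        · have hlL : ¬ l ∣ L * q := fun h => hlL' (by rw [hB]; exact h.mul_right r)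
          have hlr : l.Coprime r := (Nat.coprime_primes hl hr).mpr fun e =>
            hlL (e ▸ hrL.mul_right q)
          have hlA : l.Coprime (L * q) := hl.coprime_iff_not_dvd.mpr hlL
          have hlB : l.Coprime (L * r * q) := hl.coprime_iff_not_dvd.mpr hlL'
          have hχl : chiUp χ q (ZMod.unitOfCoprime l hlA) =
              chiUp χ' q (ZMod.unitOfCoprime l hlB) * ε r (ZMod.unitOfCoprime l hlr) ^ 2 := by
            rw [chiUp, chiUp, MonoidHom.comp_apply, MonoidHom.comp_apply, unitsMap_unitOfCoprime,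
              unitsMap_unitOfCoprime, hsplit, sigChar_unitOfCoprime _ hrL, epsAt, dif_pos hlr,
              sigProd_unitOfCoprime _ (fun x hx => (hs x hx).2.1),
              sigProd_unitOfCoprime _ (fun x hx => (hs' x hx).2.1)]
          have h := twistSys_natHecke_T (hrL.mul_right q) hB (ε r) _ _ hχq hl hlL' hlr hlA hlB hχl x
          rw [hxT l hl hlS hlL, map_smul, ← hy, ← map_inv,
            smul_eq_self_of_smul ((ε r (ZMod.unitOfCoprime l hlr)⁻¹ : Rˣ) : R) (htc _)] at h
          exact h.symm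
        · have hxp := (hs x' hx').1
          have : NeZero x' := ⟨hxp.ne_zero⟩
          have hlr : x'.Coprime r := (Nat.coprime_primes hxp hr).mpr (hne' x' hx')
          have h := twistSys_natHecke_U (hrL.mul_right q) hB (ε r) _ _ hχq ((hs x' hx').2.1.mul_right q) hlr x
          rw [hxU x' (Finset.mem_insert_of_mem hx'), map_smul, ← hy, ← map_inv,
            smul_eq_self_of_smul ((ε r (ZMod.unitOfCoprime x' hlr)⁻¹ : Rˣ) : R) (htc _)] at h
          exact h.symm
      obtain ⟨L₁, hL₁⟩ := id hrL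
      have hA : L * q = L₁ * q * r := by rw [hL₁]; ring
      have : NeZero (L₁ * q) := ⟨left_ne_zero_of_mul (a := L₁ * q) (b := r) (hA ▸ NeZero.ne _)⟩
      have hrL₁ : ¬ r ∣ L₁ * q := fun h => by
        rcases hr.dvd_mul.mp h with h1 | h1
        · exact hrr (hL₁ ▸ mul_dvd_mul_left r h1)
        · exact hr.coprime_iff_not_dvd.mp hqr.symm h1
      obtain ⟨ℓ, hℓ, hℓS, hℓ1, hℓne⟩ := hne (L * r * q) (NeZero.ne _)
      have := Fact.mk hℓ
      have hℓL : ¬ ℓ ∣ L * q := fun h =>
        not_dvd_of_natCast_eq_one hℓ hℓ1 (by rw [hB]; exact h.mul_right r)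
      refine eq_zero_of_twistSys (hrL.mul_right q) hB (ε r) _ _ hχq hp hp2 hA hrL₁ (hε r) htA htB x hαr ?_ hℓ1
        ?_ hℓne h2 (hy ▸ hy0)
      · rw [hxU r (Finset.mem_insert_self r s), map_smul]
        exact AddMonoidHom.ext fun z => Algebra.smul_def _ _
      · rw [hxT ℓ hℓ hℓS hℓL, map_smul]
        exact AddMonoidHom.ext fun z => Algebra.smul_def _ _

end FLTA.RT.Disc

end
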