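import Fermat.Agent.RT.RaiseLocal

/-!
# The two traces at `q` in terms of transversals congruent to `1`

`sideGroup q b` is `Γ₀(q)` (`b = false`) or `Γ⁰(q)` (`b = true`).  A transversal `s` of it inside
`Γ(K)`, `M ∣ K`, gives a transfer from level `M q` to level `M` with representatives `D_b s i`,
`D_b = diag(1, 1)` resp. `diag(1, q)`.  Up to units these are the corestriction and its composite
with the Atkin–Lehner map.
-/

set_option autoImplicit false

noncomputable section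

open CongruenceSubgroup
open scoped MatrixGroups

universe u

namespace FLTA.RT.Disc

open FLTA.Periods FLTA.LevelRaising

variable (q : ℕ) (b : Bool)

/-- The entry deciding membership of a side group. -/
def sideEntry (g : SL(2, ℤ)) : ℤ := if b then g 0 1 else g 1 0

/-- `Γ₀(q)`, resp. `Γ⁰(q)`. -/
def sideGroup : Subgroup SL(2, ℤ) where
  carrier := {g | (q : ℤ) ∣ sideEntry b g}
  one_mem' := by cases b <;> simp [sideEntry]
  mul_mem' {g h} hg hh := by
    cases b <;>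
      simp only [sideEntry, if_true, Bool.false_eq_true, if_false, Set.mem_ofPred_eq,
        Matrix.SpecialLinearGroup.coe_mul, Matrix.mul_apply, Fin.sum_univ_two] at hg hh ⊢
    · exact dvd_add (hg.mul_right _) (hh.mul_left _)
    · exact dvd_add (hh.mul_left _) (hg.mul_right _)
  inv_mem' {g} hg := by
    cases b <;>
      simp only [sideEntry, if_true, Bool.false_eq_true, if_false, Set.mem_ofPred_eq,
        Matrix.SpecialLinearGroup.coe_inv, Matrix.adjugate_fin_two] at hg ⊢ <;>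
      simpa using hg

theorem mem_sideGroup {g : SL(2, ℤ)} : g ∈ sideGroup q b ↔ (q : ℤ) ∣ sideEntry b g := Iff.rfl

/-- A transversal of a side group inside `Γ(K)`. -/
structure IsTrans (K : ℕ) {ι : Type} (s : ι → SL(2, ℤ)) : Prop where
  mem : ∀ i, s i ∈ CongruenceSubgroup.Gamma K
  inj : ∀ i j, s i * (s j)⁻¹ ∈ sideGroup q b → i = j
  surj : ∀ g : SL(2, ℤ), ∃ i, g * (s i)⁻¹ ∈ sideGroup q b

variable {q b}

theorem IsTrans.perm_unique {K : ℕ} {ι : Type} {s : ι → SL(2, ℤ)} (hs : IsTrans q b K s)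
    {g : SL(2, ℤ)} {i j : ι} (hi : g * (s i)⁻¹ ∈ sideGroup q b) (hj : g * (s j)⁻¹ ∈ sideGroup q b) :
    i = j := by
  refine hs.inj i j ?_
  have h := (sideGroup q b).mul_mem ((sideGroup q b).inv_mem hi) hj
  rwa [show (g * (s i)⁻¹)⁻¹ * (g * (s j)⁻¹) = s i * (s j)⁻¹ by group] at h

variable (q b) in
/-- `D_b`. -/
def sideMat [NeZero q] : GL (Fin 2) ℝ := if b then ModularForm.heckeMatrix q 0 else 1

theorem gamma_top {K : ℕ} {g : SL(2, ℤ)} (hg : g ∈ CongruenceSubgroup.Gamma K) :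
    ((g 0 0 : ℤ) : ZMod K) = 1 ∧ ((g 1 0 : ℤ) : ZMod K) = 0 :=
  ⟨(Gamma_mem.mp hg).1, (Gamma_mem.mp hg).2.2.1⟩

theorem gamma_le {K M : ℕ} (h : M ∣ K) {g : SL(2, ℤ)} (hg : g ∈ CongruenceSubgroup.Gamma K) :
    g ∈ CongruenceSubgroup.Gamma M := by
  obtain ⟨h1, h2, h3, h4⟩ := Gamma_mem.mp hg
  refine Gamma_mem.mpr ⟨?_, ?_, ?_, ?_⟩
  · have h' := congrArg (ZMod.castHom h (ZMod M)) h1
    simpa only [map_intCast, map_one, map_zero] using h'
  · have h' := congrArg (ZMod.castHom h (ZMod M)) h2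
    simpa only [map_intCast, map_one, map_zero] using h'
  · have h' := congrArg (ZMod.castHom h (ZMod M)) h3
    simpa only [map_intCast, map_one, map_zero] using h'
  · have h' := congrArg (ZMod.castHom h (ZMod M)) h4
    simpa only [map_intCast, map_one, map_zero] using h'

theorem gamma_mem_Gamma0 {M : ℕ} {g : SL(2, ℤ)} (hg : g ∈ CongruenceSubgroup.Gamma M) :
    g ∈ Gamma0 M :=
  Gamma0_mem.mpr (Gamma_mem.mp hg).2.2.1

theorem aUnit_gamma {M : ℕ} {g : Gamma0 M} (hg : (g : SL(2, ℤ)) ∈ CongruenceSubgroup.Gamma M) :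
    aUnit M g = 1 :=
  Units.ext (by rw [coe_aUnit]; exact (Gamma_mem.mp hg).1)

theorem val_gamma0GL' {N : ℕ} (γ : Gamma0 N) :
    ((gamma0GL N γ : GL (Fin 2) ℝ) : Matrix (Fin 2) (Fin 2) ℝ)
      = !![((((γ : SL(2, ℤ)) 0 0 : ℤ)) : ℝ), (((γ : SL(2, ℤ)) 0 1 : ℤ) : ℝ);
          (((γ : SL(2, ℤ)) 1 0 : ℤ) : ℝ), (((γ : SL(2, ℤ)) 1 1 : ℤ) : ℝ)] := by
  ext r s
  rw [gamma0GL_apply]
  fin_cases r <;> fin_cases s <;> rfl

variable {M : ℕ} [NeZero q]

/-- Elements of a side group descend to level `M q`. -/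
theorem exists_down (hqM : Nat.Coprime q M) (g : Gamma0 M)
    (hg : (g : SL(2, ℤ)) ∈ sideGroup q b) :
    ∃ h : Gamma0 (M * q), sideMat q b * gamma0GL M g = gamma0GL (M * q) h * sideMat q b ∧
      (h : SL(2, ℤ)) 0 0 = (g : SL(2, ℤ)) 0 0 := by
  obtain ⟨k, hk⟩ := hg
  obtain ⟨c, hc⟩ := dvd_of_mem_Gamma0 g.2
  have hd := (g : SL(2, ℤ)).det_coe
  rw [Matrix.det_fin_two] at hd
  cases b
  · simp only [sideEntry, Bool.false_eq_true, if_false] at hk
    have hmem : (g : SL(2, ℤ)) ∈ Gamma0 (M * q) := mem_Gamma0_of_dvd (by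
      push_cast
      exact IsCoprime.mul_dvd (Int.isCoprime_iff_nat_coprime.mpr (by simpa using hqM.symm))
        ⟨c, hc⟩ ⟨k, hk⟩)
    exact ⟨⟨_, hmem⟩, by simp only [sideMat, Bool.false_eq_true, if_false, one_mul, mul_one]; rfl,
      rfl⟩
  · simp only [sideEntry, if_true] at hk
    refine ⟨⟨⟨!![(g : SL(2, ℤ)) 0 0, k; (q : ℤ) * (g : SL(2, ℤ)) 1 0, (g : SL(2, ℤ)) 1 1], by
        rw [Matrix.det_fin_two_of]; rw [hk] at hd; linear_combination hd⟩,
      mem_Gamma0_of_dvd ⟨c, by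
        show (q : ℤ) * (g : SL(2, ℤ)) 1 0 = _
        rw [hc]; push_cast; ring⟩⟩, ?_, rfl⟩
    have hq : (q : ℝ) ≠ 0 := Nat.cast_ne_zero.mpr (NeZero.ne q)
    have hkR : (((g : SL(2, ℤ)) 0 1 : ℤ) : ℝ) = q * k := by exact_mod_cast hk
    refine Units.ext ?_
    rw [Units.val_mul, Units.val_mul, val_gamma0GL', val_gamma0GL']
    ext r s
    fin_cases r <;> fin_cases s <;>
      simp [sideMat, Matrix.mul_apply, Fin.sum_univ_two,
        ModularForm.val_heckeMatrix (NeZero.ne q), hkR, mul_comm]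

variable {R : Type u} [CommRing R] {ι : Type} [Fintype ι] {K : ℕ} {s : ι → SL(2, ℤ)}

/-- The element of `Γ₀(M)` underlying a step of the transfer. -/
def stepElt (hKM : M ∣ K) (hs : IsTrans q b K s) (γ : Gamma0 M) (i j : ι) : Gamma0 M :=
  ⟨s i, gamma_mem_Gamma0 (gamma_le hKM (hs.mem i))⟩ * γ *
    (⟨s j, gamma_mem_Gamma0 (gamma_le hKM (hs.mem j))⟩ : Gamma0 M)⁻¹

omit [Fintype ι] [NeZero q] in
@[simp] theorem coe_stepElt (hKM : M ∣ K) (hs : IsTrans q b K s) (γ : Gamma0 M) (i j : ι) :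
    (stepElt hKM hs γ i j : SL(2, ℤ)) = s i * γ * (s j)⁻¹ := rfl

/-- The permutation of the transfer. -/
def transPerm (hs : IsTrans q b K s) (γ : SL(2, ℤ)) (i : ι) : ι := (hs.surj (s i * γ)).choose

omit [Fintype ι] [NeZero q] in
theorem transPerm_spec (hs : IsTrans q b K s) (γ : SL(2, ℤ)) (i : ι) :
    s i * γ * (s (transPerm hs γ i))⁻¹ ∈ sideGroup q b := (hs.surj (s i * γ)).choose_spec

omit [Fintype ι] [NeZero q] in
theorem transPerm_mul (hs : IsTrans q b K s) (g h : SL(2, ℤ)) (i : ι) :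
    transPerm hs (g * h) i = transPerm hs h (transPerm hs g i) := by
  refine hs.perm_unique (transPerm_spec hs (g * h) i) ?_
  have h1 := (sideGroup q b).mul_mem (transPerm_spec hs g i) (transPerm_spec hs h (transPerm hs g i))
  convert h1 using 1
  group

omit [Fintype ι] [NeZero q] in
theorem transPerm_one (hs : IsTrans q b K s) (i : ι) : transPerm hs 1 i = i :=
  hs.perm_unique (transPerm_spec hs 1 i) (by
    rw [mul_one, mul_inv_cancel]; exact (sideGroup q b).one_mem)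

/-- The cocycle of the transfer. -/
def transCocyc (hqM : Nat.Coprime q M) (hKM : M ∣ K) (hs : IsTrans q b K s) (γ : Gamma0 M)
    (i : ι) : Gamma0 (M * q) :=
  (exists_down hqM (stepElt hKM hs γ i (transPerm hs (γ : SL(2, ℤ)) i))
    (transPerm_spec hs _ i)).choose

omit [Fintype ι] in
theorem transCocyc_spec (hqM : Nat.Coprime q M) (hKM : M ∣ K) (hs : IsTrans q b K s)
    (γ : Gamma0 M) (i : ι) :
    sideMat q b * gamma0GL M (stepElt hKM hs γ i (transPerm hs (γ : SL(2, ℤ)) i)) =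
      gamma0GL (M * q) (transCocyc hqM hKM hs γ i) * sideMat q b ∧
    (transCocyc hqM hKM hs γ i : SL(2, ℤ)) 0 0 =
      (stepElt hKM hs γ i (transPerm hs (γ : SL(2, ℤ)) i) : SL(2, ℤ)) 0 0 :=
  (exists_down hqM (stepElt hKM hs γ i (transPerm hs (γ : SL(2, ℤ)) i))
    (transPerm_spec hs _ i)).choose_spec

/-- The representative `D_b s i`. -/
def transRep (q : ℕ) [NeZero q] (b : Bool) {ι : Type} (s : ι → SL(2, ℤ)) (i : ι) :
    GL (Fin 2) ℝ :=
  sideMat q b * Matrix.SpecialLinearGroup.mapGL ℝ (s i)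

/-- The trace along a side. -/
def trSys (hqM : Nat.Coprime q M) (hKM : M ∣ K) (hs : IsTrans q b K s) (χ : (ZMod M)ˣ →* Rˣ) :
    TSys (gamma0GL M) (gamma0GL (M * q)) (gamChar χ) (gamChar (chiUp χ q)) ι where
  rep := transRep q b s
  perm γ :=
    { toFun := transPerm hs (γ : SL(2, ℤ))
      invFun := transPerm hs (γ : SL(2, ℤ))⁻¹
      left_inv := fun i => by rw [← transPerm_mul, mul_inv_cancel, transPerm_one]
      right_inv := fun i => by rw [← transPerm_mul, inv_mul_cancel, transPerm_one] }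
  cocyc := transCocyc hqM hKM hs
  rep_mul γ i := by
    show sideMat q b * _ * _ = _ * (sideMat q b * _)
    rw [← mul_assoc (gamma0GL (M * q) _), ← (transCocyc_spec hqM hKM hs γ i).1, mul_assoc,
      mul_assoc]
    congr 1
    show _ = Matrix.SpecialLinearGroup.mapGL ℝ (stepElt hKM hs γ i _ : SL(2, ℤ)) * _
    rw [coe_stepElt]
    show Matrix.SpecialLinearGroup.mapGL ℝ (s i) * Matrix.SpecialLinearGroup.mapGL ℝ (γ : SL(2, ℤ)) =
      _ * Matrix.SpecialLinearGroup.mapGL ℝ (s (transPerm hs (γ : SL(2, ℤ)) i))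
    rw [← map_mul, ← map_mul, inv_mul_cancel_right]
  cocyc_mul g h i := by
    refine gamma0GL_injective (mul_right_cancel (b := sideMat q b) ?_)
    show _ = gamma0GL (M * q) (_ * transCocyc hqM hKM hs h (transPerm hs (g : SL(2, ℤ)) i)) * _
    rw [← (transCocyc_spec hqM hKM hs (g * h) i).1, map_mul, mul_assoc,
      ← (transCocyc_spec hqM hKM hs h _).1, ← mul_assoc, ← (transCocyc_spec hqM hKM hs g i).1,
      mul_assoc, ← map_mul]
    congr 2
    refine Subtype.ext ?_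
    show s i * ((g : SL(2, ℤ)) * h) * (s (transPerm hs ((g : SL(2, ℤ)) * h) i))⁻¹ = _
    rw [transPerm_mul, Subgroup.coe_mul, coe_stepElt, coe_stepElt]
    group
  perm_mul g h i := transPerm_mul hs _ _ i
  w _ := 1
  compat γ i := by
    rw [one_mul, mul_one, ← gamChar_inclHom, gamChar_apply, gamChar_apply]
    refine congrArg χ ?_
    have h1 : aUnit M (inclHom M q (transCocyc hqM hKM hs γ i)) =
        aUnit M (stepElt hKM hs γ i (transPerm hs (γ : SL(2, ℤ)) i)) := by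
      refine Units.ext ?_
      rw [coe_aUnit, coe_aUnit, inclHom_coe, (transCocyc_spec hqM hKM hs γ i).2]
    have hj : ∀ j, aUnit M (⟨s j, gamma_mem_Gamma0 (gamma_le hKM (hs.mem j))⟩ : Gamma0 M) = 1 :=
      fun j => aUnit_gamma (gamma_le hKM (hs.mem j))
    rw [h1, stepElt, map_mul, map_mul, map_inv, hj, hj, one_mul, inv_one, mul_one]

omit [Fintype ι] in
@[simp] theorem trSys_rep (hqM : Nat.Coprime q M) (hKM : M ∣ K) (hs : IsTrans q b K s)
    (χ : (ZMod M)ˣ →* Rˣ) : (trSys hqM hKM hs χ).rep = transRep q b s := rfl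

omit [Fintype ι] in
@[simp] theorem trSys_w (hqM : Nat.Coprime q M) (hKM : M ∣ K) (hs : IsTrans q b K s)
    (χ : (ZMod M)ˣ →* Rˣ) (i : ι) : (trSys hqM hKM hs χ).w i = 1 := rfl

omit [Fintype ι] in
/-- Two representatives of a transfer along a side differ only if their cosets do. -/
theorem transRep_unique (hs : IsTrans q b K s) (i j : ι) (δ : Gamma0 (M * q))
    (h : gamma0GL (M * q) δ * transRep q b s i = transRep q b s j) : i = j := by
  refine (hs.inj j i ?_).symm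
  rw [transRep, transRep, ← mul_assoc] at h
  have h1 : sideMat q b * Matrix.SpecialLinearGroup.mapGL ℝ (s j * (s i)⁻¹) =
      gamma0GL (M * q) δ * sideMat q b := by
    rw [map_mul, map_inv, ← mul_assoc, ← h, mul_inv_cancel_right]
  cases b
  · simp only [sideMat, Bool.false_eq_true, if_false, one_mul, mul_one] at h1
    rw [Matrix.SpecialLinearGroup.mapGL_injective (R := ℤ) (S := ℝ)
      (h1 : Matrix.SpecialLinearGroup.mapGL ℝ (s j * (s i)⁻¹)
        = Matrix.SpecialLinearGroup.mapGL ℝ (δ : SL(2, ℤ))), mem_sideGroup, sideEntry]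
    simp only [Bool.false_eq_true, if_false]
    exact dvd_lowerLeft_right δ.2
  · have h2 := congrArg Units.val h1
    rw [Units.val_mul, Units.val_mul, val_gamma0GL'] at h2
    have h2 := congrArg (fun g : Matrix (Fin 2) (Fin 2) ℝ => g 0 1) h2
    simp [sideMat, Matrix.mul_apply, Fin.sum_univ_two, -map_mul, -map_inv,
      ModularForm.val_heckeMatrix (NeZero.ne q)] at h2
    rw [mem_sideGroup]
    refine ⟨(δ : SL(2, ℤ)) 0 1, ?_⟩
    simp only [sideEntry, if_true]
    apply Int.cast_injective (α := ℝ)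
    push_cast
    rw [mul_comm, ← h2]
    simp [Matrix.mul_apply, Fin.sum_univ_two]

omit [Fintype ι] in
/-- A transfer with representatives `D_b g₀ y⁻¹` over the cosets of `Γ₀(M q)` is a unit multiple of
the trace along the side `b`, if `g₀` conjugates `Γ₀(q)` to the side group. -/
theorem op_eq_trSys [Fintype ι] [Fact q.Prime] (hqM : Nat.Coprime q M) (hKM : M ∣ K)
    (hs : IsTrans q b K s) (χ : (ZMod M)ˣ →* Rˣ) (g₀ : Gamma0 M)
    (hconj : ∀ n : Gamma0 M,
      ((g₀ * n * g₀⁻¹ : Gamma0 M) : SL(2, ℤ)) ∈ sideGroup q b ↔ (q : ℤ) ∣ (n : SL(2, ℤ)) 1 0)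
    {κ : Type} [Fintype κ] (e : κ ≃ Gamma0 M ⧸ (Gamma0 (M * q)).subgroupOf (Gamma0 M))
    (S : TSys (gamma0GL M) (gamma0GL (M * q)) (gamChar χ) (gamChar (chiUp χ q)) κ)
    (hrep : ∀ y, S.rep y = sideMat q b * gamma0GL M (g₀ * (e y).out⁻¹))
    (hw : ∀ y, S.w y = gamChar χ (e y).out) {V : Type u} [AddCommGroup V] [Module R V]
    (x : tH1 (gamChar (chiUp χ q)) V) :
    S.op V x = (gamChar χ g₀ : R) • (trSys hqM hKM hs χ).op V x := by
  let t : ι → Gamma0 M := fun i => ⟨s i, gamma_mem_Gamma0 (gamma_le hKM (hs.mem i))⟩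
  have ht : ∀ i, gamChar χ (t i) = 1 := fun i => by
    rw [gamChar_apply, aUnit_gamma (gamma_le hKM (hs.mem i)), map_one]
  have hq : ∀ n : Gamma0 M, n ∈ (Gamma0 (M * q)).subgroupOf (Gamma0 M) ↔
      (q : ℤ) ∣ (n : SL(2, ℤ)) 1 0 := fun n => by
    refine ⟨fun hn => dvd_lowerLeft_right (Subgroup.mem_subgroupOf.mp hn),
      fun hn => Subgroup.mem_subgroupOf.mpr (mem_Gamma0_of_dvd ?_)⟩
    push_cast
    exact IsCoprime.mul_dvd (Int.isCoprime_iff_nat_coprime.mpr (by simpa using hqM.symm))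
      (dvd_of_mem_Gamma0 n.2) hn
  let f : κ → ι := fun y => (hs.surj ((g₀ * (e y).out⁻¹ : Gamma0 M) : SL(2, ℤ))).choose
  have hf : ∀ y, ((g₀ * (e y).out⁻¹ * (t (f y))⁻¹ : Gamma0 M) : SL(2, ℤ)) ∈ sideGroup q b :=
    fun y => (hs.surj ((g₀ * (e y).out⁻¹ : Gamma0 M) : SL(2, ℤ))).choose_spec
  have hbij : Function.Bijective f := by
    refine ⟨fun y z hyz => e.injective ?_, fun i => ⟨e.symm (QuotientGroup.mk ((t i)⁻¹ * g₀)), ?_⟩⟩
    · have h := (sideGroup q b).mul_mem (hf y) ((sideGroup q b).inv_mem (hf z))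
      rw [← Subgroup.coe_inv, ← Subgroup.coe_mul, hyz,
        show g₀ * (e y).out⁻¹ * (t (f z))⁻¹ * (g₀ * (e z).out⁻¹ * (t (f z))⁻¹)⁻¹ =
          g₀ * ((e y).out⁻¹ * (e z).out) * g₀⁻¹ by group, hconj, ← hq, ← QuotientGroup.eq,
        QuotientGroup.out_eq', QuotientGroup.out_eq'] at h
      exact h
    · obtain ⟨n, hn⟩ := QuotientGroup.mk_out_eq_mul ((Gamma0 (M * q)).subgroupOf (Gamma0 M))
        ((t i)⁻¹ * g₀)
      refine hs.perm_unique (hf _) ?_
      rw [Equiv.apply_symm_apply, hn]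
      show ((g₀ * ((t i)⁻¹ * g₀ * (n : Gamma0 M))⁻¹ * (t i)⁻¹ : Gamma0 M) : SL(2, ℤ)) ∈ _
      rw [show g₀ * ((t i)⁻¹ * g₀ * (n : Gamma0 M))⁻¹ * (t i)⁻¹ =
        g₀ * ((n : Gamma0 M))⁻¹ * g₀⁻¹ by group, hconj, ← hq]
      exact inv_mem n.2
  choose d hd hd' using fun y => exists_down hqM (g₀ * (e y).out⁻¹ * (t (f y))⁻¹) (hf y)
  rw [← TSys.op_scale]
  refine TSys.op_eq_of_rep _ _ gamma0GL_injective (transRep_unique hs) (Equiv.ofBijective f hbij)
    d (fun y => ?_) (fun y => ?_) x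
  · show S.rep y = gamma0GL (M * q) (d y) * (sideMat q b * gamma0GL M (t (f y)))
    rw [← mul_assoc, ← hd, hrep, mul_assoc, ← map_mul, inv_mul_cancel_right]
  · show S.w y * _ = gamChar χ g₀ * 1
    rw [← gamChar_inclHom, hw, mul_one]
    have h1 : gamChar χ (inclHom M q (d y)) = gamChar χ (g₀ * (e y).out⁻¹ * (t (f y))⁻¹) := by
      rw [gamChar_apply, gamChar_apply]
      exact congrArg χ (Units.ext (by rw [coe_aUnit, coe_aUnit, inclHom_coe, hd']))
    rw [h1, map_mul, map_mul, map_inv, map_inv, ht, inv_one, mul_one, mul_left_comm,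
      mul_inv_cancel, mul_one]

omit [NeZero q] in
theorem conj_one (n : Gamma0 M) :
    ((1 * n * 1⁻¹ : Gamma0 M) : SL(2, ℤ)) ∈ sideGroup q false ↔
      (q : ℤ) ∣ (n : SL(2, ℤ)) 1 0 := by
  rw [one_mul, inv_one, mul_one]
  rfl

theorem conj_alGamma' [hq : Fact q.Prime] (h : Nat.Coprime q M) (n : Gamma0 M) :
    ((alGamma' h * n * (alGamma' h)⁻¹ : Gamma0 M) : SL(2, ℤ)) ∈ sideGroup q true ↔
      (q : ℤ) ∣ (n : SL(2, ℤ)) 1 0 := by
  set a := (exists_alData h).choose.1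
  set c := (exists_alData h).choose.2
  have hac : (q : ℤ) * a - M * c = 1 := (exists_alData h).choose_spec
  have hn : (((alGamma' h * n * (alGamma' h)⁻¹ : Gamma0 M) : SL(2, ℤ)) 0 1 : ℤ) =
      q * (-(c * a * (n : SL(2, ℤ)) 0 0) + a * (q * a * (n : SL(2, ℤ)) 0 1 +
        c * (n : SL(2, ℤ)) 1 1)) - c * c * (n : SL(2, ℤ)) 1 0 := by
    have e00 : ((alGamma' h : Gamma0 M) : SL(2, ℤ)) 0 0 = q * a := rfl
    have e01 : ((alGamma' h : Gamma0 M) : SL(2, ℤ)) 0 1 = c := rfl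
    have e10 : ((alGamma' h : Gamma0 M) : SL(2, ℤ)) 1 0 = M := rfl
    have e11 : ((alGamma' h : Gamma0 M) : SL(2, ℤ)) 1 1 = 1 := rfl
    simp only [Subgroup.coe_mul, Subgroup.coe_inv, Matrix.SpecialLinearGroup.coe_mul,
      Matrix.SpecialLinearGroup.coe_inv, Matrix.mul_apply, Fin.sum_univ_two,
      Matrix.adjugate_fin_two, Matrix.of_apply, Matrix.cons_val', Matrix.cons_val_zero,
      Matrix.cons_val_one, Matrix.empty_val', Matrix.cons_val_fin_one, e00, e01, e10, e11]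
    ring
  rw [mem_sideGroup]
  simp only [sideEntry, if_true]
  rw [hn, dvd_sub_right (dvd_mul_right _ _)]
  refine ⟨fun hd => ?_, fun hd => hd.mul_left _⟩
  have hc : IsCoprime (q : ℤ) c := ⟨a, -M, by linear_combination hac⟩
  exact (hc.mul_right hc).dvd_of_dvd_mul_left hd

theorem alGL_eq (h : Nat.Coprime q M) :
    alGL h = sideMat q true * gamma0GL M (alGamma' h) := by
  refine Units.ext ?_
  rw [alGL, Units.val_mul, Units.val_mul, val_gamma0GL', val_gamma0GL', val_degGL (NeZero.ne q)]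
  ext r s
  fin_cases r <;> fin_cases s <;>
    simp [sideMat, alGamma, alGamma', Matrix.mul_apply, Fin.sum_univ_two,
      ModularForm.val_heckeMatrix (NeZero.ne q), mul_comm]

variable [((Gamma0 (M * q)).subgroupOf (Gamma0 M)).FiniteIndex]

/-- Both traces vanish as soon as the corestriction and its composite with `w` do. -/
theorem trSys_op_eq_zero [hq : Fact q.Prime] (hqM : Nat.Coprime q M) (hKM : M ∣ K)
    (hs : IsTrans q b K s) (χ : (ZMod M)ˣ →* Rˣ) {V : Type u} [AddCommGroup V] [Module R V]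
    (x : tH1 (gamChar (chiUp χ q)) V) (hx : ∀ l, degDown hqM χ V l x = 0) :
    (trSys hqM hKM hs χ).op V x = 0 := by
  cases b
  · have h0 : degCor χ V x = 0 := hx 0
    have h := op_eq_trSys hqM hKM hs χ 1 conj_one (Equiv.refl _) (corSys χ)
      (fun y => by simp [corSys, sideMat]) (fun y => rfl) x
    rwa [h0, map_one, Units.val_one, one_smul, eq_comm] at h
  · have h0 : degCor χ V (degAL χ V hqM x) = 0 := hx 1
    have h := op_eq_trSys hqM hKM hs χ (alGamma' hqM) (conj_alGamma' hqM) (Equiv.prodUnique _ Unit)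
      ((corSys χ).comp (alSys χ hqM))
      (fun y => by
        rw [TSys.comp_rep, map_mul, ← mul_assoc, ← alGL_eq]
        rfl)
      (fun y => by rw [TSys.comp_w]; exact mul_one _) x
    rw [TSys.op_comp, h0, eq_comm, ← Units.smul_def, smul_eq_zero_iff_eq] at h
    exact h

end FLTA.RT.Disc
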