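import Fermat.Agent.RT.FreeGamma0
import Mathlib.LinearAlgebra.Dimension.Free
import Mathlib.LinearAlgebra.Dimension.Finite

/-!
# Control: rank over the coefficient ring equals the rank downstairs

For a surjection `R → O` of coefficient rings killing the twist, the image of `e` over `O` is the
submodule `homImage` of `Hom(Γ, O)`; it is free over `O` of the same rank as the image over `R`.
-/

set_option autoImplicit false

noncomputable section

universe u

namespace FLTA.RT

variable {Γ : Type*} [Group Γ] {R : Type u} [CommRing R] {χ : Γ →* Rˣ} {e : NatEnd χ}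

section reduction

variable {W : Type*} [AddCommGroup W] [Module R W] {M : Type*} [AddCommGroup M] [Module R M]
  {O : Type*} [CommRing O] [Algebra R O] [Module O W] [IsScalarTower R O W]

/-- A basis reduces to a basis. -/
theorem exists_basis_of_reduction (hO : Function.Surjective (algebraMap R O))
    (g : M →ₗ[R] W) (hg : Function.Surjective g)
    (hker : LinearMap.ker g = (RingHom.ker (algebraMap R O) • ⊤ : Submodule R M))
    {ι : Type*} (b : Module.Basis ι R M) :
    ∃ c : Module.Basis ι O W, ∀ i, c i = g (b i) := by
  classical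
  have hli : LinearIndependent O fun i => g (b i) := by
    rw [linearIndependent_iff']
    intro s o ho i hi
    choose r hr using fun j => hO (o j)
    have h1 : ∑ j ∈ s, r j • b j ∈ LinearMap.ker g := by
      rw [LinearMap.mem_ker, map_sum, ← ho]
      exact Finset.sum_congr rfl fun j _ => by rw [map_smul, ← hr j, algebraMap_smul]
    rw [hker] at h1
    have h2 : b.coord i (∑ j ∈ s, r j • b j) ∈ RingHom.ker (algebraMap R O) := by
      refine Submodule.smul_induction_on h1 (fun a ha m _ => ?_) fun x y hx hy => ?_
      · rw [map_smul, smul_eq_mul]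
        exact Ideal.mul_mem_right _ _ ha
      · rw [map_add]
        exact add_mem hx hy
    simp only [map_sum, map_smul, Module.Basis.coord_apply, Module.Basis.repr_self, smul_eq_mul,
      Finsupp.single_apply, mul_ite, mul_one, mul_zero, Finset.sum_ite_eq', if_pos hi] at h2
    rw [← hr i]
    exact h2
  have hspan : ⊤ ≤ Submodule.span O (Set.range fun i => g (b i)) := by
    rintro w -
    obtain ⟨m, rfl⟩ := hg w
    induction b.mem_span m using Submodule.span_induction with
    | mem x hx =>
      obtain ⟨i, rfl⟩ := hx
      exact Submodule.subset_span ⟨i, rfl⟩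
    | zero => simp
    | add x y _ _ hx hy => rw [map_add]; exact add_mem hx hy
    | smul r x _ hx => rw [map_smul, ← algebraMap_smul O]; exact Submodule.smul_mem _ _ hx
  exact ⟨Module.Basis.mk hli hspan, Module.Basis.mk_apply _ _⟩

end reduction

variable {O : Type u} [CommRing O] [Algebra R O]

instance isScalarTower_addMonoidHom {A : Type*} [AddCommMonoid A] :
    IsScalarTower R O (A →+ O) :=
  ⟨fun r o φ => AddMonoidHom.ext fun a => smul_assoc r o (φ a)⟩

/-- The image of `e` over `O` inside `Hom(Γ, O)`. -/
def homImage (e : NatEnd χ) (hO : Function.Surjective (algebraMap R O))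
    (htriv : ∀ γ (v : O), (χ γ : R) • v = v) : Submodule O (Additive Γ →+ O) where
  toAddSubmonoid := ((eImage e O).map (tH1EquivHom htriv).toLinearMap).toAddSubmonoid
  smul_mem' o φ hφ := by
    obtain ⟨r, rfl⟩ := hO o
    rw [algebraMap_smul]
    exact ((eImage e O).map (tH1EquivHom htriv).toLinearMap).smul_mem r hφ

theorem mem_homImage {hO : Function.Surjective (algebraMap R O)}
    {htriv : ∀ γ (v : O), (χ γ : R) • v = v} {φ : Additive Γ →+ O} :
    φ ∈ homImage e hO htriv ↔ ∃ x ∈ eImage e O, tH1EquivHom htriv x = φ :=
  Iff.rfl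

variable (hlift : HasLifts χ) (hidem : EqAtRing (e * e) e) (hkill : KillsObstruction e)
  [IsNoetherianRing R]

include hlift hidem in
/-- An operator vanishing on the image modulo `I` maps the image into `I` times it. -/
theorem app_mem_smul_of_eq_zero (I : Ideal R) (a : NatEnd χ)
    (hcomm : ∀ x, e.app R (a.app R x) = a.app R (e.app R x))
    (h : ∀ y ∈ eImage e (R ⧸ I), a.app (R ⧸ I) y = 0) {x : tH1 χ R} (hx : x ∈ eImage e R) :
    a.app R x ∈ I • eImage e R := by
  refine mem_smul_of_map_mk_eq_zero hlift hidem I ?_ ?_
  · obtain ⟨y, rfl⟩ := hx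
    exact ⟨a.app R y, hcomm y⟩
  · rw [← a.natural]
    exact h _ (tH1Map_mem_eImage _ hx)

include hlift hidem in
/-- Control: bases over `R` reduce to bases of `homImage`. -/
theorem exists_basis_homImage [Module.Finite R (eImage e R)]
    (hO : Function.Surjective (algebraMap R O)) (htriv : ∀ γ (v : O), (χ γ : R) • v = v)
    {ι : Type*} (b : Module.Basis ι R (eImage e R)) :
    ∃ c : Module.Basis ι O (homImage e hO htriv), ∀ i, (c i : Additive Γ →+ O) =
      tH1EquivHom htriv (tH1Map χ (Algebra.linearMap R O) (b i : tH1 χ R)) := by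
  let π : R →ₗ[R] O := Algebra.linearMap R O
  let g : eImage e R →ₗ[R] homImage e hO htriv :=
    { toFun := fun x => ⟨tH1EquivHom htriv (tH1Map χ π x.1),
        mem_homImage.mpr ⟨_, tH1Map_mem_eImage π x.2, rfl⟩⟩
      map_add' := fun x y => Subtype.ext (by
        simp only [Submodule.coe_add, map_add])
      map_smul' := fun r x => Subtype.ext (by
        simp only [map_smul, RingHom.id_apply, SetLike.val_smul_of_tower]) }
  have hπ : Function.Surjective π := hO
  have hg : Function.Surjective g := fun w => by
    obtain ⟨y, hy, hyw⟩ := mem_homImage.mp w.2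
    obtain ⟨x, hx, rfl⟩ := eImage_surjective hlift π hπ hy
    exact ⟨⟨x, hx⟩, Subtype.ext hyw⟩
  let I : Ideal R := RingHom.ker (algebraMap R O)
  let q : (R ⧸ I) →ₗ[R] O := I.liftQ π fun r hr => hr
  have hq : Function.Injective q :=
    LinearMap.ker_eq_bot.mp (Submodule.ker_liftQ_eq_bot _ _ _ fun r hr => hr)
  let qe : (R ⧸ I) ≃ₗ[R] O := LinearEquiv.ofBijective q
    ⟨hq, fun o => (hO o).imp' (Submodule.Quotient.mk) fun r hr => hr⟩
  have hker : LinearMap.ker g = (I • ⊤ : Submodule R (eImage e R)) := by
    ext x
    rw [Submodule.mem_smul_top_iff I (eImage e R) x, LinearMap.mem_ker, Subtype.ext_iff]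
    show tH1EquivHom htriv (tH1Map χ π x.1) = 0 ↔ _
    rw [LinearEquiv.map_eq_zero_iff, show π = qe.toLinearMap.comp I.mkQ from rfl, tH1Map_comp]
    refine ⟨fun h => mem_smul_of_map_mk_eq_zero hlift hidem I x.2 ?_, fun h => ?_⟩
    · have h' := congrArg (tH1Map χ qe.symm.toLinearMap) h
      rwa [map_zero, ← tH1Map_comp, LinearEquiv.symm_comp, tH1Map_id] at h'
    · rw [map_mk_eq_zero_of_mem_smul I h, map_zero]
  obtain ⟨c, hc⟩ := exists_basis_of_reduction (W := homImage e hO htriv) hO g hg hker b
  exact ⟨c, fun i => congrArg Subtype.val (hc i)⟩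

variable [IsLocalRing R]

include hlift hidem hkill in
/-- Freeness over `O` with the same rank. -/
theorem finrank_homImage [Module.Finite R (eImage e R)] [Nontrivial O]
    (hO : Function.Surjective (algebraMap R O)) (htriv : ∀ γ (v : O), (χ γ : R) • v = v) :
    Module.Free O (homImage e hO htriv) ∧ Module.Finite O (homImage e hO htriv) ∧
      Module.finrank O (homImage e hO htriv) = Module.finrank R (eImage e R) := by
  have : Module.Free R (eImage e R) := free_eImage hlift hidem hkill
  obtain ⟨c, -⟩ := exists_basis_homImage hlift hidem hO htriv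
    (Module.finBasis R (eImage e R))
  exact ⟨Module.Free.of_basis c, Module.Finite.of_basis c,
    (Module.finrank_eq_card_basis c).trans (Fintype.card_fin _)⟩

include hlift hidem hkill in
/-- The level module of the patched system: a basis of the size of the rank downstairs. -/
theorem exists_basis_eImage [Module.Finite R (eImage e R)] [Nontrivial O]
    (hO : Function.Surjective (algebraMap R O)) (htriv : ∀ γ (v : O), (χ γ : R) • v = v) {d : ℕ}
    (hd : Module.finrank O (homImage e hO htriv) = d) :
    Nonempty (Module.Basis (Fin d) R (eImage e R)) := by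
  have : Module.Free R (eImage e R) := free_eImage hlift hidem hkill
  exact ⟨Module.finBasisOfFinrankEq R _
    ((finrank_homImage hlift hidem hkill hO htriv).2.2.symm.trans hd)⟩

end FLTA.RT
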