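import Fermat.Agent.RT.HeckeLocalIdem

/-!
# Degeneracy maps on local factors, formal part

From `j i₁ = q + 1`, `j i₂ = T`, `U i₁ = i₁ T - i₂`, `U i₂ = q i₁` and `(U² - 1) H' ⊆ i₁ H + i₂ H`
the factor at `U ≡ α` of `H'` is isomorphic to the factor at `T ≡ a` of `H`, when `α` is a simple
root of `X² - a X + q` with `α² - 1` and `(q + 1) α - a` units.
-/

set_option autoImplicit false
set_option linter.unusedSectionVars false

noncomputable section

open IsLocalRing

universe u

namespace FLTA.RT

variable {R : Type u} [CommRing R] [IsLocalRing R] [IsNoetherianRing R]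
  [IsAdicComplete (maximalIdeal R) R]

section compare

variable {A : Type u} [Ring A] [Algebra R A] [Module.Finite R A] {σ : Type*}

/-- `y` has residue `c` at the eigen system `a`. -/
def HasResidue (T : σ → A) (a : σ → R) (y : A) (c : R) : Prop :=
  ∃ hy : y ∈ opAlg R T, ∀ P : Ideal (opAlg R T), P.IsMaximal → eigIdeal T a ≤ P →
    (⟨y, hy⟩ : opAlg R T) - algebraMap R (opAlg R T) c ∈ P

theorem hasResidue_op (T : σ → A) (a : σ → R) (s : σ) : HasResidue T a (T s) (a s) :=
  ⟨Algebra.subset_adjoin (Set.mem_range_self s), fun _ _ hle => hle (opGen_sub_mem T a s)⟩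

theorem hasResidue_algebraMap (T : σ → A) (a : σ → R) (c : R) :
    HasResidue T a (algebraMap R A c) c :=
  ⟨Subalgebra.algebraMap_mem _ c, fun P _ _ => by
    rw [show (⟨algebraMap R A c, _⟩ : opAlg R T) = algebraMap R (opAlg R T) c from rfl, sub_self]
    exact P.zero_mem⟩

variable {T : σ → A} {a : σ → R} {x y : A} {c d : R}

theorem HasResidue.add (hx : HasResidue T a x c) (hy : HasResidue T a y d) :
    HasResidue T a (x + y) (c + d) := by
  obtain ⟨hx, hx'⟩ := hx
  obtain ⟨hy, hy'⟩ := hy
  refine ⟨add_mem hx hy, fun P hP hle => ?_⟩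
  convert add_mem (hx' P hP hle) (hy' P hP hle) using 1
  refine Subtype.ext ?_
  simp only [AddSubgroupClass.coe_sub, Subalgebra.coe_add, Subalgebra.coe_algebraMap, map_add]
  abel

theorem HasResidue.sub (hx : HasResidue T a x c) (hy : HasResidue T a y d) :
    HasResidue T a (x - y) (c - d) := by
  obtain ⟨hx, hx'⟩ := hx
  obtain ⟨hy, hy'⟩ := hy
  refine ⟨sub_mem hx hy, fun P hP hle => ?_⟩
  convert sub_mem (hx' P hP hle) (hy' P hP hle) using 1
  refine Subtype.ext ?_
  simp only [AddSubgroupClass.coe_sub, Subalgebra.coe_algebraMap, map_sub]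
  abel

theorem HasResidue.mul (hT : ∀ s t, Commute (T s) (T t)) (hx : HasResidue T a x c)
    (hy : HasResidue T a y d) : HasResidue T a (x * y) (c * d) := by
  letI := opAlgCommRing (R := R) hT
  obtain ⟨hx, hx'⟩ := hx
  obtain ⟨hy, hy'⟩ := hy
  refine ⟨mul_mem hx hy, fun P hP hle => ?_⟩
  rw [show (⟨x * y, mul_mem hx hy⟩ : opAlg R T) = ⟨x, hx⟩ * ⟨y, hy⟩ from rfl, map_mul]
  convert add_mem (P.mul_mem_left (⟨x, hx⟩ : opAlg R T) (hy' P hP hle))
    (P.mul_mem_left (algebraMap R (opAlg R T) d) (hx' P hP hle)) using 1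
  ring

/-- An element with unit residue is invertible on the factor. -/
theorem HasResidue.exists_mul_eq (hT : ∀ s t, Commute (T s) (T t)) (hy : HasResidue T a y c)
    (hc : IsUnit c) : ∃ z ∈ opAlg R T, localIdem T a = z * y := by
  letI := opAlgCommRing (R := R) hT
  obtain ⟨hy, hy'⟩ := hy
  obtain ⟨z, hz⟩ := ((isLocalIdem_localIdem hT a).isCutOut hT).exists_eq_mul
    (y := (⟨y, hy⟩ : opAlg R T)) fun P hP hle hmem => hP.ne_top (P.eq_top_of_isUnit_mem
      (x := algebraMap R (opAlg R T) c) (by simpa using sub_mem hmem (hy' P hP hle)) (hc.map _))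
  rw [mul_comm] at hz
  exact ⟨z, z.2, congrArg Subtype.val hz⟩

variable {τ : Type*} {T₀ : τ → A} {b r : τ → R}

/-- The pullback of a maximal ideal above an eigen system along a family of residues. -/
theorem isMaximal_comap_residue (hT : ∀ s t, Commute (T s) (T t))
    (hr : ∀ t, HasResidue T a (T₀ t) (r t)) (g : opAlg R T₀ →ₐ[R] opAlg R T)
    (hg : ∀ x, (g x : A) = x) {P : Ideal (opAlg R T)} (hP : P.IsMaximal)
    (hle : eigIdeal T a ≤ P) :
    (P.comap g).IsMaximal ∧ ∀ t, opGen R T₀ t - algebraMap R (opAlg R T₀) (r t) ∈ P.comap g := by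
  have hT₀ : ∀ s t, Commute (T₀ s) (T₀ t) := fun s t => by
    letI := opAlgCommRing (R := R) hT
    exact congrArg Subtype.val
      (mul_comm (⟨T₀ s, (hr s).1⟩ : opAlg R T) ⟨T₀ t, (hr t).1⟩)
  letI := opAlgCommRing (R := R) hT
  letI := opAlgCommRing (R := R) hT₀
  have hgen : ∀ t, opGen R T₀ t - algebraMap R (opAlg R T₀) (r t) ∈ P.comap g := fun t => by
    rw [Ideal.mem_comap, map_sub, g.commutes]
    convert (hr t).2 P hP hle using 1
    exact Subtype.ext (by simp [hg])
  refine ⟨Ideal.isMaximal_iff.mpr ⟨fun h => hP.ne_top ((Ideal.eq_top_iff_one P).mpr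
    (by simpa using h)), fun J y hJ hyQ hyJ => ?_⟩, hgen⟩
  obtain ⟨e, he⟩ := exists_sub_mem_eigIdeal hT₀ r y
  have hsub : eigIdeal T₀ r ≤ P.comap g := by
    rw [eigIdeal, Ideal.span_le]
    rintro _ (⟨t, rfl⟩ | ⟨m, hm, rfl⟩)
    · exact hgen t
    · show g (algebraMap R _ m) ∈ P
      rw [g.commutes]
      exact hle (algebraMap_mem_eigIdeal T a hm)
  have heu : IsUnit e := by
    by_contra h
    refine hyQ ?_
    simpa using add_mem (hsub he) (hsub (algebraMap_mem_eigIdeal T₀ r
      ((mem_maximalIdeal e).mpr h)))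
  exact J.eq_top_iff_one.mp (J.eq_top_of_isUnit_mem
    (x := algebraMap R (opAlg R T₀) e) (by simpa using sub_mem hyJ (hJ (hsub he))) (heu.map _))

/-- A family with the same residues has the factor as a subfactor. -/
theorem localIdem_mul_of_residue (hT : ∀ s t, Commute (T s) (T t))
    (hr : ∀ t, HasResidue T a (T₀ t) (r t)) (hb : ∀ t, b t - r t ∈ maximalIdeal R) :
    localIdem T₀ b * localIdem T a = localIdem T a := by
  have hT₀ : ∀ s t, Commute (T₀ s) (T₀ t) := fun s t => by
    letI := opAlgCommRing (R := R) hT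
    exact congrArg Subtype.val
      (mul_comm (⟨T₀ s, (hr s).1⟩ : opAlg R T) ⟨T₀ t, (hr t).1⟩)
  letI := opAlgCommRing (R := R) hT
  letI := opAlgCommRing (R := R) hT₀
  let g : opAlg R T₀ →ₐ[R] opAlg R T :=
    Subalgebra.inclusion (Algebra.adjoin_le (by rintro _ ⟨t, rfl⟩; exact (hr t).1))
  obtain ⟨z, hz⟩ := ((isLocalIdem_localIdem hT a).isCutOut hT).exists_eq_mul
    (y := g ⟨_, localIdem_mem hT₀ b⟩) fun P hP hle hmem => by
      obtain ⟨hQ, hgen⟩ := isMaximal_comap_residue hT hr g (fun _ => rfl) hP hle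
      refine ((isLocalIdem_localIdem hT₀ b).mem_iff _ hQ).mp hmem ?_
      rw [eigIdeal, Ideal.span_le]
      rintro _ (⟨t, rfl⟩ | ⟨m, hm, rfl⟩)
      · have h2 : algebraMap R (opAlg R T₀) (b t - r t) ∈ P.comap g := by
          rw [Ideal.mem_comap, g.commutes]
          exact hle (algebraMap_mem_eigIdeal T a (hb t))
        simpa [map_sub] using sub_mem (hgen t) h2
      · show g (algebraMap R _ m) ∈ P
        rw [g.commutes]
        exact hle (algebraMap_mem_eigIdeal T a hm)
  have h1 := congrArg Subtype.val hz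
  change localIdem T a = localIdem T₀ b * (z : A) at h1
  rw [h1, ← mul_assoc, (isIdempotentElem_localIdem hT₀ b).eq]

/-- A family with a different residue has an orthogonal factor. -/
theorem localIdem_mul_eq_zero (hT : ∀ s t, Commute (T s) (T t))
    (hr : ∀ t, HasResidue T a (T₀ t) (r t)) {t₀ : τ} (hb : IsUnit (b t₀ - r t₀)) :
    localIdem T₀ b * localIdem T a = 0 := by
  have hT₀ : ∀ s t, Commute (T₀ s) (T₀ t) := fun s t => by
    letI := opAlgCommRing (R := R) hT
    exact congrArg Subtype.val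
      (mul_comm (⟨T₀ s, (hr s).1⟩ : opAlg R T) ⟨T₀ t, (hr t).1⟩)
  letI := opAlgCommRing (R := R) hT
  letI := opAlgCommRing (R := R) hT₀
  let g : opAlg R T₀ →ₐ[R] opAlg R T :=
    Subalgebra.inclusion (Algebra.adjoin_le (by rintro _ ⟨t, rfl⟩; exact (hr t).1))
  obtain ⟨z, hz⟩ := ((isLocalIdem_localIdem hT a).isCutOut hT).exists_eq_mul
    (y := 1 - g ⟨_, localIdem_mem hT₀ b⟩) fun P hP hle hmem => by
      obtain ⟨hQ, hgen⟩ := isMaximal_comap_residue hT hr g (fun _ => rfl) hP hle
      have hne : ¬ eigIdeal T₀ b ≤ P.comap g := fun hsub => hQ.ne_top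
        ((P.comap g).eq_top_of_isUnit_mem (x := algebraMap R (opAlg R T₀) (b t₀ - r t₀))
          (by simpa [map_sub] using sub_mem (hgen t₀) (hsub (opGen_sub_mem T₀ b t₀)))
          (hb.map _))
      have h1 : g ⟨_, localIdem_mem hT₀ b⟩ ∈ P :=
        ((isLocalIdem_localIdem hT₀ b).mem_iff _ hQ).mpr hne
      exact hP.ne_top (P.eq_top_iff_one.mpr (by simpa using add_mem hmem h1))
  have h1 := congrArg Subtype.val hz
  change localIdem T a = (1 - localIdem T₀ b) * (z : A) at h1
  rw [h1, ← mul_assoc, (isIdempotentElem_localIdem hT₀ b).mul_one_sub_self, zero_mul]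

end compare

/-- Families with one distinguished operator added. -/
def addOp {σ A : Type*} (T : σ → A) (x : A) : Option σ → A := fun o => o.elim x T

section degeneracy

variable {H H' : Type u} [AddCommGroup H] [Module R H] [Module.Finite R H] [AddCommGroup H']
  [Module R H'] [Module.Finite R H'] {σ : Type*} {T : σ → Module.End R H}
  {T' : σ → Module.End R H'}

/-- The data of the degeneracy maps at an auxiliary prime. -/
structure DegData (T : σ → Module.End R H) (T' : σ → Module.End R H') (q : R) where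
  /-- `T_q`. -/
  Tq : Module.End R H
  /-- `U_q`. -/
  U : Module.End R H'
  i₁ : H →ₗ[R] H'
  i₂ : H →ₗ[R] H'
  j : H' →ₗ[R] H
  comm : ∀ s t, Commute (addOp T Tq s) (addOp T Tq t)
  comm' : ∀ s t, Commute (addOp T' U s) (addOp T' U t)
  i₁_op : ∀ s x, i₁ (T s x) = T' s (i₁ x)
  i₂_op : ∀ s x, i₂ (T s x) = T' s (i₂ x)
  j_i₁ : ∀ x, j (i₁ x) = (q + 1) • x
  j_i₂ : ∀ x, j (i₂ x) = Tq x
  U_i₁ : ∀ x, U (i₁ x) = i₁ (Tq x) - i₂ x
  U_i₂ : ∀ x, U (i₂ x) = q • i₁ x
  sq_sub_one : ∀ y, U (U y) - y ∈ LinearMap.range i₁ ⊔ LinearMap.range i₂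

namespace DegData

variable {q : R} (D : DegData T T' q) (a : σ → R) {aq α : R}

/-- The factor of level `N`. -/
abbrev lowIdem (aq : R) : Module.End R H := localIdem (addOp T D.Tq) (addOp a aq)

/-- The factor of level `N q`. -/
abbrev highIdem (α : R) : Module.End R H' := localIdem (addOp T' D.U) (addOp a α)

/-- The `U`-eigen map attached to a root `X`. -/
def eigMap (X : Module.End R H) : H →ₗ[R] H' := D.i₁.comp X - D.i₂

theorem eigMap_apply (X : Module.End R H) (x : H) : D.eigMap X x = D.i₁ (X x) - D.i₂ x := rfl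

/-- **The factors correspond.** -/
theorem exists_equiv (hq : IsUnit q) (hsq : IsUnit (α * α - 1))
    (hdist : IsUnit ((q + 1) * α - aq))
    (hα : α * α - aq * α + q ∈ maximalIdeal R) (h2 : IsUnit (α + α - aq)) :
    ∃ Φ : LinearMap.range (D.lowIdem a aq) ≃ₗ[R] LinearMap.range (D.highIdem a α),
      ∀ (X : Module.End R H) (X' : Module.End R H'), (∀ t, Commute X (addOp T D.Tq t)) →
        (∀ x, D.i₁ (X x) = X' (D.i₁ x)) → (∀ x, D.i₂ (X x) = X' (D.i₂ x)) →
        ∀ x y : LinearMap.range (D.lowIdem a aq), (y : H) = X x →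
          (Φ y : H') = X' (Φ x : H') := by
  classical
  set e := D.lowIdem a aq with he
  set e' := D.highIdem a α with he'
  have hαu : IsUnit α := by
    by_contra h
    have h' : α ∈ maximalIdeal R := (mem_maximalIdeal α).mpr h
    refine (mem_maximalIdeal q).mp ?_ hq
    have := add_mem hα (Ideal.mul_mem_right (aq - α) _ h')
    convert this using 1
    ring
  -- residues at level `N`
  have rS : ∀ s, HasResidue (addOp T D.Tq) (addOp a aq) (T s) (a s) := fun s =>
    hasResidue_op (addOp T D.Tq) (addOp a aq) (some s)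
  have rTq : HasResidue (addOp T D.Tq) (addOp a aq) D.Tq aq :=
    hasResidue_op (addOp T D.Tq) (addOp a aq) none
  obtain ⟨A, hAmem, hA0, hAmem', hAres⟩ :=
    exists_root_localIdem D.comm (addOp a aq) none (q := q) (α := α) hα h2
  have rA : HasResidue (addOp T D.Tq) (addOp a aq) A α := ⟨hAmem', hAres⟩
  have rB : HasResidue (addOp T D.Tq) (addOp a aq) (D.Tq - A) (aq - α) := rTq.sub rA
  have hecomm : ∀ {z}, z ∈ opAlg R (addOp T D.Tq) → Commute z e := fun {z} hz => by
    letI := opAlgCommRing (R := R) D.comm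
    exact congrArg Subtype.val
      (mul_comm (⟨z, hz⟩ : opAlg R (addOp T D.Tq)) ⟨_, localIdem_mem D.comm (addOp a aq)⟩)
  have hcom2 : ∀ {z w}, z ∈ opAlg R (addOp T D.Tq) → w ∈ opAlg R (addOp T D.Tq) →
      Commute z w := fun {z w} hz hw => by
    letI := opAlgCommRing (R := R) D.comm
    exact congrArg Subtype.val (mul_comm (⟨z, hz⟩ : opAlg R (addOp T D.Tq)) ⟨w, hw⟩)
  -- the quadratic relation on the factor
  have hquad : ∀ x, A (A (e x)) = D.Tq (A (e x)) - q • e x := fun x => by
    have h := LinearMap.congr_fun hA0 x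
    simp only [Module.End.mul_apply, LinearMap.add_apply, LinearMap.sub_apply,
      Module.algebraMap_end_apply, LinearMap.zero_apply, addOp, Option.elim] at h
    have hc1 := LinearMap.congr_fun (hecomm (mul_mem hAmem hAmem)).eq x
    have hc2 := LinearMap.congr_fun (hecomm (mul_mem (rTq.1) hAmem)).eq x
    simp only [Module.End.mul_apply] at hc1 hc2
    rw [map_add, map_sub, map_smul, ← hc1, ← hc2] at h
    rw [eq_sub_iff_add_eq, ← sub_eq_zero]
    rw [← h]; abel
  have heA : ∀ (X : Module.End R H) {c : R}, HasResidue (addOp T D.Tq) (addOp a aq) X c →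
      ∀ t, HasResidue (addOp T D.Tq) (addOp a aq) (addOp T X t) (addOp a c t) := fun X c hX t => by
    cases t with
    | none => exact hX
    | some s => exact rS s
  -- residues at level `N q`
  have rS' : ∀ s, HasResidue (addOp T' D.U) (addOp a α) (T' s) (a s) := fun s =>
    hasResidue_op (addOp T' D.U) (addOp a α) (some s)
  have rU : HasResidue (addOp T' D.U) (addOp a α) D.U α :=
    hasResidue_op (addOp T' D.U) (addOp a α) none
  have hcomm' : ∀ {z w}, z ∈ opAlg R (addOp T' D.U) → w ∈ opAlg R (addOp T' D.U) →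
      Commute z w := fun {z w} hz hw => by
    letI := opAlgCommRing (R := R) D.comm'
    exact congrArg Subtype.val (mul_comm (⟨z, hz⟩ : opAlg R (addOp T' D.U)) ⟨w, hw⟩)
  have he'mem : e' ∈ opAlg R (addOp T' D.U) := localIdem_mem D.comm' _
  -- `eigMap` intertwines
  have hint : ∀ (X : Module.End R H) (c : R), HasResidue (addOp T D.Tq) (addOp a aq) X c →
      (∀ x, X (X (e x)) = D.Tq (X (e x)) - q • e x) → ∀ x,
      e' (D.eigMap X (e x)) = D.eigMap X (localIdem (addOp T X) (addOp a α) (e x)) := by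
    intro X c hX hXq x
    let S : Submodule R H := LinearMap.range e
    have hstab : ∀ z ∈ opAlg R (addOp T D.Tq), ∀ y ∈ S, z y ∈ S := by
      rintro z hz _ ⟨y, rfl⟩
      exact ⟨z y, (LinearMap.congr_fun (hecomm hz).eq y).symm⟩
    have hmemX : ∀ t, addOp T X t ∈ opAlg R (addOp T D.Tq) := fun t => (heA X hX t).1
    let TS : Option σ → Module.End R S := fun t =>
      (addOp T X t).restrict fun y hy => hstab _ (hmemX t) y hy
    have hTS : ∀ s t, Commute (TS s) (TS t) := fun s t => LinearMap.ext fun y => Subtype.ext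
      (LinearMap.congr_fun (hcom2 (hmemX s) (hmemX t)).eq (y : H))
    have h1 := localIdem_comm_map hTS D.comm' (addOp a α) ((D.eigMap X).comp S.subtype)
      (fun t y => by
        obtain ⟨y, x0, rfl⟩ := y
        show D.eigMap X (addOp T X t (e x0)) = addOp T' D.U t (D.eigMap X (e x0))
        cases t with
        | none =>
          show D.eigMap X (X (e x0)) = D.U (D.eigMap X (e x0))
          simp only [eigMap_apply, map_sub, D.U_i₁, D.U_i₂, hXq, map_smul]
          abel
        | some s =>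
          show D.eigMap X (T s (e x0)) = T' s (D.eigMap X (e x0))
          have hXs := LinearMap.congr_fun
            (hcom2 (hmemX none) (hmemX (some s))).eq (e x0)
          change X (T s (e x0)) = T s (X (e x0)) at hXs
          simp only [eigMap_apply, map_sub, hXs, D.i₁_op, D.i₂_op])
      ⟨e x, x, rfl⟩
    have h2' := localIdem_comm_map hTS (fun s t => hcom2 (hmemX s) (hmemX t)) (addOp a α)
      S.subtype (fun t y => rfl) ⟨e x, x, rfl⟩
    refine h1.symm.trans ?_
    show D.eigMap X (S.subtype _) = _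
    rw [h2']
    rfl
  have hv : ∀ x, e' (D.eigMap A (e x)) = D.eigMap A (e x) := fun x => by
    rw [hint A α rA hquad, ← Module.End.mul_apply,
      localIdem_mul_of_residue (b := addOp a α) D.comm (heA A rA)
        (fun t => by rw [sub_self]; exact zero_mem _)]
  have hvB : ∀ x, e' (D.eigMap (D.Tq - A) (e x)) = 0 := fun x => by
    have hB : ∀ x, (D.Tq - A) ((D.Tq - A) (e x))
        = D.Tq ((D.Tq - A) (e x)) - q • e x := fun x => by
      have hc := LinearMap.congr_fun (hcom2 hAmem rTq.1).eq (e x)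
      simp only [Module.End.mul_apply] at hc
      simp only [LinearMap.sub_apply, map_sub, hc, hquad]
      abel
    rw [hint _ _ rB hB, ← Module.End.mul_apply,
      localIdem_mul_eq_zero (b := addOp a α) D.comm (heA _ rB) (t₀ := none) (by
        show IsUnit (α - (aq - α))
        convert h2 using 1
        ring), LinearMap.zero_apply, map_zero]
  -- old classes
  obtain ⟨w, hw, hweq⟩ := rU.exists_mul_eq D.comm' hαu
  obtain ⟨β₀, hβ₀⟩ := hαu.exists_left_inv
  have rw' : HasResidue (addOp T' D.U) (addOp a α) w β₀ := by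
    refine ⟨hw, fun P hP hle => ?_⟩
    letI := opAlgCommRing (R := R) D.comm'
    set φ := algebraMap R (opAlg R (addOp T' D.U))
    set W : opAlg R (addOp T' D.U) := ⟨w, hw⟩
    have hWU : (⟨e', he'mem⟩ : opAlg R (addOp T' D.U)) = W * opGen R (addOp T' D.U) none :=
      Subtype.ext hweq
    have h1 := ((isLocalIdem_localIdem D.comm' (addOp a α)).isCutOut D.comm').one_sub_mem hP hle
    have h3 : W * opGen R (addOp T' D.U) none - 1 ∈ P := by
      rw [← hWU]
      simpa using P.neg_mem h1
    have h4 := sub_mem h3 (P.mul_mem_left W (hle (opGen_sub_mem (addOp T' D.U) (addOp a α) none)))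
    convert P.mul_mem_left (φ β₀) h4 using 1
    have h5 : φ β₀ * φ α = 1 := by rw [← map_mul, hβ₀, map_one]
    show W - φ β₀ = φ β₀ * (W * opGen R (addOp T' D.U) none - 1
      - W * (opGen R (addOp T' D.U) none - φ α))
    linear_combination -W * h5
  obtain ⟨Z, hZdef⟩ : ∃ Z : Module.End R H', Z = D.U + algebraMap R _ q * w := ⟨_, rfl⟩
  have rZ : HasResidue (addOp T' D.U) (addOp a α) Z (α + q * β₀) := by
    rw [hZdef]
    exact rU.add ((hasResidue_algebraMap _ _ q).mul D.comm' rw')
  have hwU : ∀ x, e' (w (D.U x)) = e' x := fun x => by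
    rw [← Module.End.mul_apply w D.U, ← hweq, ← Module.End.mul_apply,
      (isIdempotentElem_localIdem D.comm' _).eq]
  -- `e' ∘ i₁` turns `T_q` into `U + q U⁻¹`
  have hF : ∀ x, e' (D.i₁ (D.Tq x)) = e' (Z (D.i₁ x)) := by
    intro x
    have h1 : e' (w (D.U (D.i₁ (D.Tq x)))) = e' (w (D.U (D.U (D.i₁ x)) + q • D.i₁ x)) := by
      congr 2
      rw [D.U_i₁ x, map_sub, D.U_i₂]
      abel
    rw [hwU, map_add, map_smul, map_add, map_smul, hwU] at h1
    rw [h1, hZdef, LinearMap.add_apply, Module.End.mul_apply, Module.algebraMap_end_apply,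
      map_add, map_smul]
  have hrZ : ∀ t, HasResidue (addOp T' D.U) (addOp a α) (addOp T' Z t)
      (addOp a (α + q * β₀) t) := fun t => by
    cases t with
    | none => exact rZ
    | some s => exact rS' s
  have hi₁ : ∀ x, e' (D.i₁ x) = e' (D.i₁ (e x)) := by
    intro x
    have hmemZ : ∀ t, addOp T' Z t ∈ opAlg R (addOp T' D.U) := fun t => (hrZ t).1
    have hint' : ∀ t y, e' (D.i₁ (addOp T D.Tq t y)) = addOp T' Z t (e' (D.i₁ y)) := by
      intro t y
      cases t with
      | none =>
        show e' (D.i₁ (D.Tq y)) = Z (e' (D.i₁ y))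
        rw [hF]
        exact LinearMap.congr_fun (hcomm' he'mem rZ.1).eq _
      | some s =>
        show e' (D.i₁ (T s y)) = T' s (e' (D.i₁ y))
        rw [D.i₁_op]
        exact LinearMap.congr_fun (hcomm' he'mem (rS' s).1).eq _
    have h1 := localIdem_comm_map D.comm (fun s t => hcomm' (hmemZ s) (hmemZ t)) (addOp a aq)
      (e'.comp D.i₁) hint' x
    refine Eq.trans ?_ h1.symm
    show e' (D.i₁ x) = localIdem (addOp T' Z) (addOp a aq) (e' (D.i₁ x))
    rw [← Module.End.mul_apply, localIdem_mul_of_residue (b := addOp a aq) D.comm' hrZ]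
    intro t
    cases t with
    | none =>
      show aq - (α + q * β₀) ∈ maximalIdeal R
      convert Ideal.mul_mem_left _ (-β₀) hα using 1
      linear_combination (α - aq) * hβ₀
    | some s => exact (sub_self (a s)).symm ▸ zero_mem _
  -- the image of the old classes
  obtain ⟨z, hz, hzeq⟩ := (rA.sub rB).exists_mul_eq D.comm
    (show IsUnit (α - (aq - α)) by convert h2 using 1; ring)
  have hvmem : ∀ x, D.eigMap A (e x) ∈ LinearMap.range e' := fun x => ⟨_, hv x⟩
  let v : LinearMap.range e →ₗ[R] LinearMap.range e' :=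
    ((D.eigMap A).comp (LinearMap.range e).subtype).codRestrict _ fun y => by
      obtain ⟨y, x, rfl⟩ := y
      exact hvmem x
  have hi₁mem : ∀ x, ∃ u, e' (D.i₁ (e x)) = D.eigMap A (e u) := fun x => by
    refine ⟨z x, ?_⟩
    have hex : e x = (A - (D.Tq - A)) (e (z x)) := by
      have hc := LinearMap.congr_fun (hcom2 (rA.sub rB).1 hz).eq x
      have hee := LinearMap.congr_fun (isIdempotentElem_localIdem D.comm (addOp a aq)).eq x
      have hc2 := LinearMap.congr_fun (hecomm (rA.sub rB).1).eq (z x)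
      simp only [Module.End.mul_apply] at hc hee hc2
      rw [hc2, hc, ← Module.End.mul_apply z, ← hzeq, hee]
    have h1 : D.i₁ (e x) = D.eigMap A (e (z x)) - D.eigMap (D.Tq - A) (e (z x)) := by
      rw [hex]
      simp only [eigMap_apply, LinearMap.sub_apply, map_sub]
      abel
    rw [h1, map_sub, hv, hvB, sub_zero]
  have hsurj : Function.Surjective v := by
    rintro ⟨_, y, rfl⟩
    -- it suffices to lift into the range of `eigMap A ∘ e`
    suffices h : e' y ∈ LinearMap.range ((D.eigMap A).comp e) by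
      obtain ⟨x, hx⟩ := h
      exact ⟨⟨e x, x, rfl⟩, Subtype.ext hx⟩
    have hrange : ∀ x, e' (D.i₁ x) ∈ LinearMap.range ((D.eigMap A).comp e) := fun x => by
      rw [hi₁]
      obtain ⟨u, hu⟩ := hi₁mem x
      exact ⟨u, hu.symm⟩
    have hUstab : ∀ y ∈ LinearMap.range ((D.eigMap A).comp e),
        D.U y ∈ LinearMap.range ((D.eigMap A).comp e) := by
      rintro _ ⟨x, rfl⟩
      refine ⟨A x, ?_⟩
      show D.eigMap A (e (A x)) = D.U (D.eigMap A (e x))
      have hc := LinearMap.congr_fun (hecomm hAmem).eq x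
      simp only [Module.End.mul_apply] at hc
      rw [← hc]
      simp only [eigMap_apply, map_sub, D.U_i₁, D.U_i₂, hquad, map_smul]
      abel
    obtain ⟨z', hz', hz'eq⟩ := ((rU.mul D.comm' rU).sub
      (hasResidue_algebraMap (addOp T' D.U) (addOp a α) 1)).exists_mul_eq D.comm' hsq
    obtain ⟨_, ⟨x₁, rfl⟩, _, ⟨x₂, rfl⟩, hx⟩ := Submodule.mem_sup.mp (D.sq_sub_one (z' y))
    have hy : e' y = e' (D.i₁ x₁) + e' (D.i₂ x₂) := by
      have hc := LinearMap.congr_fun (hcomm' ((rU.mul D.comm' rU).sub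
        (hasResidue_algebraMap (addOp T' D.U) (addOp a α) 1)).1 hz').eq y
      simp only [Module.End.mul_apply, LinearMap.sub_apply, Module.algebraMap_end_apply,
        one_smul] at hc
      rw [← map_add, hx, hc]
      have h0 := LinearMap.congr_fun (isIdempotentElem_localIdem D.comm' (addOp a α)).eq y
      have h1 := LinearMap.congr_fun hz'eq y
      simp only [Module.End.mul_apply, LinearMap.sub_apply, Module.algebraMap_end_apply,
        one_smul] at h0 h1
      rw [← h1, h0]
    rw [hy]
    refine add_mem (hrange x₁) ?_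
    have hU : e' (D.i₂ x₂) = e' (D.i₁ (D.Tq x₂)) - D.U (e' (D.i₁ x₂)) := by
      rw [← Module.End.mul_apply D.U e', ← (hcomm' he'mem rU.1).eq, Module.End.mul_apply, D.U_i₁,
        map_sub]
      abel
    rw [hU]
    exact sub_mem (hrange _) (hUstab _ (hrange _))
  obtain ⟨z'', hz'', hz''eq⟩ := (((hasResidue_algebraMap (addOp T D.Tq) (addOp a aq) (q + 1)).mul
    D.comm rA).sub rTq).exists_mul_eq D.comm hdist
  have hinj : Function.Injective v := by
    rw [injective_iff_map_eq_zero]
    rintro ⟨_, x, rfl⟩ hx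
    refine Subtype.ext ?_
    have h1 : D.eigMap A (e x) = 0 := congrArg Subtype.val hx
    have h2 := congrArg D.j h1
    rw [eigMap_apply, map_sub, D.j_i₁, D.j_i₂, map_zero] at h2
    have h3 := LinearMap.congr_fun hz''eq (e x)
    simp only [Module.End.mul_apply, LinearMap.sub_apply, Module.algebraMap_end_apply] at h3
    rw [h2, map_zero] at h3
    have h0 := LinearMap.congr_fun (isIdempotentElem_localIdem D.comm (addOp a aq)).eq x
    exact h0.symm.trans h3
  refine ⟨LinearEquiv.ofBijective v ⟨hinj, hsurj⟩, fun X X' hX h₁ h₂ x y hy => ?_⟩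
  show D.eigMap A (y : H) = X' (D.eigMap A (x : H))
  rw [hy]
  have hAX : Commute X A := Algebra.commute_of_mem_adjoin_of_forall_mem_commute hAmem fun b hb => by
    obtain ⟨t, rfl⟩ := hb
    exact hX t
  have hAs := LinearMap.congr_fun hAX.eq (x : H)
  simp only [Module.End.mul_apply] at hAs
  simp only [eigMap_apply, map_sub, ← hAs, h₁, h₂]

end DegData

end degeneracy

end FLTA.RT
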