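import Fermat.Agent.RT.HeckeLocalIdem
import Fermat.Agent.RT.FreeControl
import Mathlib.Algebra.FreeAlgebra

/-!
# The natural idempotent of a residual eigen system on twisted cohomology

`localEnd T a` is a natural family on twisted cohomology which agrees with the idempotent
`localIdem` on finite coefficient modules.
-/

set_option autoImplicit false

noncomputable section

open IsLocalRing

universe u

namespace FLTA.RT

variable {Γ : Type} [Group Γ] {R : Type u} [CommRing R] {χ : Γ →* Rˣ} {σ : Type*}

/-- The values of a family of natural endomorphisms on a coefficient module. -/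
def opsAt (T : σ → NatEnd χ) (V : Type u) [AddCommGroup V] [Module R V] :
    σ → Module.End R (tH1 χ V) :=
  fun s => (T s).app V

/-- A noncommutative polynomial in natural endomorphisms. -/
def natEval (T : σ → NatEnd χ) (p : FreeAlgebra R σ) : NatEnd χ where
  app V _ _ := FreeAlgebra.lift R (opsAt T V) p
  natural {V W} _ _ _ _ φ x := by
    induction p using FreeAlgebra.induction generalizing x with
    | grade0 r => simp
    | grade1 s =>
      simp only [FreeAlgebra.lift_ι_apply, opsAt]
      exact (T s).natural φ x
    | mul a b ha hb => simp [ha, hb]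
    | add a b ha hb => simp [ha, hb]

theorem natEval_app (T : σ → NatEnd χ) (p : FreeAlgebra R σ) (V : Type u) [AddCommGroup V]
    [Module R V] : (natEval T p).app V = FreeAlgebra.lift R (opsAt T V) p := rfl

theorem exists_lift_eq {A : Type*} [Semiring A] [Algebra R A] (T : σ → A) {x : A}
    (hx : x ∈ Algebra.adjoin R (Set.range T)) : ∃ p, FreeAlgebra.lift R T p = x := by
  induction hx using Algebra.adjoin_induction with
  | mem x hx =>
    obtain ⟨s, rfl⟩ := hx
    exact ⟨FreeAlgebra.ι R s, FreeAlgebra.lift_ι_apply _ _⟩
  | algebraMap r => exact ⟨algebraMap R _ r, AlgHom.commutes _ r⟩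
  | add x y _ _ hx hy =>
    obtain ⟨p, rfl⟩ := hx
    obtain ⟨q, rfl⟩ := hy
    exact ⟨p + q, map_add _ _ _⟩
  | mul x y _ _ hx hy =>
    obtain ⟨p, rfl⟩ := hx
    obtain ⟨q, rfl⟩ := hy
    exact ⟨p * q, map_mul _ _ _⟩

variable [IsLocalRing R]

open Classical in
/-- The natural idempotent of the residual eigen system `a`. -/
def localEnd (T : σ → NatEnd χ) (a : σ → R) : NatEnd χ :=
  natEval T
    (if h : ∃ p, FreeAlgebra.lift R (opsAt T R) p = localIdem (opsAt T R) a then h.choose else 0)

variable [IsNoetherianRing R] [IsAdicComplete (maximalIdeal R) R] [Group.FG Γ]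

/-- The operators commute on the coefficient ring. -/
def CommAtRing (T : σ → NatEnd χ) : Prop :=
  ∀ s t, Commute (opsAt T R s) (opsAt T R t)

variable {T : σ → NatEnd χ} (hcomm : CommAtRing T) (a : σ → R)
include hcomm

theorem localEnd_app_ring : (localEnd T a).app R = localIdem (opsAt T R) a := by
  have := finite_tH1 (χ := χ) R
  have h := exists_lift_eq (opsAt T R) (localIdem_mem hcomm a)
  rw [localEnd, natEval_app, dif_pos h, h.choose_spec]

theorem eqAtRing_localEnd_sq : EqAtRing (localEnd T a * localEnd T a) (localEnd T a) := by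
  have := finite_tH1 (χ := χ) R
  intro x
  rw [NatEnd.mul_app, localEnd_app_ring hcomm]
  exact congrArg (fun f : Module.End R (tH1 χ R) => f x) (isIdempotentElem_localIdem hcomm a).eq

/-- If `T s - c` is invertible on the factor, the idempotent factors through it. -/
theorem exists_natEnd_mul_sub (s : σ) {c : R} (hc : IsUnit (a s - c)) :
    ∃ g : NatEnd χ, ∀ x : tH1 χ R,
      (localEnd T a).app R x = g.app R ((T s).app R x - c • x) := by
  have := finite_tH1 (χ := χ) R
  obtain ⟨z, hz, he⟩ := exists_mul_sub_eq_localIdem hcomm a s hc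
  obtain ⟨p, hp⟩ := exists_lift_eq (opsAt T R) hz
  refine ⟨natEval T p, fun x => ?_⟩
  rw [localEnd_app_ring hcomm, natEval_app, hp, he]
  rfl

variable (hlift : HasLifts χ)
include hlift

/-- The operators commute on every finite coefficient module. -/
theorem commute_opsAt (V : Type u) [AddCommGroup V] [Module R V] [Module.Finite R V] (s t : σ) :
    Commute (opsAt T V s) (opsAt T V t) :=
  LinearMap.ext fun x => eq_at_finite hlift (T s * T t) (T t * T s)
    (fun y => congrArg (fun f : Module.End R (tH1 χ R) => f y) (hcomm s t).eq) x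

/-- On finite modules `localEnd` is the idempotent of the operators there. -/
theorem localEnd_app_finite (V : Type u) [AddCommGroup V] [Module R V] [Module.Finite R V] :
    (localEnd T a).app V = localIdem (opsAt T V) a := by
  classical
  obtain ⟨n, π, hπ⟩ := Module.Finite.exists_fin' R V
  have key : ∀ (W : Type u) [AddCommGroup W] [Module R W] [Module.Finite R W]
      (φ : R →ₗ[R] W) (y : tH1 χ R),
      (localEnd T a).app W (tH1Map χ φ y) = localIdem (opsAt T W) a (tH1Map χ φ y) := by
    intro W _ _ _ φ y
    have := finite_tH1 (χ := χ) R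
    have := finite_tH1 (χ := χ) W
    rw [(localEnd T a).natural, localEnd_app_ring hcomm]
    exact localIdem_comm_map hcomm (commute_opsAt hcomm hlift W) a (tH1Map χ φ)
      (fun s x => ((T s).natural φ x).symm) y
  refine LinearMap.ext fun x => ?_
  obtain ⟨y, rfl⟩ := tH1Map_surjective χ hlift π hπ x
  have hsum : y = ∑ i, tH1Map χ (LinearMap.single R (fun _ : Fin n => R) i)
      (tH1Map χ (LinearMap.proj i : (Fin n → R) →ₗ[R] R) y) := by
    conv_lhs => rw [← tH1Map_id χ y]
    simp only [← tH1Map_comp]
    rw [← tH1Map_sum]
    congr 2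
    refine LinearMap.ext fun f => ?_
    simp [Finset.univ_sum_single]
  rw [hsum, map_sum, map_sum, map_sum]
  refine Finset.sum_congr rfl fun i _ => ?_
  rw [← tH1Map_comp]
  exact key V _ _

end FLTA.RT
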