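import Fermat.Agent.RepTheory.DVRExtension
import Mathlib.RingTheory.Artinian.Module
import Mathlib.RingTheory.Ideal.Quotient.Operations

/-!
# Idempotents of finite algebras over complete noetherian local rings

For an ideal `𝔞` of a finite algebra `B` over a complete noetherian local ring there is exactly
one idempotent which lies outside exactly those maximal ideals containing `𝔞`; simple roots
modulo such maximal ideals lift to that factor.
-/

set_option autoImplicit false

noncomputable section

open IsLocalRing Polynomial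

universe u

namespace FLTA.RT

variable {B : Type u} [CommRing B]

/-- `e` is the idempotent cutting out the maximal ideals above `𝔞`. -/
structure IsCutOut (𝔞 : Ideal B) (e : B) : Prop where
  idem : IsIdempotentElem e
  mem_iff : ∀ P : Ideal B, P.IsMaximal → (e ∈ P ↔ ¬ 𝔞 ≤ P)

namespace IsCutOut

variable {𝔞 : Ideal B} {e e' : B}

theorem one_sub_mem (he : IsCutOut 𝔞 e) {P : Ideal B} (hP : P.IsMaximal) (h : 𝔞 ≤ P) :
    1 - e ∈ P := by
  rcases hP.isPrime.mem_or_mem (show e * (1 - e) ∈ P by simp [he.idem.mul_one_sub_self]) with h' | h'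
  · exact absurd h ((he.mem_iff P hP).mp h')
  · exact h'

theorem exists_eq_mul (he : IsCutOut 𝔞 e) {y : B}
    (hy : ∀ P : Ideal B, P.IsMaximal → 𝔞 ≤ P → y ∉ P) : ∃ z, e = y * z := by
  have hu : IsUnit (e * y + (1 - e)) := by
    by_contra hnu
    obtain ⟨P, hP, hmem⟩ := exists_max_ideal_of_mem_nonunits (mem_nonunits_iff.mpr hnu)
    by_cases h : 𝔞 ≤ P
    · have h1 := he.one_sub_mem hP h
      rcases hP.isPrime.mem_or_mem ((Ideal.add_mem_iff_left P h1).mp hmem) with h2 | h2
      · exact (he.mem_iff P hP).mp h2 h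
      · exact hy P hP h h2
    · have h1 := (he.mem_iff P hP).mpr h
      have h2 := (Ideal.add_mem_iff_right P (P.mul_mem_right y h1)).mp hmem
      exact hP.ne_top ((Ideal.eq_top_iff_one P).mpr (by simpa using add_mem h1 h2))
  obtain ⟨v, hv⟩ := hu
  refine ⟨e * (↑v⁻¹ : B), ?_⟩
  have h1 : e * (e * y + (1 - e)) = e * y := by
    linear_combination (y - 1) * he.idem.eq
  calc e = e * (e * y + (1 - e)) * (↑v⁻¹ : B) := by rw [← hv, mul_assoc, Units.mul_inv, mul_one]
    _ = y * (e * (↑v⁻¹ : B)) := by rw [h1]; ring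

theorem unique (he : IsCutOut 𝔞 e) (he' : IsCutOut 𝔞 e') : e = e' := by
  have key : ∀ {a b : B}, IsCutOut 𝔞 a → IsCutOut 𝔞 b → a * b = a := fun {a b} ha hb => by
    obtain ⟨z, hz⟩ := ha.exists_eq_mul fun P hP h hmem => (hb.mem_iff P hP).mp hmem h
    rw [hz, mul_right_comm, hb.idem.eq]
  rw [← key he he', mul_comm, key he' he]

theorem map (he : IsCutOut 𝔞 e) {C : Type*} [CommRing C] (π : B →+* C)
    (hπ : Function.Surjective π) : IsCutOut (𝔞.map π) (π e) := by
  refine ⟨he.idem.map π, fun P hP => ?_⟩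
  haveI := hP
  rw [← Ideal.mem_comap, he.mem_iff _ (Ideal.comap_isMaximal_of_surjective π hπ),
    Ideal.map_le_iff_le_comap]

end IsCutOut

section complete

variable (R : Type u) [CommRing R] [IsLocalRing R] [IsNoetherianRing R]
  [IsAdicComplete (maximalIdeal R) R] [Algebra R B] [Module.Finite R B]

include R

theorem isArtinianRing_quotient_map :
    IsArtinianRing (B ⧸ (maximalIdeal R).map (algebraMap R B)) := by
  haveI : Module.Finite (R ⧸ maximalIdeal R) (B ⧸ (maximalIdeal R).map (algebraMap R B)) :=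
    Module.Finite.of_restrictScalars_finite R _ _
  let _ : Field (R ⧸ maximalIdeal R) := Ideal.Quotient.field _
  exact IsArtinianRing.of_finite (R ⧸ maximalIdeal R) _

theorem map_maximalIdeal_le_jacobson :
    (maximalIdeal R).map (algebraMap R B) ≤ (⊥ : Ideal B).jacobson := by
  have := RepTheory.isAdicComplete_of_module_finite R B
  have : IsAdicComplete ((maximalIdeal R).map (algebraMap R B)) B :=
    (IsAdicComplete.map_algebraMap_iff _ _).mpr inferInstance
  exact IsAdicComplete.le_jacobson_bot _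

theorem finite_setOf_isMaximal : {P : Ideal B | P.IsMaximal}.Finite := by
  classical
  set I := (maximalIdeal R).map (algebraMap R B) with hI
  haveI := isArtinianRing_quotient_map (B := B) R
  refine Set.Finite.subset ((IsArtinianRing.setOf_isMaximal_finite (B ⧸ I)).image
    (Ideal.comap (Ideal.Quotient.mk I))) fun P hP => ?_
  have hle : I ≤ P := (map_maximalIdeal_le_jacobson (B := B) R).trans (sInf_le ⟨bot_le, hP⟩)
  haveI : P.IsMaximal := hP
  refine ⟨P.map (Ideal.Quotient.mk I),
    Ideal.IsMaximal.map_of_surjective_of_ker_le Ideal.Quotient.mk_surjective (by simpa using hle), ?_⟩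
  rw [Ideal.comap_map_of_surjective _ Ideal.Quotient.mk_surjective, ← RingHom.ker_eq_comap_bot,
    Ideal.mk_ker, sup_eq_left.mpr hle]

theorem henselianRing_jacobson : HenselianRing B (⊥ : Ideal B).jacobson := by
  set I := (maximalIdeal R).map (algebraMap R B) with hI
  have hle : I ≤ (⊥ : Ideal B).jacobson := map_maximalIdeal_le_jacobson R
  haveI := isArtinianRing_quotient_map (B := B) R
  obtain ⟨n, hn⟩ := IsArtinianRing.isNilpotent_jacobson_bot (R := B ⧸ I)
  have hpow : (⊥ : Ideal B).jacobson ^ (n + 1) ≤ I := by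
    have h1 : ((⊥ : Ideal B).jacobson).map (Ideal.Quotient.mk I)
        ≤ (⊥ : Ideal (B ⧸ I)).jacobson := by
      rw [Ideal.map_le_iff_le_comap, Ideal.comap_jacobson_of_surjective
        Ideal.Quotient.mk_surjective]
      exact Ideal.jacobson_mono bot_le
    refine (Ideal.pow_le_pow_right (Nat.le_succ n)).trans fun x hx => ?_
    have h2 := Ideal.pow_right_mono h1 n (by
      rw [← Ideal.map_pow]; exact Ideal.mem_map_of_mem (Ideal.Quotient.mk I) hx)
    rw [hn] at h2
    exact Ideal.Quotient.eq_zero_iff_mem.mp h2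
  have := RepTheory.isAdicComplete_of_module_finite R B
  have : IsAdicComplete I B := (IsAdicComplete.map_algebraMap_iff _ _).mpr inferInstance
  have := RepTheory.isAdicComplete_of_pow_succ_le hle hpow
  infer_instance

/-- A monic polynomial with a root modulo every maximal ideal which is simple there has a root. -/
theorem exists_root {f : B[X]} (hf : f.Monic) (a₀ : B)
    (h0 : ∀ P : Ideal B, P.IsMaximal → f.eval a₀ ∈ P)
    (h1 : ∀ P : Ideal B, P.IsMaximal → f.derivative.eval a₀ ∉ P) :
    ∃ a, f.eval a = 0 ∧ ∀ P : Ideal B, P.IsMaximal → a - a₀ ∈ P := by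
  haveI := henselianRing_jacobson (B := B) R
  have hu : IsUnit (f.derivative.eval a₀) := by
    by_contra hnu
    obtain ⟨P, hP, hmem⟩ := exists_max_ideal_of_mem_nonunits (mem_nonunits_iff.mpr hnu)
    exact h1 P hP hmem
  obtain ⟨a, ha, hmem⟩ := HenselianRing.is_henselian (I := (⊥ : Ideal B).jacobson) f hf a₀
    (Submodule.mem_sInf.mpr fun P hP => h0 P hP.2) (hu.map _)
  exact ⟨a, ha, fun P hP => (sInf_le ⟨bot_le, hP⟩ : (⊥ : Ideal B).jacobson ≤ P) hmem⟩

/-- An element with prescribed reductions modulo the maximal ideals. -/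
theorem exists_forall_sub_mem (g : Ideal B → B) :
    ∃ x : B, ∀ P : Ideal B, P.IsMaximal → x - g P ∈ P := by
  classical
  haveI : Finite {P : Ideal B // P.IsMaximal} := (finite_setOf_isMaximal (B := B) R).to_subtype
  obtain ⟨x, hx⟩ := Ideal.exists_forall_sub_mem_ideal
    (I := fun P : {P : Ideal B // P.IsMaximal} => P.1) (fun P Q hPQ =>
      Ideal.isCoprime_iff_sup_eq.mpr (P.2.coprime_of_ne Q.2 fun h => hPQ (Subtype.ext h)))
    fun P => g P.1
  exact ⟨x, fun P hP => hx ⟨P, hP⟩⟩

theorem exists_isCutOut (𝔞 : Ideal B) : ∃ e, IsCutOut 𝔞 e := by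
  classical
  obtain ⟨a₀, ha₀⟩ := exists_forall_sub_mem (B := B) R fun P => if 𝔞 ≤ P then 1 else 0
  have hev : ∀ P : Ideal B, P.IsMaximal → (a₀ - 1 ∈ P ∧ 𝔞 ≤ P) ∨ (a₀ ∈ P ∧ ¬ 𝔞 ≤ P) := by
    intro P hP
    by_cases h : 𝔞 ≤ P
    · exact Or.inl ⟨by simpa [h] using ha₀ P hP, h⟩
    · exact Or.inr ⟨by simpa [h] using ha₀ P hP, h⟩
  obtain ⟨a, ha, hmem⟩ := exists_root (B := B) R (f := X ^ 2 - X)
    (monic_X_pow_sub (degree_X_le.trans_lt (by norm_num))) a₀
    (fun P hP => by
      rw [show (X ^ 2 - X : B[X]).eval a₀ = a₀ * (a₀ - 1) by simp; ring]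
      rcases hev P hP with ⟨h, -⟩ | ⟨h, -⟩
      · exact P.mul_mem_left _ h
      · exact P.mul_mem_right _ h)
    (fun P hP hd => by
      have hd' : a₀ + a₀ - 1 ∈ P := by
        have : (X ^ 2 - X : B[X]).derivative.eval a₀ = a₀ + a₀ - 1 := by simp; ring
        rwa [this] at hd
      refine hP.ne_top ((Ideal.eq_top_iff_one P).mpr ?_)
      rcases hev P hP with ⟨h, -⟩ | ⟨h, -⟩
      · convert sub_mem hd' (add_mem h h) using 1
        ring
      · convert sub_mem (add_mem h h) hd' using 1
        ring)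
  refine ⟨a, show a * a = a by simpa [pow_two, sub_eq_zero] using ha, fun P hP => ?_⟩
  have h := hmem P hP
  rcases hev P hP with ⟨h', h𝔞⟩ | ⟨h', h𝔞⟩
  · exact iff_of_false (fun ha' => hP.ne_top ((Ideal.eq_top_iff_one P).mpr (by
      simpa using sub_mem ha' (add_mem h h')))) (not_not_intro h𝔞)
  · exact iff_of_true (by simpa using add_mem h h') h𝔞

/-- A simple root above `𝔞` gives a root on the factor cut out by `e`. -/
theorem IsCutOut.exists_root {𝔞 : Ideal B} {e : B} (he : IsCutOut 𝔞 e) (t s α : B)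
    (h0 : ∀ P : Ideal B, P.IsMaximal → 𝔞 ≤ P → α * α - t * α + s ∈ P)
    (h1 : ∀ P : Ideal B, P.IsMaximal → 𝔞 ≤ P → α + α - t ∉ P) :
    ∃ A, e * (A * A - t * A + s) = 0 ∧ ∀ P : Ideal B, P.IsMaximal → 𝔞 ≤ P → A - α ∈ P := by
  obtain ⟨A, hA, hmem⟩ := FLTA.RT.exists_root (B := B) R
    (f := X ^ 2 - C (e * t + (1 - e)) * X + C (e * s)) (by monicity!) (e * α)
    (fun P hP => by
      simp only [eval_add, eval_sub, eval_mul, eval_pow, eval_X, eval_C]
      by_cases h : 𝔞 ≤ P
      · have h2 := he.one_sub_mem hP h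
        have h3 := h0 P hP h
        convert add_mem (P.mul_mem_left e h3) (P.mul_mem_left (- (e * α)) h2) using 1
        linear_combination (α * α - α * t) * he.idem.eq
      · have h2 := (he.mem_iff P hP).mpr h
        convert P.mul_mem_left
          (α * (e * α) - α * (e * t + (1 - e)) + s) h2 using 1
        ring)
    (fun P hP hd => by
      simp only [derivative_add, derivative_sub, derivative_X_pow, derivative_mul, derivative_C,
        derivative_X, eval_sub, eval_mul, eval_C, eval_pow, eval_X,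
        Nat.cast_ofNat, zero_mul, zero_add, mul_one, add_zero] at hd
      by_cases h : 𝔞 ≤ P
      · refine h1 P hP h ?_
        have h2 := he.one_sub_mem hP h
        convert add_mem hd (P.mul_mem_left (α + α - t + 1) h2) using 1
        ring
      · have h2 := (he.mem_iff P hP).mpr h
        refine hP.ne_top ((Ideal.eq_top_iff_one P).mpr ?_)
        convert sub_mem (P.mul_mem_left (2 * α - t + 1) h2) hd using 1
        ring)
  refine ⟨A, ?_, fun P hP h => ?_⟩
  · simp only [eval_add, eval_sub, eval_mul, eval_pow, eval_X, eval_C] at hA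
    linear_combination e * hA + (t * A - s - A) * he.idem.eq
  · convert sub_mem (hmem P hP) (P.mul_mem_left α (he.one_sub_mem hP h)) using 1
    ring

end complete

end FLTA.RT
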