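import Fermat.Agent.Galois.PlacesFinite
import Mathlib.LinearAlgebra.Determinant
import Mathlib.LinearAlgebra.Basis.VectorSpace
import Mathlib.RingTheory.TensorProduct.Free
import Mathlib.RingTheory.Flat.Basic
import Mathlib.GroupTheory.Index

/-!
# Irreducibility on index two subgroups

A two dimensional irreducible representation of `G_ℚ` of finite level whose inertia images have
the shape of the `p`-torsion of a semistable elliptic curve (`p ≥ 5`) stays irreducible on every
subgroup of index two: otherwise the quadratic character cutting out the subgroup would be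
unramified everywhere.
-/

set_option autoImplicit false

namespace FLTA.RT

open scoped TensorProduct

local notation "Qbar" => AlgebraicClosure ℚ
local notation "Γ" => AlgebraicClosure ℚ ≃ₐ[ℚ] AlgebraicClosure ℚ

variable {K : Type*} [Field K] {V : Type*} [AddCommGroup V] [Module K V]

/-- Inertia images shaped like those of the `p`-torsion of a semistable curve. -/
structure InertiaShape (p : ℕ) (ρ : Γ →* Module.End K V) : Prop where
  finite : ∃ L : IntermediateField ℚ Qbar, FiniteDimensional ℚ L ∧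
    ∀ σ : Γ, (∀ x ∈ L, σ x = x) → ρ σ = 1
  away : ∀ q : ℕ, q.Prime → q ≠ p → ∀ A : ValuationSubring Qbar, A.LiesOverPrime q →
    ∀ σ ∈ A.inertiaSubgroupIn ℚ, ρ σ ^ p = 1
  at_p : ∀ A : ValuationSubring Qbar, A.LiesOverPrime p →
    (∀ σ ∈ A.inertiaSubgroupIn ℚ, LinearMap.det (ρ σ - 1) = 0) ∨
      ((∀ σ ∈ A.inertiaSubgroupIn ℚ, ∀ τ ∈ A.inertiaSubgroupIn ℚ, Commute (ρ σ) (ρ τ)) ∧
        ∃ τ ∈ A.inertiaSubgroupIn ℚ, ρ τ ^ (2 * (p - 1)) ≠ 1)
  det_pow : ∀ σ : Γ, LinearMap.det (ρ σ) ^ (p - 1) = 1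
  det_sq : ∀ A : ValuationSubring Qbar, A.LiesOverPrime p →
    ∃ ι ∈ A.inertiaSubgroupIn ℚ, LinearMap.det (ρ ι) ^ 2 ≠ 1

/-- Irreducibility of the restriction to every subgroup of index two. -/
def IndexTwoIrreducible (ρ : Γ →* Module.End K V) : Prop :=
  ∀ G : Subgroup Γ, G.index = 2 → ∀ W : Submodule K V,
    (∀ σ ∈ G, ∀ x ∈ W, ρ σ x ∈ W) → W = ⊥ ∨ W = ⊤

section

variable [Module.Finite K V] {p : ℕ} {ρ : Γ →* Module.End K V}

theorem det_smul_one (hV : Module.finrank K V = 2) (c : K) :
    LinearMap.det (c • (1 : Module.End K V)) = c ^ 2 := by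
  rw [LinearMap.det_smul, hV, show LinearMap.det (1 : Module.End K V) = 1 from map_one _, mul_one]

/-- The structure of an imprimitive representation: an element outside the stabiliser squares to
a scalar, and an element of the stabiliser commuting with it is a scalar. -/
theorem scalar_of_stable_line (hV : Module.finrank K V = 2)
    (hirr : ∀ W : Submodule K V, (∀ σ, ∀ x ∈ W, ρ σ x ∈ W) → W = ⊥ ∨ W = ⊤)
    {G : Subgroup Γ} (hG : G.index = 2) {W : Submodule K V}
    (hW : ∀ σ ∈ G, ∀ x ∈ W, ρ σ x ∈ W) (hbot : W ≠ ⊥) (htop : W ≠ ⊤) {σ : Γ} (hσ : σ ∉ G) :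
    (∃ c : K, ρ σ ^ 2 = c • 1) ∧
      ∀ τ ∈ G, Commute (ρ σ) (ρ τ) → ∃ a : K, ρ τ = a • 1 := by
  obtain ⟨v, hv, hv0⟩ := W.ne_bot_iff.mp hbot
  have hW1 : Module.finrank K W = 1 := by
    have h1 := Submodule.finrank_lt htop
    have h2 : 0 < Module.finrank K W := by
      have : Nontrivial W := Submodule.nontrivial_iff_ne_bot.mpr hbot
      exact Module.finrank_pos
    omega
  have hline : ∀ x ∈ W, ∃ a : K, a • v = x := fun x hx => by
    obtain ⟨a, ha⟩ := (finrank_eq_one_iff_of_nonzero' (⟨v, hv⟩ : W)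
      (fun h => hv0 (congrArg Subtype.val h))).mp hW1 ⟨x, hx⟩
    exact ⟨a, congrArg Subtype.val ha⟩
  have hw : ρ σ v ∉ W := by
    intro hmem
    refine (hirr W fun τ x hx => ?_).elim hbot htop
    by_cases hτ : τ ∈ G
    · exact hW τ hτ x hx
    · have h1 : σ⁻¹ * τ ∈ G :=
        (Subgroup.mul_mem_iff_of_index_two hG).mpr
          ⟨fun h => absurd (G.inv_mem_iff.mp h) hσ, fun h => absurd h hτ⟩
      obtain ⟨a, ha⟩ := hline _ (hW _ h1 x hx)
      have : ρ τ x = ρ σ (ρ (σ⁻¹ * τ) x) := by
        rw [← Module.End.mul_apply, ← map_mul, mul_inv_cancel_left]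
      rw [this, ← ha, map_smul]
      exact W.smul_mem a hmem
  have hspan : W ⊔ (K ∙ ρ σ v) = ⊤ := by
    refine Submodule.eq_top_of_finrank_eq ?_
    have hlt : W < W ⊔ (K ∙ ρ σ v) :=
      lt_of_le_of_ne le_sup_left fun h =>
        hw (h ▸ Submodule.mem_sup_right (Submodule.mem_span_singleton_self _))
    have h1 := Submodule.finrank_lt_finrank_of_lt hlt
    have h2 := Submodule.finrank_le (W ⊔ (K ∙ ρ σ v))
    omega
  have ext2 : ∀ f g : Module.End K V, f v = g v → f (ρ σ v) = g (ρ σ v) → f = g := by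
    intro f g h1 h2
    refine LinearMap.ext fun x => ?_
    obtain ⟨y, hy, z, hz, rfl⟩ := Submodule.mem_sup.mp (hspan.symm ▸ Submodule.mem_top :
      x ∈ W ⊔ (K ∙ ρ σ v))
    obtain ⟨a, rfl⟩ := hline y hy
    obtain ⟨b, rfl⟩ := Submodule.mem_span_singleton.mp hz
    simp only [map_add, map_smul, h1, h2]
  constructor
  · obtain ⟨c, hc⟩ := hline _ (hW _ (Subgroup.mul_self_mem_of_index_two hG σ) v hv)
    rw [map_mul, Module.End.mul_apply] at hc
    refine ⟨c, ext2 _ _ ?_ ?_⟩
    · rw [pow_two, Module.End.mul_apply, LinearMap.smul_apply, Module.End.one_apply, hc]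
    · rw [pow_two, Module.End.mul_apply, LinearMap.smul_apply, Module.End.one_apply, ← hc,
        map_smul]
  · intro τ hτ hcomm
    obtain ⟨a, ha⟩ := hline _ (hW τ hτ v hv)
    refine ⟨a, ext2 _ _ ?_ ?_⟩
    · rw [LinearMap.smul_apply, Module.End.one_apply, ha]
    · rw [LinearMap.smul_apply, Module.End.one_apply, ← Module.End.mul_apply, ← hcomm.eq,
        Module.End.mul_apply, ← ha, map_smul]

/-- The main theorem. -/
theorem InertiaShape.indexTwoIrreducible (h : InertiaShape p ρ) (hp : Odd p)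
    (hV : Module.finrank K V = 2)
    (hirr : ∀ W : Submodule K V, (∀ σ, ∀ x ∈ W, ρ σ x ∈ W) → W = ⊥ ∨ W = ⊤) :
    IndexTwoIrreducible ρ := by
  intro G hG W hW
  by_contra hcon
  push Not at hcon
  obtain ⟨hbot, htop⟩ := hcon
  have key := @scalar_of_stable_line _ _ _ _ _ _ ρ hV hirr G hG W hW hbot htop
  have : G.Normal := Subgroup.normal_of_index_eq_two hG
  have hker : ∀ τ : Γ, ρ τ = 1 → τ ∈ G := by
    intro τ hτ
    by_contra hτG
    refine (hirr W fun g x hx => ?_).elim hbot htop
    by_cases hg : g ∈ G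
    · exact hW g hg x hx
    · have h1 : τ * g ∈ G := (Subgroup.mul_mem_iff_of_index_two hG).mpr
        ⟨fun h => absurd h hτG, fun h => absurd h hg⟩
      have := hW _ h1 x hx
      rwa [map_mul, hτ, one_mul] at this
  have hGtop : ∀ σ : Γ, σ ∈ G := by
    intro σ
    rw [← QuotientGroup.eq_one_iff (N := G)]
    refine FLTA.Galois.hom_eq_one_of_unramified (QuotientGroup.mk' G) ?_ ?_ σ
    · obtain ⟨L, hfin, hL⟩ := h.finite
      exact ⟨L, hfin, fun g hg => (QuotientGroup.eq_one_iff g).mpr (hker g (hL g hg))⟩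
    intro q hq A hA τ hτ
    rw [QuotientGroup.mk'_apply, QuotientGroup.eq_one_iff]
    by_contra hτG
    by_cases hqp : q = p
    · subst hqp
      rcases h.at_p A hA with hord | ⟨hcomm, τ₁, hτ₁, hne⟩
      · have hdet : ∀ g ∈ A.inertiaSubgroupIn ℚ, g ∉ G → LinearMap.det (ρ g) ^ 2 = 1 := by
          intro g hg hgG
          obtain ⟨c, hc⟩ := (key hgG).1
          have hx := hord g hg
          obtain ⟨x, hx, hx0⟩ := Submodule.exists_mem_ne_zero_of_ne_bot
            (LinearMap.bot_lt_ker_of_det_eq_zero hx).ne'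
          rw [LinearMap.mem_ker, LinearMap.sub_apply, Module.End.one_apply, sub_eq_zero] at hx
          have h2 := congrArg (fun f => f x) hc
          simp only [pow_two, Module.End.mul_apply, hx, LinearMap.smul_apply,
            Module.End.one_apply] at h2
          have hc1 : c = 1 := by
            by_contra hne
            have : (c - 1) • x = 0 := by rw [sub_smul, one_smul, ← h2, sub_self]
            exact hx0 ((smul_eq_zero.mp this).resolve_left (sub_ne_zero.mpr hne))
          rw [← map_pow, hc, hc1, det_smul_one hV, one_pow]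
        obtain ⟨ι, hι, hne⟩ := h.det_sq A hA
        by_cases hιG : ι ∈ G
        · have h1 := hdet _ (mul_mem hτ hι) fun hm => hτG ((G.mul_mem_cancel_right hιG).mp hm)
          rw [map_mul, map_mul, mul_pow, hdet τ hτ hτG, one_mul] at h1
          exact hne h1
        · exact hne (hdet ι hι hιG)
      · refine hne ?_
        have hev : Even (q - 1) := Nat.Odd.sub_odd hp odd_one
        obtain ⟨j, hj⟩ := hev
        by_cases hτ₁G : τ₁ ∈ G
        · obtain ⟨a, ha⟩ := (key hτG).2 τ₁ hτ₁G (hcomm τ hτ τ₁ hτ₁)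
          have hd := h.det_pow τ₁
          rw [ha, det_smul_one hV, ← pow_mul] at hd
          rw [ha, smul_pow, one_pow, hd, one_smul]
        · obtain ⟨c, hc⟩ := (key hτ₁G).1
          have hd := h.det_pow τ₁
          rw [hj, ← two_mul, pow_mul, ← map_pow, hc, det_smul_one hV, ← pow_mul] at hd
          rw [pow_mul, hc, smul_pow, one_pow, hj, ← two_mul, hd, one_smul]
    · have h1 : τ ^ p ∈ G := hker _ (by rw [map_pow]; exact h.away q hq hqp A hA τ hτ)
      obtain ⟨i, rfl⟩ := hp
      rw [pow_succ, pow_mul] at h1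
      exact hτG ((G.mul_mem_cancel_left (pow_mem (Subgroup.sq_mem_of_index_two hG τ) i)).mp h1)
  rw [Subgroup.index_eq_one.mpr (eq_top_iff.mpr fun x _ => hGtop x)] at hG
  omega

end

section BaseChange

variable [Module.Finite K V] [Module.Free K V] (K' : Type*) [Field K'] [Algebra K K']

/-- The base change of a representation. -/
noncomputable def bc (ρ : Γ →* Module.End K V) : Γ →* Module.End K' (K' ⊗[K] V) :=
  ((Module.End.baseChangeHom K K' V).toRingHom.toMonoidHom).comp ρ

theorem InertiaShape.baseChange {p : ℕ} {ρ : Γ →* Module.End K V} (h : InertiaShape p ρ) :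
    InertiaShape p (bc K' ρ) := by
  have hinj : Function.Injective (Module.End.baseChangeHom K K' V) := by
    intro f g hfg
    refine LinearMap.ext fun x => ?_
    have h' := congrArg (fun u => u ((1 : K') ⊗ₜ[K] x)) hfg
    change f.baseChange K' ((1 : K') ⊗ₜ[K] x) = g.baseChange K' ((1 : K') ⊗ₜ[K] x) at h'
    simp only [LinearMap.baseChange_tmul] at h'
    exact Module.Flat.tensorProduct_mk_injective K V K' h'
  have hdet : ∀ f : Module.End K V,
      LinearMap.det (Module.End.baseChangeHom K K' V f) = algebraMap K K' (LinearMap.det f) :=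
    fun f => LinearMap.det_baseChange f
  have happ : ∀ σ, bc K' ρ σ = Module.End.baseChangeHom K K' V (ρ σ) := fun _ => rfl
  refine ⟨?_, ?_, ?_, ?_, ?_⟩
  · obtain ⟨L, hf, hL⟩ := h.finite
    exact ⟨L, hf, fun σ hσ => by rw [happ, hL σ hσ, map_one]⟩
  · intro q hq hqp A hA σ hσ
    rw [happ, ← map_pow, h.away q hq hqp A hA σ hσ, map_one]
  · intro A hA
    rcases h.at_p A hA with ho | ⟨hc, τ, hτ, hne⟩
    · left
      intro σ hσ
      rw [happ]
      refine Eq.trans ?_ ((hdet (ρ σ - 1)).trans (by rw [ho σ hσ, map_zero]))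
      rw [map_sub, map_one]
    · right
      refine ⟨fun a ha b hb => by rw [happ, happ]; exact (hc a ha b hb).map (Module.End.baseChangeHom K K' V), τ, hτ, ?_⟩
      rw [happ, ← map_pow]
      exact fun h1 => hne (hinj (h1.trans (map_one _).symm))
  · intro σ
    rw [happ, hdet, ← map_pow, h.det_pow σ, map_one]
  · intro A hA
    obtain ⟨ι, hι, hne⟩ := h.det_sq A hA
    refine ⟨ι, hι, ?_⟩
    rw [happ, hdet, ← map_pow]
    exact fun h1 => hne ((algebraMap K K').injective (h1.trans (map_one _).symm))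

end BaseChange

end FLTA.RT
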