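import Fermat.Agent.RT.ImageIndexTwo
import Fermat.Agent.RT.ImageTorsion
import Fermat.Agent.RepTheory.AbsIrr
import Fermat.Agent.EllTorsion.WeilDet
import Fermat.Agent.EllTorsion.Card
import Fermat.Agent.EllTorsion.FiniteLevel
import Fermat.Agent.Galois.Cyclotomic
import Fermat.Prelude.Def_FLTPrelim_ModularRep
import Fermat.Prelude.Def_GaloisRep_ComplexConjugation

/-!
# The residual representation of a semistable curve on subgroups of index two

For `p ≥ 5` and a semistable integral model with irreducible `E[p]`, the residual representation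
is absolutely irreducible and stays irreducible on every subgroup of index two of `G_ℚ`.
-/

set_option autoImplicit false


open WeierstrassCurve WeierstrassCurve.Affine.Point

open scoped WeierstrassCurve.Affine TensorProduct

namespace FLTA.RT


open FLTA.EllReduction

local notation "Qbar" => AlgebraicClosure ℚ
local notation "Γ" => AlgebraicClosure ℚ ≃ₐ[ℚ] AlgebraicClosure ℚ

/-- Complex conjugation is not the identity. -/
theorem complexConj_ne_one : complexConjugation ≠ 1 := by
  intro h
  obtain ⟨x, hx⟩ := IsAlgClosed.exists_pow_nat_eq (-1 : AlgebraicClosure ℚ) (n := 2) two_pos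
  have hfix := complexEmbedding_complexConjugation x
  rw [h, AlgEquiv.one_apply] at hfix
  obtain ⟨r, hr⟩ := (Complex.conj_eq_iff_real).mp hfix.symm
  have h2 : (complexEmbedding x) ^ 2 = -1 := by rw [← map_pow, hx, map_neg, map_one]
  rw [hr] at h2
  have h3 : r ^ 2 = -1 := by exact_mod_cast h2
  nlinarith [sq_nonneg r]

theorem isElliptic_intModel (W : WeierstrassCurve ℤ) (hΔ : W.Δ ≠ 0) :
    (W.map (Int.castRingHom ℚ)).IsElliptic :=
  ⟨by rw [WeierstrassCurve.map_Δ, isUnit_iff_ne_zero]; simpa using hΔ⟩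

section Shape

variable (W : WeierstrassCurve ℤ) (p : ℕ) [Fact p.Prime]

local notation "ρW" => galoisRepModuleEnd (K := AlgebraicClosure ℚ) ℚ (W.map (Int.castRingHom ℚ)) p

theorem det_rhoW (hΔ : W.Δ ≠ 0) (σ : Γ) :
    LinearMap.det (ρW σ) = (ExtCitation.cycloExp p σ : ZMod p) := by
  have hp : p.Prime := Fact.out
  haveI : NeZero p := ⟨hp.ne_zero⟩
  haveI := isElliptic_intModel W hΔ
  letI : Algebra ℚ (AlgebraicClosure ℚ) := AlgebraicClosure.instAlgebra ℚ
  haveI : ((W.map (Int.castRingHom ℚ))⁄(AlgebraicClosure ℚ)).IsElliptic :=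
    Elliptic.Weil.isElliptic_baseChange (R := ℚ) _
  rw [ExtCitation.cycloExp, ZMod.natCast_zmod_val]
  exact Elliptic.Weil.det_galoisRepModuleEnd_of_card (R := ℚ) (S := ℚ) (K := AlgebraicClosure ℚ) (W.map (Int.castRingHom ℚ)) p _
    (EllTorsion.natCard_torsionBy_intModel W hΔ hp.ne_zero) σ

theorem nsmul_coe (v : Submodule.torsionBy ℤ (GeomPoint W) p) : p • (v.1 : GeomPoint W) = 0 := by
  have := (Submodule.mem_torsionBy_iff _ _).mp v.2
  rwa [← natCast_zsmul]

theorem coe_rhoW (σ : Γ) (v : Submodule.torsionBy ℤ (GeomPoint W) p) :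
    ((ρW σ v).1 : GeomPoint W) = σ • (v.1 : GeomPoint W) :=
  rfl

/-- The shape of inertia on `E[p]`. -/
theorem inertiaShape (hp5 : 5 ≤ p) (hΔ : W.Δ ≠ 0) (hW : W.IsSemistableModel) :
    InertiaShape p ρW where
  finite := EllTorsion.galoisFactorsThroughFiniteLevel_intModel W hΔ (Fact.out : p.Prime).ne_zero
  away := by
    intro q hq hqp A hA σ hσ
    have hp : p.Prime := Fact.out
    have key : ∀ v, ρW σ (ρW σ v - v) = ρW σ v - v := fun v => Subtype.ext
      (smul_smul_sub_eq hq hA ((em ((q : ℤ) ∣ W.Δ)).elim (fun h => Or.inr (hW q hq h)) Or.inl) hΔ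
        (fun h => hqp ((Nat.prime_dvd_prime_iff_eq hq hp).mp h)) hσ hσ (nsmul_coe W p v))
    have hpow : ∀ (i : ℕ) v, (ρW σ ^ i) v = v + (i : ZMod p) • (ρW σ v - v) := by
      intro i v
      induction i with
      | zero => simp
      | succ i ih =>
        rw [pow_succ', Module.End.mul_apply, ih, map_add, map_smul, key, Nat.cast_succ, add_smul,
          one_smul]
        abel
    refine LinearMap.ext fun v => ?_
    rw [hpow, ZMod.natCast_self, zero_smul, add_zero, Module.End.one_apply]
  at_p := by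
    intro A hA
    have hp : p.Prime := Fact.out
    have hp2 : p ≠ 2 := by omega
    have hss : ¬ (p : ℤ) ∣ W.Δ ∨ ¬ (p : ℤ) ∣ W.c₄ :=
      (em ((p : ℤ) ∣ W.Δ)).elim (fun h => Or.inr (hW p hp h)) Or.inl
    by_cases hall : ∀ P : GeomPoint W, p • P = 0 → P ∈ E1Z W A
    · right
      constructor
      · intro σ hσ τ hτ
        refine LinearMap.ext fun v => Subtype.ext ?_
        simp only [Module.End.mul_apply, coe_rhoW]
        exact smul_comm_of_mem_inertia hΔ hp hp2 hA hall hσ hτ (nsmul_coe W p v)
      · obtain ⟨P, hP0⟩ : ∃ v : Submodule.torsionBy ℤ (GeomPoint W) p, v ≠ 0 := by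
          have hc := EllTorsion.natCard_torsionBy_intModel W hΔ hp.ne_zero
          haveI : Finite (Submodule.torsionBy ℤ (GeomPoint W) p) :=
            Nat.finite_of_card_ne_zero (by rw [hc]; exact pow_ne_zero 2 hp.ne_zero)
          haveI : Nontrivial (Submodule.torsionBy ℤ (GeomPoint W) p) :=
            Finite.one_lt_card_iff_nontrivial.mp (by rw [hc]; exact one_lt_pow₀ hp.one_lt two_ne_zero)
          exact exists_ne 0
        have hm : 2 * (p - 1) < p ^ 2 - 1 := by
          obtain ⟨j, rfl⟩ : ∃ j, p = j + 1 := ⟨p - 1, by omega⟩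
          rw [add_tsub_cancel_right]
          have : (j + 1) ^ 2 = j * j + 2 * j + 1 := by ring
          have : 0 < j * j := Nat.mul_pos (by omega) (by omega)
          omega
        obtain ⟨σ, hσ, hne⟩ := exists_smul_pow_ne hΔ hp hp2 hA hall (m := 2 * (p - 1)) (by omega) hm
          (nsmul_coe W p P) (fun h => hP0 (Subtype.ext h))
        refine ⟨σ, hσ, fun h => hne ?_⟩
        have := congrArg (fun f => ((f P).1 : GeomPoint W))
          ((map_pow ρW σ _).trans h)
        exact this
    · left
      intro σ hσ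
      push Not at hall
      obtain ⟨P, hP, hP1⟩ := hall
      let ι : Submodule.torsionBy ℤ (GeomPoint W) p →+ GeomPoint W :=
        (Submodule.torsionBy ℤ (GeomPoint W) p).subtype.toAddMonoidHom
      let M := AddSubgroup.toZModSubmodule p ((E1Z W A).comap ι)
      haveI : Finite (Submodule.torsionBy ℤ (GeomPoint W) p) := Nat.finite_of_card_ne_zero (by
        rw [EllTorsion.natCard_torsionBy_intModel W hΔ hp.ne_zero]; exact pow_ne_zero 2 hp.ne_zero)
      haveI : Finite (Submodule.torsionBy ℤ
        ((W.map (Int.castRingHom ℚ))⁄(AlgebraicClosure ℚ)).Point p) := ‹_›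
      by_contra hdet
      have hsurj : LinearMap.range (ρW σ - 1) = ⊤ := by
        by_contra h
        exact hdet (by_contra fun hd => h (LinearEquiv.range (LinearMap.equivOfDetNeZero (𝕜 := ZMod p) _ hd)))
      obtain ⟨v, hv⟩ := LinearMap.range_eq_top.mp hsurj
        (⟨P, (Submodule.mem_torsionBy_iff _ _).mpr (by rwa [natCast_zsmul])⟩ :
          Submodule.torsionBy ℤ (GeomPoint W) p)
      refine hP1 ?_
      have hv' : σ • (v.1 : GeomPoint W) - v = P := congrArg Subtype.val hv
      rw [← hv']
      by_cases hgood : (p : ℤ) ∣ W.Δ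
      · refine mem_E1Z_of_mult hp hA hΔ hgood (hW p hp hgood)
          (smul_sub_mem_E0Z hp hA hss hΔ hσ _) ?_
        have h0 : p • (σ • (v.1 : GeomPoint W) - v.1) = 0 :=
          nsmul_smul_sub_eq_zero σ (nsmul_coe W p v)
        exact h0 ▸ (E1Z W A).zero_mem
      · exact smul_sub_mem_E1Z hp hA hσ (mem_E0Z_of_good hp hA hgood _)
  det_pow := by
    intro σ
    rw [det_rhoW W p hΔ, ExtCitation.cycloExp, ZMod.natCast_zmod_val]
    exact ZMod.pow_card_sub_one_eq_one (Units.ne_zero _)
  det_sq := by
    intro A hA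
    have hp : p.Prime := Fact.out
    have h2 : (2 : ZMod p) ≠ 0 := by
      intro h
      have h' : ((2 : ℕ) : ZMod p) = 0 := by exact_mod_cast h
      have := Nat.le_of_dvd two_pos ((ZMod.natCast_eq_zero_iff _ _).mp h')
      omega
    obtain ⟨ι, hι, h⟩ := Galois.exists_inertia_cycloExp p hA (Units.mk0 2 h2)
    refine ⟨ι, hι, ?_⟩
    rw [det_rhoW W p hΔ, h, Units.val_mk0]
    intro h4
    have h' : ((3 : ℕ) : ZMod p) = 0 := by push_cast; linear_combination h4
    have := Nat.le_of_dvd (by norm_num) ((ZMod.natCast_eq_zero_iff _ _).mp h')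
    omega

end Shape

/-- The abstract index two clause, in the form used by the Taylor–Wiles statement. -/
theorem irreducible_on_index_two_of_shape {k : Type} [Field k] {p : ℕ} (hp : Odd p)
    (ρ : ResidualGaloisRep k) (h : InertiaShape p ρ.ρ) (habs : ρ.IsAbsolutelyIrreducible)
    (K : Type) [Field K] [Algebra k K] (G : Subgroup Γ) (hG : G.index = 2)
    (V : Submodule K (ρ.baseChange K).V)
    (hV : ∀ σ ∈ G, ∀ x ∈ V, (ρ.baseChange K).ρ σ x ∈ V) : V = ⊥ ∨ V = ⊤ := by
  have hspans : RepTheory.Spans (bc K ρ.ρ) :=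
    (RepTheory.spans_baseChange_iff K ρ.ρ).mpr
      ((RepTheory.isAbsolutelyIrreducible_iff_spans ρ).mp habs)
  refine InertiaShape.indexTwoIrreducible (h.baseChange K) hp ?_
    (fun W' hW' => RepTheory.eq_bot_or_eq_top_of_spans hspans W' hW') G hG V hV
  exact (ρ.baseChange K).finrank_eq

theorem shape_baseChangeAlong {k k' : Type} [Field k] [Field k'] {p : ℕ} (φ : k →+* k')
    {ρ : ResidualGaloisRep k} (h : InertiaShape p ρ.ρ) :
    InertiaShape p (ρ.baseChangeAlong φ).ρ := by
  let : Algebra k k' := φ.toAlgebra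
  exact h.baseChange k'

section Semistable

variable (W : WeierstrassCurve ℤ) (hΔ : W.Δ ≠ 0) (p : ℕ) [Fact p.Prime]
  (hcard : Nat.card (Submodule.torsionBy ℤ
    ((W.map (Int.castRingHom ℚ))⁄(AlgebraicClosure ℚ)).Point p) = p ^ 2)
  (hker : GaloisFactorsThroughFiniteLevel
    (galoisRepModuleEnd (K := AlgebraicClosure ℚ) ℚ (W.map (Int.castRingHom ℚ)) p))

include hΔ in
/-- For odd `p` irreducible implies absolutely irreducible. -/
theorem residual_isAbsolutelyIrreducible (hp2 : p ≠ 2) (hirr : W.ModRepIsIrreducible p) :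
    ((W.map (Int.castRingHom ℚ)).residualGaloisRepOf p hcard hker).IsAbsolutelyIrreducible := by
  haveI := isElliptic_intModel W hΔ
  have h2 : (2 : ZMod p) ≠ 0 := by
    intro h
    have h' : ((2 : ℕ) : ZMod p) = 0 := by exact_mod_cast h
    have := Nat.le_of_dvd two_pos ((ZMod.natCast_eq_zero_iff _ _).mp h')
    have := (Fact.out : p.Prime).two_le
    omega
  refine RepTheory.isAbsolutelyIrreducible_of_isOdd
    (fun N hN => hirr.2 N hN) h2
    complexConjugation_mul_self
    (Elliptic.Weil.residualGaloisRepOf_isOdd _ p hcard hker _ complexConjugation_mul_self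
      complexConj_ne_one)

include hΔ in
/-- The hypotheses `habs` and `hTW` for the residual representation of a semistable curve. -/
theorem residual_absIrr_and_indexTwo (hp5 : 5 ≤ p) (hW : W.IsSemistableModel)
    (hirr : W.ModRepIsIrreducible p) {k : Type} [Field k] (φ : ZMod p →+* k) :
    (((W.map (Int.castRingHom ℚ)).residualGaloisRepOf p hcard hker).baseChangeAlong
        φ).IsAbsolutelyIrreducible ∧
      ∀ (K : Type) [Field K] [Algebra k K] (G : Subgroup Γ), G.index = 2 →
        ∀ V : Submodule K ((((W.map (Int.castRingHom ℚ)).residualGaloisRepOf p hcard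
            hker).baseChangeAlong φ).baseChange K).V,
          (∀ σ ∈ G, ∀ x ∈ V, ((((W.map (Int.castRingHom ℚ)).residualGaloisRepOf p hcard
            hker).baseChangeAlong φ).baseChange K).ρ σ x ∈ V) → V = ⊥ ∨ V = ⊤ := by
  have habs : (((W.map (Int.castRingHom ℚ)).residualGaloisRepOf p hcard hker).baseChangeAlong
      φ).IsAbsolutelyIrreducible :=
    (RepTheory.isAbsolutelyIrreducible_baseChangeAlong_iff φ _).mpr
      (residual_isAbsolutelyIrreducible W hΔ p hcard hker (by omega) hirr)
  refine ⟨habs, fun K _ _ G hG V hV => ?_⟩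
  exact irreducible_on_index_two_of_shape ((Fact.out : p.Prime).odd_of_ne_two (by omega)) _
    (shape_baseChangeAlong φ (inertiaShape W p hp5 hΔ hW)) habs K G hG V hV

end Semistable

end FLTA.RT
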