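import Fermat.Agent.RT.ImageSemistable
import Fermat.Agent.RepTheory.Basic
import Mathlib.Algebra.CharP.Lemmas
import Mathlib.RingTheory.Int.Basic
import Fermat.Agent.EllReducible.IntegralTorsion

/-!
# The index two clause at `p = 3`

An irreducible semistable mod 3 representation stays irreducible on every subgroup of index two:
otherwise it would be unramified outside 3, its image would be monomial, and a quadratic
character different from `χ₋₃` would be unramified outside 3.
-/

set_option autoImplicit false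

open WeierstrassCurve

open scoped WeierstrassCurve.Affine TensorProduct

namespace FLTA.RT

local notation "Qbar" => AlgebraicClosure ℚ
local notation "Γ" => AlgebraicClosure ℚ ≃ₐ[ℚ] AlgebraicClosure ℚ

section Quadratic

/-- A subgroup of index two, of finite level, containing inertia away from `3` is the stabiliser
of `√-3`. -/
theorem mem_iff_fix_sqrt_neg_three {s : Qbar} (hs : s ^ 2 = -3) {G : Subgroup Γ}
    (hG : G.index = 2)
    (hfin : ∃ L : IntermediateField ℚ Qbar, FiniteDimensional ℚ L ∧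
      ∀ σ : Γ, (∀ x ∈ L, σ x = x) → σ ∈ G)
    (hunr : ∀ q : ℕ, q.Prime → q ≠ 3 → ∀ A : ValuationSubring Qbar, A.LiesOverPrime q →
      A.inertiaSubgroupIn ℚ ≤ G) (σ : Γ) : σ ∈ G ↔ σ s = s := by
  haveI : IsGalois ℚ Qbar := EllReducible.isGalois_qbar
  obtain ⟨L, hLfin, hL⟩ := hfin
  have hopen : IsOpen (G : Set Γ) :=
    Subgroup.isOpen_mono (fun g hg => hL g ((IntermediateField.mem_fixingSubgroup_iff _ _).mp hg))
      (IntermediateField.fixingSubgroup_isOpen L)
  have hfix : (IntermediateField.fixedField G).fixingSubgroup = G :=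
    InfiniteGalois.fixingSubgroup_fixedField
      (⟨G, G.isClosed_of_isOpen hopen⟩ : ClosedSubgroup Γ)
  haveI : G.Normal := Subgroup.normal_of_index_eq_two hG
  obtain ⟨w, hw⟩ : ∃ w, w ∉ G := by
    by_contra h
    push Not at h
    rw [Subgroup.index_eq_one.mpr (eq_top_iff.mpr fun g _ => h g)] at hG
    omega
  obtain ⟨y, hy, hwy⟩ : ∃ y ∈ IntermediateField.fixedField G, w y ≠ y := by
    by_contra h
    push Not at h
    exact hw (hfix ▸ (IntermediateField.mem_fixingSubgroup_iff _ _).mpr h)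
  rw [IntermediateField.mem_fixedField_iff] at hy
  obtain ⟨x, hx⟩ : ∃ x, x = y - w y := ⟨_, rfl⟩
  have hx0 : x ≠ 0 := by rw [hx, sub_ne_zero]; exact hwy.symm
  have hGy : ∀ g ∈ G, g x = x := by
    intro g hg
    have h1 : g (w y) = w y := by
      have h2 : w⁻¹ * g * w ∈ G := by
        simpa using Subgroup.Normal.conj_mem inferInstance g hg w⁻¹
      calc g (w y) = w ((w⁻¹ * g * w) y) := by
            rw [← AlgEquiv.mul_apply, ← AlgEquiv.mul_apply]; congr 1; group
        _ = w y := by rw [hy _ h2]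
    rw [hx, map_sub, hy g hg, h1]
  have hGx : ∀ g : Γ, g ∉ G → g x = -x := by
    intro g hg
    have h1 : w⁻¹ * g ∈ G := (Subgroup.mul_mem_iff_of_index_two hG).mpr
      ⟨fun h => absurd (G.inv_mem_iff.mp h) hw, fun h => absurd h hg⟩
    have h2 : w (w y) = y := hy (w * w) (Subgroup.mul_self_mem_of_index_two hG w)
    have h3 : g x = w ((w⁻¹ * g) x) := by rw [← AlgEquiv.mul_apply, mul_inv_cancel_left]
    rw [h3, hGy _ h1, hx, map_sub, h2]
    ring
  obtain ⟨r, hr⟩ : ∃ r : ℚ, algebraMap ℚ Qbar r = x ^ 2 := by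
    refine (InfiniteGalois.mem_range_algebraMap_iff_fixed (k := ℚ) _).2 fun g => ?_
    by_cases hg : g ∈ G
    · rw [map_pow, hGy g hg]
    · rw [map_pow, hGx g hg, neg_sq]
  have hr0 : r ≠ 0 := by rintro rfl; rw [map_zero] at hr; exact hx0 (pow_eq_zero_iff two_ne_zero |>.mp hr.symm)
  obtain ⟨d', e, hde, hsf⟩ := Nat.sq_mul_squarefree (r.num * r.den).natAbs
  have hN0 : (r.num * r.den : ℤ) ≠ 0 := mul_ne_zero (Rat.num_ne_zero.mpr hr0) (by exact_mod_cast r.den_pos.ne')
  have he0 : (e : ℕ) ≠ 0 := by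
    rintro rfl
    simp at hde
    exact hN0 (by omega)
  obtain ⟨d, hd, hdd⟩ : ∃ d : ℤ, d.natAbs = d' ∧ (e : ℤ) ^ 2 * d = r.num * r.den := by
    rcases Int.natAbs_eq (r.num * r.den) with h | h
    · exact ⟨d', by simp, by rw [h, ← hde]; push_cast; ring⟩
    · exact ⟨-(d' : ℤ), by simp, by rw [h, ← hde]; push_cast; ring⟩
  obtain ⟨z, hz⟩ : ∃ z : Qbar, z = x * (r.den : Qbar) / (e : Qbar) := ⟨_, rfl⟩
  have hz2 : z ^ 2 = (d : Qbar) := by
    have hcast : ((r.num : Qbar)) = x ^ 2 * (r.den : Qbar) := by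
      rw [← hr, ← map_natCast (algebraMap ℚ Qbar), ← map_mul, Rat.mul_den_eq_num, map_intCast]
    have hddQ : ((e : ℤ) : Qbar) ^ 2 * (d : Qbar) = (r.num : Qbar) * ((r.den : ℤ) : Qbar) := by
      exact_mod_cast congrArg (Int.cast : ℤ → Qbar) hdd
    push_cast at hddQ
    have he' : (e : Qbar) ≠ 0 := Nat.cast_ne_zero.mpr he0
    rw [hz, div_pow, div_eq_iff (pow_ne_zero 2 he'), mul_pow]
    linear_combination -hddQ - (r.den : Qbar) * hcast
  have hzG : ∀ g ∈ G, g z = z := fun g hg => by
    rw [hz, map_div₀, map_mul, hGy g hg, map_natCast, map_natCast]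
  have hzne : ∀ g : Γ, g ∉ G → g z = -z := fun g hg => by
    rw [hz, map_div₀, map_mul, hGx g hg, map_natCast, map_natCast, neg_mul, neg_div]
  have hd0 : d ≠ 0 := by
    rintro rfl; rw [mul_zero] at hdd; exact hN0 hdd.symm
  have hz0 : z ≠ 0 := by
    intro h; rw [h, zero_pow two_ne_zero] at hz2; exact hd0 (by exact_mod_cast hz2.symm)
  -- the only prime divisor of `d` is three
  have hval : ∀ q : ℕ, q.Prime → q ≠ 3 → ∀ A : ValuationSubring Qbar, A.LiesOverPrime q →
      ∀ c : Qbar, c ≠ 0 → (∀ g ∈ G, g c = c) →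
        ∃ n : ℤ, A.valuation c = A.valuation (q : Qbar) ^ n := fun q hq hq3 A hA c hc hcG =>
    LevelLowering.exists_zpow_valuation_eq_of_fixed hq hA hc
      fun g hg => hcG g (hunr q hq hq3 A hA hg)
  have hone : ∀ q : ℕ, q.Prime → ∀ A : ValuationSubring Qbar, A.LiesOverPrime q →
      ∀ n : ℤ, A.valuation (q : Qbar) ^ n = A.valuation (q : Qbar) → n = 1 := by
    intro q hq A hA n hn
    have h1 : A.valuation (q : Qbar) < 1 := (A.mem_nonunits_iff).1 hA
    have h0 : (0 : A.ValueGroup) < A.valuation (q : Qbar) :=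
      A.valuation.pos_iff.mpr (Nat.cast_ne_zero.mpr hq.ne_zero)
    exact (zpow_right_strictAnti₀ h0 h1).injective (hn.trans (zpow_one _).symm)
  have hdvd : ∀ q : ℕ, q.Prime → (q : ℤ) ∣ d → q = 3 := by
    intro q hq hqd
    by_contra hq3
    obtain ⟨A, hA⟩ := Galois.exists_liesOverPrime hq
    obtain ⟨n, hn⟩ := hval q hq hq3 A hA z hz0 hzG
    obtain ⟨c, rfl⟩ := hqd
    have hc : ¬ (q : ℤ) ∣ c := by
      intro hqc
      have h2 : q * q ∣ d' := by
        rw [← hd, Int.natAbs_mul, Int.natAbs_natCast]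
        exact mul_dvd_mul_left q (Int.natCast_dvd.mp hqc)
      exact hq.one_lt.ne' (Nat.isUnit_iff.mp (hsf q h2))
    have hv := congrArg A.valuation hz2
    rw [map_pow, hn, Int.cast_mul, map_mul, Int.cast_natCast,
      EllReduction.valuation_intCast_of_not_dvd hq hA hc, mul_one, ← zpow_natCast, ← zpow_mul] at hv
    have := hone q hq A hA _ hv
    omega
  have hd' : d' ∣ 3 := by
    rcases eq_or_ne d' 1 with h1 | h1
    · rw [h1]; exact one_dvd 3
    · obtain ⟨q, hq, hqd⟩ := Nat.exists_prime_and_dvd h1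
      obtain rfl := hdvd q hq (Int.natCast_dvd.mpr (hd ▸ hqd))
      obtain ⟨c, hc⟩ := hqd
      have hc1 : c = 1 := by
        by_contra hcne
        obtain ⟨q', hq', hq'c⟩ := Nat.exists_prime_and_dvd hcne
        obtain rfl := hdvd q' hq' (Int.natCast_dvd.mpr (by rw [hd, hc]; exact hq'c.mul_left 3))
        have := hsf 3 (by rw [hc]; exact mul_dvd_mul_left 3 hq'c)
        simp at this
      rw [hc, hc1, mul_one]
  have hcases : d = 1 ∨ d = -1 ∨ d = 3 ∨ d = -3 := by
    rcases (Nat.dvd_prime Nat.prime_three).mp hd' with h | h <;> omega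
  have hd3 : d = -3 := by
    obtain ⟨A, hA⟩ := Galois.exists_liesOverPrime Nat.prime_two
    have key : ∀ u : Qbar, A.valuation u = 1 → (1 + z) ^ 2 = (2 : ℕ) * u → False := by
      intro u hu h
      have hne : 1 + z ≠ 0 := fun h0 => by
        rw [h0, zero_pow two_ne_zero, eq_comm, mul_eq_zero] at h
        rcases h with h | h
        · exact two_ne_zero (by exact_mod_cast h : (2 : Qbar) = 0)
        · rw [h, map_zero] at hu; exact zero_ne_one hu
      obtain ⟨n, hn⟩ := hval 2 Nat.prime_two (by norm_num) A hA (1 + z) hne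
        (fun g hg => by rw [map_add, map_one, hzG g hg])
      have hv := congrArg A.valuation h
      rw [map_pow, map_mul, hu, mul_one, hn, ← zpow_natCast, ← zpow_mul] at hv
      have := hone 2 Nat.prime_two A hA _ hv
      omega
    rcases hcases with rfl | rfl | rfl | rfl
    · exfalso
      have h1 : (z - 1) * (z + 1) = 0 := by push_cast at hz2; linear_combination hz2
      rcases mul_eq_zero.mp h1 with h | h
      · have := hzne w hw; rw [sub_eq_zero.mp h, map_one] at this
        exact two_ne_zero (by linear_combination this : (2 : Qbar) = 0)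
      · have := hzne w hw; rw [eq_neg_of_add_eq_zero_left h, map_neg, map_one, neg_neg] at this
        exact two_ne_zero (by linear_combination -this : (2 : Qbar) = 0)
    · exfalso
      push_cast at hz2
      refine key z ?_ (by push_cast; linear_combination hz2)
      have := congrArg A.valuation hz2
      rw [map_pow, Valuation.map_neg, map_one] at this
      exact (pow_eq_one_iff_of_nonneg zero_le two_ne_zero).mp this
    · exfalso
      push_cast at hz2
      refine key (2 + z) ?_ (by push_cast; linear_combination hz2)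
      have hmem : ∀ u : Qbar, u ^ 2 = 3 → A.valuation u ≤ 1 := fun u hu => by
        have := congrArg A.valuation hu
        rw [map_pow] at this
        exact (pow_le_one_iff_of_nonneg zero_le two_ne_zero).mp (this ▸
          EllReduction.valuation_le_one_of_mem (natCast_mem A 3))
      have h2 : A.valuation (2 : Qbar) ≤ 1 :=
        EllReduction.valuation_le_one_of_mem (natCast_mem A 2)
      have ha : A.valuation (2 + z) ≤ 1 := A.valuation.map_add_le h2 (hmem z hz2)
      have hb : A.valuation (2 - z) ≤ 1 := A.valuation.map_sub_le h2 (hmem z hz2)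
      have hab := congrArg A.valuation
        (show (2 + z) * (2 - z) = 1 by linear_combination -hz2)
      rw [map_mul, map_one] at hab
      exact le_antisymm ha (hab ▸ mul_le_of_le_one_right' hb)
    · rfl
  subst hd3
  have hsz : s = z ∨ s = -z := by
    rw [← sq_eq_sq_iff_eq_or_eq_neg, hs, hz2]; norm_num
  have hzfix : σ ∈ G ↔ σ z = z := by
    refine ⟨hzG σ, fun h => by_contra fun hc => hz0 ?_⟩
    have := hzne σ hc
    rw [h] at this
    linear_combination this / 2
  rw [hzfix]
  rcases hsz with rfl | rfl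
  · exact Iff.rfl
  · rw [map_neg, neg_inj]

end Quadratic

variable {K : Type*} [Field K] {V : Type*} [AddCommGroup V] [Module K V]

/-- The properties used at `p = 3`. -/
structure ShapeThree (ρ : Γ →* Module.End K V) (s : Qbar) : Prop where
  finite : ∃ L : IntermediateField ℚ Qbar, FiniteDimensional ℚ L ∧
    ∀ σ : Γ, (∀ x ∈ L, σ x = x) → ρ σ = 1
  pow_away : ∀ q : ℕ, q.Prime → q ≠ 3 → ∀ A : ValuationSubring Qbar, A.LiesOverPrime q →
    ∀ σ ∈ A.inertiaSubgroupIn ℚ, ρ σ ^ 3 = 1
  unip_away : ∀ q : ℕ, q.Prime → q ≠ 3 → ∀ A : ValuationSubring Qbar, A.LiesOverPrime q →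
    ∀ σ ∈ A.inertiaSubgroupIn ℚ, (ρ σ - 1) ^ 2 = 0
  pow_fortyEight : ∀ σ : Γ, ρ σ ^ 48 = 1
  det_eq_one : ∀ σ : Γ, σ s = s → LinearMap.det (ρ σ) = 1
  det_sq : ∀ σ : Γ, LinearMap.det (ρ σ) ^ 2 = 1

/-- The main theorem at `p = 3`. -/
theorem ShapeThree.indexTwoIrreducible [CharP K 3] [Module.Finite K V] {s : Qbar}
    (hs : s ^ 2 = -3) {ρ : Γ →* Module.End K V} (h : ShapeThree ρ s)
    (hV : Module.finrank K V = 2)
    (hspans : Submodule.span K (Set.range ρ) = ⊤)
    (hirr : ∀ W : Submodule K V, (∀ σ, ∀ x ∈ W, ρ σ x ∈ W) → W = ⊥ ∨ W = ⊤) :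
    IndexTwoIrreducible ρ := by
  classical
  intro G hG W hW
  by_contra hcon
  push Not at hcon
  obtain ⟨hbot, htop⟩ := hcon
  haveI : G.Normal := Subgroup.normal_of_index_eq_two hG
  obtain ⟨v, hv, hv0⟩ := W.ne_bot_iff.mp hbot
  have hW1 : Module.finrank K W = 1 := by
    have h1 := Submodule.finrank_lt htop
    have h2 : 0 < Module.finrank K W := by
      have : Nontrivial W := Submodule.nontrivial_iff_ne_bot.mpr hbot
      exact Module.finrank_pos
    omega
  have hline : ∀ x ∈ W, ∃ a : K, a • v = x := fun x hx => by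
    obtain ⟨a, ha⟩ := (finrank_eq_one_iff_of_nonzero' (⟨v, hv⟩ : W)
      (fun h => hv0 (congrArg Subtype.val h))).mp hW1 ⟨x, hx⟩
    exact ⟨a, congrArg Subtype.val ha⟩
  choose! a ha using fun τ (hτ : τ ∈ G) => hline _ (hW τ hτ v hv)
  have hconjmem : ∀ (g : Γ), ∀ τ ∈ G, g * τ * g⁻¹ ∈ G :=
    fun g τ hτ => Subgroup.Normal.conj_mem inferInstance τ hτ g
  have happ : ∀ (g τ : Γ) (x : V), ρ (g * τ) x = ρ g (ρ τ x) :=
    fun g τ x => by rw [map_mul, Module.End.mul_apply]
  have hker : ∀ τ : Γ, ρ τ = 1 → τ ∈ G := by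
    intro τ hτ
    by_contra hτG
    refine (hirr W fun g x hx => ?_).elim hbot htop
    by_cases hg : g ∈ G
    · exact hW g hg x hx
    · have := hW _ ((Subgroup.mul_mem_iff_of_index_two hG).mpr
        ⟨fun h => absurd h hτG, fun h => absurd h hg⟩ : τ * g ∈ G) x hx
      rwa [map_mul, hτ, one_mul] at this
  have hconj : ∀ g : Γ, g ∉ G → ∀ τ ∈ G, ρ τ (ρ g v) = a (g⁻¹ * τ * g) • ρ g v := by
    intro g _ τ hτ
    have hm : g⁻¹ * τ * g ∈ G := by simpa using hconjmem g⁻¹ τ hτ
    rw [← happ, show τ * g = g * (g⁻¹ * τ * g) by group, happ, ← ha _ hm, map_smul]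
  have hout : ∀ g : Γ, g ∉ G → ρ g v ∉ W := by
    intro g hg hmem
    refine (hirr W fun τ x hx => ?_).elim hbot htop
    by_cases hτ : τ ∈ G
    · exact hW τ hτ x hx
    · have h1 : g⁻¹ * τ ∈ G :=
        (Subgroup.mul_mem_iff_of_index_two hG).mpr
          ⟨fun h => absurd (G.inv_mem_iff.mp h) hg, fun h => absurd h hτ⟩
      obtain ⟨b, hb⟩ := hline _ (hW _ h1 x hx)
      rw [show τ = g * (g⁻¹ * τ) by group, happ, ← hb, map_smul]
      exact W.smul_mem b hmem
  obtain ⟨w, hw⟩ : ∃ w, w ∉ G := by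
    by_contra h
    push Not at h
    rw [Subgroup.index_eq_one.mpr (eq_top_iff.mpr fun g _ => h g)] at hG
    omega
  have hli : LinearIndependent K ![v, ρ w v] := by
    rw [LinearIndependent.pair_iff' hv0]
    exact fun c hc => hout w hw (hc ▸ W.smul_mem c hv)
  let bs : Module.Basis (Fin 2) K V := basisOfLinearIndependentOfCardEqFinrank hli (by simp [hV])
  have hb0 : bs 0 = v := by simp [bs]
  have hb1 : bs 1 = ρ w v := by simp [bs]
  have ext2 : ∀ f f' : Module.End K V, f v = f' v → f (ρ w v) = f' (ρ w v) → f = f' := by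
    intro f f' h1 h2
    refine bs.ext fun i => ?_
    fin_cases i
    · simpa [hb0] using h1
    · simpa [hb1] using h2
  have hdetG : ∀ τ ∈ G, LinearMap.det (ρ τ) = a τ * a (w⁻¹ * τ * w) := by
    intro τ hτ
    rw [← LinearMap.det_toMatrix bs, Matrix.det_fin_two]
    have c0 : ρ τ (bs 0) = a τ • bs 0 := by rw [hb0, ha τ hτ]
    have c1 : ρ τ (bs 1) = a (w⁻¹ * τ * w) • bs 1 := by rw [hb1, hconj w hw τ hτ]
    simp only [LinearMap.toMatrix_apply, c0, c1, map_smul, Module.Basis.repr_self]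
    simp
  -- unramified outside three
  have hunr : ∀ q : ℕ, q.Prime → q ≠ 3 → ∀ A : ValuationSubring Qbar, A.LiesOverPrime q →
      ∀ τ ∈ A.inertiaSubgroupIn ℚ, ρ τ = 1 := by
    intro q hq hq3 A hA τ hτ
    have h3 : τ ^ 3 ∈ G := hker _ (by rw [map_pow]; exact h.pow_away q hq hq3 A hA τ hτ)
    have hτG : τ ∈ G := by
      rw [pow_succ] at h3
      exact (G.mul_mem_cancel_left (Subgroup.sq_mem_of_index_two hG τ)).mp h3
    have hu := h.unip_away q hq hq3 A hA τ hτ
    have key : ∀ (c : K) (x : V), x ≠ 0 → ρ τ x = c • x → ρ τ x = x := by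
      intro c x hx hc
      have h2 := congrArg (fun f => f x) hu
      simp only [pow_two, Module.End.mul_apply, LinearMap.sub_apply, Module.End.one_apply,
        LinearMap.zero_apply, hc, map_sub, map_smul] at h2
      have h4 : ((c - 1) * (c - 1)) • x = 0 := by rw [← h2]; module
      have hc1 : c = 1 :=
        sub_eq_zero.mp (mul_self_eq_zero.mp ((smul_eq_zero.mp h4).resolve_right hx))
      rw [hc, hc1, one_smul]
    refine ext2 _ _ ?_ ?_
    · rw [Module.End.one_apply]; exact key _ v hv0 (ha τ hτG).symm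
    · rw [Module.End.one_apply]
      exact key _ _ (fun h0 => hout w hw (h0 ▸ W.zero_mem)) (hconj w hw τ hτG)
  have hfinG : ∃ L : IntermediateField ℚ Qbar, FiniteDimensional ℚ L ∧
      ∀ σ : Γ, (∀ x ∈ L, σ x = x) → σ ∈ G := by
    obtain ⟨L, h1, h2⟩ := h.finite
    exact ⟨L, h1, fun g hg => hker g (h2 g hg)⟩
  have hGs : ∀ g : Γ, g ∈ G ↔ g s = s := mem_iff_fix_sqrt_neg_three hs hG hfinG
    fun q hq hq3 A hA g hg => hker g (hunr q hq hq3 A hA g hg)
  have hinv : ∀ τ ∈ G, a τ * a (w⁻¹ * τ * w) = 1 := fun τ hτ => by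
    rw [← hdetG τ hτ, h.det_eq_one τ ((hGs τ).mp hτ)]
  have amul : ∀ τ ∈ G, ∀ τ' ∈ G, a (τ * τ') = a τ * a τ' := by
    intro τ hτ τ' hτ'
    refine smul_left_injective K hv0 ?_
    show a (τ * τ') • v = (a τ * a τ') • v
    rw [ha _ (mul_mem hτ hτ'), happ, ← ha τ' hτ', map_smul, ← ha τ hτ, smul_smul, mul_comm]
  have aone : a 1 = 1 := by
    refine smul_left_injective K hv0 ?_
    show a 1 • v = (1 : K) • v
    rw [ha 1 G.one_mem, map_one, Module.End.one_apply, one_smul]
  have aofOne : ∀ τ, ρ τ = 1 → a τ = 1 := by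
    intro τ hτ
    refine smul_left_injective K hv0 ?_
    show a τ • v = (1 : K) • v
    rw [ha τ (hker τ hτ), hτ, Module.End.one_apply, one_smul]
  have a16 : ∀ τ ∈ G, a τ ^ 16 = 1 := by
    intro τ hτ
    have hpow : ∀ i : ℕ, (ρ τ ^ i) v = a τ ^ i • v := by
      intro i
      induction i with
      | zero => simp
      | succ i ih => rw [pow_succ', Module.End.mul_apply, ih, map_smul, ← ha τ hτ, smul_smul, ← pow_succ]
    have h48 : a τ ^ 48 = 1 := by
      refine smul_left_injective K hv0 ?_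
      show a τ ^ 48 • v = (1 : K) • v
      rw [← hpow, h.pow_fortyEight, Module.End.one_apply, one_smul]
    have : (a τ ^ 16 - 1) ^ 3 = 0 := by
      rw [sub_pow_char, one_pow, ← pow_mul, h48, sub_self]
    exact sub_eq_zero.mp (pow_eq_zero_iff three_ne_zero |>.mp this)
  by_cases hsmall : ∀ τ ∈ G, a τ ^ 2 = 1
  · -- abelian image
    have hsc : ∀ τ ∈ G, ρ τ = a τ • 1 := by
      intro τ hτ
      have h2 : a (w⁻¹ * τ * w) = a τ := by
        linear_combination (-(a (w⁻¹ * τ * w))) * hsmall τ hτ + a τ * hinv τ hτ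
      refine ext2 _ _ ?_ ?_
      · rw [LinearMap.smul_apply, Module.End.one_apply, ha τ hτ]
      · rw [LinearMap.smul_apply, Module.End.one_apply, hconj w hw τ hτ, h2]
    have hsub : Set.range ρ ⊆ (Submodule.span K ({1, ρ w} : Set (Module.End K V))) := by
      rintro _ ⟨g, rfl⟩
      by_cases hg : g ∈ G
      · rw [hsc g hg]; exact Submodule.smul_mem _ _ (Submodule.subset_span (by simp))
      · have h1 : w⁻¹ * g ∈ G := (Subgroup.mul_mem_iff_of_index_two hG).mpr
          ⟨fun h => absurd (G.inv_mem_iff.mp h) hw, fun h => absurd h hg⟩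
        rw [show g = w * (w⁻¹ * g) by group, map_mul, hsc _ h1, mul_smul_comm, mul_one]
        exact Submodule.smul_mem _ _ (Submodule.subset_span (by simp))
    have h4 := Submodule.finrank_mono (hspans ▸ Submodule.span_le.mpr hsub :
      (⊤ : Submodule K (Module.End K V)) ≤ _)
    rw [finrank_top, Module.finrank_linearMap, hV] at h4
    have h5 : Module.finrank K (Submodule.span K ({1, ρ w} : Set (Module.End K V))) ≤ 2 := by
      refine (finrank_span_le_card _).trans ?_
      simpa using Finset.card_le_two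
    omega
  · -- a second quadratic character
    have hex : ∃ n, ∀ τ ∈ G, a τ ^ (2 ^ n) = 1 := ⟨4, a16⟩
    obtain ⟨n, hn, hmin⟩ : ∃ n, (∀ τ ∈ G, a τ ^ (2 ^ n) = 1) ∧
        ∀ m < n, ¬ ∀ τ ∈ G, a τ ^ (2 ^ m) = 1 :=
      ⟨Nat.find hex, Nat.find_spec hex, fun m hm => Nat.find_min hex hm⟩
    have hn2 : 2 ≤ n := by
      by_contra hlt
      refine hsmall fun τ hτ => ?_
      have := hn τ hτ
      rcases (show n = 0 ∨ n = 1 by omega) with rfl | rfl
      · rw [pow_zero, pow_one] at this; rw [this, one_pow]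
      · simpa using this
    obtain ⟨m, rfl⟩ : ∃ m, n = m + 1 := ⟨n - 1, by omega⟩
    obtain ⟨e, he⟩ : ∃ e, e = 2 ^ m := ⟨_, rfl⟩
    have heven : Even e := he ▸ (Nat.even_pow.mpr ⟨even_two, by omega⟩)
    have hsq : ∀ τ ∈ G, (a τ ^ e) * (a τ ^ e) = 1 := fun τ hτ => by
      rw [← pow_add, he, show 2 ^ m + 2 ^ m = 2 ^ (m + 1) by ring]; exact hn τ hτ
    have hconjinv : ∀ g : Γ, g ∉ G → ∀ τ ∈ G, a (g⁻¹ * τ * g) ^ e = a τ ^ e := by
      intro g hg τ hτ
      -- write g = w * τ'
      have h1 : w⁻¹ * g ∈ G := (Subgroup.mul_mem_iff_of_index_two hG).mpr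
        ⟨fun h => absurd (G.inv_mem_iff.mp h) hw, fun h => absurd h hg⟩
      have hm : w⁻¹ * τ * w ∈ G := by simpa using hconjmem w⁻¹ τ hτ
      have e1 : a (g⁻¹ * τ * g) = a (w⁻¹ * τ * w) := by
        have h2 : (w⁻¹ * g) * (g⁻¹ * τ * g) = (w⁻¹ * τ * w) * (w⁻¹ * g) := by group
        have hg' : g⁻¹ * τ * g ∈ G := by simpa using hconjmem g⁻¹ τ hτ
        have h3 := congrArg a h2
        rw [amul _ h1 _ hg', amul _ hm _ h1, mul_comm (a (w⁻¹ * τ * w))] at h3
        refine mul_left_cancel₀ ?_ h3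
        intro h0
        have := a16 _ h1
        rw [h0] at this
        norm_num at this
      have h4 : a (w⁻¹ * τ * w) ^ e * a τ ^ e = 1 := by
        rw [← mul_pow, mul_comm, hinv τ hτ, one_pow]
      rw [e1]
      linear_combination a τ ^ e * h4 - a (w⁻¹ * τ * w) ^ e * hsq τ hτ
    have hww : a (w * w) ^ e = 1 := by
      have hm : w * w ∈ G := Subgroup.mul_self_mem_of_index_two hG w
      have hc : w⁻¹ * (w * w) * w = w * w := by group
      have h1 := hinv _ hm
      rw [hc] at h1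
      obtain ⟨j, hj⟩ := heven
      rw [hj, ← two_mul, pow_mul, pow_two, h1, one_pow]
    let f : Γ → K := fun g => if g ∈ G then a g ^ e else a (w * g) ^ e
    have hwg : ∀ g, g ∉ G → w * g ∈ G := fun g hg => (Subgroup.mul_mem_iff_of_index_two hG).mpr
      ⟨fun h => absurd h hw, fun h => absurd h hg⟩
    have fmul : ∀ g g' : Γ, f (g * g') = f g * f g' := by
      intro g g'
      have hiff := Subgroup.mul_mem_iff_of_index_two hG (a := g) (b := g')
      have hw' : w⁻¹ ∉ G := fun h => hw (G.inv_mem_iff.mp h)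
      simp only [f]
      by_cases hg : g ∈ G <;> by_cases hg' : g' ∈ G
      · rw [if_pos (mul_mem hg hg'), if_pos hg, if_pos hg', amul _ hg _ hg', mul_pow]
      · rw [if_neg (fun h => hg' ((hiff.mp h).mp hg)), if_pos hg, if_neg hg',
          show w * (g * g') = (w⁻¹⁻¹ * g * w⁻¹) * (w * g') by group,
          amul _ (by simpa using hconjmem w g hg) _ (hwg g' hg'), mul_pow, hconjinv _ hw' g hg]
      · rw [if_neg (fun h => hg ((hiff.mp h).mpr hg')), if_neg hg, if_pos hg',
          ← mul_assoc, amul _ (hwg g hg) _ hg', mul_pow]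
      · have hm : g * g' ∈ G := hiff.mpr ⟨fun h => absurd h hg, fun h => absurd h hg'⟩
        have h1 : w⁻¹ * (w * g) * w ∈ G := by simpa using hconjmem w⁻¹ _ (hwg g hg)
        have hm2 : w * w ∈ G := Subgroup.mul_self_mem_of_index_two hG w
        have h2 : (w⁻¹ * (w * g) * w) * (w * g') = (g * g') * (g'⁻¹ * (w * w) * g') := by group
        have h3 := congrArg (fun t => a t ^ e) h2
        try simp only at h3
        rw [amul _ h1 _ (hwg g' hg'),
          amul _ hm _ (by simpa using hconjmem g'⁻¹ _ hm2), mul_pow, mul_pow,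
          hconjinv w hw _ (hwg g hg), hconjinv g' hg' _ hm2, hww, mul_one] at h3
        rw [if_pos hm, if_neg hg, if_neg hg', h3]
    let F : Γ →* K :=
      { toFun := f
        map_one' := by simp only [f, if_pos G.one_mem, aone, one_pow]
        map_mul' := fmul }
    have hFpm : ∀ g, F g * F g = 1 := by
      intro g
      show f g * f g = 1
      simp only [f]
      by_cases hg : g ∈ G
      · rw [if_pos hg]; exact hsq g hg
      · rw [if_neg hg]; exact hsq _ (hwg g hg)
    obtain ⟨τ₀, hτ₀, hne⟩ : ∃ τ ∈ G, a τ ^ e ≠ 1 := by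
      by_contra hall
      push Not at hall
      exact hmin m (by omega) (he ▸ hall)
    have hF0 : F τ₀ ≠ 1 := by
      show f τ₀ ≠ 1
      simp only [f, if_pos hτ₀]; exact hne
    have hFneg : ∀ g, F g = 1 ∨ F g = -1 := fun g => mul_self_eq_one_iff.mp (hFpm g)
    have hne11 : (-1 : K) ≠ 1 := by
      intro h
      rcases hFneg τ₀ with h1 | h1
      · exact hF0 h1
      · exact hF0 (h1.trans h)
    have hidx : F.ker.index = 2 := by
      rw [Subgroup.index_eq_two_iff]
      refine ⟨τ₀, fun b => ?_⟩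
      simp only [MonoidHom.mem_ker, map_mul, (hFneg τ₀).resolve_left hF0]
      rcases hFneg b with hb | hb <;> simp [hb, hne11, Xor']
    have hFker : ∀ g, ρ g = 1 → g ∈ F.ker := by
      intro g hg
      rw [MonoidHom.mem_ker]
      show f g = 1
      simp only [f, if_pos (hker g hg), aofOne g hg, one_pow]
    obtain ⟨L, hL1, hL2⟩ := h.finite
    have hKs := mem_iff_fix_sqrt_neg_three hs hidx ⟨L, hL1, fun g hg => hFker g (hL2 g hg)⟩
      (fun q hq hq3 A hA g hg => hFker g (hunr q hq hq3 A hA g hg))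
    refine hw ((hGs w).mpr ((hKs w).mp ?_))
    rw [MonoidHom.mem_ker]
    show f w = 1
    simp only [f, if_neg hw, hww]

theorem ShapeThree.baseChange [Module.Finite K V] [Module.Free K V] (K' : Type*) [Field K']
    [Algebra K K'] {ρ : Γ →* Module.End K V} {s : Qbar} (h : ShapeThree ρ s) :
    ShapeThree (bc K' ρ) s := by
  have hdet : ∀ f : Module.End K V,
      LinearMap.det (Module.End.baseChangeHom K K' V f) = algebraMap K K' (LinearMap.det f) :=
    fun f => LinearMap.det_baseChange f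
  have happ : ∀ σ, bc K' ρ σ = Module.End.baseChangeHom K K' V (ρ σ) := fun _ => rfl
  refine ⟨?_, ?_, ?_, ?_, ?_, ?_⟩
  · obtain ⟨L, hf, hL⟩ := h.finite
    exact ⟨L, hf, fun σ hσ => by rw [happ, hL σ hσ, map_one]⟩
  · intro q hq hq3 A hA σ hσ
    rw [happ, ← map_pow, h.pow_away q hq hq3 A hA σ hσ, map_one]
  · intro q hq hq3 A hA σ hσ
    have := congrArg (Module.End.baseChangeHom K K' V) (h.unip_away q hq hq3 A hA σ hσ)
    rwa [map_pow, map_sub, map_one, map_zero] at this
  · intro σ; rw [happ, ← map_pow, h.pow_fortyEight σ, map_one]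
  · intro σ hσ; rw [happ, hdet, h.det_eq_one σ hσ, map_one]
  · intro σ; rw [happ, hdet, ← map_pow, h.det_sq σ, map_one]

end FLTA.RT
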