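import Fermat.Agent.RT.System
import Fermat.Agent.RT.DeformRing

/-!
# Avoidance systems from Taylor–Wiles levels

At each level one complete local algebra `A n` (generated by the Galois coordinates and the diamond
variables) acts on the free module `N n`.  The common ring is the power series ring
`P₀ = O⟦coordinates, diamond variables⟧`.
-/

set_option autoImplicit false

noncomputable section

namespace FLTA.RT

open IsLocalRing FLTA.Deformation

variable (O : Type) [CommRing O] [IsDomain O] [IsDiscreteValuationRing O]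
  [IsAdicComplete (maximalIdeal O) O] [Finite (ResidueField O)]

/-- The input at all levels: algebras containing the coordinates and the diamond variables, acting
on free modules. -/
structure AvoidLevels (r d k : ℕ) : Type 1 where
  /-- the diamond relations -/
  J : ℕ → Ideal (MvPowerSeries (Fin r) O)
  J_le : ∀ n, J n ≤ maximalIdeal (MvPowerSeries (Fin r) O) ^ n
  /-- the level modules -/
  N : ℕ → Type
  [instAddCommGroup : ∀ n, AddCommGroup (N n)]
  [instModule : ∀ n, Module (MvPowerSeries (Fin r) O ⧸ J n) (N n)]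
  basis : ∀ n, Module.Basis (Fin d) (MvPowerSeries (Fin r) O ⧸ J n) (N n)
  /-- the level algebras -/
  A : ℕ → Type
  [instCommRing : ∀ n, CommRing (A n)]
  [instIsLocalRing : ∀ n, IsLocalRing (A n)]
  [instIsNoetherianRing : ∀ n, IsNoetherianRing (A n)]
  [instIsAdicComplete : ∀ n, IsAdicComplete (maximalIdeal (A n)) (A n)]
  [instAlgebra : ∀ n, Algebra O (A n)]
  residue_surjective : ∀ n, Function.Surjective (residue (A n) ∘ algebraMap O (A n))
  /-- the Galois coordinates -/
  coord : ∀ n, Fin k → A n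
  coord_mem : ∀ n i, coord n i ∈ maximalIdeal (A n)
  /-- the diamond variables inside the algebra -/
  diamond : ∀ n, MvPowerSeries (Fin r) O →ₐ[O] A n
  α : ∀ n, A n →+* Module.End (MvPowerSeries (Fin r) O ⧸ J n) (N n)
  α_diamond : ∀ n s (x : N n), α n (diamond n s) x = Ideal.Quotient.mk (J n) s • x

attribute [instance] AvoidLevels.instAddCommGroup AvoidLevels.instModule AvoidLevels.instCommRing
  AvoidLevels.instIsLocalRing AvoidLevels.instIsNoetherianRing AvoidLevels.instIsAdicComplete
  AvoidLevels.instAlgebra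

namespace AvoidLevels

variable {O} {r d k : ℕ} (L : AvoidLevels O r d k)

/-- The images of all the variables of `P₀`. -/
def gens (n : ℕ) : Fin (k + r) → L.A n :=
  Fin.append (L.coord n) fun j => L.diamond n (MvPowerSeries.X j)

omit [IsAdicComplete (maximalIdeal O) O] [Finite (ResidueField O)] in
lemma X_mem_maximalIdeal {m : ℕ} (i : Fin m) :
    (MvPowerSeries.X i : MvPowerSeries (Fin m) O) ∈ maximalIdeal (MvPowerSeries (Fin m) O) := by
  simp [MvPowerSeries.isUnit_iff_constantCoeff]

omit [IsAdicComplete (maximalIdeal O) O] [Finite (ResidueField O)] in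
lemma gens_mem (n : ℕ) (i : Fin (k + r)) : L.gens n i ∈ maximalIdeal (L.A n) := by
  induction i using Fin.addCases with
  | left i => simpa [gens] using L.coord_mem n i
  | right j =>
    rw [gens, Fin.append_right]
    exact map_mem_maximalIdeal (L.residue_surjective n) _ (X_mem_maximalIdeal j)

/-- Evaluation of `P₀` at level `n`. -/
def eval (n : ℕ) : MvPowerSeries (Fin (k + r)) O →ₐ[O] L.A n :=
  (exists_eval (L.residue_surjective n) (L.gens n) (L.gens_mem n)).choose

omit [IsAdicComplete (maximalIdeal O) O] [Finite (ResidueField O)] in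
lemma eval_X (n : ℕ) (i : Fin (k + r)) : L.eval n (MvPowerSeries.X i) = L.gens n i :=
  (exists_eval (L.residue_surjective n) (L.gens n) (L.gens_mem n)).choose_spec i

omit [IsAdicComplete (maximalIdeal O) O] [Finite (ResidueField O)] in
lemma eval_coord (n : ℕ) (i : Fin k) :
    L.eval n (MvPowerSeries.X (Fin.castAdd r i)) = L.coord n i := by
  rw [eval_X, gens, Fin.append_left]

omit [IsAdicComplete (maximalIdeal O) O] [Finite (ResidueField O)] in
lemma eval_diamond (n : ℕ) (j : Fin r) :
    L.eval n (MvPowerSeries.X (Fin.natAdd k j)) = L.diamond n (MvPowerSeries.X j) := by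
  rw [eval_X, gens, Fin.append_right]

/-- The diamond variables inside `P₀`. -/
abbrev diamondEmb (k r : ℕ) : MvPowerSeries (Fin r) O →ₐ[O] MvPowerSeries (Fin (k + r)) O :=
  MvPowerSeries.rename (Fin.natAdd k)

omit [IsAdicComplete (maximalIdeal O) O] [Finite (ResidueField O)] in
lemma eval_diamondEmb (n : ℕ) (s : MvPowerSeries (Fin r) O) :
    L.eval n (diamondEmb k r s) = L.diamond n s := by
  have h : (L.eval n).comp (diamondEmb k r) = L.diamond n := by
    refine powerSeries_algHom_ext (L.residue_surjective n) fun j => ?_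
    rw [AlgHom.comp_apply, MvPowerSeries.rename_X, eval_diamond]
  exact AlgHom.congr_fun h s

/-- The avoidance system. -/
def toSystem (ϖ : O) : AvoidSystem O ϖ r d (MvPowerSeries (Fin (k + r)) O) where
  J := L.J
  J_le := L.J_le
  N := L.N
  basis := L.basis
  act n := (L.α n).comp (L.eval n).toRingHom
  σ := (diamondEmb k r).toRingHom
  act_σ n s x := by
    show L.α n (L.eval n (diamondEmb k r s)) x = _
    rw [eval_diamondEmb, L.α_diamond]

variable {ϖ : O}

lemma toSystem_σ_C (c : O) : (L.toSystem ϖ).σ (MvPowerSeries.C c) = MvPowerSeries.C c :=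
  MvPowerSeries.rename_C _ c

lemma mem_rels {f : MvPowerSeries (Fin (k + r)) O} (h : ∀ n, L.α n (L.eval n f) = 0) :
    f ∈ (L.toSystem ϖ).rels :=
  AvoidSystem.mem_rels_iff.mpr h

lemma mem_rels_of_eval {f : MvPowerSeries (Fin (k + r)) O} (h : ∀ n, L.eval n f = 0) :
    f ∈ (L.toSystem ϖ).rels :=
  L.mem_rels fun n => by rw [h, map_zero]

lemma divUniformizer {f : MvPowerSeries (Fin (k + r)) O}
    (h : ∀ n, ∀ x : L.N n, L.α n (L.eval n f) x ∈
      ((Ideal.span {MvPowerSeries.C ϖ}).map (Ideal.Quotient.mk (L.J n))) •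
        (⊤ : Submodule (MvPowerSeries (Fin r) O ⧸ L.J n) (L.N n))) :
    (L.toSystem ϖ).DivUniformizer f :=
  h

omit [Finite (ResidueField O)] in
/-- The evaluations are surjective when coordinates and diamonds generate. -/
lemma eval_surjective (n : ℕ) [IsLocalHom (algebraMap O (L.A n))]
    (hgen : maximalIdeal (L.A n) ≤
      (maximalIdeal O).map (algebraMap O (L.A n)) ⊔ Ideal.span (Set.range (L.gens n))) :
    Function.Surjective (L.eval n) := by
  obtain ⟨γ, hγ, hX⟩ := exists_surjective_powerSeries (L.residue_surjective n) (L.gens n)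
    (L.gens_mem n) hgen
  have : γ = L.eval n := powerSeries_algHom_ext (L.residue_surjective n) fun i => by
    rw [hX, eval_X]
  exact this ▸ hγ

omit [IsAdicComplete (maximalIdeal O) O] [Finite (ResidueField O)] in
lemma mem_ker_sup_of_map {A E : Type} [CommRing A] [Ring E] {P : Type} [CommRing P]
    (α : A →+* E) (γ : P →+* A) (hγ : Function.Surjective γ) {w : P} {I : Ideal P}
    (hw : γ w ∈ I.map γ) : w ∈ RingHom.ker (α.comp γ) ⊔ I := by
  obtain ⟨f, hf, he⟩ := (Ideal.mem_map_iff_of_surjective γ hγ).mp hw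
  rw [← sub_add_cancel w f]
  refine add_mem (Ideal.mem_sup_left ?_) (Ideal.mem_sup_right hf)
  rw [RingHom.mem_ker, RingHom.comp_apply, map_sub, ← he, sub_self, map_zero]

lemma mem_relsMod_of_map (hs : ∀ n, Function.Surjective (L.eval n))
    {w : MvPowerSeries (Fin (k + r)) O} {I : Ideal (MvPowerSeries (Fin (k + r)) O)}
    (hw : ∀ n, L.eval n w ∈ I.map (L.eval n).toRingHom) :
    w ∈ (L.toSystem ϖ).relsMod I := by
  rw [AvoidSystem.relsMod, Ideal.mem_iInf]
  exact fun n => mem_ker_sup_of_map (L.α n) (L.eval n).toRingHom (hs n) (hw n)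

omit [IsAdicComplete (maximalIdeal O) O] [Finite (ResidueField O)] in
lemma relsMod_le_radical (X : AvoidSystem O ϖ r d (MvPowerSeries (Fin (k + r)) O))
    {I J : Ideal (MvPowerSeries (Fin (k + r)) O)} (hJ : J ≤ (X.relsMod I).radical) :
    X.relsMod J ≤ (X.relsMod I).radical := by
  obtain ⟨M, hM⟩ := Ideal.exists_pow_le_of_le_radical_of_fg hJ (IsNoetherian.noetherian J)
  intro w hw
  refine ⟨M, ?_⟩
  simp only [AvoidSystem.relsMod, Ideal.mem_iInf] at hw ⊢
  intro n
  obtain ⟨u, hu, f, hf, rfl⟩ := Submodule.mem_sup.mp (hw n)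
  rw [show (u + f) ^ M = ((u + f) ^ M - f ^ M) + f ^ M by ring]
  refine add_mem (Ideal.mem_sup_left ?_) ?_
  · refine Ideal.mem_of_dvd _ (sub_dvd_pow_sub_pow (u + f) f M) ?_
    simpa using hu
  · exact (iInf_le (fun n => RingHom.ker (X.act n) ⊔ I) n) (hM (Ideal.pow_mem_pow hf M))

/-- The generation hypothesis of `AvoidSystem.false_scalar` and `false_nonscalar`: the coordinates
are nilpotent modulo `I` and the relations, and so is every diamond variable modulo the
coordinates. -/
theorem maximalIdeal_le_radical (hϖ : maximalIdeal O = Ideal.span {ϖ})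
    (hs : ∀ n, Function.Surjective (L.eval n)) (t : ℕ)
    (hdia : ∀ n j, L.diamond n (MvPowerSeries.X j) ^ t ∈
      Ideal.span (insert (algebraMap O (L.A n) ϖ) (Set.range (L.coord n))))
    (I : Ideal (MvPowerSeries (Fin (k + r)) O)) (hI : MvPowerSeries.C ϖ ∈ I)
    (hcoord : ∀ i : Fin k,
      MvPowerSeries.X (Fin.castAdd r i) ∈ ((L.toSystem ϖ).relsMod I).radical) :
    maximalIdeal (MvPowerSeries (Fin (k + r)) O) ≤ ((L.toSystem ϖ).relsMod I).radical := by
  set J : Ideal (MvPowerSeries (Fin (k + r)) O) :=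
    Ideal.span (insert (MvPowerSeries.C ϖ)
      (Set.range fun i : Fin k => MvPowerSeries.X (Fin.castAdd r i)))
  have hϖI : MvPowerSeries.C ϖ ∈ ((L.toSystem ϖ).relsMod I).radical :=
    Ideal.le_radical ((L.toSystem ϖ).sup_le_relsMod I (Ideal.mem_sup_right hI))
  have hJ : J ≤ ((L.toSystem ϖ).relsMod I).radical := by
    rw [Ideal.span_le]
    rintro _ (rfl | ⟨i, rfl⟩)
    exacts [hϖI, hcoord i]
  rw [maximalIdeal_eq, hϖ, Ideal.map_span, Set.image_singleton]
  refine sup_le (Ideal.span_le.mpr (by simpa using hϖI)) (Ideal.span_le.mpr ?_)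
  rintro _ ⟨i, rfl⟩
  induction i using Fin.addCases with
  | left i => exact hcoord i
  | right j =>
    have hmap : ∀ n, J.map (L.eval n).toRingHom =
        Ideal.span (insert (algebraMap O (L.A n) ϖ) (Set.range (L.coord n))) := fun n => by
      have h : ((L.eval n).toRingHom ∘ fun i : Fin k => MvPowerSeries.X (Fin.castAdd r i)) =
          L.coord n := funext (L.eval_coord n)
      rw [Ideal.map_span, Set.image_insert_eq, ← Set.range_comp, h]
      exact congrArg (fun c => Ideal.span (insert c (Set.range (L.coord n))))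
        ((L.eval n).commutes ϖ)
    have h : (MvPowerSeries.X (Fin.natAdd k j) : MvPowerSeries (Fin (k + r)) O) ^ t ∈
        (L.toSystem ϖ).relsMod J := by
      refine L.mem_relsMod_of_map hs fun n => ?_
      rw [map_pow, eval_diamond, hmap]
      exact hdia n j
    obtain ⟨M, hM⟩ := relsMod_le_radical _ hJ h
    exact ⟨t * M, by rwa [pow_mul]⟩

/-- The scalar case from levels. -/
theorem false_scalar [NeZero d] (hϖ : maximalIdeal O = Ideal.span {ϖ}) (hϖ0 : ϖ ≠ 0)
    {m : ℕ} (ε : Fin m → ℕ) (hε : ∀ j, ε j ≠ 0) (us : Fin m → Oˣ)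
    (x y z a b c : MvPowerSeries (Fin (k + r)) O) {l : ℕ}
    (g : Fin l → MvPowerSeries (Fin (k + r)) O) (hl : l + 3 ≤ r)
    (hmax : ∀ e ∈ [x, y, z, a, b, c], e ∈ maximalIdeal (MvPowerSeries (Fin (k + r)) O))
    (hg : ∀ i, g i ∈ maximalIdeal (MvPowerSeries (Fin (k + r)) O))
    (hs : ∀ n, Function.Surjective (L.eval n)) (t : ℕ)
    (hdia : ∀ n j, L.diamond n (MvPowerSeries.X j) ^ t ∈
      Ideal.span (insert (algebraMap O (L.A n) ϖ) (Set.range (L.coord n))))
    (hcoord : ∀ i : Fin k, MvPowerSeries.X (Fin.castAdd r i) ∈ ((L.toSystem ϖ).relsMod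
      (Ideal.span ({MvPowerSeries.C ϖ, x, y, z, a, b, c} ∪ Set.range g))).radical)
    (hrel : ∏ j, (x * x + y * z - MvPowerSeries.C ϖ ^ ε j * MvPowerSeries.C (us j : O)) ∈
      (L.toSystem ϖ).rels)
    (hxb : x * b - y * a ∈ (L.toSystem ϖ).rels) (hxc : x * c - z * a ∈ (L.toSystem ϖ).rels)
    (hyc : y * c - z * b ∈ (L.toSystem ϖ).rels)
    (hD : (L.toSystem ϖ).DivUniformizer (a * a + b * c)) : False := by
  have := isAdicComplete_powerSeries O (k + r)
  refine (L.toSystem ϖ).false_scalar (fun N => finite_quotient O N) hϖ hϖ0 ε hε us x y z a b c g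
    hl hmax hg ?_ ?_ hxb hxc hyc hD
  · rw [toSystem_σ_C]
    exact L.maximalIdeal_le_radical hϖ hs t hdia _ (Ideal.subset_span (by simp)) hcoord
  · simpa only [toSystem_σ_C] using hrel

/-- The non-scalar case from levels. -/
theorem false_nonscalar [NeZero d] (hϖ : maximalIdeal O = Ideal.span {ϖ}) (hϖ0 : ϖ ≠ 0)
    {m : ℕ} (ε : Fin m → ℕ) (ws : Fin m → Oˣ)
    (v D : MvPowerSeries (Fin (k + r)) O) {l : ℕ}
    (g : Fin l → MvPowerSeries (Fin (k + r)) O) (hl : l + 1 ≤ r)
    (hv : v ∈ maximalIdeal (MvPowerSeries (Fin (k + r)) O))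
    (hg : ∀ i, g i ∈ maximalIdeal (MvPowerSeries (Fin (k + r)) O))
    (hs : ∀ n, Function.Surjective (L.eval n)) (t : ℕ)
    (hdia : ∀ n j, L.diamond n (MvPowerSeries.X j) ^ t ∈
      Ideal.span (insert (algebraMap O (L.A n) ϖ) (Set.range (L.coord n))))
    (hcoord : ∀ i : Fin k, MvPowerSeries.X (Fin.castAdd r i) ∈ ((L.toSystem ϖ).relsMod
      (Ideal.span ({MvPowerSeries.C ϖ, v, D} ∪ Set.range g))).radical)
    (hrel : ∏ j, (v * v * D - MvPowerSeries.C ϖ ^ ε j * MvPowerSeries.C (ws j : O)) ∈
      (L.toSystem ϖ).rels)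
    (hD : (L.toSystem ϖ).DivUniformizer D) : False := by
  have := isAdicComplete_powerSeries O (k + r)
  refine (L.toSystem ϖ).false_nonscalar (fun N => finite_quotient O N) hϖ hϖ0 ε ws v D g hl hv hg
    ?_ ?_ hD
  · rw [toSystem_σ_C]
    exact L.maximalIdeal_le_radical hϖ hs t hdia _ (Ideal.subset_span (by simp)) hcoord
  · simpa only [toSystem_σ_C] using hrel

end AvoidLevels

end FLTA.RT
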