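import Fermat.Agent.RT.RaiseChain

/-!
# The first step from the kernel of a map to a smaller module

At every level a surjection of the module onto a free module of smaller rank has a stable kernel,
the new part.  A component containing every prime above the relations of the new part is in the
support of the patched module.
-/

set_option autoImplicit false
set_option linter.style.haveILetI false

noncomputable section

namespace FLTA.RT

open IsLocalRing FLTA.Patching FLTA.Patching.LevelSystem

variable {S P₀ : Type} [CommRing S] [IsDomain S] [IsNoetherianRing S] [IsLocalRing S]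
  [IsAdicComplete (maximalIdeal S) S] [CommRing P₀] {S₀ : Type} [CommRing S₀] [Algebra S₀ S]
  [Algebra S₀ P₀] [IsDomain S₀] [IsNoetherianRing S₀] [IsLocalRing S₀] [Module.Finite S₀ S]
  [FaithfulSMul S₀ S]
  (hfin : ∀ N, Finite (S ⧸ maximalIdeal S ^ N))
  {J : ℕ → Ideal S} (hJ : ∀ n, J n ≤ maximalIdeal S ^ n) {d m : ℕ}
  (rep : ∀ n, P₀ →+* Matrix (Fin d) (Fin d) (S ⧸ J n))
  (jF : ∀ n, Matrix (Fin m) (Fin d) (S ⧸ J n))

/-- **First step, from a map to the old part.** If the kernels of surjections `jF n` onto free
modules of rank `m < d` are stable, a component containing every prime above the elements killing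
these kernels is in the support. -/
theorem supportsAt_new_of_surjective [IsNoetherianRing P₀] (hσ : ActsByScalars S₀ rep) (hm : m < d)
    (hsurj : ∀ n, 1 ≤ n → Function.Surjective (jF n).mulVec)
    (hstable : ∀ f, ∃ U : ∀ n, Matrix (Fin m) (Fin m) (S ⧸ J n),
      ∀ n, jF n * rep n f = U n * jF n)
    (C : Ideal P₀) [C.IsPrime] (hdim : ringKrullDim (P₀ ⧸ C) ≤ ringKrullDim S₀)
    (hsep : ∀ Q : Ideal P₀, Q.IsPrime →
      (∀ f, (∃ U : ∀ n, Matrix (Fin d) (Fin m) (S ⧸ J n), ∀ n, rep n f = U n * jF n) → f ∈ Q) →
      C ≤ Q) :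
    SupportsAt hfin hJ rep C := by
  letI := (LevelSystem.mk J hJ rep).patchModule hfin
  haveI := patchModule_isScalarTower hfin hJ rep hσ
  let jM : Matrix (Fin m) (Fin d) S := limMatrix hfin jF
  have hjs : Function.Surjective jM.mulVec := by
    refine surjective_of_mod_maximal jM.mulVecLin fun c => ?_
    obtain ⟨n, hn, hlim⟩ :=
      exists_limMatrix_sub_mem hfin hJ (fun _ : Unit => jF)
    obtain ⟨v₀, hv₀⟩ := hsurj n hn (fun a => Ideal.Quotient.mk (J n) (c a))
    refine ⟨fun b => Quotient.out (v₀ b), (mem_ideal_smul_fun _ _).mpr fun a => ?_⟩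
    show c a - (jM.mulVec fun b => Quotient.out (v₀ b)) a ∈ _
    have e₁ : c a - ((jF n).map Quotient.out).mulVec (fun b => Quotient.out (v₀ b)) a ∈
        maximalIdeal S := by
      refine (hJ n).trans (Ideal.pow_le_self (by omega)) ?_
      rw [← Ideal.Quotient.eq, ← congrFun hv₀ a, Matrix.mulVec, Matrix.mulVec, dotProduct,
        dotProduct, map_sum]
      exact Finset.sum_congr rfl fun b _ => by
        rw [map_mul, Matrix.map_apply, Ideal.Quotient.mk_out, Ideal.Quotient.mk_out]
    have e₂ : ((jF n).map Quotient.out).mulVec (fun b => Quotient.out (v₀ b)) a -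
        jM.mulVec (fun b => Quotient.out (v₀ b)) a ∈ maximalIdeal S := by
      simp only [Matrix.mulVec, dotProduct, ← Finset.sum_sub_distrib, ← sub_mul]
      exact Submodule.sum_mem _ fun b _ => Ideal.mul_mem_right _ _
        (hlim () a b _ (Quotient.out_eq _))
    rw [← sub_add_sub_cancel]
    exact add_mem e₁ e₂
  have hlim : ∀ (k : ℕ) (U : ∀ n, Matrix (Fin k) (Fin m) (S ⧸ J n)) v, jM.mulVec v = 0 →
      (limMatrix hfin fun n => U n * jF n).mulVec v = 0 := fun k U v hv => by
    rw [limMatrix_mul hfin hJ, ← Matrix.mulVec_mulVec, hv, Matrix.mulVec_zero]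
  let K : Submodule P₀ (Fin d → S) :=
    { carrier := {v | jM.mulVec v = 0}
      zero_mem' := Matrix.mulVec_zero _
      add_mem' := fun {v w} hv hw => by
        show jM.mulVec (v + w) = 0
        rw [Matrix.mulVec_add, show jM.mulVec v = 0 from hv, show jM.mulVec w = 0 from hw, add_zero]
      smul_mem' := fun f v hv => by
        obtain ⟨U, hU⟩ := hstable f
        show jM.mulVec (f • v) = 0
        rw [(LevelSystem.mk J hJ rep).patchModule_smul_def hfin, Matrix.mulVec_mulVec,
          ← limMatrix_rep hfin (LevelSystem.mk J hJ rep) f, ← limMatrix_mul hfin hJ, funext hU]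
        exact hlim m U v hv }
  haveI : IsScalarTower S₀ P₀ K := ⟨fun s a v => Subtype.ext (smul_assoc s a v.1)⟩
  haveI : Module.Finite S₀ K :=
    Module.Finite.of_injective (K.subtype.restrictScalars S₀) Subtype.val_injective
  haveI : Nontrivial K := by
    refine Submodule.nontrivial_iff_ne_bot.mpr fun h => ?_
    have hinj : Function.Injective jM.mulVecLin := LinearMap.ker_eq_bot.mp
      ((Submodule.eq_bot_iff _).mpr fun v hv => by
        have hvK : v ∈ K := LinearMap.mem_ker.mp hv
        rwa [h, Submodule.mem_bot] at hvK)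
    have := LinearMap.finrank_le_finrank_of_injective hinj
    simp only [Module.finrank_fin_fun] at this
    omega
  obtain ⟨Q₁, hQ₁⟩ : (Module.support P₀ K).Nonempty := Module.nonempty_support_iff.mpr ‹_›
  haveI : Module.Finite P₀ K := Module.Finite.of_restrictScalars_finite S₀ P₀ _
  have htf : ∀ s : S₀, s ≠ 0 → ∀ v : K, s • v = 0 → v = 0 := fun s hs v hv =>
    Subtype.ext (eq_zero_of_base_smul hs (congrArg Subtype.val hv))
  have hC : (⟨C, ‹_›⟩ : PrimeSpectrum P₀) ∈ Module.support P₀ K :=
    mem_support_component (S := S₀) htf ⟨C, ‹_›⟩ hdim hQ₁ fun Q hQ _ hann =>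
      hsep Q hQ fun f ⟨U, hU⟩ => hann (Module.mem_annihilator.mpr fun v => Subtype.ext (by
        show f • v.1 = 0
        rw [(LevelSystem.mk J hJ rep).patchModule_smul_def hfin,
          ← limMatrix_rep hfin (LevelSystem.mk J hJ rep) f, funext hU]
        exact hlim d U v.1 v.2))
  intro f hf
  refine Module.annihilator_le_of_mem_support hC (Module.mem_annihilator.mpr fun v => ?_)
  exact Subtype.ext (Module.mem_annihilator.mp ((patch_eq_zero_iff hfin hJ rep f).mp hf) v.1)

end FLTA.RT
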