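import Fermat.Agent.RT.LocalGalois
import Fermat.Prelude.Def_GaloisRep_Adic
import Mathlib.RingTheory.Filtration

/-!
# The decomposition group at `q ≠ p` in an adic representation

If the residual image of inertia at `A ∣ q` consists of `p`-power torsion (for instance residually
unramified or residually unipotent), a continuous representation sends inertia into the closure of
the powers of `ρ Σ₀`, the decomposition group into the closure of the words `ρ Φ ^ i * ρ Σ₀ ^ j`,
and satisfies `ρ Φ * ρ Σ₀ = ρ Σ₀ ^ q * ρ Φ` exactly.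
-/

set_option autoImplicit false

open scoped Pointwise TensorProduct

noncomputable section

namespace FLTA.RT.LocalGalois

local notation "Qbar" => AlgebraicClosure ℚ
local notation "Γ" => AlgebraicClosure ℚ ≃ₐ[ℚ] AlgebraicClosure ℚ

variable {R : Type} [CommRing R] [IsLocalRing R] {V : Type} [AddCommGroup V] [Module R V]

local notation "m^[" n "]" => IsLocalRing.maximalIdeal R ^ n • (⊤ : Submodule R V)

/-- A `p`-th power of an endomorphism congruent to one is congruent to one to the next order. -/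
lemma pow_prime_sub_mem {p : ℕ} (hp : (p : R) ∈ IsLocalRing.maximalIdeal R) {g : Module.End R V}
    {k : ℕ} (h : ∀ v, g v - v ∈ m^[k + 1]) : ∀ v, (g ^ p) v - v ∈ m^[k + 2] := by
  intro v
  have h1 : ∀ w, g w - w ∈ IsLocalRing.maximalIdeal R • (⊤ : Submodule R V) := fun w =>
    Submodule.smul_mono_left (Ideal.pow_le_self k.succ_ne_zero) (h w)
  have hpow : ∀ (i : ℕ) (w : V),
      (g ^ i) w - w ∈ IsLocalRing.maximalIdeal R • (⊤ : Submodule R V) := by
    intro i
    induction i with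
    | zero => simp
    | succ i ih =>
      intro w
      rw [pow_succ, Module.End.mul_apply, ← sub_add_sub_cancel _ (g w) w]
      exact add_mem (ih _) (h1 w)
  have hsum : (⊤ : Submodule R V).map (∑ i ∈ Finset.range p, g ^ i) ≤
      IsLocalRing.maximalIdeal R • (⊤ : Submodule R V) := by
    rintro _ ⟨w, -, rfl⟩
    rw [LinearMap.sum_apply]
    have e : ∑ i ∈ Finset.range p, (g ^ i) w =
        ∑ i ∈ Finset.range p, ((g ^ i) w - w) + (p : R) • w := by
      rw [Finset.sum_sub_distrib, Finset.sum_const, Finset.card_range, Nat.cast_smul_eq_nsmul,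
        sub_add_cancel]
    rw [e]
    exact add_mem (sum_mem fun i _ => hpow i w) (Submodule.smul_mem_smul hp Submodule.mem_top)
  have e : (g ^ p) v - v = (∑ i ∈ Finset.range p, g ^ i) (g v - v) := by
    have := DFunLike.congr_fun (geom_sum_mul g p) v
    simpa using this.symm
  have hmem := Submodule.mem_map_of_mem (f := (∑ i ∈ Finset.range p, g ^ i)) (h v)
  rw [← e, Submodule.map_smul''] at hmem
  have h2 := Submodule.smul_mono (le_refl (IsLocalRing.maximalIdeal R ^ (k + 1))) hsum hmem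
  rwa [← Submodule.mul_smul, ← pow_succ] at h2

variable (ρ : Γ →* Module.End R V)

/-- Reduction of a representation modulo `m ^ n`. -/
def modPow (n : ℕ) : Γ →* Module.End R (V ⧸ m^[n]) where
  toFun σ := Submodule.mapQ _ _ (ρ σ)
    (Submodule.smul_top_le_comap_smul_top (IsLocalRing.maximalIdeal R ^ n) (ρ σ))
  map_one' := Submodule.linearMap_qext _ (LinearMap.ext fun v => by simp)
  map_mul' σ τ := Submodule.linearMap_qext _ (LinearMap.ext fun v => by simp)

lemma modPow_eq_iff (n : ℕ) (g : Module.End R (V ⧸ m^[n])) (σ : Γ) :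
    modPow ρ n σ = g ↔ ∀ v, Submodule.Quotient.mk (ρ σ v) = g (Submodule.Quotient.mk v) := by
  refine ⟨fun h v => by rw [← h]; rfl, fun h => Submodule.linearMap_qext _ (LinearMap.ext h)⟩

lemma modPow_eq_one_iff (n : ℕ) (σ : Γ) :
    modPow ρ n σ = 1 ↔ ∀ v, ρ σ v - v ∈ m^[n] := by
  simp only [modPow_eq_iff, Module.End.one_apply, Submodule.Quotient.eq]

lemma finiteLevel_modPow (hρ : GaloisActionIsAdicContinuous R ρ) (n : ℕ) :
    ∃ L : IntermediateField ℚ Qbar, FiniteDimensional ℚ L ∧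
      ∀ σ : Γ, (∀ x ∈ L, σ x = x) → modPow ρ n σ = 1 := by
  obtain ⟨L, hL, h⟩ := hρ n
  exact ⟨L, hL, fun σ hσ => (modPow_eq_one_iff ρ n σ).mpr (h σ hσ)⟩

variable {A : ValuationSubring Qbar} {q p : ℕ}

lemma pro_modPow (hp : (p : R) ∈ IsLocalRing.maximalIdeal R)
    (hres : ∀ σ ∈ A.inertiaSubgroupIn ℚ, ∃ j : ℕ, ∀ v, (ρ σ ^ p ^ j) v - v ∈ m^[1]) (n : ℕ) :
    ∀ σ ∈ A.inertiaSubgroupIn ℚ, ∃ j : ℕ, modPow ρ n σ ^ p ^ j = 1 := by
  intro σ hσ
  obtain ⟨j, hj⟩ := hres σ hσ
  have key : ∀ k : ℕ, ∀ v, (ρ σ ^ p ^ (j + k)) v - v ∈ m^[k + 1] := by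
    intro k
    induction k with
    | zero => exact hj
    | succ k ih =>
      intro v
      rw [← add_assoc, pow_succ p, pow_mul]
      exact pow_prime_sub_mem hp ih v
  refine ⟨j + n, ?_⟩
  rw [← map_pow, modPow_eq_one_iff]
  intro v
  rw [map_pow]
  exact Submodule.smul_mono_left (Ideal.pow_le_pow_right n.le_succ) (key n v)

/-- A representation that is residually trivial on inertia satisfies the residual hypothesis. -/
lemma res_of_sub_mem
    (h : ∀ σ ∈ A.inertiaSubgroupIn ℚ, ∀ v,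
      ρ σ v - v ∈ IsLocalRing.maximalIdeal R • (⊤ : Submodule R V)) :
    ∀ σ ∈ A.inertiaSubgroupIn ℚ, ∃ j : ℕ, ∀ v, (ρ σ ^ p ^ j) v - v ∈ m^[1] :=
  fun σ hσ => ⟨0, fun v => by simpa using h σ hσ v⟩

/-- The residual representation is trivial at `σ` iff `ρ σ ≡ 1` modulo the maximal ideal. -/
theorem residual_eq_one_iff (r : GaloisRepAdic R) (σ : Γ) :
    r.residual.ρ σ = 1 ↔
      ∀ v, r.ρ σ v - v ∈ IsLocalRing.maximalIdeal R • (⊤ : Submodule R r.V) := by
  let e := TensorProduct.quotTensorEquivQuotSMul r.V (IsLocalRing.maximalIdeal R)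
  have he : ∀ v : r.V, e ((1 : R ⧸ IsLocalRing.maximalIdeal R) ⊗ₜ[R] v) =
      Submodule.Quotient.mk v := fun v => by
    rw [← map_one (Ideal.Quotient.mk (IsLocalRing.maximalIdeal R))]
    exact (TensorProduct.quotTensorEquivQuotSMul_mk_tmul _ 1 v).trans (by rw [one_smul])
  constructor
  · intro h v
    rw [← Submodule.Quotient.eq, ← he, ← he]
    congr 1
    exact DFunLike.congr_fun h ((1 : IsLocalRing.ResidueField R) ⊗ₜ[R] v)
  · intro h
    refine LinearMap.ext fun w => ?_
    show (r.ρ σ).baseChange (IsLocalRing.ResidueField R) w = w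
    induction w using TensorProduct.induction_on with
    | zero => rw [map_zero]
    | add x y hx hy => rw [map_add, hx, hy]
    | tmul c v =>
      rw [LinearMap.baseChange_tmul]
      have h1 : (1 : IsLocalRing.ResidueField R) ⊗ₜ[R] (r.ρ σ v) = 1 ⊗ₜ[R] v :=
        e.injective (((he _).trans ((Submodule.Quotient.eq _).mpr (h v))).trans (he v).symm)
      obtain ⟨a, rfl⟩ := IsLocalRing.residue_surjective c
      have e1 : ∀ w : r.V, IsLocalRing.residue R a ⊗ₜ[R] w =
          a • ((1 : IsLocalRing.ResidueField R) ⊗ₜ[R] w) := fun w => by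
        rw [TensorProduct.smul_tmul', Algebra.smul_def, mul_one]
        rfl
      rw [e1, e1, h1]

variable {τ : Γ} (hq : q.Prime) (hA : A.LiesOverPrime q) (hp : p.Prime) (hpq : p ≠ q)
  (hτ : IsTameGenerator A q p τ) (hρ : GaloisActionIsAdicContinuous R ρ)
  (hpR : (p : R) ∈ IsLocalRing.maximalIdeal R)
  (hres : ∀ σ ∈ A.inertiaSubgroupIn ℚ, ∃ j : ℕ, ∀ v : V, (ρ σ ^ p ^ j) v - v ∈
    (IsLocalRing.maximalIdeal R ^ 1 • ⊤ : Submodule R V))

include hq hA hp hpq hτ hρ hpR hres

/-- Modulo every power of the maximal ideal, inertia acts through powers of a tame generator. -/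
theorem exists_sub_mem_of_inertia {σ : Γ} (hσ : σ ∈ A.inertiaSubgroupIn ℚ) (n : ℕ) :
    ∃ j : ℕ, ∀ v, ρ σ v - (ρ τ ^ j) v ∈ m^[n] := by
  obtain ⟨j, hj⟩ := exists_apply_eq_pow (modPow ρ n) hq hA hp hpq hτ
    (finiteLevel_modPow ρ hρ n) (pro_modPow ρ hpR hres n) hσ
  refine ⟨j, fun v => ?_⟩
  rw [← map_pow, modPow_eq_iff] at hj
  rw [← Submodule.Quotient.eq, ← map_pow, hj v]
  rfl

/-- Modulo every power of the maximal ideal, the decomposition group acts through Frobenius and a
tame generator. -/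
theorem exists_sub_mem_of_decomposition {Φ : Γ} (hΦ : A.IsFrobeniusAt Φ q) {σ : Γ}
    (hσ : σ ∈ A.decompositionSubgroup ℚ) (n : ℕ) :
    ∃ i j : ℕ, ∀ v, ρ σ v - (ρ Φ ^ i * ρ τ ^ j) v ∈ m^[n] := by
  obtain ⟨i, j, hj⟩ := exists_apply_eq_pow_mul_pow (modPow ρ n) hq hA hp hpq hτ
    (finiteLevel_modPow ρ hρ n) (pro_modPow ρ hpR hres n) hΦ hσ
  refine ⟨i, j, fun v => ?_⟩
  rw [← map_pow, ← map_pow, ← map_mul, modPow_eq_iff] at hj
  rw [← Submodule.Quotient.eq, ← map_pow, ← map_pow, ← map_mul, hj v]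
  rfl

variable [IsNoetherianRing R] [Module.Finite R V]

omit hq hA hp hpq hτ hρ hpR hres in
/-- Krull intersection. -/
lemma eq_of_sub_mem {x y : V} (h : ∀ n, x - y ∈ m^[n]) : x = y := by
  refine sub_eq_zero.mp ((Submodule.mem_bot R).mp ?_)
  rw [← Ideal.iInf_pow_smul_eq_bot_of_isLocalRing (M := V) (IsLocalRing.maximalIdeal R)
    (IsLocalRing.maximalIdeal.isMaximal R).ne_top]
  exact Submodule.mem_iInf _ |>.mpr h

/-- The tame relation holds exactly. -/
theorem adic_tame_relation {Φ : Γ} (hΦ : A.IsFrobeniusAt Φ q) :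
    ρ Φ * ρ τ = ρ τ ^ q * ρ Φ := by
  refine LinearMap.ext fun v => eq_of_sub_mem (R := R) fun n => ?_
  have h := frobenius_tame_relation (modPow ρ n) hq hA hp hpq hτ
    (finiteLevel_modPow ρ hρ n) (pro_modPow ρ hpR hres n) hΦ
  rw [← map_pow, ← map_mul, ← map_mul, modPow_eq_iff] at h
  rw [← Submodule.Quotient.eq, ← map_pow, ← map_mul, ← map_mul, h v]
  rfl

/-- If a tame generator acts trivially the representation is unramified at `A`. -/
theorem adic_eq_one_of_tame_generator (h1 : ρ τ = 1) {σ : Γ}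
    (hσ : σ ∈ A.inertiaSubgroupIn ℚ) : ρ σ = 1 := by
  refine LinearMap.ext fun v => eq_of_sub_mem (R := R) fun n => ?_
  obtain ⟨j, hj⟩ := exists_sub_mem_of_inertia ρ hq hA hp hpq hτ hρ hpR hres hσ n
  simpa [h1] using hj v

/-- Everything commuting with Frobenius and a tame generator commutes with the decomposition
group. -/
theorem adic_commute_of_decomposition {Φ : Γ} (hΦ : A.IsFrobeniusAt Φ q) {g : Module.End R V}
    (hgΦ : Commute g (ρ Φ)) (hgτ : Commute g (ρ τ)) {σ : Γ}
    (hσ : σ ∈ A.decompositionSubgroup ℚ) : Commute g (ρ σ) := by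
  refine LinearMap.ext fun v => eq_of_sub_mem (R := R) fun n => ?_
  obtain ⟨i, j, hj⟩ := exists_sub_mem_of_decomposition ρ hq hA hp hpq hτ hρ hpR hres hΦ hσ n
  have hc := DFunLike.congr_fun ((hgΦ.pow_right i).mul_right (hgτ.pow_right j)).eq v
  rw [Module.End.mul_apply, Module.End.mul_apply] at hc
  rw [Module.End.mul_apply, Module.End.mul_apply]
  have h1 : g (ρ σ v - (ρ Φ ^ i * ρ τ ^ j) v) ∈ m^[n] :=
    Submodule.smul_top_le_comap_smul_top _ g (hj v)
  have h2 := sub_mem h1 (hj (g v))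
  rw [map_sub] at h2
  rw [Module.End.mul_apply] at hc
  simpa [hc] using h2

end FLTA.RT.LocalGalois
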