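import Fermat.Agent.RT.LocalMatrix
import Fermat.Agent.RT.LocalGaloisAdic
import Fermat.Prelude.Def_GaloisRep_LocalConditions
import Mathlib.LinearAlgebra.Matrix.Charpoly.LinearMap
import Mathlib.LinearAlgebra.Matrix.Charpoly.Coeff

/-!
# The relations at the avoidance prime

For a `p`-adic representation over a domain with cyclotomic determinant, residually unramified at
`q ≡ 1 mod p` and not unipotent on inertia there, the coordinates of a tame generator and of
Frobenius satisfy the minors and the product relation over the possible eigenvalues.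
-/

set_option autoImplicit false

open scoped Pointwise

noncomputable section

namespace FLTA.RT.LocalGalois

open Matrix IsLocalRing

local notation "Qbar" => AlgebraicClosure ℚ
local notation "Γ" => AlgebraicClosure ℚ ≃ₐ[ℚ] AlgebraicClosure ℚ

variable {R : Type} [CommRing R] [IsLocalRing R] [IsNoetherianRing R] (r : GaloisRepAdic R)
  {A : ValuationSubring Qbar} {p q : ℕ} {τ : Γ}

/-- Zero is the only element of all powers of the maximal ideal. -/
lemma eq_zero_of_forall_mem_pow {x : R} (hx : ∀ n, x ∈ maximalIdeal R ^ n) : x = 0 := by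
  rw [← Submodule.mem_bot R,
    ← Ideal.iInf_pow_eq_bot_of_isLocalRing (maximalIdeal R) (maximalIdeal.isMaximal R).ne_top,
    Ideal.mem_iInf]
  exact hx

omit [IsLocalRing R] [IsNoetherianRing R] in
lemma repr_mem_of_mem_smul {V : Type} [AddCommGroup V] [Module R V] (b : Module.Basis (Fin 2) R V)
    (I : Ideal R) {v : V} (hv : v ∈ I • (⊤ : Submodule R V)) (i : Fin 2) : b.repr v i ∈ I := by
  refine Submodule.smul_induction_on hv (fun c hc w _ => ?_) (fun x y hx hy => ?_)
  · rw [map_smul, Finsupp.smul_apply, smul_eq_mul]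
    exact I.mul_mem_right _ hc
  · rw [map_add, Finsupp.add_apply]
    exact add_mem hx hy

/-- The determinant of a cyclotomic-determinant representation is trivial on inertia at `q ≠ p`. -/
theorem det_inertia_eq_one (hdet : r.DetIsCyclotomic p) (hq : q.Prime) (hp : p.Prime)
    (hpq : p ≠ q) (hA : A.LiesOverPrime q) {σ : Γ} (hσ : σ ∈ A.inertiaSubgroupIn ℚ) :
    LinearMap.det (r.ρ σ) = 1 := by
  refine sub_eq_zero.mp (eq_zero_of_forall_mem_pow fun n => ?_)
  have h := hdet.2 n σ 1 fun μ hμ => by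
    rw [pow_one]
    exact FLTA.Galois.inertia_apply_rootOfUnity hq hA hσ (not_dvd_pow_of_ne hq hp hpq n) hμ
  rw [Nat.cast_one] at h
  refine (Ideal.span_le.mpr ?_) h
  rintro _ rfl
  rw [Nat.cast_pow]
  exact Ideal.pow_mem_pow hdet.1 n

/-- A representation with unipotent tame generator at one place over `q` is unipotent on inertia
at `q`. -/
theorem isUnipotentOnInertiaAt_of_trace (hdet : r.DetIsCyclotomic p) (hq : q.Prime) (hp : p.Prime)
    (hpq : p ≠ q) (hA : A.LiesOverPrime q) (hτ : IsTameGenerator A q p τ)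
    (hres : ∀ σ ∈ A.inertiaSubgroupIn ℚ, ∃ j : ℕ, ∀ v : r.V, (r.ρ σ ^ p ^ j) v - v ∈
      (maximalIdeal R ^ 1 • ⊤ : Submodule R r.V))
    (htr : r.trace τ = 2) : r.IsUnipotentOnInertiaAt q := by
  classical
  let b := Module.finBasisOfFinrankEq R r.V r.finrank_eq
  let M := LinearMap.toMatrixAlgEquiv b
  have htrM : ∀ f, (M f).trace = LinearMap.trace R r.V f := fun f =>
    (LinearMap.trace_eq_matrix_trace R b f).symm
  have hdetM : ∀ f, (M f).det = LinearMap.det f := fun f => LinearMap.det_toMatrix b f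
  have hτ2 : (M (r.ρ τ)).trace = 2 := (htrM _).trans htr
  have hτ1 : (M (r.ρ τ)).det = 1 := by
    rw [hdetM]; exact det_inertia_eq_one r hdet hq hp hpq hA hτ.1
  have hT2 : M (r.ρ τ) * M (r.ρ τ) = (2 : R) • M (r.ρ τ) - 1 := by
    rw [trace_fin_two] at hτ2
    rw [det_fin_two] at hτ1
    ext i j
    fin_cases i <;> fin_cases j <;> simp [mul_apply, Fin.sum_univ_two] <;>
      first
        | linear_combination (M (r.ρ τ) 0 0) * hτ2 - hτ1
        | linear_combination (M (r.ρ τ) 1 1) * hτ2 - hτ1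
        | linear_combination (M (r.ρ τ) 0 1) * hτ2
        | linear_combination (M (r.ρ τ) 1 0) * hτ2
  have hpow : ∀ j : ℕ, M (r.ρ τ) ^ j = (j : R) • M (r.ρ τ) - ((j : R) - 1) • 1 := by
    intro j
    induction j with
    | zero => simp
    | succ j ih =>
      rw [pow_succ, ih, sub_mul, Matrix.smul_mul, hT2, Matrix.smul_mul, one_mul, Nat.cast_succ]
      module
  have htrσ : ∀ σ ∈ A.inertiaSubgroupIn ℚ, r.trace σ = 2 := by
    intro σ hσ
    refine sub_eq_zero.mp (eq_zero_of_forall_mem_pow fun n => ?_)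
    obtain ⟨j, hj⟩ := exists_sub_mem_of_inertia r.ρ hq hA hp hpq hτ r.isAdicContinuous hdet.1
      hres hσ n
    have hent : ∀ i i', (M (r.ρ σ) - M (r.ρ τ) ^ j) i i' ∈ maximalIdeal R ^ n := by
      intro i i'
      rw [← map_pow, ← map_sub]
      show (LinearMap.toMatrix b b (r.ρ σ - r.ρ τ ^ j)) i i' ∈ _
      rw [LinearMap.toMatrix_apply]
      exact repr_mem_of_mem_smul b _ (hj (b i')) i
    have h2 : (M (r.ρ τ) ^ j).trace = 2 := by
      rw [hpow, trace_sub, trace_smul, trace_smul, hτ2, trace_one, Fintype.card_fin, smul_eq_mul,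
        smul_eq_mul]
      push_cast
      ring
    have h3 : r.trace σ - 2 = (M (r.ρ σ) - M (r.ρ τ) ^ j).trace := by
      rw [trace_sub, h2, htrM]; rfl
    rw [h3, trace_fin_two]
    exact add_mem (hent 0 0) (hent 1 1)
  intro P hP σ hσ
  obtain ⟨g, rfl⟩ := FLTA.Galois.exists_smul_eq hq hA hP
  rw [← (LinearMap.charpoly_toMatrix (r.ρ σ) b), Matrix.charpoly_fin_two]
  have h1 := htrσ _ ((FLTA.Galois.inertiaSubgroupIn_smul_iff g).mp hσ)
  have hconj : r.trace (g⁻¹ * σ * g) = r.trace σ := by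
    show LinearMap.trace R r.V (r.ρ (g⁻¹ * σ * g)) = _
    rw [map_mul r.ρ, map_mul r.ρ, mul_assoc, LinearMap.trace_mul_comm, mul_assoc, ← map_mul r.ρ,
      mul_inv_cancel, map_one, mul_one]
    rfl
  have e1 : (LinearMap.toMatrix b b (r.ρ σ)).trace = 2 := (htrM _).trans (hconj.symm.trans h1)
  have e2 : (LinearMap.toMatrix b b (r.ρ σ)).det = 1 :=
    (hdetM _).trans (det_inertia_eq_one r hdet hq hp hpq hP hσ)
  rw [e1, e2, map_one, map_ofNat]
  ring

variable [IsDomain R]

/-- **The relations at the avoidance prime.** -/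
theorem site_relations (hdet : r.DetIsCyclotomic p) (hq : q.Prime) (hp : p.Prime) (hp2 : p ≠ 2)
    (hpq : p ≠ q) (hq1 : p ∣ q - 1) (hA : A.LiesOverPrime q) (hτ : IsTameGenerator A q p τ)
    {Φ : Γ} (hΦ : A.IsFrobeniusAt Φ q)
    (hres : ∀ σ ∈ A.inertiaSubgroupIn ℚ, ∀ v : r.V,
      r.ρ σ v - v ∈ maximalIdeal R • (⊤ : Submodule R r.V))
    (hnu : ¬ r.IsUnipotentOnInertiaAt q) {a : ℕ} (ha : ∀ c, p ^ c ∣ q - 1 → c ≤ a) {ζ : R}
    (hζ : IsPrimitiveRoot ζ (p ^ a)) (b : Module.Basis (Fin 2) R r.V) :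
    let T := LinearMap.toMatrix b b (r.ρ τ)
    let P := LinearMap.toMatrix b b (r.ρ Φ)
    (∀ i j, vec3 T i * vec3 P j = vec3 T j * vec3 P i) ∧
      ∏ i ∈ Finset.Ioo 0 (p ^ a), (Local.Q3 (vec3 T) - (ζ ^ i - ζ ^ (p ^ a - i)) ^ 2) = 0 := by
  intro T P
  have hres' : ∀ σ ∈ A.inertiaSubgroupIn ℚ, ∃ j : ℕ, ∀ v : r.V, (r.ρ σ ^ p ^ j) v - v ∈
      (maximalIdeal R ^ 1 • ⊤ : Submodule R r.V) := fun σ hσ => ⟨0, fun v => by
    simpa using hres σ hσ v⟩
  have hdetT : T.det = 1 := by
    rw [LinearMap.det_toMatrix]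
    exact det_inertia_eq_one r hdet hq hp hpq hA hτ.1
  have htrT : T.trace = r.trace τ := (LinearMap.trace_eq_matrix_trace R b _).symm
  have hne : T.trace ≠ 2 := fun h =>
    hnu (isUnipotentOnInertiaAt_of_trace r hdet hq hp hpq hA hτ hres' (htrT.symm.trans h))
  have hmem : T.trace - 2 ∈ maximalIdeal R := by
    have hent : ∀ i, T i i - 1 ∈ maximalIdeal R := by
      intro i
      have e : T i i - 1 = b.repr (r.ρ τ (b i) - b i) i := by
        rw [map_sub, Finsupp.sub_apply, Module.Basis.repr_self, Finsupp.single_eq_same]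
        exact congrArg (· - 1) (LinearMap.toMatrix_apply b b _ _ _)
      rw [e]
      exact repr_mem_of_mem_smul b _ (hres τ hτ.1 (b i)) i
    rw [trace_fin_two, show T 0 0 + T 1 1 - 2 = (T 0 0 - 1) + (T 1 1 - 1) by ring]
    exact add_mem (hent 0) (hent 1)
  have hrel : P * T = T ^ q * P := by
    have h := congrArg (LinearMap.toMatrixAlgEquiv b) (adic_tame_relation r.ρ hq hA hp hpq hτ
      r.isAdicContinuous hdet.1 hres' hΦ)
    rw [map_mul, map_mul, map_pow] at h
    exact h
  have hP : IsUnit P.det := by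
    rw [LinearMap.det_toMatrix]
    exact ((Group.isUnit Φ).map r.ρ).map LinearMap.det
  refine ⟨fun i j => ?_, ?_⟩
  · have h := (commute_iff_minors T P).mp (commute_of_trace_ne_two hp hp2 hdet.1 hq.one_lt hq1
      hrel hP hdetT hmem hne).symm
    exact h i j
  · obtain ⟨i, hi, hti, hQi⟩ := exists_trace_eq hp hp2 hdet.1 hq.one_lt hq1 hrel hP hdetT hmem
      ha hζ
    refine Finset.prod_eq_zero (Finset.mem_Ioo.mpr ⟨Nat.pos_of_ne_zero fun h => hne ?_, hi⟩)
      (by rw [hQi, sub_self])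
    rw [hti, h, pow_zero, Nat.sub_zero, hζ.pow_eq_one]
    norm_num

omit [IsLocalRing R] [IsNoetherianRing R] [IsDomain R] in
/-- The same relation in the single coordinate `v = T₁₀` when `P₁₀` is used to normalise. -/
theorem site_relation_lower {T P : Matrix (Fin 2) (Fin 2) R}
    (h : ∀ i j, vec3 T i * vec3 P j = vec3 T j * vec3 P i) :
    T 1 0 ^ 2 * (P.trace ^ 2 - 4 * P.det) = P 1 0 ^ 2 * Local.Q3 (vec3 T) := by
  rw [← Q3_vec3]
  have h01 := h 0 1
  have h21 := h 2 1
  simp [vec3] at h01 h21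
  simp [Local.Q3, vec3]
  linear_combination -(T 1 0 * (P 0 0 - P 1 1) + P 1 0 * (T 0 0 - T 1 1)) * h21 -
    4 * (T 1 0 * P 1 0) * h01

end FLTA.RT.LocalGalois
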