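import Fermat.Agent.RT.PointClass
import Fermat.Agent.RT.PointExtend
import Fermat.Agent.RT.CoeffBase

/-!
# Eigenvectors of commuting endomorphisms at a point, and their classes

A point of the algebra generated by commuting endomorphisms of a finite free module gives an
eigenvector of these and of one more commuting endomorphism, after a finite extension; the
eigenvalue of an endomorphism which is residually scalar is residually that scalar; the class
attached to an eigenvector is an eigenclass.
-/

set_option autoImplicit false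
set_option maxHeartbeats 400000

noncomputable section

open IsLocalRing
open scoped Matrix

namespace FLTA.RT

/-- An eigenvalue of a matrix with entries in the maximal ideal is in the maximal ideal. -/
theorem mem_maximalIdeal_of_eigen {R B : Type} [CommRing R] [IsLocalRing R] [CommRing B]
    [IsDomain B] [IsLocalRing B] {d : ℕ} (φ : R →+* B)
    (hφ : ∀ x ∈ maximalIdeal R, φ x ∈ maximalIdeal B) (M : Matrix (Fin d) (Fin d) R)
    (hM : ∀ i j, M i j ∈ maximalIdeal R) {v : Fin d → B} (hv : v ≠ 0) {c : B}
    (h : M.map φ *ᵥ v = c • v) : c ∈ maximalIdeal B := by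
  have hdet : (M.map φ - c • 1).det = 0 :=
    Matrix.exists_mulVec_eq_zero_iff.mp ⟨v, hv, by
      rw [Matrix.sub_mulVec, Matrix.smul_mulVec, Matrix.one_mulVec, h, sub_self]⟩
  have h2 := congrArg (residue B) hdet
  rw [RingHom.map_det, map_zero] at h2
  have e : (residue B).mapMatrix (M.map φ - c • 1) =
      (-residue B c) • (1 : Matrix (Fin d) (Fin d) (ResidueField B)) := by
    refine Matrix.ext fun i k => ?_
    have := (residue_eq_zero_iff _).mpr (hφ _ (hM i k))
    by_cases hik : i = k
    · subst hik; simp [this]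
    · simp [this, hik]
  rw [e, Matrix.det_smul, Matrix.det_one, mul_one] at h2
  rw [← residue_eq_zero_iff, ← neg_eq_zero]
  exact eq_zero_of_pow_eq_zero h2

section vector

variable {R : Type} [CommRing R] {V : Type} [AddCommGroup V] [Module R V] {d : ℕ}
  (b : Module.Basis (Fin d) R V)

omit [AddCommGroup V] [Module R V] in
/-- An eigenvector at a point of a commutative matrix algebra, of a larger one. -/
theorem exists_eigenVec_abstract {O : Type} [CommRing O] [IsDomain O] [IsDiscreteValuationRing O]
    [IsAdicComplete (maximalIdeal O) O] [Finite (ResidueField O)] [CharZero O] {A A' : Type}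
    [CommRing A] [CommRing A'] [Algebra R A] [Algebra R A'] [Module.Finite R A']
    (incl : A →ₐ[R] A') (hincl : Function.Injective incl)
    (ρm : A' →ₐ[R] Matrix (Fin d) (Fin d) R) (hρm : Function.Injective ρm) (ψ : A →+* O) :
    ∃ (E : RepTheory.FiniteDVRExt O) (v : Fin d → E.R) (ψ' : A' → E.R), v ≠ 0 ∧
      (∀ a, ψ' (incl a) = algebraMap O E.R (ψ a)) ∧
      ∀ a, (ρm a).map ((algebraMap O E.R).comp (ψ.comp (algebraMap R A))) *ᵥ v = ψ' a • v := by
  have hfin : (incl : A →+* A').Finite := by
    refine RingHom.Finite.of_comp_finite (f := algebraMap R A) ?_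
    rw [show (incl : A →+* A').comp (algebraMap R A) = algebraMap R A' from
      RingHom.ext incl.commutes]
    exact RingHom.finite_algebraMap.mpr inferInstance
  obtain ⟨E, ψ', hψ'⟩ := exists_point_extend O (incl : A →+* A') hincl hfin ψ
  obtain ⟨v, hv0, hv⟩ := exists_eigenVec_integral ρm hρm ψ'
  refine ⟨E, v, ψ', hv0, fun a => RingHom.congr_fun hψ' a, fun a => ?_⟩
  have h := hv a
  rw [show ψ'.comp (algebraMap R A') = (algebraMap O E.R).comp (ψ.comp (algebraMap R A)) from
    RingHom.ext fun x => (congrArg ψ' (incl.commutes x)).symm.trans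
      (RingHom.congr_fun hψ' _)] at h
  exact h

/-- **An eigenvector at a point.** -/
theorem exists_eigenVec_extend [IsNoetherianRing R] {O : Type} [CommRing O] [IsDomain O]
    [IsDiscreteValuationRing O] [IsAdicComplete (maximalIdeal O) O] [Finite (ResidueField O)]
    [CharZero O] (S : Set (Module.End R V)) (u : Module.End R V)
    (hcomm : ∀ a ∈ insert u S, ∀ a' ∈ insert u S, a * a' = a' * a)
    (ψ : Algebra.adjoin R S →+* O) :
    ∃ (E : RepTheory.FiniteDVRExt O) (v : Fin d → E.R) (β : E.R), v ≠ 0 ∧
      (∀ (a : Module.End R V) (ha : a ∈ S),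
        (LinearMap.toMatrix b b a).map
            ((algebraMap O E.R).comp (ψ.comp (algebraMap R (Algebra.adjoin R S)))) *ᵥ v =
          algebraMap O E.R (ψ ⟨a, Algebra.subset_adjoin ha⟩) • v) ∧
      (LinearMap.toMatrix b b u).map
          ((algebraMap O E.R).comp (ψ.comp (algebraMap R (Algebra.adjoin R S)))) *ᵥ v = β • v := by
  letI : CommRing (Algebra.adjoin R S) := Algebra.adjoinCommRingOfComm R fun a ha a' ha' =>
    hcomm a (Set.mem_insert_of_mem _ ha) a' (Set.mem_insert_of_mem _ ha')
  letI : CommRing (Algebra.adjoin R (insert u S)) := Algebra.adjoinCommRingOfComm R hcomm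
  have : Module.Finite R (Module.End R V) :=
    Module.Finite.of_injective (LinearMap.toMatrix b b).toLinearMap
      (LinearMap.toMatrix b b).injective
  have : IsNoetherian R (Module.End R V) := isNoetherian_of_isNoetherianRing_of_finite _ _
  have : Module.Finite R (Algebra.adjoin R (insert u S)) :=
    Module.Finite.iff_fg.mpr
      (IsNoetherian.noetherian (Subalgebra.toSubmodule (Algebra.adjoin R (insert u S))))
  let ρm : Algebra.adjoin R (insert u S) →ₐ[R] Matrix (Fin d) (Fin d) R :=
    (LinearMap.toMatrixAlgEquiv b).toAlgHom.comp (Algebra.adjoin R (insert u S)).val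
  obtain ⟨E, v, ψ', hv0, hψ', hv⟩ := exists_eigenVec_abstract (O := O) (d := d)
    (Subalgebra.inclusion (Algebra.adjoin_mono (Set.subset_insert u S)))
    (Subalgebra.inclusion_injective _) ρm
    ((LinearMap.toMatrixAlgEquiv b).injective.comp Subtype.val_injective) ψ
  have hm : ∀ a : Algebra.adjoin R (insert u S),
      ρm a = LinearMap.toMatrix b b (a : Module.End R V) := fun a => rfl
  refine ⟨E, v, ψ' ⟨u, Algebra.subset_adjoin (Set.mem_insert _ _)⟩, hv0, ?_, ?_⟩
  · intro a ha
    have h := hv (Subalgebra.inclusion (Algebra.adjoin_mono (Set.subset_insert u S))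
      ⟨a, Algebra.subset_adjoin ha⟩)
    rw [hψ', hm, Subalgebra.coe_inclusion] at h
    exact h
  · have h := hv ⟨u, Algebra.subset_adjoin (Set.mem_insert _ _)⟩
    rw [hm] at h
    exact h

variable [IsLocalRing R]

/-- The residue of the eigenvalue of a residually scalar endomorphism. -/
theorem residue_eigenvalue {B : Type} [CommRing B] [IsDomain B] [IsLocalRing B] (φ : R →+* B)
    (hφ : ∀ x ∈ maximalIdeal R, φ x ∈ maximalIdeal B) {v : Fin d → B} (hv : v ≠ 0)
    (a : Module.End R V) {lam : B} (ha : (LinearMap.toMatrix b b a).map φ *ᵥ v = lam • v) (c : R)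
    {k : ℕ} (hk : ∀ x, ((a - c • 1) ^ k) x ∈ maximalIdeal R • (⊤ : Submodule R V)) :
    residue B lam = residue B (φ c) := by
  have hrepr : ∀ y ∈ maximalIdeal R • (⊤ : Submodule R V), ∀ i, b.repr y i ∈ maximalIdeal R := by
    intro y hy i
    refine Submodule.smul_induction_on hy (fun a ha w _ => ?_) (fun a a' ha ha' => ?_)
    · rw [map_smul, Finsupp.smul_apply, smul_eq_mul]
      exact Ideal.mul_mem_right _ _ ha
    · rw [map_add, Finsupp.add_apply]
      exact add_mem ha ha'
  have hpow : ∀ m : ℕ,
      (LinearMap.toMatrixAlgEquiv b ((a - c • 1) ^ m)).map φ *ᵥ v = (lam - φ c) ^ m • v := by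
    intro m
    induction m with
    | zero =>
      rw [pow_zero, map_one, pow_zero, one_smul, Matrix.map_one φ (map_zero φ) (map_one φ),
        Matrix.one_mulVec]
    | succ m ih =>
      rw [pow_succ, map_mul, Matrix.map_mul, ← Matrix.mulVec_mulVec]
      have h1 : (LinearMap.toMatrixAlgEquiv b (a - c • 1)).map φ *ᵥ v = (lam - φ c) • v := by
        rw [map_sub, map_smul, map_one,
          Matrix.map_sub φ (map_sub φ), Matrix.sub_mulVec,
          Matrix.map_smul' φ c (1 : Matrix (Fin d) (Fin d) R) (map_mul φ),
          Matrix.map_one φ (map_zero φ) (map_one φ), Matrix.smul_mulVec, Matrix.one_mulVec,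
          sub_smul]
        exact congrArg (· - φ c • v) ha
      rw [h1, Matrix.mulVec_smul, ih, smul_smul, pow_succ, mul_comm]
  have hmem := mem_maximalIdeal_of_eigen φ hφ _ (fun i j => by
    rw [LinearMap.toMatrixAlgEquiv_apply]
    exact hrepr _ (hk _) _) hv (hpow k)
  rw [← residue_eq_zero_iff, map_pow, map_sub] at hmem
  exact sub_eq_zero.mp (eq_zero_of_pow_eq_zero hmem)

end vector

section classes

open CongruenceSubgroup

variable {R B : Type} [CommRing R] [CommRing B] [Algebra R B] {L : ℕ}
  (χ : (ZMod L)ˣ →* Rˣ) {e : NatEnd (gamChar χ)} {d : ℕ}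
  (b : Module.Basis (Fin d) R (eImage e R))

/-- The class of a vector, over the extended coefficient ring. -/
def vecClassBase (v : Fin d → B) : tH1 (gamChar (charMap (algebraMap R B) χ)) B :=
  tH1Base (algebraMap R B) χ (fun a w => Algebra.smul_def a w) (vecClass b v)

/-- The class of an eigenvector is an eigenclass. -/
theorem tH1Base_app_vecClass (f : NatEnd (gamChar χ)) (a : Module.End R (eImage e R))
    (hfa : ∀ x : eImage e R, (((a x) : eImage e R) : tH1 (gamChar χ) R) = f.app R x)
    (v : Fin d → B) (lam : B)
    (hv : (LinearMap.toMatrix b b a).map (algebraMap R B) *ᵥ v = lam • v) :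
    tH1Base (algebraMap R B) χ (fun a w => Algebra.smul_def a w) (f.app B (vecClass b v)) =
      lam • vecClassBase χ b v := by
  have hA : ∀ k, f.app R (b k : tH1 (gamChar χ) R) =
      ∑ m, LinearMap.toMatrix b b a m k • (b m : tH1 (gamChar χ) R) := fun k => by
    rw [← hfa]
    conv_lhs => rw [← b.sum_repr (a (b k))]
    rw [AddSubmonoidClass.coe_finsetSum]
    refine Finset.sum_congr rfl fun m _ => ?_
    rw [LinearMap.toMatrix_apply]
    rfl
  let g : B →ₗ[R] B := LinearMap.mulLeft R lam
  have hvv : (fun m => ∑ k, LinearMap.toMatrix b b a m k • v k) = fun m => g (v m) := funext fun m => by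
    have := congrFun hv m
    simpa [Matrix.mulVec, dotProduct, Algebra.smul_def, g] using this
  rw [app_vecClass b f _ hA, hvv, ← map_vecClass,
    tH1Base_map (algebraMap R B) χ (fun a w => Algebra.smul_def a w)
      (fun a w => Algebra.smul_def a w) g (lam • LinearMap.id) (fun _ => rfl),
    tH1Map_smul, tH1Map_id]
  rfl

end classes

end FLTA.RT

end
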