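import Fermat.Agent.RepTheory.DVRExtension
import Mathlib.LinearAlgebra.Eigenspace.Minpoly
import Mathlib.LinearAlgebra.Eigenspace.Triangularizable

/-!
# Vanishing of an element of a reduced algebra on a stable submodule, from its eigenvectors

`A` is reduced and integral over `O` and acts on a finite free `R`-module with a stable submodule
`Y`. If `a` vanishes at every point of `A` with an eigenvector in `Y`, and the points of `R`
separate, then `a` kills `Y`: on every fibre it acts nilpotently, and a power of `a` is `O`-nearly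
`a` itself since the algebra is reduced.
-/

set_option autoImplicit false
set_option linter.style.haveILetI false

noncomputable section

open IsLocalRing Polynomial
open scoped Matrix

namespace FLTA.RT

/-- In a reduced integral algebra every element is, up to a nonzero scalar, divisible by its
square. -/
theorem exists_smul_eq_sq_mul {O A : Type*} [CommRing O] [IsDomain O] [CommRing A] [Algebra O A]
    [IsReduced A] [Algebra.IsIntegral O A] (a : A) :
    ∃ c : O, c ≠ 0 ∧ ∃ b : A, c • a = a ^ 2 * b := by
  obtain ⟨P, hP, hPa⟩ := Algebra.IsIntegral.isIntegral (R := O) a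
  obtain ⟨Q, hQ, hQ0⟩ :=
    Polynomial.exists_eq_pow_rootMultiplicity_mul_and_not_dvd P hP.ne_zero 0
  rw [map_zero, sub_zero] at hQ hQ0
  set m := P.rootMultiplicity 0
  refine ⟨Q.coeff 0, fun h => hQ0 (X_dvd_iff.mpr h), -aeval a Q.divX, ?_⟩
  have h0 : a ^ m * aeval a Q = 0 := by
    have h : aeval a P = 0 := hPa
    rwa [hQ, map_mul, map_pow, aeval_X] at h
  have h1 : a * aeval a Q = 0 := IsNilpotent.eq_zero ⟨m + 1, by
    rw [mul_pow, pow_succ' (aeval a Q), pow_succ a]
    calc a ^ m * a * (aeval a Q * aeval a Q ^ m)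
        = a ^ m * aeval a Q * (a * aeval a Q ^ m) := by ring
      _ = 0 := by rw [h0, zero_mul]⟩
  have h2 : aeval a Q = a * aeval a Q.divX + algebraMap O A (Q.coeff 0) := by
    conv_lhs => rw [← X_mul_divX_add Q]
    rw [map_add, map_mul, aeval_X, aeval_C]
  rw [h2] at h1
  rw [Algebra.smul_def]
  linear_combination h1

/-- Iterating the previous lemma. -/
theorem pow_smul_eq_pow_mul {O A : Type*} [CommRing O] [CommRing A] [Algebra O A] {a b : A} {c : O}
    (h : c • a = a ^ 2 * b) : ∀ k : ℕ, c ^ k • a = a ^ (k + 1) * b ^ k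
  | 0 => by rw [pow_zero, one_smul, pow_one, pow_zero, mul_one]
  | k + 1 => by
    rw [pow_succ', mul_smul, pow_smul_eq_pow_mul h k, pow_succ a k]
    calc c • (a ^ k * a * b ^ k) = (c • a) * (a ^ k * b ^ k) := by rw [smul_mul_assoc]; congr 1; ring
      _ = a ^ (k + 1 + 1) * b ^ (k + 1) := by rw [h]; ring

/-- An endomorphism of a finite-dimensional space without nonzero eigenvalue is nilpotent. -/
theorem exists_hasEigenvalue_ne_zero {K U : Type*} [Field K] [IsAlgClosed K] [AddCommGroup U]
    [Module K U] [FiniteDimensional K U] {f : Module.End K U} (hf : ¬ IsNilpotent f) :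
    ∃ μ : K, μ ≠ 0 ∧ f.HasEigenvalue μ := by
  by_contra! h
  refine hf ⟨(minpoly K f).roots.card, ?_⟩
  have hroots : ∀ μ ∈ (minpoly K f).roots, μ = 0 := fun μ hμ => by
    by_contra hμ0
    exact h μ hμ0 (Module.End.hasEigenvalue_of_isRoot (isRoot_of_mem_roots hμ))
  have hmonic := minpoly.monic (IsIntegral.of_finite K f)
  have hq := (IsAlgClosed.splits (minpoly K f)).eq_prod_roots_of_monic hmonic
  have hX : (minpoly K f).roots.map (fun μ => X - C μ) =
      Multiset.replicate (minpoly K f).roots.card X :=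
    Multiset.eq_replicate.mpr ⟨Multiset.card_map _ _, fun t ht => by
      obtain ⟨μ, hμ, rfl⟩ := Multiset.mem_map.mp ht
      rw [hroots μ hμ, map_zero, sub_zero]⟩
  rw [hX, Multiset.prod_replicate] at hq
  have h0 := minpoly.aeval K f
  rwa [hq, map_pow, aeval_X] at h0

/-- A commutative algebra acting with a non-nilpotent element has a common eigenvector at which
that element does not vanish. -/
theorem exists_common_eigen {K U A : Type*} [Field K] [IsAlgClosed K] [AddCommGroup U]
    [Module K U] [FiniteDimensional K U] [CommRing A] (θ : A →+* Module.End K U) (a : A)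
    (ha : ¬ IsNilpotent (θ a)) :
    ∃ (ψ : A →+* K) (z : U), z ≠ 0 ∧ ψ a ≠ 0 ∧ ∀ x, θ x z = ψ x • z := by
  classical
  obtain ⟨μ₀, hμ₀, he₀⟩ := exists_hasEigenvalue_ne_zero ha
  have hcomm : ∀ x y : A, ∀ u, θ x (θ y u) = θ y (θ x u) := fun x y u => by
    rw [← Module.End.mul_apply, ← map_mul, mul_comm, map_mul, Module.End.mul_apply]
  let Good : Submodule K U → Prop := fun S =>
    S ≠ ⊥ ∧ (∀ x, ∀ u ∈ S, θ x u ∈ S) ∧ S ≤ Module.End.eigenspace (θ a) μ₀
  have hex : ∃ d, ∃ S, Good S ∧ Module.finrank K S = d :=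
    ⟨_, _, ⟨he₀, fun x u hu => by
      rw [Module.End.mem_eigenspace_iff] at hu ⊢
      rw [hcomm, hu, map_smul], le_rfl⟩, rfl⟩
  obtain ⟨S, ⟨hS0, hSst, hSle⟩, hSd⟩ := Nat.find_spec hex
  have hscal : ∀ x, ∃ c : K, ∀ u ∈ S, θ x u = c • u := by
    intro x
    haveI : Nontrivial S := Submodule.nontrivial_iff_ne_bot.mpr hS0
    obtain ⟨c, hc⟩ := Module.End.exists_eigenvalue ((θ x).restrict (hSst x))
    obtain ⟨w, hw⟩ := hc.exists_hasEigenvector
    have hw' : θ x (w : U) = c • (w : U) := congrArg Subtype.val hw.apply_eq_smul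
    let S' := S ⊓ Module.End.eigenspace (θ x) c
    have hgood : Good S' := by
      refine ⟨fun h => hw.2 (Subtype.ext ?_), fun y u hu => ⟨hSst y u hu.1, ?_⟩,
        inf_le_left.trans hSle⟩
      · have hm : (w : U) ∈ S' := ⟨w.2, Module.End.mem_eigenspace_iff.mpr hw'⟩
        rw [h] at hm
        exact hm
      · have hu2 : θ x u = c • u := Module.End.mem_eigenspace_iff.mp hu.2
        show θ y u ∈ Module.End.eigenspace (θ x) c
        rw [Module.End.mem_eigenspace_iff, hcomm, hu2, map_smul]
    have hle : Module.finrank K S ≤ Module.finrank K S' :=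
      hSd.trans_le (Nat.find_le ⟨S', hgood, rfl⟩)
    have heq : S' = S := Submodule.eq_of_le_of_finrank_le inf_le_left hle
    exact ⟨c, fun u hu => Module.End.mem_eigenspace_iff.mp (heq.symm ▸ hu : u ∈ S').2⟩
  choose c hc using hscal
  obtain ⟨z, hzS, hz⟩ := Submodule.exists_mem_ne_zero_of_ne_bot hS0
  have inj : Function.Injective fun k : K => k • z := smul_left_injective K hz
  let ψ : A →+* K :=
    { toFun := c
      map_one' := inj (show c 1 • z = (1 : K) • z by
        rw [← hc 1 z hzS, map_one, one_smul]; rfl)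
      map_mul' := fun x y => inj (show c (x * y) • z = (c x * c y) • z by
        rw [← hc _ z hzS, map_mul, Module.End.mul_apply, hc y z hzS, map_smul, hc x z hzS,
          smul_smul, mul_comm])
      map_zero' := inj (show c 0 • z = (0 : K) • z by
        rw [← hc 0 z hzS, map_zero, zero_smul]; rfl)
      map_add' := fun x y => inj (show c (x + y) • z = (c x + c y) • z by
        rw [← hc _ z hzS, map_add, LinearMap.add_apply, hc x z hzS, hc y z hzS, add_smul]) }
  refine ⟨ψ, z, hz, fun h => hμ₀ ?_, fun x => hc x z hzS⟩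
  have h1 : θ a z = μ₀ • z := Module.End.mem_eigenspace_iff.mp (hSle hzS)
  rw [hc a z hzS, show c a = 0 from h, zero_smul] at h1
  exact (smul_eq_zero.mp h1.symm).resolve_right hz

/-- Vectors in a span over the fraction field have integral multiples in the span. -/
theorem exists_integral_mem_span {B L : Type*} [CommRing B] [IsDomain B] [Field L] [Algebra B L]
    [IsFractionRing B L] {ι : Type*} (S : Set (ι → B)) {z : ι → L}
    (hz : z ∈ Submodule.span L ((fun v i => algebraMap B L (v i)) '' S)) :
    ∃ v ∈ Submodule.span B S, ∃ c : B, c ≠ 0 ∧ ∀ i, algebraMap B L (v i) = algebraMap B L c * z i := by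
  induction hz using Submodule.span_induction with
  | mem x hx =>
    obtain ⟨v, hv, rfl⟩ := hx
    exact ⟨v, Submodule.subset_span hv, 1, one_ne_zero, fun i => by rw [map_one, one_mul]⟩
  | zero => exact ⟨0, zero_mem _, 1, one_ne_zero, fun i => by simp⟩
  | add x y _ _ hx hy =>
    obtain ⟨v, hv, c, hc, h⟩ := hx
    obtain ⟨v', hv', c', hc', h'⟩ := hy
    refine ⟨c' • v + c • v', add_mem (Submodule.smul_mem _ _ hv) (Submodule.smul_mem _ _ hv'),
      c * c', mul_ne_zero hc hc', fun i => ?_⟩
    simp only [Pi.add_apply, Pi.smul_apply, smul_eq_mul, map_add, map_mul, h, h']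
    ring
  | smul q x _ hx =>
    obtain ⟨v, hv, c, hc, h⟩ := hx
    obtain ⟨num, den, hden, rfl⟩ := IsFractionRing.div_surjective (A := B) q
    have hden0 : den ≠ 0 := nonZeroDivisors.ne_zero hden
    have hden1 : algebraMap B L den ≠ 0 :=
      (map_ne_zero_iff _ (IsFractionRing.injective B L)).mpr hden0
    refine ⟨num • v, Submodule.smul_mem _ _ hv, den * c, mul_ne_zero hden0 hc, fun i => ?_⟩
    simp only [Pi.smul_apply, smul_eq_mul, map_mul, h]
    field_simp

/-- A linear functional applied to the entries keeps the span of rational vectors. -/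
theorem comp_mem_span {L K : Type*} [Field L] [Field K] [Algebra L K] {ι : Type*}
    (S : Set (ι → L)) {z : ι → K}
    (hz : z ∈ Submodule.span K ((fun v i => algebraMap L K (v i)) '' S)) :
    ∀ lam : K →ₗ[L] L, (fun i => lam (z i)) ∈ Submodule.span L S := by
  induction hz using Submodule.span_induction with
  | mem x hx =>
    obtain ⟨v, hv, rfl⟩ := hx
    intro lam
    rw [show (fun i => lam (algebraMap L K (v i))) = lam 1 • v from funext fun i => by
      rw [Algebra.algebraMap_eq_smul_one, map_smul, Pi.smul_apply, smul_eq_mul, smul_eq_mul,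
        mul_comm]]
    exact Submodule.smul_mem _ _ (Submodule.subset_span hv)
  | zero =>
    intro lam
    rw [show (fun i => lam ((0 : ι → K) i)) = 0 from funext fun i => map_zero lam]
    exact zero_mem _
  | add x y _ _ hx hy =>
    intro lam
    rw [show (fun i => lam ((x + y) i)) = (fun i => lam (x i)) + fun i => lam (y i) from
      funext fun i => map_add lam _ _]
    exact add_mem (hx lam) (hy lam)
  | smul q x _ hx =>
    intro lam
    exact hx (lam.comp (LinearMap.mulLeft L q))

section descend

variable {O : Type} [CommRing O] [IsDomain O] [IsDiscreteValuationRing O]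
  [IsAdicComplete (maximalIdeal O) O] [Finite (ResidueField O)] [CharZero O]
  {R A V : Type} [CommRing R] [Algebra O R] [CommRing A] [Algebra O A] [Algebra R A]
  [IsScalarTower O R A] [Module.Finite O A] [IsReduced A] [AddCommGroup V] [Module R V] {d : ℕ}

/-- **An element vanishing at the points with eigenvector in `Y` kills `Y`.** -/
theorem apply_eq_zero_of_points (b : Module.Basis (Fin d) R V) (θ : A →ₐ[R] Module.End R V)
    (Y : Submodule R V) (hY : ∀ x, ∀ y ∈ Y, θ x y ∈ Y)
    (hsep : ∀ r : R, (∀ φ : R →ₐ[O] AlgebraicClosure (FractionRing O), φ r = 0) → r = 0) (a : A)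
    (hpt : ∀ (E' : RepTheory.FiniteDVRExt O) (ψ : A →ₐ[O] E'.R) (v : Fin d → E'.R), v ≠ 0 →
      v ∈ Submodule.span E'.R
        ((fun y i => ψ (algebraMap R A (b.repr y i))) '' (Y : Set V)) →
      (∀ x, (LinearMap.toMatrixAlgEquiv b (θ x)).map
          ((ψ : A →+* E'.R).comp (algebraMap R A)) *ᵥ v = ψ x • v) →
      ψ a = 0)
    (y : V) (hy : y ∈ Y) : θ a y = 0 := by
  classical
  refine b.repr.map_eq_zero_iff.mp (Finsupp.ext fun i => hsep _ fun φ => ?_)
  let K := AlgebraicClosure (FractionRing O)
  let Θ : A →+* Module.End K (Fin d → K) :=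
    (Matrix.toLinAlgEquiv' (R := K)).toRingEquiv.toRingHom.comp
      ((φ : R →+* K).mapMatrix.comp
        ((LinearMap.toMatrixAlgEquiv b).toRingEquiv.toRingHom.comp θ.toRingHom))
  let co : V → Fin d → K := fun u j => φ (b.repr u j)
  have hΘ : ∀ x u, Θ x (co u) = co (θ x u) := fun x u => by
    show (LinearMap.toMatrixAlgEquiv b (θ x)).map φ *ᵥ (fun j => φ (b.repr u j)) = _
    funext j
    have h : (LinearMap.toMatrixAlgEquiv b (θ x) *ᵥ ⇑(b.repr u)) j = b.repr (θ x u) j :=
      congrFun (LinearMap.toMatrix_mulVec_repr b b (θ x) u) j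
    show _ = φ (b.repr (θ x u) j)
    rw [← h]
    exact (RingHom.map_mulVec (φ : R →+* K) _ _ j).symm
  let W : Submodule K (Fin d → K) := Submodule.span K (co '' Y)
  have hW : ∀ x, ∀ w ∈ W, Θ x w ∈ W := by
    intro x w hw
    refine (Submodule.map_span_le (Θ x) _ W).mpr ?_ ⟨w, hw, rfl⟩
    rintro _ ⟨u, hu, rfl⟩
    rw [hΘ]
    exact Submodule.subset_span ⟨_, hY x u hu, rfl⟩
  let ΘW : A →+* Module.End K W :=
    { toFun := fun x => (Θ x).restrict (hW x)
      map_one' := LinearMap.ext fun w => Subtype.ext (LinearMap.congr_fun (map_one Θ) w.1)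
      map_mul' := fun x x' => LinearMap.ext fun w =>
        Subtype.ext (LinearMap.congr_fun (map_mul Θ x x') w.1)
      map_zero' := LinearMap.ext fun w => Subtype.ext (LinearMap.congr_fun (map_zero Θ) w.1)
      map_add' := fun x x' => LinearMap.ext fun w =>
        Subtype.ext (LinearMap.congr_fun (map_add Θ x x') w.1) }
  by_cases hnil : IsNilpotent (ΘW a)
  · -- a power of `a` is zero on the fibre
    obtain ⟨k, hk⟩ := hnil
    obtain ⟨c, hc, b', hb'⟩ := exists_smul_eq_sq_mul (O := O) a
    have h1 : Θ (c ^ k • a) (co y) = 0 := by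
      rw [pow_smul_eq_pow_mul hb' k, pow_succ, mul_assoc, map_mul, Module.End.mul_apply,
        hΘ (a * b' ^ k) y]
      have hmem : co (θ (a * b' ^ k) y) ∈ W := Submodule.subset_span ⟨_, hY _ y hy, rfl⟩
      have h2 := LinearMap.congr_fun hk ⟨_, hmem⟩
      rw [← map_pow] at h2
      exact congrArg Subtype.val h2
    have h2 : co (θ (c ^ k • a) y) i = algebraMap O K (c ^ k) * co (θ a y) i := by
      show φ (b.repr (θ (c ^ k • a) y) i) = _
      rw [IsScalarTower.algebraMap_smul R (c ^ k) a |>.symm, map_smul, LinearMap.smul_apply,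
        map_smul, Finsupp.smul_apply, smul_eq_mul, map_mul, φ.commutes]
    rw [hΘ] at h1
    rw [h1] at h2
    refine (mul_eq_zero.mp h2.symm).resolve_left fun h => pow_ne_zero k hc ?_
    exact RepTheory.algebraMap_algClosure_injective O (h.trans (map_zero _).symm)
  · -- a common eigenvector
    exfalso
    obtain ⟨ψ₀, ⟨z, hzW⟩, hz, hψa, heig⟩ := exists_common_eigen ΘW a hnil
    have heig' : ∀ x, (LinearMap.toMatrixAlgEquiv b (θ x)).map φ *ᵥ z = ψ₀ x • z := fun x =>
      congrArg Subtype.val (heig x)
    have hz' : z ≠ 0 := fun h => hz (Subtype.ext h)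
    have hψR : ∀ r, ψ₀ (algebraMap R A r) = φ r := by
      intro r
      refine smul_left_injective K hz' ?_
      show ψ₀ _ • z = φ r • z
      rw [← heig', AlgHom.commutes, Module.algebraMap_end_eq_smul_id]
      rw [show (r • LinearMap.id : Module.End R V) = r • 1 from rfl, map_smul, map_one]
      funext j
      simp [Matrix.mulVec, dotProduct, Matrix.one_apply, apply_ite φ]
    let ψ₁ : A →ₐ[O] K :=
      { ψ₀ with
        commutes' := fun c => by
          show ψ₀ (algebraMap O A c) = algebraMap O K c
          rw [IsScalarTower.algebraMap_apply O R A, hψR, φ.commutes] }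
    obtain ⟨s0, hs0⟩ := Module.Finite.fg_top (R := O) (M := A)
    obtain ⟨E', ι, hι, hE⟩ := RepTheory.exists_finiteDVRExt_subset O (ψ₁ '' s0)
      (s0.finite_toSet.image _) (by
        rintro _ ⟨r, -, rfl⟩
        exact (Algebra.IsIntegral.isIntegral r).map ψ₁)
    have hrange : ∀ x, ψ₁ x ∈ ι.range := by
      intro x
      have hx : x ∈ Submodule.span O (s0 : Set A) := by rw [hs0]; trivial
      induction hx using Submodule.span_induction with
      | mem u hu => exact hE _ ⟨u, hu, rfl⟩
      | zero => rw [map_zero]; exact zero_mem _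
      | add u u' _ _ hu hu' => rw [map_add]; exact add_mem hu hu'
      | smul c u _ hu => rw [map_smul]; exact Subalgebra.smul_mem _ hu c
    let ψ : A →ₐ[O] E'.R :=
      (AlgEquiv.ofInjective ι hι).symm.toAlgHom.comp (ψ₁.codRestrict ι.range hrange)
    have hιψ : ∀ x, ι (ψ x) = ψ₀ x := fun x =>
      congrArg Subtype.val ((AlgEquiv.ofInjective ι hι).apply_symm_apply _)
    let L := FractionRing E'.R
    let ιL : L →+* K := IsFractionRing.lift (A := E'.R) (g := (ι : E'.R →+* K)) hι
    letI : Algebra L K := ιL.toAlgebra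
    have hιL : ∀ u : E'.R, algebraMap L K (algebraMap E'.R L u) = ι u := fun u =>
      IsFractionRing.lift_algebraMap (g := (ι : E'.R →+* K)) hι u
    obtain ⟨j₀, hj₀⟩ : ∃ j, z j ≠ 0 := Function.ne_iff.mp hz'
    obtain ⟨lam, hlam⟩ : ∃ lam : K →ₗ[L] L, lam (z j₀) ≠ 0 :=
      not_forall.1 fun h => hj₀ ((Module.forall_dual_apply_eq_zero_iff L _).1 h)
    let S : Set (Fin d → E'.R) := (fun u j => ψ (algebraMap R A (b.repr u j))) '' Y
    have hzS : z ∈ Submodule.span K ((fun v j => algebraMap L K (v j)) ''
        ((fun v j => algebraMap E'.R L (v j)) '' S)) := by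
      refine Submodule.span_mono ?_ hzW
      rintro _ ⟨u, hu, rfl⟩
      refine ⟨_, ⟨_, ⟨u, hu, rfl⟩, rfl⟩, funext fun j => ?_⟩
      show algebraMap L K (algebraMap E'.R L (ψ (algebraMap R A (b.repr u j)))) = φ (b.repr u j)
      rw [hιL, hιψ, hψR]
    obtain ⟨v, hvS, c, hc, hv⟩ := exists_integral_mem_span S (comp_mem_span _ hzS lam)
    have hinj := IsFractionRing.injective E'.R L
    refine hψa ?_
    rw [← hιψ, hpt E' ψ v (fun h => ?_) hvS (fun x => funext fun i' => hinj ?_), map_zero]
    · have := hv j₀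
      rw [h, Pi.zero_apply, map_zero] at this
      exact (mul_ne_zero ((map_ne_zero_iff _ hinj).mpr hc) hlam) this.symm
    · have h := congrArg lam (congrFun (heig' x) i')
      simp only [Matrix.mulVec, dotProduct, Matrix.map_apply, Pi.smul_apply, smul_eq_mul,
        map_sum] at h ⊢
      have hM : ∀ r : R, φ r = algebraMap L K (algebraMap E'.R L (ψ (algebraMap R A r))) :=
        fun r => by rw [hιL, hιψ, hψR]
      have hl : ∀ (u : L) (w : K), lam (algebraMap L K u * w) = u * lam w := fun u w => by
        rw [← Algebra.smul_def, map_smul, smul_eq_mul]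
      rw [← hιψ, ← hιL, hl] at h
      simp only [hM, hl] at h
      simp only [RingHom.comp_apply, RingHom.coe_coe, map_mul, hv]
      rw [mul_left_comm, ← h, Finset.mul_sum]
      exact Finset.sum_congr rfl fun t _ => mul_left_comm _ _ _

end descend

end FLTA.RT

end
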