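import Fermat.Agent.RT.Main.ModulesPointStrictTwist
import Fermat.Agent.RT.PointVector
import Fermat.Agent.RT.Diamond.IntegralEigen

/-!
# The classical homomorphism of a new eigenvector

A vector at a point of a level module, in the span of classes killed by both corestrictions at
`p`, gives a class with the same property over the fraction field, hence after undoing the twist
an eigen homomorphism of some `Γ₀(K p)` with zero traces to level `K`.
-/

set_option autoImplicit false
set_option linter.style.haveILetI false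
set_option linter.unusedSectionVars false
set_option maxHeartbeats 1600000
set_option synthInstance.maxHeartbeats 400000

noncomputable section

open CongruenceSubgroup IsLocalRing
open scoped MatrixGroups Matrix

namespace FLTA.RT

open FLTA.Periods FLTA.LevelRaising

universe u

/-- Transfers commute with a change of the coefficient ring. -/
theorem tH1Base_op {L L' : ℕ} {R R' : Type u} [CommRing R] [CommRing R'] {G : Type*} [Group G]
    {e : Gamma0 L →* G} {e' : Gamma0 L' →* G} {χ : (ZMod L)ˣ →* Rˣ} {χ' : (ZMod L')ˣ →* Rˣ}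
    (φ : R →+* R') {ι : Type*} [Fintype ι] (S : TSys e e' (gamChar χ) (gamChar χ') ι)
    (S' : TSys e e' (gamChar (charMap φ χ)) (gamChar (charMap φ χ')) ι)
    (hco : ∀ γ i, S'.cocyc γ i = S.cocyc γ i) (hw : ∀ i, (S'.w i : R') = φ (S.w i))
    {V : Type u} [AddCommGroup V] [Module R V] [Module R' V]
    (hφ : ∀ (r : R) (v : V), r • v = φ r • v) (x : tH1 (gamChar χ') V) :
    tH1Base φ χ hφ (S.op V x) = S'.op V (tH1Base φ χ' hφ x) := by
  obtain ⟨f, rfl⟩ := tClass_surjective (gamChar χ') x
  rw [TSys.op_class, tH1Base_class, tH1Base_class, TSys.op_class]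
  congr 1
  refine Subtype.ext (funext fun γ => ?_)
  simp only [tCocyclesBase_apply, TSys.opZ_apply, hco, hw, hφ]

/-- The corestrictions commute with a change of the coefficient ring. -/
theorem tH1Base_degDown {N q : ℕ} [NeZero N] [NeZero q]
    [((Gamma0 (N * q)).subgroupOf (Gamma0 N)).FiniteIndex] {R R' : Type u} [CommRing R]
    [CommRing R'] (φ : R →+* R') (h : Nat.Coprime q N) (χ : (ZMod N)ˣ →* Rˣ) {V : Type u}
    [AddCommGroup V] [Module R V] [Module R' V] (hφ : ∀ (r : R) (v : V), r • v = φ r • v)
    (i : Fin 2) (x : tH1 (gamChar (chiUp χ q)) V) :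
    tH1Base φ χ hφ (degDown h χ V i x) =
      degDown h (charMap φ χ) V i (tH1Base φ (chiUp χ q) hφ x) := by
  have hcor : ∀ y, tH1Base φ χ hφ ((corSys χ).op V y) =
      (corSys (charMap φ χ)).op V (tH1Base φ (chiUp χ q) hφ y) :=
    tH1Base_op φ (corSys χ) (corSys (charMap φ χ)) (fun _ _ => rfl) (fun _ => rfl) hφ
  fin_cases i
  · exact hcor x
  · show tH1Base φ χ hφ ((corSys χ).op V ((alSys χ h).op V x)) = _
    rw [hcor]
    exact congrArg ((corSys (charMap φ χ)).op V)
      (tH1Base_op φ (alSys χ h) (alSys (charMap φ χ) h) (fun _ _ => rfl)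
        (fun _ => (map_one φ).symm) hφ x)

/-- An eigen relation over the fraction field, up to naming of the character. -/
theorem smul_natHecke_toFieldClass {B K : Type} [CommRing B] [IsDomain B] [Field K] [Algebra B K]
    [IsFractionRing B K] {N : ℕ} [NeZero N] (χ : (ZMod N)ˣ →* Bˣ) {χ' : (ZMod N)ˣ →* Kˣ}
    (h : charMap (algebraMap B K) χ = χ') (l : ℕ) (x : tH1 (gamChar χ) B) (a c : B)
    (hx : a • (natHecke χ l).app B x = c • x) (a' : K) (ha : a' = algebraMap B K a) :
    a' • (natHecke χ' l).app K (tH1Cast (V := K) h (Diamond.toFieldClass χ x)) =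
      algebraMap B K c • tH1Cast (V := K) h (Diamond.toFieldClass χ x) := by
  subst h
  subst ha
  show algebraMap B K a • (natHecke (charMap (algebraMap B K) χ) l).app K
    (Diamond.toFieldClass χ x) = algebraMap B K c • Diamond.toFieldClass χ x
  rw [← Diamond.toFieldClass_natHecke, ← Diamond.toFieldClass_smul, hx,
    Diamond.toFieldClass_smul]

variable {p : ℕ} [Fact p.Prime] [NeZero p]

section bridge

variable {R B : Type} [CommRing R] [CommRing B] [IsDomain B] [CharZero B] [Algebra R B]
  {L L' : ℕ} [NeZero L] [NeZero L'] [NeZero (L * p)]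
  [((Gamma0 (L * p)).subgroupOf (Gamma0 L)).FiniteIndex] (hL : L' = L * p) (hpL : Nat.Coprime p L)
  (Q : Finset ℕ) (ε : ∀ r : ℕ, (ZMod r)ˣ →* Rˣ) (hQ : ∀ r ∈ Q, r.Prime ∧ r ∣ L ∧ ¬ r * r ∣ L)
  (hodd : ∀ r ∈ Q, ∀ u, ∃ m, Odd m ∧ ε r u ^ m = 1)
  {e : NatEnd (gamChar (sigProd L' Q ε))} {d : ℕ}
  (b : Module.Basis (Fin d) R (eImage e R))

include hL hpL hQ hodd

/-- **The homomorphism of a new eigenvector.** -/
theorem exists_traceless_hom_of_span (Y : Set (eImage e R))
    (hY : ∀ y ∈ Y, ∀ y' : tH1 (gamChar (chiUp (sigProd L Q ε) p)) R,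
      HEq y' (y : tH1 (gamChar (sigProd L' Q ε)) R) →
      ∀ i, degDown hpL (sigProd L Q ε) R i y' = 0)
    (v : Fin d → B)
    (hv : v ∈ Submodule.span B ((fun y i => algebraMap R B (b.repr y i)) '' Y))
    (S : Set ℕ) (c : ℕ → B)
    (hnz : Diamond.toFieldClass (K := FractionRing B) (charMap (algebraMap R B) (sigProd L' Q ε))
      (vecClassBase (sigProd L' Q ε) b v) ≠ 0)
    (heig : ∀ l : ℕ, l.Prime → l ∈ S → ¬ l ∣ L' →
      algebraMap R B (kap Q ε l) •
          (natHecke (charMap (algebraMap R B) (sigProd L' Q ε)) l).app B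
            (vecClassBase (sigProd L' Q ε) b v) =
        c l • vecClassBase (sigProd L' Q ε) b v) :
    ∃ (N : ℕ) (_ : NeZero N) (_ : NeZero (N * p)) (hpN : Nat.Coprime p N),
      N ∣ L * (∏ r ∈ Q, r) ∧ ∃ u : Additive (Gamma0 (N * p)) →+ FractionRing B, u ≠ 0 ∧
        (∀ l : ℕ, l.Prime → l ∈ S → ¬ l ∣ L * p →
          heckeHom (FractionRing B) (N * p) l u = algebraMap B (FractionRing B) (c l) • u) ∧
        ∀ (bl : Bool) (γ : Gamma0 N), ∑ i, u (Additive.ofMul
          (Disc.transCocyc hpN dvd_rfl (Disc.isTrans_sideTrans (q := p) hpN bl) γ i)) = 0 := by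
  classical
  subst hL
  let K := FractionRing B
  let ι : B →+* K := algebraMap B K
  haveI : CharZero K := charZero_of_injective_ringHom (IsFractionRing.injective B K)
  set χ₀ : (ZMod L)ˣ →* Rˣ := sigProd L Q ε with hχ₀
  have hsig : chiUp χ₀ p = sigProd (L * p) Q ε := by
    refine MonoidHom.ext fun x => ?_
    show sigProd L Q ε (ZMod.unitsMap (dvd_mul_right L p) x) = _
    rw [sigProd_apply, sigProd_apply]
    exact Finset.prod_congr rfl fun r hr => by rw [sigChar_unitsMap _ (hQ r hr).2.1]
  revert e
  rw [← hsig]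
  intro e b Y hv hnz heig hY
  -- every combination of `Y` is killed by the corestrictions
  have hkill : ∀ (W : Type) [AddCommGroup W] [Module R W] (g : B →ₗ[R] W) (i : Fin 2),
      degDown hpL χ₀ W i (tH1Map _ g (vecClass b v)) = 0 := by
    clear hnz heig
    induction hv using Submodule.span_induction with
    | mem w hw =>
      obtain ⟨y, hy, rfl⟩ := hw
      intro W _ _ g i
      have h1 : vecClass b (fun i => algebraMap R B (b.repr y i)) =
          tH1Map _ (LinearMap.toSpanSingleton R B 1) (y : tH1 (gamChar (chiUp χ₀ p)) R) := by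
        conv_rhs => rw [← b.sum_repr y, AddSubmonoidClass.coe_finsetSum, map_sum]
        refine Finset.sum_congr rfl fun j _ => ?_
        rw [Submodule.coe_smul, map_smul, ← tH1Map_smul]
        congr 1
        exact congrArg (tH1Map _) (LinearMap.ext_ring (by simp [Algebra.smul_def]))
      rw [degDown_natural, h1, degDown_natural, hY y hy _ HEq.rfl i, map_zero, map_zero]
    | zero =>
      intro W _ _ g i
      rw [show vecClass b (0 : Fin d → B) = 0 from Finset.sum_eq_zero fun j _ => by
        rw [Pi.zero_apply, LinearMap.toSpanSingleton_zero, tH1Map_zero], map_zero, map_zero]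
    | add x z _ _ hx hz =>
      intro W _ _ g i
      have h1 : vecClass b (x + z) = vecClass b x + vecClass b z := by
        rw [vecClass, vecClass, vecClass, ← Finset.sum_add_distrib]
        refine Finset.sum_congr rfl fun j _ => ?_
        rw [← tH1Map_add]
        congr 1
        exact congrArg (tH1Map _) (LinearMap.ext_ring (by simp))
      rw [h1, map_add, map_add, hx W g i, hz W g i, add_zero]
    | smul q x _ hx =>
      intro W _ _ g i
      have h1 : vecClass b (q • x) = tH1Map _ (LinearMap.mulLeft R q) (vecClass b x) :=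
        (map_vecClass b (LinearMap.mulLeft R q) x).symm
      rw [h1, ← tH1Map_comp]
      exact hx W _ i
  -- the class over the fraction field
  set χB : (ZMod L)ˣ →* Bˣ := charMap (algebraMap R B) χ₀
  set χK : (ZMod L)ˣ →* Kˣ := charMap ι χB
  set z : tH1 (gamChar (chiUp χK p)) K := Diamond.toFieldClass (K := K) (chiUp χB p)
    (vecClassBase (chiUp χ₀ p) b v)
  have hdeg : ∀ i, degDown hpL χK K i z = 0 := by
    intro i
    show degDown hpL χK K i (tH1Base ι (chiUp χB p) (fun r w => Algebra.smul_def r w)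
      (tH1Map _ (Algebra.linearMap B K) (vecClassBase (chiUp χ₀ p) b v))) = 0
    rw [show vecClassBase (chiUp χ₀ p) b v =
      tH1Base (algebraMap R B) (chiUp χ₀ p) (fun a w => Algebra.smul_def a w) (vecClass b v)
      from rfl]
    have h0 : degDown hpL χB B i (tH1Base (algebraMap R B) (chiUp χ₀ p)
        (fun a w => Algebra.smul_def a w) (vecClass b v)) = 0 := by
      have h := hkill B LinearMap.id i
      rw [tH1Map_id] at h
      rw [← tH1Base_degDown, h, map_zero]
    erw [← tH1Base_degDown ι hpL χB (fun r w => Algebra.smul_def r w), degDown_natural, h0,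
      map_zero, map_zero]
  have hodd' : ∀ r ∈ Q, charMap (ι.comp (algebraMap R B)) (ε r) ^ 2 = 1 →
      charMap (ι.comp (algebraMap R B)) (ε r) = 1 := fun r hr h => MonoidHom.ext fun w => by
    obtain ⟨m, ⟨k, rfl⟩, hm⟩ := hodd r hr w
    set a := charMap (ι.comp (algebraMap R B)) (ε r) w
    have h1 : a ^ (2 * k + 1) = 1 := by
      show Units.map _ (ε r w) ^ (2 * k + 1) = 1
      rw [← map_pow, hm, map_one]
    have h2 : a ^ 2 = 1 := DFunLike.congr_fun h w
    rwa [pow_succ, pow_mul, h2, one_pow, one_mul] at h1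
  obtain ⟨N, hN, hNp, hpN, hdvd, u, hu0, hu, htr⟩ := Disc.exists_realisation_traces (F := K)
    (p := p) Q L hpL (fun r => charMap (ι.comp (algebraMap R B)) (ε r)) hQ hodd' χK
    (by
      show charMap ι (charMap (algebraMap R B) (sigProd L Q ε)) = _
      rw [charMap_sigProd, charMap_sigProd]
      rfl) z hnz hdeg (fun l => ι (c l)) S fun l hl hlS hlL =>
      smul_natHecke_toFieldClass (K := K) (charMap (algebraMap R B) (chiUp χ₀ p))
        (χ' := chiUp χK p) rfl l (vecClassBase (chiUp χ₀ p) b v)
        (algebraMap R B (kap Q ε l)) (c l) (heig l hl hlS hlL) _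
        (coe_kap_charMap (ι.comp (algebraMap R B)) Q ε l)
  exact ⟨N, hN, hNp, hpN, hdvd, u, hu0, hu, htr⟩

end bridge

end FLTA.RT

end
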