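import Fermat.Agent.RT.LocalExtra

/-!
# The relations at a raising site

At a prime `q ≠ p` where a representation over a domain of characteristic zero with cyclotomic
determinant is unipotent on inertia, a tame generator `1 + N` and a Frobenius lift `P` satisfy
`(t ^ 2 - (q + 1) ^ 2) N = 0`, and on the side of the sign `s` also `N P = s N`, `P N = s q N`.
In a basis `e, P e` this makes `N` a multiple of a constant matrix.
-/

set_option autoImplicit false

open scoped Pointwise

noncomputable section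

namespace FLTA.RT.LocalGalois

open Matrix IsLocalRing

local notation "Mat[" R "]" => Matrix (Fin 2) (Fin 2) R
local notation "Qbar" => AlgebraicClosure ℚ
local notation "Γ" => AlgebraicClosure ℚ ≃ₐ[ℚ] AlgebraicClosure ℚ

section Matrices

variable {R : Type} [CommRing R] {P T : Mat[R]} {q : ℕ} {t : R}

/-- Cayley–Hamilton in size two. -/
lemma mul_self_eq_smul_sub (M : Mat[R]) : M * M = M.trace • M - M.det • 1 := by
  ext i j
  fin_cases i <;> fin_cases j <;>
    simp [mul_apply, Fin.sum_univ_two, trace_fin_two, det_fin_two] <;> ring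

lemma sub_one_mul_self (htr : T.trace = 2) (hdet : T.det = 1) : (T - 1) * (T - 1) = 0 := by
  rw [sub_mul, mul_sub, mul_sub, mul_self_eq_smul_sub, htr, hdet, one_smul, mul_one, one_mul,
    one_mul]
  module

/-- Powers of a unipotent matrix. -/
lemma pow_eq_one_add_smul (htr : T.trace = 2) (hdet : T.det = 1) (n : ℕ) :
    T ^ n = 1 + (n : R) • (T - 1) := by
  induction n with
  | zero => simp
  | succ n ih =>
    have h := sub_one_mul_self htr hdet
    rw [pow_succ, ih, add_mul, one_mul, Matrix.smul_mul,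
      show (T - 1) * T = T - 1 by
        calc (T - 1) * T = (T - 1) * (T - 1) + (T - 1) := by rw [mul_sub, mul_one, sub_add_cancel]
          _ = T - 1 := by rw [h, zero_add],
      Nat.cast_succ]
    module

/-- The tame relation for a unipotent generator. -/
lemma mul_sub_one_eq (htr : T.trace = 2) (hdet : T.det = 1) (hrel : P * T = T ^ q * P) :
    P * (T - 1) = (q : R) • ((T - 1) * P) := by
  rw [mul_sub, hrel, mul_one, pow_eq_one_add_smul htr hdet q, add_mul, one_mul, Matrix.smul_mul,
    add_sub_cancel_left]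

variable [IsDomain R] {N : Mat[R]}

/-- `t N P = (q + 1) N` when `P N = q N P` and `det P = q`. -/
lemma trace_smul_mul_eq (hq0 : (q : R) ≠ 0) (hq1 : (q : R) ≠ 1) (hP : P.det = (q : R))
    (hN : P * N = (q : R) • (N * P)) :
    P.trace • (N * P) = ((q : R) + 1) • N := by
  have hPP := mul_self_eq_smul_sub P
  rw [hP] at hPP
  have e1 : P * P * N = ((q : R) * (q : R)) • (N * (P * P)) := by
    rw [mul_assoc, hN, Matrix.mul_smul, ← mul_assoc, hN, Matrix.smul_mul, smul_smul, mul_assoc]
  rw [hPP, sub_mul, Matrix.smul_mul, hN, Matrix.smul_mul, one_mul, mul_sub, Matrix.mul_smul,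
    Matrix.mul_smul, mul_one] at e1
  have e2 : ((q : R) * ((q : R) - 1)) • (P.trace • (N * P) - ((q : R) + 1) • N) = 0 := by
    have := sub_eq_zero.mpr e1.symm
    linear_combination (norm := module) this
  exact sub_eq_zero.mp ((smul_eq_zero.mp e2).resolve_left (mul_ne_zero hq0 (sub_ne_zero.mpr hq1)))

/-- The trace of Frobenius is `±(q + 1)` unless the inertia is trivial. -/
lemma trace_sq_smul_eq_zero (hq0 : (q : R) ≠ 0) (hq1 : (q : R) ≠ 1) (hP : P.det = (q : R))
    (hN : P * N = (q : R) • (N * P)) : (P.trace ^ 2 - ((q : R) + 1) ^ 2) • N = 0 := by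
  have h := trace_smul_mul_eq hq0 hq1 hP hN
  have hPP := mul_self_eq_smul_sub P
  rw [hP] at hPP
  have h2 := congrArg (fun M => P.trace • (M * P)) h
  simp only [Matrix.smul_mul, mul_assoc, hPP, mul_sub, Matrix.mul_smul, mul_one] at h2
  have h3 := congrArg (fun M => ((q : R) + 1) • M) h
  have h4 := congrArg (fun M => (P.trace * P.trace) • M) h
  linear_combination (norm := module) h2 - h4 + h3

/-- On the side of the sign `s`: `N P = s N`, `P N = s q N` and `N (t - s (q + 1)) = 0`. -/
lemma sign_relations (hq0 : (q : R) ≠ 0) (hq1 : (q : R) ≠ 1) (hq2 : (q : R) + 1 ≠ 0)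
    (hP : P.det = (q : R)) (hN : P * N = (q : R) • (N * P)) {s : R} (hs : s * s = 1)
    (hside : P.trace + s * ((q : R) + 1) ≠ 0) :
    (P.trace - s * ((q : R) + 1)) • N = 0 ∧ N * P = s • N ∧ P * N = (s * (q : R)) • N := by
  have h := trace_sq_smul_eq_zero hq0 hq1 hP hN
  have e : P.trace ^ 2 - ((q : R) + 1) ^ 2 =
      (P.trace + s * ((q : R) + 1)) * (P.trace - s * ((q : R) + 1)) := by
    linear_combination ((q : R) + 1) ^ 2 * hs
  rw [e, mul_smul] at h
  have h1 := (smul_eq_zero.mp h).resolve_left hside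
  have h3 : (P.trace - s * ((q : R) + 1)) • (N * P) = 0 := by
    rw [← Matrix.smul_mul, h1, zero_mul]
  have h2 := trace_smul_mul_eq hq0 hq1 hP hN
  have hNP : N * P = s • N := by
    have e2 : (s * ((q : R) + 1)) • (N * P - s • N) = 0 := by
      rw [smul_sub, smul_smul, show s * ((q : R) + 1) * s = (q : R) + 1 by
        linear_combination ((q : R) + 1) * hs]
      linear_combination (norm := module) h2 - h3
    refine sub_eq_zero.mp ((smul_eq_zero.mp e2).resolve_left ?_)
    exact mul_ne_zero (left_ne_zero_of_mul_eq_one hs) hq2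
  refine ⟨h1, hNP, ?_⟩
  rw [hN, hNP, smul_smul, mul_comm]

omit [IsDomain R] in
/-- In a basis `e, P e` the inertia matrix on the side of `s` is one constant matrix scaled. -/
lemma eq_smul_of_companion {s d : R} (hs : s * s = 1) (hP0 : P 0 0 = 0) (hP1 : P 1 0 = 1)
    (hP2 : P 0 1 = -d) (htr : N.trace = 0) (hNP : N * P = s • N) :
    N = N 1 0 • !![-s, -1; 1, s] := by
  have h00 := congrFun (congrFun hNP 0) 0
  have h10 := congrFun (congrFun hNP 1) 0
  simp [mul_apply, Fin.sum_univ_two, hP0, hP1] at h00 h10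
  rw [trace_fin_two] at htr
  ext i j
  fin_cases i <;> fin_cases j <;> simp
  · linear_combination htr - h10
  · linear_combination h00 + s * htr - s * h10 - N 1 0 * hs
  · exact h10.trans (mul_comm _ _)

omit [IsDomain R] in
/-- A matrix which is not scalar modulo the maximal ideal has a cyclic vector. -/
lemma exists_isUnit_cyclic [IsLocalRing R] (M : Mat[R])
    (h : ∀ c : R, ∃ i j, (M - c • 1) i j ∉ maximalIdeal R) :
    ∃ a b : R, IsUnit (a * (M 1 0 * a + M 1 1 * b) - b * (M 0 0 * a + M 0 1 * b)) := by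
  by_contra hcon
  push Not at hcon
  have h10 := (mem_maximalIdeal _).mpr (hcon 1 0)
  have h01 := (mem_maximalIdeal _).mpr (hcon 0 1)
  have h11 := (mem_maximalIdeal _).mpr (hcon 1 1)
  simp at h10 h01
  simp only [one_mul, mul_one] at h11
  have hd : M 1 1 - M 0 0 ∈ maximalIdeal R := by
    rw [show M 1 1 - M 0 0 = (M 1 0 + M 1 1 - (M 0 0 + M 0 1)) - M 1 0 + M 0 1 by ring]
    exact add_mem (sub_mem h11 ((mem_maximalIdeal _).mpr h10)) ((mem_maximalIdeal _).mpr h01)
  obtain ⟨i, j, hij⟩ := h (M 0 0)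
  refine hij ?_
  fin_cases i <;> fin_cases j <;> simp [h10, h01]
  simpa using hd

end Matrices

section Rep

variable {R : Type} [CommRing R] [IsLocalRing R] [IsNoetherianRing R] [IsDomain R]
  (r : GaloisRepAdic R) {A : ValuationSubring Qbar} {p q : ℕ} {τ : Γ}

omit [IsNoetherianRing R] [IsDomain R] in
/-- A basis `e, ρ(Φ) e` when `ρ(Φ)` is not scalar modulo the maximal ideal. -/
theorem exists_adapted_basis (b₀ : Module.Basis (Fin 2) R r.V) (Φ : Γ)
    (h : ∀ c : R, ∃ i j, (LinearMap.toMatrix b₀ b₀ (r.ρ Φ) - c • 1) i j ∉ maximalIdeal R) :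
    ∃ b : Module.Basis (Fin 2) R r.V, LinearMap.toMatrix b b (r.ρ Φ) =
      !![0, -LinearMap.det (r.ρ Φ); 1, r.trace Φ] := by
  set M := LinearMap.toMatrix b₀ b₀ (r.ρ Φ) with hM
  obtain ⟨x, y, hu⟩ := exists_isUnit_cyclic M h
  set e := x • b₀ 0 + y • b₀ 1 with he
  have hrepr : ∀ i, b₀.repr (r.ρ Φ e) i = M i 0 * x + M i 1 * y := fun i => by
    simp [he, hM, LinearMap.toMatrix_apply, mul_comm]
  have hdet : IsUnit (b₀.det ![e, r.ρ Φ e]) := by
    rw [Module.Basis.det_apply, det_fin_two]
    simp only [Module.Basis.toMatrix_apply, Matrix.cons_val_zero, Matrix.cons_val_one, hrepr]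
    simpa [he, mul_comm] using hu
  obtain ⟨hli, hsp⟩ := (Module.Basis.is_basis_iff_det b₀).mpr hdet
  refine ⟨Module.Basis.mk hli hsp.ge, ?_⟩
  set b := Module.Basis.mk hli hsp.ge with hb
  have hb0 : b 0 = e := by simp [hb]
  have hb1 : b 1 = r.ρ Φ e := by simp [hb]
  have e00 : LinearMap.toMatrix b b (r.ρ Φ) 0 0 = 0 := by
    rw [LinearMap.toMatrix_apply, hb0, ← hb1, Module.Basis.repr_self]
    simp
  have e10 : LinearMap.toMatrix b b (r.ρ Φ) 1 0 = 1 := by
    rw [LinearMap.toMatrix_apply, hb0, ← hb1, Module.Basis.repr_self]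
    simp
  have hd := (LinearMap.det_toMatrix b (r.ρ Φ))
  have ht : (LinearMap.toMatrix b b (r.ρ Φ)).trace = r.trace Φ :=
    (LinearMap.trace_eq_matrix_trace R b _).symm
  rw [det_fin_two, e00, e10, zero_mul, mul_one, zero_sub, neg_eq_iff_eq_neg] at hd
  rw [trace_fin_two, e00, zero_add] at ht
  ext i j
  fin_cases i <;> fin_cases j
  · exact e00
  · exact hd
  · exact e10
  · exact ht

omit [IsNoetherianRing R] [IsDomain R] in
/-- Unipotent inertia is residually of `p`-power order. -/
theorem inertia_residual_of_unipotent (hpR : (p : R) ∈ maximalIdeal R)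
    (hun : r.IsUnipotentOnInertiaAt q) (hA : A.LiesOverPrime q) :
    ∀ σ ∈ A.inertiaSubgroupIn ℚ, ∃ j : ℕ, ∀ v : r.V, (r.ρ σ ^ p ^ j) v - v ∈
      (maximalIdeal R ^ 1 • ⊤ : Submodule R r.V) := fun σ hσ => ⟨1, fun v => by
  have h := LinearMap.aeval_self_charpoly (r.ρ σ)
  rw [hun A hA σ hσ, map_pow, map_sub, Polynomial.aeval_X, map_one] at h
  have hpow : ∀ n : ℕ, r.ρ σ ^ n = 1 + n • (r.ρ σ - 1) := fun n => by
    induction n with
    | zero => simp
    | succ n ih =>
      have h1 : r.ρ σ * r.ρ σ = 2 • r.ρ σ - 1 := by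
        rw [sq, sub_mul, mul_sub, mul_one, one_mul] at h
        linear_combination (norm := abel) h
      rw [pow_succ, ih, add_mul, one_mul, smul_mul_assoc, sub_mul, one_mul, h1, add_nsmul, one_nsmul]
      abel
  rw [pow_one, hpow, LinearMap.add_apply, Module.End.one_apply, add_sub_cancel_left,
    LinearMap.smul_apply, ← Nat.cast_smul_eq_nsmul R, pow_one]
  exact Submodule.smul_mem_smul hpR Submodule.mem_top⟩

variable [CharZero R]

/-- **The relations at a raising site**, in any basis. -/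
theorem site_unipotent_relations (hdet : r.DetIsCyclotomic p) (hq : q.Prime) (hp : p.Prime)
    (hpq : p ≠ q) (hA : A.LiesOverPrime q) (hτ : IsTameGenerator A q p τ)
    {Φ : Γ} (hΦ : A.IsFrobeniusAt Φ q) (hun : r.IsUnipotentOnInertiaAt q)
    (b : Module.Basis (Fin 2) R r.V) :
    let T := LinearMap.toMatrix b b (r.ρ τ)
    let P := LinearMap.toMatrix b b (r.ρ Φ)
    T.trace = 2 ∧ T.det = 1 ∧ P.det = (q : R) ∧ P * (T - 1) = (q : R) • ((T - 1) * P) ∧
      (P.trace ^ 2 - ((q : R) + 1) ^ 2) • (T - 1) = 0 ∧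
      ∀ s : R, s * s = 1 → P.trace + s * ((q : R) + 1) ≠ 0 →
        (P.trace - s * ((q : R) + 1)) • (T - 1) = 0 ∧ (T - 1) * P = s • (T - 1) ∧
          P * (T - 1) = (s * (q : R)) • (T - 1) := by
  intro T P
  have hdetT : T.det = 1 := by
    rw [LinearMap.det_toMatrix]
    exact det_inertia_eq_one r hdet hq hp hpq hA hτ.1
  have hdetP : P.det = (q : R) := by
    rw [LinearMap.det_toMatrix]
    exact det_frobenius_eq r hdet hq hp hpq hA hΦ
  have htrT : T.trace = 2 := by
    have h := hun A hA τ hτ.1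
    rw [← LinearMap.charpoly_toMatrix (r.ρ τ) b, Matrix.charpoly_fin_two] at h
    have h1 := congrArg (fun f => Polynomial.coeff f 1) h
    rw [show (Polynomial.X - 1 : Polynomial R) ^ 2 =
      Polynomial.X ^ 2 - Polynomial.C 2 * Polynomial.X + Polynomial.C 1 by
        rw [map_ofNat, map_one]; ring] at h1
    simpa [Polynomial.coeff_one] using h1
  have hrel : P * T = T ^ q * P := by
    have h := congrArg (LinearMap.toMatrixAlgEquiv b) (adic_tame_relation r.ρ hq hA hp hpq hτ
      r.isAdicContinuous hdet.1 (inertia_residual_of_unipotent r hdet.1 hun hA) hΦ)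
    rw [map_mul, map_mul, map_pow] at h
    exact h
  have hN := mul_sub_one_eq htrT hdetT hrel
  have hq0 : (q : R) ≠ 0 := Nat.cast_ne_zero.mpr hq.ne_zero
  have hq1 : (q : R) ≠ 1 := fun h => hq.ne_one (Nat.cast_eq_one.mp h)
  have hq2 : (q : R) + 1 ≠ 0 := by
    rw [← Nat.cast_add_one]; exact Nat.cast_ne_zero.mpr (Nat.succ_ne_zero q)
  exact ⟨htrT, hdetT, hdetP, hN, trace_sq_smul_eq_zero hq0 hq1 hdetP hN,
    fun s hs hside => sign_relations hq0 hq1 hq2 hdetP hN hs hside⟩

end Rep

end FLTA.RT.LocalGalois
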