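import Fermat.Agent.RT.RaiseChain

/-!
# The limit of the maps to the bottom ring

Each level comes with a map `π n : P₀ → R` to the deformation ring of the bottom level.  Along the
patching ultrafilter they have a limit `limMap π`; it is surjective if all `π n` are, preserves
closed conditions and computes the patched module modulo the augmentation ideal.
-/

set_option autoImplicit false
set_option linter.style.haveILetI false

noncomputable section

namespace FLTA.RT

open IsLocalRing FLTA.Patching FLTA.Patching.LevelSystem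

section Map

variable {R : Type} [CommRing R] [IsLocalRing R] [IsAdicComplete (maximalIdeal R) R]
  (hR : ∀ N, Finite (R ⧸ maximalIdeal R ^ N)) {P₀ : Type} [CommRing P₀] (π : ℕ → P₀ →+* R)

/-- The maps `π n` as a level system of rank one. -/
def mapSystem : LevelSystem R P₀ 1 where
  J n := maximalIdeal R ^ n
  J_le _ := le_rfl
  rep n := (Matrix.scalar (Fin 1)).comp ((Ideal.Quotient.mk (maximalIdeal R ^ n)).comp (π n))

omit [IsAdicComplete (maximalIdeal R) R] in
lemma mapSystem_rep_apply (n : ℕ) (f : P₀) :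
    Ideal.Quotient.mk ((mapSystem π).J n) (π n f) = (mapSystem π).rep n f 0 0 := by
  show _ = Matrix.scalar (Fin 1) (Ideal.Quotient.mk (maximalIdeal R ^ n) (π n f)) 0 0
  rw [Matrix.scalar_apply, Matrix.diagonal_apply_eq]
  rfl

/-- The limit of the maps `π n`. -/
def limMap : P₀ →+* R where
  toFun f := (mapSystem π).patch hR f 0 0
  map_one' := by simp
  map_zero' := by simp
  map_add' f g := by simp
  map_mul' f g := by simp [Matrix.mul_apply]

lemma limMap_spec (f : P₀) (N : ℕ) : ∀ᶠ n in (patchFilter : Filter ℕ), N ≤ n ∧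
    π n f - limMap hR π f ∈ maximalIdeal R ^ N :=
  ((mapSystem π).patch_spec hR f N).mono fun n hn =>
    ⟨hn.1, hn.2 0 0 _ (mapSystem_rep_apply π n f)⟩

/-- Closed conditions holding at every level hold for the limit. -/
lemma limMap_mem [IsNoetherianRing R] {I : Ideal R} {f : P₀} (h : ∀ n, π n f ∈ I) :
    limMap hR π f ∈ I := by
  refine mem_of_forall_mem_sup_pow fun N => ?_
  obtain ⟨n, -, hn⟩ := (limMap_spec hR π f N).exists
  rw [show limMap hR π f = π n f - (π n f - limMap hR π f) by ring]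
  exact sub_mem (Ideal.mem_sup_left (h n)) (Ideal.mem_sup_right hn)

/-- The limit of surjections is surjective. -/
theorem limMap_surjective [IsLocalRing P₀] [IsAdicComplete (maximalIdeal P₀) P₀]
    (hP : ∀ N, Finite (P₀ ⧸ maximalIdeal P₀ ^ N)) (h : ∀ n, Function.Surjective (π n)) :
    Function.Surjective (limMap hR π) := by
  intro g
  obtain ⟨F, hF⟩ := (mapSystem π).exists_patch_eq hR hP (Matrix.scalar (Fin 1) g) fun n => by
    obtain ⟨f, hf⟩ := h n g
    refine ⟨f, ?_⟩
    ext a b
    fin_cases a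
    fin_cases b
    show Matrix.scalar (Fin 1) (Ideal.Quotient.mk (maximalIdeal R ^ n) (π n f)) 0 0 =
      Ideal.Quotient.mk (maximalIdeal R ^ n) (Matrix.scalar (Fin 1) g 0 0)
    rw [Matrix.scalar_apply, Matrix.scalar_apply, Matrix.diagonal_apply_eq,
      Matrix.diagonal_apply_eq, hf]
  exact ⟨F, by
    show (mapSystem π).patch hR F 0 0 = g
    rw [hF]
    simp⟩

end Map

section Bottom

variable {S P₀ R : Type} [CommRing S] [IsDomain S] [IsNoetherianRing S] [IsLocalRing S]
  [IsAdicComplete (maximalIdeal S) S] [CommRing P₀] [CommRing R] [IsLocalRing R]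
  [IsAdicComplete (maximalIdeal R) R] (hR : ∀ N, Finite (R ⧸ maximalIdeal R ^ N))
  (hfin : ∀ N, Finite (S ⧸ maximalIdeal S ^ N))
  {J : ℕ → Ideal S} (hJ : ∀ n, J n ≤ maximalIdeal S ^ n) {d : ℕ}
  (rep : ∀ n, P₀ →+* Matrix (Fin d) (Fin d) (S ⧸ J n))
  (π : ℕ → P₀ →+* R) {I : Ideal S} (act₀ : R →+* Matrix (Fin d) (Fin d) (S ⧸ I))

omit [IsDomain S] [IsNoetherianRing S] in
include hfin hJ in
/-- **Scalars.** With the structure map the limit of per-level lifts acting by scalars, `S` acts by
scalars in the limit. -/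
theorem actsByScalars_limMap [IsLocalRing P₀] [IsAdicComplete (maximalIdeal P₀) P₀]
    {S₀ : Type} [CommRing S₀] [Algebra S₀ S] [Algebra S₀ P₀]
    (hP : ∀ N, Finite (P₀ ⧸ maximalIdeal P₀ ^ N)) (φ : ℕ → S₀ →+* P₀)
    (halg : algebraMap S₀ P₀ = limMap hP φ)
    (hφ : ∀ n s, rep n (φ n s) =
      (Matrix.scalar (Fin d) (algebraMap S₀ S s)).map (Ideal.Quotient.mk (J n))) :
    ActsByScalars S₀ rep :=
  actsByScalars_of_approx hfin hJ rep (fun n => φ n) hφ fun s K =>
    (limMap_spec hP φ s K).mono fun n hn => halg ▸ hn.2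

omit [IsDomain S] [IsNoetherianRing S] [IsLocalRing S] [IsAdicComplete (maximalIdeal S) S] in
/-- The image of `I` under the limit of the lifts is killed by a point at the limit map. -/
theorem map_algebraMap_le_ker_limMap [IsNoetherianRing R] [IsLocalRing P₀]
    [IsAdicComplete (maximalIdeal P₀) P₀] {S₀ : Type} [CommRing S₀] [Algebra S₀ P₀]
    (hP : ∀ N, Finite (P₀ ⧸ maximalIdeal P₀ ^ N)) (φ : ℕ → S₀ →+* P₀)
    (halg : algebraMap S₀ P₀ = limMap hP φ) (hπ : ∀ n, IsLocalHom (π n)) {A : Type} [CommRing A]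
    (ξ : R →+* A) {I₀ : Ideal S₀} (h : ∀ n, ∀ s ∈ I₀, ξ (π n (φ n s)) = 0) :
    I₀.map (algebraMap S₀ P₀) ≤ RingHom.ker (ξ.comp (limMap hR π)) := by
  refine Ideal.map_le_iff_le_comap.mpr fun s hs => ?_
  rw [Ideal.mem_comap, halg]
  show limMap hR π (limMap hP φ s) ∈ RingHom.ker ξ
  refine mem_of_forall_mem_sup_pow fun N => ?_
  obtain ⟨n, ⟨-, h₁⟩, -, h₂⟩ :=
    ((limMap_spec hR π (limMap hP φ s) N).and (limMap_spec hP φ s N)).exists
  have h₃ : π n (φ n s - limMap hP φ s) ∈ maximalIdeal R ^ N :=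
    (Ideal.map_pow (π n) _ N).trans_le (Ideal.pow_right_mono
      (Ideal.map_le_iff_le_comap.mpr (IsLocalRing.local_hom_TFAE (π n) |>.out 0 3 |>.mp (hπ n))) N)
      (Ideal.mem_map_of_mem _ h₂)
  rw [show limMap hR π (limMap hP φ s) = π n (φ n s) - (π n (φ n s - limMap hP φ s) +
    (π n (limMap hP φ s) - limMap hR π (limMap hP φ s))) by rw [map_sub]; ring]
  exact sub_mem (Ideal.mem_sup_left (h n s hs)) (Ideal.mem_sup_right (add_mem h₃ h₁))

/-- Modulo `I` every level is the bottom action of `π n`. -/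
def BottomCompat : Prop :=
  ∀ n f a b (x y : S), Ideal.Quotient.mk (J n) x = rep n f a b →
    Ideal.Quotient.mk I y = act₀ (π n f) a b → x - y ∈ I ⊔ J n

omit [IsDomain S] in
/-- Modulo `I` the patched action is the bottom action of the limit map. -/
theorem mk_patch_apply (h : BottomCompat rep π act₀) (f : P₀) (a b : Fin d) :
    Ideal.Quotient.mk I ((LevelSystem.mk J hJ rep).patch hfin f a b) =
      act₀ (limMap hR π f) a b := by
  obtain ⟨y, hy⟩ := Ideal.Quotient.mk_surjective (act₀ (limMap hR π f) a b)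
  rw [← hy, Ideal.Quotient.eq]
  refine mem_of_forall_mem_sup_pow fun N => ?_
  haveI := hfin N
  haveI : Finite (S ⧸ (I ⊔ maximalIdeal S ^ N)) :=
    Finite.of_surjective (Ideal.Quotient.factor le_sup_right) (Ideal.Quotient.factor_surjective _)
  let ρ : R →+* Matrix (Fin d) (Fin d) (S ⧸ (I ⊔ maximalIdeal S ^ N)) :=
    (Ideal.Quotient.factor (le_sup_left : I ≤ I ⊔ maximalIdeal S ^ N)).mapMatrix.comp act₀
  let K := Nat.card (Matrix (Fin d) (Fin d) (S ⧸ (I ⊔ maximalIdeal S ^ N)))
  obtain ⟨n, ⟨hn, h₁⟩, -, h₂⟩ :=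
    (((LevelSystem.mk J hJ rep).patch_spec hfin f N).and (limMap_spec hR π f K)).exists
  obtain ⟨x, hx⟩ := Ideal.Quotient.mk_surjective (rep n f a b)
  obtain ⟨z, hz⟩ := Ideal.Quotient.mk_surjective (act₀ (π n f) a b)
  have e₁ : x - (LevelSystem.mk J hJ rep).patch hfin f a b ∈ I ⊔ maximalIdeal S ^ N :=
    Ideal.mem_sup_right (h₁ a b x hx)
  have e₂ : x - z ∈ I ⊔ maximalIdeal S ^ N :=
    sup_le_sup_left ((hJ n).trans (Ideal.pow_le_pow_right hn)) _ (h n f a b x z hx hz)
  have e₃ : z - y ∈ I ⊔ maximalIdeal S ^ N := by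
    have h0 := congrFun (congrFun (map_pow_card_eq_bot ρ h₂) a) b
    simp only [ρ, RingHom.comp_apply, map_sub, RingHom.mapMatrix_apply, Matrix.sub_apply,
      Matrix.map_apply, Matrix.zero_apply, ← hz, ← hy, Ideal.Quotient.factor_mk] at h0
    rwa [sub_eq_zero, Ideal.Quotient.eq] at h0
  rw [show (LevelSystem.mk J hJ rep).patch hfin f a b - y =
    (x - z) + (z - y) - (x - (LevelSystem.mk J hJ rep).patch hfin f a b) by ring]
  exact sub_mem (add_mem e₂ e₃) e₁

omit [IsDomain S] in
/-- **The point of the curve.** If a prime of the support containing `I` is the kernel of a point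
of the bottom ring pulled back along the limit map, the point factors through the bottom action. -/
theorem point_mem_bottom {S₀ : Type} [CommRing S₀] [Algebra S₀ S] [Algebra S₀ P₀]
    [IsNoetherianRing S₀] [Module.Finite S₀ S] {A : Type} [CommRing A] [IsDomain A] (ξ : R →+* A)
    (hσ : ActsByScalars S₀ rep) (h : BottomCompat rep π act₀)
    (hsurj : Function.Surjective (limMap hR π))
    (hsupp : SupportsAt hfin hJ rep (RingHom.ker (ξ.comp (limMap hR π))))
    {I₀ : Ideal S₀} {c : ℕ} (hc : I ^ c ≤ I₀.map (algebraMap S₀ S))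
    (hI : I₀.map (algebraMap S₀ P₀) ≤ RingHom.ker (ξ.comp (limMap hR π))) :
    RingHom.ker act₀ ≤ RingHom.ker ξ := by
  intro g hg
  haveI : (RingHom.ker (ξ.comp (limMap hR π))).IsPrime := RingHom.ker_isPrime _
  obtain ⟨f, rfl⟩ := hsurj g
  have := hsupp.mem_of_entries_mem hfin hJ rep hσ hI hc (f := f) fun a b => by
    rw [← Ideal.Quotient.eq_zero_iff_mem, mk_patch_apply hR hfin hJ rep π act₀ h,
      RingHom.mem_ker.mp hg]
    rfl
  exact this

end Bottom

end FLTA.RT
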