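import Fermat.Agent.RT.RaiseChain
import Fermat.Agent.RT.RaiseLocal

/-!
# Raising data from level modules

`raiseData_of_modules` turns free level modules with maps up and down, injective resp. surjective
modulo the maximal ideal, into `RaiseData`.  `exists_basis_lift` provides bases reducing to a
fixed basis of the bottom module, and `RaiseData.rank_lt` compares the ranks when `det T` lies in
the maximal ideal.
-/

set_option autoImplicit false
set_option linter.style.haveILetI false

noncomputable section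

namespace FLTA.RT

open IsLocalRing FLTA.Patching FLTA.Patching.LevelSystem

section basisLemmas

variable {A : Type} [CommRing A] {d : ℕ} {M : Type} [AddCommGroup M] [Module A M]

/-- Membership in an ideal times a free module, by coordinates. -/
theorem mem_ideal_smul_basis (b : Module.Basis (Fin d) A M) (I : Ideal A) (x : M) :
    x ∈ I • (⊤ : Submodule A M) ↔ ∀ a, b.equivFun x a ∈ I := by
  constructor
  · intro hx a
    refine Submodule.smul_induction_on hx (fun r hr y _ => ?_) fun y z hy hz => ?_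
    · rw [map_smul, Pi.smul_apply, smul_eq_mul]
      exact I.mul_mem_right _ hr
    · rw [map_add]
      exact I.add_mem hy hz
  · intro h
    rw [← b.sum_equivFun x]
    exact Submodule.sum_mem _ fun a _ => Submodule.smul_mem_smul (h a) Submodule.mem_top

/-- The maximal ideal of a quotient of a local ring. -/
theorem mk_mem_maximalIdeal_iff {S : Type} [CommRing S] [IsLocalRing S] {J : Ideal S}
    [IsLocalRing (S ⧸ J)] (x : S) :
    Ideal.Quotient.mk J x ∈ maximalIdeal (S ⧸ J) ↔ x ∈ maximalIdeal S := by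
  haveI : IsLocalHom (Ideal.Quotient.mk J) :=
    IsLocalHom.of_surjective _ Ideal.Quotient.mk_surjective
  simp only [mem_maximalIdeal, mem_nonunits_iff, isUnit_map_iff]

/-- Lifts of a basis modulo a proper ideal of a local ring form a basis. -/
theorem exists_basis_lift [IsLocalRing A] {A' M₀ : Type} [CommRing A'] [AddCommGroup M₀]
    [Module A' M₀] (φ : A →+* A') (hφ : Function.Surjective φ)
    (hker : RingHom.ker φ ≤ maximalIdeal A) (b₀ : Module.Basis (Fin d) A M)
    (g : M →+ M₀) (hg : ∀ s x, g (s • x) = φ s • g x) (hsurj : Function.Surjective g)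
    (hgker : ∀ x, g x = 0 → x ∈ RingHom.ker φ • (⊤ : Submodule A M))
    (w : Module.Basis (Fin d) A' M₀) :
    ∃ b : Module.Basis (Fin d) A M, ∀ i, g (b i) = w i := by
  choose v hv using fun i => hsurj (w i)
  obtain ⟨b, hb⟩ := Patching.exists_basis_of_lifts b₀ hker v fun m => by
    choose c hc using fun i => hφ (w.equivFun (g m) i)
    refine ⟨c, hgker _ ?_⟩
    rw [map_sub, map_sum]
    simp only [hg, hc, hv]
    rw [w.sum_equivFun, sub_self]
  exact ⟨b, fun i => by rw [hb]; exact hv i⟩

end basisLemmas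

variable {S P₀ : Type} [CommRing S] [IsDomain S] [IsNoetherianRing S] [IsLocalRing S]
  [IsAdicComplete (maximalIdeal S) S] [CommRing P₀] {S₀ : Type} [CommRing S₀] [Algebra S₀ S]
  [Algebra S₀ P₀]
  {J : ℕ → Ideal S} [∀ n, IsLocalRing (S ⧸ J n)] {d d' : ℕ}
  {M M' : ℕ → Type} [∀ n, AddCommGroup (M n)] [∀ n, Module (S ⧸ J n) (M n)]
  [∀ n, AddCommGroup (M' n)] [∀ n, Module (S ⧸ J n) (M' n)]
  (b : ∀ n, Module.Basis (Fin d) (S ⧸ J n) (M n))
  (b' : ∀ n, Module.Basis (Fin d') (S ⧸ J n) (M' n))

/-- The representation of a level in the chosen bases. -/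
abbrev levelRep (act : ∀ n, P₀ →+* Module.End (S ⧸ J n) (M n)) (n : ℕ) :
    P₀ →+* Matrix (Fin d) (Fin d) (S ⧸ J n) :=
  (LinearMap.toMatrixAlgEquiv (b n)).toRingEquiv.toRingHom.comp (act n)

omit [IsDomain S] [IsNoetherianRing S] [IsLocalRing S] [IsAdicComplete (maximalIdeal S) S]
  [∀ n, IsLocalRing (S ⧸ J n)] in
theorem levelRep_apply (act : ∀ n, P₀ →+* Module.End (S ⧸ J n) (M n)) (n : ℕ) (f : P₀) :
    levelRep b act n f = LinearMap.toMatrix (b n) (b n) (act n f) := rfl

variable {ι : Type} [Fintype ι] [DecidableEq ι]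
  (act : ∀ n, P₀ →+* Module.End (S ⧸ J n) (M n))
  (act' : ∀ n, P₀ →+* Module.End (S ⧸ J n) (M' n))
  (iL : ι → ∀ n, M n →ₗ[S ⧸ J n] M' n) (jL : ι → ∀ n, M' n →ₗ[S ⧸ J n] M n)

/-- **Raising data from modules.** -/
theorem raiseData_of_modules
    (hJ : ∀ n, J n ≤ maximalIdeal S ^ n)
    (hσ : ActsByScalars S₀ (levelRep b act)) (hσ' : ActsByScalars S₀ (levelRep b' act'))
    (hi : ∀ l n f x, iL l n (act n f x) = act' n f (iL l n x))
    (hj : ∀ k n f y, jL k n (act' n f y) = act n f (jL k n y))
    (T : Matrix ι ι P₀) (hji : ∀ n k l x, jL k n (iL l n x) = act n (T k l) x)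
    (hinj : ∀ n, 1 ≤ n → ∀ x : ι → M n,
      ∑ l, iL l n (x l) ∈ maximalIdeal (S ⧸ J n) • (⊤ : Submodule (S ⧸ J n) (M' n)) →
      ∀ l, x l ∈ maximalIdeal (S ⧸ J n) • (⊤ : Submodule (S ⧸ J n) (M n)))
    (hsurj : ∀ n, 1 ≤ n → ∀ c : ι → M n, ∃ y, ∀ k, jL k n y = c k)
    (P : Ideal S) [P.IsPrime] (hJP : ∀ n, J n ≤ P) {M₀ : Type} [AddCommGroup M₀]
    [Module (S ⧸ P) M₀] (w : Module.Basis (Fin d) (S ⧸ P) M₀) (g : ∀ n, M n →+ M₀)
    (hg : ∀ n s x, g n (Ideal.Quotient.mk (J n) s • x) = Ideal.Quotient.mk P s • g n x)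
    (hgb : ∀ n i, g n (b n i) = w i) (T₀ : ι → ι → Module.End (S ⧸ P) M₀)
    (hgT : ∀ n k l x, g n (act n (T k l) x) = T₀ k l (g n x))
    (hT₀ : ∀ x : ι → M₀, (∀ k, ∑ l, T₀ k l (x l) = 0) → ∀ l, x l = 0) :
    ∃ B₀, RaiseData S₀ (levelRep b act) (levelRep b' act')
      (fun l n => LinearMap.toMatrix (b n) (b' n) (iL l n))
      (fun k n => LinearMap.toMatrix (b' n) (b n) (jL k n)) T P B₀ := by
  classical
  choose B₀ hB₀ using fun k l => fun a c =>
    Ideal.Quotient.mk_surjective (LinearMap.toMatrix w w (T₀ k l) a c)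
  refine ⟨fun k l => Matrix.of (B₀ k l),
    { scalars := hσ
      scalars' := hσ'
      i_comm := fun l n f => ?_
      j_comm := fun k n f => ?_
      j_mul_i := fun n k l => ?_
      i_injective := fun n hn B hB c hc => ?_
      j_surjective := fun n hn B hB c => ?_
      prime := inferInstance
      bottom := fun n k l a c x hx => ?_
      bottom_injective := fun c hc => ?_ }⟩
  · rw [levelRep_apply, levelRep_apply, ← LinearMap.toMatrix_comp, ← LinearMap.toMatrix_comp]
    exact congrArg _ (LinearMap.ext fun x => hi l n f x)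
  · rw [levelRep_apply, levelRep_apply, ← LinearMap.toMatrix_comp, ← LinearMap.toMatrix_comp]
    exact congrArg _ (LinearMap.ext fun x => hj k n f x)
  · rw [levelRep_apply, ← LinearMap.toMatrix_comp]
    exact congrArg _ (LinearMap.ext fun x => hji n k l x)
  · let q := Ideal.Quotient.mk (J n)
    let x : ι → M n := fun l => (b n).equivFun.symm fun a => q (c l a)
    have hcoord : ∀ a, (b' n).equivFun (∑ l, iL l n (x l)) a =
        q ((∑ l, (B l).mulVec (c l)) a) := by
      intro a
      rw [map_sum, Finset.sum_apply, Finset.sum_apply, map_sum]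
      refine Finset.sum_congr rfl fun l _ => ?_
      rw [RingHom.map_mulVec, hB l, Module.Basis.equivFun_apply,
        ← LinearMap.toMatrix_mulVec_repr (b n) (b' n)]
      congr 1
      refine funext fun e => ?_
      exact congrFun ((b n).equivFun.apply_symm_apply fun a => q (c l a)) e
    have h1 := hinj n hn x ((mem_ideal_smul_basis (b' n) _ _).mpr fun a => by
      rw [hcoord]
      exact (mk_mem_maximalIdeal_iff _).mpr (hc a))
    intro l e
    have h2 := (mem_ideal_smul_basis (b n) _ _).mp (h1 l) e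
    rw [LinearEquiv.apply_symm_apply] at h2
    exact (mk_mem_maximalIdeal_iff _).mp h2
  · let q := Ideal.Quotient.mk (J n)
    obtain ⟨y, hy⟩ := hsurj n hn fun k => (b n).equivFun.symm fun a => q (c k a)
    choose v hv using fun e => Ideal.Quotient.mk_surjective ((b' n).equivFun y e)
    refine ⟨v, fun k a => (mk_mem_maximalIdeal_iff (J := J n) _).mp ?_⟩
    have : q ((B k).mulVec v a) = q (c k a) := by
      rw [RingHom.map_mulVec, hB k, show (⇑q ∘ v) = ⇑((b' n).repr y) from funext fun e => hv e,
        LinearMap.toMatrix_mulVec_repr, hy k]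
      exact congrFun ((b n).equivFun.apply_symm_apply fun a => q (c k a)) a
    rw [map_sub, this, sub_self]
    exact Ideal.zero_mem _
  · rw [sup_eq_left.mpr (hJP n), ← Ideal.Quotient.eq, Matrix.of_apply, hB₀]
    have h := LevelSystem.ofModules_rep_map (J := J) (hJ := hJ) (b := b) (act := act) (n := n) (f := T k l)
      (Ideal.Quotient.factor (hJP n)) w (g n) (fun s x => by
        obtain ⟨s, rfl⟩ := Ideal.Quotient.mk_surjective s
        rw [hg, Ideal.Quotient.factor_mk]) (hgb n) (T₀ k l) (hgT n k l)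
    have h' := congrFun (congrFun h a) c
    rw [← Ideal.Quotient.factor_mk (hJP n), hx]
    exact h'
  · let q := Ideal.Quotient.mk P
    let x : ι → M₀ := fun l => w.equivFun.symm fun a => q (c l a)
    have h0 := hT₀ x fun k => by
      refine w.equivFun.injective ?_
      rw [map_zero]
      funext a
      have hk := Ideal.Quotient.eq_zero_iff_mem.mpr (hc k a)
      rw [Finset.sum_apply, map_sum] at hk
      rw [map_sum, Finset.sum_apply, Pi.zero_apply, ← hk]
      refine Finset.sum_congr rfl fun l _ => ?_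
      rw [RingHom.map_mulVec, show (Matrix.of (B₀ k l)).map ⇑(Ideal.Quotient.mk P) =
        LinearMap.toMatrix w w (T₀ k l) from Matrix.ext fun a c => hB₀ k l a c,
        Module.Basis.equivFun_apply, ← LinearMap.toMatrix_mulVec_repr w w]
      congr 1
      refine funext fun e => ?_
      exact congrFun (w.equivFun.apply_symm_apply fun a => q (c l a)) e
    intro l e
    have h1 := congrFun (w.equivFun.symm.map_eq_zero_iff.mp (h0 l)) e
    exact Ideal.Quotient.eq_zero_iff_mem.mp h1

omit [∀ n, IsLocalRing (S ⧸ J n)] in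
/-- If `det T` lies in the maximal ideal, the new part is nonzero. -/
theorem RaiseData.rank_lt {hfin : ∀ N, Finite (S ⧸ maximalIdeal S ^ N)}
    (hJ : ∀ n, J n ≤ maximalIdeal S ^ n) [IsLocalRing P₀]
    {rep : ∀ n, P₀ →+* Matrix (Fin d) (Fin d) (S ⧸ J n)}
    {rep' : ∀ n, P₀ →+* Matrix (Fin d') (Fin d') (S ⧸ J n)}
    {iF : ι → ∀ n, Matrix (Fin d') (Fin d) (S ⧸ J n)}
    {jF : ι → ∀ n, Matrix (Fin d) (Fin d') (S ⧸ J n)}
    {T : Matrix ι ι P₀} {P : Ideal S} {B₀ : ι → ι → Matrix (Fin d) (Fin d) S}
    [IsNoetherianRing S₀] [Module.Finite S₀ S]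
    (hd : RaiseData S₀ rep rep' iF jF T P B₀) (hd0 : 0 < d) (hdet : T.det ∈ maximalIdeal P₀) :
    Fintype.card ι * d < d' := by
  letI := (LevelSystem.mk J hJ rep).patchModule hfin
  letI := (LevelSystem.mk J hJ rep').patchModule hfin
  haveI := patchModule_isScalarTower hfin hJ rep hd.scalars
  haveI := patchModule_isScalarTower hfin hJ rep' hd.scalars'
  haveI := hd.prime
  haveI := patchModule_isNoetherian hfin hJ rep hd.scalars
  haveI := patchModule_isNoetherian hfin hJ rep' hd.scalars'
  obtain ⟨j, hjv, hjs, -, hsupp⟩ := exists_patched_raise hfin hJ rep rep'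
    ((LevelSystem.mk J hJ rep).patchModule_smul_def hfin)
    ((LevelSystem.mk J hJ rep').patchModule_smul_def hfin) iF jF hd.i_comm hd.j_comm T hd.j_mul_i
    hd.i_injective hd.j_surjective P B₀ hd.bottom hd.bottom_injective
  haveI : Nonempty (Fin d) := ⟨⟨0, hd0⟩⟩
  obtain ⟨Q, hQ⟩ : (Module.support P₀ (Fin d → S)).Nonempty :=
    Module.nonempty_support_iff.mpr inferInstance
  have hmax : (⟨maximalIdeal P₀, inferInstance⟩ : PrimeSpectrum P₀) ∈
      Module.support P₀ (Fin d → S) :=
    Module.mem_support_iff_of_finite.mpr ((Module.mem_support_iff_of_finite.mp hQ).trans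
      (le_maximalIdeal Q.isPrime.ne_top))
  have hker := hsupp _ hmax hdet
  let jS : (Fin d' → S) →ₗ[S] (ι → Fin d → S) :=
    { toFun := j
      map_add' := map_add j
      map_smul' := fun s v => funext fun k => by
        rw [RingHom.id_apply, Pi.smul_apply, hjv, hjv, Matrix.mulVec_smul] }
  by_contra hlt
  have hfr : Module.finrank S (ι → Fin d → S) = Fintype.card ι * d := by
    rw [Module.finrank_pi_fintype]
    simp
  obtain ⟨e, he⟩ := Module.projective_lifting_property jS LinearMap.id hjs
  have hinje : Function.Injective e := fun x y hxy => by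
    have := congrArg jS hxy
    rwa [← LinearMap.comp_apply, ← LinearMap.comp_apply, he] at this
  have hge := LinearMap.finrank_le_finrank_of_injective hinje
  rw [hfr, Module.finrank_fin_fun] at hge
  have heq : d' = Fintype.card ι * d := by omega
  let u : (Fin d' → S) ≃ₗ[S] (ι → Fin d → S) :=
    LinearEquiv.ofFinrankEq _ _ (by rw [hfr, Module.finrank_fin_fun, heq])
  have hbij : Function.Injective j := by
    have hsur : Function.Surjective (u.symm.toLinearMap.comp jS) :=
      u.symm.surjective.comp hjs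
    exact Function.Injective.of_comp (OrzechProperty.injective_of_surjective_endomorphism _ hsur)
  have : Subsingleton (LinearMap.ker j) := by
    rw [LinearMap.ker_eq_bot.mpr hbij]
    infer_instance
  obtain ⟨m, hm⟩ := Module.mem_support_iff'.mp hker
  exact hm 1 (fun h => (maximalIdeal.isMaximal P₀).ne_top ((Ideal.eq_top_iff_one _).mpr h))
    (Subsingleton.elim _ _)

end FLTA.RT
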