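import Fermat.Agent.Galois.PlacesFinite
import Fermat.Agent.Galois.Cyclotomic
import Fermat.Agent.EllReduction.FreyVal

/-!
# Tame inertia at a finite level

An inertia element of order prime to `q` that acts on a field as a wild element fixes it; hence,
for a homomorphism with pro-`p` inertia image (`p ≠ q`), inertia acts through its action on the
`p`-power roots of `q`.
-/

set_option autoImplicit false

open scoped Pointwise

noncomputable section

namespace FLTA.RT.LocalGalois

open FLTA.Galois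

local notation "Qbar" => AlgebraicClosure ℚ
local notation "Γ" => AlgebraicClosure ℚ ≃ₐ[ℚ] AlgebraicClosure ℚ

variable {A : ValuationSubring Qbar} {q : ℕ}

lemma valuation_le_one (x : Qbar) (hx : x ∈ A) : A.valuation x ≤ 1 :=
  (A.valuation_le_one_iff x).mpr hx

/-- The valuation of a rational number is a power of `v q`. -/
lemma valuation_ratCast (hq : q.Prime) (hA : A.LiesOverPrime q) {r : ℚ} (hr : r ≠ 0) :
    A.valuation (algebraMap ℚ Qbar r) =
      A.valuation (q : Qbar) ^ ((padicValInt q r.num : ℤ) - padicValInt q r.den) := by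
  have hqpos : A.valuation (q : Qbar) ≠ 0 :=
    A.valuation.ne_zero_iff.mpr (Nat.cast_ne_zero.mpr hq.ne_zero)
  have e : algebraMap ℚ Qbar r = ((r.num : ℤ) : Qbar) / (((r.den : ℕ) : ℤ) : Qbar) := by
    conv_lhs => rw [← Rat.num_div_den r]
    simp
  rw [e, map_div₀, EllReduction.FreyAux.valuation_intCast A hq hA (Rat.num_ne_zero.mpr hr),
    EllReduction.FreyAux.valuation_intCast A hq hA (Int.natCast_ne_zero.mpr r.den_ne_zero),
    zpow_sub₀ hqpos, zpow_natCast, zpow_natCast]

/-- Every element of a field of degree at most `n` has a power with exponent at most `n` whose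
valuation is a power of `v q`. -/
lemma exists_zpow_eq_le (hq : q.Prime) (hA : A.LiesOverPrime q) {x : Qbar} (hx : x ≠ 0) :
    ∃ (d : ℕ) (i : ℤ), 0 < d ∧ d ≤ (minpoly ℚ x).natDegree ∧
      A.valuation x ^ d = A.valuation (q : Qbar) ^ i := by
  classical
  have hint : IsIntegral ℚ x := (qbar_isAlgebraic.isAlgebraic x).isIntegral
  set P := minpoly ℚ x with hP
  set v := A.valuation with hv
  set g : ℕ → Qbar := fun i => algebraMap ℚ Qbar (P.coeff i) * x ^ i with hg
  have hP0 : P ≠ 0 := minpoly.ne_zero hint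
  have hsum : ∑ i ∈ P.support, g i = 0 := by
    have h := minpoly.aeval ℚ x
    rw [← hP, Polynomial.aeval_eq_sum_range] at h
    rw [← h, Finset.sum_subset (s₂ := Finset.range (P.natDegree + 1))]
    · exact Finset.sum_congr rfl fun i _ => by simp [hg, Algebra.smul_def]
    · exact fun i hi => Finset.mem_range.mpr
        (Nat.lt_succ_of_le (Polynomial.le_natDegree_of_mem_supp i hi))
    · intro i _ hi
      rw [Polynomial.notMem_support_iff] at hi
      simp [hg, hi]
  obtain ⟨i, hi, hmax⟩ :=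
    P.support.exists_max_image (fun i => v (g i)) (Polynomial.support_nonempty.mpr hP0)
  have hgne : ∀ j ∈ P.support, g j ≠ 0 := fun j hj =>
    mul_ne_zero ((map_ne_zero _).mpr (Polynomial.mem_support_iff.mp hj)) (pow_ne_zero _ hx)
  obtain ⟨j, hj, hji, hjv⟩ : ∃ j ∈ P.support, j ≠ i ∧ v (g j) = v (g i) := by
    by_contra hcon
    push Not at hcon
    have hlt : ∀ j ∈ P.support \ {i}, v (g j) < v (g i) := by
      intro j hj
      simp only [Finset.mem_sdiff, Finset.mem_singleton] at hj
      exact lt_of_le_of_ne (hmax j hj.1) (hcon j hj.1 hj.2)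
    have := v.map_sum_eq_of_lt hi hlt
    rw [hsum, map_zero] at this
    exact (v.ne_zero_iff.mpr (hgne i hi)) this.symm
  have hγ : v (q : Qbar) ≠ 0 := v.ne_zero_iff.mpr (Nat.cast_ne_zero.mpr hq.ne_zero)
  have hvx : v x ≠ 0 := v.ne_zero_iff.mpr hx
  have key : ∀ k ∈ P.support, ∃ m : ℤ, v (g k) = v (q : Qbar) ^ m * v x ^ (k : ℤ) := fun k hk =>
    ⟨(padicValInt q (P.coeff k).num : ℤ) - padicValInt q (P.coeff k).den, by
      simp only [hg, hv, map_mul, map_pow, zpow_natCast,
        valuation_ratCast hq hA (Polynomial.mem_support_iff.mp hk)]⟩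
  obtain ⟨r, hr⟩ := key j hj
  obtain ⟨s, hs⟩ := key i hi
  rw [hr, hs] at hjv
  have main : ∀ {a b : ℕ} {r s : ℤ}, a < b → b ≤ P.natDegree →
      v (q : Qbar) ^ r * v x ^ (a : ℤ) = v (q : Qbar) ^ s * v x ^ (b : ℤ) →
      ∃ (d : ℕ) (i : ℤ), 0 < d ∧ d ≤ P.natDegree ∧ v x ^ d = v (q : Qbar) ^ i := by
    intro a b r s hab hb he
    refine ⟨b - a, r - s, by omega, by omega, ?_⟩
    rw [← zpow_natCast, Nat.cast_sub hab.le, zpow_sub₀ hvx, zpow_sub₀ hγ,
      div_eq_div_iff (zpow_ne_zero _ hvx) (zpow_ne_zero _ hγ), mul_comm (v x ^ (b : ℤ))]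
    exact he.symm
  rcases lt_or_gt_of_ne hji with h | h
  · exact main h (Polynomial.le_natDegree_of_mem_supp i hi) hjv
  · exact main h (Polynomial.le_natDegree_of_mem_supp j hj) hjv.symm

/-- `exists_zpow_eq_le` inside a finite subextension. -/
lemma exists_zpow_eq_finrank (hq : q.Prime) (hA : A.LiesOverPrime q)
    (L : IntermediateField ℚ Qbar) [FiniteDimensional ℚ L] {x : Qbar} (hxL : x ∈ L) (hx : x ≠ 0) :
    ∃ (d : ℕ) (i : ℤ), 0 < d ∧ d ≤ Module.finrank ℚ L ∧
      A.valuation x ^ d = A.valuation (q : Qbar) ^ i := by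
  obtain ⟨d, i, hd, hdle, h⟩ := exists_zpow_eq_le hq hA hx
  refine ⟨d, i, hd, hdle.trans ?_, h⟩
  have e : minpoly ℚ x = minpoly ℚ (⟨x, hxL⟩ : L) :=
    (minpoly.algebraMap_eq (A := ℚ) (B := L) (B' := Qbar) (algebraMap L Qbar).injective ⟨x, hxL⟩).trans rfl
  rw [e]
  exact minpoly.natDegree_le _

/-- A unit moved by inertia changes by a factor congruent to one. -/
lemma valuation_apply_div_sub_one_lt {σ : Γ} (hσ : σ ∈ A.inertiaSubgroupIn ℚ) {u : Qbar}
    (hu : A.valuation u = 1) : A.valuation (σ u / u - 1) < 1 := by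
  have hu0 : u ≠ 0 := fun h => by rw [h, map_zero] at hu; exact zero_ne_one hu
  have h := (mem_inertiaSubgroupIn_iff.mp hσ).2 u (A.mem_of_valuation_le_one _ hu.le)
  rw [div_sub_one hu0, map_div₀, hu, div_one]
  exact h

/-- The congruence `≡ 1` is multiplicative. -/
lemma valuation_mul_sub_one_lt {a b : Qbar} (ha : A.valuation (a - 1) < 1)
    (hb : A.valuation (b - 1) < 1) : A.valuation (a * b - 1) < 1 := by
  rw [show a * b - 1 = (a - 1) * b + (b - 1) by ring]
  refine A.valuation.map_add_lt ?_ hb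
  rw [map_mul]
  refine mul_lt_one_of_lt_of_le ha ?_
  rw [show b = (b - 1) + 1 by ring]
  exact A.valuation.map_add_le hb.le (map_one _).le

lemma valuation_eq_one_of_sub_one_lt {a : Qbar} (ha : A.valuation (a - 1) < 1) :
    A.valuation a = 1 := by
  rw [show a = 1 + (a - 1) by ring, A.valuation.map_add_eq_of_lt_left (by rwa [map_one]), map_one]

/-- An element that acts as a wild element and whose order is prime to `q` acts trivially. -/
lemma apply_eq_of_wild (hq : q.Prime) (hA : A.LiesOverPrime q) {τ : Γ} {n : ℕ} (hnq : ¬ q ∣ n)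
    (S : Set Qbar) (hS : ∀ x ∈ S, τ x ∈ S)
    (hwild : ∀ x ∈ S, x ≠ 0 → A.valuation (τ x / x - 1) < 1) {x : Qbar}
    (hper : (τ ^ n) x = x)
    (hz : x - (∑ j ∈ Finset.range n, (τ ^ j) x) / (n : Qbar) ∈ S) : τ x = x := by
  have hn : 0 < n := Nat.pos_of_ne_zero fun h => hnq (h ▸ dvd_zero q)
  have hnv : A.valuation (n : Qbar) = 1 := by
    refine le_antisymm (valuation_le_one _ (natCast_mem A n)) (not_lt.mp fun h => hnq ?_)
    exact (natCast_mem_nonunits_iff hq hA n).mp h
  have hn0 : (n : Qbar) ≠ 0 := Nat.cast_ne_zero.mpr hn.ne'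
  set T := ∑ j ∈ Finset.range n, (τ ^ j) x with hT
  set z := x - T / (n : Qbar) with hz'
  have hτT : τ T = T := by
    rw [hT, map_sum]
    have e : ∀ j, τ ((τ ^ j) x) = (τ ^ (j + 1)) x := fun j => by
      rw [pow_succ', AlgEquiv.mul_apply]
    rw [Finset.sum_congr rfl fun j _ => e j]
    have h1 := Finset.sum_range_succ' (fun j => (τ ^ j) x) n
    have h2 := Finset.sum_range_succ (fun j => (τ ^ j) x) n
    rw [h1, hper, pow_zero, AlgEquiv.one_apply] at h2
    exact add_right_cancel h2
  have hτz : τ z - z = τ x - x := by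
    rw [hz', map_sub, map_div₀, hτT, map_natCast]; ring
  by_contra hne
  have hz0 : z ≠ 0 := fun h => hne (sub_eq_zero.mp (by rw [← hτz, h, map_zero, sub_zero]))
  have hzS : ∀ j : ℕ, (τ ^ j) z ∈ S ∧ A.valuation ((τ ^ j) z / z - 1) < 1 := by
    intro j
    induction j with
    | zero =>
      refine ⟨by simpa using hz, ?_⟩
      rw [pow_zero, AlgEquiv.one_apply, div_self hz0, sub_self, map_zero]
      exact zero_lt_one
    | succ j ih =>
      rw [pow_succ', AlgEquiv.mul_apply]
      refine ⟨hS _ ih.1, ?_⟩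
      have hj0 : (τ ^ j) z ≠ 0 := fun h => hz0 ((map_eq_zero_iff _ (τ ^ j).injective).mp h)
      have := valuation_mul_sub_one_lt (hwild _ ih.1 hj0) ih.2
      rwa [div_mul_div_cancel₀ hj0] at this
  have hsum0 : ∑ j ∈ Finset.range n, (τ ^ j) z = 0 := by
    have hfix : ∀ j : ℕ, (τ ^ j) T = T := fun j => by
      induction j with
      | zero => rfl
      | succ j ih => rw [pow_succ', AlgEquiv.mul_apply, ih, hτT]
    simp only [hz', map_sub, map_div₀, map_natCast, Finset.sum_sub_distrib, hfix,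
      Finset.sum_const, Finset.card_range, nsmul_eq_mul]
    rw [← hT, mul_div_cancel₀ T hn0, sub_self]
  have hsum : A.valuation (∑ j ∈ Finset.range n, ((τ ^ j) z / z - 1)) < 1 :=
    A.valuation.map_sum_lt one_ne_zero fun j _ => (hzS j).2
  rw [Finset.sum_sub_distrib, ← Finset.sum_div, hsum0, zero_div, Finset.sum_const,
    Finset.card_range, nsmul_one, zero_sub, Valuation.map_neg, hnv] at hsum
  exact lt_irrefl _ hsum

/-- An inertia element fixing a suitable `p`-power root of `q` restricts to an element of order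
prime to `p` on a finite normal field. -/
theorem exists_pow_mem_fixingSubgroup (hq : q.Prime) (hA : A.LiesOverPrime q) {p : ℕ}
    (hp : p.Prime) (hpq : p ≠ q) (L : IntermediateField ℚ Qbar) [FiniteDimensional ℚ L]
    [Normal ℚ L] {c : Qbar} (hc : c ^ p ^ Module.finrank ℚ L = (q : Qbar)) {ρ : Γ}
    (hρ : ρ ∈ A.inertiaSubgroupIn ℚ) (hρc : ρ c = c) :
    ∃ m : ℕ, 0 < m ∧ ¬ p ∣ m ∧ ρ ^ m ∈ L.fixingSubgroup := by
  classical
  set n := Module.finrank ℚ L with hn
  set res := AlgEquiv.restrictNormalHom (F := ℚ) (K₁ := Qbar) L with hres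
  have ho : 0 < orderOf (res ρ) := orderOf_pos _
  obtain ⟨a, m, hpm, hom⟩ :=
    Nat.exists_eq_pow_mul_and_not_dvd ho.ne' p hp.ne_one
  have hm0 : 0 < m := Nat.pos_of_ne_zero fun h => hpm (h ▸ dvd_zero p)
  refine ⟨m, hm0, hpm, ?_⟩
  set τ := ρ ^ m with hτ
  have hτI : τ ∈ A.inertiaSubgroupIn ℚ := pow_mem hρ m
  have hτc : τ c = c := by
    have : ∀ k : ℕ, (ρ ^ k) c = c := fun k => by
      induction k with
      | zero => rfl
      | succ k ih => rw [pow_succ', AlgEquiv.mul_apply, ih, hρc]
    exact this m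
  have hstab : ∀ (σ : Γ) (x : Qbar), x ∈ L → σ x ∈ L := fun σ x hx => by
    have h1 : ((res σ ⟨x, hx⟩ : L) : Qbar) = σ x := AlgEquiv.restrictNormal_commutes σ L ⟨x, hx⟩
    rw [← h1]
    exact SetLike.coe_mem _
  have hper : ∀ x ∈ L, (τ ^ p ^ a) x = x := by
    intro x hx
    have h1 : res (τ ^ p ^ a) = 1 := by
      rw [hτ, ← pow_mul, map_pow, mul_comm, ← hom]
      exact pow_orderOf_eq_one _
    exact (IntermediateField.mem_fixingSubgroup_iff _ _).mp ((restrict_eq_one_iff _).mp h1) x hx
  have hwild : ∀ x ∈ L, x ≠ 0 → A.valuation (τ x / x - 1) < 1 := by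
    intro x hx hx0
    obtain ⟨d, i, hd, hdn, hdi⟩ := exists_zpow_eq_finrank hq hA L hx hx0
    obtain ⟨b, d', hpd, rfl⟩ := Nat.exists_eq_pow_mul_and_not_dvd hd.ne' p hp.ne_one
    have hd'0 : 0 < d' := Nat.pos_of_ne_zero fun h => hpd (h ▸ dvd_zero p)
    have hbn : b ≤ n := (Nat.lt_pow_self hp.one_lt).le.trans
      ((Nat.le_mul_of_pos_right _ hd'0).trans hdn)
    set c' := c ^ p ^ (n - b) with hc'
    have hc'pow : c' ^ p ^ b = (q : Qbar) := by
      rw [hc', ← pow_mul, ← pow_add, Nat.sub_add_cancel hbn, hc]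
    have hτc' : τ c' = c' := by rw [hc', map_pow, hτc]
    have hc'0 : c' ≠ 0 := fun h => by
      rw [h, zero_pow (pow_pos hp.pos b).ne', eq_comm] at hc'pow
      exact Nat.cast_ne_zero.mpr hq.ne_zero hc'pow
    set u := x ^ d' / c' ^ i with hu
    have hu1 : A.valuation u = 1 := by
      refine (pow_eq_one_iff.mp ?_).resolve_right (pow_pos hp.pos b).ne'
      rw [hu, map_div₀, div_pow, map_pow, map_zpow₀, ← pow_mul, mul_comm d', hdi,
        ← zpow_natCast (A.valuation c' ^ i), ← zpow_mul, mul_comm, zpow_mul, zpow_natCast,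
        ← map_pow, hc'pow, div_self]
      exact zpow_ne_zero _ (A.valuation.ne_zero_iff.mpr (Nat.cast_ne_zero.mpr hq.ne_zero))
    have hr : A.valuation ((τ x / x) ^ d' - 1) < 1 := by
      have e : τ u / u = (τ x / x) ^ d' := by
        rw [hu, map_div₀, map_pow, map_zpow₀, hτc', div_pow]
        field_simp
      rw [← e]
      exact valuation_apply_div_sub_one_lt hτI hu1
    set r := τ x / x with hrdef
    have hrv : A.valuation r = 1 := by
      have := valuation_eq_one_of_sub_one_lt hr
      rw [map_pow] at this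
      exact (pow_eq_one_iff.mp this).resolve_right hd'0.ne'
    -- telescoping along the orbit
    have htel : ∀ k : ℕ, A.valuation ((τ ^ k) x / x / r ^ k - 1) < 1 := by
      intro k
      induction k with
      | zero =>
        rw [pow_zero, pow_zero, AlgEquiv.one_apply, div_self hx0, div_one, sub_self, map_zero]
        exact zero_lt_one
      | succ k ih =>
        have hk : A.valuation ((τ ^ k) x / x) = 1 := by
          have := valuation_eq_one_of_sub_one_lt ih
          rwa [map_div₀, map_pow, hrv, one_pow, div_one] at this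
        have h1 := valuation_mul_sub_one_lt ih (valuation_apply_div_sub_one_lt hτI hk)
        have e : (τ ^ (k + 1)) x / x / r ^ (k + 1)
            = (τ ^ k) x / x / r ^ k * (τ ((τ ^ k) x / x) / ((τ ^ k) x / x)) := by
          have hk0 : (τ ^ k) x ≠ 0 := fun h => hx0 ((map_eq_zero_iff _ (τ ^ k).injective).mp h)
          have hτx : τ x ≠ 0 := fun h => hx0 ((map_eq_zero_iff _ τ.injective).mp h)
          rw [pow_succ' τ, AlgEquiv.mul_apply, map_div₀, hrdef, pow_succ (τ x / x)]
          field_simp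
        rwa [e]
    have hra : A.valuation (r ^ p ^ a - 1) < 1 := by
      have h := htel (p ^ a)
      rw [hper x hx, div_self hx0, div_sub_one (pow_ne_zero _ fun h0 => by
        rw [h0, map_zero] at hrv; exact zero_ne_one hrv), map_div₀, map_pow, hrv, one_pow,
        div_one] at h
      rwa [← Valuation.map_neg, neg_sub]
    -- the two congruences have coprime exponents
    have hmem : r ∈ A := A.mem_of_valuation_le_one _ hrv.le
    have hres1 : ∀ k : ℕ, A.valuation (r ^ k - 1) < 1 →
        (IsLocalRing.residue A ⟨r, hmem⟩) ^ k = 1 := fun k hk => by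
      rw [← map_pow, ← map_one (IsLocalRing.residue A), residue_eq_iff_sub_mem_nonunits]
      exact hk
    have hone : IsLocalRing.residue A ⟨r, hmem⟩ = 1 := by
      have h1 := orderOf_dvd_of_pow_eq_one (hres1 _ hr)
      have h2 := orderOf_dvd_of_pow_eq_one (hres1 _ hra)
      have hcop : Nat.Coprime d' (p ^ a) :=
        ((hp.coprime_iff_not_dvd.mpr hpd).symm).pow_right a
      exact orderOf_eq_one_iff.mp (Nat.eq_one_of_dvd_coprimes hcop h1 h2)
    rw [← map_one (IsLocalRing.residue A), residue_eq_iff_sub_mem_nonunits] at hone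
    exact hone
  rw [IntermediateField.mem_fixingSubgroup_iff]
  intro x hx
  refine apply_eq_of_wild hq hA (n := p ^ a) (fun h => hpq ?_) L (hstab τ) hwild (hper x hx) ?_
  · exact ((Nat.prime_dvd_prime_iff_eq hq hp).mp (hq.dvd_of_dvd_pow h)).symm
  · exact sub_mem hx (div_mem (sum_mem fun j _ => hstab _ x hx) (natCast_mem L _))

end FLTA.RT.LocalGalois
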