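import Fermat.Agent.EllReducible.Basic
import Fermat.Prelude.Def_WeierstrassCurve_Mlc1RowStatement
import Fermat.Prelude.Def_WeierstrassCurve_ConductorLevel

/-!
# The four steps of modularity lifting at `p ∈ {3, 5}` (docs `S59_blueprint`)

The statements which the S59 team proves, and the outer contract of the assembly.
-/

set_option autoImplicit false

open WeierstrassCurve

open scoped WeierstrassCurve.Affine

namespace FLTA.RT

open FLTA.EllReducible (Tors)

/-- Inertia at every place over `q` fixes `E[p]` pointwise. -/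
def TorsUnramifiedAt (W : WeierstrassCurve ℤ) (p q : ℕ) : Prop :=
  ∀ A : ValuationSubring (AlgebraicClosure ℚ), A.LiesOverPrime q →
    ∀ σ ∈ A.inertiaSubgroupIn ℚ, ∀ x : Tors (W.map (Int.castRingHom ℚ)) p, σ • x = x

/-- The standing hypotheses on the curve. -/
structure LiftingCurve (p : ℕ) (W : WeierstrassCurve ℤ) : Prop where
  hp : p = 3 ∨ p = 5
  hΔ : W.Δ ≠ 0
  semistable : W.IsSemistableModel
  irreducible : W.ModRepIsIrreducible p

/-- (A): the square of an odd prime away from `p` becomes a single power, at the cost of an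
auxiliary `4` (docs `S59_qsq`). -/
def SqDescent : Prop :=
  ∀ (p : ℕ) (W : WeierstrassCurve ℤ), LiftingCurve p W → ∀ M q : ℕ,
    W.IsResiduallyModularOfLevel p M → ¬ p ^ 2 ∣ M →
    (∀ r : ℕ, r.Prime → r ≠ p → ¬ r ^ 3 ∣ M) →
    q.Prime → q ≠ p → q ≠ 2 → q ^ 2 ∣ M → W.IsResiduallyModularOfLevel p (Nat.lcm (M / q) 4)

/-- (A), `q = 2`: the last square is removed. -/
def SqDescentTwo : Prop :=
  ∀ (p : ℕ) (W : WeierstrassCurve ℤ), LiftingCurve p W → ∀ m : ℕ, Squarefree m → Odd m →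
    W.IsResiduallyModularOfLevel p (4 * m) → W.IsResiduallyModularOfLevel p (2 * m)

/-- (B): `p` leaves the level when the curve has good reduction at `p`. -/
def LowerP : Prop :=
  ∀ (p : ℕ) (W : WeierstrassCurve ℤ), LiftingCurve p W → ∀ M : ℕ, Squarefree M →
    W.IsGoodPrimeFor p → p ∣ M → W.IsResiduallyModularOfLevel p M →
    W.IsResiduallyModularOfLevel p (M / p)

/-- (C): primes at which `E[p]` is unramified leave the level. -/
def LowerQ : Prop :=
  ∀ (p : ℕ) (W : WeierstrassCurve ℤ), LiftingCurve p W → ∀ M q : ℕ, Squarefree M →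
    (p ∣ M → ¬ W.IsGoodPrimeFor p) → q.Prime → q ≠ p → q ∣ M → TorsUnramifiedAt W p q →
    W.IsResiduallyModularOfLevel p M → W.IsResiduallyModularOfLevel p (M / q)

/-- (D)–(I): from a minimal level the curve is modular at a cube-free level. -/
def LiftFromMinimal : Prop :=
  ∀ (p : ℕ) (W : WeierstrassCurve ℤ), LiftingCurve p W → ∀ M : ℕ, Squarefree M →
    (p ∣ M → ¬ W.IsGoodPrimeFor p) →
    (∀ q : ℕ, q.Prime → q ≠ p → q ∣ M → ¬ TorsUnramifiedAt W p q) →
    W.IsResiduallyModularOfLevel p M →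
    ∃ N : ℕ, 0 < N ∧ ¬ p ^ 2 ∣ N ∧ (∀ q : ℕ, q.Prime → ¬ q ^ 3 ∣ N) ∧
      (∀ q : ℕ, q.Prime → (q : ℤ) ∣ W.Δ → q ∣ N) ∧ W.IsModularModelOfLevel N

/-- The statement of S58. -/
def ConductorMatching : Prop :=
  ∀ (W : WeierstrassCurve ℤ), W.IsSemistableModel → ∀ (N p : ℕ) [Fact p.Prime], p ≠ 2 →
    W.ModRepIsIrreducible p → ¬ p ^ 2 ∣ N → W.IsModularModelOfLevel N →
    (∀ ℓ : ℕ, ℓ.Prime → (ℓ : ℤ) ∣ W.Δ → ℓ ∣ N) →
    (∀ q : ℕ, q.Prime → ¬ q ^ 3 ∣ N) → W.IsModularModelOfLevel W.conductorLevel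

end FLTA.RT
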