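import Fermat.Agent.RT.MazurCore
import Fermat.Agent.RT.S59Interface
import Fermat.Agent.BadRed.Galois

/-!
# Mazur's step for lifting curves

A prime `q ≢ 1 (mod p)` at which `E[p]` is unramified leaves the level, given `RedDvd` for the
fibres at `q`.
-/

set_option autoImplicit false
set_option synthInstance.maxHeartbeats 400000
set_option maxHeartbeats 2000000

noncomputable section

open AlgebraicCurve ModularCurve WeierstrassCurve IsLocalRing
open FLTA.LevelLowering (HasSystem)

namespace FLTA.RT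

/-- `RedDvd` at every place over `q`. -/
def RedDvdAt (M q p : ℕ) [NeZero M] [NeZero q] [hq : Fact q.Prime] : Prop :=
  ∀ (A : ValuationSubring (AlgebraicClosure ℚ)) (hA : A.LiesOverPrime q) (hqM : ¬ q ∣ M)
    [CharP (ResidueField A) q] [PerfectRing (ResidueField A) q],
    (BadRed.badFibre M q A hA hqM).RedDvd (inertiaSys M q A hA hqM) p

/-- **Mazur's step.** -/
theorem hasSystem_of_ne_one {p : ℕ} [Fact p.Prime] {W : WeierstrassCurve ℤ}
    (hW : LiftingCurve p W) (M q : ℕ) [NeZero M] [NeZero q] [hq : Fact q.Prime] (hqM : ¬ q ∣ M)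
    (hqp : q ≠ p) (hq1 : (q : ZMod p) ≠ 1) (hunr : TorsUnramifiedAt W p q)
    (hR : RedDvdAt M q p) (S : Finset ℕ) (hpS : p ∈ S)
    (hlev : ∀ ℓ : ℕ, ℓ.Prime → ℓ ∣ M * q → ℓ ∈ S)
    (hbad : ∀ ℓ : ℕ, ℓ.Prime → ¬ W.IsGoodPrimeFor ℓ → ℓ ∈ S)
    (hsys : HasSystem p (fun ℓ => W.apOfModel ℓ) (M * q) S) :
    HasSystem p (fun ℓ => W.apOfModel ℓ) M S := by
  have hp2 : p ≠ 2 := by rcases hW.hp with h | h <;> omega
  refine (LevelLowering.exists_curveData_or_eigenform W hW.hΔ p hp2 hW.irreducible (M * q) M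
    (dvd_mul_right M q) S hpS hlev hbad hsys).resolve_right fun ⟨G⟩ => ?_
  obtain ⟨A, hA⟩ := Galois.exists_liesOverPrime hq.out
  have := FLTA.Galois.charP_residueField hq.out hA
  have := FLTA.Galois.isAlgClosed_residueField A
  have : ExpChar (ResidueField A) q := ExpChar.prime hq.out
  have : PerfectRing (ResidueField A) q := PerfectField.toPerfectRing q
  exact false_of_curveGlobalData hA hqM hW.hΔ hp2 hqp hq1 hW.irreducible hlev G (hunr A hA)
    (hR A hA hqM)

end FLTA.RT

end
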