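import Fermat.Agent.RT.MazurCube
import Fermat.Agent.RT.MazurZeros
import Fermat.Agent.RT.MazurFrame
import Fermat.Agent.BadRed.Ramified.CuspEta
import Fermat.Agent.BadRed.Ramified.Toricity

/-!
# Node orders of the reduced eta quotient are divisible by three

When a prime `r ≡ 2 (mod 3)` divides `M`, the reduced `j` has orders divisible by `3` at the
non-cusps, and so has the reduction of `Δ(τ)/Δ(qτ)`, its product with a power of `j` being a cube.
-/

set_option autoImplicit false
set_option synthInstance.maxHeartbeats 400000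
set_option maxHeartbeats 800000

noncomputable section

open AlgebraicCurve ModularCurve IsLocalRing

namespace FLTA.RT

local notation "Qb" => AlgebraicClosure ℚ

variable (M q : ℕ) [NeZero M] [NeZero q] [hq : Fact q.Prime]
  (A : ValuationSubring (AlgebraicClosure ℚ)) (hA : A.LiesOverPrime q) (hqM : ¬ q ∣ M)
  [CharP (ResidueField A) q] [PerfectRing (ResidueField A) q]

omit hq [CharP (ResidueField A) q] [PerfectRing (ResidueField A) q] in
/-- A divisor with coefficients divisible by `3` pushes forward to one. -/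
theorem three_dvd_mapDomain {α β : Type*} (f : α → β) {D : α →₀ ℤ} (hD : ∀ x, (3 : ℤ) ∣ D x)
    (y : β) : (3 : ℤ) ∣ Finsupp.mapDomain f D y := by
  have e : D = (3 : ℤ) • D.mapRange (fun n => n / 3) (Int.zero_ediv _) := by
    ext x
    rw [Finsupp.smul_apply, Finsupp.mapRange_apply, smul_eq_mul, Int.mul_ediv_cancel' (hD x)]
  rw [e, Finsupp.mapDomain_smul, Finsupp.smul_apply, smul_eq_mul]
  exact dvd_mul_right _ _

/-- At a non-cusp of the reduced curve `3` divides the order of `j`. -/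
theorem three_dvd_ord_jRed {r : ℕ} (hr : r.Prime) (hrM : r ∣ M) (hr3 : r % 3 = 2)
    (hpole : Finsupp.mapDomain (PlaceRed.placeRed M hqM A hA)
        ((BadRed.badFibre M q A hA hqM).rr'.poleDiv (BadRed.jBar M)) =
      (BadRed.badFibre M q A hA hqM).rrk.poleDiv (Igusa.jEl M 1 (one_dvd M)))
    {Q : Place (ResidueField A) (modularFunctionFieldFullC (ResidueField A) M)}
    (hQ : 0 ≤ Q.ord (Igusa.jEl (K := ResidueField A) M 1 (one_dvd M))) :
    (3 : ℤ) ∣ Q.ord (Igusa.jEl (K := ResidueField A) M 1 (one_dvd M)) := by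
  classical
  set BF := BadRed.badFibre M q A hA hqM
  have hjint : BadRed.IntSeries A (BadRed.jBar M : LaurentSeries Qb) :=
    BadRed.Series.intSeries_jqModC (A := A)
  obtain ⟨hjmem, hjred⟩ := BadRed.red_of_intSeries M q A hA hqM (BadRed.jBar M) hjint
  have hcoe : ((Igusa.jEl (K := ResidueField A) M 1 (one_dvd M)) :
      LaurentSeries (ResidueField A)) = jqModC (ResidueField A) := by
    rw [Igusa.coe_jEl, qExpand_one_apply]
  have hjk : (PlaceRed.gaussRedModL M hqM A hA).red ⟨BadRed.jBar M, hjmem⟩ =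
      Igusa.jEl M 1 (one_dvd M) :=
    Subtype.ext (by
      rw [hjred, hcoe]
      show BadRed.redSeries A _ (jqModC Qb) = _
      rw [← coeffMap_jqModC A.subtype, BadRed.redSeries_coeffMap, coeffMap_jqModC])
  have hjne : Igusa.jEl (K := ResidueField A) M 1 (one_dvd M) ≠ 0 := fun h =>
    jqModC_ne_zero_of_nontrivial (ResidueField A) (hcoe.symm.trans (congrArg Subtype.val h))
  have hmap := PlaceRed.isPlaceMap_placeRed M hqM A hA ⟨BadRed.jBar M, hjmem⟩
    (by rw [hjk]; exact hjne) (BF.rr'.divisorOf (BadRed.jBar M))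
    fun P => BF.rr'.divisorOf_apply _ P
  rw [hjk] at hmap
  have hj : BadRed.jBar M = Bridge.jF M Qb :=
    ((Subtype.ext (by rw [FLTA.Congruence.coe_jGenBar, qExpand_one_apply]; rfl) :
      FLTA.Congruence.jGenBar (L := Qb) M 1 (one_dvd M) = BadRed.jBar M)).symm.trans
      (LevelLowering.jGenBar_eq_jElt M (one_dvd M))
  have hzero : ∀ P : Place Qb (modularFunctionFieldBar M),
      (3 : ℤ) ∣ (BF.rr'.divisorOf (BadRed.jBar M) + BF.rr'.poleDiv (BadRed.jBar M)) P := by
    intro P
    rw [Finsupp.add_apply, PlaceRed.RRCurve.divisorOf_apply, PlaceRed.RRCurve.poleDiv_apply]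
    rcases le_or_gt 0 (P.ord (BadRed.jBar M)) with h | h
    · rw [max_eq_right (neg_nonpos.mpr h), add_zero, hj] at *
      exact three_dvd_ord_jF M complexEmbedding.toRingHom hr hrM hr3 P h
    · rw [max_eq_left (neg_nonneg.mpr h.le), add_neg_cancel]
      exact dvd_zero _
  have key := three_dvd_mapDomain (PlaceRed.placeRed M hqM A hA) hzero Q
  rw [Finsupp.mapDomain_add, Finsupp.add_apply, hmap Q, hpole,
    PlaceRed.RRCurve.poleDiv_apply, max_eq_right (neg_nonpos.mpr hQ), add_zero] at key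
  exact key

omit hA hqM [PerfectRing (ResidueField A) q] in
/-- `j(qτ)` is the `q`-th power of `j(τ)` in characteristic `q`. -/
theorem qExpand_jqModC_char :
    qExpand (ResidueField A) q (jqModC (ResidueField A)) = jqModC (ResidueField A) ^ q := by
  rw [← FLTA.Congruence.qExpand_coeffMap_frobenius q (jqModC (ResidueField A)), coeffMap_jqModC]

/-- A scaling with a prescribed reduction on the first component. -/
theorem exists_scaledRed_zero {f : modularFunctionFieldBar (M * q)} (hf : f ≠ 0)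
    {p : modularFunctionFieldFullC (ResidueField A) M} (hp : p ≠ 0)
    (h : (BadRed.badFibre M q A hA hqM).HasRed 0 f p) :
    ∃ d : (BadRed.badFibre M q A hA hqM).ScaledRed f, d.p 0 = p := by
  obtain ⟨c, p₁, -, hp₁, h₁⟩ := (BadRed.badFibre M q A hA hqM).exists_hasRed_smul 1 hf
  exact ⟨⟨![1, c], ![p, p₁], Fin.forall_fin_two.mpr ⟨hp, hp₁⟩,
    Fin.forall_fin_two.mpr ⟨by simpa using h, h₁⟩⟩, rfl⟩

/-- **The node orders of the eta quotient.** -/
theorem three_dvd_ord_etaRed {r : ℕ} (hr : r.Prime) (hrM : r ∣ M) (hr3 : r % 3 = 2)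
    (hpole : Finsupp.mapDomain (PlaceRed.placeRed M hqM A hA)
        ((BadRed.badFibre M q A hA hqM).rr'.poleDiv (BadRed.jBar M)) =
      (BadRed.badFibre M q A hA hqM).rrk.poleDiv (Igusa.jEl M 1 (one_dvd M)))
    (dH : (BadRed.badFibre M q A hA hqM).ScaledRed
      (LevelLowering.etaUnit q (M * q) (dvd_mul_left q M)))
    {Q : Place (ResidueField A) (modularFunctionFieldFullC (ResidueField A) M)}
    (hQ : 0 ≤ Q.ord (Igusa.jEl (K := ResidueField A) M 1 (one_dvd M))) :
    (3 : ℤ) ∣ Q.ord (dH.p 0) := by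
  classical
  have := FLTA.Galois.isAlgClosed_residueField A
  set jK := Igusa.jEl (K := ResidueField A) M 1 (one_dvd M)
  have hcoe : (jK : LaurentSeries (ResidueField A)) = jqModC (ResidueField A) := by
    rw [Igusa.coe_jEl, qExpand_one_apply]
  have hjne : jK ≠ 0 := fun h =>
    jqModC_ne_zero_of_nontrivial (ResidueField A) (hcoe.symm.trans (congrArg Subtype.val h))
  set J : modularFunctionFieldBar (M * q) := BadRed.jBar (M * q)
  set Y : modularFunctionFieldBar (M * q) :=
    FLTA.Congruence.jGenBar (L := Qb) (M * q) q (dvd_mul_left q M)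
  have hY0 : Y ≠ 0 := fun h => by
    have h' := congrArg Subtype.val h
    rw [FLTA.Congruence.coe_jGenBar] at h'
    exact jqModC_ne_zero_of_nontrivial Qb ((map_eq_zero_iff _ (qExpand Qb q).injective).mp h')
  obtain ⟨dJ, hdJ⟩ := exists_scaledRed_zero M q A hA hqM (BadRed.jBar_ne_zero (M * q)) hjne (by
    refine BadRed.BadFibre.HasRed.of_int (BadRed.badFibre M q A hA hqM) ?_ ?_
    · exact BadRed.Series.intSeries_jqModC (A := A)
    · show (jK : LaurentSeries (ResidueField A)) = BadRed.redSeries A _ (jqModC Qb)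
      rw [← coeffMap_jqModC A.subtype, BadRed.redSeries_coeffMap, coeffMap_jqModC, hcoe])
  obtain ⟨dY, hdY⟩ := exists_scaledRed_zero M q A hA hqM hY0 (pow_ne_zero q hjne) (by
    have hYs : (Y : LaurentSeries Qb) = coeffMap A.subtype (qExpand A q (jqModC A)) := by
      rw [FLTA.Congruence.coe_jGenBar, coeffMap_qExpand, coeffMap_jqModC]
    refine BadRed.BadFibre.HasRed.of_int (BadRed.badFibre M q A hA hqM) ?_ ?_
    · show BadRed.IntSeries A (Y : LaurentSeries Qb)
      rw [hYs]
      exact BadRed.intSeries_coeffMap _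
    · show ((jK ^ q : modularFunctionFieldFullC (ResidueField A) M) :
          LaurentSeries (ResidueField A)) = BadRed.redSeries A _ (Y : LaurentSeries Qb)
      rw [hYs, BadRed.redSeries_coeffMap, coeffMap_qExpand, coeffMap_jqModC,
        qExpand_jqModC_char q A, SubmonoidClass.coe_pow, hcoe])
  obtain ⟨x, hx⟩ := exists_cubeRoot q (M * q) (dvd_mul_left q M)
  have hx3 : x ^ 3 = J * LevelLowering.etaUnit q (M * q) (dvd_mul_left q M) * Y ^ 2 := by
    apply Subtype.ext
    simp only [SubmonoidClass.coe_pow, MulMemClass.coe_mul, hx]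
    rw [LevelLowering.coe_etaUnit, FLTA.Congruence.coe_jGenBar]
    rfl
  have hx0 : x ≠ 0 := fun h => by
    rw [h, zero_pow (by norm_num)] at hx3
    exact mul_ne_zero (mul_ne_zero (BadRed.jBar_ne_zero _) dH.ne_zero) (pow_ne_zero _ hY0) hx3.symm
  obtain ⟨c, px, -, hpx, hxr⟩ := (BadRed.badFibre M q A hA hqM).exists_hasRed_smul 0 hx0
  obtain ⟨c', px', -, hpx', hxr'⟩ := (BadRed.badFibre M q A hA hqM).exists_hasRed_smul 1 hx0
  let dx : (BadRed.badFibre M q A hA hqM).ScaledRed x := ⟨![c, c'], ![px, px'], Fin.forall_fin_two.mpr ⟨hpx, hpx'⟩,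
    Fin.forall_fin_two.mpr ⟨hxr, hxr'⟩⟩
  obtain ⟨d3, hd3⟩ : ∃ d : (BadRed.badFibre M q A hA hqM).ScaledRed (J * LevelLowering.etaUnit q (M * q) (dvd_mul_left q M) *
      Y ^ 2), d.p 0 = dx.p 0 ^ 3 := by
    rw [← hx3]
    exact ⟨dx.pow 3, rfl⟩
  have h := ((dJ.mul dH).mul (dY.pow 2)).ord_p_eq d3 0 Q
  rw [hd3, show ((dJ.mul dH).mul (dY.pow 2)).p 0 = dJ.p 0 * dH.p 0 * dY.p 0 ^ 2 from rfl,
    hdJ, hdY, Q.ord_mul (mul_ne_zero hjne (dH.p_ne 0)) (pow_ne_zero _ (pow_ne_zero _ hjne)),
    Q.ord_mul hjne (dH.p_ne 0), FLTA.Curves.ord_pow, FLTA.Curves.ord_pow,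
    FLTA.Curves.ord_pow] at h
  have h3 := three_dvd_ord_jRed M q A hA hqM hr hrM hr3 hpole hQ
  obtain ⟨w, hw⟩ := h3
  refine ⟨Q.ord (dx.p 0) - (w + 2 * q * w), ?_⟩
  rw [hw] at h
  push_cast at h
  linear_combination -h

end FLTA.RT

end
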