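import Fermat.Agent.RT.MazurEta
import Fermat.Agent.RT.MazurThree
import Fermat.Agent.RT.MazurLower

/-!
# `RedDvd` for the fibres of squarefree level, `p ∈ {3, 5}`

For `p ≥ 5` the eta quotient is `EtaFun` input; for `p = 3` it is used modulo `9`, given a prime
`r ≡ 2 (mod 3)` in the level.
-/

set_option autoImplicit false
set_option synthInstance.maxHeartbeats 400000
set_option maxHeartbeats 800000

noncomputable section

open AlgebraicCurve ModularCurve WeierstrassCurve IsLocalRing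

namespace FLTA.RT

variable (M q : ℕ) [NeZero M] [NeZero q] [hq : Fact q.Prime]

/-- `p ≥ 5`. -/
theorem redDvdAt_of_five_le {p : ℕ} [hp : Fact p.Prime] (hp5 : 5 ≤ p) (hqp : q ≠ p)
    (hsq : Squarefree (M * q)) (hq1 : (q : ZMod p) ≠ 1) : RedDvdAt M q p := by
  intro A hA hqM _ _
  obtain ⟨E, he⟩ := exists_etaFun M q A hA hqM hp.out hp5 hsq hq1
  exact redDvd_of_etaFun hA hqM hqp E he

/-- `p = 3`. -/
theorem redDvdAt_three (hq3 : q ≠ 3) (hsq : Squarefree (M * q)) (hq1 : (q : ZMod 3) ≠ 1)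
    {r : ℕ} (hr : r.Prime) (hrM : r ∣ M) (hr3 : r % 3 = 2) : RedDvdAt M q 3 := by
  classical
  intro A hA hqM _ _
  haveI : Fact (Nat.Prime 3) := ⟨Nat.prime_three⟩
  have := FLTA.Galois.isAlgClosed_residueField A
  obtain ⟨E⟩ := nonempty_etaCusps M q A hA hqM hsq
  obtain ⟨T, m₀, hT⟩ := (BadRed.badFibre M q A hA hqM).exists_isGluing
  have h3k : ((3 : ℕ) : ResidueField A) ≠ 0 := by
    rw [Ne, CharP.cast_eq_zero_iff (ResidueField A) q,
      Nat.prime_dvd_prime_iff_eq hq.out Nat.prime_three]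
    exact hq3
  have hqmod : ¬ (3 : ℤ) ∣ (q : ℤ) - 1 := fun h => hq1 <| by
    have h' : (((q : ℤ) - 1 : ℤ) : ZMod 3) = 0 := (ZMod.intCast_zmod_eq_zero_iff_dvd _ 3).mpr h
    push_cast at h'
    exact sub_eq_zero.mp h'
  have h9 : ∀ B : ℕ, B ∣ M → ¬ ((3 : ℕ) : ℤ) ^ (1 + 1) ∣ ((q : ℤ) - 1) * B := by
    intro B hB h
    have hcop : IsCoprime (((3 : ℕ) : ℤ) ^ (1 + 1)) ((q : ℤ) - 1) :=
      ((Nat.prime_iff_prime_int.mp Nat.prime_three).coprime_iff_not_dvd.mpr hqmod).pow_left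
    have h2 : 3 * 3 ∣ B := by
      have := hcop.dvd_of_dvd_mul_left h
      rw [show ((3 : ℕ) : ℤ) ^ (1 + 1) = ((3 * 3 : ℕ) : ℤ) by norm_num] at this
      exact Int.natCast_dvd_natCast.mp this
    have := (hsq.of_mul_left.squarefree_of_dvd hB) 3 h2
    rw [Nat.isUnit_iff] at this
    omega
  refine BadRed.BadFibre.redDvd_of_primePow (p := 3) (j := 1) h3k hT
    (fixed_etaH M q A hA hqM) (e := -4) ?_ ?_
    ((Finset.univ ×ˢ M.divisors.erase 1).image fun x : Fin 2 × ℕ => E.v x.1 x.2)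
    (fun v h0 h1 hv => ?_) (fun _ => (M.divisors.erase 1).image E.u) ?_
    (fun i u hu => ?_) (fun i u hu => ?_) (fun dH i u hu hdvd => ?_) fun dH Q hQ => ?_
  · have e : ((3 : ℕ) : ℤ) ^ 1 * (-4) = -12 := by norm_num
    rw [e]
    exact diffVal_etaH M q A hA hqM
  · exact ⟨-1, -1, by norm_num⟩
  · rw [E.ord_eq_zero v h0 h1 fun i B hB h => hv (Finset.mem_image.mpr
      ⟨(i, B), Finset.mem_product.mpr ⟨Finset.mem_univ i, hB⟩, h.symm⟩)]
    exact dvd_zero _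
  · refine Finset.card_image_le.trans ?_
    rw [Finset.card_product, Finset.card_univ, Fintype.card_fin, two_mul,
      Finset.card_image_of_injOn fun B hB B' hB' h => E.u_inj B hB B' hB' h]
  · obtain ⟨B, hB, rfl⟩ := Finset.mem_image.mp hu
    exact E.ne_infk B hB
  · obtain ⟨B, hB, rfl⟩ := Finset.mem_image.mp hu
    exact E.not_node T m₀ hT i B hB
  · obtain ⟨B, hB, rfl⟩ := Finset.mem_image.mp hu
    rw [← dvd_abs, E.ord_u dH i B hB] at hdvd
    exact h9 B (Nat.dvd_of_mem_divisors (Finset.mem_of_mem_erase hB)) hdvd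
  · rw [pow_one]
    refine three_dvd_ord_etaRed M q A hA hqM hr hrM hr3
      (mapDomain_poleDiv M q A hA hqM hsq.of_mul_left) dH (not_lt.mp fun hlt => ?_)
    exact notMem_of_pole M q A hA hqM hsq.of_mul_left hT hlt
      (fun h => hT.infk_notMem (h ▸ hQ)) hQ

/-- **Mazur's step at `p ∈ {3, 5}`.**  For `p = 3` a prime `≡ 2 (mod 3)` other than `q` must
divide the level. -/
theorem hasSystem_of_ne_one' {p : ℕ} [hp : Fact p.Prime] {W : WeierstrassCurve ℤ}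
    (hW : LiftingCurve p W) (hsq : Squarefree (M * q))
    (hqp : q ≠ p) (hq1 : (q : ZMod p) ≠ 1) (hunr : TorsUnramifiedAt W p q)
    (hr : p = 3 → ∃ r : ℕ, r.Prime ∧ r ∣ M ∧ r % 3 = 2) (S : Finset ℕ) (hpS : p ∈ S)
    (hlev : ∀ ℓ : ℕ, ℓ.Prime → ℓ ∣ M * q → ℓ ∈ S)
    (hbad : ∀ ℓ : ℕ, ℓ.Prime → ¬ W.IsGoodPrimeFor ℓ → ℓ ∈ S)
    (hsys : LevelLowering.HasSystem p (fun ℓ => W.apOfModel ℓ) (M * q) S) :
    LevelLowering.HasSystem p (fun ℓ => W.apOfModel ℓ) M S := by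
  have hqM : ¬ q ∣ M := fun h =>
    hq.out.ne_one (Nat.isUnit_iff.mp (hsq q (mul_dvd_mul_right h q)))
  refine hasSystem_of_ne_one hW M q hqM hqp hq1 hunr ?_ S hpS hlev hbad hsys
  rcases hW.hp with rfl | rfl
  · obtain ⟨r, h1, h2, h3⟩ := hr rfl
    exact redDvdAt_three M q hqp hsq hq1 h1 h2 h3
  · exact redDvdAt_of_five_le M q le_rfl hqp hsq hq1

end FLTA.RT

end
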