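import Fermat.Agent.RT.S59Interface
import Fermat.Agent.RT.MazurRedDvd
import Fermat.Agent.RT.LowerQ.Congruence
import Fermat.Agent.RT.LowerQ.AuxPrime
import Fermat.Agent.RT.Main.TraceDescent
import Fermat.Agent.S35

/-!
# Step (C) of modularity lifting: unramified primes leave a squarefree level

`lowerQ_of`: Mazur's principle when `q ≢ 1 (mod p)`, the trace at `q` and Ihara avoidance
(`AvoidanceAt`) when `q ≡ 1 (mod p)`; at `p = 3` an auxiliary prime `r ≡ 2 (mod 3)` is put into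
the level and taken out again by its trace.
-/

set_option autoImplicit false

noncomputable section

open WeierstrassCurve

namespace FLTA.RT

open FLTA.LevelLowering (planeRep planeRep_frobenius)

/-- **Ihara avoidance at `p ∈ {3, 5}`**, `p` allowed in the level when it is a bad prime which
cannot be removed, with a prime `r ≡ 2 (mod 3)` in the level when `p = 3`. -/
def AvoidanceAt : Prop :=
  ∀ (W : WeierstrassCurve ℤ) (hΔ : W.Δ ≠ 0) (p : ℕ) [Fact p.Prime] (N q : ℕ),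
    LiftingCurve p W → Squarefree N → q.Prime → q ≠ 2 → q ≠ p → q ∣ N →
    (planeRep hΔ (p := p)).IsUnramifiedAt q → HasSystem W p N →
    (p ∣ N → (p : ℤ) ∣ W.Δ ∧ ∀ L : ℕ, L ∣ N / p → ¬ HasSystem W p L) →
    (p = 3 → ∃ r : ℕ, r.Prime ∧ r % 3 = 2 ∧ r ∣ N) →
    (q : ZMod p) = 1 → TraceAtQ hΔ p q →
    ∃ M : ℕ, M ∣ N ∧ ¬ q ∣ M ∧ HasSystem W p M

namespace LowerQGlue

/-- The statement of S35. -/
theorem steinberg : SteinbergFrobenius := by
  intro M _ g hg lam _ S O' _ _ _ _ _ _ h chig hchig iota h1 h2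
  exact Fermat.Agent.S35.result hg lam S O' h chig hchig iota h1 h2

variable {W : WeierstrassCurve ℤ} {p : ℕ} [Fact p.Prime]

theorem hasSystem_of_res (hΔ : W.Δ ≠ 0) {L : ℕ} (hL : L ≠ 0)
    (h : W.IsResiduallyModularOfLevel p L) : HasSystem W p L :=
  FLTA.RT.LowerQ.hasSystem_of_residual hΔ hL h

/-- A system at `M` gives residual modularity at every nonzero multiple. -/
theorem res_of_dvd (hΔ : W.Δ ≠ 0) (hp2 : p ≠ 2) {M L : ℕ} (hML : M ∣ L) (hL : L ≠ 0)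
    (h : HasSystem W p M) : W.IsResiduallyModularOfLevel p L :=
  have : NeZero L := ⟨hL⟩
  FLTA.RT.LowerQ.residual_of_hasSystem hΔ hp2 hML h

/-- The congruences of residual modularity outside `p`, the level and the bad primes. -/
theorem system_of_res (hΔ : W.Δ ≠ 0) {L : ℕ} (hL : L ≠ 0)
    (h : W.IsResiduallyModularOfLevel p L) :
    LevelLowering.HasSystem p (fun ℓ => W.apOfModel ℓ) L
      ({p} ∪ L.primeFactors ∪ W.Δ.natAbs.primeFactors) := by
  obtain ⟨f, 𝔪, hf, h𝔪, hp, hc⟩ := h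
  refine ⟨f, 𝔪, hf, h𝔪, hp, fun ℓ hℓ hℓS => ?_⟩
  simp only [Finset.mem_union, Finset.mem_singleton, Nat.mem_primeFactors, not_or] at hℓS
  exact hc ℓ hℓ (fun hd => hℓS.2 ⟨hℓ, Int.natCast_dvd.mp hd, Int.natAbs_ne_zero.mpr hΔ⟩)
    (fun hd => hℓS.1.2 ⟨hℓ, hd, hL⟩) hℓS.1.1

theorem hasSystem_of_ll {L : ℕ} {S : Finset ℕ}
    (h : LevelLowering.HasSystem p (fun ℓ => W.apOfModel ℓ) L S) : HasSystem W p L := by
  obtain ⟨f, 𝔪, hf, h𝔪, hp, hc⟩ := h
  obtain ⟨φ, hφ⟩ := exists_ringHom_of_isMaximal h𝔪 hp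
  refine ⟨f, hf, φ, S, fun ℓ hℓ hℓS => ?_⟩
  obtain ⟨c, hc', hm⟩ := hc ℓ hℓ hℓS
  refine ⟨c, hc', ?_⟩
  rwa [← hφ, RingHom.mem_ker, map_sub, sub_eq_zero, map_intCast] at hm

theorem dvd_div_of_not_dvd {M N q : ℕ} (hq : q.Prime) (hqN : q ∣ N) (hMN : M ∣ N) (h : ¬ q ∣ M) :
    M ∣ N / q := by
  obtain ⟨c, rfl⟩ := hqN
  rw [Nat.mul_div_cancel_left c hq.pos]
  exact ((hq.coprime_iff_not_dvd.mpr h).symm).dvd_of_dvd_mul_left hMN

theorem planeRep_unramified (hΔ : W.Δ ≠ 0) {q : ℕ} (h : TorsUnramifiedAt W p q) :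
    (planeRep hΔ (p := p)).IsUnramifiedAt q := by
  intro A hA σ hσ
  refine LinearMap.ext fun x => ?_
  exact h A hA σ hσ x

/-- One prime leaves a level which, at `p = 3`, contains a prime `≡ 2 (mod 3)` besides it. -/
theorem lower_core (h35 : SteinbergFrobenius) (hAv : AvoidanceAt) (hW : LiftingCurve p W)
    {N q : ℕ} (hsf : Squarefree N) (hbad : p ∣ N → ¬ W.IsGoodPrimeFor p) (hq : q.Prime)
    (hqp : q ≠ p) (hqN : q ∣ N) (hunr : TorsUnramifiedAt W p q)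
    (hr : p = 3 → ∃ r : ℕ, r.Prime ∧ r ∣ N / q ∧ r % 3 = 2)
    (hres : W.IsResiduallyModularOfLevel p N) : W.IsResiduallyModularOfLevel p (N / q) := by
  classical
  have hΔ := hW.hΔ
  have hp2 : p ≠ 2 := by rcases hW.hp with h | h <;> omega
  have hN : N ≠ 0 := hsf.ne_zero
  have hNq : N / q ≠ 0 := (Nat.div_pos (Nat.le_of_dvd hN.bot_lt hqN) hq.pos).ne'
  have hdown : ∀ L, L ∣ N → ¬ q ∣ L → HasSystem W p L → W.IsResiduallyModularOfLevel p (N / q) :=
    fun L hL hqL h => res_of_dvd hΔ hp2 (dvd_div_of_not_dvd hq hqN hL hqL) hNq h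
  by_cases hq1 : (q : ZMod p) = 1
  swap
  · have : NeZero (N / q) := ⟨hNq⟩
    have : NeZero q := ⟨hq.ne_zero⟩
    have : Fact q.Prime := ⟨hq⟩
    have hmul : N / q * q = N := Nat.div_mul_cancel hqN
    have hlev : ∀ ℓ : ℕ, ℓ.Prime → ℓ ∣ N / q * q →
        ℓ ∈ ({p} ∪ N.primeFactors ∪ W.Δ.natAbs.primeFactors : Finset ℕ) := fun ℓ hℓ hd => by
      simp [Nat.mem_primeFactors, hℓ, hmul ▸ hd, hN]
    have h' := hasSystem_of_ne_one' (N / q) q hW (by rw [hmul]; exact hsf) hqp hq1 hunr hr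
      ({p} ∪ N.primeFactors ∪ W.Δ.natAbs.primeFactors) (by simp) hlev
      (fun ℓ hℓ hb => by
        simp only [Finset.mem_union, Nat.mem_primeFactors]
        exact Or.inr ⟨hℓ, Int.natCast_dvd.mp (not_not.mp hb), Int.natAbs_ne_zero.mpr hΔ⟩)
      (by rw [hmul]; exact system_of_res hΔ hN hres)
    exact res_of_dvd hΔ hp2 dvd_rfl hNq (hasSystem_of_ll h')
  have hsysN := hasSystem_of_res hΔ hN hres
  by_cases htr : TraceAtQ hΔ p q
  swap
  · obtain ⟨L, hL, hqL, hsys⟩ := exists_hasSystem_of_trace' h35 hp2 hsf hq hqp hsysN htr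
    exact hdown L hL hqL hsys
  have hq2 : q ≠ 2 := by
    rintro rfl
    push_cast at hq1
    exact one_ne_zero (α := ZMod p) (by linear_combination hq1)
  have hr' : p = 3 → ∃ r : ℕ, r.Prime ∧ r % 3 = 2 ∧ r ∣ N := fun h3 => by
    obtain ⟨r, h1, h2, h4⟩ := hr h3
    exact ⟨r, h1, h4, h2.trans (Nat.div_dvd_of_dvd hqN)⟩
  by_cases hlow : p ∣ N ∧ ∃ L, L ∣ N / p ∧ HasSystem W p L
  · obtain ⟨hpN, L, hL, hsysL⟩ := hlow
    have hNp : N / p ∣ N := Nat.div_dvd_of_dvd hpN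
    have hp : p.Prime := Fact.out
    have hNp0 : N / p ≠ 0 := ne_zero_of_dvd_ne_zero hN hNp
    have hpNp : ¬ p ∣ N / p := fun h => Nat.squarefree_iff_prime_squarefree.mp hsf p hp
      (Nat.mul_dvd_of_dvd_div hpN h)
    have hkeep : ∀ r : ℕ, r.Prime → r ≠ p → r ∣ N → r ∣ N / p := fun r h1 h2 h3 =>
      dvd_div_of_not_dvd hp hpN h3 fun h => h2 ((Nat.prime_dvd_prime_iff_eq hp h1).mp h).symm
    have hsys' := hasSystem_of_res hΔ hNp0
      (res_of_dvd hΔ hp2 hL hNp0 hsysL)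
    obtain ⟨K, hK, hqK, hsysK⟩ := hAv W hΔ p (N / p) q hW (hsf.squarefree_of_dvd hNp) hq hq2 hqp
      (hkeep q hq hqp hqN) (planeRep_unramified hΔ hunr) hsys' (fun h => absurd h hpNp)
      (fun h3 => by
        obtain ⟨r, h1, h2, h4⟩ := hr' h3
        exact ⟨r, h1, h2, hkeep r h1 (by omega) h4⟩)
      hq1 htr
    exact hdown K (hK.trans hNp) hqK hsysK
  · obtain ⟨K, hK, hqK, hsysK⟩ := hAv W hΔ p N q hW hsf hq hq2 hqp hqN
      (planeRep_unramified hΔ hunr) hsysN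
      (fun hpN => ⟨not_not.mp (hbad hpN), fun L hL hs => hlow ⟨hpN, L, hL, hs⟩⟩) hr' hq1 htr
    exact hdown K hK hqK hsysK

end LowerQGlue

open LowerQGlue in
/-- **Unramified primes leave a squarefree level**, given Ihara avoidance. -/
theorem lowerQ_of (hAv : AvoidanceAt) : LowerQ := by
  intro p W hW M q hsf hbad hq hqp hqM hunr hres
  have hpp : p.Prime := by rcases hW.hp with rfl | rfl <;> norm_num
  have : Fact p.Prime := ⟨hpp⟩
  have hΔ := hW.hΔ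
  have h35 : SteinbergFrobenius := LowerQGlue.steinberg
  by_cases hr : p = 3 → ∃ r : ℕ, r.Prime ∧ r ∣ M / q ∧ r % 3 = 2
  · exact lower_core h35 hAv hW hsf hbad hq hqp hqM hunr hr hres
  obtain ⟨rfl, -⟩ := Classical.not_imp.mp hr
  obtain ⟨r, hrp, hrS, hr2, hr3, hgood, hra⟩ :=
    FLTA.RT.LowerQ.exists_aux_prime W hΔ hW.semistable hW.irreducible M.primeFactors
  have hrM : ¬ r ∣ M := fun h => hrS (Nat.mem_primeFactors.mpr ⟨hrp, h, hsf.ne_zero⟩)
  have hsfN : Squarefree (r * M) :=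
    (Nat.squarefree_mul (hrp.coprime_iff_not_dvd.mpr hrM)).mpr ⟨hrp.squarefree, hsf⟩
  have hdiv : r * M / q = r * (M / q) := Nat.mul_div_assoc r hqM
  have h1 : W.IsResiduallyModularOfLevel 3 (r * (M / q)) := hdiv ▸
    lower_core h35 hAv hW hsfN
      (fun h => hbad ((hpp.dvd_mul.mp h).resolve_left fun h' => by
        have := (Nat.prime_dvd_prime_iff_eq hpp hrp).mp h'
        omega))
      hq hqp (hqM.mul_left r) hunr
      (fun _ => ⟨r, hrp, hdiv ▸ dvd_mul_right r _, hr3⟩)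
      (res_of_dvd hΔ (by norm_num) (dvd_mul_left M r) hsfN.ne_zero
        (hasSystem_of_res hΔ hsf.ne_zero hres))
  have hMq : M / q ≠ 0 := ne_zero_of_dvd_ne_zero hsf.ne_zero (Nat.div_dvd_of_dvd hqM)
  have htr : ¬ TraceAtQ hΔ 3 r := fun h => by
    obtain ⟨A, hA⟩ := FLTA.Galois.exists_liesOverPrime hrp
    obtain ⟨σ, hσ⟩ := FLTA.Galois.exists_isFrobeniusAt hrp hA
    have h2 := h A hA σ hσ
    have hr0 : ((r : ZMod 3) + 1) = 0 := by
      rw [← Nat.cast_one, ← Nat.cast_add, ZMod.natCast_eq_zero_iff]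
      omega
    rw [(planeRep_frobenius hΔ (by norm_num) hrp hr2 hgood (by omega) hA hσ).1, hr0, zero_pow
      two_ne_zero, pow_eq_zero_iff two_ne_zero, ZMod.intCast_zmod_eq_zero_iff_dvd] at h2
    exact hra h2
  obtain ⟨L, hL, hrL, hsys⟩ := exists_hasSystem_of_trace' h35 (by norm_num)
    (hdiv ▸ hsfN.squarefree_of_dvd (Nat.div_dvd_of_dvd (hqM.mul_left r)))
    hrp (by omega) (hasSystem_of_res hΔ (mul_ne_zero hrp.ne_zero hMq) h1) htr
  exact res_of_dvd hΔ (by norm_num)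
    ((hrp.coprime_iff_not_dvd.mpr hrL).symm.dvd_of_dvd_mul_left hL) hMq hsys

end FLTA.RT

end
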