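import Fermat.Agent.RT.MazurCore
import Fermat.Agent.RT.MazurEta
import Fermat.Agent.LevelLowering.Global
import Fermat.Agent.Galois.Places
import Fermat.Prelude.Def_FLTPrelim_ModularRep
import Fermat.Prelude.Def_FLTPrelim_Ramification
import Fermat.Prelude.Def_FreyPackage_IsConductorLevel

/-!
# Mazur's principle at `q ≢ 1 (mod p)`

If `ρ̄ = E[p]` is irreducible, modular of squarefree level `N` prime to `p`, and unramified at
`q ∣ N` with `q ≢ 1 (mod p)`, then it is modular of a level prime to `q`.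
-/

set_option autoImplicit false
set_option synthInstance.maxHeartbeats 400000
set_option maxHeartbeats 1000000

noncomputable section

open WeierstrassCurve WeierstrassCurve.Affine.Point IsLocalRing ModularCurve

namespace FLTA.RT

/-- Mazur's principle. -/
theorem exists_modularRep_not_dvd_of_ne_one (P : FreyPackage) {N q : ℕ}
    (hcond : P.IsConductorLevel N) (hq : q.Prime) (hq2 : q ≠ 2) (hqp : q ≠ P.p) (hqN : q ∣ N)
    (hpN : ¬ P.p ∣ N) (hq1 : (q : ZMod P.p) ≠ 1)
    (hirr : GaloisRepIsIrreducible (K := AlgebraicClosure ℚ) ℚ P.freyCurve P.p)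
    (hmod : P.ModularRepOfLevel N) (hunr : P.GaloisRepUnramifiedAt q) :
    ∃ M : ℕ, M ∣ N ∧ ¬ q ∣ M ∧ P.ModularRepOfLevel M := by
  obtain ⟨M, hNM⟩ := hqN
  have : Fact P.p.Prime := ⟨P.pp⟩
  have : Fact q.Prime := ⟨hq⟩
  have : NeZero q := ⟨hq.ne_zero⟩
  have : NeZero N := ⟨hcond.pos.ne'⟩
  have : NeZero M := ⟨fun h => NeZero.ne N (by rw [hNM, h, mul_zero])⟩
  refine (LevelLowering.exists_embedding_or_lowered_at P hq hcond hNM hirr hmod).resolve_right
    fun ⟨G⟩ => ?_
  have hqM : ¬ q ∣ M := fun h => hcond.sq_not_dvd hq (by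
    rw [hNM, pow_two]; exact mul_dvd_mul_left _ h)
  subst hNM
  obtain ⟨A, hA⟩ := Galois.exists_liesOverPrime hq
  have := FLTA.Galois.charP_residueField hq hA
  have := FLTA.Galois.isAlgClosed_residueField A
  have : ExpChar (ResidueField A) q := ExpChar.prime hq
  have : PerfectRing (ResidueField A) q := PerfectField.toPerfectRing q
  have hWE := Wiring.freyCurveInt_map_rat P
  obtain ⟨iota, hinj, hsmul, heig, hfix, t, ht1, ht0⟩ :
      ∃ iota : EllReducible.Tors (P.freyCurveInt.map (Int.castRingHom ℚ)) P.p →+ JZero (M * q),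
        Function.Injective iota ∧ (∀ (σ : AlgebraicClosure ℚ ≃ₐ[ℚ] AlgebraicClosure ℚ) x,
          iota (σ • x) = σ • iota x) ∧
        (∀ ℓ : Nat.Primes, (ℓ : ℕ) ∉ G.S → ∀ x,
          heckeOperatorBar (M * q) ℓ (iota x) = G.a ℓ • iota x) ∧
        (∀ σ ∈ A.inertiaSubgroupIn ℚ,
          ∀ x : EllReducible.Tors (P.freyCurveInt.map (Int.castRingHom ℚ)) P.p, σ • x = x) ∧
        ∃ t, LevelLowering.heckeLiftMod P.p G.a G.S t = 1 ∧
          LevelLowering.heckeLiftBar M G.S t = 0 := by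
    have key : ∀ (W' : WeierstrassCurve ℚ) (L : ℕ) [NeZero L], W' = P.freyCurve → L = q * M →
        ∃ iota : EllReducible.Tors W' P.p →+ JZero L,
          Function.Injective iota ∧ (∀ (σ : AlgebraicClosure ℚ ≃ₐ[ℚ] AlgebraicClosure ℚ) x,
          iota (σ • x) = σ • iota x) ∧
          (∀ ℓ : Nat.Primes, (ℓ : ℕ) ∉ G.S → ∀ x,
            heckeOperatorBar L ℓ (iota x) = G.a ℓ • iota x) ∧
          (∀ σ ∈ A.inertiaSubgroupIn ℚ, ∀ x : EllReducible.Tors W' P.p, σ • x = x) ∧
          ∃ t, LevelLowering.heckeLiftMod P.p G.a G.S t = 1 ∧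
            LevelLowering.heckeLiftBar M G.S t = 0 := by
      intro W' L _ hW hL
      subst hW hL
      exact ⟨G.iota, G.iota_injective, G.iota_smul, G.hecke_iota,
        fun σ hσ x => hunr A hA σ hσ x, G.t, G.t_eval, G.t_old⟩
    exact key _ _ hWE (mul_comm M q)
  have hsq : Squarefree (M * q) := by rw [mul_comm]; exact hcond.squarefree
  obtain ⟨E, he⟩ := exists_etaFun M q A hA hqM P.pp P.hp5 hsq hq1
  refine false_of_eigenPlane (W := P.freyCurveInt) hA hqM (Wiring.freyCurveInt_Δ_ne_zero P)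
    (by have := P.hp5; omega) hqp hq1 ?_ (fun ℓ hℓ h => G.level_mem ℓ hℓ (by rwa [mul_comm q M]))
    G.a iota hinj hsmul heig t ht1 ht0 G.exists_not_eisenstein hfix
    (redDvd_of_etaFun hA hqM hqp E he)
  rw [hWE]
  exact hirr

end FLTA.RT

end
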