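import Fermat.Agent.RT.PointClass
import Fermat.Agent.RT.CoeffBase

/-!
# The class of a point of an algebra of normalised Hecke operators

A point of the algebra generated by commuting multiples of Hecke operators on the free module
`eImage e R` gives a nonzero class over the fraction field of its values, with those eigenvalues.
-/

set_option autoImplicit false

noncomputable section

open CongruenceSubgroup

namespace FLTA.RT

open FLTA.Periods

variable {L : ℕ} [NeZero L] {R : Type} [CommRing R] [IsNoetherianRing R] {χ : (ZMod L)ˣ →* Rˣ}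
  {e : NatEnd (gamChar χ)}

/-- An eigenvector gives a class with its eigenvalues. -/
theorem exists_class_of_vec (hlift : HasLifts (gamChar χ)) (hidem : EqAtRing (e * e) e)
    (hkill : KillsObstruction e) {d : ℕ} (b : Module.Basis (Fin d) R (eImage e R)) {ι : Type*}
    (κ : ι → R) (ℓ : ι → ℕ) (T : ι → Module.End R (eImage e R))
    (hT : ∀ i (x : eImage e R), ((T i x : eImage e R) : tH1 (gamChar χ) R) =
      κ i • (natHecke χ (ℓ i)).app R (x : tH1 (gamChar χ) R))
    {B K : Type} [CommRing B] [CommRing K] [Algebra R B] [Algebra R K] [Algebra B K]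
    [IsScalarTower R B K] [Module.Finite R B] (φ : R →+* K)
    (hφ : φ = (algebraMap B K).comp (algebraMap R B)) (hBK : Function.Injective (algebraMap B K))
    (v : Fin d → B) (hv0 : v ≠ 0) (c : ι → B)
    (hv : ∀ i k, ∑ j, algebraMap R B (LinearMap.toMatrixAlgEquiv b (T i) k j) * v j = c i * v k) :
    ∃ x : tH1 (gamChar (charMap φ χ)) K, x ≠ 0 ∧
      ∀ i, φ (κ i) • (natHecke (charMap φ χ) (ℓ i)).app K x = algebraMap B K (c i) • x := by
  rw [← IsScalarTower.algebraMap_eq] at hφ
  subst hφ
  let incl : B →ₗ[R] K := (IsScalarTower.toAlgHom R B K).toLinearMap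
  have hφK : ∀ (a : R) (z : K), a • z = algebraMap R K a • z := fun a z =>
    (algebraMap_smul K a z).symm
  let z₀ : tH1 (gamChar χ) K := tH1Map (gamChar χ) incl (vecClass b v)
  refine ⟨tH1Base (algebraMap R K) χ hφK z₀, fun h0 => hv0 ?_, fun i => ?_⟩
  · rw [AddEquiv.map_eq_zero_iff] at h0
    exact eq_zero_of_vecClass b hlift hidem v
      (eImage_injective hlift hidem hkill incl hBK (vecClass_mem b v) h0)
  · set M := LinearMap.toMatrixAlgEquiv b (T i)
    have hM : ∀ j, (κ i • natHecke χ (ℓ i)).app R (b j : tH1 (gamChar χ) R) =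
        ∑ k, M k j • (b k : tH1 (gamChar χ) R) := fun j => by
      rw [NatEnd.smul_app, ← hT i (b j), ← b.sum_repr (T i (b j)),
        AddSubmonoidClass.coe_finsetSum]
      exact Finset.sum_congr rfl fun k _ => by
        simp only [M, LinearMap.toMatrixAlgEquiv_apply]
        rfl
    have hvec : (fun k => ∑ j, M k j • v j) = fun k => c i * v k := funext fun k => by
      rw [← hv i k]
      exact Finset.sum_congr rfl fun j _ => Algebra.smul_def _ _
    have hops : (κ i • natHecke χ (ℓ i)).app B (vecClass b v) =
        tH1Map (gamChar χ) (LinearMap.mulLeft R (c i)) (vecClass b v) := by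
      rw [app_vecClass b _ M hM, map_vecClass, hvec]
      rfl
    have hz : κ i • (natHecke χ (ℓ i)).app K z₀ =
        tH1Map (gamChar χ) (LinearMap.mulLeft R (algebraMap B K (c i))) z₀ := by
      rw [← NatEnd.smul_app, (κ i • natHecke χ (ℓ i)).natural, hops, ← tH1Map_comp, ← tH1Map_comp]
      congr 2
      exact LinearMap.ext fun y => map_mul (algebraMap B K) (c i) y
    have hz' := congrArg (tH1Base (algebraMap R K) χ hφK) hz
    rw [tH1Base_smul, tH1Base_natHecke,
      tH1Base_map (algebraMap R K) χ hφK hφK (LinearMap.mulLeft R (algebraMap B K (c i)))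
        (algebraMap B K (c i) • LinearMap.id) (fun y => rfl), tH1Map_smul, tH1Map_id] at hz'
    exact hz'

/-- **A point gives a class with its eigenvalues.** -/
theorem exists_class_of_point (hlift : HasLifts (gamChar χ)) (hidem : EqAtRing (e * e) e)
    (hkill : KillsObstruction e) {d : ℕ} (b : Module.Basis (Fin d) R (eImage e R)) {ι : Type*}
    (κ : ι → R) (ℓ : ι → ℕ) (T : ι → Module.End R (eImage e R))
    (hcomm : ∀ i j, T i * T j = T j * T i)
    (hT : ∀ i (x : eImage e R), ((T i x : eImage e R) : tH1 (gamChar χ) R) =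
      κ i • (natHecke χ (ℓ i)).app R (x : tH1 (gamChar χ) R))
    {B : Type} [CommRing B] [IsDomain B] (ψ : Algebra.adjoin R (Set.range T) →+* B)
    (hfin : (ψ.comp (algebraMap R (Algebra.adjoin R (Set.range T)))).Finite)
    (φ : R →+* FractionRing B) (hφ : φ = (algebraMap B (FractionRing B)).comp
      (ψ.comp (algebraMap R (Algebra.adjoin R (Set.range T))))) :
    ∃ x : tH1 (gamChar (charMap φ χ)) (FractionRing B), x ≠ 0 ∧
      ∀ i, φ (κ i) • (natHecke (charMap φ χ) (ℓ i)).app (FractionRing B) x =
        algebraMap B (FractionRing B) (ψ ⟨T i, Algebra.subset_adjoin ⟨i, rfl⟩⟩) • x := by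
  classical
  have h1 := exists_eigenVec_adjoin (B := B) (ι := ι) b
  have h2 := h1 T hcomm
  have h3 := h2 ψ
  refine h3.elim fun v hvv => ?_
  let _ : Algebra R B := (ψ.comp (algebraMap R (Algebra.adjoin R (Set.range T)))).toAlgebra
  have : Module.Finite R B := hfin
  exact exists_class_of_vec hlift hidem hkill b κ ℓ T hT (B := B) (K := FractionRing B) φ hφ
    (IsFractionRing.injective B (FractionRing B)) v hvv.1
    (fun i => ψ ⟨T i, Algebra.subset_adjoin ⟨i, rfl⟩⟩) hvv.2

end FLTA.RT

end
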