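import Fermat.Agent.LevelLowering.EtaUnit
import Fermat.Agent.Bridge.JExpansion

/-!
# A cube root of `j · (Δ(τ)/Δ(qτ)) · j(qτ) ^ 2`

`E₄(τ) E₄(qτ) ^ 2 / Δ(qτ)` is a modular function of level `q` whose cube is this product.
-/

set_option autoImplicit false

noncomputable section

open scoped MatrixGroups ModularForm
open UpperHalfPlane hiding I
open CongruenceSubgroup ModularCurve AlgebraicCurve HahnSeries FLTA.Congruence FLTA.Bridge
open ModularForm (E₄)

namespace FLTA.RT

variable (q : ℕ) [NeZero q]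

/-- `E₄(τ) E₄(qτ) ^ 2 / Δ(qτ)`. -/
def cubeRootFun (τ : ℍ) : ℂ :=
  E₄ τ * E₄ (scaleTau q τ) ^ 2 / ModularForm.discriminant (scaleTau q τ)

theorem E4_smul (g : SL(2, ℤ)) (τ : ℍ) : E₄ (g • τ) = E₄ τ * denom g τ ^ 4 := by
  have h4 : (⇑E₄) ∣[(4 : ℤ)] g = ⇑E₄ := SlashInvariantFormClass.slash_action_eq E₄ _ ⟨g, rfl⟩
  have h := congrFun h4 τ
  rw [ModularForm.SL_slash_apply] at h
  rw [← h, mul_assoc, zpow_neg, zpow_ofNat,
    inv_mul_cancel₀ (pow_ne_zero _ (denom_ne_zero _ τ)), mul_one]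

theorem cubeRootFun_smul {γ : SL(2, ℤ)} (hγ : γ ∈ Gamma0 q) (τ : ℍ) :
    cubeRootFun q (γ • τ) = cubeRootFun q τ := by
  rw [Gamma0_mem, ZMod.intCast_zmod_eq_zero_iff_dvd] at hγ
  obtain ⟨k, hk⟩ := hγ
  have hdet : γ.1 0 0 * γ.1 1 1 - γ.1 0 1 * γ.1 1 0 = 1 := by
    rw [← Matrix.det_fin_two]; exact γ.2
  let γ' : SL(2, ℤ) := ⟨!![γ.1 0 0, q * γ.1 0 1; k, γ.1 1 1], by
    rw [Matrix.det_fin_two_of]; rw [hk] at hdet; linarith⟩
  have hden : denom γ' (scaleTau q τ : ℂ) = denom γ (τ : ℂ) := by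
    rw [ModularGroup.denom_apply, ModularGroup.denom_apply, coe_scaleTau]
    simp [γ', hk]
    ring
  have he : scaleTau q (γ • τ) = γ' • scaleTau q τ := by
    apply UpperHalfPlane.ext
    rw [coe_scaleTau, coe_smul_eq γ τ, coe_smul_eq γ' _, coe_scaleTau]
    simp only [γ', Matrix.of_apply, Matrix.cons_val', Matrix.cons_val_zero, Matrix.cons_val_one,
      Matrix.cons_val_fin_one, Matrix.empty_val']
    rw [hk]
    push_cast
    rw [mul_div_assoc']
    congr 1 <;> ring
  have hd := denom_ne_zero (γ : GL (Fin 2) ℝ) τ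
  rw [cubeRootFun, cubeRootFun, he, E4_smul, E4_smul, LevelLowering.discriminant_smul, hden]
  have := ModularForm.discriminant_ne_zero (scaleTau q τ)
  field_simp

theorem cubeRootFun_mem_hol : cubeRootFun q ∈ Hol := by
  have hd := UpperHalfPlane.mdifferentiable_iff.mp FLTA.Dim.discriminant_mem.1
  have h4 := UpperHalfPlane.mdifferentiable_iff.mp (ModularFormClass.holo E₄)
  have hp : (0 : ℝ) < q := by exact_mod_cast Nat.pos_of_ne_zero (NeZero.ne q)
  have hs : ∀ F : ℍ → ℂ, DifferentiableOn ℂ (F ∘ ofComplex) {z | 0 < z.im} →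
      DifferentiableOn ℂ ((fun τ => F (scaleTau q τ)) ∘ ofComplex) {z | 0 < z.im} := fun F hF => by
    refine DifferentiableOn.congr
      (f := (F ∘ ofComplex) ∘ fun z : ℂ => (q : ℂ) * z) ?_ ?_
    · exact hF.comp (by fun_prop) (fun z hz => by simpa using mul_pos hp hz)
    · intro z hz
      simp only [Function.comp_apply, ofComplex_apply_of_im_pos hz]
      rw [show (q : ℂ) * z = ((scaleTau q ⟨z, hz⟩ : ℍ) : ℂ) from rfl, ofComplex_apply]
  exact mem_hol_iff_differentiableOn.mpr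
    (((h4.mul ((hs _ h4).pow 2)).div (hs _ hd) fun _ _ => ModularForm.discriminant_ne_zero _))

theorem cubeRootFun_cube (τ : ℍ) :
    cubeRootFun q τ ^ 3 = jInv τ * LevelLowering.etaFun q τ * jInv (scaleTau q τ) ^ 2 := by
  have h1 := ModularForm.discriminant_ne_zero τ
  have h2 := ModularForm.discriminant_ne_zero (scaleTau q τ)
  rw [cubeRootFun, jInv, jInv, LevelLowering.etaFun]
  field_simp

/-- A function whose cube has growth at most polynomial at `i∞` has so too. -/
theorem growthInfty_of_cube {F : ℍ → ℂ} (h : GrowthInfty fun τ => F τ ^ 3) : GrowthInfty F := by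
  obtain ⟨n, hn⟩ := h
  refine ⟨n, isBoundedAtImInfty_iff.mpr ?_⟩
  obtain ⟨C, A, hC⟩ := isBoundedAtImInfty_iff.mp hn
  obtain ⟨C', A', hC'⟩ := isBoundedAtImInfty_iff.mp (isBoundedAtImInfty_qParam_pow (2 * n))
  refine ⟨1 + max C 0 * max C' 0, max A A', fun τ hτ => ?_⟩
  have h1 := hC τ (le_trans (le_max_left _ _) hτ)
  have h2 := hC' τ (le_trans (le_max_right _ _) hτ)
  set x := ‖Function.Periodic.qParam 1 (τ : ℂ) ^ n * F τ‖
  have h3 : x ^ 3 ≤ max C 0 * max C' 0 := by
    have e : x ^ 3 = ‖Function.Periodic.qParam 1 (τ : ℂ) ^ n * F τ ^ 3‖ *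
        ‖Function.Periodic.qParam 1 (τ : ℂ) ^ (2 * n)‖ := by
      show ‖_‖ ^ 3 = _
      rw [← norm_pow, ← norm_mul]
      congr 1
      ring
    rw [e]
    exact mul_le_mul (h1.trans (le_max_left _ _)) (h2.trans (le_max_left _ _)) (norm_nonneg _)
      (le_max_right _ _)
  rcases le_or_gt x 1 with hx | hx
  · exact hx.trans (le_add_of_nonneg_right (mul_nonneg (le_max_right _ _) (le_max_right _ _)))
  · exact ((le_self_pow₀ hx.le (by norm_num)).trans h3).trans (le_add_of_nonneg_left zero_le_one)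

theorem cubeRootFun_mem_modHol : cubeRootFun q ∈ ModHol q := by
  refine ⟨cubeRootFun_mem_hol q, fun γ hγ τ => cubeRootFun_smul q hγ τ, fun g => ?_⟩
  refine growthInfty_of_cube ?_
  have h := (((jMod q) * LevelLowering.etaHol q q dvd_rfl * jAt q q dvd_rfl ^ 2 : ModHol q)).2.2.2 g
  convert h using 1
  funext τ
  exact cubeRootFun_cube q (g • τ)

/-- `E₄(τ) E₄(qτ)² / Δ(qτ)` over `R`. -/
def cubeRootSeries (R : Type*) [CommRing R] : LaurentSeries R :=
  HahnSeries.ofPowerSeries ℤ R (eisenstein4.map (Int.castRingHom R)) *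
    qExpand R q (HahnSeries.ofPowerSeries ℤ R (eisenstein4.map (Int.castRingHom R)) ^ 2 *
      LevelLowering.deltaLaurentInv R)

theorem jqModC_eq_mul (R : Type*) [CommRing R] : jqModC R =
    HahnSeries.ofPowerSeries ℤ R (eisenstein4.map (Int.castRingHom R)) ^ 3 *
      LevelLowering.deltaLaurentInv R := by
  rw [jqModC, jNum, LevelLowering.deltaLaurentInv, map_mul, map_mul, map_pow, map_pow]
  ring

theorem cubeRootSeries_cube (R : Type*) [CommRing R] :
    cubeRootSeries q R ^ 3 = jqModC R * LevelLowering.etaSeries R q *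
      qExpand R q (jqModC R) ^ 2 := by
  set e := HahnSeries.ofPowerSeries ℤ R (eisenstein4.map (Int.castRingHom R)) with he
  set d := LevelLowering.deltaLaurentInv R with hd'
  have hd : LevelLowering.deltaLaurent R * d = 1 := LevelLowering.deltaLaurent_mul_inv
  calc cubeRootSeries q R ^ 3
      = (e ^ 3 * (LevelLowering.deltaLaurent R * d)) *
          qExpand R q (d * (e ^ 3 * d) ^ 2) := by
        rw [hd, mul_one, cubeRootSeries, mul_pow, ← he, ← hd', ← map_pow (qExpand R q)]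
        congr 2
        ring
    _ = _ := by
        rw [jqModC_eq_mul, LevelLowering.etaSeries]
        simp only [map_mul, map_pow]
        ring

/-- The cube root lies in the function field of every level divisible by `q`. -/
theorem exists_cubeRoot (N : ℕ) [NeZero N] (hN : q ∣ N) :
    ∃ x : modularFunctionFieldBar N, (x : LaurentSeries (AlgebraicClosure ℚ)) ^ 3 =
      jqModC (AlgebraicClosure ℚ) * LevelLowering.etaSeries (AlgebraicClosure ℚ) q *
        qExpand (AlgebraicClosure ℚ) q (jqModC (AlgebraicClosure ℚ)) ^ 2 := by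
  set ι := complexEmbedding.toRingHom
  set A : ModHol N := ⟨cubeRootFun q, modHol_mono hN (cubeRootFun_mem_modHol q)⟩
  set x := cubeRootSeries q (AlgebraicClosure ℚ)
  have hA : A ^ 3 = jMod N * LevelLowering.etaHol q N hN * jAt N q hN ^ 2 :=
    Subtype.ext (funext fun τ => cubeRootFun_cube q τ)
  have hx : coeffMap ι x ^ 3 = qexp N A ^ 3 := by
    rw [← map_pow, cubeRootSeries_cube, ← map_pow (qexp N), hA, map_mul, map_mul, map_pow, map_mul,
      map_mul, map_pow, LevelLowering.qexp_etaHol, LevelLowering.coeffMap_etaSeries, qexp_jMod, qexp_jAt,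
      coeffEmb, ← jqModC_rat, coeffMap_qExpand, coeffMap_qExpand, coeffMap_jqModC, coeffMap_jqModC]
  have hx0 : coeffMap ι x ≠ 0 := fun h0 => by
    rw [h0, zero_pow (by norm_num), eq_comm, pow_eq_zero_iff (by norm_num),
      map_eq_zero_iff _ (qexp_injective N)] at hx
    have h1 : A ^ 3 = 0 := by rw [hx, zero_pow (by norm_num)]
    rw [hA] at h1
    simp only [mul_eq_zero, pow_eq_zero_iff two_ne_zero] at h1
    rcases h1 with (h1 | h1) | h1
    · have h := congrArg (qexp N) h1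
      rw [qexp_jMod, map_zero] at h
      exact jq_ne_zero ((map_eq_zero_iff _ (coeffEmb ℂ).injective).mp h)
    · have h := congrArg (qexp N) h1
      rw [LevelLowering.qexp_etaHol, map_zero] at h
      exact LevelLowering.etaSeries_ne_zero q h
    · have h := congrArg (qexp N) h1
      rw [qexp_jAt, map_zero] at h
      exact jq_ne_zero ((map_eq_zero_iff _ (ModularCurve.qExpand ℚ q).injective).mp
        ((map_eq_zero_iff _ (coeffEmb ℂ).injective).mp h))
  set w := qexp N A / coeffMap ι x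
  have hw : w ^ 3 = 1 := by rw [div_pow, hx, div_self (hx ▸ pow_ne_zero _ hx0)]
  obtain ⟨ζ, hζ⟩ : ∃ ζ : ℂ, w = algebraMap ℂ (LaurentSeries ℂ) ζ := by
    obtain ⟨i, -, hi⟩ := ((Complex.isPrimitiveRoot_exp 3 (by norm_num)).map_of_injective
      (algebraMap ℂ (LaurentSeries ℂ)).injective).eq_pow_of_pow_eq_one hw
    exact ⟨_, hi.symm.trans (map_pow _ _ _).symm⟩
  have hζ0 : ζ ≠ 0 := fun h0 => by
    rw [hζ, h0, map_zero, zero_pow (by norm_num)] at hw
    exact zero_ne_one hw
  refine ⟨⟨x, mem_laurentBaseChange_of_rep N ι (A := ζ⁻¹ • A) (B := 1) one_ne_zero ?_⟩,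
    cubeRootSeries_cube q _⟩
  have e : qexp N A = algebraMap ℂ (LaurentSeries ℂ) ζ * coeffMap ι x := by
    rw [← hζ, div_mul_cancel₀ _ hx0]
  rw [map_one, mul_one, Algebra.smul_def, map_mul, AlgHom.commutes, e, ← mul_assoc, ← map_mul,
    inv_mul_cancel₀ hζ0, map_one, one_mul]

end FLTA.RT

end
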