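import Fermat.Agent.Carayol.MatchCompare
import Mathlib.LinearAlgebra.Matrix.Charpoly.Coeff
import Mathlib.Tactic.NoncommRing

/-!
# Algebra for the non-unipotence at a prime of the eigen classes killed by both pushforwards

A group of operators `g` with `(g - 1) ^ 2 = 0` on a module without two-torsion has a nonzero fixed
vector, and a quadratic relation at one vector passes to the powers of the operator.
-/

set_option autoImplicit false

open Polynomial
open scoped Matrix

namespace FLTA.RT

/-- A group of square-zero translates of the identity fixes some nonzero vector. -/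
theorem exists_fixed_of_sq_zero {G : Type*} [Group G] {R : Type*} [CommRing R] {V : Type*}
    [AddCommGroup V] [Module R V] (h2 : ∀ v : V, v + v = 0 → v = 0) (ρ : G →* Module.End R V)
    (hρ : ∀ g, (ρ g - 1) * (ρ g - 1) = 0) {v : V} (hv : v ≠ 0) :
    ∃ w : V, w ≠ 0 ∧ ∀ g, ρ g w = w := by
  let A : G → Module.End R V := fun g => ρ g - 1
  have hmul : ∀ g h, A (g * h) = A g + A h + A g * A h := fun g h => by
    simp only [A, map_mul]
    noncomm_ring
  have hsq : ∀ g, A g * A g = 0 := hρ
  have hdbl : ∀ h, A (h * h) = A h + A h := fun h => by rw [hmul, hsq, add_zero]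
  have htwo : ∀ X : Module.End R V, X + X = 0 → X = 0 := fun X hX =>
    LinearMap.ext fun x => h2 _ (LinearMap.congr_fun hX x)
  have hexp : ∀ a b : Module.End R V, a * a = 0 → b * b = 0 →
      (a + b + a * b) * (a + b + a * b) = a * b + b * a + b * a * b + a * b * a + a * b * a * b := by
    intro a b ha hb
    calc (a + b + a * b) * (a + b + a * b)
        = (a * a + b * b + (a * a) * b + (a * b) * b)
          + (a * b + b * a + b * a * b + a * b * a + a * b * a * b) := by noncomm_ring
      _ = _ := by simp only [ha, hb, mul_assoc, zero_mul, mul_zero, zero_add, add_zero]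
  have hone : ∀ g h, A g * A h + A h * A g + A h * A g * A h + A g * A h * A g
      + A g * A h * A g * A h = 0 := fun g h => by
    rw [← hexp _ _ (hsq g) (hsq h), ← hmul]
    exact hsq _
  have hbab : ∀ g h, A h * A g * A h = 0 := by
    intro g h
    have h1 := hone g h
    have h1' := hone g (h * h)
    rw [hdbl] at h1'
    set a := A g
    set b := A h
    have key : (b * a * b + a * (b * a * b)) + (b * a * b + a * (b * a * b)) = 0 := by
      calc (b * a * b + a * (b * a * b)) + (b * a * b + a * (b * a * b))
          = (a * (b + b) + (b + b) * a + (b + b) * a * (b + b) + a * (b + b) * a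
              + a * (b + b) * a * (b + b))
            - ((a * b + b * a + b * a * b + a * b * a + a * b * a * b)
              + (a * b + b * a + b * a * b + a * b * a + a * b * a * b)) := by noncomm_ring
        _ = 0 := by rw [h1, h1', add_zero, sub_zero]
    have k := htwo _ key
    calc b * a * b = (1 - a) * (b * a * b + a * (b * a * b)) + (a * a) * (b * a * b) := by
          noncomm_ring
      _ = 0 := by rw [k, hsq g, mul_zero, zero_mul, add_zero]
  have hanti : ∀ g h, A g * A h = -(A h * A g) := by
    intro g h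
    have h1 := hone g h
    rw [hbab g h, hbab h g, zero_mul, add_zero, add_zero, add_zero] at h1
    exact eq_neg_of_add_eq_zero_left h1
  have hthree : ∀ g h k, A g * A h * A k = 0 := by
    intro g h k
    have e := hanti (g * h) k
    rw [hmul] at e
    set a := A g
    set b := A h
    set c := A k
    have hab : a * b = -(b * a) := hanti g h
    have hac : a * c = -(c * a) := hanti g k
    have hbc : b * c = -(c * b) := hanti h k
    have hcab : c * a * b = a * b * c := by
      rw [show c * a = -(a * c) by rw [hac, neg_neg], neg_mul, mul_assoc,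
        show c * b = -(b * c) by rw [hbc, neg_neg], mul_neg, neg_neg, mul_assoc]
    refine htwo _ ?_
    calc a * b * c + a * b * c
        = ((a + b + a * b) * c + c * (a + b + a * b)) - (a * c + c * a) - (b * c + c * b)
          + (a * b * c - c * a * b) := by noncomm_ring
      _ = 0 := by
        rw [e, hac, hbc, hcab]
        simp
  by_cases h0 : ∀ g, A g v = 0
  · exact ⟨v, hv, fun g => sub_eq_zero.mp (h0 g)⟩
  simp only [not_forall] at h0
  obtain ⟨g, hg⟩ := h0
  by_cases h1 : ∀ h, A h (A g v) = 0
  · exact ⟨A g v, hg, fun h => sub_eq_zero.mp (h1 h)⟩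
  simp only [not_forall] at h1
  obtain ⟨h, hh⟩ := h1
  exact ⟨A h (A g v), hh, fun k => sub_eq_zero.mp (LinearMap.congr_fun (hthree k h g) v)⟩

/-- A quadratic relation at one vector passes to the powers. -/
theorem pow_relation {R : Type*} [CommRing R] {ι : Type*} [Fintype ι] [DecidableEq ι]
    (X₁ : Matrix ι ι R) (X₂ : Matrix (Fin 2) (Fin 2) R) (w : ι → R)
    (h : X₁ *ᵥ (X₁ *ᵥ w) - X₂.trace • (X₁ *ᵥ w) + X₂.det • w = 0) (m : ℕ) :
    X₁ ^ m *ᵥ (X₁ ^ m *ᵥ w) - (X₂ ^ m).trace • (X₁ ^ m *ᵥ w) + (X₂ ^ m).det • w = 0 := by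
  rcases subsingleton_or_nontrivial R with _ | _
  · exact Subsingleton.elim _ _
  set t := X₂.trace
  set d := X₂.det
  let C₂ : Matrix (Fin 2) (Fin 2) R := !![0, -d; 1, t]
  have hCt : C₂.trace = t := by simp [C₂, Matrix.trace_fin_two]
  have hCd : C₂.det = d := by simp [C₂, Matrix.det_fin_two]
  obtain ⟨ht, hd⟩ := Carayol.trace_det_pow_eq (M := X₂) (M' := C₂) hCt.symm hCd.symm m
  set χ : R[X] := X ^ 2 - C t * X + C d
  set P : R[X] := (X ^ m) ^ 2 - C (X₂ ^ m).trace * X ^ m + C (X₂ ^ m).det
  have hχ : χ.Monic := by simp only [χ]; monicity!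
  have hχ1 : χ.natDegree = 2 := by simp only [χ]; compute_degree!
  have hC : ∀ {S : Matrix (Fin 2) (Fin 2) R},
      S * S - S.trace • S + S.det • (1 : Matrix (Fin 2) (Fin 2) R) = 0 := fun {S} => by
    rw [Carayol.mul_self_two]
    abel
  have hdvd : P %ₘ χ = 0 := by
    have hr : aeval C₂ (P %ₘ χ) = 0 := by
      have e := congrArg (aeval C₂) (modByMonic_add_div P χ)
      rw [map_add, map_mul, show aeval C₂ χ = 0 by
          simpa [χ, Algebra.smul_def, sq, hCt, hCd] using hC (S := C₂),
        zero_mul, add_zero] at e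
      rw [e]
      simpa [P, Algebra.smul_def, sq, ← ht, ← hd] using hC (S := C₂ ^ m)
    have hdeg : (P %ₘ χ).natDegree ≤ 1 := by
      have := natDegree_modByMonic_lt P hχ (fun h1 => by simp [h1] at hχ1)
      omega
    obtain ⟨b, a, hba⟩ := exists_eq_X_add_C_of_natDegree_le_one hdeg
    rw [hba] at hr ⊢
    have h10 := congrArg (fun S : Matrix (Fin 2) (Fin 2) R => S 1 0) hr
    have h00 := congrArg (fun S : Matrix (Fin 2) (Fin 2) R => S 0 0) hr
    simp [C₂, Algebra.algebraMap_eq_smul_one] at h10 h00
    simp [h10, h00]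
  have hw : aeval X₁ χ *ᵥ w = 0 := by
    rw [← h]
    simp [χ, sq, Matrix.add_mulVec, Matrix.sub_mulVec, ← Matrix.mulVec_mulVec,
      Algebra.algebraMap_eq_smul_one, Matrix.smul_mulVec]
  have hP : aeval X₁ P *ᵥ w = 0 := by
    rw [← modByMonic_add_div P χ, hdvd, zero_add, mul_comm, map_mul, ← Matrix.mulVec_mulVec, hw,
      Matrix.mulVec_zero]
  rw [← hP]
  simp [P, sq, Matrix.add_mulVec, Matrix.sub_mulVec, ← Matrix.mulVec_mulVec,
    Algebra.algebraMap_eq_smul_one, Matrix.smul_mulVec, _root_.smul_pow]

end FLTA.RT
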