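import Fermat.Prelude.Def_ModularForm_HeckeOperatorForms
import Mathlib.NumberTheory.ModularForms.Bounds

/-!
# Elementary strict bound for Hecke eigenvalues in weight two

If `f ≠ 0` is a weight two cusp form on `Γ₀(N)` and `T_p f = λ f` then `|λ| < p + 1`: look at a
maximum of `|f(τ)| Im τ`.
-/

set_option autoImplicit false

open UpperHalfPlane Filter Topology CongruenceSubgroup
open scoped MatrixGroups Modular ModularForm

namespace FLTA.RT

/-- A continuous function, invariant under a finite index subgroup and tending to zero at every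
cusp, which is nonnegative, attains a maximum. -/
theorem exists_forall_le_of_invariant {g : ℍ → ℝ} (hg : Continuous g) (hpos : ∀ τ, 0 ≤ g τ)
    {Γ : Subgroup SL(2, ℤ)} [Γ.FiniteIndex] (hinv : ∀ γ ∈ Γ, ∀ τ, g (γ • τ) = g τ)
    (hzero : ∀ γ : SL(2, ℤ), Tendsto (fun τ => g (γ • τ)) atImInfty (𝓝 0)) :
    ∃ τ₀, ∀ τ, g τ ≤ g τ₀ := by
  have : Fintype (SL(2, ℤ) ⧸ Γ) := Subgroup.fintypeQuotientOfFiniteIndex
  let F : SL(2, ℤ) ⧸ Γ → ℍ → ℝ := fun c τ => g (c.out⁻¹ • τ)
  have hF : ∀ τ, ∃ c, ∃ w ∈ 𝒟, g τ = F c w := by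
    intro τ
    obtain ⟨γ, hγ⟩ := ModularGroup.exists_smul_mem_fd τ
    refine ⟨(γ : SL(2, ℤ) ⧸ Γ), γ • τ, hγ, ?_⟩
    have hmem : ((γ : SL(2, ℤ) ⧸ Γ).out⁻¹ * γ) ∈ Γ :=
      QuotientGroup.eq.1 (QuotientGroup.out_eq' _)
    show g τ = g ((γ : SL(2, ℤ) ⧸ Γ).out⁻¹ • γ • τ)
    rw [← mul_smul, hinv _ hmem]
  by_cases h0 : ∀ τ, g τ = 0
  · exact ⟨UpperHalfPlane.I, fun τ => by rw [h0, h0]⟩
  obtain ⟨τ₁, hτ₁⟩ := not_forall.mp h0
  have hev : ∀ᶠ w in atImInfty, ∀ c, F c w < g τ₁ :=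
    eventually_all.2 fun c => (hzero _).eventually (gt_mem_nhds ((hpos τ₁).lt_of_ne' hτ₁))
  rw [atImInfty, eventually_comap, eventually_atTop] at hev
  obtain ⟨y, hy⟩ := hev
  obtain ⟨c₁, w₁, hw₁, he₁⟩ := hF τ₁
  have hw₁y : w₁.im ≤ y := le_of_lt (lt_of_not_ge fun h => (hy _ h w₁ rfl c₁).ne he₁.symm)
  have hmax : ∀ c, ∃ w ∈ ModularGroup.truncatedFundamentalDomain y,
      ∀ v ∈ ModularGroup.truncatedFundamentalDomain y, F c v ≤ F c w :=
    fun c => (ModularGroup.isCompact_truncatedFundamentalDomain y).exists_isMaxOn ⟨w₁, hw₁, hw₁y⟩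
      ((hg.comp (show Continuous fun τ : ℍ => ((c.out⁻¹ : SL(2, ℤ)) : GL (Fin 2) ℝ) • τ by fun_prop)).continuousOn)
  choose w hw hwmax using hmax
  obtain ⟨c₀, -, hc₀⟩ := Finset.univ.exists_max_image (fun c => F c (w c))
    ⟨c₁, Finset.mem_univ _⟩
  refine ⟨c₀.out⁻¹ • w c₀, fun τ => ?_⟩
  show g τ ≤ F c₀ (w c₀)
  obtain ⟨c, v, hv, he⟩ := hF τ
  rw [he]
  rcases le_or_gt v.im y with hvy | hvy
  · exact (hwmax c v ⟨hv, hvy⟩).trans (hc₀ c (Finset.mem_univ c))
  · exact (hy _ hvy.le v rfl c).le.trans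
      (he₁ ▸ (hwmax c₁ w₁ ⟨hw₁, hw₁y⟩).trans (hc₀ c₁ (Finset.mem_univ c₁)))

variable {N : ℕ} [NeZero N]

/-- `|f(τ)| Im τ`. -/
noncomputable def heightFun (f : CuspForm (Gamma0 N) 2) (τ : ℍ) : ℝ := ‖f τ‖ * τ.im

theorem heightFun_sq (f : CuspForm (Gamma0 N) 2) (τ : ℍ) :
    heightFun f τ ^ 2 = ‖petersson 2 ⇑f ⇑f τ‖ := by
  simp [heightFun, petersson, abs_of_pos τ.im_pos]
  ring

theorem heightFun_nonneg (f : CuspForm (Gamma0 N) 2) (τ : ℍ) : 0 ≤ heightFun f τ :=
  mul_nonneg (norm_nonneg _) τ.im_pos.le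

theorem heightFun_eq_sqrt (f : CuspForm (Gamma0 N) 2) :
    heightFun f = fun τ => Real.sqrt ‖petersson 2 ⇑f ⇑f τ‖ :=
  funext fun τ => by rw [← heightFun_sq, Real.sqrt_sq (heightFun_nonneg f τ)]

open ConjAct Pointwise in
theorem tendsto_heightFun (f : CuspForm (Gamma0 N) 2) (γ : SL(2, ℤ)) :
    Tendsto (fun τ => heightFun f (γ • τ)) atImInfty (𝓝 0) := by
  let Γ : Subgroup (GL (Fin 2) ℝ) := (Gamma0 N : Subgroup (GL (Fin 2) ℝ))
  have : ((toConjAct (γ : GL (Fin 2) ℝ)⁻¹) • Γ).IsArithmetic := by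
    simpa [(show Rat.castHom ℝ = algebraMap ℚ ℝ by rfl), map_inv, Matrix.SpecialLinearGroup.map_mapGL]
      using! Subgroup.IsArithmetic.conj Γ (Matrix.SpecialLinearGroup.mapGL ℚ γ)⁻¹
  have h : IsZeroAtImInfty (petersson 2 (⇑f ∣[(2 : ℤ)] γ) (⇑f ∣[(2 : ℤ)] γ)) :=
    (CuspFormClass.zero_at_infty <| CuspForm.translate f γ).petersson_isZeroAtImInfty_left 2 _
      (CuspForm.translate f γ)
  have h2 : Tendsto (fun τ => ‖petersson 2 ⇑f ⇑f (γ • τ)‖) atImInfty (𝓝 0) := by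
    rw [← tendsto_zero_iff_norm_tendsto_zero]
    simp only [← petersson_slash_SL]
    exact h
  have h3 := (Real.continuous_sqrt.tendsto 0).comp h2
  rw [Real.sqrt_zero] at h3
  rw [heightFun_eq_sqrt]
  exact h3

theorem exists_heightFun_max (f : CuspForm (Gamma0 N) 2) :
    ∃ τ₀, ∀ τ, heightFun f τ ≤ heightFun f τ₀ := by
  refine exists_forall_le_of_invariant (Γ := Gamma0 N) ?_ (heightFun_nonneg f) ?_ ?_
  · rw [heightFun_eq_sqrt]
    exact Real.continuous_sqrt.comp (petersson_continuous 2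
      (CuspFormClass.holo f).continuous (CuspFormClass.holo f).continuous).norm
  · intro γ hγ τ
    rw [heightFun_eq_sqrt]
    exact congrArg Real.sqrt
      (SlashInvariantFormClass.norm_petersson_smul (f := f) (f' := f) ⟨γ, hγ, rfl⟩)
  · exact tendsto_heightFun f

/-- **Strict bound**: an eigenvalue of `T_p` has absolute value less than `p + 1`. -/
theorem norm_lt_of_heckeT_eq {f : CuspForm (Gamma0 N) 2} (hf : f ≠ 0) {p : ℕ} (hp : 2 ≤ p) {c : ℂ}
    (h : ∀ τ, ModularForm.heckeT 2 p ⇑f τ = c * f τ) : ‖c‖ < (p : ℝ) + 1 := by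
  have hp0 : p ≠ 0 := by omega
  have hpR : (0 : ℝ) < p := by exact_mod_cast Nat.pos_of_ne_zero hp0
  obtain ⟨τ₀, hmax⟩ := exists_heightFun_max f
  set M := heightFun f τ₀ with hM
  have hMpos : 0 < M := by
    refine lt_of_le_of_ne (heightFun_nonneg f τ₀) fun h0 => hf ?_
    refine DFunLike.ext _ _ fun τ => ?_
    have := le_antisymm (h0 ▸ hmax τ) (heightFun_nonneg f τ)
    simpa [heightFun, τ.im_pos.ne'] using this
  by_contra hcon
  push Not at hcon
  have hdiag : ∀ τ, ((ModularForm.heckeDiagMatrix p) • τ : ℍ).im = p * τ.im := fun τ => by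
    rw [← UpperHalfPlane.coe_im, ModularForm.coe_heckeDiagMatrix_smul hp0]
    simp
  have hmat : ∀ j τ, ((ModularForm.heckeMatrix p j) • τ : ℍ).im = τ.im / p := fun j τ => by
    rw [← UpperHalfPlane.coe_im, ModularForm.coe_heckeMatrix_smul hp0]
    simp [Complex.div_natCast_im]
  have hstep : ∀ τ, heightFun f τ = M →
      heightFun f (ModularForm.heckeDiagMatrix p • τ) = M := by
    intro τ hτ
    refine le_antisymm (hmax _) ?_
    have h1 : ‖c‖ * heightFun f τ ≤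
        (∑ j ∈ Finset.range p, heightFun f (ModularForm.heckeMatrix p j • τ)) +
          heightFun f (ModularForm.heckeDiagMatrix p • τ) := by
      rw [heightFun, ← mul_assoc, ← norm_mul, ← h τ, ModularForm.heckeT_apply 2 hp0]
      refine (mul_le_mul_of_nonneg_right (norm_add_le _ _) τ.im_pos.le).trans ?_
      rw [add_mul]
      refine add_le_add ?_ (le_of_eq ?_)
      · rw [norm_mul, norm_inv, Complex.norm_natCast]
        refine (mul_le_mul_of_nonneg_right (mul_le_mul_of_nonneg_left (norm_sum_le _ _)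
          (by positivity)) τ.im_pos.le).trans (le_of_eq ?_)
        simp only [heightFun, hmat, Finset.mul_sum, Finset.sum_mul]
        exact Finset.sum_congr rfl fun j _ => by ring
      · rw [norm_mul, show ((2 : ℤ) - 1) = 1 by norm_num, zpow_one, Complex.norm_natCast,
          heightFun, hdiag]
        ring
    have h2 : ∑ j ∈ Finset.range p, heightFun f (ModularForm.heckeMatrix p j • τ) ≤ p * M := by
      simpa using Finset.sum_le_card_nsmul (Finset.range p) _ M fun j _ => hmax _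
    rw [hτ] at h1
    nlinarith [mul_le_mul_of_nonneg_right hcon hMpos.le]
  have hiter : ∀ n : ℕ, ∃ τ : ℍ, τ.im = (p : ℝ) ^ n * τ₀.im ∧ heightFun f τ = M := by
    intro n
    induction n with
    | zero => exact ⟨τ₀, by simp, rfl⟩
    | succ n ih =>
      obtain ⟨τ, h1, h2⟩ := ih
      exact ⟨_, by rw [hdiag, h1, pow_succ]; ring, hstep τ h2⟩
  choose τ hτ using hiter
  have hlim : Tendsto τ atTop atImInfty := by
    rw [atImInfty, tendsto_comap_iff]
    refine (((tendsto_pow_atTop_atTop_of_one_lt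
      (show (1 : ℝ) < p by exact_mod_cast (show 1 < p by omega))).atTop_mul_const
        τ₀.im_pos)).congr fun n => (hτ n).1.symm
  have h0 : Tendsto (heightFun f) atImInfty (𝓝 0) := by
    simpa using tendsto_heightFun f 1
  exact hMpos.ne' (tendsto_nhds_unique (tendsto_const_nhds.congr fun n => ((hτ n).2).symm)
    (h0.comp hlim))

end FLTA.RT
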