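import Fermat.Agent.RT.Local.Prime
import Mathlib.RingTheory.Ideal.AssociatedPrime.Localization
import Mathlib.RingTheory.Support
import Mathlib.LinearAlgebra.Matrix.Charpoly.LinearMap

/-!
# Components of the support of a patched module

`S` is a Noetherian local domain and `M` a module over an `S`-algebra `A` which is finite and
torsion free over `S`.  Below every prime of its support lies a prime of the support with trivial
trace on `S`; if all of those contain a prime `C` with `dim A ⧸ C ≤ dim S`, then `C` is in the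
support.
-/

set_option autoImplicit false

noncomputable section

namespace FLTA.RT

open Module

variable {S A : Type} [CommRing S] [IsDomain S] [CommRing A] [Algebra S A]
  {M : Type} [AddCommGroup M] [Module S M] [Module A M] [IsScalarTower S A M]

/-- Below a prime of the support there is one whose trace on `S` is zero. -/
theorem exists_prime_le_of_mem_support [IsNoetherianRing A] [Module.Finite A M]
    (htf : ∀ s : S, s ≠ 0 → ∀ m : M, s • m = 0 → m = 0)
    {P : PrimeSpectrum A} (hP : P ∈ Module.support A M) :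
    ∃ Q : PrimeSpectrum A, Q.asIdeal ≤ P.asIdeal ∧ Q ∈ Module.support A M ∧
      Q.asIdeal.comap (algebraMap S A) = ⊥ := by
  rw [Module.mem_support_iff_of_finite] at hP
  obtain ⟨Q, hQmin, hQP⟩ := Ideal.exists_minimalPrimes_le hP
  have hQ : Q.IsPrime := hQmin.1.1
  refine ⟨⟨Q, hQ⟩, hQP, Module.mem_support_iff_of_finite.mpr hQmin.1.2, ?_⟩
  obtain ⟨x, hx⟩ :=
    (Module.associatedPrimes.minimalPrimes_annihilator_subset_associatedPrimes A M hQmin).2
  rw [eq_bot_iff]
  intro s hs
  rw [Ideal.mem_comap] at hs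
  rw [Ideal.mem_bot]
  by_contra hs0
  change algebraMap S A s ∈ Q at hs
  rw [hx] at hs
  obtain ⟨k, hk⟩ := hs
  rw [Submodule.mem_colon_singleton, Submodule.mem_bot, ← map_pow, algebraMap_smul] at hk
  refine hQ.ne_top ?_
  rw [hx, htf _ (pow_ne_zero k hs0) x hk, Ideal.eq_top_iff_one]
  refine Ideal.le_radical ?_
  rw [Submodule.mem_colon_singleton, smul_zero]
  exact Submodule.zero_mem _

omit [IsDomain S] in
/-- Modulo an ideal containing the annihilator of a finite `S`-module, `A` is integral over `S`. -/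
theorem quotient_isIntegral_of_annihilator_le [Module.Finite S M] {Q : Ideal A}
    (hQ : Module.annihilator A M ≤ Q) :
    ((Ideal.Quotient.mk Q).comp (algebraMap S A)).IsIntegral := by
  intro a
  obtain ⟨a, rfl⟩ := Ideal.Quotient.mk_surjective a
  obtain ⟨f, hfm, hf⟩ :=
    LinearMap.exists_monic_and_aeval_eq_zero S (Algebra.lsmul S S M a)
  refine ⟨f, hfm, ?_⟩
  rw [Polynomial.aeval_algHom_apply] at hf
  have hann : Polynomial.aeval a f ∈ Module.annihilator A M :=
    Module.mem_annihilator.mpr fun m => by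
      have := LinearMap.congr_fun hf m
      simpa using this
  rw [← Polynomial.hom_eval₂, Ideal.Quotient.eq_zero_iff_mem]
  exact hQ (by rwa [Polynomial.aeval_def] at hann)

/-- A prime with trivial trace on `S` in the support of a finite `S`-module containing a prime `C`
with `dim A ⧸ C ≤ dim S` equals `C`. -/
theorem eq_of_le_of_ringKrullDim_le [IsLocalRing S] [IsNoetherianRing S] [Module.Finite S M]
    {C Q : Ideal A} [C.IsPrime] [Q.IsPrime]
    (hdim : ringKrullDim (A ⧸ C) ≤ ringKrullDim S) (hCQ : C ≤ Q)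
    (hann : Module.annihilator A M ≤ Q) (hQS : Q.comap (algebraMap S A) = ⊥) : C = Q := by
  by_contra hne
  obtain ⟨r, hrQ, hrC⟩ := SetLike.exists_of_lt (lt_of_le_of_ne hCQ hne)
  have hr0 : Ideal.Quotient.mk C r ≠ 0 := by rwa [Ne, Ideal.Quotient.eq_zero_iff_mem]
  let π : (A ⧸ C) ⧸ Ideal.span {Ideal.Quotient.mk C r} →+* A ⧸ Q :=
    Ideal.Quotient.lift _ (Ideal.Quotient.factor hCQ) fun x hx => by
      obtain ⟨y, rfl⟩ := Ideal.mem_span_singleton.mp hx
      rw [map_mul, Ideal.Quotient.factor_mk, Ideal.Quotient.eq_zero_iff_mem.mpr hrQ, zero_mul]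
  have hπ : Function.Surjective π := fun x => by
    obtain ⟨a, rfl⟩ := Ideal.Quotient.mk_surjective x
    exact ⟨Ideal.Quotient.mk _ (Ideal.Quotient.mk C a), rfl⟩
  have hinj : Function.Injective ((Ideal.Quotient.mk Q).comp (algebraMap S A)) := by
    rw [RingHom.injective_iff_ker_eq_bot, ← RingHom.comap_ker, Ideal.mk_ker, hQS]
  have h1 : ringKrullDim S ≤ ringKrullDim (A ⧸ Q) :=
    Local.le_ringKrullDim_of_integral_injective _
      (quotient_isIntegral_of_annihilator_le hann) hinj
  have h2 := ringKrullDim_quotient_succ_le_of_nonZeroDivisor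
    (mem_nonZeroDivisors_of_ne_zero hr0)
  have h3 : ringKrullDim S + 1 ≤ ringKrullDim S :=
    le_trans (by gcongr; exact h1.trans (ringKrullDim_le_of_surjective π hπ)) (h2.trans hdim)
  obtain ⟨d, hd⟩ := WithBot.ne_bot_iff_exists.mp (ringKrullDim_ne_bot (R := S))
  have htop : d ≠ ⊤ := fun h => ringKrullDim_ne_top (R := S) (by rw [← hd, h]; rfl)
  obtain ⟨n, rfl⟩ := ENat.ne_top_iff_exists.mp htop
  rw [← hd] at h3
  change ((((n + 1 : ℕ) : ℕ∞) : WithBot ℕ∞)) ≤ ((n : ℕ∞) : WithBot ℕ∞) at h3
  have := ENat.natCast_le_natCast.mp (WithBot.coe_le_coe.mp h3)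
  omega

/-- **Identification of a component.** If `P` is in the support and all primes below `P`
containing the annihilator contain the prime `C`, where `dim A ⧸ C ≤ dim S`, then `C` is in
the support. -/
theorem mem_support_component [IsLocalRing S] [IsNoetherianRing S] [IsNoetherianRing A]
    [Module.Finite S M] (htf : ∀ s : S, s ≠ 0 → ∀ m : M, s • m = 0 → m = 0)
    (C : PrimeSpectrum A) (hdim : ringKrullDim (A ⧸ C.asIdeal) ≤ ringKrullDim S)
    {P : PrimeSpectrum A} (hP : P ∈ Module.support A M)
    (hsep : ∀ Q : Ideal A, Q.IsPrime → Q ≤ P.asIdeal → Module.annihilator A M ≤ Q →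
      C.asIdeal ≤ Q) :
    C ∈ Module.support A M := by
  have : Module.Finite A M := Module.Finite.of_restrictScalars_finite S A M
  obtain ⟨Q, hQP, hQ, hQS⟩ := exists_prime_le_of_mem_support (S := S) htf hP
  have hann : Module.annihilator A M ≤ Q.asIdeal := Module.mem_support_iff_of_finite.mp hQ
  have : C = Q := PrimeSpectrum.ext
    (eq_of_le_of_ringKrullDim_le (S := S) (M := M) hdim
      (hsep Q.asIdeal Q.isPrime hQP hann) hann hQS)
  rwa [this]

end FLTA.RT
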