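import Fermat.Agent.RT.RaisePatched
import Fermat.Agent.RT.RaiseSupport

/-!
# The induction of patched support raising

`SupportsAt` says that a prime of `P₀` is in the support of a patched module.  The theorems are
the first step (`supportsAt_new_of_rank_lt`), the inductive step (`supportsAt_raise`) and the
return to the bottom level (`SupportsAt.mem_of_entries_mem`).
-/

set_option autoImplicit false
set_option linter.style.haveILetI false

noncomputable section

namespace FLTA.RT

open IsLocalRing FLTA.Patching FLTA.Patching.LevelSystem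

variable {S P₀ : Type} [CommRing S] [IsDomain S] [IsNoetherianRing S] [IsLocalRing S]
  [IsAdicComplete (maximalIdeal S) S] [CommRing P₀] {S₀ : Type} [CommRing S₀] [Algebra S₀ S]
  [Algebra S₀ P₀]
  (hfin : ∀ N, Finite (S ⧸ maximalIdeal S ^ N))
  {J : ℕ → Ideal S} (hJ : ∀ n, J n ≤ maximalIdeal S ^ n) {d d' : ℕ}
  (rep : ∀ n, P₀ →+* Matrix (Fin d) (Fin d) (S ⧸ J n))
  (rep' : ∀ n, P₀ →+* Matrix (Fin d') (Fin d') (S ⧸ J n))

/-- The prime `Q` contains the annihilator of the patched module of `rep`. -/
def SupportsAt (Q : Ideal P₀) : Prop :=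
  ∀ f : P₀, (LevelSystem.mk J hJ rep).patch hfin f = 0 → f ∈ Q

omit [IsDomain S] [IsNoetherianRing S] in
lemma SupportsAt.mono {Q Q' : Ideal P₀} (h : SupportsAt hfin hJ rep Q) (hle : Q ≤ Q') :
    SupportsAt hfin hJ rep Q' := fun f hf => hle (h f hf)

variable (S₀) in
/-- `S₀` acts by scalars in the limit: modulo every power of the maximal ideal, almost all levels
see the image of `s` in `P₀` as the scalar given by its image in `S`. -/
def ActsByScalars : Prop :=
  ∀ (s : S₀) (N : ℕ), ∀ᶠ n in (patchFilter : Filter ℕ), ∀ a b (x : S),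
    Ideal.Quotient.mk (J n) x = rep n (algebraMap S₀ P₀ s) a b →
      x - Matrix.scalar (Fin d) (algebraMap S₀ S s) a b ∈ J n ⊔ maximalIdeal S ^ N

omit [IsDomain S] [IsNoetherianRing S] [IsAdicComplete (maximalIdeal S) S] in
/-- Scalars acting by scalar matrices at every level. -/
lemma actsByScalars_of_forall
    (h : ∀ n s, rep n (algebraMap S₀ P₀ s) =
      (Matrix.scalar (Fin d) (algebraMap S₀ S s)).map (Ideal.Quotient.mk (J n))) :
    ActsByScalars S₀ rep := fun s N => Filter.Eventually.of_forall fun n a b x hx => by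
  rw [h n s, Matrix.map_apply] at hx
  exact Ideal.mem_sup_left (Ideal.Quotient.eq.mp hx)

omit [IsDomain S] [IsNoetherianRing S] [IsAdicComplete (maximalIdeal S) S] in
include hfin hJ in
/-- Scalars known through per-level lifts which converge to the structure map. -/
lemma actsByScalars_of_approx [IsLocalRing P₀] (φ : ℕ → S₀ → P₀)
    (hφ : ∀ n s, rep n (φ n s) =
      (Matrix.scalar (Fin d) (algebraMap S₀ S s)).map (Ideal.Quotient.mk (J n)))
    (happ : ∀ s K, ∀ᶠ n in (patchFilter : Filter ℕ),
      φ n s - algebraMap S₀ P₀ s ∈ maximalIdeal P₀ ^ K) :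
    ActsByScalars S₀ rep := fun s N => by
  haveI := hfin N
  refine ((eventually_ge_patchFilter N).and
    (happ s (Nat.card (Matrix (Fin d) (Fin d) (S ⧸ maximalIdeal S ^ N))))).mono ?_
  intro n hn a b x hx
  let ρ : P₀ →+* Matrix (Fin d) (Fin d) (S ⧸ maximalIdeal S ^ N) :=
    (Ideal.Quotient.factor ((hJ n).trans (Ideal.pow_le_pow_right hn.1))).mapMatrix.comp (rep n)
  have h0 := congrFun (congrFun (map_pow_card_eq_bot ρ hn.2) a) b
  simp only [ρ, RingHom.comp_apply, map_sub, RingHom.mapMatrix_apply, Matrix.sub_apply,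
    Matrix.map_apply, Matrix.zero_apply, hφ, ← hx, Ideal.Quotient.factor_mk, sub_eq_zero] at h0
  exact Ideal.mem_sup_right (Ideal.Quotient.eq.mp h0.symm)

omit [IsDomain S] in
lemma patch_algebraMap (hσ : ActsByScalars S₀ rep) (s : S₀) :
    (LevelSystem.mk J hJ rep).patch hfin (algebraMap S₀ P₀ s) =
      Matrix.scalar (Fin d) (algebraMap S₀ S s) := by
  refine Matrix.ext fun a b => eq_of_forall_sub_mem_pow fun N => ?_
  obtain ⟨n, ⟨hn, h₁⟩, h₂⟩ :=
    (((LevelSystem.mk J hJ rep).patch_spec hfin (algebraMap S₀ P₀ s) N).and (hσ s N)).exists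
  obtain ⟨x, hx⟩ := Ideal.Quotient.mk_surjective (rep n (algebraMap S₀ P₀ s) a b)
  have e₁ := h₁ a b x hx
  have e₂ : x - Matrix.scalar (Fin d) (algebraMap S₀ S s) a b ∈ maximalIdeal S ^ N :=
    sup_le ((hJ n).trans (Ideal.pow_le_pow_right hn)) le_rfl (h₂ a b x hx)
  simpa using sub_mem e₂ e₁

omit [IsDomain S] in
lemma patchModule_isScalarTower (hσ : ActsByScalars S₀ rep) :
    letI := (LevelSystem.mk J hJ rep).patchModule hfin
    IsScalarTower S₀ P₀ (Fin d → S) := by
  letI := (LevelSystem.mk J hJ rep).patchModule hfin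
  refine IsScalarTower.of_algebraMap_smul fun s v => ?_
  rw [(LevelSystem.mk J hJ rep).patchModule_smul_def hfin, patch_algebraMap hfin hJ rep hσ]
  funext a
  simp [Matrix.mulVec_diagonal, Algebra.smul_def]

omit [IsDomain S] in
/-- The patched module is finite and Noetherian over `P₀`. -/
lemma patchModule_isNoetherian [IsNoetherianRing S₀] [Module.Finite S₀ S]
    (hσ : ActsByScalars S₀ rep) :
    letI := (LevelSystem.mk J hJ rep).patchModule hfin
    IsNoetherian P₀ (Fin d → S) := by
  letI := (LevelSystem.mk J hJ rep).patchModule hfin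
  haveI := patchModule_isScalarTower hfin hJ rep hσ
  exact isNoetherian_of_tower S₀ inferInstance

omit [IsDomain S] [IsNoetherianRing S] [IsLocalRing S] [IsAdicComplete (maximalIdeal S) S] in
/-- The entries of a power of a matrix with entries in `I` lie in the power of `I`. -/
lemma pow_apply_mem (I : Ideal S) (A : Matrix (Fin d) (Fin d) S) (hA : ∀ a b, A a b ∈ I) :
    ∀ (c : ℕ) a b, (A ^ c) a b ∈ I ^ c := by
  intro c
  induction c with
  | zero => intro a b; simp
  | succ c ih =>
    intro a b
    rw [pow_succ A, Matrix.mul_apply, pow_succ I]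
    exact Submodule.sum_mem _ fun e _ => Ideal.mul_mem_mul (ih a e) (hA e b)

omit [IsDomain S] [IsNoetherianRing S] in
lemma patch_eq_zero_iff (f : P₀) :
    letI := (LevelSystem.mk J hJ rep).patchModule hfin
    (LevelSystem.mk J hJ rep).patch hfin f = 0 ↔
      f ∈ Module.annihilator P₀ (Fin d → S) := by
  letI := (LevelSystem.mk J hJ rep).patchModule hfin
  rw [Module.mem_annihilator]
  constructor
  · intro h v
    rw [(LevelSystem.mk J hJ rep).patchModule_smul_def hfin, h, Matrix.zero_mulVec]
  · intro h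
    refine Matrix.ext_of_mulVec_single fun b => ?_
    rw [Matrix.zero_mulVec, ← (LevelSystem.mk J hJ rep).patchModule_smul_def hfin]
    exact h _

omit [IsDomain S] in
/-- **Return to the bottom level.** A prime of the support containing an ideal `I₀` of `S₀`
contains every element acting on the patched module by a matrix with entries in an ideal `I` of `S`
of which a power lies in `I₀ S`. -/
theorem SupportsAt.mem_of_entries_mem [IsNoetherianRing S₀] [Module.Finite S₀ S]
    (hσ : ActsByScalars S₀ rep) {Q : Ideal P₀} [Q.IsPrime]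
    (h : SupportsAt hfin hJ rep Q) {I₀ : Ideal S₀} (hI : I₀.map (algebraMap S₀ P₀) ≤ Q)
    {I : Ideal S} {c : ℕ} (hc : I ^ c ≤ I₀.map (algebraMap S₀ S)) {f : P₀}
    (hf : ∀ a b, (LevelSystem.mk J hJ rep).patch hfin f a b ∈ I) : f ∈ Q := by
  letI := (LevelSystem.mk J hJ rep).patchModule hfin
  haveI := patchModule_isScalarTower hfin hJ rep hσ
  haveI := patchModule_isNoetherian hfin hJ rep hσ
  have key : ∀ t ∈ I₀.map (algebraMap S₀ S), ∀ v : Fin d → S,
      t • v ∈ Q • (⊤ : Submodule P₀ (Fin d → S)) := by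
    intro t ht
    induction ht using Submodule.span_induction with
    | mem y hy =>
      obtain ⟨z, hz, rfl⟩ := hy
      intro v
      rw [algebraMap_smul, ← algebraMap_smul P₀ z v]
      exact Submodule.smul_mem_smul (hI (Ideal.mem_map_of_mem _ hz)) Submodule.mem_top
    | zero => intro v; rw [zero_smul]; exact zero_mem _
    | add y y' _ _ hy hy' => intro v; rw [add_smul]; exact add_mem (hy v) (hy' v)
    | smul r y _ hy => intro v; rw [smul_eq_mul, mul_comm, mul_smul]; exact hy _
  refine ‹Q.IsPrime›.mem_of_pow_mem c ?_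
  refine mem_of_annihilator_quotient_mem (Fin d → S) Q
    (sup_le (fun g hg => h g ((patch_eq_zero_iff hfin hJ rep g).mpr hg)) le_rfl) ‹_› ?_
  refine Module.mem_annihilator.mpr fun x => ?_
  induction x using Submodule.Quotient.induction_on with
  | _ v =>
    rw [← Submodule.Quotient.mk_smul, Submodule.Quotient.mk_eq_zero,
      (LevelSystem.mk J hJ rep).patchModule_smul_def hfin, ← Finset.univ_sum_single (Matrix.mulVec _ v)]
    refine Submodule.sum_mem _ fun a _ => ?_
    have ha : ((LevelSystem.mk J hJ rep).patch hfin (f ^ c)).mulVec v a ∈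
        I₀.map (algebraMap S₀ S) := by
      rw [map_pow]
      simp only [Matrix.mulVec, dotProduct]
      exact Submodule.sum_mem _ fun b _ => Ideal.mul_mem_right _ _
        (hc (pow_apply_mem I _ hf c a b))
    have he : (Pi.single a (((LevelSystem.mk J hJ rep).patch hfin (f ^ c)).mulVec v a) : Fin d → S) =
        ((LevelSystem.mk J hJ rep).patch hfin (f ^ c)).mulVec v a •
          (Pi.single a 1 : Fin d → S) := by
      rw [← Pi.single_smul, smul_eq_mul, mul_one]
    rw [he]
    exact key _ ha _

variable {ι : Type} [Fintype ι] [DecidableEq ι]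
  (iF : ι → ∀ n, Matrix (Fin d') (Fin d) (S ⧸ J n))
  (jF : ι → ∀ n, Matrix (Fin d) (Fin d') (S ⧸ J n))

/-- At every level `f` factors through the maps `jF`, so it kills their common kernel. -/
def KillsNew (f : P₀) : Prop :=
  ∃ U : ι → ∀ n, Matrix (Fin d') (Fin d) (S ⧸ J n), ∀ n, rep' n f = ∑ k, U k n * jF k n

omit [IsDomain S] [IsNoetherianRing S] [IsLocalRing S] [IsAdicComplete (maximalIdeal S) S]
  [DecidableEq ι] in
/-- An element which is zero at every level kills the new part. -/
lemma killsNew_of_rep_eq_zero {f : P₀} (h : ∀ n, rep' n f = 0) : KillsNew rep' jF f :=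
  ⟨fun _ _ => 0, fun n => by rw [h n]; simp⟩

variable (S₀) in
/-- The hypotheses of one raising step at every level. -/
structure RaiseData (T : Matrix ι ι P₀) (P : Ideal S) (B₀ : ι → ι → Matrix (Fin d) (Fin d) S) :
    Prop where
  scalars : ActsByScalars S₀ rep
  scalars' : ActsByScalars S₀ rep'
  i_comm : ∀ l n f, iF l n * rep n f = rep' n f * iF l n
  j_comm : ∀ k n f, jF k n * rep' n f = rep n f * jF k n
  j_mul_i : ∀ n k l, jF k n * iF l n = rep n (T k l)
  i_injective : ∀ n, 1 ≤ n → ∀ B : ι → Matrix (Fin d') (Fin d) S,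
    (∀ l, (B l).map (Ideal.Quotient.mk (J n)) = iF l n) → ∀ c : ι → Fin d → S,
    (∀ a, (∑ l, (B l).mulVec (c l)) a ∈ maximalIdeal S) → ∀ l b, c l b ∈ maximalIdeal S
  j_surjective : ∀ n, 1 ≤ n → ∀ B : ι → Matrix (Fin d) (Fin d') S,
    (∀ k, (B k).map (Ideal.Quotient.mk (J n)) = jF k n) → ∀ c : ι → Fin d → S,
    ∃ v : Fin d' → S, ∀ k a, c k a - (B k).mulVec v a ∈ maximalIdeal S
  prime : P.IsPrime
  bottom : ∀ n k l a b (x : S), Ideal.Quotient.mk (J n) x = rep n (T k l) a b →
    x - B₀ k l a b ∈ P ⊔ J n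
  bottom_injective : ∀ c : ι → Fin d → S, (∀ k a, (∑ l, (B₀ k l).mulVec (c l)) a ∈ P) →
    ∀ l b, c l b ∈ P

variable {rep rep' iF jF} {T : Matrix ι ι P₀} {P : Ideal S}
  {B₀ : ι → ι → Matrix (Fin d) (Fin d) S}

variable [IsDomain S₀] [IsNoetherianRing S₀] [IsLocalRing S₀] [Module.Finite S₀ S]
  [FaithfulSMul S₀ S]

omit [IsNoetherianRing S] [IsLocalRing S] [IsAdicComplete (maximalIdeal S) S]
  [IsNoetherianRing S₀] [IsLocalRing S₀] [IsDomain S₀] [Module.Finite S₀ S] in
/-- A free `S`-module is torsion free over `S₀`. -/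
lemma eq_zero_of_base_smul {κ : Type} {s : S₀} (hs : s ≠ 0) {v : κ → S} (hv : s • v = 0) :
    v = 0 := by
  have h0 : algebraMap S₀ S s ≠ 0 := fun h =>
    hs (FaithfulSMul.algebraMap_injective S₀ S (h.trans (map_zero _).symm))
  refine smul_right_injective (κ → S) h0 ?_
  show algebraMap S₀ S s • v = algebraMap S₀ S s • (0 : κ → S)
  rw [algebraMap_smul, hv, smul_zero]

omit [DecidableEq ι] in
/-- A prime `C` with `dim P₀ ⧸ C ≤ dim S` below which the separation property holds is in the
support of the new part, hence of the upper module. -/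
theorem supportsAt_of_mem_support_ker [IsNoetherianRing P₀] (hd : RaiseData S₀ rep rep' iF jF T P B₀)
    (C : Ideal P₀) [C.IsPrime] (hdim : ringKrullDim (P₀ ⧸ C) ≤ ringKrullDim S₀)
    (j : letI := (LevelSystem.mk J hJ rep).patchModule hfin
      letI := (LevelSystem.mk J hJ rep').patchModule hfin
      (Fin d' → S) →ₗ[P₀] (ι → Fin d → S))
    (hkill : letI := (LevelSystem.mk J hJ rep).patchModule hfin
      letI := (LevelSystem.mk J hJ rep').patchModule hfin
      ∀ f, KillsNew rep' jF f → ∀ v ∈ LinearMap.ker j, f • v = 0)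
    {Q₁ : PrimeSpectrum P₀}
    (hQ₁ : letI := (LevelSystem.mk J hJ rep).patchModule hfin
      letI := (LevelSystem.mk J hJ rep').patchModule hfin
      Q₁ ∈ Module.support P₀ (LinearMap.ker j))
    (hsep : ∀ Q : Ideal P₀, Q.IsPrime → Q ≤ Q₁.asIdeal → (∀ f, KillsNew rep' jF f → f ∈ Q) →
      C ≤ Q) :
    SupportsAt hfin hJ rep' C := by
  letI := (LevelSystem.mk J hJ rep).patchModule hfin
  letI := (LevelSystem.mk J hJ rep').patchModule hfin
  haveI := patchModule_isScalarTower hfin hJ rep hd.scalars
  haveI := patchModule_isScalarTower hfin hJ rep' hd.scalars'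
  haveI : IsScalarTower S₀ P₀ (LinearMap.ker j) := ⟨fun s a v => Subtype.ext (smul_assoc s a v.1)⟩
  haveI : Module.Finite S₀ (LinearMap.ker j) :=
    Module.Finite.of_injective ((LinearMap.ker j).subtype.restrictScalars S₀) Subtype.val_injective
  haveI : Module.Finite P₀ (LinearMap.ker j) :=
    Module.Finite.of_restrictScalars_finite S₀ P₀ _
  have htf : ∀ s : S₀, s ≠ 0 → ∀ v : LinearMap.ker j, s • v = 0 → v = 0 := fun s hs v hv =>
    Subtype.ext (eq_zero_of_base_smul hs (congrArg Subtype.val hv))
  have hC : (⟨C, ‹_›⟩ : PrimeSpectrum P₀) ∈ Module.support P₀ (LinearMap.ker j) :=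
    mem_support_component (S := S₀) htf ⟨C, ‹_›⟩ hdim hQ₁ fun Q hQ hle hann =>
      hsep Q hQ hle fun f hf =>
        hann (Module.mem_annihilator.mpr fun v => Subtype.ext (hkill f hf v v.2))
  intro f hf
  refine Module.annihilator_le_of_mem_support hC ?_
  exact Module.mem_annihilator.mpr fun v =>
    Subtype.ext (Module.mem_annihilator.mp ((patch_eq_zero_iff hfin hJ rep' f).mp hf) v.1)

/-- **Inductive step.** From a prime `Q₁` in the support of the lower module at which the
determinant vanishes, the component `C` of the new part is in the support of the upper module. -/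
theorem supportsAt_raise [IsNoetherianRing P₀] (hd : RaiseData S₀ rep rep' iF jF T P B₀)
    (C : Ideal P₀) [C.IsPrime] (hdim : ringKrullDim (P₀ ⧸ C) ≤ ringKrullDim S₀)
    (Q₁ : Ideal P₀) [Q₁.IsPrime] (hQ₁ : SupportsAt hfin hJ rep Q₁) (hdet : T.det ∈ Q₁)
    (hsep : ∀ Q : Ideal P₀, Q.IsPrime → Q ≤ Q₁ → (∀ f, KillsNew rep' jF f → f ∈ Q) → C ≤ Q) :
    SupportsAt hfin hJ rep' C := by
  letI := (LevelSystem.mk J hJ rep).patchModule hfin
  letI := (LevelSystem.mk J hJ rep').patchModule hfin
  haveI := patchModule_isScalarTower hfin hJ rep hd.scalars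
  haveI := patchModule_isScalarTower hfin hJ rep' hd.scalars'
  haveI := patchModule_isNoetherian hfin hJ rep hd.scalars
  haveI := patchModule_isNoetherian hfin hJ rep' hd.scalars'
  haveI := hd.prime
  obtain ⟨j, -, -, hkill, hsupp⟩ := exists_patched_raise hfin hJ rep rep'
    ((LevelSystem.mk J hJ rep).patchModule_smul_def hfin)
    ((LevelSystem.mk J hJ rep').patchModule_smul_def hfin) iF jF hd.i_comm hd.j_comm T hd.j_mul_i
    hd.i_injective hd.j_surjective P B₀ hd.bottom hd.bottom_injective
  have hmem : (⟨Q₁, ‹_›⟩ : PrimeSpectrum P₀) ∈ Module.support P₀ (Fin d → S) :=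
    Module.mem_support_iff_of_finite.mpr fun f hf =>
      hQ₁ f ((patch_eq_zero_iff hfin hJ rep f).mpr hf)
  exact supportsAt_of_mem_support_ker hfin hJ hd C hdim j hkill (hsupp _ hmem hdet) hsep

/-- **First step.** If the upper rank exceeds the rank of the old part, a component containing
every prime above the relations of the new part is in the support of the upper module. -/
theorem supportsAt_new_of_rank_lt [IsNoetherianRing P₀]
    (hd : RaiseData S₀ rep rep' iF jF T P B₀) (hrank : Fintype.card ι * d < d')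
    (C : Ideal P₀) [C.IsPrime] (hdim : ringKrullDim (P₀ ⧸ C) ≤ ringKrullDim S₀)
    (hsep : ∀ Q : Ideal P₀, Q.IsPrime → (∀ f, KillsNew rep' jF f → f ∈ Q) → C ≤ Q) :
    SupportsAt hfin hJ rep' C := by
  letI := (LevelSystem.mk J hJ rep).patchModule hfin
  letI := (LevelSystem.mk J hJ rep').patchModule hfin
  haveI := patchModule_isScalarTower hfin hJ rep hd.scalars
  haveI := patchModule_isScalarTower hfin hJ rep' hd.scalars'
  haveI := patchModule_isNoetherian hfin hJ rep hd.scalars
  haveI := patchModule_isNoetherian hfin hJ rep' hd.scalars'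
  haveI := hd.prime
  obtain ⟨j, hjv, -, hkill, -⟩ := exists_patched_raise hfin hJ rep rep'
    ((LevelSystem.mk J hJ rep).patchModule_smul_def hfin)
    ((LevelSystem.mk J hJ rep').patchModule_smul_def hfin) iF jF hd.i_comm hd.j_comm T hd.j_mul_i
    hd.i_injective hd.j_surjective P B₀ hd.bottom hd.bottom_injective
  haveI : Nontrivial (LinearMap.ker j) := by
    refine Submodule.nontrivial_iff_ne_bot.mpr fun h => ?_
    have hinj : Function.Injective j := LinearMap.ker_eq_bot.mp h
    have hle := LinearMap.finrank_le_finrank_of_injective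
      (f := ({ toFun := j, map_add' := map_add j,
               map_smul' := fun s v => funext fun k => by
                 rw [RingHom.id_apply, Pi.smul_apply, hjv, hjv, Matrix.mulVec_smul] } :
        (Fin d' → S) →ₗ[S] (ι → Fin d → S))) hinj
    rw [Module.finrank_fin_fun, Module.finrank_pi_fintype] at hle
    simp only [Module.finrank_fin_fun, Finset.sum_const, Finset.card_univ, smul_eq_mul] at hle
    omega
  obtain ⟨Q₁, hQ₁⟩ : (Module.support P₀ (LinearMap.ker j)).Nonempty :=
    Module.nonempty_support_iff.mpr inferInstance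
  exact supportsAt_of_mem_support_ker hfin hJ hd C hdim j hkill hQ₁
    fun Q hQ _ h => hsep Q hQ h

omit [IsNoetherianRing S] in
/-- **Base.** A nonzero patched module lives on a component containing every prime above its
relations. -/
theorem supportsAt_base [IsNoetherianRing S] [IsNoetherianRing P₀] (hσ : ActsByScalars S₀ rep)
    (hrank : 0 < d) (C : Ideal P₀) [C.IsPrime]
    (hdim : ringKrullDim (P₀ ⧸ C) ≤ ringKrullDim S₀)
    (hsep : ∀ Q : Ideal P₀, Q.IsPrime → (∀ f, (∀ n, rep n f = 0) → f ∈ Q) → C ≤ Q) :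
    SupportsAt hfin hJ rep C := by
  letI := (LevelSystem.mk J hJ rep).patchModule hfin
  haveI := patchModule_isScalarTower hfin hJ rep hσ
  haveI : Nonempty (Fin d) := ⟨⟨0, hrank⟩⟩
  obtain ⟨Q₁, hQ₁⟩ : (Module.support P₀ (Fin d → S)).Nonempty :=
    Module.nonempty_support_iff.mpr inferInstance
  haveI : Module.Finite P₀ (Fin d → S) := Module.Finite.of_restrictScalars_finite S₀ P₀ _
  have hC : (⟨C, ‹_›⟩ : PrimeSpectrum P₀) ∈ Module.support P₀ (Fin d → S) :=
    mem_support_component (S := S₀) (fun s hs v hv => eq_zero_of_base_smul hs hv)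
      ⟨C, ‹_›⟩ hdim hQ₁ fun Q hQ _ hann => hsep Q hQ fun f hf =>
        hann ((patch_eq_zero_iff hfin hJ rep f).mp
          ((LevelSystem.mk J hJ rep).patch_eq_zero hfin (Filter.Eventually.of_forall hf)))
  exact fun f hf =>
    Module.annihilator_le_of_mem_support hC ((patch_eq_zero_iff hfin hJ rep f).mp hf)

end FLTA.RT
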