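import Fermat.Agent.RT.RaiseAlgebra
import Fermat.Agent.Patching.LimitMap

/-!
# Support raising for patched modules

Two level systems of the same ring `P₀` with families of intertwining matrices `iF`, `jF` such that
`jF k ∘ iF l` is the action of `T k l`. In the limit `j` is surjective and the support of its
kernel contains every prime of the support of the first module containing `det T`; relations
factoring through `jF` at every level kill this kernel.
-/

set_option autoImplicit false

noncomputable section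

namespace FLTA.RT

open IsLocalRing FLTA.Patching FLTA.Patching.LevelSystem

section limit

variable {S : Type} [CommRing S] [IsLocalRing S] [IsAdicComplete (maximalIdeal S) S]
  (hfin : ∀ N, Finite (S ⧸ maximalIdeal S ^ N))
  {J : ℕ → Ideal S} (hJ : ∀ n, J n ≤ maximalIdeal S ^ n) {d d' : ℕ}

include hJ in
/-- Limits of finite sums of families. -/
theorem limMatrix_finsum {κ : Type} [Fintype κ]
    (F : κ → ∀ n, Matrix (Fin d') (Fin d) (S ⧸ J n)) :
    limMatrix hfin (fun n => ∑ k, F k n) = ∑ k, limMatrix hfin (F k) := by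
  ext a b
  refine eq_of_forall_sub_mem_pow fun N => ?_
  obtain ⟨n, ⟨-, h₀⟩, h₁⟩ := ((limMatrix_spec hfin hJ (fun n => ∑ k, F k n) N).and
    (Filter.eventually_all.mpr fun k => limMatrix_spec hfin hJ (F k) N)).exists
  have e₀ := h₀ a b (∑ k, Quotient.out (F k n a b)) (by
    rw [map_sum, Matrix.sum_apply]
    exact Finset.sum_congr rfl fun k _ => Quotient.out_eq _)
  have e₁ := Submodule.sum_mem _ fun k (_ : k ∈ Finset.univ) =>
    (h₁ k).2 a b _ (Quotient.out_eq (F k n a b))
  convert sub_mem e₁ e₀ using 1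
  rw [Matrix.sum_apply, Finset.sum_sub_distrib]
  ring

include hJ in
/-- The limit agrees with almost every level modulo the maximal ideal. -/
theorem exists_limMatrix_sub_mem {κ : Type} [Fintype κ]
    (F : κ → ∀ n, Matrix (Fin d') (Fin d) (S ⧸ J n)) :
    ∃ n, 1 ≤ n ∧ ∀ k a b (x : S), Ideal.Quotient.mk (J n) x = F k n a b →
      x - limMatrix hfin (F k) a b ∈ maximalIdeal S := by
  obtain ⟨n, hn, h⟩ := ((eventually_ge_patchFilter 1).and
    (Filter.eventually_all.mpr fun k => limMatrix_spec hfin hJ (F k) 1)).exists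
  exact ⟨n, hn, fun k a b x hx => by simpa using (h k).2 a b x hx⟩

end limit

section mem

variable {S : Type} [CommRing S] {ι : Type} [Fintype ι] {d : ℕ}

theorem mem_ideal_smul_pi (I : Ideal S) (v : ι → Fin d → S) :
    v ∈ I • (⊤ : Submodule S (ι → Fin d → S)) ↔ ∀ l a, v l a ∈ I := by
  classical
  constructor
  · intro hv l a
    refine Submodule.smul_induction_on hv (fun r hr x _ => ?_) fun x y hx hy => ?_
    · exact I.mul_mem_right _ hr
    · exact I.add_mem hx hy
  · intro h
    have : v = ∑ l, ∑ a, v l a • Pi.single l (Pi.single a 1) := by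
      funext l a
      simp [Finset.sum_apply, Pi.single_apply, ite_apply]
    rw [this]
    exact Submodule.sum_mem _ fun l _ => Submodule.sum_mem _ fun a _ =>
      Submodule.smul_mem_smul (h l a) Submodule.mem_top

theorem mem_ideal_smul_fun (I : Ideal S) (v : Fin d → S) :
    v ∈ I • (⊤ : Submodule S (Fin d → S)) ↔ ∀ a, v a ∈ I := by
  constructor
  · intro hv a
    refine Submodule.smul_induction_on hv (fun r hr x _ => ?_) fun x y hx hy => ?_
    · exact I.mul_mem_right _ hr
    · exact I.add_mem hx hy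
  · intro h
    rw [← Finset.univ_sum_single v]
    refine Submodule.sum_mem _ fun a _ => ?_
    rw [show Pi.single a (v a) = v a • (Pi.single a 1 : Fin d → S) by
      rw [← Pi.single_smul, smul_eq_mul, mul_one]]
    exact Submodule.smul_mem_smul (h a) Submodule.mem_top

/-- An endomorphism killing the common kernel of a jointly surjective family factors through
it. -/
theorem exists_factor_of_kills {d' : ℕ} (jM : ι → Matrix (Fin d) (Fin d') S)
    (hsurj : ∀ c : ι → Fin d → S, ∃ v, ∀ k, (jM k).mulVec v = c k)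
    (M : Matrix (Fin d') (Fin d') S)
    (hM : ∀ v, (∀ k, (jM k).mulVec v = 0) → M.mulVec v = 0) :
    ∃ U : ι → Matrix (Fin d') (Fin d) S, M = ∑ k, U k * jM k := by
  classical
  let j : (Fin d' → S) →ₗ[S] (ι → Fin d → S) := LinearMap.pi fun k => (jM k).mulVecLin
  have hj : Function.Surjective j := fun c => by
    obtain ⟨v, hv⟩ := hsurj c
    exact ⟨v, funext hv⟩
  obtain ⟨s, hs⟩ := Module.projective_lifting_property j LinearMap.id hj
  refine ⟨fun k => LinearMap.toMatrix' (M.mulVecLin.comp (s.comp (LinearMap.single S (fun _ : ι => Fin d → S) k))), ?_⟩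
  refine Matrix.ext_of_mulVec_single fun b => ?_
  set v : Fin d' → S := Pi.single b 1
  have h0 : M.mulVec (v - s (j v)) = 0 := by
    refine hM _ fun k => ?_
    have := congrFun (LinearMap.congr_fun hs (j v)) k
    rw [Matrix.mulVec_sub, sub_eq_zero]
    exact this.symm
  rw [Matrix.mulVec_sub, sub_eq_zero] at h0
  rw [h0, Matrix.sum_mulVec]
  conv_lhs => rw [show j v = ∑ k, Pi.single k ((jM k).mulVec v) from
    (Finset.univ_sum_single (j v)).symm, map_sum, Matrix.mulVec_sum]
  refine Finset.sum_congr rfl fun k _ => ?_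
  rw [← Matrix.mulVec_mulVec, LinearMap.toMatrix'_mulVec]
  rfl

end mem

variable {S P₀ : Type} [CommRing S] [IsDomain S] [IsNoetherianRing S] [IsLocalRing S]
  [IsAdicComplete (maximalIdeal S) S] [CommRing P₀]
  (hfin : ∀ N, Finite (S ⧸ maximalIdeal S ^ N))
  {J : ℕ → Ideal S} (hJ : ∀ n, J n ≤ maximalIdeal S ^ n) {d d' : ℕ}
  (rep : ∀ n, P₀ →+* Matrix (Fin d) (Fin d) (S ⧸ J n))
  (rep' : ∀ n, P₀ →+* Matrix (Fin d') (Fin d') (S ⧸ J n))
  [Module P₀ (Fin d → S)] [Module.Finite P₀ (Fin d → S)]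
  (hsmul : ∀ f v, f • v = ((LevelSystem.mk J hJ rep).patch hfin f).mulVec v)
  [Module P₀ (Fin d' → S)] [IsNoetherian P₀ (Fin d' → S)]
  (hsmul' : ∀ f v, f • v = ((LevelSystem.mk J hJ rep').patch hfin f).mulVec v)
  {ι : Type} [Fintype ι] [DecidableEq ι]
  (iF : ι → ∀ n, Matrix (Fin d') (Fin d) (S ⧸ J n))
  (jF : ι → ∀ n, Matrix (Fin d) (Fin d') (S ⧸ J n))

include hsmul hsmul' in
/-- **Support raising for patched modules.** -/
theorem exists_patched_raise (hι : ∀ l n f, iF l n * rep n f = rep' n f * iF l n)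
    (hκ : ∀ k n f, jF k n * rep' n f = rep n f * jF k n)
    (T : Matrix ι ι P₀) (hji : ∀ n k l, jF k n * iF l n = rep n (T k l))
    (hi : ∀ n, 1 ≤ n → ∀ B : ι → Matrix (Fin d') (Fin d) S,
      (∀ l, (B l).map (Ideal.Quotient.mk (J n)) = iF l n) → ∀ c : ι → Fin d → S,
      (∀ a, (∑ l, (B l).mulVec (c l)) a ∈ maximalIdeal S) → ∀ l b, c l b ∈ maximalIdeal S)
    (hj : ∀ n, 1 ≤ n → ∀ B : ι → Matrix (Fin d) (Fin d') S,
      (∀ k, (B k).map (Ideal.Quotient.mk (J n)) = jF k n) → ∀ c : ι → Fin d → S,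
      ∃ v : Fin d' → S, ∀ k a, c k a - (B k).mulVec v a ∈ maximalIdeal S)
    (P : Ideal S) [P.IsPrime] (B₀ : ι → ι → Matrix (Fin d) (Fin d) S)
    (hB₀ : ∀ n k l a b (x : S), Ideal.Quotient.mk (J n) x = rep n (T k l) a b →
      x - B₀ k l a b ∈ P ⊔ J n)
    (hB₀' : ∀ c : ι → Fin d → S, (∀ k a, (∑ l, (B₀ k l).mulVec (c l)) a ∈ P) →
      ∀ l b, c l b ∈ P) :
    ∃ j : (Fin d' → S) →ₗ[P₀] (ι → Fin d → S),
      (∀ v k, j v k = (limMatrix hfin (jF k)).mulVec v) ∧ Function.Surjective j ∧
      (∀ f : P₀, (∃ U : ι → ∀ n, Matrix (Fin d') (Fin d) (S ⧸ J n),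
          ∀ n, rep' n f = ∑ k, U k n * jF k n) → ∀ v ∈ LinearMap.ker j, f • v = 0) ∧
      ∀ Q : PrimeSpectrum P₀, Q ∈ Module.support P₀ (Fin d → S) → T.det ∈ Q.asIdeal →
        Q ∈ Module.support P₀ (LinearMap.ker j) := by
  let j : (Fin d' → S) →ₗ[P₀] (ι → Fin d → S) :=
    { toFun := fun v k => (limMatrix hfin (jF k)).mulVec v
      map_add' := fun v w => funext fun k => Matrix.mulVec_add _ _ _
      map_smul' := fun f v => funext fun k => by
        rw [RingHom.id_apply, Pi.smul_apply, hsmul, hsmul', Matrix.mulVec_mulVec,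
          Matrix.mulVec_mulVec, limMatrix_intertwines hfin hJ (jF k) f fun n => hκ k n f] }
  let i : (ι → Fin d → S) →ₗ[P₀] (Fin d' → S) :=
    { toFun := fun c => ∑ l, (limMatrix hfin (iF l)).mulVec (c l)
      map_add' := fun c c' => by
        simp only [Pi.add_apply, Matrix.mulVec_add, Finset.sum_add_distrib]
      map_smul' := fun f c => by
        rw [RingHom.id_apply, hsmul', Matrix.mulVec_sum]
        refine Finset.sum_congr rfl fun l _ => ?_
        rw [Pi.smul_apply, hsmul, Matrix.mulVec_mulVec, Matrix.mulVec_mulVec,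
          limMatrix_intertwines hfin hJ (iF l) f fun n => hι l n f] }
  have hcomp : ∀ c k, j (i c) k = ∑ l, T k l • c l := by
    intro c k
    show (limMatrix hfin (jF k)).mulVec (∑ l, (limMatrix hfin (iF l)).mulVec (c l)) = _
    rw [Matrix.mulVec_sum]
    refine Finset.sum_congr rfl fun l _ => ?_
    rw [hsmul, Matrix.mulVec_mulVec, ← limMatrix_mul hfin hJ, ← limMatrix_rep hfin
      (LevelSystem.mk J hJ rep) (T k l), funext fun n => hji n k l]
  have hkill : ∀ f : P₀, (∃ U : ι → ∀ n, Matrix (Fin d') (Fin d) (S ⧸ J n),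
      ∀ n, rep' n f = ∑ k, U k n * jF k n) → ∀ v ∈ LinearMap.ker j, f • v = 0 := by
    rintro f ⟨U, hU⟩ v hv
    have hv' : ∀ k, (limMatrix hfin (jF k)).mulVec v = 0 := fun k =>
      congrFun (LinearMap.mem_ker.mp hv) k
    have e : limMatrix hfin (fun n => rep' n f) =
        ∑ k, limMatrix hfin (U k) * limMatrix hfin (jF k) := by
      rw [funext hU, limMatrix_finsum hfin hJ (fun k n => U k n * jF k n)]
      exact Finset.sum_congr rfl fun k _ => limMatrix_mul hfin hJ _ _
    rw [hsmul', ← limMatrix_rep hfin (LevelSystem.mk J hJ rep') f, e, Matrix.sum_mulVec]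
    refine Finset.sum_eq_zero fun k _ => ?_
    rw [← Matrix.mulVec_mulVec, hv', Matrix.mulVec_zero]
  have hmvj : ∀ (X Y : Matrix (Fin d) (Fin d') S) (w : Fin d' → S) (a : Fin d),
      (∀ b, X a b - Y a b ∈ maximalIdeal S) →
      X.mulVec w a - Y.mulVec w a ∈ maximalIdeal S := by
    intro X Y w a h
    simp only [Matrix.mulVec, dotProduct, ← Finset.sum_sub_distrib, ← sub_mul]
    exact Submodule.sum_mem _ fun b _ => Ideal.mul_mem_right _ _ (h b)
  have hmvi : ∀ (X Y : Matrix (Fin d') (Fin d) S) (w : Fin d → S) (a : Fin d'),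
      (∀ b, X a b - Y a b ∈ maximalIdeal S) →
      X.mulVec w a - Y.mulVec w a ∈ maximalIdeal S := by
    intro X Y w a h
    simp only [Matrix.mulVec, dotProduct, ← Finset.sum_sub_distrib, ← sub_mul]
    exact Submodule.sum_mem _ fun b _ => Ideal.mul_mem_right _ _ (h b)
  have hi' : ∀ c, i c ∈ maximalIdeal S • (⊤ : Submodule S (Fin d' → S)) →
      c ∈ maximalIdeal S • (⊤ : Submodule S (ι → Fin d → S)) := by
    intro c hc
    rw [mem_ideal_smul_fun] at hc
    rw [mem_ideal_smul_pi]
    obtain ⟨n, hn, hlim⟩ := exists_limMatrix_sub_mem hfin hJ iF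
    refine hi n hn (fun l => (iF l n).map Quotient.out) (fun l => Matrix.ext fun a b =>
      Quotient.out_eq _) c fun a => ?_
    have h0 : (i c) a = ∑ l, (limMatrix hfin (iF l)).mulVec (c l) a := Finset.sum_apply a _ _
    have h1 := add_mem (Submodule.sum_mem _ fun l (_ : l ∈ Finset.univ) =>
      hmvi ((iF l n).map Quotient.out) (limMatrix hfin (iF l)) (c l) a fun b =>
        hlim l a b _ (Quotient.out_eq _)) (hc a)
    rw [Finset.sum_sub_distrib, h0, sub_add_cancel] at h1
    rwa [Finset.sum_apply]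
  have hj' : ∀ c, ∃ v, c - j v ∈ maximalIdeal S • (⊤ : Submodule S (ι → Fin d → S)) := by
    intro c
    obtain ⟨n, hn, hlim⟩ := exists_limMatrix_sub_mem hfin hJ jF
    obtain ⟨v, hv⟩ := hj n hn (fun k => (jF k n).map Quotient.out) (fun k => Matrix.ext fun a b =>
      Quotient.out_eq _) c
    refine ⟨v, (mem_ideal_smul_pi _ _).mpr fun k a => ?_⟩
    show c k a - (limMatrix hfin (jF k)).mulVec v a ∈ _
    rw [← sub_add_sub_cancel (c k a) (((jF k n).map Quotient.out).mulVec v a)]
    exact add_mem (hv k a) (hmvj _ _ v a fun b => hlim k a b _ (Quotient.out_eq _))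
  have h₀ : ∀ c, j (i c) ∈ P • (⊤ : Submodule S (ι → Fin d → S)) →
      c ∈ P • (⊤ : Submodule S (ι → Fin d → S)) := by
    intro c hc
    rw [mem_ideal_smul_pi] at hc ⊢
    refine hB₀' c fun k a => ?_
    have e := hc k a
    rw [hcomp, Finset.sum_apply] at e
    rw [Finset.sum_apply]
    have h1 : ∀ l, (T k l • c l) a - (B₀ k l).mulVec (c l) a ∈ P := by
      intro l
      rw [hsmul]
      simp only [Matrix.mulVec, dotProduct, ← Finset.sum_sub_distrib, ← sub_mul]
      exact Submodule.sum_mem _ fun b _ => Ideal.mul_mem_right _ _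
        ((LevelSystem.mk J hJ rep).patch_sub_const_mem hfin P (B₀ k l)
          (fun n a b x hx => hB₀ n k l a b x hx) a b)
    have h2 := sub_mem e (Submodule.sum_mem _ fun l (_ : l ∈ Finset.univ) => h1 l)
    rwa [Finset.sum_sub_distrib, sub_sub_cancel] at h2
  haveI : SMulCommClass P₀ S (Fin d' → S) := ⟨fun f s v => by
    rw [hsmul', hsmul', Matrix.mulVec_smul]⟩
  have hjS : ∀ (s : S) v, j (s • v) = s • j v := fun s v => funext fun k => by
    show (limMatrix hfin (jF k)).mulVec (s • v) = s • (limMatrix hfin (jF k)).mulVec v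
    exact Matrix.mulVec_smul _ _ _
  have hiS : ∀ (s : S) c, i (s • c) = s • i c := fun s c => by
    show (∑ l, (limMatrix hfin (iF l)).mulVec ((s • c) l)) = s • ∑ l, _
    rw [Finset.smul_sum]
    exact Finset.sum_congr rfl fun l _ => by rw [Pi.smul_apply, Matrix.mulVec_smul]
  exact ⟨j, fun v k => rfl, surjective_of_mod_maximal
      ({ toFun := j, map_add' := map_add j, map_smul' := hjS } :
        (Fin d' → S) →ₗ[S] (ι → Fin d → S)) hj', hkill,
    fun Q hQ hdet => (mem_support_new_of_mod i j hiS hjS T hcomp hi' hj' P h₀ hQ hdet).2⟩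

end FLTA.RT
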