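import Fermat.Agent.RT.FreeCocycle

/-!
# Transfers between the twisted cohomology of two groups

A `TSys` consists of elements `rep x` of an ambient group `G` with
`rep x * e γ = e' (cocyc γ x) * rep (perm γ x)` and weights compatible with the twists. It gives a
map from the twisted cohomology of `Γ'` to that of `Γ`. Restrictions, corestrictions, Hecke
operators and their composites are of this form, and `TSys.op_eq_of_rep` compares two of them.
-/

set_option autoImplicit false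

noncomputable section

universe u

namespace FLTA.RT

open FLTA.Periods

variable {Γ Γ' Γ'' : Type*} [Group Γ] [Group Γ'] [Group Γ''] {G : Type*} [Group G]
  {R : Type u} [CommRing R]

/-- A weighted system of representatives inducing a transfer from `Γ'` to `Γ`. -/
structure TSys (e : Γ →* G) (e' : Γ' →* G) (χ : Γ →* Rˣ) (χ' : Γ' →* Rˣ) (ι : Type*) where
  rep : ι → G
  perm : Γ → Equiv.Perm ι
  cocyc : Γ → ι → Γ'
  rep_mul : ∀ γ x, rep x * e γ = e' (cocyc γ x) * rep (perm γ x)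
  cocyc_mul : ∀ g h x, cocyc (g * h) x = cocyc g x * cocyc h (perm g x)
  perm_mul : ∀ g h x, perm (g * h) x = perm h (perm g x)
  w : ι → Rˣ
  compat : ∀ γ x, w x * χ' (cocyc γ x) = χ γ * w (perm γ x)

namespace TSys

variable {e : Γ →* G} {e' : Γ' →* G} {e'' : Γ'' →* G} {χ : Γ →* Rˣ} {χ' : Γ' →* Rˣ}
  {χ'' : Γ'' →* Rˣ} {ι κ : Type*} [Fintype ι] [Fintype κ]

/-- The transfer on cocycles. -/
def opZ (S : TSys e e' χ χ' ι) (V : Type u) [AddCommGroup V] [Module R V] :
    tCocycles χ' V →ₗ[R] tCocycles χ V where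
  toFun f := ⟨fun γ => ∑ x, (S.w x : R) • f.1 (S.cocyc γ x), fun g h => by
    simp only [S.cocyc_mul, f.2 _ _, smul_add, Finset.sum_add_distrib, Finset.smul_sum]
    congr 1
    rw [← Equiv.sum_comp (S.perm g) fun x => (χ g : R) • (S.w x : R) • f.1 (S.cocyc h x)]
    refine Finset.sum_congr rfl fun x _ => ?_
    rw [smul_smul, smul_smul, ← Units.val_mul, ← Units.val_mul, S.compat]⟩
  map_add' f f' := by
    ext γ
    simp only [Submodule.coe_add, Pi.add_apply, smul_add, Finset.sum_add_distrib]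
  map_smul' a f := by
    ext γ
    simp only [Submodule.coe_smul, Pi.smul_apply, RingHom.id_apply, Finset.smul_sum, smul_comm a]

theorem opZ_apply (S : TSys e e' χ χ' ι) {V : Type u} [AddCommGroup V] [Module R V]
    (f : tCocycles χ' V) (γ : Γ) : (S.opZ V f).1 γ = ∑ x, (S.w x : R) • f.1 (S.cocyc γ x) := rfl

theorem opZ_delta (S : TSys e e' χ χ' ι) {V : Type u} [AddCommGroup V] [Module R V] (v : V) :
    S.opZ V (tDelta χ' V v) = tDelta χ V (∑ x, (S.w x : R) • v) := by
  ext γ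
  simp only [opZ_apply, tDelta_apply, smul_sub, Finset.sum_sub_distrib, Finset.smul_sum]
  congr 1
  rw [← Equiv.sum_comp (S.perm γ) fun x => (χ γ : R) • (S.w x : R) • v]
  refine Finset.sum_congr rfl fun x _ => ?_
  rw [smul_smul, smul_smul, ← Units.val_mul, ← Units.val_mul, S.compat]

/-- The transfer on classes. -/
def op (S : TSys e e' χ χ' ι) (V : Type u) [AddCommGroup V] [Module R V] :
    tH1 χ' V →ₗ[R] tH1 χ V :=
  Submodule.mapQ _ _ (S.opZ V) (by
    rintro _ ⟨v, rfl⟩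
    exact ⟨_, (S.opZ_delta v).symm⟩)

@[simp] theorem op_class (S : TSys e e' χ χ' ι) {V : Type u} [AddCommGroup V] [Module R V]
    (f : tCocycles χ' V) : S.op V (tClass χ' V f) = tClass χ V (S.opZ V f) := rfl

/-- Naturality in the coefficients. -/
theorem op_natural (S : TSys e e' χ χ' ι) {V W : Type u} [AddCommGroup V] [Module R V]
    [AddCommGroup W] [Module R W] (φ : V →ₗ[R] W) (x : tH1 χ' V) :
    S.op W (tH1Map χ' φ x) = tH1Map χ φ (S.op V x) := by
  obtain ⟨f, rfl⟩ := tClass_surjective χ' x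
  rw [tH1Map_class, op_class, op_class, tH1Map_class]
  congr 1
  ext γ
  simp only [tMapZ_apply, opZ_apply, map_sum, map_smul]

/-- Rescaling the weights by a unit. -/
@[simps]
def scale (S : TSys e e' χ χ' ι) (u : Rˣ) : TSys e e' χ χ' ι where
  rep := S.rep
  perm := S.perm
  cocyc := S.cocyc
  rep_mul := S.rep_mul
  cocyc_mul := S.cocyc_mul
  perm_mul := S.perm_mul
  w x := u * S.w x
  compat γ x := by rw [mul_assoc, S.compat, mul_left_comm]

theorem op_scale (S : TSys e e' χ χ' ι) (u : Rˣ) {V : Type u} [AddCommGroup V] [Module R V]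
    (y : tH1 χ' V) : (S.scale u).op V y = (u : R) • S.op V y := by
  obtain ⟨f, rfl⟩ := tClass_surjective χ' y
  rw [op_class, op_class, ← map_smul]
  congr 1
  ext γ
  simp only [opZ_apply, Submodule.coe_smul, Pi.smul_apply, Finset.smul_sum, scale_w, scale_cocyc,
    Units.val_mul, mul_smul]

/-- The composite of two transfers. -/
def comp (S : TSys e e' χ χ' ι) (T : TSys e' e'' χ' χ'' κ) : TSys e e'' χ χ'' (ι × κ) where
  rep z := T.rep z.2 * S.rep z.1
  perm γ :=
    { toFun := fun z => (S.perm γ z.1, T.perm (S.cocyc γ z.1) z.2)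
      invFun := fun z =>
        ((S.perm γ).symm z.1, (T.perm (S.cocyc γ ((S.perm γ).symm z.1))).symm z.2)
      left_inv := fun z => by simp
      right_inv := fun z => by simp }
  cocyc γ z := T.cocyc (S.cocyc γ z.1) z.2
  rep_mul γ z := by
    show _ = e'' _ * (T.rep _ * S.rep _)
    rw [mul_assoc, S.rep_mul, ← mul_assoc, T.rep_mul, mul_assoc]
    rfl
  cocyc_mul g h z := by
    show T.cocyc (S.cocyc (g * h) z.1) z.2 = _
    rw [S.cocyc_mul, T.cocyc_mul]
    rfl
  perm_mul g h z := by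
    show (S.perm (g * h) z.1, T.perm (S.cocyc (g * h) z.1) z.2) = _
    rw [S.cocyc_mul, S.perm_mul, T.perm_mul]
    rfl
  w z := S.w z.1 * T.w z.2
  compat γ z := by
    show _ = χ γ * (S.w (S.perm γ z.1) * T.w (T.perm (S.cocyc γ z.1) z.2))
    rw [mul_assoc, T.compat, ← mul_assoc, S.compat, mul_assoc]

omit [Fintype ι] [Fintype κ] in
@[simp] theorem comp_rep (S : TSys e e' χ χ' ι) (T : TSys e' e'' χ' χ'' κ) (z : ι × κ) :
    (S.comp T).rep z = T.rep z.2 * S.rep z.1 := rfl

omit [Fintype ι] [Fintype κ] in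
@[simp] theorem comp_w (S : TSys e e' χ χ' ι) (T : TSys e' e'' χ' χ'' κ) (z : ι × κ) :
    (S.comp T).w z = S.w z.1 * T.w z.2 := rfl

theorem op_comp (S : TSys e e' χ χ' ι) (T : TSys e' e'' χ' χ'' κ) {V : Type u} [AddCommGroup V]
    [Module R V] (y : tH1 χ'' V) : (S.comp T).op V y = S.op V (T.op V y) := by
  obtain ⟨f, rfl⟩ := tClass_surjective χ'' y
  rw [op_class, op_class, op_class]
  congr 1
  ext γ
  simp only [opZ_apply, Finset.smul_sum, smul_smul, ← Units.val_mul, Fintype.sum_prod_type]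
  rfl

/-- Two transfers with corresponding representatives agree on classes. -/
theorem op_eq_of_perm (S : TSys e e' χ χ' ι) (T : TSys e e' χ χ' κ)
    (hinj : Function.Injective e') (σ : ι ≃ κ) (d : ι → Γ')
    (hperm : ∀ γ x, T.perm γ (σ x) = σ (S.perm γ x))
    (hd : ∀ x, S.rep x = e' (d x) * T.rep (σ x))
    (hw : ∀ x, S.w x * χ' (d x) = T.w (σ x)) {V : Type u} [AddCommGroup V] [Module R V]
    (y : tH1 χ' V) : S.op V y = T.op V y := by
  obtain ⟨f, rfl⟩ := tClass_surjective χ' y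
  rw [op_class, op_class, ← sub_eq_zero, ← map_sub, tClass_eq_zero_iff]
  refine ⟨-∑ x, (S.w x : R) • f.1 (d x), Subtype.ext (funext fun γ => ?_)⟩
  have hc : ∀ x, S.cocyc γ x * d (S.perm γ x) = d x * T.cocyc γ (σ x) := by
    intro x
    refine hinj (mul_right_cancel (b := T.rep (σ (S.perm γ x))) ?_)
    rw [map_mul, map_mul, mul_assoc, ← hd, ← S.rep_mul, hd, mul_assoc, T.rep_mul, hperm,
      mul_assoc]
  have hterm : ∀ x, (S.w x : R) • f.1 (S.cocyc γ x) = (S.w x : R) • f.1 (d x)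
      + (T.w (σ x) : R) • f.1 (T.cocyc γ (σ x))
      - (χ γ : R) • (S.w (S.perm γ x) : R) • f.1 (d (S.perm γ x)) := by
    intro x
    have h1 : f.1 (S.cocyc γ x) + (χ' (S.cocyc γ x) : R) • f.1 (d (S.perm γ x))
        = f.1 (d x) + (χ' (d x) : R) • f.1 (T.cocyc γ (σ x)) := by
      rw [← f.2, ← f.2, hc]
    rw [eq_sub_iff_add_eq, smul_smul (χ γ : R), ← Units.val_mul, ← S.compat, ← hw, Units.val_mul,
      Units.val_mul, mul_smul, mul_smul, ← smul_add, ← smul_add, h1]
  rw [tDelta_apply, Submodule.coe_sub, Pi.sub_apply, opZ_apply, opZ_apply,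
    ← Equiv.sum_comp σ fun x => (T.w x : R) • f.1 (T.cocyc γ x)]
  simp only [hterm, Finset.sum_sub_distrib, Finset.sum_add_distrib]
  rw [← Finset.smul_sum, Equiv.sum_comp (S.perm γ) fun x => (S.w x : R) • f.1 (d x), smul_neg]
  abel

/-- Variant where the target system determines the permutation. -/
theorem op_eq_of_rep (S : TSys e e' χ χ' ι) (T : TSys e e' χ χ' κ)
    (hinj : Function.Injective e') (huniq : ∀ x y δ, e' δ * T.rep x = T.rep y → x = y)
    (σ : ι ≃ κ) (d : ι → Γ') (hd : ∀ x, S.rep x = e' (d x) * T.rep (σ x))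
    (hw : ∀ x, S.w x * χ' (d x) = T.w (σ x)) {V : Type u} [AddCommGroup V] [Module R V]
    (y : tH1 χ' V) : S.op V y = T.op V y := by
  refine op_eq_of_perm S T hinj σ d (fun γ x => ?_) hd hw y
  refine huniq _ _ ((S.cocyc γ x * d (S.perm γ x))⁻¹ * (d x * T.cocyc γ (σ x))) ?_
  have h := S.rep_mul γ x
  rw [hd, hd, mul_assoc, T.rep_mul, ← mul_assoc, ← mul_assoc, ← map_mul, ← map_mul] at h
  rw [map_mul, map_inv, mul_assoc, h, inv_mul_cancel_left]

/-- Restriction along a homomorphism realised by conjugation with `D`. -/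
@[simps]
def pull (f : Γ →* Γ') (D : G) (hD : ∀ γ, D * e γ = e' (f γ) * D) (hχ : ∀ γ, χ' (f γ) = χ γ) :
    TSys e e' χ χ' Unit where
  rep _ := D
  perm _ := Equiv.refl _
  cocyc γ _ := f γ
  rep_mul γ _ := hD γ
  cocyc_mul g h _ := map_mul f g h
  perm_mul _ _ _ := rfl
  w _ := 1
  compat γ _ := by rw [one_mul, mul_one, hχ]

theorem pull_opZ_apply (f : Γ →* Γ') (D : G) (hD : ∀ γ, D * e γ = e' (f γ) * D)
    (hχ : ∀ γ, χ' (f γ) = χ γ) {V : Type u} [AddCommGroup V] [Module R V]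
    (z : tCocycles χ' V) (γ : Γ) : ((pull f D hD hχ).opZ V z).1 γ = z.1 (f γ) := by
  simp [opZ_apply]

/-- The transfer attached to a weighted system of Hecke representatives. -/
@[simps]
def ofWeight {S : HeckeReps e ι} {c : ι → Rˣ} (hc : IsWeight χ S c) : TSys e e χ χ ι where
  rep := S.rep
  perm := S.permEquiv
  cocyc := S.cocyc
  rep_mul := S.rep_mul
  cocyc_mul := S.cocyc_mul
  perm_mul := S.perm_mul
  w := c
  compat := hc.compat

theorem op_ofWeight {S : HeckeReps e ι} {c : ι → Rˣ} (hc : IsWeight χ S c) {V : Type u}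
    [AddCommGroup V] [Module R V] (y : tH1 χ V) : (ofWeight hc).op V y = hc.op V y := by
  obtain ⟨f, rfl⟩ := tClass_surjective χ y
  rfl

end TSys

/-- Hecke operators commute with a restriction given by conjugation with `D`. -/
theorem IsWeight.op_pull {e : Γ →* G} {e' : Γ' →* G} {χ : Γ →* Rˣ} {χ' : Γ' →* Rˣ}
    {ι κ : Type*} [Fintype ι] [Fintype κ] {A : HeckeReps e ι} {A' : HeckeReps e' κ}
    {a : ι → Rˣ} {a' : κ → Rˣ} (ha : IsWeight χ A a) (ha' : IsWeight χ' A' a')
    (f : Γ →* Γ') (D : G) (hD : ∀ γ, D * e γ = e' (f γ) * D) (hχ : ∀ γ, χ' (f γ) = χ γ)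
    (σ : ι ≃ κ) (d : ι → Γ') (hd : ∀ x, D * A.rep x = e' (d x) * (A'.rep (σ x) * D))
    (hw : ∀ x, a x * χ' (d x) = a' (σ x)) {V : Type u} [AddCommGroup V] [Module R V]
    (y : tH1 χ' V) :
    ha.op V ((TSys.pull f D hD hχ).op V y) = (TSys.pull f D hD hχ).op V (ha'.op V y) := by
  rw [← TSys.op_ofWeight ha, ← TSys.op_ofWeight ha', ← TSys.op_comp, ← TSys.op_comp]
  refine TSys.op_eq_of_rep _ _ A'.inj ?_ ((Equiv.prodUnique ι Unit).trans
    (σ.trans (Equiv.uniqueProd κ Unit).symm)) (fun z => d z.1) ?_ ?_ y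
  · rintro ⟨⟨⟩, x⟩ ⟨⟨⟩, x'⟩ δ h
    simp only [TSys.comp_rep, TSys.pull_rep, TSys.ofWeight_rep, ← mul_assoc] at h
    rw [A'.unique x x' δ (mul_right_cancel h)]
  · rintro ⟨x, ⟨⟩⟩
    simpa using hd x
  · rintro ⟨x, ⟨⟩⟩
    simpa using hw x

end FLTA.RT
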