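import Fermat.Agent.RT.S59Interface
import Mathlib.Data.Nat.Squarefree

/-!
# Assembly of modularity lifting at `p ∈ {3, 5}` from the interface statements
-/

set_option autoImplicit false

open WeierstrassCurve

namespace FLTA.RT

variable {p : ℕ} {W : WeierstrassCurve ℤ}

lemma LiftingCurve.prime (h : LiftingCurve p W) : p.Prime := by
  rcases h.hp with rfl | rfl <;> norm_num

lemma LiftingCurve.ne_two (h : LiftingCurve p W) : p ≠ 2 := by
  rcases h.hp with rfl | rfl <;> norm_num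

lemma div_prime_lt {M q : ℕ} (hM : 0 < M) (hq : q.Prime) : M / q < M :=
  Nat.div_lt_self hM hq.one_lt

lemma squarefree_div {M q : ℕ} (hM : Squarefree M) (hq : q ∣ M) : Squarefree (M / q) :=
  hM.squarefree_of_dvd (Nat.div_dvd_of_dvd hq)

lemma lcm_two_pow_mul_four {a k : ℕ} (ha : a ≤ 2) (hk : Odd k) :
    Nat.lcm (2 ^ a * k) 4 = 4 * k := by
  have hc : Nat.Coprime 4 k :=
    (show (4 : ℕ) = 2 ^ 2 by norm_num) ▸ (Nat.coprime_two_left.mpr hk).pow_left 2
  refine Nat.dvd_antisymm (Nat.lcm_dvd ?_ (dvd_mul_right 4 k)) ?_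
  · exact Nat.mul_dvd_mul_right ((pow_dvd_pow 2 ha).trans (by norm_num)) k
  · exact hc.mul_dvd_of_dvd_of_dvd (Nat.dvd_lcm_right _ _)
      ((dvd_mul_left k (2 ^ a)).trans (Nat.dvd_lcm_left _ _))

/-- Odd squares are removed from the level. -/
theorem exists_squarefree_odd_part (hA : SqDescent) (h : LiftingCurve p W) (m : ℕ) :
    ∀ a ≤ 2, Odd m → W.IsResiduallyModularOfLevel p (2 ^ a * m) → ¬ p ^ 2 ∣ m →
      (∀ r : ℕ, r.Prime → r ≠ p → ¬ r ^ 3 ∣ m) →
      ∃ a' ≤ 2, ∃ m' : ℕ, Odd m' ∧ Squarefree m' ∧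
        W.IsResiduallyModularOfLevel p (2 ^ a' * m') := by
  induction m using Nat.strong_induction_on with
  | _ m ih =>
    intro a ha hodd hres hp2 hcube
    by_cases hsq : Squarefree m
    · exact ⟨a, ha, m, hodd, hsq, hres⟩
    rw [Nat.squarefree_iff_prime_squarefree] at hsq
    push Not at hsq
    obtain ⟨q, hq, hdvd⟩ := hsq
    rw [← pow_two] at hdvd
    have hqp : q ≠ p := fun e => hp2 (e ▸ hdvd)
    have hqm : q ∣ m := (dvd_pow_self q two_ne_zero).trans hdvd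
    have hq2 : q ≠ 2 := fun e =>
      Nat.not_even_iff_odd.mpr hodd (even_iff_two_dvd.mpr (e ▸ hqm))
    have hdiv : m / q ∣ m := Nat.div_dvd_of_dvd hqm
    have hodd' : Odd (m / q) := Odd.of_dvd_nat hodd hdiv
    have hcop : ∀ r n : ℕ, r.Prime → r ≠ 2 → r ^ n ∣ 2 ^ a * m → r ^ n ∣ m := fun r n hr hr2 hd =>
      (Nat.Coprime.pow n a ((Nat.coprime_primes hr Nat.prime_two).mpr hr2)).dvd_of_dvd_mul_left hd
    have hp2' : ¬ p ^ 2 ∣ 2 ^ a * m := fun hd => hp2 (hcop p 2 h.prime h.ne_two hd)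
    have hcube' : ∀ r : ℕ, r.Prime → r ≠ p → ¬ r ^ 3 ∣ 2 ^ a * m := fun r hr hrp hd => by
      by_cases hr2 : r = 2
      · subst hr2
        have h8 : (2 : ℕ) ^ 3 ∣ 2 ^ a :=
          ((Nat.coprime_two_left.mpr hodd).pow_left 3).dvd_of_dvd_mul_right hd
        have : 3 ≤ a := (Nat.pow_dvd_pow_iff_le_right (by norm_num)).mp h8
        omega
      · exact hcube r hr hrp (hcop r 3 hr hr2 hd)
    have hnew := hA p W h (2 ^ a * m) q hres hp2' hcube' hq hqp hq2
      (hdvd.trans (dvd_mul_left m _))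
    rw [Nat.mul_div_assoc _ hqm, lcm_two_pow_mul_four ha hodd'] at hnew
    exact ih (m / q) (div_prime_lt hodd.pos hq) 2 le_rfl hodd' hnew
      (fun hd => hp2 (hd.trans hdiv)) (fun r hr hrp hd => hcube r hr hrp (hd.trans hdiv))

/-- Squares are removed from the level. -/
theorem exists_squarefree_level (hA : SqDescent) (hA₂ : SqDescentTwo) (h : LiftingCurve p W)
    {M : ℕ} (hM : 0 < M)
    (hres : W.IsResiduallyModularOfLevel p M) (hp2 : ¬ p ^ 2 ∣ M)
    (hcube : ∀ r : ℕ, r.Prime → r ≠ p → ¬ r ^ 3 ∣ M) :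
    ∃ M' : ℕ, Squarefree M' ∧ W.IsResiduallyModularOfLevel p M' := by
  obtain ⟨a, m, hodd, rfl⟩ := Nat.exists_eq_two_pow_mul_odd hM.ne'
  have ha : a ≤ 2 := by
    by_contra hlt
    exact hcube 2 Nat.prime_two h.ne_two.symm
      ((pow_dvd_pow 2 (by omega)).trans (dvd_mul_right _ _))
  have hm : m ∣ 2 ^ a * m := dvd_mul_left _ _
  obtain ⟨a', ha', m', hodd', hsf, hres'⟩ := exists_squarefree_odd_part hA h m a ha hodd hres
    (fun hd => hp2 (hd.trans hm)) (fun r hr hrp hd => hcube r hr hrp (hd.trans hm))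
  have h2 : Squarefree (2 * m') :=
    (Nat.squarefree_mul_iff).mpr ⟨Nat.coprime_two_left.mpr hodd', Nat.prime_two.squarefree, hsf⟩
  interval_cases a'
  · exact ⟨m', hsf, by simpa using hres'⟩
  · exact ⟨2 * m', h2, by simpa using hres'⟩
  · exact ⟨2 * m', h2, hA₂ p W h m' hsf hodd' (by simpa using hres')⟩

/-- Good reduction at `p` takes `p` out of the level. -/
theorem exists_level_bad_at (hB : LowerP) (h : LiftingCurve p W) {M : ℕ} (hsf : Squarefree M)
    (hres : W.IsResiduallyModularOfLevel p M) :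
    ∃ M' : ℕ, Squarefree M' ∧ (p ∣ M' → ¬ W.IsGoodPrimeFor p) ∧
      W.IsResiduallyModularOfLevel p M' := by
  by_cases hp : p ∣ M ∧ W.IsGoodPrimeFor p
  · refine ⟨M / p, squarefree_div hsf hp.1, fun hd => absurd ?_
      (Nat.squarefree_iff_prime_squarefree.mp hsf p h.prime), hB p W h M hsf hp.2 hp.1 hres⟩
    exact Nat.mul_dvd_of_dvd_div hp.1 hd
  · exact ⟨M, hsf, fun hd hg => hp ⟨hd, hg⟩, hres⟩

/-- Unramified primes leave the level. -/
theorem exists_minimal_level (hC : LowerQ) (h : LiftingCurve p W) {M : ℕ} (hsf : Squarefree M)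
    (hbad : p ∣ M → ¬ W.IsGoodPrimeFor p) (hres : W.IsResiduallyModularOfLevel p M) :
    ∃ M' : ℕ, Squarefree M' ∧ (p ∣ M' → ¬ W.IsGoodPrimeFor p) ∧
      (∀ q : ℕ, q.Prime → q ≠ p → q ∣ M' → ¬ TorsUnramifiedAt W p q) ∧
      W.IsResiduallyModularOfLevel p M' := by
  induction M using Nat.strong_induction_on with
  | _ M ih =>
    by_cases hmin : ∀ q : ℕ, q.Prime → q ≠ p → q ∣ M → ¬ TorsUnramifiedAt W p q
    · exact ⟨M, hsf, hbad, hmin, hres⟩
    push Not at hmin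
    obtain ⟨q, hq, hqp, hqM, hunr⟩ := hmin
    exact ih (M / q) (div_prime_lt hsf.ne_zero.bot_lt hq) (squarefree_div hsf hqM)
      (fun hd => hbad (hd.trans (Nat.div_dvd_of_dvd hqM)))
      (hC p W h M q hsf hbad hq hqp hqM hunr hres)

/-- Modularity lifting at `p ∈ {3, 5}` from a squarefree level. -/
theorem modularityLifting_threeFive_of_squarefree (hB : LowerP) (hC : LowerQ)
    (hL : LiftFromMinimal) (h58 : ConductorMatching) (h : LiftingCurve p W) {M₁ : ℕ}
    (hsf₁ : Squarefree M₁) (hres₁ : W.IsResiduallyModularOfLevel p M₁) :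
    Mlc1IsModularModelOfExactConductorLevel W := by
  have : Fact p.Prime := ⟨h.prime⟩
  obtain ⟨M₂, hsf₂, hbad₂, hres₂⟩ := exists_level_bad_at hB h hsf₁ hres₁
  obtain ⟨M₃, hsf₃, hbad₃, hmin, hres₃⟩ := exists_minimal_level hC h hsf₂ hbad₂ hres₂
  obtain ⟨N, -, hpN, hN3, hN, hmod⟩ := hL p W h M₃ hsf₃ hbad₃ hmin hres₃
  exact ⟨W.conductorLevel, W.conductorLevel_pos, W.squarefree_conductorLevel,
    fun q hq => W.prime_dvd_conductorLevel_iff h.hΔ hq,
    h58 W h.semistable N p h.ne_two h.irreducible hpN hmod hN hN3⟩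

/-- Modularity lifting at `p ∈ {3, 5}` from the interface statements. -/
theorem modularityLifting_threeFive_of (hA : SqDescent) (hA₂ : SqDescentTwo)
    (hB : LowerP) (hC : LowerQ)
    (hL : LiftFromMinimal) (h58 : ConductorMatching) (h : LiftingCurve p W) {M₀ : ℕ}
    (hM₀pos : 0 < M₀) (hres : W.IsResiduallyModularOfLevel p M₀) (hM₀ : ¬ p ^ 2 ∣ M₀)
    (hcube : ∀ q : ℕ, q.Prime → q ≠ p → ¬ q ^ 3 ∣ M₀) :
    Mlc1IsModularModelOfExactConductorLevel W := by
  obtain ⟨M₁, hsf₁, hres₁⟩ := exists_squarefree_level hA hA₂ h hM₀pos hres hM₀ hcube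
  exact modularityLifting_threeFive_of_squarefree hB hC hL h58 h hsf₁ hres₁

end FLTA.RT
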