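import Fermat.Agent.Patching.Avoidance
import Fermat.Agent.Patching.PowerSeriesLevels

/-!
# The patched contradiction for level lowering at `q ≡ 1 mod p`

`AvoidSystem` records the character-side Taylor–Wiles levels: free modules over quotients of
`S = O⟦y₁, …, y_r⟧` with an action of one Noetherian local ring `P₀` (the power series ring in
the site coordinates, the extra generators and the diamond variables).
`AvoidSystem.false_scalar` and `AvoidSystem.false_nonscalar` are the two residual cases at `q`.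
-/

set_option autoImplicit false

noncomputable section

namespace FLTA.RT

open IsLocalRing

/-- The levels of a patched system on the character side at `q`. -/
structure AvoidSystem (O : Type) [CommRing O] [IsDomain O] [IsDiscreteValuationRing O]
    (ϖ : O) (r d : ℕ) (P₀ : Type) [CommRing P₀] : Type 1 where
  /-- the diamond relations -/
  J : ℕ → Ideal (MvPowerSeries (Fin r) O)
  J_le : ∀ n, J n ≤ maximalIdeal (MvPowerSeries (Fin r) O) ^ n
  /-- the level modules -/
  N : ℕ → Type
  [instAddCommGroup : ∀ n, AddCommGroup (N n)]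
  [instModule : ∀ n, Module (MvPowerSeries (Fin r) O ⧸ J n) (N n)]
  basis : ∀ n, Module.Basis (Fin d) (MvPowerSeries (Fin r) O ⧸ J n) (N n)
  act : ∀ n, P₀ →+* Module.End (MvPowerSeries (Fin r) O ⧸ J n) (N n)
  /-- constants and diamond variables inside `P₀` -/
  σ : MvPowerSeries (Fin r) O →+* P₀
  act_σ : ∀ n s (x : N n), act n (σ s) x = Ideal.Quotient.mk (J n) s • x

attribute [instance] AvoidSystem.instAddCommGroup AvoidSystem.instModule

namespace AvoidSystem

variable {O : Type} [CommRing O] [IsDomain O] [IsDiscreteValuationRing O]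
  {ϖ : O} {r d : ℕ} {P₀ : Type} [CommRing P₀]

/-- The relations holding at every level. -/
def rels (X : AvoidSystem O ϖ r d P₀) : Ideal P₀ := ⨅ n, RingHom.ker (X.act n)

lemma mem_rels_iff {X : AvoidSystem O ϖ r d P₀} {f : P₀} :
    f ∈ X.rels ↔ ∀ n, X.act n f = 0 := by
  simp [rels]

/-- The associated level system. -/
def levels (X : AvoidSystem O ϖ r d P₀) :
    Patching.LevelSystem (MvPowerSeries (Fin r) O) P₀ d :=
  Patching.LevelSystem.ofModules X.J X.J_le X.N X.basis X.act

variable [IsAdicComplete (maximalIdeal O) O] [Finite (ResidueField O)] [IsLocalRing P₀]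
  [IsNoetherianRing P₀] [IsAdicComplete (maximalIdeal P₀) P₀] [NeZero d]

/-- The elements congruent modulo `I` to a relation at every level (the witnesses in `I` may
depend on the level). -/
def relsMod (X : AvoidSystem O ϖ r d P₀) (I : Ideal P₀) : Ideal P₀ :=
  ⨅ n, RingHom.ker (X.act n) ⊔ I

omit [IsAdicComplete (maximalIdeal O) O] [Finite (ResidueField O)] [IsLocalRing P₀] [IsNoetherianRing P₀]
  [IsAdicComplete (maximalIdeal P₀) P₀] [NeZero d] in
lemma sup_le_relsMod (X : AvoidSystem O ϖ r d P₀) (I : Ideal P₀) : X.rels ⊔ I ≤ X.relsMod I :=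
  le_iInf fun n => sup_le_sup_right (iInf_le _ n) I

/-- `f N ⊆ ϖ N` at every level. -/
def DivUniformizer (X : AvoidSystem O ϖ r d P₀) (f : P₀) : Prop :=
  ∀ n (x : X.N n), X.act n f x ∈
    ((Ideal.span {MvPowerSeries.C ϖ}).map (Ideal.Quotient.mk (X.J n))) •
      (⊤ : Submodule (MvPowerSeries (Fin r) O ⧸ X.J n) (X.N n))

local notation "PS" => MvPowerSeries (Fin r) O

/-- The patched module of an avoidance system. -/
theorem exists_patched (hfinP : ∀ N, Finite (P₀ ⧸ maximalIdeal P₀ ^ N)) (hϖ : maximalIdeal O = Ideal.span {ϖ}) (hϖ0 : ϖ ≠ 0)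
    (X : AvoidSystem O ϖ r d P₀) :
    ∃ (M : Type) (_ : AddCommGroup M) (_ : Module P₀ M) (ss : List P₀),
      Module.Finite P₀ M ∧ Nontrivial M ∧ X.σ (MvPowerSeries.C ϖ) ∈ maximalIdeal P₀ ∧
      ss.length = r ∧ (∀ s ∈ ss, s ∈ maximalIdeal P₀) ∧
      RingTheory.Sequence.IsWeaklyRegular M (X.σ (MvPowerSeries.C ϖ) :: ss) ∧
      X.rels ≤ Module.annihilator P₀ M ∧
      (∀ I, X.relsMod I ≤ Module.annihilator P₀ M ⊔ I) ∧
      ∀ f, X.DivUniformizer f → ∀ m : M,
        f • m ∈ Submodule.map (LinearMap.lsmul P₀ M (X.σ (MvPowerSeries.C ϖ))) ⊤ := by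
  classical
  have : IsAdicComplete (maximalIdeal PS) PS := Deformation.isAdicComplete_powerSeries O r
  have hfin : ∀ N, Finite (PS ⧸ maximalIdeal PS ^ N) := fun N => Deformation.finite_quotient O N
  let L := X.levels
  let : Module P₀ (Fin d → PS) := L.patchModule hfin
  have hscal : ∀ s, L.patch hfin (X.σ s) = Matrix.scalar (Fin d) s := by
    intro s
    refine Matrix.ext fun i j => sub_eq_zero.mp ((Submodule.mem_bot PS).mp
      (L.patch_sub_const_mem hfin ⊥ (Matrix.scalar (Fin d) s) (fun n i j x hx => ?_) i j))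
    have h := Patching.LevelSystem.ofModules_rep_scalar (J := X.J) (hJ := X.J_le) (b := X.basis)
      (act := X.act) (n := n) (f := X.σ s) (s := s) (X.act_σ n s)
    rw [bot_sup_eq]
    refine Ideal.Quotient.eq.mp (hx.trans ?_)
    exact congrFun (congrFun h i) j
  have hsmul : ∀ (s : PS) (v : Fin d → PS), X.σ s • v = s • v := fun s v => by
    rw [L.patchModule_smul_def hfin, hscal, Matrix.scalar_apply]
    ext j
    simp [Matrix.mulVec_diagonal]
  have hloc : ∀ s ∈ maximalIdeal PS, X.σ s ∈ maximalIdeal P₀ := by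
    intro s hs hu
    refine hs ?_
    have := hu.map (L.patch hfin)
    rw [hscal, Matrix.isUnit_iff_isUnit_det, Matrix.scalar_apply, Matrix.det_diagonal,
      Finset.prod_const, isUnit_pow_iff] at this
    · exact this
    · simpa using NeZero.ne d
  have hCm : (MvPowerSeries.C ϖ : PS) ∈ maximalIdeal PS := by
    have : ϖ ∈ maximalIdeal O := hϖ ▸ Ideal.mem_span_singleton_self ϖ
    simpa [MvPowerSeries.isUnit_iff_constantCoeff] using this
  refine ⟨Fin d → PS, inferInstance, inferInstance,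
    (List.ofFn (MvPowerSeries.X : Fin r → PS)).map X.σ,
    L.patchModule_finite hfin fun s => ⟨X.σ s, hscal s⟩, inferInstance, hloc _ hCm, by simp,
    ?_, ?_, ?_, ?_, ?_⟩
  · intro f hf
    obtain ⟨s, hs, rfl⟩ := List.mem_map.mp hf
    obtain ⟨i, rfl⟩ := (List.mem_ofFn' _ _).mp hs
    exact hloc _ (by simp [MvPowerSeries.isUnit_iff_constantCoeff])
  · refine L.patchModule_isWeaklyRegular hfin
      (ss := MvPowerSeries.C ϖ :: List.ofFn (MvPowerSeries.X : Fin r → PS)) ?_
      (Patching.isWeaklyRegular_uniformizer_cons hϖ0 (hϖ ▸ Ideal.mem_span_singleton_self ϖ))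
    exact List.Forall₂.cons (hscal _)
      (List.forall₂_map_left_iff.mpr (List.forall₂_same.mpr fun s _ => hscal s))
  · intro f hf
    refine Module.mem_annihilator.mpr fun v => ?_
    rw [L.patchModule_smul_def hfin, L.patch_eq_zero hfin (Filter.Eventually.of_forall fun n =>
      Patching.LevelSystem.ofModules_rep_eq_zero (mem_rels_iff.mp hf n)), Matrix.zero_mulVec]
  · intro I w hw
    rw [relsMod, Ideal.mem_iInf] at hw
    obtain ⟨F, hFI, hF⟩ := L.exists_mem_patch_eq hfin hfinP I (w := w) fun n => by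
      obtain ⟨u, hu, f, hf, rfl⟩ := Submodule.mem_sup.mp (hw n)
      refine ⟨f, hf, ?_⟩
      rw [add_sub_cancel_right]
      exact Patching.LevelSystem.ofModules_rep_eq_zero (RingHom.mem_ker.mp hu)
    rw [show w = (w - F) + F by ring]
    refine add_mem (Ideal.mem_sup_left (Module.mem_annihilator.mpr fun v => ?_))
      (Ideal.mem_sup_right hFI)
    rw [L.patchModule_smul_def hfin, hF, Matrix.zero_mulVec]
  · intro f hf v
    have hent : ∀ i j, L.patch hfin f i j ∈ Ideal.span {(MvPowerSeries.C ϖ : PS)} := fun i j => by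
      simpa using L.patch_sub_const_mem hfin (Ideal.span {(MvPowerSeries.C ϖ : PS)}) 0
        (fun n i j x hx => by
          have h := Patching.LevelSystem.ofModules_mem_of_range (hJ := X.J_le) (b := X.basis)
            (act := X.act) (fun y => hf n y) hx
          rw [Matrix.zero_apply, sub_zero]
          exact h) i j
    choose B hB using fun i j => Ideal.mem_span_singleton'.mp (hent i j)
    refine ⟨(Matrix.of B).mulVec v, trivial, ?_⟩
    show X.σ (MvPowerSeries.C ϖ) • _ = f • v
    rw [hsmul, L.patchModule_smul_def hfin, ← Matrix.smul_mulVec]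
    congr 1
    refine Matrix.ext fun i j => ?_
    rw [Matrix.smul_apply, Matrix.of_apply, smul_eq_mul, mul_comm, hB]

open scoped Pointwise in
/-- Residual Frobenius at `q` scalar: `x, y, z` and `a, b, c` are the trace-free coordinates of
inertia and Frobenius, `g` the other `≤ r - 3` generators (extra sites included). -/
theorem false_scalar (hfinP : ∀ N, Finite (P₀ ⧸ maximalIdeal P₀ ^ N)) (hϖ : maximalIdeal O = Ideal.span {ϖ}) (hϖ0 : ϖ ≠ 0)
    (X : AvoidSystem O ϖ r d P₀) {m : ℕ} (ε : Fin m → ℕ) (hε : ∀ j, ε j ≠ 0) (us : Fin m → Oˣ) (x y z a b c : P₀) {k : ℕ}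
    (g : Fin k → P₀) (hk : k + 3 ≤ r)
    (hcoord : ∀ e ∈ [x, y, z, a, b, c], e ∈ maximalIdeal P₀) (hg : ∀ i, g i ∈ maximalIdeal P₀)
    (hgen : maximalIdeal P₀ ≤ (X.relsMod
      (Ideal.span ({X.σ (MvPowerSeries.C ϖ), x, y, z, a, b, c} ∪ Set.range g))).radical)
    (hrel : ∏ j, (x * x + y * z -
      X.σ (MvPowerSeries.C ϖ) ^ ε j * X.σ (MvPowerSeries.C (us j : O))) ∈ X.rels)
    (hxb : x * b - y * a ∈ X.rels) (hxc : x * c - z * a ∈ X.rels)
    (hyc : y * c - z * b ∈ X.rels) (hD : X.DivUniformizer (a * a + b * c)) : False := by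
  obtain ⟨M, _, _, ss, hfin, hnt, hϖm, hlen, hss, hreg, hann, hmod, hdiv⟩ := X.exists_patched hfinP hϖ hϖ0
  refine Patching.false_of_scalar (M := M) _ ss hϖm hss hreg
    ε hε (fun j => X.σ (MvPowerSeries.C (us j : O)))
    (fun j => ((us j).isUnit.map MvPowerSeries.C).map X.σ) x y z a b c g (by omega) hcoord hg
    (hgen.trans (Ideal.radical_mono (hmod _))) (hann hrel) (hann hxb) (hann hxc)
    (hann hyc) fun m => ?_
  exact hdiv _ hD m

open scoped Pointwise in
/-- Residual Frobenius at `q` non-scalar: inertia is `u₀ + v Φ`, `D` the discriminant of `Φ`,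
`g` the other `≤ r - 1` generators. -/
theorem false_nonscalar (hfinP : ∀ N, Finite (P₀ ⧸ maximalIdeal P₀ ^ N)) (hϖ : maximalIdeal O = Ideal.span {ϖ}) (hϖ0 : ϖ ≠ 0)
    (X : AvoidSystem O ϖ r d P₀) {m : ℕ} (ε : Fin m → ℕ) (ws : Fin m → Oˣ) (v D : P₀) {k : ℕ}
    (g : Fin k → P₀) (hk : k + 1 ≤ r) (hv : v ∈ maximalIdeal P₀)
    (hg : ∀ i, g i ∈ maximalIdeal P₀)
    (hgen : maximalIdeal P₀ ≤
      (X.relsMod (Ideal.span ({X.σ (MvPowerSeries.C ϖ), v, D} ∪ Set.range g))).radical)
    (hrel : ∏ j, (v * v * D -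
      X.σ (MvPowerSeries.C ϖ) ^ ε j * X.σ (MvPowerSeries.C (ws j : O))) ∈ X.rels)
    (hD : X.DivUniformizer D) : False := by
  obtain ⟨M, _, _, ss, hfin, hnt, hϖm, hlen, hss, hreg, hann, hmod, hdiv⟩ := X.exists_patched hfinP hϖ hϖ0
  refine Patching.false_of_nonscalar (M := M) _ ss hϖm hss hreg
    ε (fun j => X.σ (MvPowerSeries.C (ws j : O)))
    (fun j => ((ws j).isUnit.map MvPowerSeries.C).map X.σ) v D g (by omega) hv hg
    (hgen.trans (Ideal.radical_mono (hmod _))) (hann hrel) fun m => ?_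
  exact hdiv _ hD m

end AvoidSystem

end FLTA.RT
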